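/-
PROJECT H (S18), block C, slice H-C6c (helper13): THE TWO FORM ISOMORPHISMS BY DEGREE COUNT.

Abstract part (`section Abstract`): `E ⊆ F0` a finite field extension, `E'/E` any field extension,
`F'` a finite field extension of `E'` with an `E`-algebra map `ι : F0 → F'` such that `F'` is
generated over `E'` by `ι(F0)`. If `[F0 : E] ≤ [F' : E']` then the natural map
`E' ⊗[E] F0 → F'` is bijective (`formEquiv`), degrees agree (`finrank_eq_of_form`) and an
`E`-basis of `F0` maps to an `E'`-basis of `F'` (`basisOfForm`).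

Instances:
 (i)  char 0: `E = ℚ(j) ⊆ F0 = ℚ(j(q^d) : d ∣ N)`, `E' = ℚ̄(j) ⊆ F' = F_L = modularFunctionFieldBar N`;
 (ii) char ℓ: `E = 𝔽_ℓ(j̄) ⊆ Fl0 = 𝔽_ℓ(j̄(q^d))`, `E' = k(j̄) ⊆ F_k = modularFunctionFieldFullC k N`.
-/
import Fermat.Agent.S28.DegreeQ
import Fermat.Agent.S18.B.FkBasics

set_option autoImplicit false

noncomputable section

namespace Fermat.Agent.S18.C.Forms

open TensorProduct

/-! ### Abstract form isomorphism -/

section Abstract

variable {E F0 E' F' : Type*} [Field E] [Field F0] [Field E'] [Field F']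
  [Algebra E F0] [Algebra E E'] [Algebra E' F'] [Algebra E F'] [IsScalarTower E E' F']
  (ι : F0 →ₐ[E] F')

/-- The natural map `E' ⊗[E] F0 → F'`, `a ⊗ x ↦ a · ι x`. -/
def formMap : E' ⊗[E] F0 →ₐ[E'] F' :=
  Algebra.TensorProduct.productLeftAlgHom (Algebra.ofId E' F') ι

@[simp] theorem formMap_tmul (a : E') (x : F0) :
    formMap ι (a ⊗ₜ[E] x) = algebraMap E' F' a * ι x := by
  simp [formMap, Algebra.TensorProduct.productLeftAlgHom, Algebra.ofId_apply]

theorem formMap_one_tmul (x : F0) : formMap ι ((1 : E') ⊗ₜ[E] x) = ι x := by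
  rw [formMap_tmul, map_one, one_mul]

/-- If `F'` is algebraic over `E'` and generated over `E'` by `ι(F0)`, the natural map
`E' ⊗[E] F0 → F'` is surjective (its range is a subalgebra of an algebraic extension, hence a
field). -/
theorem formMap_surjective [Algebra.IsAlgebraic E' F']
    (hgen : IntermediateField.adjoin E' (Set.range ι) = ⊤) :
    Function.Surjective (formMap (E' := E') ι) := by
  have hfield : IsField (formMap (E' := E') ι).range := Subalgebra.isField_of_algebraic _
  have hle : IntermediateField.adjoin E' (Set.range ι)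
      ≤ Subalgebra.toIntermediateField' (formMap (E' := E') ι).range hfield := by
    rw [IntermediateField.adjoin_le_iff]
    rintro _ ⟨x, rfl⟩
    exact ⟨(1 : E') ⊗ₜ[E] x, formMap_one_tmul ι x⟩
  rw [hgen] at hle
  intro y
  exact hle (IntermediateField.mem_top (F := E') (E := F') (x := y))

variable [FiniteDimensional E F0] [FiniteDimensional E' F']

theorem finrank_tensor : Module.finrank E' (E' ⊗[E] F0) = Module.finrank E F0 :=
  Module.finrank_baseChange

/-- **Form isomorphism, abstract version**: the natural map is bijective as soon as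
`[F0 : E] ≤ [F' : E']`. -/
theorem formMap_bijective (hgen : IntermediateField.adjoin E' (Set.range ι) = ⊤)
    (hdeg : Module.finrank E F0 ≤ Module.finrank E' F') :
    Function.Bijective (formMap (E' := E') ι) := by
  have hsurj := formMap_surjective (E' := E') ι hgen
  have h1 : Module.finrank E' F' ≤ Module.finrank E' (E' ⊗[E] F0) :=
    LinearMap.finrank_le_finrank_of_surjective (f := (formMap (E' := E') ι).toLinearMap) hsurj
  have h2 : Module.finrank E' (E' ⊗[E] F0) = Module.finrank E' F' :=
    le_antisymm (by rw [finrank_tensor]; exact hdeg) h1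
  have h3 := LinearMap.injective_iff_surjective_of_finrank_eq_finrank h2
    (f := (formMap (E' := E') ι).toLinearMap)
  exact ⟨h3.mpr hsurj, hsurj⟩

/-- Degrees can only drop: `[F' : E'] ≤ [F0 : E]` as soon as `F'` is generated by `ι(F0)`. -/
theorem finrank_le_of_form (hgen : IntermediateField.adjoin E' (Set.range ι) = ⊤) :
    Module.finrank E' F' ≤ Module.finrank E F0 := by
  rw [← finrank_tensor (E := E) (F0 := F0) (E' := E')]
  exact LinearMap.finrank_le_finrank_of_surjective (f := (formMap (E' := E') ι).toLinearMap)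
    (formMap_surjective (E' := E') ι hgen)

theorem finrank_eq_of_form (hgen : IntermediateField.adjoin E' (Set.range ι) = ⊤)
    (hdeg : Module.finrank E F0 ≤ Module.finrank E' F') :
    Module.finrank E F0 = Module.finrank E' F' := by
  refine le_antisymm hdeg ?_
  rw [← finrank_tensor (E := E) (F0 := F0) (E' := E')]
  exact LinearMap.finrank_le_finrank_of_surjective (f := (formMap (E' := E') ι).toLinearMap)
    (formMap_surjective (E' := E') ι hgen)

/-- The form isomorphism `E' ⊗[E] F0 ≃ₐ[E'] F'`. -/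
def formEquiv (hgen : IntermediateField.adjoin E' (Set.range ι) = ⊤)
    (hdeg : Module.finrank E F0 ≤ Module.finrank E' F') : E' ⊗[E] F0 ≃ₐ[E'] F' :=
  AlgEquiv.ofBijective (formMap (E' := E') ι) (formMap_bijective ι hgen hdeg)

@[simp] theorem formEquiv_tmul (hgen : IntermediateField.adjoin E' (Set.range ι) = ⊤)
    (hdeg : Module.finrank E F0 ≤ Module.finrank E' F') (a : E') (x : F0) :
    formEquiv ι hgen hdeg (a ⊗ₜ[E] x) = algebraMap E' F' a * ι x :=
  formMap_tmul ι a x

/-- An `E`-basis of `F0` maps to an `E'`-basis of `F'`. -/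
def basisOfForm (hgen : IntermediateField.adjoin E' (Set.range ι) = ⊤)
    (hdeg : Module.finrank E F0 ≤ Module.finrank E' F') {κ : Type*}
    (b : Module.Basis κ E F0) : Module.Basis κ E' F' :=
  (Algebra.TensorProduct.basis E' b).map (formEquiv ι hgen hdeg).toLinearEquiv

@[simp] theorem basisOfForm_apply (hgen : IntermediateField.adjoin E' (Set.range ι) = ⊤)
    (hdeg : Module.finrank E F0 ≤ Module.finrank E' F') {κ : Type*}
    (b : Module.Basis κ E F0) (i : κ) : basisOfForm ι hgen hdeg b i = ι (b i) := by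
  rw [basisOfForm, Module.Basis.map_apply, Algebra.TensorProduct.basis_apply]
  exact formMap_one_tmul ι (b i)

theorem linearIndependent_of_form (hgen : IntermediateField.adjoin E' (Set.range ι) = ⊤)
    (hdeg : Module.finrank E F0 ≤ Module.finrank E' F') {κ : Type*}
    (b : Module.Basis κ E F0) : LinearIndependent E' (fun i => ι (b i)) := by
  have h := (basisOfForm ι hgen hdeg b).linearIndependent
  have h2 : (⇑(basisOfForm ι hgen hdeg b)) = fun i => ι (b i) :=
    funext (basisOfForm_apply ι hgen hdeg b)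
  rwa [h2] at h

theorem span_eq_top_of_form (hgen : IntermediateField.adjoin E' (Set.range ι) = ⊤)
    (hdeg : Module.finrank E F0 ≤ Module.finrank E' F') {κ : Type*}
    (b : Module.Basis κ E F0) : Submodule.span E' (Set.range fun i => ι (b i)) = ⊤ := by
  have h := (basisOfForm ι hgen hdeg b).span_eq
  have h2 : (⇑(basisOfForm ι hgen hdeg b)) = fun i => ι (b i) :=
    funext (basisOfForm_apply ι hgen hdeg b)
  rwa [h2] at h

end Abstract

/-! ### Generic simple-adjoin setting

`K ⊆ L` fields, `F0 / K` and `F' / L` field extensions, `e : F0 → F'` a ring homomorphism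
compatible with `K → L`, `x : F0`, `x' = e x`. Then `e` restricts to `K(x) → L(x')`, which makes
`L(x')` and `F'` into `K(x)`-algebras (NOT global instances), and `e` a `K(x)`-algebra map. -/

section Generic

open IntermediateField

variable {K L F0 F' : Type*} [Field K] [Field L] [Field F0] [Field F'] [Algebra K L]
  [Algebra K F0] [Algebra L F'] (e : F0 →+* F')
  (he : ∀ r : K, e (algebraMap K F0 r) = algebraMap L F' (algebraMap K L r))
  (x : F0) (x' : F') (hx' : e x = x')

include he hx' in
theorem map_mem_adjoin (y : F0) (hy : y ∈ K⟮x⟯) : e y ∈ L⟮x'⟯ := by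
  induction hy using IntermediateField.adjoin_induction with
  | mem y hy =>
    rw [Set.mem_singleton_iff] at hy
    rw [hy, hx']
    exact mem_adjoin_simple_self L x'
  | algebraMap r =>
    rw [he]
    exact IntermediateField.algebraMap_mem _ _
  | add y z _ _ hy hz => rw [map_add]; exact add_mem hy hz
  | inv y _ hy => rw [map_inv₀]; exact inv_mem hy
  | mul y z _ _ hy hz => rw [map_mul]; exact mul_mem hy hz

/-- The ring homomorphism `K(x) → L(x')` induced by `e`. -/
def mapJ : ↥K⟮x⟯ →+* ↥L⟮x'⟯ :=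
  e.restrict K⟮x⟯ L⟮x'⟯ (map_mem_adjoin e he x x' hx')

@[simp] theorem coe_mapJ (a : ↥K⟮x⟯) : ((mapJ e he x x' hx' a : ↥L⟮x'⟯) : F') = e (a : F0) := rfl

/-- `L(x')` as a `K(x)`-algebra. NOT a global instance. -/
@[reducible] def algJ : Algebra ↥K⟮x⟯ ↥L⟮x'⟯ := (mapJ e he x x' hx').toAlgebra

/-- `F'` as a `K(x)`-algebra. NOT a global instance. -/
@[reducible] def algJF (x : F0) : Algebra ↥K⟮x⟯ F' :=
  (e.comp (algebraMap ↥K⟮x⟯ F0)).toAlgebra

theorem isScalarTower_J :
    letI := algJ e he x x' hx'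
    letI := algJF (K := K) e x
    IsScalarTower ↥K⟮x⟯ ↥L⟮x'⟯ F' :=
  letI := algJ e he x x' hx'
  letI := algJF (K := K) e x
  IsScalarTower.of_algebraMap_eq (fun _ => rfl)

/-- `e` as a `K(x)`-algebra homomorphism. -/
def embAlgHom (x : F0) :
    letI := algJF (K := K) e x
    F0 →ₐ[↥K⟮x⟯] F' :=
  letI := algJF (K := K) e x
  { e with commutes' := fun _ => rfl }

@[simp] theorem embAlgHom_apply (y : F0) : embAlgHom (K := K) e x y = e y := rfl

omit [Algebra K L] in
/-- If `F'` is generated over `L` by the images of a family in `F0`, it is generated over `L(x')`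
by `e(F0)`. -/
theorem adjoin_range_embAlgHom_eq_top {ι : Type*} (g : ι → F0)
    (hg : IntermediateField.adjoin L (Set.range fun i => e (g i)) = ⊤) :
    letI := algJF (K := K) e x
    IntermediateField.adjoin ↥L⟮x'⟯ (Set.range (embAlgHom (K := K) e x)) = ⊤ := by
  let _ := algJF (K := K) e x
  rw [eq_top_iff]
  intro y _
  have hy : y ∈ IntermediateField.adjoin L (Set.range fun i => e (g i)) := by
    rw [hg]; exact IntermediateField.mem_top
  induction hy using IntermediateField.adjoin_induction with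
  | mem z hz =>
    obtain ⟨i, rfl⟩ := hz
    exact IntermediateField.subset_adjoin _ _ ⟨g i, rfl⟩
  | algebraMap r =>
    have h2 : algebraMap L F' r = algebraMap ↥L⟮x'⟯ F' (algebraMap L ↥L⟮x'⟯ r) := rfl
    rw [h2]
    exact IntermediateField.algebraMap_mem _ _
  | add y z _ _ hy hz => exact add_mem (hy trivial) (hz trivial)
  | inv y _ hy => exact inv_mem (hy trivial)
  | mul y z _ _ hy hz => exact mul_mem (hy trivial) (hz trivial)

section Main

variable [FiniteDimensional ↥K⟮x⟯ F0] [FiniteDimensional ↥L⟮x'⟯ F'] {ι : Type*} (g : ι → F0)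
  (hg : IntermediateField.adjoin L (Set.range fun i => e (g i)) = ⊤)
  (hdeg : Module.finrank ↥K⟮x⟯ F0 ≤ Module.finrank ↥L⟮x'⟯ F')

include he hx' hg in
theorem finrank_le_gen : Module.finrank ↥L⟮x'⟯ F' ≤ Module.finrank ↥K⟮x⟯ F0 :=
  letI := algJ e he x x' hx'
  letI := algJF (K := K) e x
  haveI := isScalarTower_J e he x x' hx'
  finrank_le_of_form (embAlgHom (K := K) e x) (adjoin_range_embAlgHom_eq_top e x x' g hg)

include he hx' hg hdeg in
theorem finrank_eq_gen : Module.finrank ↥K⟮x⟯ F0 = Module.finrank ↥L⟮x'⟯ F' :=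
  letI := algJ e he x x' hx'
  letI := algJF (K := K) e x
  haveI := isScalarTower_J e he x x' hx'
  finrank_eq_of_form (embAlgHom (K := K) e x)
    (adjoin_range_embAlgHom_eq_top e x x' g hg) hdeg

/-- **Form isomorphism, simple-adjoin version**: `L(x') ⊗_{K(x)} F0 ≃ F'`. -/
def formEquivGen :
    letI := algJ e he x x' hx'
    ↥L⟮x'⟯ ⊗[↥K⟮x⟯] F0 ≃ₐ[↥L⟮x'⟯] F' :=
  letI := algJ e he x x' hx'
  letI := algJF (K := K) e x
  haveI := isScalarTower_J e he x x' hx'
  formEquiv (embAlgHom (K := K) e x)
    (adjoin_range_embAlgHom_eq_top e x x' g hg) hdeg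

theorem formEquivGen_tmul (a : ↥L⟮x'⟯) (y : F0) :
    letI := algJ e he x x' hx'
    formEquivGen e he x x' hx' g hg hdeg (a ⊗ₜ y) = (a : F') * e y :=
  letI := algJ e he x x' hx'
  letI := algJF (K := K) e x
  haveI := isScalarTower_J e he x x' hx'
  formEquiv_tmul (embAlgHom (K := K) e x)
    (adjoin_range_embAlgHom_eq_top e x x' g hg) hdeg a y

/-- A `K(x)`-basis of `F0` maps to an `L(x')`-basis of `F'`. -/
def basisGen {κ : Type*} (b : Module.Basis κ ↥K⟮x⟯ F0) : Module.Basis κ ↥L⟮x'⟯ F' :=
  letI := algJ e he x x' hx'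
  letI := algJF (K := K) e x
  haveI := isScalarTower_J e he x x' hx'
  basisOfForm (embAlgHom (K := K) e x)
    (adjoin_range_embAlgHom_eq_top e x x' g hg) hdeg b

@[simp] theorem basisGen_apply {κ : Type*} (b : Module.Basis κ ↥K⟮x⟯ F0) (i : κ) :
    basisGen e he x x' hx' g hg hdeg b i = e (b i) :=
  letI := algJ e he x x' hx'
  letI := algJF (K := K) e x
  haveI := isScalarTower_J e he x x' hx'
  basisOfForm_apply (embAlgHom (K := K) e x)
    (adjoin_range_embAlgHom_eq_top e x x' g hg) hdeg b i

end Main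

end Generic


/-! ### (i) characteristic `0`: `ℚ̄(j) ⊗_{ℚ(j)} F0 = F_L` -/

section CharZero

open ModularCurve ModularCurve.IgusaScheme IntermediateField
open Fermat.Agent.S24.DegreeAlg Fermat.Agent.S28.DegreeQ

local notation "Kb" => AlgebraicClosure ℚ

-- As in `S28/DegreeQ.lean`: on `↥F0` we use the `ℚ`-algebra structure of `IntermediateField`.
attribute [-instance] DivisionRing.toRatAlgebra

variable (N : ℕ) [NeZero N]

/-- The embedding `F0 = ℚ(j(q^d) : d ∣ N) → F_L`, restriction of `coeffEmb ℚ̄`. -/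
def embBar : ↥(modularFunctionFieldFull N) →+* ↥(modularFunctionFieldBar N) :=
  (coeffEmb Kb).restrict (modularFunctionFieldFull N) (modularFunctionFieldBar N)
    (fun _ hx => coeffEmb_mem_laurentBaseChange Kb hx)

omit [NeZero N] in
@[simp] theorem coe_embBar (x : ↥(modularFunctionFieldFull N)) :
    ((embBar N x : ↥(modularFunctionFieldBar N)) : LaurentSeries Kb)
      = coeffEmb Kb (x : LaurentSeries ℚ) := rfl

theorem embBar_jFull : embBar N (jFull N) = jgen N :=
  Subtype.ext (coe_jgen N).symm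

theorem embBar_jdF (d : {d : ℕ // d ∣ N}) : embBar N (jdF N d) = jdivF N d :=
  Subtype.ext (coeffEmb_jd N d)

omit [NeZero N] in
theorem embBar_algebraMap (r : ℚ) :
    embBar N (algebraMap ℚ ↥(modularFunctionFieldFull N) r)
      = algebraMap Kb ↥(modularFunctionFieldBar N) (algebraMap ℚ Kb r) :=
  Subtype.ext (coeffEmb_algebraMap Kb r)

theorem adjoin_range_embBar_jdF :
    IntermediateField.adjoin Kb (Set.range fun d => embBar N (jdF N d)) = ⊤ := by
  have h : (fun d => embBar N (jdF N d)) = jdivF N := funext (embBar_jdF N)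
  rw [h]
  exact adjoin_range_jdivF_eq_top N

theorem finrank_bar_eq_dedekindPsi :
    Module.finrank ↥Kb⟮jgen N⟯ ↥(modularFunctionFieldBar N) = dedekindPsi N := by
  rw [Fermat.Agent.S24.Degree.finrank_eq_card]
  exact psi_eq N

theorem finrank_le_finrank_bar :
    Module.finrank ↥ℚ⟮jFull N⟯ ↥(modularFunctionFieldFull N)
      ≤ Module.finrank ↥Kb⟮jgen N⟯ ↥(modularFunctionFieldBar N) := by
  rw [finrank_bar_eq_dedekindPsi]
  exact finrank_full_le_dedekindPsi N

/-- **`[F0 : ℚ(j)] = [F_L : ℚ̄(j)]`.** -/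
theorem finrank_full_eq_finrank_bar :
    Module.finrank ↥ℚ⟮jFull N⟯ ↥(modularFunctionFieldFull N)
      = Module.finrank ↥Kb⟮jgen N⟯ ↥(modularFunctionFieldBar N) :=
  haveI := finiteDimensional_full N
  haveI := Fermat.Agent.S24.Degree.finiteDimensional N
  finrank_eq_gen (embBar N) (embBar_algebraMap N) (jFull N) (jgen N) (embBar_jFull N) (jdF N)
    (adjoin_range_embBar_jdF N) (finrank_le_finrank_bar N)

/-- **`[F0 : ℚ(j)] = ψ(N)`.** -/
theorem finrank_full_eq_dedekindPsi :
    Module.finrank ↥ℚ⟮jFull N⟯ ↥(modularFunctionFieldFull N) = dedekindPsi N :=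
  (finrank_full_eq_finrank_bar N).trans (finrank_bar_eq_dedekindPsi N)

/-- `ℚ̄(j)` as a `ℚ(j)`-algebra (through `coeffEmb`). NOT a global instance. -/
@[reducible] def algJBar :=
  algJ (embBar N) (embBar_algebraMap N) (jFull N) (jgen N) (embBar_jFull N)

/-- **Form isomorphism (i)**: `ℚ̄(j) ⊗_{ℚ(j)} F0 ≃ₐ[ℚ̄(j)] F_L` (tensor product with respect to
`algJBar N`). -/
def formEquivBar :=
  haveI := finiteDimensional_full N
  haveI := Fermat.Agent.S24.Degree.finiteDimensional N
  formEquivGen (embBar N) (embBar_algebraMap N) (jFull N) (jgen N) (embBar_jFull N) (jdF N)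
    (adjoin_range_embBar_jdF N) (finrank_le_finrank_bar N)

theorem formEquivBar_tmul (a : ↥Kb⟮jgen N⟯) (y : ↥(modularFunctionFieldFull N)) :
    letI := algJBar N
    formEquivBar N (a ⊗ₜ y) = (a : ↥(modularFunctionFieldBar N)) * embBar N y :=
  haveI := finiteDimensional_full N
  haveI := Fermat.Agent.S24.Degree.finiteDimensional N
  formEquivGen_tmul (embBar N) (embBar_algebraMap N) (jFull N) (jgen N) (embBar_jFull N) (jdF N)
    (adjoin_range_embBar_jdF N) (finrank_le_finrank_bar N) a y

/-- A `ℚ(j)`-basis of `F0` is a `ℚ̄(j)`-basis of `F_L`. -/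
def basisBar {κ : Type*} (b : Module.Basis κ ↥ℚ⟮jFull N⟯ ↥(modularFunctionFieldFull N)) :
    Module.Basis κ ↥Kb⟮jgen N⟯ ↥(modularFunctionFieldBar N) :=
  haveI := finiteDimensional_full N
  haveI := Fermat.Agent.S24.Degree.finiteDimensional N
  basisGen (embBar N) (embBar_algebraMap N) (jFull N) (jgen N) (embBar_jFull N) (jdF N)
    (adjoin_range_embBar_jdF N) (finrank_le_finrank_bar N) b

@[simp] theorem basisBar_apply {κ : Type*}
    (b : Module.Basis κ ↥ℚ⟮jFull N⟯ ↥(modularFunctionFieldFull N)) (i : κ) :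
    basisBar N b i = embBar N (b i) :=
  haveI := finiteDimensional_full N
  haveI := Fermat.Agent.S24.Degree.finiteDimensional N
  basisGen_apply (embBar N) (embBar_algebraMap N) (jFull N) (jgen N) (embBar_jFull N) (jdF N)
    (adjoin_range_embBar_jdF N) (finrank_le_finrank_bar N) b i

end CharZero

/-! ### (ii) extension of the constant field of `F_k`: `k(J) ⊗_{k0(J)} F_{k0} = F_k`

`k0 ⊆ k` any extension of fields (in the application `k0 = 𝔽_ℓ`, `k = ResidueField A`). -/

section ConstantExtension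

open ModularCurve IntermediateField
open Fermat.Agent.S18.B.FkBasics

variable (k0 k : Type*) [Field k0] [Field k] [Algebra k0 k] (N : ℕ) [NeZero N]

omit [NeZero N] in
theorem coeffMap_algebraMap_const (c : k0) :
    coeffMap (algebraMap k0 k) (algebraMap k0 (LaurentSeries k0) c)
      = algebraMap k (LaurentSeries k) (algebraMap k0 k c) := by
  rw [algebraMap_laurentSeries_eq_single, algebraMap_laurentSeries_eq_single, coeffMap_single]

omit [NeZero N] in
/-- `coeffMap` along `k0 → k` maps `F_{k0}` into `F_k`. -/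
theorem coeffMap_mem_full {y : LaurentSeries k0} (hy : y ∈ modularFunctionFieldFullC k0 N) :
    coeffMap (algebraMap k0 k) y ∈ modularFunctionFieldFullC k N := by
  change y ∈ IntermediateField.adjoin k0 (divisorExpansionsC k0 N) at hy
  induction hy using IntermediateField.adjoin_induction with
  | mem x hx =>
    obtain ⟨d, hne, hdvd, rfl⟩ := hx
    rw [coeffMap_qExpand, coeffMap_jqModC]
    exact jqModCd_mem_full k N hdvd
  | algebraMap r =>
    rw [coeffMap_algebraMap_const]
    exact IntermediateField.algebraMap_mem _ _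
  | add y z _ _ hy hz => rw [map_add]; exact add_mem hy hz
  | inv y _ hy => rw [map_inv₀]; exact inv_mem hy
  | mul y z _ _ hy hz => rw [map_mul]; exact mul_mem hy hz

/-- The embedding `F_{k0} → F_k`, restriction of `coeffMap`. -/
def embK : ↥(modularFunctionFieldFullC k0 N) →+* ↥(modularFunctionFieldFullC k N) :=
  (coeffMap (algebraMap k0 k)).restrict (modularFunctionFieldFullC k0 N)
    (modularFunctionFieldFullC k N) (fun _ hx => coeffMap_mem_full k0 k N hx)

omit [NeZero N] in
@[simp] theorem coe_embK (x : ↥(modularFunctionFieldFullC k0 N)) :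
    ((embK k0 k N x : ↥(modularFunctionFieldFullC k N)) : LaurentSeries k)
      = coeffMap (algebraMap k0 k) (x : LaurentSeries k0) := rfl

omit [NeZero N] in
theorem embK_jk : embK k0 k N (jk k0 N) = jk k N :=
  Subtype.ext (coeffMap_jqModC (algebraMap k0 k))

theorem embK_jdk (d : {d : ℕ // d ∣ N}) : embK k0 k N (jdk k0 N d) = jdk k N d := by
  have : NeZero d.1 := Fermat.Agent.S24.DegreeAlg.neZero_of_dvd d.2
  apply Subtype.ext
  show coeffMap (algebraMap k0 k) (qExpand k0 d.1 (jqModC k0)) = qExpand k d.1 (jqModC k)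
  rw [coeffMap_qExpand, coeffMap_jqModC]

omit [NeZero N] in
theorem embK_algebraMap (r : k0) :
    embK k0 k N (algebraMap k0 ↥(modularFunctionFieldFullC k0 N) r)
      = algebraMap k ↥(modularFunctionFieldFullC k N) (algebraMap k0 k r) :=
  Subtype.ext (coeffMap_algebraMap_const k0 k r)

theorem adjoin_range_embK_jdk :
    IntermediateField.adjoin k (Set.range fun d => embK k0 k N (jdk k0 N d)) = ⊤ := by
  have h : (fun d => embK k0 k N (jdk k0 N d)) = jdk k N := funext (embK_jdk k0 k N)
  rw [h]
  exact adjoin_range_jdk_eq_top k N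

/-- `k(J)` as a `k0(J)`-algebra (through `coeffMap`). NOT a global instance. -/
@[reducible] def algJK :=
  algJ (embK k0 k N) (embK_algebraMap k0 k N) (jk k0 N) (jk k N) (embK_jk k0 k N)

/-- Extending the constant field can only lower the degree over `k(J)`. -/
theorem finrank_fullC_le :
    Module.finrank ↥k⟮jk k N⟯ ↥(modularFunctionFieldFullC k N)
      ≤ Module.finrank ↥k0⟮jk k0 N⟯ ↥(modularFunctionFieldFullC k0 N) :=
  haveI := finiteDimensional_full k0 N
  haveI := finiteDimensional_full k N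
  finrank_le_gen (embK k0 k N) (embK_algebraMap k0 k N) (jk k0 N) (jk k N) (embK_jk k0 k N)
    (jdk k0 N) (adjoin_range_embK_jdk k0 k N)

section Deg

variable (hdeg : Module.finrank ↥k0⟮jk k0 N⟯ ↥(modularFunctionFieldFullC k0 N)
    ≤ Module.finrank ↥k⟮jk k N⟯ ↥(modularFunctionFieldFullC k N))

include hdeg in
theorem finrank_fullC_eq_of_le :
    Module.finrank ↥k0⟮jk k0 N⟯ ↥(modularFunctionFieldFullC k0 N)
      = Module.finrank ↥k⟮jk k N⟯ ↥(modularFunctionFieldFullC k N) :=
  haveI := finiteDimensional_full k0 N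
  haveI := finiteDimensional_full k N
  finrank_eq_gen (embK k0 k N) (embK_algebraMap k0 k N) (jk k0 N) (jk k N) (embK_jk k0 k N)
    (jdk k0 N) (adjoin_range_embK_jdk k0 k N) hdeg

/-- **Form isomorphism (ii)**: `k(J) ⊗_{k0(J)} F_{k0} ≃ₐ[k(J)] F_k` (tensor product with respect to
`algJK k0 k N`), as soon as `[F_{k0} : k0(J)] ≤ [F_k : k(J)]`. -/
def formEquivK :=
  haveI := finiteDimensional_full k0 N
  haveI := finiteDimensional_full k N
  formEquivGen (embK k0 k N) (embK_algebraMap k0 k N) (jk k0 N) (jk k N) (embK_jk k0 k N)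
    (jdk k0 N) (adjoin_range_embK_jdk k0 k N) hdeg

theorem formEquivK_tmul (a : ↥k⟮jk k N⟯) (y : ↥(modularFunctionFieldFullC k0 N)) :
    letI := algJK k0 k N
    formEquivK k0 k N hdeg (a ⊗ₜ y) = (a : ↥(modularFunctionFieldFullC k N)) * embK k0 k N y :=
  haveI := finiteDimensional_full k0 N
  haveI := finiteDimensional_full k N
  formEquivGen_tmul (embK k0 k N) (embK_algebraMap k0 k N) (jk k0 N) (jk k N) (embK_jk k0 k N)
    (jdk k0 N) (adjoin_range_embK_jdk k0 k N) hdeg a y

/-- A `k0(J)`-basis of `F_{k0}` is a `k(J)`-basis of `F_k`. -/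
def basisK {κ : Type*}
    (b : Module.Basis κ ↥k0⟮jk k0 N⟯ ↥(modularFunctionFieldFullC k0 N)) :
    Module.Basis κ ↥k⟮jk k N⟯ ↥(modularFunctionFieldFullC k N) :=
  haveI := finiteDimensional_full k0 N
  haveI := finiteDimensional_full k N
  basisGen (embK k0 k N) (embK_algebraMap k0 k N) (jk k0 N) (jk k N) (embK_jk k0 k N)
    (jdk k0 N) (adjoin_range_embK_jdk k0 k N) hdeg b

@[simp] theorem basisK_apply {κ : Type*}
    (b : Module.Basis κ ↥k0⟮jk k0 N⟯ ↥(modularFunctionFieldFullC k0 N)) (i : κ) :
    basisK k0 k N hdeg b i = embK k0 k N (b i) :=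
  haveI := finiteDimensional_full k0 N
  haveI := finiteDimensional_full k N
  basisGen_apply (embK k0 k N) (embK_algebraMap k0 k N) (jk k0 N) (jk k N) (embK_jk k0 k N)
    (jdk k0 N) (adjoin_range_embK_jdk k0 k N) hdeg b i

end Deg

/-! With `k` algebraically closed and `(N : k) ≠ 0` the lower bound `ψ(N) ≤ [F_k : k(J)]` is
`FkBasics.psi_le_finrank` (Igusa, S28); the upper bound `[F_{k0} : k0(J)] ≤ ψ(N)` over the small
field is an input (for `k0 = 𝔽_ℓ` it comes from the Gauss valuation ring `OwFull`). -/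

section AlgClosed

variable [IsAlgClosed k] (hN : (N : k) ≠ 0)
  (hle : Module.finrank ↥k0⟮jk k0 N⟯ ↥(modularFunctionFieldFullC k0 N) ≤ dedekindPsi N)

include hN hle

omit [Algebra k0 k] in
theorem finrank_le_finrank_fullC :
    Module.finrank ↥k0⟮jk k0 N⟯ ↥(modularFunctionFieldFullC k0 N)
      ≤ Module.finrank ↥k⟮jk k N⟯ ↥(modularFunctionFieldFullC k N) :=
  hle.trans (psi_le_finrank k N hN)

/-- **`[F_k : k(J)] = ψ(N)`** (given the upper bound over `k0`). -/
theorem finrank_fullC_eq_dedekindPsi :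
    Module.finrank ↥k⟮jk k N⟯ ↥(modularFunctionFieldFullC k N) = dedekindPsi N :=
  le_antisymm
    ((finrank_fullC_eq_of_le k0 k N (finrank_le_finrank_fullC k0 k N hN hle)).symm.le.trans hle)
    (psi_le_finrank k N hN)

/-- **`[F_{k0} : k0(J)] = ψ(N)`** (given the upper bound). -/
theorem finrank_fullC_small_eq_dedekindPsi :
    Module.finrank ↥k0⟮jk k0 N⟯ ↥(modularFunctionFieldFullC k0 N) = dedekindPsi N :=
  (finrank_fullC_eq_of_le k0 k N (finrank_le_finrank_fullC k0 k N hN hle)).trans
    (finrank_fullC_eq_dedekindPsi k0 k N hN hle)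

/-- Form isomorphism (ii) for `k` algebraically closed with `(N : k) ≠ 0`. -/
def formEquivKOfLe := formEquivK k0 k N (finrank_le_finrank_fullC k0 k N hN hle)

end AlgClosed

end ConstantExtension

end Fermat.Agent.S18.C.Forms

end
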