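import Fermat.Agent.S18.A.Chart
import Fermat.Agent.S18.A.Instances
import Fermat.Agent.S18.B.FkBasics
import Fermat.Agent.S28.DegreeQ

/-!
# PROJECT H (S18), block C: the `j`-line structures of the three modular function fields
(architect file, helper17)

The `j`-line of block C is `RatFunc K` (`X = j`).  This file fixes, once and for all, the algebra
structures `RatFunc K → F` (`X ↦ j`) on

* `F0 = modularFunctionFieldFull N`      (`K = ℚ`, `j = jFull N`),
* `FL = modularFunctionFieldBar N`       (`K = ℚ̄`, `j = S24.DegreeAlg.jgen N`),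
* `Fk = modularFunctionFieldFullC k N`   (any field `k`, `j = FkBasics.jk k N`),

as GLOBAL instances (there is no other `Algebra (RatFunc _) _` instance on these types), with
`algebraMap_eq : algebraMap (RatFunc K) F = Chart.evalRat _`, the scalar towers over the constants,
and `algebraMap_X`.
-/

set_option autoImplicit false

noncomputable section

namespace Fermat.Agent.S18.C.ModularInst

open ModularCurve ModularCurve.IgusaScheme Fermat.Agent.S18.A

local notation "Kb" => AlgebraicClosure ℚ

variable (N : ℕ) [NeZero N]

/-! ### `F0` over `ℚ(j)` -/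

theorem transcendental_jFull : Transcendental ℚ (jFull N) :=
  Fermat.Agent.S28.DegreeQ.transcendental_jFull_of_algebra N

instance algF0 : Algebra (RatFunc ℚ) ↥(modularFunctionFieldFull N) :=
  Chart.ratAlgebra (transcendental_jFull N)

theorem algebraMap_F0 (a : RatFunc ℚ) :
    algebraMap (RatFunc ℚ) ↥(modularFunctionFieldFull N) a =
      Chart.evalRat (transcendental_jFull N) a := rfl

@[simp]
theorem algebraMap_F0_X :
    algebraMap (RatFunc ℚ) ↥(modularFunctionFieldFull N) RatFunc.X = jFull N := by
  rw [algebraMap_F0, Chart.evalRat_X]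

instance : IsScalarTower ℚ (RatFunc ℚ) ↥(modularFunctionFieldFull N) :=
  Chart.isScalarTower_ratAlgebra (transcendental_jFull N)

/-! ### `FL` over `ℚ̄(j)` -/

theorem transcendental_jgen : Transcendental Kb (Fermat.Agent.S24.DegreeAlg.jgen N) :=
  (Instances.isFF_jgen N).transcendental

instance algFL : Algebra (RatFunc Kb) ↥(modularFunctionFieldBar N) :=
  Chart.ratAlgebra (transcendental_jgen N)

theorem algebraMap_FL (a : RatFunc Kb) :
    algebraMap (RatFunc Kb) ↥(modularFunctionFieldBar N) a =
      Chart.evalRat (transcendental_jgen N) a := rfl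

@[simp]
theorem algebraMap_FL_X :
    algebraMap (RatFunc Kb) ↥(modularFunctionFieldBar N) RatFunc.X =
      Fermat.Agent.S24.DegreeAlg.jgen N := by
  rw [algebraMap_FL, Chart.evalRat_X]

instance : IsScalarTower Kb (RatFunc Kb) ↥(modularFunctionFieldBar N) :=
  Chart.isScalarTower_ratAlgebra (transcendental_jgen N)

/-! ### `Fk` over `k(j)` -/

variable (k : Type*) [Field k]

instance algFk : Algebra (RatFunc k) ↥(modularFunctionFieldFullC k N) :=
  Chart.ratAlgebra (Fermat.Agent.S18.B.FkBasics.transcendental_jk k N)

theorem algebraMap_Fk (a : RatFunc k) :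
    algebraMap (RatFunc k) ↥(modularFunctionFieldFullC k N) a =
      Chart.evalRat (Fermat.Agent.S18.B.FkBasics.transcendental_jk k N) a := rfl

@[simp]
theorem algebraMap_Fk_X :
    algebraMap (RatFunc k) ↥(modularFunctionFieldFullC k N) RatFunc.X =
      Fermat.Agent.S18.B.FkBasics.jk k N := by
  rw [algebraMap_Fk, Chart.evalRat_X]

instance : IsScalarTower k (RatFunc k) ↥(modularFunctionFieldFullC k N) :=
  Chart.isScalarTower_ratAlgebra (Fermat.Agent.S18.B.FkBasics.transcendental_jk k N)

end Fermat.Agent.S18.C.ModularInst
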