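import Mathlib

/-!
# PROJECT H (S18), block C: shared definitions (architect file, helper17)

* `Cover`            : a rational cover `j = P(μ)/Q(μ)` of the `j`-line with INTEGER coefficients
                       (Hesse for `ℓ = 2`, Legendre centred at `λ = -1` for `ℓ = 3`);
* `MuLine c K`       : the field `K(μ) = RatFunc K` regarded as an extension of the `j`-line
                       `K(j) = RatFunc K` through `j ↦ P(μ)/Q(μ)` (type synonym, so that the algebra
                       structure does not clash with `Algebra.id`);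
* `Cover.Gal c K`    : the group `H₀ = Aut(K(μ)/K(j))`;
* `RAlg c K F`       : the algebra `R = F ⊗_{K(j)} K(μ)` for a `K(j)`-algebra `F`;
* `discRing V`       : for a valuation subring `V` of `K`, the local ring `V[μ]_(𝔪_V, μ)` as a
                       subring of `K(μ)` (`B_Q` for `V = ℤ_(ℓ)`, `B_A` for `V = A`);
* `gaussRing V`      : the Gauss valuation ring `V[μ]_(𝔪_V)` of `K(μ)`.
-/

set_option autoImplicit false

noncomputable section

namespace Fermat.Agent.S18.C.Defs

open Polynomial TensorProduct

/-- A rational cover `j = P(μ) / Q(μ)` of the `j`-line, with integer coefficients. -/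
structure Cover where
  /-- numerator -/
  P : ℤ[X]
  /-- denominator -/
  Q : ℤ[X]

namespace Cover

variable (c : Cover) (K : Type*) [Field K]

/-- the numerator over `K` -/
def PK : K[X] := c.P.map (Int.castRingHom K)

/-- the denominator over `K` -/
def QK : K[X] := c.Q.map (Int.castRingHom K)

/-- `j` as a rational function of `μ`. -/
def jOf : RatFunc K :=
  algebraMap K[X] (RatFunc K) (c.PK K) / algebraMap K[X] (RatFunc K) (c.QK K)

/-- The cover is nonconstant over `K`. -/
class Good : Prop where
  transc : Transcendental K (c.jOf K)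

end Cover

/-- The `μ`-line `K(μ)`, as a type synonym of `RatFunc K` that remembers the cover. -/
def MuLine (_c : Cover) (K : Type*) [Field K] : Type _ := RatFunc K

namespace MuLine

variable (c : Cover) (K : Type*) [Field K]

instance : Field (MuLine c K) := inferInstanceAs (Field (RatFunc K))

instance : Algebra K (MuLine c K) := inferInstanceAs (Algebra K (RatFunc K))

instance : Algebra K[X] (MuLine c K) := inferInstanceAs (Algebra K[X] (RatFunc K))

instance : IsScalarTower K K[X] (MuLine c K) :=
  inferInstanceAs (IsScalarTower K K[X] (RatFunc K))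

instance : IsFractionRing K[X] (MuLine c K) := inferInstanceAs (IsFractionRing K[X] (RatFunc K))

/-- the identity `RatFunc K → MuLine c K` -/
def of : RatFunc K ≃ₐ[K] MuLine c K := AlgEquiv.refl

/-- the coordinate `μ` -/
def mu : MuLine c K := of c K RatFunc.X

/-- `j = P(μ)/Q(μ)` as an element of the `μ`-line -/
def j : MuLine c K := of c K (c.jOf K)

end MuLine

namespace Cover

variable (c : Cover) (K : Type*) [Field K] [c.Good K]

/-- the inclusion of the `j`-line in the `μ`-line, `j ↦ P(μ)/Q(μ)` -/
def covMap : RatFunc K →ₐ[K] MuLine c K :=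
  RatFunc.liftAlgHom (Polynomial.aeval (MuLine.j c K)) (by
    intro p hp
    have hinj : Function.Injective (Polynomial.aeval (R := K) (MuLine.j c K)) :=
      transcendental_iff_injective.mp (Good.transc (c := c) (K := K))
    rw [Submonoid.mem_comap]
    exact mem_nonZeroDivisors_of_ne_zero
      ((map_ne_zero_iff _ hinj).mpr (nonZeroDivisors.ne_zero hp)))

instance : Algebra (RatFunc K) (MuLine c K) := (c.covMap K).toRingHom.toAlgebra

instance : IsScalarTower K (RatFunc K) (MuLine c K) :=
  IsScalarTower.of_algebraMap_eq fun x => ((c.covMap K).commutes x).symm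

theorem algebraMap_X : algebraMap (RatFunc K) (MuLine c K) RatFunc.X = MuLine.j c K := by
  show c.covMap K RatFunc.X = _
  rw [covMap, RatFunc.liftAlgHom_apply, RatFunc.num_X, RatFunc.denom_X, Polynomial.aeval_X,
    map_one, div_one]

/-- The group `H₀` of the cover: automorphisms of the `μ`-line over the `j`-line. -/
abbrev Gal : Type _ := MuLine c K ≃ₐ[RatFunc K] MuLine c K

end Cover

/-! ### The algebra `R = F ⊗_{K(j)} K(μ)` and the action of `H₀` -/

section RAlg

variable (c : Cover) (K : Type*) [Field K] [c.Good K]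
variable (F : Type*) [CommRing F] [Algebra (RatFunc K) F]

/-- `R = F ⊗_{K(j)} K(μ)`: the (étale) algebra of the fibre product of the curve of `F` with the
`μ`-line over the `j`-line. -/
abbrev RAlg : Type _ := F ⊗[RatFunc K] MuLine c K

/-- The action of `g ∈ H₀` on `R = F ⊗_{K(j)} K(μ)` through the second factor. -/
def galR (g : c.Gal K) : RAlg c K F ≃ₐ[F] RAlg c K F :=
  Algebra.TensorProduct.congr AlgEquiv.refl g

@[simp]
theorem galR_tmul (g : c.Gal K) (f : F) (m : MuLine c K) :
    galR c K F g (f ⊗ₜ[RatFunc K] m) = f ⊗ₜ[RatFunc K] g m := by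
  simp [galR]

theorem galR_one : galR c K F (1 : c.Gal K) = AlgEquiv.refl := by
  ext x
  induction x using TensorProduct.induction_on with
  | zero => simp
  | tmul f m => simp
  | add x y hx hy => simp [hx, hy]

theorem galR_mul (g h : c.Gal K) (x : RAlg c K F) :
    galR c K F (g * h) x = galR c K F g (galR c K F h x) := by
  induction x using TensorProduct.induction_on with
  | zero => simp
  | tmul f m => simp [AlgEquiv.mul_apply]
  | add x y hx hy => simp [hx, hy]

/-- The action of `H₀` on `R`. -/
instance : MulSemiringAction (c.Gal K) (RAlg c K F) where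
  smul g x := galR c K F g x
  one_smul x := by
    show galR c K F 1 x = x
    rw [galR_one]; rfl
  mul_smul g h x := galR_mul c K F g h x
  smul_zero g := map_zero (galR c K F g)
  smul_add g := map_add (galR c K F g)
  smul_one g := map_one (galR c K F g)
  smul_mul g := map_mul (galR c K F g)

theorem smul_def (g : c.Gal K) (x : RAlg c K F) : g • x = galR c K F g x := rfl

@[simp]
theorem smul_tmul' (g : c.Gal K) (f : F) (m : MuLine c K) :
    g • (f ⊗ₜ[RatFunc K] m : RAlg c K F) = f ⊗ₜ[RatFunc K] g m := galR_tmul c K F g f m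

/-- `K(μ) → R`, `m ↦ 1 ⊗ m`. -/
def incMu : MuLine c K →ₐ[RatFunc K] RAlg c K F := Algebra.TensorProduct.includeRight

/-- `F → R`, `f ↦ f ⊗ 1`. -/
def incF : F →ₐ[RatFunc K] RAlg c K F := Algebra.TensorProduct.includeLeft

theorem smul_incMu (g : c.Gal K) (m : MuLine c K) : g • incMu c K F m = incMu c K F (g m) := by
  simp [incMu]

theorem smul_incF (g : c.Gal K) (f : F) : g • incF c K F f = incF c K F f := by
  simp [incF]

end RAlg

/-! ### The local ring `V[μ]_(𝔪_V, μ)` of the `μ`-line over a valuation ring -/

section DiscRing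

variable {K : Type*} [Field K] (V : ValuationSubring K)

/-- polynomials with coefficients in `V` -/
def polyV : Subring K[X] := (Polynomial.mapRingHom V.subtype).range

theorem mem_polyV {p : K[X]} : p ∈ polyV V ↔ ∀ i, p.coeff i ∈ V := by
  constructor
  · rintro ⟨q, rfl⟩ i
    simp
  · intro h
    refine ⟨∑ i ∈ p.support, Polynomial.monomial i (⟨p.coeff i, h i⟩ : V), ?_⟩
    rw [map_sum]
    conv_rhs => rw [p.as_sum_support]
    refine Finset.sum_congr rfl fun i _ => ?_
    simp

/-- `V[μ]_(𝔪_V, μ)` as a subring of `K(μ)`: fractions `a / s` with `a, s ∈ V[μ]` and `s(0)` a unit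
of `V`. -/
def discRing : Subring (RatFunc K) where
  carrier := {f | ∃ a s : K[X], a ∈ polyV V ∧ s ∈ polyV V ∧ V.valuation (s.coeff 0) = 1 ∧
    f * algebraMap K[X] (RatFunc K) s = algebraMap K[X] (RatFunc K) a}
  mul_mem' := by
    rintro f f' ⟨a, s, ha, hs, hs0, h⟩ ⟨a', s', ha', hs', hs0', h'⟩
    refine ⟨a * a', s * s', (polyV V).mul_mem ha ha', (polyV V).mul_mem hs hs', ?_, ?_⟩
    · rw [Polynomial.mul_coeff_zero, map_mul, hs0, hs0', one_mul]
    · rw [map_mul, map_mul, ← h, ← h']; ring
  one_mem' := ⟨1, 1, (polyV V).one_mem, (polyV V).one_mem, by simp, by simp⟩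
  add_mem' := by
    rintro f f' ⟨a, s, ha, hs, hs0, h⟩ ⟨a', s', ha', hs', hs0', h'⟩
    refine ⟨a * s' + a' * s, s * s', (polyV V).add_mem ((polyV V).mul_mem ha hs')
      ((polyV V).mul_mem ha' hs), (polyV V).mul_mem hs hs', ?_, ?_⟩
    · rw [Polynomial.mul_coeff_zero, map_mul, hs0, hs0', one_mul]
    · rw [map_add, map_mul, map_mul, map_mul, ← h, ← h']; ring
  zero_mem' := ⟨0, 1, (polyV V).zero_mem, (polyV V).one_mem, by simp, by simp⟩
  neg_mem' := by
    rintro f ⟨a, s, ha, hs, hs0, h⟩
    exact ⟨-a, s, (polyV V).neg_mem ha, hs, hs0, by rw [map_neg, ← h]; ring⟩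

theorem mem_discRing {f : RatFunc K} : f ∈ discRing V ↔
    ∃ a s : K[X], a ∈ polyV V ∧ s ∈ polyV V ∧ V.valuation (s.coeff 0) = 1 ∧
      f * algebraMap K[X] (RatFunc K) s = algebraMap K[X] (RatFunc K) a := Iff.rfl

theorem algebraMap_mem_discRing {p : K[X]} (hp : p ∈ polyV V) :
    algebraMap K[X] (RatFunc K) p ∈ discRing V :=
  ⟨p, 1, hp, (polyV V).one_mem, by simp, by simp⟩

theorem X_mem_discRing : (RatFunc.X : RatFunc K) ∈ discRing V := by
  rw [← RatFunc.algebraMap_X]
  exact algebraMap_mem_discRing V ((mem_polyV V).mpr fun i => by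
    rw [Polynomial.coeff_X]; split_ifs <;> simp [V.one_mem, V.zero_mem])

end DiscRing

end Fermat.Agent.S18.C.Defs
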