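import Mathlib
import Fermat.Agent.S18.C.Defs

/-!
# PROJECT H (S18), block C, slice H-C7e: structure of `R = F ⊗_{K(j)} K(μ)`

For a cover `c`, a field `K` and a finite field extension `F` of the `j`-line `K(j) = RatFunc K`:

* `muAlgebra`           : the `K(μ)`-algebra structure of `R` through the second factor;
* `muBasis`             : a `K(j)`-basis `b` of `F` gives the `K(μ)`-basis `incF (b i)` of `R`;
* `finite_mu`, `finrank_mu` : `R` is finite over `K(μ)` of rank `[F : K(j)]`;
* `fixed_iff`           : if `K(μ)/K(j)` is Galois, the invariants of `H₀ = Gal c K` on `R` are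
                          exactly `incF F` (Galois descent);
* `isReduced`, `isArtinianRing` (characteristic zero) : `R` is a finite product of fields.
-/

set_option autoImplicit false
set_option linter.style.haveILetI false

noncomputable section

namespace Fermat.Agent.S18.C.RAlgStructure

open Polynomial TensorProduct Fermat.Agent.S18.C.Defs

variable (c : Cover) (K : Type*) [Field K] [c.Good K]
variable (F : Type*) [Field F] [Algebra (RatFunc K) F]

/-! ### the `K(μ)`-algebra structure -/

/-- the `K(μ)`-algebra structure of `R = F ⊗_{K(j)} K(μ)` through the second factor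
(use with `letI`) -/
@[reducible] def muAlgebra : Algebra (MuLine c K) (RAlg c K F) :=
  Algebra.TensorProduct.rightAlgebra

theorem algebraMap_mu (m : MuLine c K) :
    letI := muAlgebra c K F
    algebraMap (MuLine c K) (RAlg c K F) m = incMu c K F m := rfl

theorem mu_smul_def (m : MuLine c K) (x : RAlg c K F) :
    letI := muAlgebra c K F
    m • x = incMu c K F m * x := by
  letI := muAlgebra c K F
  rw [Algebra.smul_def]
  rfl

theorem incMu_apply (m : MuLine c K) : incMu c K F m = (1 : F) ⊗ₜ[RatFunc K] m := rfl

theorem incF_apply (f : F) : incF c K F f = f ⊗ₜ[RatFunc K] (1 : MuLine c K) := rfl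

theorem mu_smul_tmul (m m' : MuLine c K) (f : F) :
    letI := muAlgebra c K F
    m • (f ⊗ₜ[RatFunc K] m' : RAlg c K F) = f ⊗ₜ[RatFunc K] (m * m') := by
  letI := muAlgebra c K F
  rw [mu_smul_def, incMu_apply, Algebra.TensorProduct.tmul_mul_tmul, one_mul]

/-- the semilinearity of the action of `H₀` -/
theorem smul_mu_smul (g : c.Gal K) (m : MuLine c K) (x : RAlg c K F) :
    letI := muAlgebra c K F
    g • (m • x) = (g m) • (g • x) := by
  letI := muAlgebra c K F
  rw [mu_smul_def, mu_smul_def, smul_mul', smul_incMu]

section Basis

variable {ι : Type*} (b : Module.Basis ι (RatFunc K) F)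

/-- a `K(j)`-basis of `F` as a `K(μ)`-basis of `R` -/
def muBasis :
    letI := muAlgebra c K F
    Module.Basis ι (MuLine c K) (RAlg c K F) :=
  letI := muAlgebra c K F
  (Algebra.TensorProduct.basis (MuLine c K) b).map
    (Algebra.TensorProduct.commRight (RatFunc K) (MuLine c K) F).toLinearEquiv

theorem muBasis_apply (i : ι) : muBasis c K F b i = incF c K F (b i) := by
  letI := muAlgebra c K F
  rw [muBasis, Module.Basis.map_apply, Algebra.TensorProduct.basis_apply]
  rfl

/-- the action of `H₀` in coordinates -/
theorem muBasis_repr_smul [Fintype ι] (g : c.Gal K) (x : RAlg c K F) (i : ι) :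
    letI := muAlgebra c K F
    (muBasis c K F b).repr (g • x) i = g ((muBasis c K F b).repr x i) := by
  letI := muAlgebra c K F
  have hx : x = ∑ j, (muBasis c K F b).repr x j • muBasis c K F b j :=
    ((muBasis c K F b).sum_repr x).symm
  have h1 : g • x = ∑ j, g ((muBasis c K F b).repr x j) • muBasis c K F b j := by
    conv_lhs => rw [hx]
    rw [Finset.smul_sum]
    refine Finset.sum_congr rfl fun j _ => ?_
    rw [smul_mu_smul, muBasis_apply, smul_incF]
  conv_lhs => rw [h1]
  rw [(muBasis c K F b).repr_sum_self]

end Basis

theorem incF_injective : Function.Injective (incF c K F) :=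
  Algebra.TensorProduct.includeLeft_injective (S := RatFunc K)
    (algebraMap (RatFunc K) (MuLine c K)).injective

theorem algebraMap_smul_incF (a : RatFunc K) (f : F) :
    letI := muAlgebra c K F
    algebraMap (RatFunc K) (MuLine c K) a • incF c K F f = incF c K F (a • f) := by
  letI := muAlgebra c K F
  rw [incF_apply, incF_apply, mu_smul_tmul, mul_one, TensorProduct.smul_tmul, Algebra.smul_def,
    mul_one]

variable [FiniteDimensional (RatFunc K) F]

theorem finite_mu :
    letI := muAlgebra c K F
    Module.Finite (MuLine c K) (RAlg c K F) := by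
  letI := muAlgebra c K F
  exact Module.Finite.of_basis (muBasis c K F (Module.finBasis (RatFunc K) F))

theorem finrank_mu :
    letI := muAlgebra c K F
    Module.finrank (MuLine c K) (RAlg c K F) = Module.finrank (RatFunc K) F := by
  letI := muAlgebra c K F
  rw [Module.finrank_eq_card_basis (muBasis c K F (Module.finBasis (RatFunc K) F)),
    Fintype.card_fin]

/-- **Galois descent**: the invariants of `H₀` on `R = F ⊗_{K(j)} K(μ)` are `F`. -/
theorem fixed_iff [IsGalois (RatFunc K) (MuLine c K)]
    [FiniteDimensional (RatFunc K) (MuLine c K)] (x : RAlg c K F) :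
    (∀ g : c.Gal K, g • x = x) ↔ x ∈ Set.range (incF c K F) := by
  letI := muAlgebra c K F
  constructor
  · intro h
    set b := Module.finBasis (RatFunc K) F with hb
    have h1 : ∀ i, ∃ a : RatFunc K,
        algebraMap (RatFunc K) (MuLine c K) a = (muBasis c K F b).repr x i := by
      intro i
      have h2 : ∀ g : c.Gal K, g ((muBasis c K F b).repr x i) = (muBasis c K F b).repr x i := by
        intro g
        rw [← muBasis_repr_smul, h g]
      exact (IsGalois.mem_range_algebraMap_iff_fixed _).mpr h2
    choose a ha using h1
    refine ⟨∑ i, a i • b i, ?_⟩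
    rw [map_sum]
    conv_rhs => rw [← (muBasis c K F b).sum_repr x]
    refine Finset.sum_congr rfl fun i _ => ?_
    rw [← algebraMap_smul_incF, ha i, muBasis_apply]
  · rintro ⟨f, rfl⟩ g
    exact smul_incF c K F g f

/-! ### characteristic zero: `R` is a finite product of fields -/

section CharZero

variable [CharZero K]

theorem isReduced : IsReduced (RAlg c K F) := by
  haveI : CharZero (RatFunc K) := inferInstance
  haveI : Algebra.IsSeparable (RatFunc K) F := inferInstance
  haveI : Algebra.FormallyUnramified (RatFunc K) F :=
    Algebra.FormallyUnramified.of_isSeparable (RatFunc K) F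
  haveI : Algebra.FormallyUnramified (MuLine c K) (MuLine c K ⊗[RatFunc K] F) := inferInstance
  haveI : Algebra.EssFiniteType (MuLine c K) (MuLine c K ⊗[RatFunc K] F) := inferInstance
  haveI : IsReduced (MuLine c K ⊗[RatFunc K] F) :=
    Algebra.FormallyUnramified.isReduced_of_field (MuLine c K) (MuLine c K ⊗[RatFunc K] F)
  exact isReduced_of_injective (Algebra.TensorProduct.comm (RatFunc K) F (MuLine c K))
    (Algebra.TensorProduct.comm (RatFunc K) F (MuLine c K)).injective

omit [CharZero K] in
theorem isArtinianRing : IsArtinianRing (RAlg c K F) := by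
  letI := muAlgebra c K F
  haveI := finite_mu c K F
  exact IsArtinianRing.of_finite (MuLine c K) (RAlg c K F)

omit [CharZero K] in
theorem finite_maximalSpectrum : Finite (MaximalSpectrum (RAlg c K F)) := by
  haveI := isArtinianRing c K F
  infer_instance

end CharZero

end Fermat.Agent.S18.C.RAlgStructure
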