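/-
PROJECT H (S18), block C, slice H-C7f (helper13): BASE CHANGE OF `R = F ⊗_{K(j)} K(μ)` ALONG AN
EXTENSION OF THE CONSTANT FIELD.

`K → L` an extension of fields, `c` a cover (good over `K` and over `L`).

* `ratMap K L : RatFunc K →+* RatFunc L`, `muMap c K L : MuLine c K →+* MuLine c L` (extension of
  the coefficients), compatible with the two covering maps (`muMap_algebraMap`);
* for `e : F0 →+* F'` compatible with `ratMap` (`F0` a `K(j)`-algebra, `F'` an `L(j)`-algebra):
  the comparison homomorphism `compR : RAlg c K F0 →+* RAlg c L F'`, `f ⊗ m ↦ e f ⊗ muMap m`;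
* if a `K(j)`-basis `b` of `F0` maps to an `L(j)`-basis `b'` of `F'`, the induced map
  `L(μ) ⊗_{K(μ)} RAlg c K F0 → RAlg c L F'` is an isomorphism (`baseChangeEquiv`);
* instances: (i) `ℚ → ℚ̄`, `F0 → F_L`; (ii) `k0 → k`, `F_{k0} → F_k` (from `C/Forms.lean`).
-/
import Fermat.Agent.S18.C.RAlgStructure
import Fermat.Agent.S18.C.ModularInst
import Fermat.Agent.S18.C.Forms

set_option autoImplicit false
set_option linter.style.haveILetI false

noncomputable section

namespace Fermat.Agent.S18.C.BaseChangeR

open Polynomial TensorProduct Fermat.Agent.S18.C.Defs Fermat.Agent.S18.C.RAlgStructure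

/-! ### Extension of the coefficients of rational functions -/

section RatMap

variable (K L : Type*) [Field K] [Field L] [Algebra K L]

theorem polyMap_injective : Function.Injective (Polynomial.mapRingHom (algebraMap K L)) :=
  Polynomial.map_injective _ (algebraMap K L).injective

/-- Extension of the coefficients `K(X) → L(X)`. -/
def ratMap : RatFunc K →+* RatFunc L :=
  IsLocalization.map (RatFunc L) (Polynomial.mapRingHom (algebraMap K L))
    (nonZeroDivisors_le_comap_nonZeroDivisors_of_injective _ (polyMap_injective K L))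

theorem ratMap_algebraMap (p : K[X]) :
    ratMap K L (algebraMap K[X] (RatFunc K) p)
      = algebraMap L[X] (RatFunc L) (p.map (algebraMap K L)) :=
  IsLocalization.map_eq _ p

@[simp] theorem ratMap_X : ratMap K L RatFunc.X = RatFunc.X := by
  rw [← RatFunc.algebraMap_X, ratMap_algebraMap, Polynomial.map_X, RatFunc.algebraMap_X]

@[simp] theorem ratMap_C (a : K) : ratMap K L (RatFunc.C a) = RatFunc.C (algebraMap K L a) := by
  rw [← RatFunc.algebraMap_C, ratMap_algebraMap, Polynomial.map_C, RatFunc.algebraMap_C]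

theorem ratMap_algebraMap_const (a : K) :
    ratMap K L (algebraMap K (RatFunc K) a) = algebraMap L (RatFunc L) (algebraMap K L a) := by
  rw [RatFunc.algebraMap_eq_C, RatFunc.algebraMap_eq_C, ratMap_C]

/-- Two ring homomorphisms out of `K(X)` which agree on the constants and on `X` are equal. -/
theorem ratFunc_ringHom_ext {S : Type*} [Field S] {f g : RatFunc K →+* S}
    (hC : ∀ a : K, f (RatFunc.C a) = g (RatFunc.C a)) (hX : f RatFunc.X = g RatFunc.X) :
    f = g := by
  refine IsFractionRing.ringHom_ext (A := K[X]) fun p => ?_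
  have h : f.comp (algebraMap K[X] (RatFunc K)) = g.comp (algebraMap K[X] (RatFunc K)) := by
    refine Polynomial.ringHom_ext (fun a => ?_) ?_
    · simp only [RingHom.comp_apply, RatFunc.algebraMap_C]
      exact hC a
    · simp only [RingHom.comp_apply, RatFunc.algebraMap_X]
      exact hX
  exact RingHom.congr_fun h p

end RatMap

/-! ### Extension of the coefficients on the `μ`-line -/

section MuMap

variable (c : Cover) (K L : Type*) [Field K] [Field L] [Algebra K L]

theorem ratMap_jOf : ratMap K L (c.jOf K) = c.jOf L := by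
  have hP : (c.PK K).map (algebraMap K L) = c.PK L := by
    rw [Cover.PK, Cover.PK, Polynomial.map_map]
    congr 1
    exact RingHom.ext_int _ _
  have hQ : (c.QK K).map (algebraMap K L) = c.QK L := by
    rw [Cover.QK, Cover.QK, Polynomial.map_map]
    congr 1
    exact RingHom.ext_int _ _
  rw [Cover.jOf, Cover.jOf, map_div₀, ratMap_algebraMap, ratMap_algebraMap, hP, hQ]

/-- Extension of the coefficients `K(μ) → L(μ)`. -/
def muMap : MuLine c K →+* MuLine c L :=
  ((MuLine.of c L : RatFunc L →+* MuLine c L).comp (ratMap K L)).comp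
    ((MuLine.of c K).symm : MuLine c K →+* RatFunc K)

theorem muMap_of (a : RatFunc K) : muMap c K L (MuLine.of c K a) = MuLine.of c L (ratMap K L a) := by
  simp [muMap]

@[simp] theorem muMap_mu : muMap c K L (MuLine.mu c K) = MuLine.mu c L := by
  rw [MuLine.mu, muMap_of, ratMap_X]
  rfl

@[simp] theorem muMap_j : muMap c K L (MuLine.j c K) = MuLine.j c L := by
  rw [MuLine.j, muMap_of, ratMap_jOf]
  rfl

theorem muMap_algebraMap_const (a : K) :
    muMap c K L (algebraMap K (MuLine c K) a) = algebraMap L (MuLine c L) (algebraMap K L a) := by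
  have h : algebraMap K (MuLine c K) a = MuLine.of c K (algebraMap K (RatFunc K) a) :=
    ((MuLine.of c K).commutes a).symm
  rw [h, muMap_of, ratMap_algebraMap_const]
  exact (MuLine.of c L).commutes _

theorem muMap_injective : Function.Injective (muMap c K L) := (muMap c K L).injective

variable [c.Good K] [c.Good L]

/-- The covering maps `K(j) → K(μ)` and `L(j) → L(μ)` are compatible with the extension of the
coefficients. -/
theorem muMap_algebraMap (a : RatFunc K) :
    muMap c K L (algebraMap (RatFunc K) (MuLine c K) a)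
      = algebraMap (RatFunc L) (MuLine c L) (ratMap K L a) := by
  have h : (muMap c K L).comp (algebraMap (RatFunc K) (MuLine c K))
      = (algebraMap (RatFunc L) (MuLine c L)).comp (ratMap K L) := by
    refine ratFunc_ringHom_ext K (fun r => ?_) ?_
    · simp only [RingHom.comp_apply, ratMap_C]
      rw [← RatFunc.algebraMap_eq_C, ← RatFunc.algebraMap_eq_C,
        ← IsScalarTower.algebraMap_apply K (RatFunc K) (MuLine c K),
        ← IsScalarTower.algebraMap_apply L (RatFunc L) (MuLine c L), muMap_algebraMap_const]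
    · simp only [RingHom.comp_apply, ratMap_X]
      rw [Cover.algebraMap_X, Cover.algebraMap_X, muMap_j]
  exact RingHom.congr_fun h a

end MuMap

/-! ### The comparison homomorphism `RAlg c K F0 → RAlg c L F'` -/

section Comp

variable (c : Cover) (K L : Type*) [Field K] [Field L] [Algebra K L] [c.Good K] [c.Good L]
variable {F0 F' : Type*} [CommRing F0] [CommRing F'] [Algebra (RatFunc K) F0]
  [Algebra (RatFunc L) F'] (e : F0 →+* F')
  (he : ∀ a : RatFunc K, e (algebraMap (RatFunc K) F0 a) = algebraMap (RatFunc L) F' (ratMap K L a))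

/-- `RAlg c L F'` as a `K(j)`-algebra through the extension of the coefficients (NOT an
instance). -/
@[reducible] def algKR : Algebra (RatFunc K) (RAlg c L F') :=
  ((algebraMap (RatFunc L) (RAlg c L F')).comp (ratMap K L)).toAlgebra

/-- `f ↦ e f ⊗ 1` as a `K(j)`-algebra map. -/
def compF :
    letI := algKR c K L (F' := F')
    F0 →ₐ[RatFunc K] RAlg c L F' :=
  letI := algKR c K L (F' := F')
  { toRingHom := (incF c L F').toRingHom.comp e
    commutes' := fun a => by
      show incF c L F' (e (algebraMap (RatFunc K) F0 a)) = _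
      rw [he]
      exact (incF c L F').commutes _ }

/-- `m ↦ 1 ⊗ muMap m` as a `K(j)`-algebra map. -/
def compMu :
    letI := algKR c K L (F' := F')
    MuLine c K →ₐ[RatFunc K] RAlg c L F' :=
  letI := algKR c K L (F' := F')
  { toRingHom := (incMu c L F').toRingHom.comp (muMap c K L)
    commutes' := fun a => by
      show incMu c L F' (muMap c K L (algebraMap (RatFunc K) (MuLine c K) a)) = _
      rw [muMap_algebraMap]
      exact (incMu c L F').commutes _ }

/-- **The comparison homomorphism** `F0 ⊗_{K(j)} K(μ) → F' ⊗_{L(j)} L(μ)`,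
`f ⊗ m ↦ e f ⊗ muMap m`. -/
def compR : RAlg c K F0 →+* RAlg c L F' :=
  letI := algKR c K L (F' := F')
  (Algebra.TensorProduct.productMap (compF c K L e he) (compMu c K L (F' := F'))).toRingHom

@[simp] theorem compR_tmul (f : F0) (m : MuLine c K) :
    compR c K L e he (f ⊗ₜ[RatFunc K] m) = e f ⊗ₜ[RatFunc L] muMap c K L m := by
  letI := algKR c K L (F' := F')
  show Algebra.TensorProduct.productMap (compF c K L e he) (compMu c K L (F' := F'))
    (f ⊗ₜ[RatFunc K] m) = _
  rw [Algebra.TensorProduct.productMap_apply_tmul]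
  show incF c L F' (e f) * incMu c L F' (muMap c K L m) = _
  rw [incF, incMu, Algebra.TensorProduct.includeLeft_apply,
    Algebra.TensorProduct.includeRight_apply, Algebra.TensorProduct.tmul_mul_tmul, mul_one,
    one_mul]

theorem compR_incF (f : F0) : compR c K L e he (incF c K F0 f) = incF c L F' (e f) := by
  show compR c K L e he (f ⊗ₜ[RatFunc K] (1 : MuLine c K)) = _
  rw [compR_tmul, map_one]
  rfl

theorem compR_incMu (m : MuLine c K) :
    compR c K L e he (incMu c K F0 m) = incMu c L F' (muMap c K L m) := by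
  show compR c K L e he ((1 : F0) ⊗ₜ[RatFunc K] m) = _
  rw [compR_tmul, map_one]
  rfl

end Comp

/-! ### The base change isomorphism `L(μ) ⊗_{K(μ)} RAlg c K F0 ≃ RAlg c L F'` -/

section Iso

variable (c : Cover) (K L : Type*) [Field K] [Field L] [Algebra K L] [c.Good K] [c.Good L]
variable {F0 F' : Type*} [Field F0] [Field F'] [Algebra (RatFunc K) F0]
  [Algebra (RatFunc L) F'] (e : F0 →+* F')
  (he : ∀ a : RatFunc K, e (algebraMap (RatFunc K) F0 a) = algebraMap (RatFunc L) F' (ratMap K L a))

/-- `L(μ)` as a `K(μ)`-algebra (NOT an instance). -/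
@[reducible] def algMuMu : Algebra (MuLine c K) (MuLine c L) := (muMap c K L).toAlgebra

/-- `RAlg c L F'` as a `K(μ)`-algebra (NOT an instance). -/
@[reducible] def algMuR' : Algebra (MuLine c K) (RAlg c L F') :=
  ((incMu c L F').toRingHom.comp (muMap c K L)).toAlgebra

omit [c.Good K] in
theorem isScalarTower_mu :
    letI := muAlgebra c L F'
    letI := algMuMu c K L
    letI := algMuR' c K L (F' := F')
    IsScalarTower (MuLine c K) (MuLine c L) (RAlg c L F') :=
  letI := muAlgebra c L F'
  letI := algMuMu c K L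
  letI := algMuR' c K L (F' := F')
  IsScalarTower.of_algebraMap_eq (fun _ => rfl)

/-- `compR` as a `K(μ)`-algebra map. -/
def compRAlg :
    letI := muAlgebra c K F0
    letI := algMuR' c K L (F' := F')
    RAlg c K F0 →ₐ[MuLine c K] RAlg c L F' :=
  letI := muAlgebra c K F0
  letI := algMuR' c K L (F' := F')
  { toRingHom := compR c K L e he
    commutes' := fun m => compR_incMu c K L e he m }

/-- The natural map `L(μ) ⊗_{K(μ)} RAlg c K F0 → RAlg c L F'`. -/
def baseChangeMap :
    letI := muAlgebra c K F0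
    letI := muAlgebra c L F'
    letI := algMuMu c K L
    MuLine c L ⊗[MuLine c K] RAlg c K F0 →ₐ[MuLine c L] RAlg c L F' :=
  letI := muAlgebra c K F0
  letI := muAlgebra c L F'
  letI := algMuMu c K L
  letI := algMuR' c K L (F' := F')
  haveI := isScalarTower_mu c K L (F' := F')
  Algebra.TensorProduct.productLeftAlgHom (Algebra.ofId (MuLine c L) (RAlg c L F'))
    (compRAlg c K L e he)

theorem baseChangeMap_tmul (m : MuLine c L) (x : RAlg c K F0) :
    letI := muAlgebra c K F0
    letI := algMuMu c K L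
    baseChangeMap c K L e he (m ⊗ₜ x) = incMu c L F' m * compR c K L e he x := by
  letI := muAlgebra c K F0
  letI := muAlgebra c L F'
  letI := algMuMu c K L
  letI := algMuR' c K L (F' := F')
  haveI := isScalarTower_mu c K L (F' := F')
  simp [baseChangeMap, Algebra.TensorProduct.productLeftAlgHom, Algebra.ofId_apply]
  rfl

variable {ι : Type*} (b : Module.Basis ι (RatFunc K) F0) (b' : Module.Basis ι (RatFunc L) F')
  (hb : ∀ i, b' i = e (b i))

include hb in
/-- If a `K(j)`-basis of `F0` maps to an `L(j)`-basis of `F'`, the base change map is bijective. -/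
theorem baseChangeMap_bijective : Function.Bijective (baseChangeMap c K L e he) := by
  letI := muAlgebra c K F0
  letI := muAlgebra c L F'
  letI := algMuMu c K L
  have h : (baseChangeMap c K L e he).toLinearMap
      = ((Algebra.TensorProduct.basis (MuLine c L) (muBasis c K F0 b)).equiv
          (muBasis c L F' b') (Equiv.refl ι)).toLinearMap := by
    refine (Algebra.TensorProduct.basis (MuLine c L) (muBasis c K F0 b)).ext fun i => ?_
    rw [LinearEquiv.coe_coe, Module.Basis.equiv_apply, Equiv.refl_apply,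
      Algebra.TensorProduct.basis_apply, muBasis_apply, muBasis_apply, AlgHom.toLinearMap_apply,
      baseChangeMap_tmul, map_one, one_mul, compR_incF, hb]
  have h2 : ⇑(baseChangeMap c K L e he)
      = ⇑((Algebra.TensorProduct.basis (MuLine c L) (muBasis c K F0 b)).equiv
          (muBasis c L F' b') (Equiv.refl ι)) := by
    ext x
    exact LinearMap.congr_fun h x
  rw [h2]
  exact LinearEquiv.bijective _

/-- **Base change isomorphism** `L(μ) ⊗_{K(μ)} (F0 ⊗_{K(j)} K(μ)) ≃ F' ⊗_{L(j)} L(μ)`. -/
def baseChangeEquiv :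
    letI := muAlgebra c K F0
    letI := muAlgebra c L F'
    letI := algMuMu c K L
    MuLine c L ⊗[MuLine c K] RAlg c K F0 ≃ₐ[MuLine c L] RAlg c L F' :=
  letI := muAlgebra c K F0
  letI := muAlgebra c L F'
  letI := algMuMu c K L
  AlgEquiv.ofBijective (baseChangeMap c K L e he) (baseChangeMap_bijective c K L e he b b' hb)

theorem baseChangeEquiv_tmul (m : MuLine c L) (x : RAlg c K F0) :
    letI := muAlgebra c K F0
    letI := algMuMu c K L
    baseChangeEquiv c K L e he b b' hb (m ⊗ₜ x) = incMu c L F' m * compR c K L e he x :=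
  baseChangeMap_tmul c K L e he m x

include hb in
/-- `compR` is injective (under the basis hypothesis). -/
theorem compR_injective : Function.Injective (compR c K L e he) := by
  letI := muAlgebra c K F0
  letI := muAlgebra c L F'
  letI := algMuMu c K L
  intro x y hxy
  have h1 : baseChangeMap c K L e he ((1 : MuLine c L) ⊗ₜ x)
      = baseChangeMap c K L e he ((1 : MuLine c L) ⊗ₜ y) := by
    rw [baseChangeMap_tmul, baseChangeMap_tmul, hxy]
  have h2 := (baseChangeMap_bijective c K L e he b b' hb).1 h1
  -- `x ↦ 1 ⊗ x` is injective (faithful flatness of a field extension): use coordinates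
  have h3 : ∀ z : RAlg c K F0, ∀ i,
      (Algebra.TensorProduct.basis (MuLine c L) (muBasis c K F0 b)).repr
        ((1 : MuLine c L) ⊗ₜ z) i = muMap c K L ((muBasis c K F0 b).repr z i) := by
    intro z i
    rw [Algebra.TensorProduct.basis_repr_tmul, one_smul, Finsupp.mapRange_apply]
    rfl
  apply (muBasis c K F0 b).repr.injective
  ext i
  apply muMap_injective c K L
  rw [← h3, ← h3, h2]

end Iso

/-! ### Generic instance: function fields `F0 / K(x)`, `F' / L(x')` with the `Chart.ratAlgebra`
structures -/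

section GenericInst

open IntermediateField Fermat.Agent.S18.A

variable {K L F0 F' : Type*} [Field K] [Field L] [Field F0] [Field F'] [Algebra K L]
  [Algebra K F0] [Algebra L F'] {x : F0} {x' : F'}

/-- Under `Chart.ratAlgebra`, `[F : K(X)] = [F : K(x)]`. -/
theorem finrank_ratAlgebra (hx : Transcendental K x) [FiniteDimensional K⟮x⟯ F0] :
    letI := Chart.ratAlgebra hx
    FiniteDimensional (RatFunc K) F0 ∧
      Module.finrank (RatFunc K) F0 = Module.finrank K⟮x⟯ F0 := by
  letI := Chart.ratAlgebra hx
  let b := Module.finBasis K⟮x⟯ F0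
  let b' := Chart.ratBasis hx (IntermediateField.mem_adjoin_simple_self K x) (Y₀ := RatFunc.X)
    (Chart.evalRat_X hx) b
  exact ⟨Module.Finite.of_basis b', by
    rw [Module.finrank_eq_card_basis b', Fintype.card_fin]⟩

variable (hx : Transcendental K x) (hx' : Transcendental L x') (e : F0 →+* F')
  (he0 : ∀ r : K, e (algebraMap K F0 r) = algebraMap L F' (algebraMap K L r)) (hxx : e x = x')

include he0 hxx in
/-- `e` is compatible with the extension of coefficients of `RatFunc`. -/
theorem map_evalRat (a : RatFunc K) :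
    e (Chart.evalRat hx a) = Chart.evalRat hx' (ratMap K L a) := by
  have h : e.comp (Chart.evalRat hx : RatFunc K →+* F0)
      = (Chart.evalRat hx' : RatFunc L →+* F').comp (ratMap K L) := by
    refine ratFunc_ringHom_ext K (fun r => ?_) ?_
    · simp only [RingHom.comp_apply, ratMap_C, RingHom.coe_coe]
      rw [← RatFunc.algebraMap_eq_C, ← RatFunc.algebraMap_eq_C, AlgHom.commutes, AlgHom.commutes,
        he0]
    · simp only [RingHom.comp_apply, ratMap_X, RingHom.coe_coe]
      rw [Chart.evalRat_X, Chart.evalRat_X, hxx]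
  exact RingHom.congr_fun h a

variable [FiniteDimensional K⟮x⟯ F0] [FiniteDimensional L⟮x'⟯ F'] {κ : Type*} (g : κ → F0)
  (hg : IntermediateField.adjoin L (Set.range fun i => e (g i)) = ⊤)
  (hdeg : Module.finrank K⟮x⟯ F0 ≤ Module.finrank L⟮x'⟯ F')

include he0 hxx hg hdeg in
/-- **Basis transfer in `RatFunc` form**: a `K(X)`-basis of `F0` maps to an `L(X)`-basis of `F'`. -/
theorem exists_basis_map {ι : Type*}
    (b : @Module.Basis ι (RatFunc K) F0 _ _ (Chart.ratAlgebra hx).toModule) :
    ∃ b' : @Module.Basis ι (RatFunc L) F' _ _ (Chart.ratAlgebra hx').toModule,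
      ∀ i, b' i = e (b i) := by
  letI := Chart.ratAlgebra hx
  letI := Chart.ratAlgebra hx'
  haveI := Chart.isScalarTower_ratAlgebra hx'
  letI a1 : Algebra (RatFunc K) (RatFunc L) := (ratMap K L).toAlgebra
  letI a2 : Algebra (RatFunc K) F' :=
    ((algebraMap (RatFunc L) F').comp (ratMap K L)).toAlgebra
  haveI : IsScalarTower (RatFunc K) (RatFunc L) F' :=
    IsScalarTower.of_algebraMap_eq (fun _ => rfl)
  haveI := (finrank_ratAlgebra hx).1
  haveI := (finrank_ratAlgebra hx').1
  let ι' : F0 →ₐ[RatFunc K] F' :=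
    { e with commutes' := fun a => map_evalRat hx hx' e he0 hxx a }
  have hgen : IntermediateField.adjoin (RatFunc L) (Set.range ι') = ⊤ := by
    apply IntermediateField.adjoin_eq_top_of_adjoin_eq_top L
    rw [eq_top_iff, ← hg, IntermediateField.adjoin_le_iff]
    rintro _ ⟨i, rfl⟩
    exact IntermediateField.subset_adjoin _ _ ⟨g i, rfl⟩
  have hdeg' : Module.finrank (RatFunc K) F0 ≤ Module.finrank (RatFunc L) F' := by
    rw [(finrank_ratAlgebra hx).2, (finrank_ratAlgebra hx').2]
    exact hdeg
  exact ⟨Forms.basisOfForm ι' hgen hdeg' b, fun i => Forms.basisOfForm_apply ι' hgen hdeg' b i⟩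

end GenericInst

/-! ### (i) `ℚ → ℚ̄`: `ℚ̄(μ) ⊗_{ℚ(μ)} RAlg c ℚ F0 ≃ RAlg c ℚ̄ F_L` -/

section CharZeroInst

open ModularCurve ModularCurve.IgusaScheme IntermediateField
open Fermat.Agent.S24.DegreeAlg (jgen)
open Fermat.Agent.S28.DegreeQ (jdF algF finiteDimensional_full)

local notation "Kb" => AlgebraicClosure ℚ

variable (N : ℕ) [NeZero N]

omit [NeZero N] in
/-- `embBar` on the constants, for the DEFAULT `ℚ`-algebra structure of `F0`
(`DivisionRing.toRatAlgebra`, the one used by `ModularInst`). -/
theorem embBar_algebraMap_rat (r : ℚ) :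
    Forms.embBar N (algebraMap ℚ ↥(modularFunctionFieldFull N) r)
      = algebraMap Kb ↥(modularFunctionFieldBar N) (algebraMap ℚ Kb r) := by
  rw [eq_ratCast, eq_ratCast, map_ratCast, map_ratCast]

/-- `embBar` is compatible with `ℚ(j) → ℚ̄(j)`. -/
theorem embBar_algebraMap_ratFunc (a : RatFunc ℚ) :
    Forms.embBar N (algebraMap (RatFunc ℚ) ↥(modularFunctionFieldFull N) a)
      = algebraMap (RatFunc Kb) ↥(modularFunctionFieldBar N) (ratMap ℚ Kb a) :=
  map_evalRat (ModularInst.transcendental_jFull N) (ModularInst.transcendental_jgen N) (Forms.embBar N)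
    (embBar_algebraMap_rat N) (Forms.embBar_jFull N) a

/-- `[F0 : ℚ(j)] ≤ [F_L : ℚ̄(j)]` for ANY `ℚ`-algebra structure on `F0`. -/
theorem finrank_full_le_bar_of_algebra [inst : Algebra ℚ ↥(modularFunctionFieldFull N)] :
    FiniteDimensional ℚ⟮jFull N⟯ ↥(modularFunctionFieldFull N) ∧
      Module.finrank ℚ⟮jFull N⟯ ↥(modularFunctionFieldFull N)
        ≤ Module.finrank Kb⟮jgen N⟯ ↥(modularFunctionFieldBar N) := by
  obtain rfl : inst = algF N := Subsingleton.elim _ _
  exact ⟨finiteDimensional_full N, Forms.finrank_le_finrank_bar N⟩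

/-- `[F0 : ℚ(j)] = ψ(N)` for ANY `ℚ`-algebra structure on `F0`. -/
theorem finrank_full_eq_dedekindPsi_of_algebra [inst : Algebra ℚ ↥(modularFunctionFieldFull N)] :
    Module.finrank ℚ⟮jFull N⟯ ↥(modularFunctionFieldFull N) = dedekindPsi N := by
  obtain rfl : inst = algF N := Subsingleton.elim _ _
  exact Forms.finrank_full_eq_dedekindPsi N

/-- `[F0 : ℚ(X)] = ψ(N)` (the `j`-line structure of `ModularInst`). -/
theorem finrank_ratFunc_full :
    FiniteDimensional (RatFunc ℚ) ↥(modularFunctionFieldFull N) ∧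
      Module.finrank (RatFunc ℚ) ↥(modularFunctionFieldFull N) = dedekindPsi N := by
  haveI := (finrank_full_le_bar_of_algebra N).1
  have h := finrank_ratAlgebra (ModularInst.transcendental_jFull N)
  exact ⟨h.1, h.2.trans (finrank_full_eq_dedekindPsi_of_algebra N)⟩

/-- `[F_L : ℚ̄(X)] = ψ(N)`. -/
theorem finrank_ratFunc_bar :
    FiniteDimensional (RatFunc Kb) ↥(modularFunctionFieldBar N) ∧
      Module.finrank (RatFunc Kb) ↥(modularFunctionFieldBar N) = dedekindPsi N := by
  haveI := Fermat.Agent.S24.Degree.finiteDimensional N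
  have h := finrank_ratAlgebra (ModularInst.transcendental_jgen N)
  exact ⟨h.1, h.2.trans (Forms.finrank_bar_eq_dedekindPsi N)⟩

/-- **Basis transfer (i), `RatFunc` form**: a `ℚ(j)`-basis of `F0` is a `ℚ̄(j)`-basis of `F_L`. -/
theorem exists_basis_bar {ι : Type*}
    (b : Module.Basis ι (RatFunc ℚ) ↥(modularFunctionFieldFull N)) :
    ∃ b' : Module.Basis ι (RatFunc Kb) ↥(modularFunctionFieldBar N),
      ∀ i, b' i = Forms.embBar N (b i) :=
  haveI := (finrank_full_le_bar_of_algebra N).1
  haveI := Fermat.Agent.S24.Degree.finiteDimensional N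
  exists_basis_map (ModularInst.transcendental_jFull N) (ModularInst.transcendental_jgen N) (Forms.embBar N)
    (embBar_algebraMap_rat N) (Forms.embBar_jFull N) (jdF N) (Forms.adjoin_range_embBar_jdF N)
    (finrank_full_le_bar_of_algebra N).2 b

variable (c : Cover) [c.Good ℚ] [c.Good Kb]

/-- The comparison homomorphism `R_ℚ = F0 ⊗ ℚ(μ) → R_L = F_L ⊗ ℚ̄(μ)`. -/
def compRBar :
    RAlg c ℚ ↥(modularFunctionFieldFull N) →+* RAlg c Kb ↥(modularFunctionFieldBar N) :=
  compR c ℚ Kb (Forms.embBar N) (embBar_algebraMap_ratFunc N)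

@[simp] theorem compRBar_tmul (f : ↥(modularFunctionFieldFull N)) (m : MuLine c ℚ) :
    compRBar N c (f ⊗ₜ[RatFunc ℚ] m) = Forms.embBar N f ⊗ₜ[RatFunc Kb] muMap c ℚ Kb m :=
  compR_tmul c ℚ Kb (Forms.embBar N) (embBar_algebraMap_ratFunc N) f m

/-- **Base change isomorphism (i)**: `ℚ̄(μ) ⊗_{ℚ(μ)} R_ℚ ≃ R_L`. -/
def baseChangeEquivBar :
    letI := muAlgebra c ℚ ↥(modularFunctionFieldFull N)
    letI := muAlgebra c Kb ↥(modularFunctionFieldBar N)
    letI := algMuMu c ℚ Kb
    MuLine c Kb ⊗[MuLine c ℚ] RAlg c ℚ ↥(modularFunctionFieldFull N)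
      ≃ₐ[MuLine c Kb] RAlg c Kb ↥(modularFunctionFieldBar N) :=
  haveI := (finrank_ratFunc_full N).1
  baseChangeEquiv c ℚ Kb (Forms.embBar N) (embBar_algebraMap_ratFunc N)
    (Module.finBasis (RatFunc ℚ) ↥(modularFunctionFieldFull N))
    (exists_basis_bar N (Module.finBasis (RatFunc ℚ) ↥(modularFunctionFieldFull N))).choose
    (exists_basis_bar N (Module.finBasis (RatFunc ℚ) ↥(modularFunctionFieldFull N))).choose_spec

theorem baseChangeEquivBar_tmul (m : MuLine c Kb)
    (x : RAlg c ℚ ↥(modularFunctionFieldFull N)) :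
    letI := muAlgebra c ℚ ↥(modularFunctionFieldFull N)
    letI := algMuMu c ℚ Kb
    baseChangeEquivBar N c (m ⊗ₜ x)
      = incMu c Kb ↥(modularFunctionFieldBar N) m * compRBar N c x :=
  haveI := (finrank_ratFunc_full N).1
  baseChangeEquiv_tmul c ℚ Kb (Forms.embBar N) (embBar_algebraMap_ratFunc N) _ _ _ m x

theorem compRBar_injective : Function.Injective (compRBar N c) :=
  haveI := (finrank_ratFunc_full N).1
  compR_injective c ℚ Kb (Forms.embBar N) (embBar_algebraMap_ratFunc N)
    (Module.finBasis (RatFunc ℚ) ↥(modularFunctionFieldFull N))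
    (exists_basis_bar N (Module.finBasis (RatFunc ℚ) ↥(modularFunctionFieldFull N))).choose
    (exists_basis_bar N (Module.finBasis (RatFunc ℚ) ↥(modularFunctionFieldFull N))).choose_spec

end CharZeroInst

/-! ### (ii) `k0 → k`: `k(μ) ⊗_{k0(μ)} RAlg c k0 F_{k0} ≃ RAlg c k F_k` -/

section ConstantExtensionInst

open ModularCurve IntermediateField
open Fermat.Agent.S18.B.FkBasics (jk jdk transcendental_jk finiteDimensional_full)

variable (k0 k : Type*) [Field k0] [Field k] [Algebra k0 k] (N : ℕ) [NeZero N]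

/-- `embK` is compatible with `k0(j) → k(j)`. -/
theorem embK_algebraMap_ratFunc (a : RatFunc k0) :
    Forms.embK k0 k N (algebraMap (RatFunc k0) ↥(modularFunctionFieldFullC k0 N) a)
      = algebraMap (RatFunc k) ↥(modularFunctionFieldFullC k N) (ratMap k0 k a) :=
  map_evalRat (transcendental_jk k0 N) (transcendental_jk k N) (Forms.embK k0 k N)
    (Forms.embK_algebraMap k0 k N) (Forms.embK_jk k0 k N) a

/-- `[F_k : k(X)] = [F_k : k(J)]`. -/
theorem finrank_ratFunc_fullC :
    FiniteDimensional (RatFunc k) ↥(modularFunctionFieldFullC k N) ∧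
      Module.finrank (RatFunc k) ↥(modularFunctionFieldFullC k N)
        = Module.finrank k⟮jk k N⟯ ↥(modularFunctionFieldFullC k N) :=
  haveI := finiteDimensional_full k N
  finrank_ratAlgebra (transcendental_jk k N)

variable (hdeg : Module.finrank k0⟮jk k0 N⟯ ↥(modularFunctionFieldFullC k0 N)
    ≤ Module.finrank k⟮jk k N⟯ ↥(modularFunctionFieldFullC k N))

include hdeg in
/-- **Basis transfer (ii), `RatFunc` form**: a `k0(j)`-basis of `F_{k0}` is a `k(j)`-basis of
`F_k`, as soon as `[F_{k0} : k0(J)] ≤ [F_k : k(J)]`. -/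
theorem exists_basis_fullC {ι : Type*}
    (b : Module.Basis ι (RatFunc k0) ↥(modularFunctionFieldFullC k0 N)) :
    ∃ b' : Module.Basis ι (RatFunc k) ↥(modularFunctionFieldFullC k N),
      ∀ i, b' i = Forms.embK k0 k N (b i) :=
  haveI := finiteDimensional_full k0 N
  haveI := finiteDimensional_full k N
  exists_basis_map (transcendental_jk k0 N) (transcendental_jk k N) (Forms.embK k0 k N)
    (Forms.embK_algebraMap k0 k N) (Forms.embK_jk k0 k N) (jdk k0 N)
    (Forms.adjoin_range_embK_jdk k0 k N) hdeg b

variable (c : Cover) [c.Good k0] [c.Good k]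

/-- The comparison homomorphism `R_{k0} = F_{k0} ⊗ k0(μ) → R_k = F_k ⊗ k(μ)`. -/
def compRK :
    RAlg c k0 ↥(modularFunctionFieldFullC k0 N) →+* RAlg c k ↥(modularFunctionFieldFullC k N) :=
  compR c k0 k (Forms.embK k0 k N) (embK_algebraMap_ratFunc k0 k N)

@[simp] theorem compRK_tmul (f : ↥(modularFunctionFieldFullC k0 N)) (m : MuLine c k0) :
    compRK k0 k N c (f ⊗ₜ[RatFunc k0] m) = Forms.embK k0 k N f ⊗ₜ[RatFunc k] muMap c k0 k m :=
  compR_tmul c k0 k (Forms.embK k0 k N) (embK_algebraMap_ratFunc k0 k N) f m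

/-- **Base change isomorphism (ii)**: `k(μ) ⊗_{k0(μ)} R_{k0} ≃ R_k`. -/
def baseChangeEquivK :
    letI := muAlgebra c k0 ↥(modularFunctionFieldFullC k0 N)
    letI := muAlgebra c k ↥(modularFunctionFieldFullC k N)
    letI := algMuMu c k0 k
    MuLine c k ⊗[MuLine c k0] RAlg c k0 ↥(modularFunctionFieldFullC k0 N)
      ≃ₐ[MuLine c k] RAlg c k ↥(modularFunctionFieldFullC k N) :=
  haveI := (finrank_ratFunc_fullC k0 N).1
  baseChangeEquiv c k0 k (Forms.embK k0 k N) (embK_algebraMap_ratFunc k0 k N)
    (Module.finBasis (RatFunc k0) ↥(modularFunctionFieldFullC k0 N))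
    (exists_basis_fullC k0 k N hdeg
      (Module.finBasis (RatFunc k0) ↥(modularFunctionFieldFullC k0 N))).choose
    (exists_basis_fullC k0 k N hdeg
      (Module.finBasis (RatFunc k0) ↥(modularFunctionFieldFullC k0 N))).choose_spec

theorem baseChangeEquivK_tmul (m : MuLine c k)
    (x : RAlg c k0 ↥(modularFunctionFieldFullC k0 N)) :
    letI := muAlgebra c k0 ↥(modularFunctionFieldFullC k0 N)
    letI := algMuMu c k0 k
    baseChangeEquivK k0 k N hdeg c (m ⊗ₜ x)
      = incMu c k ↥(modularFunctionFieldFullC k N) m * compRK k0 k N c x :=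
  haveI := (finrank_ratFunc_fullC k0 N).1
  baseChangeEquiv_tmul c k0 k (Forms.embK k0 k N) (embK_algebraMap_ratFunc k0 k N) _ _ _ m x

include hdeg in
theorem compRK_injective : Function.Injective (compRK k0 k N c) :=
  haveI := (finrank_ratFunc_fullC k0 N).1
  compR_injective c k0 k (Forms.embK k0 k N) (embK_algebraMap_ratFunc k0 k N)
    (Module.finBasis (RatFunc k0) ↥(modularFunctionFieldFullC k0 N))
    (exists_basis_fullC k0 k N hdeg
      (Module.finBasis (RatFunc k0) ↥(modularFunctionFieldFullC k0 N))).choose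
    (exists_basis_fullC k0 k N hdeg
      (Module.finBasis (RatFunc k0) ↥(modularFunctionFieldFullC k0 N))).choose_spec

end ConstantExtensionInst

end Fermat.Agent.S18.C.BaseChangeR

end
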