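/-
PROJECT H (S18), block C, slice H-C6b part 1 (helper9): UNRAMIFIED EXTENSIONS OF VALUATION RINGS.

`E ⊆ F` a finite field extension of degree `n`, `O` a valuation ring of `F`, `V = O ∩ E`.
If the residue field extension has degree `≥ n` (a family `t : ι → O`, `card ι = n`, whose residues
are linearly independent over the residue field of `V`), then

* `t` is an `E`-basis of `F` and a `V`-basis of `O` (`basisV`): `O` is finite free over `V`;
* the residues of `t` form a basis of the residue extension (`basisRes`);
* every `f ∈ Fˣ` is `a · u`, `a ∈ Eˣ`, `u ∈ Oˣ` (`exists_scale`): the value groups agree;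
* `O` is the integral closure of `V` in `F` (`isIntegral_iff_mem`);
* the discriminant of `basisV` reduces to the discriminant of `basisRes` (`redV_discr`), hence it
  is a unit of `V` when the residue extension is separable (`isUnit_discr`).

No noetherian or discreteness hypothesis.  The residue fields are given concretely:
`red : O →+* κ` onto with kernel the maximal ideal, `redV : V →+* κ₀` compatible with `red`.
-/
import Mathlib

set_option autoImplicit false
set_option linter.unusedSectionVars false
set_option linter.style.haveILetI false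

noncomputable section

namespace Fermat.Agent.S18.C.UnramVal

open Module

/-! ### Trace and discriminant under compatible ring homomorphisms -/

section TraceRed

variable {R S R' S' : Type*} [CommRing R] [CommRing S] [Algebra R S]
  [CommRing R'] [CommRing S'] [Algebra R' S']
variable {ι : Type*} [Fintype ι] [DecidableEq ι]
variable (φR : R →+* R') (φS : S →+* S')
variable (b : Basis ι R S) (b' : Basis ι R' S')

theorem repr_map (hφ : ∀ r, φS (algebraMap R S r) = algebraMap R' S' (φR r))
    (hb : ∀ i, b' i = φS (b i)) (y : S) (i : ι) :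
    b'.repr (φS y) i = φR (b.repr y i) := by
  have hy : φS y = ∑ j, φR (b.repr y j) • b' j := by
    conv_lhs => rw [← b.sum_repr y]
    rw [map_sum]
    refine Finset.sum_congr rfl fun j _ => ?_
    rw [Algebra.smul_def, map_mul, hφ, hb j, Algebra.smul_def]
  rw [hy, b'.repr_sum_self]

theorem trace_map (hφ : ∀ r, φS (algebraMap R S r) = algebraMap R' S' (φR r))
    (hb : ∀ i, b' i = φS (b i)) (x : S) :
    Algebra.trace R' S' (φS x) = φR (Algebra.trace R S x) := by
  rw [Algebra.trace_eq_matrix_trace b', Algebra.trace_eq_matrix_trace b, Matrix.trace,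
    Matrix.trace, map_sum]
  refine Finset.sum_congr rfl fun i _ => ?_
  rw [Matrix.diag_apply, Matrix.diag_apply, Algebra.leftMulMatrix_eq_repr_mul,
    Algebra.leftMulMatrix_eq_repr_mul, hb i, ← map_mul, repr_map φR φS b b' hφ hb]

theorem discr_map (hφ : ∀ r, φS (algebraMap R S r) = algebraMap R' S' (φR r))
    (hb : ∀ i, b' i = φS (b i)) :
    Algebra.discr R' b' = φR (Algebra.discr R b) := by
  rw [Algebra.discr_def, Algebra.discr_def, RingHom.map_det]
  congr 1
  ext i j
  rw [RingHom.mapMatrix_apply, Matrix.map_apply, Algebra.traceMatrix_apply,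
    Algebra.traceMatrix_apply, Algebra.traceForm_apply, Algebra.traceForm_apply, hb i, hb j,
    ← map_mul, trace_map φR φS b b' hφ hb]

end TraceRed

/-! ### The valuation ring below, and the key scaling lemma -/

section Main

variable (E : Type*) {F : Type*} [Field E] [Field F] [Algebra E F]
variable (O : ValuationSubring F)

/-- The valuation ring `V = O ∩ E` of `E` below `O`. -/
abbrev below : ValuationSubring E := O.comap (algebraMap E F)

theorem mem_below {x : E} : x ∈ below E O ↔ algebraMap E F x ∈ O := Iff.rfl

/-- The inclusion `V → O`. -/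
def incl : ↥(below E O) →+* ↥O where
  toFun x := ⟨algebraMap E F x, x.2⟩
  map_one' := Subtype.ext (map_one _)
  map_mul' x y := Subtype.ext (map_mul _ _ _)
  map_zero' := Subtype.ext (map_zero _)
  map_add' x y := Subtype.ext (map_add _ _ _)

@[simp]
theorem coe_incl (x : ↥(below E O)) : ((incl E O x : ↥O) : F) = algebraMap E F (x : E) := rfl

/-- `O` as an algebra over `V = O ∩ E`. -/
def algBelow : Algebra ↥(below E O) ↥O := (incl E O).toAlgebra

attribute [local instance] algBelow

theorem algebraMap_below_eq (x : ↥(below E O)) : algebraMap ↥(below E O) ↥O x = incl E O x := rfl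

theorem coe_smul_below (c : ↥(below E O)) (x : ↥O) :
    ((c • x : ↥O) : F) = (c : E) • (x : F) := by
  rw [Algebra.smul_def, Algebra.smul_def]
  rfl

variable {E O}

/-- Among finitely many elements of `E`, not all zero, one of them divides all the others in `V`. -/
theorem exists_max {ι : Type*} [Fintype ι] (a : ι → E) {i₀ : ι} (h0 : a i₀ ≠ 0) :
    ∃ m, a m ≠ 0 ∧ ∀ i, a i / a m ∈ below E O := by
  obtain ⟨m, -, hm⟩ := Finset.exists_max_image Finset.univ
    (fun i => (below E O).valuation (a i)) ⟨i₀, Finset.mem_univ _⟩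
  have hm0 : a m ≠ 0 := by
    intro h
    have h1 := hm i₀ (Finset.mem_univ _)
    rw [h, map_zero] at h1
    exact h0 ((map_eq_zero _).mp (le_antisymm h1 zero_le'))
  refine ⟨m, hm0, fun i => ?_⟩
  rw [← ValuationSubring.valuation_le_one_iff, map_div₀]
  exact div_le_one_of_le₀ (hm i (Finset.mem_univ _)) zero_le'

variable {κ : Type*} [Field κ] (red : ↥O →+* κ)

/-- **Key lemma.** If the residues of `t` are independent over the residues of `V`, then every
combination `∑ aᵢ tᵢ` with `a ≠ 0` is `a_m` times a unit of `O`, where `a_m` is a coefficient of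
largest absolute value. -/
theorem exists_unit_of_max {ι : Type*} [Fintype ι] (hker : ∀ u : ↥O, red u = 0 ↔ ¬ IsUnit u)
    (t : ι → ↥O)
    (hind : ∀ c : ι → ↥(below E O), (∑ i, red (incl E O (c i)) * red (t i) = 0) →
      ∀ i, red (incl E O (c i)) = 0)
    (a : ι → E) (m : ι) (hle : ∀ i, a i / a m ∈ below E O) (ham : a m ≠ 0) :
    ∃ u : (↥O)ˣ, ∑ i, a i • ((t i : ↥O) : F) = algebraMap E F (a m) * ((u : ↥O) : F) := by
  set w : ↥O := ∑ i, incl E O ⟨a i / a m, hle i⟩ * t i with hw
  have hwu : IsUnit w := by
    by_contra hnu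
    have h0 := (hker w).mpr hnu
    rw [hw, map_sum] at h0
    simp only [map_mul] at h0
    have h1 := hind (fun i => ⟨a i / a m, hle i⟩) h0 m
    have h2 : (⟨a m / a m, hle m⟩ : ↥(below E O)) = 1 := Subtype.ext (div_self ham)
    rw [h2, map_one, map_one] at h1
    exact one_ne_zero h1
  refine ⟨hwu.unit, ?_⟩
  rw [IsUnit.unit_spec, hw]
  have hcoe : ((∑ i, incl E O ⟨a i / a m, hle i⟩ * t i : ↥O) : F) =
      ∑ i, algebraMap E F (a i / a m) * ((t i : ↥O) : F) := by
    have := map_sum O.subtype (fun i => incl E O ⟨a i / a m, hle i⟩ * t i) Finset.univ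
    exact this
  rw [hcoe, Finset.mul_sum]
  refine Finset.sum_congr rfl fun i _ => ?_
  rw [Algebra.smul_def, ← mul_assoc, ← map_mul, mul_div_cancel₀ _ ham]

section WithIndep

variable {ι : Type*} [Fintype ι] (hker : ∀ u : ↥O, red u = 0 ↔ ¬ IsUnit u) (t : ι → ↥O)
  (hind : ∀ c : ι → ↥(below E O), (∑ i, red (incl E O (c i)) * red (t i) = 0) →
      ∀ i, red (incl E O (c i)) = 0)

include hker hind

theorem linearIndependent_coe : LinearIndependent E (fun i => ((t i : ↥O) : F)) := by
  rw [Fintype.linearIndependent_iff]
  intro a ha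
  by_contra hne
  push Not at hne
  obtain ⟨i₀, hi₀⟩ := hne
  obtain ⟨m, hm0, hle⟩ := exists_max (O := O) a hi₀
  obtain ⟨u, hu⟩ := exists_unit_of_max red hker t hind a m hle hm0
  rw [ha] at hu
  have h1 : algebraMap E F (a m) ≠ 0 := by rwa [Ne, map_eq_zero]
  have h2 : ((u : ↥O) : F) ≠ 0 := by
    intro h
    have : (u : ↥O) = 0 := Subtype.ext h
    exact u.ne_zero this
  exact (mul_ne_zero h1 h2) hu.symm

/-- The coefficients of an element of `O` lie in `V`. -/
theorem coeff_mem_below (a : ι → E) (hmem : ∑ i, a i • ((t i : ↥O) : F) ∈ O) (i : ι) :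
    a i ∈ below E O := by
  by_cases hall : ∀ j, a j = 0
  · rw [hall i]; exact (below E O).zero_mem
  push Not at hall
  obtain ⟨i₀, hi₀⟩ := hall
  obtain ⟨m, hm0, hle⟩ := exists_max (O := O) a hi₀
  obtain ⟨u, hu⟩ := exists_unit_of_max red hker t hind a m hle hm0
  have ham : a m ∈ below E O := by
    rw [mem_below]
    have h1 : algebraMap E F (a m) =
        (∑ i, a i • ((t i : ↥O) : F)) * (((u⁻¹ : (↥O)ˣ) : ↥O) : F) := by
      rw [hu, mul_assoc]
      have h2 : ((u : ↥O) : F) * (((u⁻¹ : (↥O)ˣ) : ↥O) : F) = 1 := by
        have h3 := congrArg (Subtype.val) (u.mul_inv)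
        exact h3
      rw [h2, mul_one]
    rw [h1]
    exact O.mul_mem _ _ hmem (((u⁻¹ : (↥O)ˣ) : ↥O)).2
  have : a i = a i / a m * a m := by field_simp
  rw [this]
  exact (below E O).mul_mem _ _ (hle i) ham

end WithIndep

end Main

/-! ### The package -/

section Package

variable (E : Type*) {F : Type*} [Field E] [Field F] [Algebra E F] [FiniteDimensional E F]
variable (O : ValuationSubring F)
variable {κ : Type*} [Field κ] (red : ↥O →+* κ)
variable {κ₀ : Type*} [Field κ₀] [Algebra κ₀ κ] (redV : ↥(below E O) →+* κ₀)
variable {ι : Type*} [Fintype ι] (t : ι → ↥O)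

attribute [local instance] algBelow

/-- The hypotheses: `red : O → κ` is the residue map of `O` (onto, kernel the maximal ideal),
`redV : V → κ₀` is compatible with it, and the residues of `t` are `card ι = [F : E]` elements of
`κ` which are linearly independent over `κ₀`. -/
structure Hyp : Prop where
  ker : ∀ u : ↥O, red u = 0 ↔ ¬ IsUnit u
  surj : Function.Surjective red
  compat : ∀ x : ↥(below E O), algebraMap κ₀ κ (redV x) = red (incl E O x)
  indep : LinearIndependent κ₀ (fun i => red (t i))
  card : Fintype.card ι = Module.finrank E F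

variable {E O red redV t}

namespace Hyp

variable (h : Hyp E O red redV t)

include h

theorem hind (c : ι → ↥(below E O)) (hc : ∑ i, red (incl E O (c i)) * red (t i) = 0) (i : ι) :
    red (incl E O (c i)) = 0 := by
  have h1 : ∑ i, redV (c i) • red (t i) = 0 := by
    rw [← hc]
    refine Finset.sum_congr rfl fun i _ => ?_
    rw [Algebra.smul_def, h.compat]
  have h2 := Fintype.linearIndependent_iff.mp h.indep (fun i => redV (c i)) h1 i
  rw [← h.compat, h2, map_zero]

theorem linearIndependent : LinearIndependent E (fun i => ((t i : ↥O) : F)) :=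
  linearIndependent_coe red h.ker t h.hind

/-- `t` as an `E`-basis of `F`. -/
def basisE : Basis ι E F :=
  Basis.mk h.linearIndependent
    (h.linearIndependent.span_eq_top_of_card_eq_finrank' h.card).ge

@[simp]
theorem basisE_apply (i : ι) : h.basisE i = ((t i : ↥O) : F) := by
  rw [basisE, Basis.mk_apply]

/-- The coordinates of an element of `O` in the basis `t` lie in `V`. -/
theorem repr_mem_below (x : ↥O) (i : ι) : h.basisE.repr (x : F) i ∈ below E O := by
  refine coeff_mem_below red h.ker t h.hind (fun i => h.basisE.repr (x : F) i) ?_ i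
  have h1 : ∑ i, h.basisE.repr (x : F) i • ((t i : ↥O) : F) = (x : F) := by
    conv_rhs => rw [← h.basisE.sum_repr (x : F)]
    refine Finset.sum_congr rfl fun i _ => ?_
    rw [basisE_apply]
  rw [h1]
  exact x.2

theorem linearIndependent_below : LinearIndependent ↥(below E O) t := by
  rw [Fintype.linearIndependent_iff]
  intro c hc i
  have h1 : ∑ i, ((c i : ↥(below E O)) : E) • ((t i : ↥O) : F) = 0 := by
    have h2 : O.subtype (∑ i, c i • t i) = 0 := by rw [hc, map_zero]
    rw [map_sum] at h2
    rw [← h2]
    refine Finset.sum_congr rfl fun i _ => ?_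
    exact (coe_smul_below E O (c i) (t i)).symm
  have h4 := Fintype.linearIndependent_iff.mp h.linearIndependent (fun i => (c i : E)) h1 i
  exact Subtype.ext h4

theorem span_below : ⊤ ≤ Submodule.span ↥(below E O) (Set.range t) := by
  intro x _
  have hx : x = ∑ i, (⟨h.basisE.repr (x : F) i, h.repr_mem_below x i⟩ : ↥(below E O)) • t i := by
    apply Subtype.ext
    have h3 := map_sum O.subtype
      (fun i => (⟨h.basisE.repr (x : F) i, h.repr_mem_below x i⟩ : ↥(below E O)) • t i)
      Finset.univ
    rw [show ((∑ i, (⟨h.basisE.repr (x : F) i, h.repr_mem_below x i⟩ : ↥(below E O)) • t i : ↥O) :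
      F) = O.subtype (∑ i, (⟨h.basisE.repr (x : F) i, h.repr_mem_below x i⟩ : ↥(below E O)) • t i)
      from rfl, h3]
    conv_lhs => rw [← h.basisE.sum_repr (x : F)]
    refine Finset.sum_congr rfl fun i _ => ?_
    rw [basisE_apply]
    exact (coe_smul_below E O
      (⟨h.basisE.repr (x : F) i, h.repr_mem_below x i⟩ : ↥(below E O)) (t i)).symm
  rw [hx]
  exact Submodule.sum_mem _ fun i _ =>
    Submodule.smul_mem _ _ (Submodule.subset_span ⟨i, rfl⟩)

/-- **`t` is a `V`-basis of `O`**: `O` is finite free over `V = O ∩ E`. -/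
def basisV : Basis ι ↥(below E O) ↥O :=
  Basis.mk h.linearIndependent_below h.span_below

@[simp]
theorem basisV_apply (i : ι) : h.basisV i = t i := by
  rw [basisV, Basis.mk_apply]

theorem free : Module.Free ↥(below E O) ↥O := Module.Free.of_basis h.basisV

theorem finite : Module.Finite ↥(below E O) ↥O := Module.Finite.of_basis h.basisV

theorem finrank_below : Module.finrank ↥(below E O) ↥O = Module.finrank E F := by
  rw [Module.finrank_eq_card_basis h.basisV, h.card]

theorem span_res : ⊤ ≤ Submodule.span κ₀ (Set.range fun i => red (t i)) := by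
  intro y _
  obtain ⟨x, rfl⟩ := h.surj y
  have hx : red x = ∑ i, redV (h.basisV.repr x i) • red (t i) := by
    conv_lhs => rw [← h.basisV.sum_repr x]
    rw [map_sum]
    refine Finset.sum_congr rfl fun i _ => ?_
    rw [basisV_apply, Algebra.smul_def, map_mul, algebraMap_below_eq, Algebra.smul_def, h.compat]
  rw [hx]
  exact Submodule.sum_mem _ fun i _ =>
    Submodule.smul_mem _ _ (Submodule.subset_span ⟨i, rfl⟩)

/-- The residues of `t` form a basis of the residue extension. -/
def basisRes : Basis ι κ₀ κ := Basis.mk h.indep h.span_res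

@[simp]
theorem basisRes_apply (i : ι) : h.basisRes i = red (t i) := by
  rw [basisRes, Basis.mk_apply]

/-- The residue degree equals the field degree. -/
theorem finrank_res : Module.finrank κ₀ κ = Module.finrank E F := by
  rw [Module.finrank_eq_card_basis h.basisRes, h.card]

/-- **The value groups agree** (`e = 1`): every nonzero `f ∈ F` is a nonzero element of `E` times
a unit of `O`. -/
theorem exists_scale (f : F) (hf : f ≠ 0) :
    ∃ (a : E) (u : (↥O)ˣ), a ≠ 0 ∧ f = algebraMap E F a * ((u : ↥O) : F) := by
  have hrepr : ∑ i, h.basisE.repr f i • ((t i : ↥O) : F) = f := by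
    conv_rhs => rw [← h.basisE.sum_repr f]
    refine Finset.sum_congr rfl fun i _ => ?_
    rw [basisE_apply]
  have hne : ∃ i, h.basisE.repr f i ≠ 0 := by
    by_contra hall
    push Not at hall
    apply hf
    rw [← hrepr]
    exact Finset.sum_eq_zero fun i _ => by rw [hall i, zero_smul]
  obtain ⟨i₀, hi₀⟩ := hne
  obtain ⟨m, hm0, hle⟩ := exists_max (O := O) (fun i => h.basisE.repr f i) hi₀
  obtain ⟨u, hu⟩ := exists_unit_of_max red h.ker t h.hind (fun i => h.basisE.repr f i) m hle hm0
  exact ⟨_, u, hm0, by rw [← hu, hrepr]⟩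

/-- An element of `V` with nonzero residue is a unit of `V`. -/
theorem isUnit_of_redV_ne_zero (x : ↥(below E O)) (hx : redV x ≠ 0) : IsUnit x := by
  have h1 : red (incl E O x) ≠ 0 := by
    rw [← h.compat]
    exact (map_ne_zero_iff _ (algebraMap κ₀ κ).injective).mpr hx
  have h2 : IsUnit (incl E O x) := by
    by_contra hnu
    exact h1 ((h.ker _).mpr hnu)
  obtain ⟨w, hw⟩ := h2.exists_right_inv
  have hw' : algebraMap E F (x : E) * (w : F) = 1 := congrArg Subtype.val hw
  have hx0 : (x : E) ≠ 0 := by
    intro h0
    rw [h0, map_zero, zero_mul] at hw'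
    exact zero_ne_one hw'
  have hmem : (x : E)⁻¹ ∈ below E O := by
    rw [mem_below, map_inv₀]
    have : (algebraMap E F (x : E))⁻¹ = (w : F) := inv_eq_of_mul_eq_one_right hw'
    rw [this]
    exact w.2
  refine IsUnit.of_mul_eq_one (⟨(x : E)⁻¹, hmem⟩ : ↥(below E O)) ?_
  apply Subtype.ext
  show (x : E) * (x : E)⁻¹ = 1
  exact mul_inv_cancel₀ hx0

variable [DecidableEq ι]

/-- The discriminant of `basisV` reduces to the discriminant of `basisRes`. -/
theorem redV_discr :
    redV (Algebra.discr ↥(below E O) h.basisV) = Algebra.discr κ₀ h.basisRes := by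
  refine (discr_map redV red h.basisV h.basisRes (fun r => ?_) (fun i => ?_)).symm
  · rw [algebraMap_below_eq, h.compat]
  · rw [basisRes_apply, basisV_apply]

/-- **Unit discriminant**: if the residue extension is separable, the discriminant of the
`V`-basis `t` of `O` is a unit of `V` (`O` is finite étale over `V`). -/
theorem isUnit_discr [Algebra.IsSeparable κ₀ κ] :
    IsUnit (Algebra.discr ↥(below E O) h.basisV) := by
  apply h.isUnit_of_redV_ne_zero
  rw [h.redV_discr]
  haveI : Module.Finite κ₀ κ := Module.Finite.of_basis h.basisRes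
  exact Algebra.discr_not_zero_of_basis κ₀ h.basisRes

/-- **`O` is the integral closure of `V` in `F`.** -/
theorem isIntegralElem_iff_mem (f : F) :
    ((algebraMap E F).comp (below E O).subtype).IsIntegralElem f ↔ f ∈ O := by
  constructor
  · rintro ⟨p, hp, hpx⟩
    have hint := Valuation.integer.integers O.valuation
    let ψ : ↥(below E O) →+* O.valuation.integer :=
      ((algebraMap E F).comp (below E O).subtype).codRestrict O.valuation.integer
        (fun r => (O.valuation_le_one_iff _).2 r.2)
    have hx' : IsIntegral O.valuation.integer f := by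
      refine ⟨p.map ψ, hp.map ψ, ?_⟩
      rw [Polynomial.eval₂_map]
      exact hpx
    exact (O.valuation_le_one_iff _).1 (hint.mem_of_integral hx')
  · intro hf
    haveI := h.finite
    obtain ⟨p, hp, hpx⟩ := IsIntegral.of_finite ↥(below E O) (⟨f, hf⟩ : ↥O)
    refine ⟨p, hp, ?_⟩
    have h1 := Polynomial.hom_eval₂ p (algebraMap ↥(below E O) ↥O) O.subtype (⟨f, hf⟩ : ↥O)
    rw [hpx, map_zero] at h1
    exact h1.symm

end Hyp

/-- Existence of the family `t` from the inequality of degrees `[F : E] ≤ [κ : κ₀]`. -/
theorem exists_hyp (hker : ∀ u : ↥O, red u = 0 ↔ ¬ IsUnit u) (hsurj : Function.Surjective red)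
    (hcompat : ∀ x : ↥(below E O), algebraMap κ₀ κ (redV x) = red (incl E O x))
    (hdim : Module.finrank E F ≤ Module.finrank κ₀ κ) :
    ∃ t : Fin (Module.finrank E F) → ↥O, Hyp E O red redV t := by
  have hpos : 0 < Module.finrank κ₀ κ := lt_of_lt_of_le Module.finrank_pos hdim
  haveI : Module.Finite κ₀ κ := Module.finite_of_finrank_pos hpos
  let b := Module.finBasis κ₀ κ
  have hli : LinearIndependent κ₀ (fun i : Fin (Module.finrank E F) => b (Fin.castLE hdim i)) :=
    b.linearIndependent.comp _ (Fin.castLE_injective hdim)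
  choose s hs using fun i : Fin (Module.finrank E F) => hsurj (b (Fin.castLE hdim i))
  refine ⟨s, hker, hsurj, hcompat, ?_, by rw [Fintype.card_fin]⟩
  have : (fun i => red (s i)) = fun i : Fin (Module.finrank E F) => b (Fin.castLE hdim i) :=
    funext hs
  rw [this]
  exact hli

end Package

end Fermat.Agent.S18.C.UnramVal
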