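import Mathlib

/-
PROJECT H (S18), block C5-core: SPECIALISATION BIJECTION OF FIBRE POINTS.

Setting: `B` a commutative ring, `C` a `B`-algebra with a finite basis `b` (in the application `C`
is the normalisation of the two-dimensional regular local ring `B = W[μ]_(ℓ, μ)` in the function
field of the auxiliary cover, free by purity), `Ω` an algebraically closed field, `A` a valuation
subring of `Ω` (in the application `Ω = ℚ̄`, `A` a place over `ℓ`) with residue field `k`, and an
"evaluation" `B → A` (in the application `μ ↦ μ̃`, a point of the open residue disc).  The points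
of the generic fibre over the evaluation are the `B`-algebra maps `C → Ω`, the points of the
special fibre are the `B`-algebra maps `C → k`.

Main results (no henselian theory: both `Ω` and `k` are algebraically closed and a unit
discriminant forces reduction to be injective on points):

* `discr_baseChange`               : the discriminant commutes with base change;
* `card_algHom_of_discr_ne_zero`   : `#(C →ₐ[B] E) = rank` for `E` algebraically closed in which the
                                     discriminant does not vanish;
* `det_sq_eq_discr`                : `det (φ_a (b_i))² = discr`;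
* `algHom_mem`, `toA`, `red`       : every `Ω`-point is `A`-integral; its reduction;
* `red_bijective`, `redEquiv`      : reduction is a bijection `(C →ₐ[B] Ω) ≃ (C →ₐ[B] k)` if the
                                     discriminant is a unit in `A`;
* `card_fixed_eq`                  : for a ring endomorphism `g` of `C` preserving the image of `B`
                                     compatibly with the evaluation (not nec. `B`-linear), the
                                     number of `g`-fixed `Ω`-points equals the number of `g`-fixed
                                     `k`-points  (`φ_k(g) = φ_0(g, μ̃)` of the block C design).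
-/

set_option autoImplicit false

namespace Fermat.Agent.S18.C.Specialize

open Module

section Field

variable {E S : Type*} [Field E] [CommRing S] [Algebra E S]

/-- A finite-dimensional commutative algebra with nondegenerate trace form is reduced. -/
theorem isReduced_of_traceForm_nondegenerate
    (h : (Algebra.traceForm E S).Nondegenerate) : IsReduced S := by
  refine ⟨fun x hx => ?_⟩
  apply h.1 x
  intro y
  have hxy : IsNilpotent (x * y) := Commute.isNilpotent_mul_right (Commute.all x y) hx
  rw [Algebra.traceForm_apply]
  have h2 : IsNilpotent (Algebra.lmul E S (x * y)) := by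
    obtain ⟨n, hn⟩ := hxy
    exact ⟨n, by rw [← map_pow, hn, map_zero]⟩
  have h3 := LinearMap.isNilpotent_trace_of_isNilpotent h2
  exact h3.eq_zero

variable [FiniteDimensional E S] [IsAlgClosed E]

/-- Points separate elements of a reduced finite-dimensional algebra over an algebraically closed
field. -/
theorem exists_algHom_ne_zero [IsReduced S] {s : S} (hs : s ≠ 0) :
    ∃ φ : S →ₐ[E] E, φ s ≠ 0 := by
  have hnil : s ∉ nilradical S := by
    rw [nilradical_eq_zero, Ideal.zero_eq_bot, Ideal.mem_bot]; exact hs
  rw [nilradical_eq_sInf, Ideal.mem_sInf] at hnil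
  push Not at hnil
  obtain ⟨P, hP, hsP⟩ := hnil
  have hP' : P.IsPrime := hP
  have : FiniteDimensional E (S ⧸ P) := Module.Finite.of_surjective
    (Ideal.Quotient.mkₐ E P).toLinearMap (Ideal.Quotient.mkₐ_surjective E P)
  have : Algebra.IsIntegral E (S ⧸ P) := Algebra.IsIntegral.of_finite E (S ⧸ P)
  have hbij : Function.Bijective (algebraMap E (S ⧸ P)) :=
    IsAlgClosed.algebraMap_bijective_of_isIntegral
  let e : E ≃ₐ[E] (S ⧸ P) := AlgEquiv.ofBijective (Algebra.ofId E (S ⧸ P)) hbij
  refine ⟨e.symm.toAlgHom.comp (Ideal.Quotient.mkₐ E P), ?_⟩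
  intro h0
  apply hsP
  rw [← Ideal.Quotient.eq_zero_iff_mem]
  have : e.symm (Ideal.Quotient.mk P s) = 0 := h0
  simpa using this

variable (E S) in
/-- Evaluation at all `E`-points. -/
noncomputable def evHom : S →ₐ[E] ((S →ₐ[E] E) → E) :=
  AlgHom.pi (fun φ => φ)

omit [FiniteDimensional E S] [IsAlgClosed E] in
@[simp]
theorem evHom_apply (s : S) (φ : S →ₐ[E] E) : evHom E S s φ = φ s := rfl

theorem evHom_injective [IsReduced S] : Function.Injective (evHom E S) := by
  rw [injective_iff_map_eq_zero]
  intro s hs
  by_contra h
  obtain ⟨φ, hφ⟩ := exists_algHom_ne_zero (E := E) h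
  exact hφ (congrFun hs φ)

theorem card_algHom_eq_finrank [IsReduced S] : Nat.card (S →ₐ[E] E) = finrank E S := by
  apply le_antisymm (card_algHom_le_finrank E S E)
  have : Fintype (S →ₐ[E] E) := Fintype.ofFinite _
  have h := LinearMap.finrank_le_finrank_of_injective
    (f := (evHom E S).toLinearMap) evHom_injective
  rw [Module.finrank_pi] at h
  rwa [Nat.card_eq_fintype_card]

theorem evHom_bijective [IsReduced S] : Function.Bijective (evHom E S) := by
  have : Fintype (S →ₐ[E] E) := Fintype.ofFinite _
  refine ⟨evHom_injective, ?_⟩
  have hinj : Function.Injective (evHom E S).toLinearMap := evHom_injective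
  have hdim : finrank E S = finrank E ((S →ₐ[E] E) → E) := by
    rw [Module.finrank_pi, ← Nat.card_eq_fintype_card, card_algHom_eq_finrank]
  exact (LinearMap.injective_iff_surjective_of_finrank_eq_finrank hdim).mp hinj

/-- `S ≃ E^X`, `X` the set of points. -/
noncomputable def evEquiv [IsReduced S] : S ≃ₐ[E] ((S →ₐ[E] E) → E) :=
  AlgEquiv.ofBijective (evHom E S) evHom_bijective

omit [FiniteDimensional E S] [IsAlgClosed E] in
/-- The trace of the product algebra `E^X`. -/
theorem trace_pi {X : Type*} [Fintype X] [DecidableEq X] (f : X → E) :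
    Algebra.trace E (X → E) f = ∑ x, f x := by
  rw [Algebra.trace_apply, LinearMap.trace_eq_matrix_trace E (Pi.basisFun E X), Matrix.trace]
  refine Finset.sum_congr rfl fun x _ => ?_
  rw [Matrix.diag_apply, LinearMap.toMatrix_apply, Pi.basisFun_repr, Pi.basisFun_apply]
  simp

theorem trace_eq_sum [IsReduced S] [Fintype (S →ₐ[E] E)] (s : S) :
    Algebra.trace E S s = ∑ φ : S →ₐ[E] E, φ s := by
  classical
  rw [Algebra.trace_eq_of_algEquiv (evEquiv (E := E) (S := S)) s |>.symm, trace_pi]
  rfl

/-- The discriminant of a basis is the square of the determinant of the matrix of values at the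
points. -/
theorem discr_eq_det_sq [IsReduced S] {ι : Type*} [Fintype ι] [DecidableEq ι] (b : Basis ι E S)
    (e : ι ≃ (S →ₐ[E] E)) :
    Algebra.discr E b = (Matrix.det (Matrix.of fun a i => e a (b i))) ^ 2 := by
  classical
  have : Fintype (S →ₐ[E] E) := Fintype.ofEquiv ι e
  set M : Matrix ι ι E := Matrix.of fun a i => e a (b i) with hM
  have h : Algebra.traceMatrix E b = M.transpose * M := by
    ext i j
    rw [Algebra.traceMatrix_apply, Algebra.traceForm_apply, trace_eq_sum, Matrix.mul_apply,
      ← e.sum_comp]
    refine Finset.sum_congr rfl fun a _ => ?_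
    rw [map_mul, Matrix.transpose_apply, hM, Matrix.of_apply, Matrix.of_apply]
  rw [Algebra.discr_def, h, Matrix.det_mul, Matrix.det_transpose, sq]

end Field

open scoped TensorProduct

section BaseChange

variable {B C : Type*} [CommRing B] [CommRing C] [Algebra B C]
variable (T : Type*) [CommRing T] [Algebra B T]

/-- The trace commutes with base change (multiplication operators). -/
theorem trace_one_tmul [Module.Free B C] [Module.Finite B C] (c : C) :
    Algebra.trace T (T ⊗[B] C) (1 ⊗ₜ[B] c) = algebraMap B T (Algebra.trace B C c) := by
  have h : Algebra.lmul T (T ⊗[B] C) (1 ⊗ₜ[B] c) = (Algebra.lmul B C c).baseChange T := by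
    apply TensorProduct.AlgebraTensorModule.curry_injective
    ext x
    simp
  rw [Algebra.trace_apply, h, LinearMap.trace_baseChange, Algebra.trace_apply]

variable {ι : Type*} [Fintype ι] [DecidableEq ι] (b : Basis ι B C)

/-- **(S1)** The discriminant commutes with base change. -/
theorem discr_baseChange :
    Algebra.discr T (Algebra.TensorProduct.basis T b) = algebraMap B T (Algebra.discr B b) := by
  have : Module.Free B C := Module.Free.of_basis b
  have : Module.Finite B C := Module.Finite.of_basis b
  rw [Algebra.discr_def, Algebra.discr_def, RingHom.map_det]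
  congr 1
  ext i j
  rw [RingHom.mapMatrix_apply, Matrix.map_apply, Algebra.traceMatrix_apply,
    Algebra.traceMatrix_apply, Algebra.traceForm_apply, Algebra.traceForm_apply,
    Algebra.TensorProduct.basis_apply, Algebra.TensorProduct.basis_apply,
    Algebra.TensorProduct.tmul_mul_tmul, mul_one, trace_one_tmul]

end BaseChange

section Points

variable {B C : Type*} [CommRing B] [CommRing C] [Algebra B C]
variable (E : Type*) [Field E] [Algebra B E]

/-- `B`-algebra maps `C → E` are the `E`-points of the base change `E ⊗[B] C`. -/
noncomputable def pointEquiv : (C →ₐ[B] E) ≃ ((E ⊗[B] C) →ₐ[E] E) where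
  toFun φ := Algebra.TensorProduct.lift (Algebra.ofId E E) φ (fun _ _ => Commute.all _ _)
  invFun Φ := (Φ.restrictScalars B).comp Algebra.TensorProduct.includeRight
  left_inv φ := by
    ext c
    simp
  right_inv Φ := by
    apply Algebra.TensorProduct.ext
    · ext
    · ext c
      simp

@[simp]
theorem pointEquiv_apply_one_tmul (φ : C →ₐ[B] E) (c : C) :
    pointEquiv E φ (1 ⊗ₜ[B] c) = φ c := by
  simp [pointEquiv]

variable {ι : Type*} [Fintype ι] [DecidableEq ι] (b : Basis ι B C)

/-- If the discriminant does not vanish in `E`, the base change has nondegenerate trace form. -/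
theorem traceForm_nondegenerate_of_discr_ne_zero
    (hd : algebraMap B E (Algebra.discr B b) ≠ 0) :
    (Algebra.traceForm E (E ⊗[B] C)).Nondegenerate := by
  rw [LinearMap.BilinForm.nondegenerate_iff_det_ne_zero (Algebra.TensorProduct.basis E b),
    ← Algebra.traceMatrix_of_basis, ← Algebra.discr_def, discr_baseChange]
  exact hd

variable [IsAlgClosed E]

/-- **(S2)** Number of points of a finite free algebra with nonvanishing discriminant in an
algebraically closed field. -/
theorem card_algHom_of_discr_ne_zero (hd : algebraMap B E (Algebra.discr B b) ≠ 0) :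
    Nat.card (C →ₐ[B] E) = Fintype.card ι := by
  have : Module.Finite E (E ⊗[B] C) := Module.Finite.of_basis (Algebra.TensorProduct.basis E b)
  have : IsReduced (E ⊗[B] C) :=
    isReduced_of_traceForm_nondegenerate (traceForm_nondegenerate_of_discr_ne_zero E b hd)
  rw [Nat.card_congr (pointEquiv E), card_algHom_eq_finrank,
    Module.finrank_eq_card_basis (Algebra.TensorProduct.basis E b)]

/-- **(S2')** With all points enumerated by `e`, the square of the determinant of the matrix of
values is the image of the discriminant. -/
theorem det_sq_eq_discr (hd : algebraMap B E (Algebra.discr B b) ≠ 0) (e : ι ≃ (C →ₐ[B] E)) :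
    (Matrix.det (Matrix.of fun a i => e a (b i))) ^ 2 = algebraMap B E (Algebra.discr B b) := by
  have : Module.Finite E (E ⊗[B] C) := Module.Finite.of_basis (Algebra.TensorProduct.basis E b)
  have : IsReduced (E ⊗[B] C) :=
    isReduced_of_traceForm_nondegenerate (traceForm_nondegenerate_of_discr_ne_zero E b hd)
  rw [← discr_baseChange E b,
    discr_eq_det_sq (Algebra.TensorProduct.basis E b) (e.trans (pointEquiv E))]
  congr 2
  ext a i
  simp [Algebra.TensorProduct.basis_apply]

end Points

section Main

variable {Ω : Type*} [Field Ω] (A : ValuationSubring Ω)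
variable {B C : Type*} [CommRing B] [CommRing C] [Algebra B C]
variable [Algebra B A] [Algebra B Ω] [IsScalarTower B A Ω] [Module.Finite B C]

/-- **(S3)** Every point of a finite `B`-algebra with values in `Ω` is `A`-integral. -/
theorem algHom_mem (φ : C →ₐ[B] Ω) (c : C) : φ c ∈ A := by
  have hint : IsIntegral B c := Algebra.IsIntegral.isIntegral c
  have h1 : IsIntegral B (φ c) := hint.map φ
  have h2 : IsIntegral A (φ c) := h1.tower_top
  obtain ⟨y, hy⟩ := IsIntegrallyClosed.isIntegral_iff.mp h2
  rw [← hy]
  exact y.2

/-- The `A`-valued model of a point. -/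
noncomputable def toA (φ : C →ₐ[B] Ω) : C →ₐ[B] A where
  toFun c := ⟨φ c, algHom_mem A φ c⟩
  map_one' := Subtype.ext (map_one φ)
  map_mul' x y := Subtype.ext (map_mul φ x y)
  map_zero' := Subtype.ext (map_zero φ)
  map_add' x y := Subtype.ext (map_add φ x y)
  commutes' x := Subtype.ext (by
    show φ (algebraMap B C x) = ((algebraMap B A x : A) : Ω)
    rw [φ.commutes, IsScalarTower.algebraMap_apply B A Ω]
    rfl)

@[simp]
theorem coe_toA (φ : C →ₐ[B] Ω) (c : C) : ((toA A φ c : A) : Ω) = φ c := rfl

variable [Algebra B (IsLocalRing.ResidueField A)] [IsScalarTower B A (IsLocalRing.ResidueField A)]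

/-- The reduction of a point. -/
noncomputable def red (φ : C →ₐ[B] Ω) :
    C →ₐ[B] IsLocalRing.ResidueField A :=
  (IsScalarTower.toAlgHom B A (IsLocalRing.ResidueField A)).comp (toA A φ)

theorem red_apply (φ : C →ₐ[B] Ω) (c : C) :
    red A φ c = IsLocalRing.residue A (toA A φ c) := rfl

variable {ι : Type*} [Fintype ι] [DecidableEq ι] (b : Basis ι B C)

omit [Algebra B (IsLocalRing.ResidueField A)] [IsScalarTower B A (IsLocalRing.ResidueField A)]
  [Module.Finite B C] in
theorem algebraMap_discr_ne_zero (hd : IsUnit (algebraMap B A (Algebra.discr B b))) :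
    algebraMap B Ω (Algebra.discr B b) ≠ 0 := by
  rw [IsScalarTower.algebraMap_apply B A Ω]
  intro h
  have h0 : algebraMap B A (Algebra.discr B b) = 0 := Subtype.ext h
  rw [h0] at hd
  exact not_isUnit_zero hd

omit [Algebra B Ω] [IsScalarTower B A Ω] [Module.Finite B C] in
theorem algebraMap_discr_residue_ne_zero (hd : IsUnit (algebraMap B A (Algebra.discr B b))) :
    algebraMap B (IsLocalRing.ResidueField A) (Algebra.discr B b) ≠ 0 := by
  rw [IsScalarTower.algebraMap_apply B A (IsLocalRing.ResidueField A)]
  intro h
  have := (IsLocalRing.residue_eq_zero_iff _).mp h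
  exact this hd

/-- **(S4, injectivity)** Two points with the same reduction are equal, if the discriminant is
a unit. -/
theorem red_injective [IsAlgClosed Ω] (hd : IsUnit (algebraMap B A (Algebra.discr B b))) :
    Function.Injective (red A (B := B) (C := C)) := by
  have : Module.Free B C := Module.Free.of_basis b
  intro φ ψ hφψ
  by_contra hne
  have hdΩ := algebraMap_discr_ne_zero A b hd
  have hcard := card_algHom_of_discr_ne_zero Ω b hdΩ
  have : Fintype (C →ₐ[B] Ω) := Fintype.ofFinite _
  rw [Nat.card_eq_fintype_card] at hcard
  let e : ι ≃ (C →ₐ[B] Ω) := (Fintype.equivOfCardEq hcard).symm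
  have hsq := det_sq_eq_discr Ω b hdΩ e
  -- the `A`-valued matrix
  let MA : Matrix ι ι A := Matrix.of fun a i => toA A (e a) (b i)
  have hMA : (Matrix.of fun a i => e a (b i) : Matrix ι ι Ω) = MA.map A.subtype := by
    ext a i
    rfl
  have hdetA : (MA.det) ^ 2 = algebraMap B A (Algebra.discr B b) := by
    apply Subtype.ext
    have h1 : ((MA.det ^ 2 : A) : Ω) = (MA.map A.subtype).det ^ 2 := by
      rw [← RingHom.mapMatrix_apply, ← RingHom.map_det]
      rfl
    rw [h1, ← hMA, hsq, IsScalarTower.algebraMap_apply B A Ω]
    rfl
  have hunit : IsUnit MA.det := by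
    have : IsUnit (MA.det ^ 2) := hdetA ▸ hd
    exact (isUnit_pow_iff two_ne_zero).mp this
  -- reduce
  have hres : IsLocalRing.residue A MA.det ≠ 0 := by
    intro h
    exact ((IsLocalRing.residue_eq_zero_iff _).mp h) hunit
  apply hres
  rw [RingHom.map_det]
  have hrow : e.symm φ ≠ e.symm ψ := fun h => hne (e.symm.injective h)
  apply Matrix.det_zero_of_row_eq hrow
  ext i
  rw [RingHom.mapMatrix_apply, Matrix.map_apply, Matrix.map_apply]
  show IsLocalRing.residue A (toA A (e (e.symm φ)) (b i)) =
    IsLocalRing.residue A (toA A (e (e.symm ψ)) (b i))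
  rw [e.apply_symm_apply, e.apply_symm_apply, ← red_apply, ← red_apply, hφψ]

/-- **(S4)** Reduction is a bijection from the `Ω`-points to the `k`-points. -/
theorem red_bijective [IsAlgClosed Ω] [IsAlgClosed (IsLocalRing.ResidueField A)]
    (hd : IsUnit (algebraMap B A (Algebra.discr B b))) :
    Function.Bijective (red A (B := B) (C := C)) := by
  have : Module.Free B C := Module.Free.of_basis b
  refine (red_injective A b hd).bijective_of_nat_card_le ?_
  rw [card_algHom_of_discr_ne_zero Ω b (algebraMap_discr_ne_zero A b hd),
    card_algHom_of_discr_ne_zero (IsLocalRing.ResidueField A) b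
      (algebraMap_discr_residue_ne_zero A b hd)]

/-- Reduction as an equivalence. -/
noncomputable def redEquiv [IsAlgClosed Ω] [IsAlgClosed (IsLocalRing.ResidueField A)]
    (hd : IsUnit (algebraMap B A (Algebra.discr B b))) :
    (C →ₐ[B] Ω) ≃ (C →ₐ[B] IsLocalRing.ResidueField A) :=
  Equiv.ofBijective _ (red_bijective A b hd)

omit [Module.Finite B C] in
/-- Precomposition of a point with a ring endomorphism `g` of `C` which preserves the image of
`B` compatibly with the evaluation `B → T`. -/
def compRing {T : Type*} [CommRing T] [Algebra B T] (φ : C →ₐ[B] T) (g : C →+* C)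
    (hg : ∀ x : B, φ (g (algebraMap B C x)) = algebraMap B T x) : C →ₐ[B] T where
  toRingHom := (φ : C →+* T).comp g
  commutes' x := hg x

/-- **(S5)** Fixed points: for a ring endomorphism `g` of `C` which maps the image of `B` to
itself compatibly with the evaluation `B → A` (i.e. "`g` fixes the point of `Spec B`"), the number
of `Ω`-points fixed by `g` equals the number of `k`-points fixed by `g`. -/
theorem card_fixed_eq [IsAlgClosed Ω] [IsAlgClosed (IsLocalRing.ResidueField A)]
    (hd : IsUnit (algebraMap B A (Algebra.discr B b))) (g : C →+* C)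
    (hg : ∀ x : B, ∃ y : B, g (algebraMap B C x) = algebraMap B C y ∧
      algebraMap B A y = algebraMap B A x) :
    Nat.card {φ : C →ₐ[B] Ω // ∀ c, φ (g c) = φ c} =
      Nat.card {ψ : C →ₐ[B] IsLocalRing.ResidueField A // ∀ c, ψ (g c) = ψ c} := by
  refine Nat.card_congr ((redEquiv A b hd).subtypeEquiv fun φ => ?_)
  constructor
  · intro h c
    show red A φ (g c) = red A φ c
    rw [red_apply, red_apply]
    congr 1
    exact Subtype.ext (h c)
  · intro h
    have hφg : ∀ x : B, φ (g (algebraMap B C x)) = algebraMap B Ω x := by
      intro x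
      obtain ⟨y, hy1, hy2⟩ := hg x
      rw [hy1, φ.commutes, IsScalarTower.algebraMap_apply B A Ω, hy2,
        ← IsScalarTower.algebraMap_apply B A Ω]
    have hred : red A (compRing φ g hφg) = red A φ := by
      ext c
      exact h c
    have := red_injective A b hd hred
    intro c
    exact DFunLike.congr_fun this c

omit [IsScalarTower B A (IsLocalRing.ResidueField A)] [Module.Finite B C]
  [Algebra B (IsLocalRing.ResidueField A)] in
/-- Number of `Ω`-points. -/
theorem card_points [IsAlgClosed Ω] (hd : IsUnit (algebraMap B A (Algebra.discr B b))) :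
    Nat.card (C →ₐ[B] Ω) = Fintype.card ι :=
  card_algHom_of_discr_ne_zero Ω b (algebraMap_discr_ne_zero A b hd)

omit [Algebra B Ω] [IsScalarTower B A Ω] [Module.Finite B C] in
/-- Number of `k`-points. -/
theorem card_points_residue [IsAlgClosed (IsLocalRing.ResidueField A)]
    (hd : IsUnit (algebraMap B A (Algebra.discr B b))) :
    Nat.card (C →ₐ[B] IsLocalRing.ResidueField A) = Fintype.card ι :=
  card_algHom_of_discr_ne_zero (IsLocalRing.ResidueField A) b
    (algebraMap_discr_residue_ne_zero A b hd)

end Main

end Fermat.Agent.S18.C.Specialize
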