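/-
PROJECT H (S18), block C, slice H-C2: FINITE ETALE ALGEBRAS in the naive sense
(`finite free with unit discriminant`).

* `FinEt R S` : there is a finite `R`-basis of `S` with unit discriminant.
* `FinEt.isUnit_discr` : then EVERY finite basis has unit discriminant.
* `FinEt.baseChange` (T1), `FinEt.prod` (T6), `FinEt.of_algEquiv`, `FinEt.refl`.
* `discr_ne_zero_of_card_algHom` (T3) : `rank` distinct points in an algebraically closed field
  force the discriminant to be nonzero there.
* `isIntegral_trace_of_isIntegral` : trace of an integral element of a finite free algebra over the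
  fraction field of an integrally closed domain is integral.
* `FinEt.mem_range_of_isIntegral` (T2) : `S` is integrally closed in `K ⊗[R] S`.
-/
import Mathlib
import Fermat.Agent.S18.C.Specialize

set_option autoImplicit false
set_option linter.dupNamespace false
set_option linter.unusedSectionVars false

namespace Fermat.Agent.S18.C.FinEt

open Module
open scoped TensorProduct Matrix

universe u v

section Defs

variable (R : Type u) (S : Type v) [CommRing R] [CommRing S] [Algebra R S]

/-- `S` is finite étale over `R` in the naive sense: finite free with unit discriminant. -/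
def FinEt : Prop :=
  ∃ (n : ℕ) (b : Basis (Fin n) R S), IsUnit (Algebra.discr R b)

variable {R S}

theorem FinEt.finite (h : FinEt R S) : Module.Finite R S := by
  obtain ⟨n, b, -⟩ := h
  exact Module.Finite.of_basis b

theorem FinEt.free (h : FinEt R S) : Module.Free R S := by
  obtain ⟨n, b, -⟩ := h
  exact Module.Free.of_basis b

/-- Any finite basis with unit discriminant witnesses `FinEt`. -/
theorem finEt_of_basis {ι : Type*} [Fintype ι] [DecidableEq ι] (b : Basis ι R S)
    (h : IsUnit (Algebra.discr R b)) : FinEt R S := by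
  refine ⟨Fintype.card ι, b.reindex (Fintype.equivFin ι), ?_⟩
  rw [Basis.coe_reindex, Algebra.discr_reindex]
  exact h

/-- Change of basis multiplies the discriminant by the square of a unit. -/
theorem discr_eq_det_sq_mul {ι : Type*} [Fintype ι] [DecidableEq ι] (b b' : Basis ι R S) :
    Algebra.discr R b' = (b.toMatrix b').det ^ 2 * Algebra.discr R b := by
  rw [← Algebra.discr_of_matrix_vecMul]
  congr 1
  funext j
  rw [Matrix.vecMul, dotProduct]
  simp only [Matrix.map_apply]
  rw [← b.sum_toMatrix_smul_self b' j]
  refine Finset.sum_congr rfl fun i _ => ?_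
  rw [Algebra.smul_def, mul_comm]

/-- For a finite étale algebra EVERY finite basis has unit discriminant. -/
theorem FinEt.isUnit_discr (h : FinEt R S) {ι : Type*} [Fintype ι] [DecidableEq ι]
    (b' : Basis ι R S) : IsUnit (Algebra.discr R b') := by
  obtain ⟨n, b, hb⟩ := h
  rcases subsingleton_or_nontrivial R with hR | hR
  · exact isUnit_of_subsingleton _
  let e : ι ≃ Fin n := b'.indexEquiv b
  have h1 : Algebra.discr R (b'.reindex e) = Algebra.discr R b' := by
    rw [Basis.coe_reindex, Algebra.discr_reindex]
  rw [← h1, discr_eq_det_sq_mul b (b'.reindex e)]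
  have hdet : IsUnit (b.toMatrix (b'.reindex e)).det := by
    have := b.invertibleToMatrix (b'.reindex e)
    exact (Matrix.isUnit_iff_isUnit_det _).mp (isUnit_of_invertible _)
  exact (hdet.pow 2).mul hb

variable (R) in
theorem FinEt.refl : FinEt R R := by
  refine finEt_of_basis (Basis.singleton Unit R) ?_
  have : Algebra.discr R (Basis.singleton Unit R : Unit → R) = 1 := by
    rw [Algebra.discr_def, Matrix.det_unique, Algebra.traceMatrix_apply]
    simp [Algebra.traceForm_apply]
  rw [this]
  exact isUnit_one

/-- (T1) Base change. -/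
theorem FinEt.baseChange (h : FinEt R S) (T : Type*) [CommRing T] [Algebra R T] :
    FinEt T (T ⊗[R] S) := by
  obtain ⟨n, b, hb⟩ := h
  refine finEt_of_basis (Algebra.TensorProduct.basis T b) ?_
  rw [Specialize.discr_baseChange]
  exact hb.map (algebraMap R T)

/-- Transport along an algebra isomorphism. -/
theorem FinEt.of_algEquiv {S' : Type*} [CommRing S'] [Algebra R S'] (h : FinEt R S)
    (e : S ≃ₐ[R] S') : FinEt R S' := by
  obtain ⟨n, b, hb⟩ := h
  refine finEt_of_basis (b.map e.toLinearEquiv) ?_
  have : (b.map e.toLinearEquiv : Fin n → S') = e ∘ b := by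
    funext i
    simp
  rw [this, ← Algebra.discr_eq_discr_of_algEquiv b e]
  exact hb

end Defs

section Prod

variable {R : Type u} {S₁ S₂ : Type v} [CommRing R] [CommRing S₁] [CommRing S₂] [Algebra R S₁]
  [Algebra R S₂]

/-- The discriminant of the product basis is the product of the discriminants. -/
theorem discr_prod {ι₁ ι₂ : Type*} [Fintype ι₁] [Fintype ι₂] [DecidableEq ι₁] [DecidableEq ι₂]
    (b₁ : Basis ι₁ R S₁) (b₂ : Basis ι₂ R S₂) :
    Algebra.discr R (b₁.prod b₂) = Algebra.discr R b₁ * Algebra.discr R b₂ := by
  have : Module.Free R S₁ := Module.Free.of_basis b₁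
  have : Module.Free R S₂ := Module.Free.of_basis b₂
  have : Module.Finite R S₁ := Module.Finite.of_basis b₁
  have : Module.Finite R S₂ := Module.Finite.of_basis b₂
  have h : Algebra.traceMatrix R (b₁.prod b₂) =
      Matrix.fromBlocks (Algebra.traceMatrix R b₁) 0 0 (Algebra.traceMatrix R b₂) := by
    ext i j
    rcases i with i | i <;> rcases j with j | j <;>
      simp [Algebra.traceMatrix_apply, Algebra.traceForm_apply, Algebra.trace_prod_apply,
        Basis.prod_apply]
  rw [Algebra.discr_def, h, Matrix.det_fromBlocks_zero₂₁, Algebra.discr_def, Algebra.discr_def]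

/-- (T6) Binary products. -/
theorem FinEt.prod (h₁ : FinEt R S₁) (h₂ : FinEt R S₂) : FinEt R (S₁ × S₂) := by
  obtain ⟨n₁, b₁, hb₁⟩ := h₁
  obtain ⟨n₂, b₂, hb₂⟩ := h₂
  refine finEt_of_basis (b₁.prod b₂) ?_
  rw [discr_prod]
  exact hb₁.mul hb₂

end Prod

section Converse

variable {E S : Type*} [Field E] [CommRing S] [Algebra E S] [FiniteDimensional E S]

/-- A finite-dimensional algebra with as many points as its dimension is reduced, and the matrix
of values of the points on a basis is invertible. -/
theorem det_ne_zero_of_card_algHom {ι : Type*} [Fintype ι] [DecidableEq ι] (b : Basis ι E S)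
    (e : ι ≃ (S →ₐ[E] E)) : (Matrix.of fun a i => e a (b i)).det ≠ 0 := by
  intro hdet
  obtain ⟨v, hv0, hv⟩ := Matrix.exists_vecMul_eq_zero_iff.mpr hdet
  have hli := linearIndependent_algHom_toLinearMap E S E
  have hli' : LinearIndependent E (fun a : ι => (e a).toLinearMap) :=
    hli.comp e e.injective
  have hzero : ∑ a, v a • (e a).toLinearMap = 0 := by
    apply b.ext
    intro i
    have := congrFun hv i
    simp only [Matrix.vecMul, dotProduct, Matrix.of_apply, Pi.zero_apply] at this
    simpa [LinearMap.sum_apply, smul_eq_mul] using this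
  have := Fintype.linearIndependent_iff.mp hli' v hzero
  exact hv0 (funext this)

theorem isReduced_of_card_algHom (h : Nat.card (S →ₐ[E] E) = Module.finrank E S) :
    IsReduced S := by
  classical
  have hfin : Finite (S →ₐ[E] E) := by
    have := (linearIndependent_algHom_toLinearMap E S E).finite
    exact this
  have : Fintype (S →ₐ[E] E) := Fintype.ofFinite _
  let b := Module.finBasis E S
  have hcard : Fintype.card (Fin (Module.finrank E S)) = Fintype.card (S →ₐ[E] E) := by
    rw [Fintype.card_fin, ← h, Nat.card_eq_fintype_card]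
  let e : Fin (Module.finrank E S) ≃ (S →ₐ[E] E) := Fintype.equivOfCardEq hcard
  have hdet := det_ne_zero_of_card_algHom b e
  -- the evaluation map is injective
  have hinj : Function.Injective (Specialize.evHom E S) := by
    rw [injective_iff_map_eq_zero]
    intro s hs
    have hs' : ∀ a, e a s = 0 := fun a => congrFun hs (e a)
    have hrepr : (Matrix.of fun a i => e a (b i)) *ᵥ (fun i => b.repr s i) = 0 := by
      funext a
      simp only [Matrix.mulVec, dotProduct, Matrix.of_apply, Pi.zero_apply]
      have : e a s = ∑ i, e a (b i) * b.repr s i := by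
        conv_lhs => rw [← b.sum_repr s]
        rw [map_sum]
        refine Finset.sum_congr rfl fun i _ => ?_
        rw [map_smul, smul_eq_mul, mul_comm]
      rw [← this, hs' a]
    have := Matrix.eq_zero_of_mulVec_eq_zero hdet hrepr
    apply b.repr.injective
    ext i
    simpa using congrFun this i
  exact isReduced_of_injective (Specialize.evHom E S) hinj

end Converse

section ConversePoints

variable {B C : Type*} [CommRing B] [CommRing C] [Algebra B C]
variable (E : Type*) [Field E] [Algebra B E]
variable {ι : Type*} [Fintype ι] [DecidableEq ι] (b : Basis ι B C)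

/-- (T3) Converse of `Specialize.card_algHom_of_discr_ne_zero`: if `C` has `rank` points in the
field `E`, the discriminant does not vanish in `E`. -/
theorem discr_ne_zero_of_card_algHom [IsAlgClosed E]
    (h : Nat.card (C →ₐ[B] E) = Fintype.card ι) :
    algebraMap B E (Algebra.discr B b) ≠ 0 := by
  have hfinE : Module.Finite E (E ⊗[B] C) :=
    Module.Finite.of_basis (Algebra.TensorProduct.basis E b)
  have hrank : Module.finrank E (E ⊗[B] C) = Fintype.card ι :=
    Module.finrank_eq_card_basis (Algebra.TensorProduct.basis E b)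
  have hcard : Nat.card ((E ⊗[B] C) →ₐ[E] E) = Module.finrank E (E ⊗[B] C) := by
    rw [← Nat.card_congr (Specialize.pointEquiv (C := C) E), h, hrank]
  have hred : IsReduced (E ⊗[B] C) := isReduced_of_card_algHom hcard
  have hfin : Finite ((E ⊗[B] C) →ₐ[E] E) :=
    (linearIndependent_algHom_toLinearMap E (E ⊗[B] C) E).finite
  have : Fintype ((E ⊗[B] C) →ₐ[E] E) := Fintype.ofFinite _
  have hc : Fintype.card ι = Fintype.card ((E ⊗[B] C) →ₐ[E] E) := by
    rw [← hrank, ← hcard, Nat.card_eq_fintype_card]
  let e : ι ≃ ((E ⊗[B] C) →ₐ[E] E) := Fintype.equivOfCardEq hc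
  rw [← Specialize.discr_baseChange E b,
    Specialize.discr_eq_det_sq (Algebra.TensorProduct.basis E b) e]
  exact pow_ne_zero 2 (det_ne_zero_of_card_algHom (Algebra.TensorProduct.basis E b) e)

/-- (T3) as an equivalence, for algebraically closed `E`. -/
theorem discr_ne_zero_iff_card_algHom [IsAlgClosed E] :
    algebraMap B E (Algebra.discr B b) ≠ 0 ↔ Nat.card (C →ₐ[B] E) = Fintype.card ι :=
  ⟨Specialize.card_algHom_of_discr_ne_zero E b, discr_ne_zero_of_card_algHom E b⟩

end ConversePoints

section TraceIntegral

open Polynomial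

variable {R K : Type*} [CommRing R] [Field K] [Algebra R K]

/-- The trace of a matrix over a field annihilated by a monic polynomial over `R` is integral
over `R`. -/
theorem isIntegral_trace_matrix {n : Type*} [Fintype n] [DecidableEq n] (M : Matrix n n K)
    (p : R[X]) (hp : p.Monic) (hM : aeval M p = 0) : IsIntegral R M.trace := by
  rcases isEmpty_or_nonempty n with hn | hn
  · have : M.trace = 0 := by simp [Matrix.trace]
    rw [this]; exact isIntegral_zero
  set Kb := AlgebraicClosure K with hKb
  let f : Matrix n n K →ₐ[R] Matrix n n Kb := (IsScalarTower.toAlgHom R K Kb).mapMatrix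
  set Mb : Matrix n n Kb := f M with hMb
  have hMb' : Mb = M.map (algebraMap K Kb) := rfl
  have hzero : aeval Mb p = 0 := by
    rw [hMb, aeval_algHom_apply, hM, map_zero]
  have htrace : algebraMap K Kb M.trace = Mb.trace := by
    rw [hMb']
    exact AddMonoidHom.map_trace (algebraMap K Kb) M
  rw [← isIntegral_algebraMap_iff (FaithfulSMul.algebraMap_injective K Kb), htrace,
    Matrix.trace_eq_sum_roots_charpoly]
  refine IsIntegral.multiset_sum fun lam hlam => ?_
  have hroot : IsRoot Mb.charpoly lam := (mem_roots'.mp hlam).2
  have hspec : lam ∈ spectrum Kb Mb := Matrix.mem_spectrum_iff_isRoot_charpoly.mpr hroot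
  have h1 := spectrum.subset_polynomial_aeval Mb (p.map (algebraMap R Kb)) ⟨lam, hspec, rfl⟩
  rw [aeval_map_algebraMap, hzero, spectrum.zero_eq, Set.mem_singleton_iff] at h1
  refine ⟨p, hp, ?_⟩
  rw [eval₂_eq_eval_map]
  exact h1

variable {A' : Type*} [CommRing A'] [Algebra K A'] [Algebra R A'] [IsScalarTower R K A']
  [FiniteDimensional K A']

/-- The trace of an integral element of a finite-dimensional commutative algebra over a field
is integral. (Mathlib's `Algebra.isIntegral_trace` needs the algebra to be a field.) -/
theorem isIntegral_trace_of_isIntegral {x : A'} (hx : IsIntegral R x) :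
    IsIntegral R (Algebra.trace K A' x) := by
  classical
  obtain ⟨p, hp, hpx⟩ := hx
  let b := Module.finBasis K A'
  rw [Algebra.trace_eq_matrix_trace b x]
  refine isIntegral_trace_matrix _ p hp ?_
  have h1 : aeval (((Algebra.leftMulMatrix b).restrictScalars R) x) p
      = ((Algebra.leftMulMatrix b).restrictScalars R) (aeval x p) := aeval_algHom_apply _ x p
  have h2 : aeval x p = 0 := by rw [aeval_def]; exact hpx
  rw [h2, map_zero] at h1
  exact h1

end TraceIntegral

section IntegrallyClosed

variable {R : Type u} {S : Type v} [CommRing R] [CommRing S] [Algebra R S]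
variable (K : Type*) [Field K] [Algebra R K]

/-- Trace pairing of two basis vectors after base change. -/
theorem trace_basis_mul_basis {n : ℕ} (b : Basis (Fin n) R S) (i j : Fin n) :
    Algebra.trace K (K ⊗[R] S)
      (Algebra.TensorProduct.basis K b i * Algebra.TensorProduct.basis K b j) =
      algebraMap R K (Algebra.traceMatrix R b i j) := by
  have : Module.Free R S := Module.Free.of_basis b
  have : Module.Finite R S := Module.Finite.of_basis b
  rw [Algebra.TensorProduct.basis_apply, Algebra.TensorProduct.basis_apply,
    Algebra.TensorProduct.tmul_mul_tmul, mul_one, Specialize.trace_one_tmul,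
    Algebra.traceMatrix_apply, Algebra.traceForm_apply]

variable [IsDomain R] [IsIntegrallyClosed R] [IsFractionRing R K]

/-- (T2) **A finite étale algebra over an integrally closed domain `R` is integrally closed in
its generic fibre**: an element of `K ⊗[R] S` integral over `R` comes from `S`. -/
theorem FinEt.mem_range_of_isIntegral (h : FinEt R S) {x : K ⊗[R] S} (hx : IsIntegral R x) :
    ∃ s : S, (1 : K) ⊗ₜ[R] s = x := by
  classical
  obtain ⟨n, b, hb⟩ := h
  have hfinS : Module.Finite R S := Module.Finite.of_basis b
  set bK := Algebra.TensorProduct.basis K b with hbK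
  have hfinK : Module.Finite K (K ⊗[R] S) := Module.Finite.of_basis bK
  set G : Matrix (Fin n) (Fin n) R := Algebra.traceMatrix R b with hG
  have hGdet : IsUnit G.det := hb
  -- the traces `t j = Tr (x * bK j)` lie in `R`
  have hint : ∀ j, IsIntegral R (x * bK j) := by
    intro j
    refine hx.mul ?_
    rw [hbK, Algebra.TensorProduct.basis_apply]
    have h1 : IsIntegral R (b j) := IsIntegral.of_finite R (b j)
    exact h1.map (Algebra.TensorProduct.includeRight : S →ₐ[R] K ⊗[R] S)
  have htr : ∀ j, ∃ r : R, algebraMap R K r = Algebra.trace K (K ⊗[R] S) (x * bK j) := fun j =>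
    IsIntegrallyClosed.isIntegral_iff.mp (isIntegral_trace_of_isIntegral (hint j))
  choose r hr using htr
  -- the coordinates of `x`
  set c : Fin n → K := fun i => bK.repr x i with hc
  have hxsum : x = ∑ i, c i • bK i := (bK.sum_repr x).symm
  have ht : ∀ j, algebraMap R K (r j) = ∑ i, c i * algebraMap R K (G i j) := by
    intro j
    rw [hr j]
    conv_lhs => rw [hxsum, Finset.sum_mul, map_sum]
    refine Finset.sum_congr rfl fun i _ => ?_
    rw [smul_mul_assoc, map_smul, smul_eq_mul, hbK, trace_basis_mul_basis]
  -- invert the Gram matrix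
  have hck : ∀ k, c k = algebraMap R K (∑ j, r j * G⁻¹ j k) := by
    intro k
    rw [map_sum]
    have h1 : ∑ j, algebraMap R K (r j * G⁻¹ j k)
        = ∑ i, c i * algebraMap R K ((G * G⁻¹) i k) := by
      simp_rw [map_mul, ht, Finset.sum_mul, Matrix.mul_apply, map_sum, Finset.mul_sum, map_mul]
      rw [Finset.sum_comm]
      refine Finset.sum_congr rfl fun i _ => Finset.sum_congr rfl fun j _ => ?_
      ring
    rw [h1, Matrix.mul_nonsing_inv G hGdet]
    simp [Matrix.one_apply]
  refine ⟨∑ k, (∑ j, r j * G⁻¹ j k) • b k, ?_⟩
  rw [hxsum, TensorProduct.tmul_sum]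
  refine Finset.sum_congr rfl fun k _ => ?_
  rw [hck k, hbK, Algebra.TensorProduct.basis_apply, TensorProduct.tmul_smul,
    ← algebraMap_smul K (∑ j, r j * G⁻¹ j k) ((1 : K) ⊗ₜ[R] b k)]

/-- (T2), iff form. -/
theorem FinEt.isIntegral_iff_mem_range (h : FinEt R S) (x : K ⊗[R] S) :
    IsIntegral R x ↔ ∃ s : S, (1 : K) ⊗ₜ[R] s = x := by
  refine ⟨fun hx => h.mem_range_of_isIntegral K hx, ?_⟩
  rintro ⟨s, rfl⟩
  have := h.finite
  have h1 : IsIntegral R s := IsIntegral.of_finite R s
  exact h1.map (Algebra.TensorProduct.includeRight : S →ₐ[R] K ⊗[R] S)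

/-- (T2) for an arbitrary model `A'` of the generic fibre: if `ι : S → A'` induces a bijection
`K ⊗[R] S → A'`, every element of `A'` integral over `R` lies in `ι S`. -/
theorem FinEt.mem_range_of_isIntegral_of_bijective (h : FinEt R S) {A' : Type*} [CommRing A']
    [Algebra K A'] [Algebra R A'] [IsScalarTower R K A'] (ι : S →ₐ[R] A')
    (hbij : Function.Bijective
      (Algebra.TensorProduct.lift (Algebra.ofId K A') ι (fun _ _ => Commute.all _ _) :
        K ⊗[R] S →ₐ[K] A'))
    {x : A'} (hx : IsIntegral R x) : ∃ s : S, ι s = x := by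
  set Φ : K ⊗[R] S →ₐ[K] A' :=
    Algebra.TensorProduct.lift (Algebra.ofId K A') ι (fun _ _ => Commute.all _ _) with hΦ
  obtain ⟨y, rfl⟩ := hbij.2 x
  have hy : IsIntegral R y := by
    have h1 : IsIntegral R ((Φ.restrictScalars R) y) := hx
    exact (isIntegral_algHom_iff (Φ.restrictScalars R) hbij.1).mp h1
  obtain ⟨s, rfl⟩ := h.mem_range_of_isIntegral K hy
  exact ⟨s, by simp [hΦ]⟩

end IntegrallyClosed

end Fermat.Agent.S18.C.FinEt
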