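import Mathlib
import Fermat.Agent.S18.C.Defs
import Fermat.Agent.S18.Purity.RegularLocal

/-!
# PROJECT H (S18), block C, slice H-C7b: the local ring `discRing V = V[μ]_(𝔪_V, μ)`

For a valuation subring `V` of a field `K`, the subring `discRing V ⊆ K(μ)` of `C/Defs.lean` is
identified with the localisation of `(↥V)[X]` at the closed point `(𝔪_V, X)` of helper14's
`Purity/RegularLocal.lean`; all the structure results of that file are transported here.

Main exports (namespace `Fermat.Agent.S18.C.DiscRingLocal`):

* `polyIncl V : (↥V)[X] →+* K[X]`, `polyToDisc V : (↥V)[X] →+* discRing V` and the instance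
  `Algebra (↥V)[X] (discRing V)`;
* instance `IsLocalization.AtPrime (discRing V) (closedPoint ↥V)`;
* instances `IsLocalRing (discRing V)`, `IsIntegrallyClosed (discRing V)`,
  (`IsDiscreteValuationRing ↥V` :) `IsNoetherianRing (discRing V)`;
* `evZero V : discRing V →+* V` (`μ ↦ 0`), `evClosed V : discRing V →+* ResidueField V`,
  `isUnit_iff_evClosed_ne_zero`;
* `discMap f V₁ V₂ h : discRing V₁ →+* discRing V₂` for `f : K₁ →+* K₂` with
  `h : ∀ x, x ∈ V₁ ↔ f x ∈ V₂`, with its compatibilities;
* `evDisc V t ht : discRing V →+* V` for `V.valuation t < 1` (`μ ↦ t`), `evDisc_spec`,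
  `residue_evDisc`;
* `prime_muX`, `quotMuEquiv`, `isDiscreteValuationRing_top`.
-/

set_option autoImplicit false
set_option linter.style.haveILetI false

noncomputable section

namespace Fermat.Agent.S18.C.DiscRingLocal

open Polynomial Fermat.Agent.S18.C.Defs Fermat.Agent.S18.Purity

section Basic

variable {K : Type*} [Field K] (V : ValuationSubring K)

/-- the inclusion `V[X] → K[X]` -/
def polyIncl : (↥V)[X] →+* K[X] := Polynomial.mapRingHom V.subtype

theorem polyIncl_apply (p : (↥V)[X]) : polyIncl V p = p.map V.subtype := rfl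

@[simp] theorem polyIncl_coeff (p : (↥V)[X]) (i : ℕ) : (polyIncl V p).coeff i = (p.coeff i : K) := by
  simp [polyIncl]

@[simp] theorem polyIncl_X : polyIncl V X = X := by simp [polyIncl]

@[simp] theorem polyIncl_C (a : V) : polyIncl V (C a) = C (a : K) := by simp [polyIncl]

theorem polyIncl_injective : Function.Injective (polyIncl V) :=
  Polynomial.map_injective _ Subtype.val_injective

theorem polyIncl_mem (p : (↥V)[X]) : polyIncl V p ∈ polyV V := ⟨p, rfl⟩

theorem exists_polyIncl_eq {p : K[X]} (hp : p ∈ polyV V) : ∃ q : (↥V)[X], polyIncl V q = p := hp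

/-- `x` is a unit of `V` iff `x ≠ 0` and `x` and `x⁻¹` lie in `V`. -/
theorem valuation_eq_one_iff_mem {x : K} : V.valuation x = 1 ↔ x ≠ 0 ∧ x ∈ V ∧ x⁻¹ ∈ V := by
  constructor
  · intro h
    refine ⟨?_, (V.valuation_le_one_iff x).mp h.le, (V.valuation_le_one_iff _).mp ?_⟩
    · rintro rfl
      simp at h
    · rw [map_inv₀, h, inv_one]
  · rintro ⟨hx, h1, h2⟩
    have h1' := (V.valuation_le_one_iff x).mpr h1
    have h2' := (V.valuation_le_one_iff _).mpr h2
    rw [map_inv₀] at h2'
    have hne : V.valuation x ≠ 0 := (Valuation.ne_zero_iff _).mpr hx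
    exact le_antisymm h1' ((inv_le_one₀ (zero_lt_iff.mpr hne)).mp h2')

/-- `V[X] → discRing V` -/
def polyToDisc : (↥V)[X] →+* discRing V :=
  ((algebraMap K[X] (RatFunc K)).comp (polyIncl V)).codRestrict (discRing V)
    fun p => algebraMap_mem_discRing V (polyIncl_mem V p)

instance instAlgebraPoly : Algebra (↥V)[X] (discRing V) := (polyToDisc V).toAlgebra

theorem algebraMap_eq : algebraMap (↥V)[X] (discRing V) = polyToDisc V := rfl

@[simp] theorem coe_algebraMap (p : (↥V)[X]) :
    ((algebraMap (↥V)[X] (discRing V) p : discRing V) : RatFunc K) =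
      algebraMap K[X] (RatFunc K) (polyIncl V p) := rfl

theorem coe_algebraMap_X :
    ((algebraMap (↥V)[X] (discRing V) X : discRing V) : RatFunc K) = RatFunc.X := by
  rw [coe_algebraMap, polyIncl_X, RatFunc.algebraMap_X]

theorem algebraMap_poly_injective : Function.Injective (algebraMap (↥V)[X] (discRing V)) := by
  intro p q h
  have h' := congrArg (Subtype.val) h
  simp only [coe_algebraMap] at h'
  exact polyIncl_injective V (IsFractionRing.injective K[X] (RatFunc K) h')

theorem coeff_zero_isUnit_iff (s : (↥V)[X]) :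
    IsUnit (s.coeff 0) ↔ V.valuation ((polyIncl V s).coeff 0) = 1 := by
  rw [polyIncl_coeff]
  exact V.valuation_eq_one_iff _

theorem mem_primeCompl_iff (s : (↥V)[X]) :
    s ∈ (closedPoint ↥V).primeCompl ↔ IsUnit (s.coeff 0) := by
  rw [Ideal.mem_primeCompl_iff, mem_closedPoint, not_not]

/-- Presentation of the elements of `discRing V` with numerator and denominator in `V[X]`. -/
theorem exists_presentation (z : discRing V) :
    ∃ (a s : (↥V)[X]), IsUnit (s.coeff 0) ∧
      (z : RatFunc K) * algebraMap K[X] (RatFunc K) (polyIncl V s) =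
        algebraMap K[X] (RatFunc K) (polyIncl V a) := by
  obtain ⟨a, s, ha, hs, hs0, h⟩ := (mem_discRing V).mp z.2
  obtain ⟨a', rfl⟩ := exists_polyIncl_eq V ha
  obtain ⟨s', rfl⟩ := exists_polyIncl_eq V hs
  exact ⟨a', s', (coeff_zero_isUnit_iff V s').mpr hs0, h⟩

instance instIsLocalizationAtPrime : IsLocalization.AtPrime (discRing V) (closedPoint ↥V) := by
  show IsLocalization (closedPoint ↥V).primeCompl (discRing V)
  rw [isLocalization_iff]
  refine ⟨?_, ?_, ?_⟩
  · rintro ⟨s, hs⟩
    rw [mem_primeCompl_iff] at hs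
    have hne : algebraMap K[X] (RatFunc K) (polyIncl V s) ≠ 0 := by
      intro h0
      have : polyIncl V s = 0 := IsFractionRing.injective K[X] (RatFunc K) (by rw [h0, map_zero])
      have hs0 : s = 0 := polyIncl_injective V (by rw [this, map_zero])
      rw [hs0] at hs
      simp at hs
    have hinv : (algebraMap K[X] (RatFunc K) (polyIncl V s))⁻¹ ∈ discRing V := by
      refine ⟨1, polyIncl V s, (polyV V).one_mem, polyIncl_mem V s,
        (coeff_zero_isUnit_iff V s).mp hs, ?_⟩
      rw [inv_mul_cancel₀ hne, map_one]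
    refine IsUnit.of_mul_eq_one (⟨_, hinv⟩ : discRing V) ?_
    apply Subtype.ext
    show algebraMap K[X] (RatFunc K) (polyIncl V s) * (algebraMap K[X] (RatFunc K) (polyIncl V s))⁻¹
      = 1
    exact mul_inv_cancel₀ hne
  · intro z
    obtain ⟨a, s, hs, h⟩ := exists_presentation V z
    refine ⟨(a, ⟨s, (mem_primeCompl_iff V s).mpr hs⟩), ?_⟩
    apply Subtype.ext
    exact h
  · intro x y h
    exact ⟨1, by rw [algebraMap_poly_injective V h]⟩

instance instIsLocalRing : IsLocalRing (discRing V) := isLocalRing ↥V (discRing V)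

instance instIsIntegrallyClosed : IsIntegrallyClosed (discRing V) :=
  isIntegrallyClosed ↥V (discRing V)

instance instIsNoetherianRing [IsNoetherianRing ↥V] : IsNoetherianRing (discRing V) :=
  isNoetherianRing ↥V (discRing V)

end Basic

/-! ### Evaluation at `μ = 0` and at the closed point -/

section Eval

variable {K : Type*} [Field K] (V : ValuationSubring K)

/-- `μ ↦ 0`: the ring homomorphism `discRing V → V`. -/
def evZero : discRing V →+* V := evalZero ↥V (discRing V)

@[simp] theorem evZero_algebraMap (p : (↥V)[X]) :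
    evZero V (algebraMap (↥V)[X] (discRing V) p) = p.coeff 0 :=
  evalZero_algebraMap (discRing V) p

theorem evZero_surjective : Function.Surjective (evZero V) := evalZero_surjective (discRing V)

/-- `evZero` through an arbitrary presentation `z * s = a`. -/
theorem evZero_spec (z : discRing V) (a s : (↥V)[X])
    (h : (z : RatFunc K) * algebraMap K[X] (RatFunc K) (polyIncl V s) =
      algebraMap K[X] (RatFunc K) (polyIncl V a)) :
    evZero V z * s.coeff 0 = a.coeff 0 := by
  have h' : z * algebraMap (↥V)[X] (discRing V) s = algebraMap (↥V)[X] (discRing V) a :=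
    Subtype.ext h
  have := congrArg (evZero V) h'
  rwa [map_mul, evZero_algebraMap, evZero_algebraMap] at this

instance instIsLocalHom_evZero : IsLocalHom (evZero V) :=
  IsLocalHom.of_surjective _ (evZero_surjective V)

/-- evaluation at the closed point `(𝔪_V, μ)`: `discRing V → κ(V)`. -/
def evClosed : discRing V →+* IsLocalRing.ResidueField ↥V :=
  (IsLocalRing.residue ↥V).comp (evZero V)

theorem evClosed_apply (z : discRing V) :
    evClosed V z = IsLocalRing.residue ↥V (evZero V z) := rfl

@[simp] theorem evClosed_algebraMap (p : (↥V)[X]) :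
    evClosed V (algebraMap (↥V)[X] (discRing V) p) = IsLocalRing.residue ↥V (p.coeff 0) := by
  rw [evClosed_apply, evZero_algebraMap]

theorem evClosed_surjective : Function.Surjective (evClosed V) :=
  (IsLocalRing.residue_surjective).comp (evZero_surjective V)

theorem isUnit_iff_isUnit_evZero (z : discRing V) : IsUnit z ↔ IsUnit (evZero V z) :=
  ⟨fun h => h.map _, fun h => isUnit_of_map_unit (evZero V) z h⟩

/-- **The unit criterion**: `z ∈ discRing V` is a unit iff it does not vanish at the closed
point. -/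
theorem isUnit_iff_evClosed_ne_zero (z : discRing V) : IsUnit z ↔ evClosed V z ≠ 0 := by
  rw [isUnit_iff_isUnit_evZero, evClosed_apply, Ne, IsLocalRing.residue_eq_zero_iff,
    IsLocalRing.notMem_maximalIdeal]

theorem mem_maximalIdeal_iff (z : discRing V) :
    z ∈ IsLocalRing.maximalIdeal (discRing V) ↔ evClosed V z = 0 := by
  rw [← not_iff_not, IsLocalRing.notMem_maximalIdeal, isUnit_iff_evClosed_ne_zero]

theorem ker_evClosed : RingHom.ker (evClosed V) = IsLocalRing.maximalIdeal (discRing V) := by
  ext z
  rw [RingHom.mem_ker, mem_maximalIdeal_iff]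

theorem ker_evZero : RingHom.ker (evZero V) =
    Ideal.span {algebraMap (↥V)[X] (discRing V) X} := ker_evalZero (discRing V)

/-- `μ` is a prime element of `discRing V`. -/
theorem prime_muX : Prime (algebraMap (↥V)[X] (discRing V) X) := prime_X (discRing V)

/-- `discRing V ⧸ (μ) ≃ V`. -/
def quotMuEquiv : (discRing V ⧸ Ideal.span {algebraMap (↥V)[X] (discRing V) X}) ≃+* V :=
  quotXEquiv (discRing V)

theorem isPrincipalIdealRing_quotMu [IsPrincipalIdealRing ↥V] :
    IsPrincipalIdealRing (discRing V ⧸ Ideal.span {algebraMap (↥V)[X] (discRing V) X}) :=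
  isPrincipalIdealRing_quotX (discRing V)

end Eval

/-! ### Functoriality in `(K, V)` -/

section Functoriality

variable {K₁ K₂ : Type*} [Field K₁] [Field K₂] (f : K₁ →+* K₂)

theorem polyMap_nonZeroDivisors :
    nonZeroDivisors K₁[X] ≤ Submonoid.comap (Polynomial.mapRingHom f) (nonZeroDivisors K₂[X]) := by
  intro p hp
  rw [Submonoid.mem_comap]
  exact mem_nonZeroDivisors_of_ne_zero
    ((Polynomial.map_ne_zero_iff f.injective).mpr (nonZeroDivisors.ne_zero hp))

/-- `K₁(μ) → K₂(μ)` induced by a field homomorphism `K₁ → K₂`. -/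
def ratMap : RatFunc K₁ →+* RatFunc K₂ :=
  RatFunc.mapRingHom (Polynomial.mapRingHom f) (polyMap_nonZeroDivisors f)

@[simp] theorem ratMap_algebraMap (p : K₁[X]) :
    ratMap f (algebraMap K₁[X] (RatFunc K₁) p) = algebraMap K₂[X] (RatFunc K₂) (p.map f) := by
  have := RatFunc.map_apply_div (Polynomial.mapRingHom f) (polyMap_nonZeroDivisors f) p 1
  simp only [map_one, div_one, Polynomial.coe_mapRingHom] at this
  rw [ratMap, RatFunc.coe_mapRingHom_eq_coe_map]
  exact this

@[simp] theorem ratMap_X : ratMap f RatFunc.X = RatFunc.X := by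
  rw [← RatFunc.algebraMap_X, ratMap_algebraMap, Polynomial.map_X, RatFunc.algebraMap_X]

@[simp] theorem ratMap_C (a : K₁) : ratMap f (RatFunc.C a) = RatFunc.C (f a) := by
  rw [← RatFunc.algebraMap_C, ratMap_algebraMap, Polynomial.map_C, RatFunc.algebraMap_C]

theorem ratMap_injective : Function.Injective (ratMap f) := (ratMap f).injective

variable (V₁ : ValuationSubring K₁) (V₂ : ValuationSubring K₂) (h : ∀ x, x ∈ V₁ ↔ f x ∈ V₂)

/-- the base map `V₁ → V₂` -/
def baseMap : V₁ →+* V₂ := (f.comp V₁.subtype).codRestrict V₂ fun x => (h x).mp x.2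

@[simp] theorem coe_baseMap (x : V₁) : (baseMap f V₁ V₂ h x : K₂) = f x := rfl

theorem baseMap_injective : Function.Injective (baseMap f V₁ V₂ h) := by
  intro x y hxy
  apply Subtype.ext
  apply f.injective
  exact congrArg Subtype.val hxy

include h in
theorem valuation_map_eq_one_iff {x : K₁} : V₂.valuation (f x) = 1 ↔ V₁.valuation x = 1 := by
  rw [valuation_eq_one_iff_mem, valuation_eq_one_iff_mem, ← map_inv₀, ← h, ← h, _root_.map_ne_zero]

include h in
theorem valuation_map_lt_one_iff {x : K₁} : V₂.valuation (f x) < 1 ↔ V₁.valuation x < 1 := by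
  rw [lt_iff_le_and_ne, lt_iff_le_and_ne, V₁.valuation_le_one_iff, V₂.valuation_le_one_iff,
    ← h, Ne, valuation_map_eq_one_iff f V₁ V₂ h]

instance isLocalHom_baseMap : IsLocalHom (baseMap f V₁ V₂ h) := by
  constructor
  intro x hx
  rw [ValuationSubring.valuation_eq_one_iff] at hx ⊢
  rw [coe_baseMap] at hx
  exact (valuation_map_eq_one_iff f V₁ V₂ h).mp hx

include h in
theorem map_mem_polyV {p : K₁[X]} (hp : p ∈ polyV V₁) : p.map f ∈ polyV V₂ := by
  rw [mem_polyV] at hp ⊢
  intro i
  rw [Polynomial.coeff_map]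
  exact (h _).mp (hp i)

theorem polyIncl_map_baseMap (p : (↥V₁)[X]) :
    polyIncl V₂ (p.map (baseMap f V₁ V₂ h)) = (polyIncl V₁ p).map f := by
  ext i
  simp [Polynomial.coeff_map]

include h in
theorem ratMap_mem {z : RatFunc K₁} (hz : z ∈ discRing V₁) : ratMap f z ∈ discRing V₂ := by
  obtain ⟨a, s, ha, hs, hs0, hzs⟩ := (mem_discRing V₁).mp hz
  refine ⟨a.map f, s.map f, map_mem_polyV f V₁ V₂ h ha, map_mem_polyV f V₁ V₂ h hs, ?_, ?_⟩
  · rw [Polynomial.coeff_map]
    exact (valuation_map_eq_one_iff f V₁ V₂ h).mpr hs0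
  · rw [← ratMap_algebraMap, ← ratMap_algebraMap, ← map_mul, hzs]

/-- **Functoriality**: `discRing V₁ → discRing V₂` for `f : K₁ → K₂` with `V₁ = f⁻¹ V₂`. -/
def discMap : discRing V₁ →+* discRing V₂ :=
  ((ratMap f).comp (discRing V₁).subtype).codRestrict (discRing V₂)
    fun z => ratMap_mem f V₁ V₂ h z.2

@[simp] theorem coe_discMap (z : discRing V₁) :
    (discMap f V₁ V₂ h z : RatFunc K₂) = ratMap f (z : RatFunc K₁) := rfl

theorem discMap_injective : Function.Injective (discMap f V₁ V₂ h) := by
  intro x y hxy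
  apply Subtype.ext
  apply ratMap_injective f
  exact congrArg Subtype.val hxy

theorem discMap_algebraMap (p : (↥V₁)[X]) :
    discMap f V₁ V₂ h (algebraMap (↥V₁)[X] (discRing V₁) p) =
      algebraMap (↥V₂)[X] (discRing V₂) (p.map (baseMap f V₁ V₂ h)) := by
  apply Subtype.ext
  rw [coe_discMap, coe_algebraMap, coe_algebraMap, ratMap_algebraMap, polyIncl_map_baseMap]

theorem evZero_discMap (z : discRing V₁) :
    evZero V₂ (discMap f V₁ V₂ h z) = baseMap f V₁ V₂ h (evZero V₁ z) := by
  have key : (evZero V₂).comp (discMap f V₁ V₂ h) = (baseMap f V₁ V₂ h).comp (evZero V₁) := by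
    apply IsLocalization.ringHom_ext (closedPoint ↥V₁).primeCompl
    ext p
    · simp only [RingHom.comp_apply, discMap_algebraMap, evZero_algebraMap, Polynomial.coeff_map]
    · simp only [RingHom.comp_apply, discMap_algebraMap, evZero_algebraMap, Polynomial.coeff_map]
  exact congrArg (fun g => g z) key

/-- the map of residue fields `κ(V₁) → κ(V₂)` -/
def resMap : IsLocalRing.ResidueField ↥V₁ →+* IsLocalRing.ResidueField ↥V₂ :=
  IsLocalRing.ResidueField.map (baseMap f V₁ V₂ h)

theorem resMap_residue (x : V₁) :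
    resMap f V₁ V₂ h (IsLocalRing.residue ↥V₁ x) = IsLocalRing.residue ↥V₂ (baseMap f V₁ V₂ h x) :=
  IsLocalRing.ResidueField.map_residue _ x

theorem evClosed_discMap (z : discRing V₁) :
    evClosed V₂ (discMap f V₁ V₂ h z) = resMap f V₁ V₂ h (evClosed V₁ z) := by
  rw [evClosed_apply, evClosed_apply, evZero_discMap, resMap_residue]

theorem isUnit_discMap_iff (z : discRing V₁) : IsUnit (discMap f V₁ V₂ h z) ↔ IsUnit z := by
  rw [isUnit_iff_evClosed_ne_zero, isUnit_iff_evClosed_ne_zero, evClosed_discMap, Ne, Ne,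
    map_eq_zero]

instance isLocalHom_discMap : IsLocalHom (discMap f V₁ V₂ h) :=
  ⟨fun z hz => (isUnit_discMap_iff f V₁ V₂ h z).mp hz⟩

end Functoriality

/-! ### Evaluation at a point `μ = t` of the open unit disc -/

section EvDisc

variable {K : Type*} [Field K] (V : ValuationSubring K)

/-- For `m ∈ 𝔪_V`, `s(m) ≡ s(0)` modulo `𝔪_V`. -/
theorem eval_sub_coeff_zero_mem (s : (↥V)[X]) {m : V} (hm : m ∈ IsLocalRing.maximalIdeal ↥V) :
    s.eval m - s.coeff 0 ∈ IsLocalRing.maximalIdeal ↥V := by
  have hs : s.eval m = m * (s.divX).eval m + s.coeff 0 := by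
    have := congrArg (Polynomial.eval m) (Polynomial.X_mul_divX_add s)
    rw [Polynomial.eval_add, Polynomial.eval_mul, Polynomial.eval_X, Polynomial.eval_C] at this
    exact this.symm
  rw [hs, add_sub_cancel_right]
  exact Ideal.mul_mem_right _ _ hm

theorem isUnit_eval_iff (s : (↥V)[X]) {m : V} (hm : m ∈ IsLocalRing.maximalIdeal ↥V) :
    IsUnit (s.eval m) ↔ IsUnit (s.coeff 0) := by
  rw [← IsLocalRing.notMem_maximalIdeal, ← IsLocalRing.notMem_maximalIdeal, not_iff_not]
  have h := eval_sub_coeff_zero_mem V s hm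
  constructor
  · intro h1
    have := Ideal.sub_mem _ h1 h
    rwa [sub_sub_cancel] at this
  · intro h1
    have := Ideal.add_mem _ h h1
    rwa [sub_add_cancel] at this

theorem residue_eval (s : (↥V)[X]) {m : V} (hm : m ∈ IsLocalRing.maximalIdeal ↥V) :
    IsLocalRing.residue ↥V (s.eval m) = IsLocalRing.residue ↥V (s.coeff 0) := by
  rw [← sub_eq_zero, ← map_sub, IsLocalRing.residue_eq_zero_iff]
  exact eval_sub_coeff_zero_mem V s hm

variable (t : K) (ht : V.valuation t < 1)

/-- the point `t` of the open unit disc as an element of `V` -/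
def discPt : V := ⟨t, (V.valuation_le_one_iff t).mp ht.le⟩

@[simp] theorem coe_discPt : (discPt V t ht : K) = t := rfl

theorem discPt_mem : discPt V t ht ∈ IsLocalRing.maximalIdeal ↥V :=
  (V.valuation_lt_one_iff _).mpr ht

/-- **Evaluation at `μ = t`**, `|t| < 1`: the ring homomorphism `discRing V → V`. -/
def evDisc : discRing V →+* V :=
  IsLocalization.lift (M := (closedPoint ↥V).primeCompl)
    (g := Polynomial.evalRingHom (discPt V t ht)) (fun y => by
      have hy := (mem_primeCompl_iff V y.1).mp y.2
      rw [Polynomial.coe_evalRingHom]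
      exact (isUnit_eval_iff V y.1 (discPt_mem V t ht)).mpr hy)

@[simp] theorem evDisc_algebraMap (p : (↥V)[X]) :
    evDisc V t ht (algebraMap (↥V)[X] (discRing V) p) = p.eval (discPt V t ht) := by
  simp [evDisc]

theorem coe_eval_discPt (p : (↥V)[X]) :
    ((p.eval (discPt V t ht) : V) : K) = (polyIncl V p).eval t := by
  rw [polyIncl_apply, Polynomial.eval_map, Polynomial.eval₂_eq_sum_range,
    Polynomial.eval_eq_sum_range]
  simp

/-- `evDisc` through a presentation `z * s = a` with `a, s ∈ V[X]`. -/
theorem evDisc_spec (z : discRing V) (a s : (↥V)[X])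
    (h : (z : RatFunc K) * algebraMap K[X] (RatFunc K) (polyIncl V s) =
      algebraMap K[X] (RatFunc K) (polyIncl V a)) :
    evDisc V t ht z * s.eval (discPt V t ht) = a.eval (discPt V t ht) := by
  have h' : z * algebraMap (↥V)[X] (discRing V) s = algebraMap (↥V)[X] (discRing V) a :=
    Subtype.ext h
  have := congrArg (evDisc V t ht) h'
  rwa [map_mul, evDisc_algebraMap, evDisc_algebraMap] at this

/-- `evDisc` through ANY presentation `z * s = a` with `a, s ∈ K[X]`. -/
theorem evDisc_spec' (z : discRing V) (a s : K[X])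
    (h : (z : RatFunc K) * algebraMap K[X] (RatFunc K) s = algebraMap K[X] (RatFunc K) a) :
    (evDisc V t ht z : K) * s.eval t = a.eval t := by
  obtain ⟨a', s', hs', h'⟩ := exists_presentation V z
  have hsp := evDisc_spec V t ht z a' s' h'
  have hsp' := congrArg (Subtype.val) hsp
  simp only [MulMemClass.coe_mul] at hsp'
  rw [coe_eval_discPt, coe_eval_discPt] at hsp'
  have hpoly : polyIncl V a' * s = a * polyIncl V s' := by
    apply IsFractionRing.injective K[X] (RatFunc K)
    rw [map_mul, map_mul, ← h, ← h']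
    ring
  have hev := congrArg (Polynomial.eval t) hpoly
  rw [Polynomial.eval_mul, Polynomial.eval_mul] at hev
  have hu : (polyIncl V s').eval t ≠ 0 := by
    rw [← coe_eval_discPt V t ht]
    have := (isUnit_eval_iff V s' (discPt_mem V t ht)).mpr hs'
    intro h0
    have h0' : s'.eval (discPt V t ht) = 0 := Subtype.ext h0
    rw [h0'] at this
    exact not_isUnit_zero this
  apply mul_right_cancel₀ hu
  calc (evDisc V t ht z : K) * s.eval t * (polyIncl V s').eval t
      = ((evDisc V t ht z : K) * (polyIncl V s').eval t) * s.eval t := by ring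
    _ = (polyIncl V a').eval t * s.eval t := by rw [hsp']
    _ = a.eval t * (polyIncl V s').eval t := hev

/-- `evDisc` is `evClosed` modulo `𝔪_V`. -/
theorem residue_evDisc (z : discRing V) :
    IsLocalRing.residue ↥V (evDisc V t ht z) = evClosed V z := by
  have key : (IsLocalRing.residue ↥V).comp (evDisc V t ht) = evClosed V := by
    apply IsLocalization.ringHom_ext (closedPoint ↥V).primeCompl
    apply RingHom.ext
    intro p
    simp only [RingHom.comp_apply, evDisc_algebraMap, evClosed_algebraMap]
    exact residue_eval V p (discPt_mem V t ht)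
  exact congrArg (fun g => g z) key

theorem isUnit_evDisc_iff (z : discRing V) : IsUnit (evDisc V t ht z) ↔ IsUnit z := by
  rw [isUnit_iff_evClosed_ne_zero, ← residue_evDisc V t ht, Ne, IsLocalRing.residue_eq_zero_iff,
    IsLocalRing.notMem_maximalIdeal]

instance isLocalHom_evDisc : IsLocalHom (evDisc V t ht) :=
  ⟨fun z hz => (isUnit_evDisc_iff V t ht z).mp hz⟩

theorem evDisc_surjective : Function.Surjective (evDisc V t ht) := fun w =>
  ⟨algebraMap (↥V)[X] (discRing V) (C w), by simp⟩

theorem evDisc_X : evDisc V t ht (algebraMap (↥V)[X] (discRing V) X) = discPt V t ht := by simp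

theorem evDisc_zero_eq (h0 : V.valuation (0 : K) < 1) : evDisc V 0 h0 = evZero V := by
  apply IsLocalization.ringHom_ext (closedPoint ↥V).primeCompl
  apply RingHom.ext
  intro p
  simp only [RingHom.comp_apply, evDisc_algebraMap, evZero_algebraMap]
  have : discPt V 0 h0 = 0 := rfl
  rw [this, Polynomial.coeff_zero_eq_eval_zero]

/-- `evZero` through ANY presentation `z * s = a` with `a, s ∈ K[X]`. -/
theorem evZero_spec' (z : discRing V) (a s : K[X])
    (h : (z : RatFunc K) * algebraMap K[X] (RatFunc K) s = algebraMap K[X] (RatFunc K) a) :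
    (evZero V z : K) * s.coeff 0 = a.coeff 0 := by
  have h0 : V.valuation (0 : K) < 1 := by simp
  rw [← evDisc_zero_eq V h0, Polynomial.coeff_zero_eq_eval_zero, Polynomial.coeff_zero_eq_eval_zero]
  exact evDisc_spec' V 0 h0 z a s h

end EvDisc

/-! ### Evaluation of `discRing (A.comap φ)` at a point of the open unit disc of `A` -/

section EvDiscAt

variable {K E : Type*} [Field K] [Field E] (φ : K →+* E) (A : ValuationSubring E)
  (t : E) (ht : A.valuation t < 1)

theorem mem_comap_iff : ∀ x : K, x ∈ A.comap φ ↔ φ x ∈ A := fun _ => ValuationSubring.mem_comap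

/-- For `φ : K → E`, `A` a valuation subring of `E` and `|t| < 1`: evaluation at `μ = t`,
`discRing (A.comap φ) → A`. -/
def evDiscAt : discRing (A.comap φ) →+* A :=
  (evDisc A t ht).comp (discMap φ (A.comap φ) A (mem_comap_iff φ A))

theorem evDiscAt_apply (z : discRing (A.comap φ)) :
    evDiscAt φ A t ht z = evDisc A t ht (discMap φ (A.comap φ) A (mem_comap_iff φ A) z) := rfl

/-- `evDiscAt` through ANY presentation `z * s = a` with `a, s ∈ K[X]`. -/
theorem evDiscAt_spec (z : discRing (A.comap φ)) (a s : K[X])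
    (h : (z : RatFunc K) * algebraMap K[X] (RatFunc K) s = algebraMap K[X] (RatFunc K) a) :
    (evDiscAt φ A t ht z : E) * s.eval₂ φ t = a.eval₂ φ t := by
  rw [evDiscAt_apply, ← Polynomial.eval_map, ← Polynomial.eval_map]
  apply evDisc_spec'
  rw [coe_discMap, ← ratMap_algebraMap, ← ratMap_algebraMap, ← map_mul, h]

theorem residue_evDiscAt (z : discRing (A.comap φ)) :
    IsLocalRing.residue ↥A (evDiscAt φ A t ht z) =
      resMap φ (A.comap φ) A (mem_comap_iff φ A) (evClosed (A.comap φ) z) := by
  rw [evDiscAt_apply, residue_evDisc, evClosed_discMap]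

theorem isUnit_evDiscAt_iff (z : discRing (A.comap φ)) :
    IsUnit (evDiscAt φ A t ht z) ↔ IsUnit z := by
  rw [evDiscAt_apply, isUnit_evDisc_iff, isUnit_discMap_iff]

end EvDiscAt

/-! ### The case of a field: `discRing ⊤ = K[μ]_(μ)` is a discrete valuation ring -/

section Top

variable {K : Type*} [Field K] (V : ValuationSubring K)

theorem maximalIdeal_eq_span_mu (hV : IsLocalRing.maximalIdeal ↥V = ⊥) :
    IsLocalRing.maximalIdeal (discRing V) =
      Ideal.span {algebraMap (↥V)[X] (discRing V) X} := by
  rw [← ker_evZero]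
  ext z
  rw [mem_maximalIdeal_iff, evClosed_apply, IsLocalRing.residue_eq_zero_iff, hV, Ideal.mem_bot,
    RingHom.mem_ker]

theorem algebraMap_X_ne_zero : algebraMap (↥V)[X] (discRing V) X ≠ 0 := (prime_muX V).ne_zero

theorem isDiscreteValuationRing_of_isField (hV : IsField ↥V) :
    IsDiscreteValuationRing (discRing V) ∧
      Irreducible (algebraMap (↥V)[X] (discRing V) X) := by
  have hbot : IsLocalRing.maximalIdeal ↥V = ⊥ :=
    (IsLocalRing.isField_iff_maximalIdeal_eq).mp hV
  have hmax := maximalIdeal_eq_span_mu V hbot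
  have hpid : IsPrincipalIdealRing ↥V := hV.isPrincipalIdealRing
  have hnoeth : IsNoetherianRing (discRing V) := isNoetherianRing ↥V (discRing V)
  have hnotfield : ¬ IsField (discRing V) := by
    rw [IsLocalRing.isField_iff_maximalIdeal_eq, hmax, Ideal.span_singleton_eq_bot]
    exact algebraMap_X_ne_zero V
  have hprinc : (IsLocalRing.maximalIdeal (discRing V)).IsPrincipal := ⟨⟨_, hmax⟩⟩
  have hdvr : IsDiscreteValuationRing (discRing V) :=
    ((IsDiscreteValuationRing.TFAE (discRing V) hnotfield).out 0 4).mpr hprinc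
  exact ⟨hdvr, (IsDiscreteValuationRing.irreducible_iff_uniformizer _).mpr hmax⟩

theorem isField_top : IsField ↥(⊤ : ValuationSubring K) := by
  refine ⟨⟨0, 1, zero_ne_one⟩, mul_comm, ?_⟩
  intro a ha
  have ha' : (a : K) ≠ 0 := fun h0 => ha (Subtype.ext h0)
  exact ⟨⟨(a : K)⁻¹, ValuationSubring.mem_top _⟩, Subtype.ext (mul_inv_cancel₀ ha')⟩

/-- `discRing ⊤ = K[μ]_(μ)` is a discrete valuation ring with uniformiser `μ`. -/
theorem isDiscreteValuationRing_top :
    IsDiscreteValuationRing (discRing (⊤ : ValuationSubring K)) ∧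
      Irreducible (algebraMap (↥(⊤ : ValuationSubring K))[X] (discRing (⊤ : ValuationSubring K)) X) :=
  isDiscreteValuationRing_of_isField ⊤ isField_top

end Top

/-! ### The fraction field of `discRing V` is `K(μ)` -/

section FractionField

variable {K : Type*} [Field K] (V : ValuationSubring K)

/-- clearing the denominators of the coefficients of a polynomial -/
theorem exists_smul_mem_polyV (p : K[X]) :
    ∃ (b : V) (q : (↥V)[X]), b ≠ 0 ∧ polyIncl V q = C (b : K) * p := by
  obtain ⟨b, hb, h⟩ := IsLocalization.integerNormalization_spec (nonZeroDivisors ↥V) (S := K) p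
  refine ⟨b, IsLocalization.integerNormalization (nonZeroDivisors ↥V) p,
    nonZeroDivisors.ne_zero hb, ?_⟩
  rw [polyIncl_apply]
  have h' : (IsLocalization.integerNormalization (nonZeroDivisors ↥V) p).map V.subtype = b • p := h
  rw [h', Polynomial.C_mul']
  rfl

theorem coe_ne_zero_of_ne_zero {z : discRing V} (hz : z ≠ 0) : (z : RatFunc K) ≠ 0 :=
  fun h0 => hz (Subtype.ext h0)

instance instIsFractionRing : IsFractionRing (discRing V) (RatFunc K) := by
  show IsLocalization (nonZeroDivisors (discRing V)) (RatFunc K)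
  rw [isLocalization_iff]
  refine ⟨?_, ?_, ?_⟩
  · rintro ⟨y, hy⟩
    exact (coe_ne_zero_of_ne_zero V (nonZeroDivisors.ne_zero hy)).isUnit
  · intro z
    induction z using RatFunc.induction_on with
    | f p q hq =>
      obtain ⟨b₁, p', hb₁, hp'⟩ := exists_smul_mem_polyV V p
      obtain ⟨b₂, q', hb₂, hq'⟩ := exists_smul_mem_polyV V q
      have hb₂' : (b₂ : K) ≠ 0 := fun h0 => hb₂ (Subtype.ext h0)
      have hb₁' : (b₁ : K) ≠ 0 := fun h0 => hb₁ (Subtype.ext h0)
      have hden : C b₁ * q' ≠ 0 := by
        intro h0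
        have := congrArg (polyIncl V) h0
        rw [map_mul, polyIncl_C, hq', map_zero] at this
        have hC1 : (C (b₁ : K) : K[X]) ≠ 0 := by rwa [Ne, Polynomial.C_eq_zero]
        have hC2 : (C (b₂ : K) : K[X]) ≠ 0 := by rwa [Ne, Polynomial.C_eq_zero]
        exact mul_ne_zero hC1 (mul_ne_zero hC2 hq) this
      have hden' : algebraMap (↥V)[X] (discRing V) (C b₁ * q') ≠ 0 := by
        intro h0
        exact hden (algebraMap_poly_injective V (by rw [h0, map_zero]))
      refine ⟨(algebraMap (↥V)[X] (discRing V) (C b₂ * p'),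
        ⟨algebraMap (↥V)[X] (discRing V) (C b₁ * q'), mem_nonZeroDivisors_of_ne_zero hden'⟩), ?_⟩
      show algebraMap K[X] (RatFunc K) p / algebraMap K[X] (RatFunc K) q *
          algebraMap K[X] (RatFunc K) (polyIncl V (C b₁ * q')) =
        algebraMap K[X] (RatFunc K) (polyIncl V (C b₂ * p'))
      have hq0 : algebraMap K[X] (RatFunc K) q ≠ 0 := by
        intro h0
        exact hq (IsFractionRing.injective K[X] (RatFunc K) (by rw [h0, map_zero]))
      rw [map_mul (polyIncl V), map_mul (polyIncl V), polyIncl_C, polyIncl_C, hp', hq',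
        div_mul_eq_mul_div, div_eq_iff hq0]
      simp only [map_mul]
      ring
  · intro x y h
    exact ⟨1, by rw [Subtype.ext h]⟩

end FractionField

/-! ### The discrete valuation ring case: `discRing V` is a two-dimensional regular local ring -/

section DVR

variable {K : Type*} [Field K] (V : ValuationSubring K)

instance instUniqueFactorizationMonoid [UniqueFactorizationMonoid ↥V] :
    UniqueFactorizationMonoid (discRing V) :=
  uniqueFactorizationMonoid ↥V (discRing V)

/-- a prime element of `V` stays prime in `discRing V` -/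
theorem prime_const {l : V} (hl : Prime l) :
    Prime (algebraMap (↥V)[X] (discRing V) (C l)) := prime_C (discRing V) hl

theorem maximalIdeal_eq_span_pair {l : V}
    (hmax : IsLocalRing.maximalIdeal ↥V = Ideal.span {l}) :
    IsLocalRing.maximalIdeal (discRing V) =
      Ideal.span {algebraMap (↥V)[X] (discRing V) (C l), algebraMap (↥V)[X] (discRing V) X} :=
  maximalIdeal_eq_span (discRing V) hmax

theorem not_const_dvd_mu {l : V} (hl : Prime l) :
    ¬ algebraMap (↥V)[X] (discRing V) (C l) ∣ algebraMap (↥V)[X] (discRing V) X :=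
  not_C_dvd_X (discRing V) hl

/-- `discRing V ⧸ (l)` is a discrete valuation ring with uniformiser the class of `μ`
(the local ring of the special fibre `κ(V)[μ]_(μ)`). -/
theorem isDiscreteValuationRing_quotConst [IsNoetherianRing ↥V] {l : V} (hl : Prime l)
    (hmax : IsLocalRing.maximalIdeal ↥V = Ideal.span {l}) :
    ∃ (_ : IsDomain (discRing V ⧸ Ideal.span {algebraMap (↥V)[X] (discRing V) (C l)})),
      IsDiscreteValuationRing
        (discRing V ⧸ Ideal.span {algebraMap (↥V)[X] (discRing V) (C l)}) ∧
      Irreducible (Ideal.Quotient.mk (Ideal.span {algebraMap (↥V)[X] (discRing V) (C l)})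
        (algebraMap (↥V)[X] (discRing V) X)) :=
  isDiscreteValuationRing_quotC (discRing V) hl hmax

/-- **(P1) for `discRing V`**, `V` a discrete valuation ring: the normalisation of `discRing V` in
a finite separable extension `L` of `K(μ)` is free of rank `[L : K(μ)]`. -/
theorem free_integralClosure_discRing [IsDiscreteValuationRing ↥V]
    (L : Type*) [Field L] [Algebra (RatFunc K) L] [Algebra (discRing V) L]
    [IsScalarTower (discRing V) (RatFunc K) L] [FiniteDimensional (RatFunc K) L]
    [Algebra.IsSeparable (RatFunc K) L]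
    (C : Type*) [CommRing C] [Algebra (discRing V) C] [Algebra C L]
    [IsScalarTower (discRing V) C L] [IsIntegralClosure C (discRing V) L] :
    Module.Free (discRing V) C ∧ Module.finrank (discRing V) C = Module.finrank (RatFunc K) L :=
  free_integralClosure_regularLocal ↥V (discRing V) (RatFunc K) L C

end DVR

end Fermat.Agent.S18.C.DiscRingLocal
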