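import Fermat.Agent.S18.C.Defs

/-!
# PROJECT H (S18), block C: the arithmetic surface - definitions (architect file, helper17)

For a cover `c`, a field `K`, a valuation subring `V` of `K` and a `K(j)`-algebra `F`:

* `BRing c V`   : the local ring `B_V = V[μ]_(𝔪_V, μ)` inside the `μ`-line `MuLine c K`
                  (`B_Q` for `K = ℚ`, `V = ℤ_(ℓ)`; `B_A` for `K = ℚ̄`, `V = A`; the DVR
                  `D₀ = k[μ]_(μ)` for `V = ⊤`);
* `CInt c V F`  : the integral closure `C_V` of `B_V` in `R = F ⊗_{K(j)} K(μ)`;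
* if `H₀ = Gal c K` preserves `B_V` (`IsInvariantSubring`), it acts on `B_V` and on `C_V`
  (`smul_algebraMap`: the structure map `B_V → C_V` is equivariant).
-/

set_option autoImplicit false

noncomputable section

namespace Fermat.Agent.S18.C.SurfaceDefs

open Polynomial TensorProduct Fermat.Agent.S18.C.Defs

section

variable (c : Cover) {K : Type*} [Field K] [c.Good K]
variable (F : Type*) [CommRing F] [Algebra (RatFunc K) F]

/-- `R = F ⊗_{K(j)} K(μ)` as an algebra over the `μ`-line. -/
instance algMuR : Algebra (MuLine c K) (RAlg c K F) := Algebra.TensorProduct.rightAlgebra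

theorem algebraMap_mu_apply (m : MuLine c K) :
    algebraMap (MuLine c K) (RAlg c K F) m = (1 : F) ⊗ₜ[RatFunc K] m := rfl

instance : IsScalarTower (RatFunc K) (MuLine c K) (RAlg c K F) :=
  IsScalarTower.of_algebraMap_eq fun x => by
    rw [algebraMap_mu_apply, Algebra.TensorProduct.algebraMap_apply,
      Algebra.algebraMap_eq_smul_one, Algebra.algebraMap_eq_smul_one (A := MuLine c K),
      TensorProduct.smul_tmul]

theorem smul_algebraMap_mu (g : c.Gal K) (m : MuLine c K) :
    g • algebraMap (MuLine c K) (RAlg c K F) m = algebraMap (MuLine c K) (RAlg c K F) (g m) := by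
  rw [algebraMap_mu_apply, algebraMap_mu_apply, smul_tmul']

variable (V : ValuationSubring K)

/-- `B_V = V[μ]_(𝔪_V, μ)` as a subring of the `μ`-line. -/
def BRing : Subring (MuLine c K) :=
  (discRing V).map ((MuLine.of c K : RatFunc K ≃ₐ[K] MuLine c K) : RatFunc K →+* MuLine c K)

omit [c.Good K] in
theorem mem_BRing {m : MuLine c K} :
    m ∈ BRing c V ↔ (MuLine.of c K).symm m ∈ discRing V := by
  constructor
  · rintro ⟨f, hf, rfl⟩
    simpa using hf
  · intro h
    exact ⟨(MuLine.of c K).symm m, h, by simp⟩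

omit [c.Good K] in
theorem mu_mem_BRing : MuLine.mu c K ∈ BRing c V :=
  ⟨RatFunc.X, X_mem_discRing V, rfl⟩

/-- `C_V`: the integral closure of `B_V` in `R = F ⊗_{K(j)} K(μ)`. -/
def CInt : Subalgebra (BRing c V) (RAlg c K F) := integralClosure (BRing c V) (RAlg c K F)

theorem mem_CInt {x : RAlg c K F} : x ∈ CInt c F V ↔ IsIntegral (BRing c V) x := Iff.rfl

/-! ### the action of `H₀` -/

variable [IsInvariantSubring (c.Gal K) (BRing c V)]

/-- `H₀` acts on `B_V`. -/
instance : MulSemiringAction (c.Gal K) (BRing c V) := IsInvariantSubring.toMulSemiringAction _ _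

@[simp]
theorem coe_smul_BRing (g : c.Gal K) (b : BRing c V) : ((g • b : BRing c V) : MuLine c K) = g b :=
  rfl

theorem smul_algebraMap_BRing (g : c.Gal K) (b : BRing c V) :
    g • algebraMap (BRing c V) (RAlg c K F) b = algebraMap (BRing c V) (RAlg c K F) (g • b) := by
  show g • algebraMap (MuLine c K) (RAlg c K F) (b : MuLine c K) = _
  rw [smul_algebraMap_mu]
  rfl

theorem isIntegral_smul (g : c.Gal K) {x : RAlg c K F} (hx : IsIntegral (BRing c V) x) :
    IsIntegral (BRing c V) (g • x) := by
  obtain ⟨p, hp, hpx⟩ := hx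
  refine ⟨p.map (MulSemiringAction.toRingHom (c.Gal K) (BRing c V) g), hp.map _, ?_⟩
  have h : Polynomial.eval₂ (algebraMap (BRing c V) (RAlg c K F)) (g • x)
      (p.map (MulSemiringAction.toRingHom (c.Gal K) (BRing c V) g)) =
      g • Polynomial.eval₂ (algebraMap (BRing c V) (RAlg c K F)) x p := by
    rw [Polynomial.eval₂_map]
    have : (algebraMap (BRing c V) (RAlg c K F)).comp
        (MulSemiringAction.toRingHom (c.Gal K) (BRing c V) g) =
        (MulSemiringAction.toRingHom (c.Gal K) (RAlg c K F) g).comp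
          (algebraMap (BRing c V) (RAlg c K F)) := by
      ext b
      exact (smul_algebraMap_BRing c F V g b).symm
    rw [this]
    exact (Polynomial.hom_eval₂ p _ (MulSemiringAction.toRingHom (c.Gal K) (RAlg c K F) g) x).symm
  rw [h, hpx, smul_zero]

instance : IsInvariantSubring (c.Gal K) (CInt c F V).toSubring where
  smul_mem g _ hx := isIntegral_smul c F V g hx

/-- `H₀` acts on `C_V`. -/
instance : MulSemiringAction (c.Gal K) (CInt c F V) :=
  inferInstanceAs (MulSemiringAction (c.Gal K) (CInt c F V).toSubring)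

@[simp]
theorem coe_smul_CInt (g : c.Gal K) (x : CInt c F V) :
    ((g • x : CInt c F V) : RAlg c K F) = g • (x : RAlg c K F) := rfl

/-- The structure map `B_V → C_V` is `H₀`-equivariant. -/
theorem smul_algebraMap (g : c.Gal K) (b : BRing c V) :
    g • algebraMap (BRing c V) (CInt c F V) b = algebraMap (BRing c V) (CInt c F V) (g • b) := by
  apply Subtype.ext
  exact smul_algebraMap_BRing c F V g b

end

end Fermat.Agent.S18.C.SurfaceDefs
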