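import Mathlib
import Fermat.Agent.S18.C.SurfaceDefs
import Fermat.Agent.S18.C.DiscRingLocal

/-!
# PROJECT H (S18), block C: the local ring `B_V = BRing c V` of the arithmetic surface

`SurfaceDefs.BRing c V` is the image of `Defs.discRing V` under the identity `RatFunc K ≃ MuLine c K`.
This file transports the results of `C/DiscRingLocal.lean` to `BRing c V`:

* `toB c V : discRing V ≃+* BRing c V`, instance `Algebra (↥V)[X] (BRing c V)`,
  `toBAlg c V : discRing V ≃ₐ[(↥V)[X]] BRing c V`;
* instances `IsLocalization.AtPrime (BRing c V) (closedPoint ↥V)`, `IsLocalRing`,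
  `IsIntegrallyClosed`, `IsNoetherianRing` (for `V` noetherian),
  `IsFractionRing (BRing c V) (MuLine c K)`;
* `muB c V : BRing c V` (the coordinate `μ`), `prime_muB`, `isPrincipalIdealRing_quotMuB`;
* `evClosedB`, `isUnit_iff_evClosedB_ne_zero`; `evDiscB`; `bMap` (functoriality);
* `free_integralClosure_BRing` ((P1) for a field extension of the `μ`-line).
-/

set_option autoImplicit false
set_option linter.style.haveILetI false

noncomputable section

namespace Fermat.Agent.S18.C.BRingLocal

open Polynomial Fermat.Agent.S18.C.Defs Fermat.Agent.S18.C.SurfaceDefs Fermat.Agent.S18.Purity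
open Fermat.Agent.S18.C.DiscRingLocal

section Basic

variable (c : Cover) {K : Type*} [Field K] (V : ValuationSubring K)

/-- the identity `RatFunc K → MuLine c K` as a ring homomorphism -/
def ofHom : RatFunc K →+* MuLine c K :=
  ((MuLine.of c K : RatFunc K ≃ₐ[K] MuLine c K) : RatFunc K →+* MuLine c K)

theorem ofHom_apply (f : RatFunc K) : ofHom c f = MuLine.of c K f := rfl

theorem ofHom_injective : Function.Injective (ofHom (K := K) c) := (MuLine.of c K).injective

theorem BRing_eq_map : BRing c V = (discRing V).map (ofHom c) := rfl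

/-- `discRing V ≃ B_V` -/
def toB : discRing V ≃+* BRing c V :=
  (discRing V).equivMapOfInjective (ofHom c) (ofHom_injective c)

@[simp] theorem coe_toB (z : discRing V) :
    ((toB c V z : BRing c V) : MuLine c K) = MuLine.of c K (z : RatFunc K) := rfl

theorem coe_toB_symm (b : BRing c V) :
    (((toB c V).symm b : discRing V) : RatFunc K) = (MuLine.of c K).symm (b : MuLine c K) := by
  obtain ⟨z, rfl⟩ := (toB c V).surjective b
  rw [RingEquiv.symm_apply_apply, coe_toB, AlgEquiv.symm_apply_apply]

instance instAlgebraPolyB : Algebra (↥V)[X] (BRing c V) :=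
  ((toB c V).toRingHom.comp (algebraMap (↥V)[X] (discRing V))).toAlgebra

theorem algebraMap_B_apply (p : (↥V)[X]) :
    algebraMap (↥V)[X] (BRing c V) p = toB c V (algebraMap (↥V)[X] (discRing V) p) := rfl

/-- `discRing V ≃ B_V` as `V[X]`-algebras -/
def toBAlg : discRing V ≃ₐ[(↥V)[X]] BRing c V :=
  AlgEquiv.ofRingEquiv (f := toB c V) fun _ => rfl

@[simp] theorem toBAlg_apply (z : discRing V) : toBAlg c V z = toB c V z := rfl

instance instIsLocalizationAtPrimeB : IsLocalization.AtPrime (BRing c V) (closedPoint ↥V) :=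
  IsLocalization.isLocalization_of_algEquiv (closedPoint ↥V).primeCompl (toBAlg c V)

instance instIsLocalRingB : IsLocalRing (BRing c V) := isLocalRing ↥V (BRing c V)

instance instIsIntegrallyClosedB : IsIntegrallyClosed (BRing c V) :=
  isIntegrallyClosed ↥V (BRing c V)

instance instIsNoetherianRingB [IsNoetherianRing ↥V] : IsNoetherianRing (BRing c V) :=
  isNoetherianRing ↥V (BRing c V)

instance instUniqueFactorizationMonoidB [UniqueFactorizationMonoid ↥V] :
    UniqueFactorizationMonoid (BRing c V) :=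
  uniqueFactorizationMonoid ↥V (BRing c V)

/-- the coordinate `μ` as an element of `B_V` -/
def muB : BRing c V := ⟨MuLine.mu c K, mu_mem_BRing c V⟩

@[simp] theorem coe_muB : ((muB c V : BRing c V) : MuLine c K) = MuLine.mu c K := rfl

theorem algebraMap_B_X : algebraMap (↥V)[X] (BRing c V) X = muB c V := by
  apply Subtype.ext
  rw [algebraMap_B_apply, coe_toB, coe_algebraMap_X]
  rfl

theorem prime_muB : Prime (muB c V) := by
  rw [← algebraMap_B_X]
  exact prime_X (BRing c V)

theorem isPrincipalIdealRing_quotMuB [IsPrincipalIdealRing ↥V] :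
    IsPrincipalIdealRing (BRing c V ⧸ Ideal.span {muB c V}) := by
  rw [← algebraMap_B_X]
  exact isPrincipalIdealRing_quotX (BRing c V)

/-- `B_V ⧸ (μ) ≃ V` -/
def quotMuBEquiv : (BRing c V ⧸ Ideal.span {muB c V}) ≃+* V :=
  (Ideal.quotEquivOfEq (by rw [algebraMap_B_X])).trans (quotXEquiv (BRing c V))

theorem coe_ne_zero_of_ne_zero {z : BRing c V} (hz : z ≠ 0) : (z : MuLine c K) ≠ 0 :=
  fun h0 => hz (Subtype.ext h0)

instance instIsFractionRingB : IsFractionRing (BRing c V) (MuLine c K) := by
  show IsLocalization (nonZeroDivisors (BRing c V)) (MuLine c K)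
  rw [isLocalization_iff]
  refine ⟨?_, ?_, ?_⟩
  · rintro ⟨y, hy⟩
    exact (coe_ne_zero_of_ne_zero c V (nonZeroDivisors.ne_zero hy)).isUnit
  · intro z
    obtain ⟨⟨x, ⟨y, hy⟩⟩, hxy⟩ := IsLocalization.surj (nonZeroDivisors (discRing V))
      ((MuLine.of c K).symm z)
    have hy0 : y ≠ 0 := nonZeroDivisors.ne_zero hy
    have hty : toB c V y ≠ 0 := by
      intro h0
      exact hy0 ((toB c V).injective (by rw [h0, map_zero]))
    refine ⟨(toB c V x, ⟨toB c V y, mem_nonZeroDivisors_of_ne_zero hty⟩), ?_⟩
    show z * MuLine.of c K (y : RatFunc K) = MuLine.of c K (x : RatFunc K)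
    have hxy' : (MuLine.of c K).symm z * (y : RatFunc K) = (x : RatFunc K) := hxy
    rw [← hxy', map_mul, AlgEquiv.apply_symm_apply]
  · intro x y h
    exact ⟨1, by rw [Subtype.ext h]⟩

end Basic

/-! ### Evaluation maps and the unit criterion -/

section Eval

variable (c : Cover) {K : Type*} [Field K] (V : ValuationSubring K)

/-- `μ ↦ 0`: `B_V → V` -/
def evZeroB : BRing c V →+* V := (evZero V).comp (toB c V).symm.toRingHom

theorem evZeroB_apply (b : BRing c V) : evZeroB c V b = evZero V ((toB c V).symm b) := rfl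

@[simp] theorem evZeroB_toB (z : discRing V) : evZeroB c V (toB c V z) = evZero V z := by
  rw [evZeroB_apply, RingEquiv.symm_apply_apply]

@[simp] theorem evZeroB_algebraMap (p : (↥V)[X]) :
    evZeroB c V (algebraMap (↥V)[X] (BRing c V) p) = p.coeff 0 := by
  rw [algebraMap_B_apply, evZeroB_toB, evZero_algebraMap]

theorem evZeroB_eq_evalZero : evZeroB c V = evalZero ↥V (BRing c V) := by
  apply IsLocalization.ringHom_ext (closedPoint ↥V).primeCompl
  apply RingHom.ext
  intro p
  simp only [RingHom.comp_apply, evZeroB_algebraMap, evalZero_algebraMap]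

/-- evaluation at the closed point: `B_V → κ(V)` -/
def evClosedB : BRing c V →+* IsLocalRing.ResidueField ↥V :=
  (evClosed V).comp (toB c V).symm.toRingHom

theorem evClosedB_apply (b : BRing c V) : evClosedB c V b = evClosed V ((toB c V).symm b) := rfl

@[simp] theorem evClosedB_toB (z : discRing V) : evClosedB c V (toB c V z) = evClosed V z := by
  rw [evClosedB_apply, RingEquiv.symm_apply_apply]

theorem evClosedB_eq (b : BRing c V) :
    evClosedB c V b = IsLocalRing.residue ↥V (evZeroB c V b) := rfl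

@[simp] theorem evClosedB_algebraMap (p : (↥V)[X]) :
    evClosedB c V (algebraMap (↥V)[X] (BRing c V) p) = IsLocalRing.residue ↥V (p.coeff 0) := by
  rw [evClosedB_eq, evZeroB_algebraMap]

theorem evClosedB_surjective : Function.Surjective (evClosedB c V) :=
  (evClosed_surjective V).comp (toB c V).symm.surjective

/-- **The unit criterion** for `B_V`. -/
theorem isUnit_iff_evClosedB_ne_zero (b : BRing c V) : IsUnit b ↔ evClosedB c V b ≠ 0 := by
  rw [evClosedB_apply, ← isUnit_iff_evClosed_ne_zero]
  constructor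
  · intro h
    exact h.map (toB c V).symm
  · intro h
    have := h.map (toB c V)
    rwa [RingEquiv.apply_symm_apply] at this

theorem mem_maximalIdeal_iff (b : BRing c V) :
    b ∈ IsLocalRing.maximalIdeal (BRing c V) ↔ evClosedB c V b = 0 := by
  rw [← not_iff_not, IsLocalRing.notMem_maximalIdeal, isUnit_iff_evClosedB_ne_zero]

theorem ker_evClosedB : RingHom.ker (evClosedB c V) = IsLocalRing.maximalIdeal (BRing c V) := by
  ext z
  rw [RingHom.mem_ker, mem_maximalIdeal_iff]

/-- `evClosedB` through ANY presentation `b * s(μ) = a(μ)` with `a, s ∈ K[X]`. -/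
theorem evZeroB_spec (b : BRing c V) (a s : K[X])
    (h : (b : MuLine c K) * algebraMap K[X] (MuLine c K) s = algebraMap K[X] (MuLine c K) a) :
    (evZeroB c V b : K) * s.coeff 0 = a.coeff 0 := by
  rw [evZeroB_apply]
  apply evZero_spec'
  rw [coe_toB_symm]
  have := congrArg (MuLine.of c K).symm h
  rwa [map_mul] at this

variable (t : K) (ht : V.valuation t < 1)

/-- evaluation at a point `μ = t` of the open unit disc: `B_V → V` -/
def evDiscB : BRing c V →+* V := (evDisc V t ht).comp (toB c V).symm.toRingHom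

theorem evDiscB_apply (b : BRing c V) : evDiscB c V t ht b = evDisc V t ht ((toB c V).symm b) := rfl

@[simp] theorem evDiscB_algebraMap (p : (↥V)[X]) :
    evDiscB c V t ht (algebraMap (↥V)[X] (BRing c V) p) = p.eval (discPt V t ht) := by
  rw [algebraMap_B_apply, evDiscB_apply, RingEquiv.symm_apply_apply, evDisc_algebraMap]

theorem evDiscB_muB : evDiscB c V t ht (muB c V) = discPt V t ht := by
  rw [← algebraMap_B_X, evDiscB_algebraMap, Polynomial.eval_X]

/-- `evDiscB` through ANY presentation `b * s(μ) = a(μ)` with `a, s ∈ K[X]`. -/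
theorem evDiscB_spec (b : BRing c V) (a s : K[X])
    (h : (b : MuLine c K) * algebraMap K[X] (MuLine c K) s = algebraMap K[X] (MuLine c K) a) :
    (evDiscB c V t ht b : K) * s.eval t = a.eval t := by
  rw [evDiscB_apply]
  apply evDisc_spec'
  rw [coe_toB_symm]
  have := congrArg (MuLine.of c K).symm h
  rwa [map_mul] at this

theorem residue_evDiscB (b : BRing c V) :
    IsLocalRing.residue ↥V (evDiscB c V t ht b) = evClosedB c V b := by
  rw [evDiscB_apply, residue_evDisc, evClosedB_apply]

theorem isUnit_evDiscB_iff (b : BRing c V) : IsUnit (evDiscB c V t ht b) ↔ IsUnit b := by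
  rw [isUnit_iff_evClosedB_ne_zero, ← residue_evDiscB c V t ht, Ne,
    IsLocalRing.residue_eq_zero_iff, IsLocalRing.notMem_maximalIdeal]

end Eval

/-! ### Functoriality -/

section Functoriality

variable (c : Cover) {K₁ K₂ : Type*} [Field K₁] [Field K₂] (f : K₁ →+* K₂)
  (V₁ : ValuationSubring K₁) (V₂ : ValuationSubring K₂) (h : ∀ x, x ∈ V₁ ↔ f x ∈ V₂)

/-- `B_{V₁} → B_{V₂}` for `f : K₁ → K₂` with `V₁ = f⁻¹ V₂`. -/
def bMap : BRing c V₁ →+* BRing c V₂ :=
  ((toB c V₂).toRingHom.comp (discMap f V₁ V₂ h)).comp (toB c V₁).symm.toRingHom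

theorem bMap_apply (b : BRing c V₁) :
    bMap c f V₁ V₂ h b = toB c V₂ (discMap f V₁ V₂ h ((toB c V₁).symm b)) := rfl

@[simp] theorem bMap_toB (z : discRing V₁) :
    bMap c f V₁ V₂ h (toB c V₁ z) = toB c V₂ (discMap f V₁ V₂ h z) := by
  rw [bMap_apply, RingEquiv.symm_apply_apply]

theorem coe_bMap (b : BRing c V₁) :
    ((bMap c f V₁ V₂ h b : BRing c V₂) : MuLine c K₂) =
      MuLine.of c K₂ (ratMap f ((MuLine.of c K₁).symm (b : MuLine c K₁))) := by
  rw [bMap_apply, coe_toB, coe_discMap, coe_toB_symm]

theorem bMap_injective : Function.Injective (bMap c f V₁ V₂ h) :=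
  ((toB c V₂).injective.comp (discMap_injective f V₁ V₂ h)).comp (toB c V₁).symm.injective

theorem bMap_algebraMap (p : (↥V₁)[X]) :
    bMap c f V₁ V₂ h (algebraMap (↥V₁)[X] (BRing c V₁) p) =
      algebraMap (↥V₂)[X] (BRing c V₂) (p.map (baseMap f V₁ V₂ h)) := by
  rw [algebraMap_B_apply, bMap_toB, discMap_algebraMap, algebraMap_B_apply]

theorem bMap_muB : bMap c f V₁ V₂ h (muB c V₁) = muB c V₂ := by
  rw [← algebraMap_B_X, bMap_algebraMap, Polynomial.map_X, algebraMap_B_X]

theorem evZeroB_bMap (b : BRing c V₁) :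
    evZeroB c V₂ (bMap c f V₁ V₂ h b) = baseMap f V₁ V₂ h (evZeroB c V₁ b) := by
  rw [bMap_apply, evZeroB_toB, evZero_discMap, evZeroB_apply]

theorem evClosedB_bMap (b : BRing c V₁) :
    evClosedB c V₂ (bMap c f V₁ V₂ h b) = resMap f V₁ V₂ h (evClosedB c V₁ b) := by
  rw [bMap_apply, evClosedB_toB, evClosed_discMap, evClosedB_apply]

theorem isUnit_bMap_iff (b : BRing c V₁) : IsUnit (bMap c f V₁ V₂ h b) ↔ IsUnit b := by
  rw [isUnit_iff_evClosedB_ne_zero, isUnit_iff_evClosedB_ne_zero, evClosedB_bMap, Ne, Ne,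
    map_eq_zero]

instance isLocalHom_bMap : IsLocalHom (bMap c f V₁ V₂ h) :=
  ⟨fun z hz => (isUnit_bMap_iff c f V₁ V₂ h z).mp hz⟩

end Functoriality

/-! ### (P1) for `B_V` -/

section Purity

variable (c : Cover) {K : Type*} [Field K] (V : ValuationSubring K)

/-- **(P1) for `B_V`**, `V` a discrete valuation ring: the normalisation of `B_V` in a finite
separable field extension `L` of the `μ`-line is free of rank `[L : K(μ)]`. -/
theorem free_integralClosure_BRing [IsDiscreteValuationRing ↥V]
    (L : Type*) [Field L] [Algebra (MuLine c K) L] [Algebra (BRing c V) L]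
    [IsScalarTower (BRing c V) (MuLine c K) L] [FiniteDimensional (MuLine c K) L]
    [Algebra.IsSeparable (MuLine c K) L]
    (C : Type*) [CommRing C] [Algebra (BRing c V) C] [Algebra C L]
    [IsScalarTower (BRing c V) C L] [IsIntegralClosure C (BRing c V) L] :
    Module.Free (BRing c V) C ∧
      Module.finrank (BRing c V) C = Module.finrank (MuLine c K) L :=
  free_integralClosure_regularLocal ↥V (BRing c V) (MuLine c K) L C

end Purity

end Fermat.Agent.S18.C.BRingLocal
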