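import Mathlib
import Fermat.Agent.S18.C.Defs

/-!
# PROJECT H (S18), block C, slice H-C7c: the pointwise unit criterion

Let `A` be a valuation ring of an algebraically closed field `E`.

* `exists_root_mem_maximalIdeal` (PW): a polynomial `a ∈ A[X]` with a unit coefficient and with
  `a(0) ∈ 𝔪_A` has a root in `𝔪_A` (if all roots `r` had `r⁻¹ ∈ A` then
  `a = a(0) ∏ (1 - X / r)` would have all its coefficients in `a(0) A ⊆ 𝔪_A`);
  `exists_root_valuation_lt_one` is the same statement for `p ∈ E[X]` with coefficients in `A`.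

For `φ : K →+* E`, `V = A.comap φ` and the local ring `discRing V = V[μ]_(𝔪_V, μ) ⊆ K(μ)` of
`Fermat.Agent.S18.C.Defs`:

* `evalAt φ A μ hμ : discRing (A.comap φ) →+* E` : evaluation at a point `μ` of the open unit disc
  (`A.valuation μ < 1`), with `evalAt_spec` (any presentation `d * s = a` gives
  `evalAt d * s(μ) = a(μ)`) and `evalAt_mem` (values in `A`);
* `isUnit_of_coeff_zero` : `a / s` with `a(0)` a unit of `V` is a unit of `discRing V`;
* `isUnit_of_pointwise` : if `𝔪_V = (l)`, `l ∤ d` in `discRing V` and `d` vanishes at no point of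
  the open unit disc, then `d` is a unit of `discRing V`.
-/

set_option autoImplicit false

namespace Fermat.Agent.S18.C.PointwiseUnit

open Polynomial Fermat.Agent.S18.C.Defs

section Root

variable {E : Type*} [Field E] (A : ValuationSubring E)

/-- an element of `E` whose inverse is not in `A` is a non-unit of `A` -/
theorem mem_maximalIdeal_of_inv_notMem {r : E} (hr : r⁻¹ ∉ A) :
    ∃ hrA : r ∈ A, (⟨r, hrA⟩ : A) ∈ IsLocalRing.maximalIdeal A := by
  have hrA : r ∈ A := by
    rcases A.mem_or_inv_mem r with h | h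
    · exact h
    · exact absurd h hr
  refine ⟨hrA, ?_⟩
  rw [IsLocalRing.mem_maximalIdeal, mem_nonunits_iff]
  rintro ⟨⟨u, v, huv, hvu⟩, hu⟩
  apply hr
  have hu' : (u : E) = r := by
    have := congrArg (fun x : A => (x : E)) hu
    simpa using this
  have h1 : r * (v : E) = 1 := by
    have := congrArg (fun x : A => (x : E)) huv
    simpa [hu'] using this
  have hv : (v : E) = r⁻¹ := eq_inv_of_mul_eq_one_right h1
  exact hv ▸ v.2

/-- **(PW)** a polynomial over a valuation ring of an algebraically closed field, with a unit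
coefficient and constant coefficient in the maximal ideal, has a root in the maximal ideal. -/
theorem exists_root_mem_maximalIdeal [IsAlgClosed E] (a : Polynomial A) (i : ℕ)
    (hunit : IsUnit (a.coeff i)) (h0 : a.coeff 0 ∈ IsLocalRing.maximalIdeal A) :
    ∃ μ : A, μ ∈ IsLocalRing.maximalIdeal A ∧ a.eval μ = 0 := by
  by_contra hcon
  push Not at hcon
  have ha0 : a.coeff 0 ≠ 0 := by
    intro h
    exact hcon 0 (Ideal.zero_mem _) (by rw [← coeff_zero_eq_eval_zero, h])
  set p : E[X] := a.map A.subtype with hp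
  have hpcoeff : ∀ n, p.coeff n = (a.coeff n : E) := fun n => by rw [hp, coeff_map]; rfl
  have hp0 : p ≠ 0 := by
    intro h
    have := hpcoeff 0
    rw [h, coeff_zero] at this
    exact ha0 (Subtype.ext this.symm)
  have hsplit : p.Splits := IsAlgClosed.splits p
  -- the roots are nonzero and have their inverses in `A`
  have hroot0 : ∀ r ∈ p.roots, r ≠ 0 := by
    rintro r hr rfl
    have := (mem_roots hp0).mp hr
    rw [IsRoot.def, ← coeff_zero_eq_eval_zero, hpcoeff 0] at this
    exact ha0 (Subtype.ext this)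
  have hrootA : ∀ r ∈ p.roots, r⁻¹ ∈ A := by
    intro r hr
    by_contra hinv
    obtain ⟨hrA, hm⟩ := mem_maximalIdeal_of_inv_notMem A hinv
    refine hcon ⟨r, hrA⟩ hm ?_
    have := (mem_roots hp0).mp hr
    rw [IsRoot.def, hp, eval_map] at this
    apply Subtype.ext
    have h2 : a.eval₂ A.subtype (A.subtype ⟨r, hrA⟩) = A.subtype (a.eval (⟨r, hrA⟩ : A)) :=
      eval₂_at_apply A.subtype ⟨r, hrA⟩
    exact h2.symm.trans this
  -- `p = C c * ∏ (1 + C (-r⁻¹) * X)`
  have hprod : p = C (p.leadingCoeff * (p.roots.map fun r => -r).prod) *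
      (p.roots.map fun r => (1 + C (-r⁻¹) * X : E[X])).prod := by
    conv_lhs => rw [hsplit.eq_prod_roots]
    rw [C_mul, mul_assoc]
    congr 1
    have : ∀ s : Multiset E, (∀ r ∈ s, r ≠ 0) → (s.map fun r => (X - C r : E[X])).prod =
        C (s.map fun r => -r).prod * (s.map fun r => (1 + C (-r⁻¹) * X : E[X])).prod := by
      intro s
      induction s using Multiset.induction_on with
      | empty => intro _; simp
      | cons r s ih =>
        intro hs
        have hr : r ≠ 0 := hs r (Multiset.mem_cons_self r s)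
        rw [Multiset.map_cons, Multiset.prod_cons, Multiset.map_cons, Multiset.prod_cons,
          Multiset.map_cons, Multiset.prod_cons, ih fun x hx => hs x (Multiset.mem_cons_of_mem hx),
          C_mul]
        have h1 : (X - C r : E[X]) = C (-r) * (1 + C (-r⁻¹) * X) := by
          rw [mul_add, mul_one, ← mul_assoc, ← C_mul, neg_mul_neg, mul_inv_cancel₀ hr, C_1,
            one_mul, C_neg]
          ring
        rw [h1]
        ring
    exact this _ hroot0
  -- the second factor has coefficients in `A`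
  have hq : (p.roots.map fun r => (1 + C (-r⁻¹) * X : E[X])).prod ∈ Polynomial.lifts A.subtype := by
    refine Subsemiring.multiset_prod_mem _ _ ?_
    intro f hf
    obtain ⟨r, hr, rfl⟩ := Multiset.mem_map.mp hf
    refine Subsemiring.add_mem _ (Subsemiring.one_mem _) (Subsemiring.mul_mem _ ?_ (X_mem_lifts _))
    exact C_mem_lifts A.subtype ⟨-r⁻¹, A.neg_mem _ (hrootA r hr)⟩
  obtain ⟨q', hq'⟩ := (mem_lifts _).mp hq
  have hq0 : ((p.roots.map fun r => (1 + C (-r⁻¹) * X : E[X])).prod).coeff 0 = 1 := by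
    rw [coeff_zero_eq_eval_zero, eval_multiset_prod, Multiset.map_map]
    have : (p.roots.map ((eval 0) ∘ fun r => (1 + C (-r⁻¹) * X : E[X]))) =
        p.roots.map fun _ => (1 : E) := by
      refine Multiset.map_congr rfl fun r _ => ?_
      simp
    rw [this, Multiset.prod_map_one]
  have hc0 : p.coeff 0 = p.leadingCoeff * (p.roots.map fun r => -r).prod := by
    conv_lhs => rw [hprod]
    rw [coeff_C_mul, hq0, mul_one]
  have hci : p.coeff i = p.coeff 0 * ((q'.coeff i : A) : E) := by
    conv_lhs => rw [hprod]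
    rw [coeff_C_mul, ← hc0, ← hq', coeff_map (p := q')]
    rfl
  rw [hpcoeff, hpcoeff] at hci
  have hci' : a.coeff i = a.coeff 0 * q'.coeff i := Subtype.ext hci
  have hmem : a.coeff i ∈ IsLocalRing.maximalIdeal A := by
    rw [hci']
    exact Ideal.mul_mem_right _ _ h0
  exact (IsLocalRing.mem_maximalIdeal _).mp hmem hunit

/-- (PW) for a polynomial over `E` with coefficients in `A`. -/
theorem exists_root_valuation_lt_one [IsAlgClosed E] (p : E[X]) (hp : ∀ n, p.coeff n ∈ A)
    (i : ℕ) (hi : A.valuation (p.coeff i) = 1) (h0 : A.valuation (p.coeff 0) < 1) :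
    ∃ μ : E, A.valuation μ < 1 ∧ p.eval μ = 0 := by
  have hlift : p ∈ Polynomial.lifts A.subtype := by
    rw [lifts_iff_coeff_lifts]
    intro n
    exact ⟨⟨p.coeff n, hp n⟩, rfl⟩
  obtain ⟨a, ha⟩ := (mem_lifts _).mp hlift
  have hcoeff : ∀ n, ((a.coeff n : A) : E) = p.coeff n := fun n => by
    rw [← ha, coeff_map]; rfl
  have hunit : IsUnit (a.coeff i) := by
    rw [A.valuation_eq_one_iff, hcoeff]; exact hi
  have hmem : a.coeff 0 ∈ IsLocalRing.maximalIdeal A := by
    rw [A.valuation_lt_one_iff, hcoeff]; exact h0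
  obtain ⟨μ, hμ, hroot⟩ := exists_root_mem_maximalIdeal A a i hunit hmem
  refine ⟨(μ : E), (A.valuation_lt_one_iff μ).mp hμ, ?_⟩
  rw [← ha, eval_map]
  have h2 : a.eval₂ A.subtype (A.subtype μ) = A.subtype (a.eval μ) := eval₂_at_apply A.subtype μ
  rw [hroot, map_zero] at h2
  exact h2

end Root

section Eval

universe u

variable {K E : Type u} [Field K] [Field E] (φ : K →+* E) (A : ValuationSubring E)

theorem mem_comap_iff (x : K) : x ∈ A.comap φ ↔ φ x ∈ A := Iff.rfl

theorem valuation_comap_le_one_iff (x : K) :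
    (A.comap φ).valuation x ≤ 1 ↔ A.valuation (φ x) ≤ 1 := by
  rw [ValuationSubring.valuation_le_one_iff, ValuationSubring.valuation_le_one_iff]
  exact Iff.rfl

theorem valuation_comap_lt_one_iff (x : K) :
    (A.comap φ).valuation x < 1 ↔ A.valuation (φ x) < 1 := by
  rcases eq_or_ne x 0 with rfl | hx
  · simp
  have hx' : φ x ≠ 0 := (map_ne_zero φ).mpr hx
  rw [← not_le, ← not_le, ← inv_le_one₀ (zero_lt_iff.mpr ((Valuation.ne_zero_iff _).mpr hx)),
    ← inv_le_one₀ (zero_lt_iff.mpr ((Valuation.ne_zero_iff _).mpr hx')), ← map_inv₀, ← map_inv₀,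
    valuation_comap_le_one_iff, map_inv₀ φ]

theorem valuation_comap_eq_one_iff (x : K) :
    (A.comap φ).valuation x = 1 ↔ A.valuation (φ x) = 1 := by
  rw [eq_iff_le_not_lt, eq_iff_le_not_lt, valuation_comap_le_one_iff, valuation_comap_lt_one_iff]

variable {φ A}

theorem eval₂_mem {s : K[X]} (hs : s ∈ polyV (A.comap φ)) {μ : E} (hμ : μ ∈ A) :
    s.eval₂ φ μ ∈ A := by
  rw [eval₂_eq_sum_range]
  refine Subring.sum_mem _ fun n _ => ?_
  exact A.mul_mem _ _ ((mem_polyV _).mp hs n) (A.toSubring.pow_mem hμ n)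

theorem valuation_eval₂_eq_one {s : K[X]} (hs : s ∈ polyV (A.comap φ))
    (hs0 : (A.comap φ).valuation (s.coeff 0) = 1) {μ : E} (hμ : A.valuation μ < 1) :
    A.valuation (s.eval₂ φ μ) = 1 := by
  have hdiv : s.divX ∈ polyV (A.comap φ) := by
    rw [mem_polyV]
    intro n
    rw [coeff_divX]
    exact (mem_polyV _).mp hs (n + 1)
  have hμA : μ ∈ A := (A.valuation_le_one_iff μ).mp hμ.le
  have h1 : A.valuation (s.divX.eval₂ φ μ) ≤ 1 :=
    (A.valuation_le_one_iff _).mpr (eval₂_mem hdiv hμA)
  have h2 : s.eval₂ φ μ = φ (s.coeff 0) + μ * s.divX.eval₂ φ μ := by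
    conv_lhs => rw [← divX_mul_X_add s]
    rw [eval₂_add, eval₂_mul, eval₂_X, eval₂_C]
    ring
  have h3 : A.valuation (μ * s.divX.eval₂ φ μ) < A.valuation (φ (s.coeff 0)) := by
    rw [(valuation_comap_eq_one_iff φ A _).mp hs0, map_mul]
    calc A.valuation μ * A.valuation (s.divX.eval₂ φ μ) ≤ A.valuation μ * 1 :=
          mul_le_mul_right h1 _
      _ < 1 := by rwa [mul_one]
  rw [h2, Valuation.map_add_eq_of_lt_left _ h3, (valuation_comap_eq_one_iff φ A _).mp hs0]

theorem eval₂_ne_zero {s : K[X]} (hs : s ∈ polyV (A.comap φ))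
    (hs0 : (A.comap φ).valuation (s.coeff 0) = 1) {μ : E} (hμ : A.valuation μ < 1) :
    s.eval₂ φ μ ≠ 0 := by
  intro h
  have := valuation_eval₂_eq_one hs hs0 hμ
  rw [h, map_zero] at this
  exact zero_ne_one this

theorem ne_zero_of_valuation_coeff_zero {V : ValuationSubring K} {s : K[X]}
    (hs0 : V.valuation (s.coeff 0) = 1) : s ≠ 0 := by
  rintro rfl
  rw [coeff_zero, map_zero] at hs0
  exact zero_ne_one hs0

/-- the denominator (in lowest terms) of an element of `discRing V` does not vanish on the open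
unit disc -/
theorem denom_eval₂_ne_zero {f : RatFunc K} (hf : f ∈ discRing (A.comap φ)) {μ : E}
    (hμ : A.valuation μ < 1) : (RatFunc.denom f).eval₂ φ μ ≠ 0 := by
  obtain ⟨a, s, -, hs, hs0, h⟩ := hf
  have hsne : s ≠ 0 := ne_zero_of_valuation_coeff_zero hs0
  have hdvd : RatFunc.denom f ∣ s := by
    rw [RatFunc.denom_dvd hsne]
    refine ⟨a, ?_⟩
    rw [eq_div_iff (RatFunc.algebraMap_ne_zero hsne)]
    exact h
  obtain ⟨t, ht⟩ := hdvd
  intro h0
  apply eval₂_ne_zero hs hs0 hμ
  rw [ht, eval₂_mul, h0, zero_mul]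

variable (φ A)

/-- Evaluation of `discRing (A.comap φ)` at a point `μ` of the open unit disc of `A`. -/
noncomputable def evalAt (μ : E) (hμ : A.valuation μ < 1) : discRing (A.comap φ) →+* E where
  toFun d := RatFunc.eval φ μ (d : RatFunc K)
  map_one' := RatFunc.eval_one φ μ
  map_mul' x y := RatFunc.eval_mul φ μ (denom_eval₂_ne_zero x.2 hμ) (denom_eval₂_ne_zero y.2 hμ)
  map_zero' := RatFunc.eval_zero φ μ
  map_add' x y := RatFunc.eval_add φ μ (denom_eval₂_ne_zero x.2 hμ) (denom_eval₂_ne_zero y.2 hμ)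

variable {φ A}

theorem evalAt_apply (μ : E) (hμ : A.valuation μ < 1) (d : discRing (A.comap φ)) :
    evalAt φ A μ hμ d = RatFunc.eval φ μ (d : RatFunc K) := rfl

/-- the evaluation is computed by any presentation `d = a / s` -/
theorem evalAt_spec (μ : E) (hμ : A.valuation μ < 1) (d : discRing (A.comap φ)) {a s : K[X]}
    (h : (d : RatFunc K) * algebraMap K[X] (RatFunc K) s = algebraMap K[X] (RatFunc K) a) :
    evalAt φ A μ hμ d * s.eval₂ φ μ = a.eval₂ φ μ := by
  have hden := denom_eval₂_ne_zero d.2 hμ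
  have hpoly : RatFunc.num (d : RatFunc K) * s = a * RatFunc.denom (d : RatFunc K) := by
    have hd : (d : RatFunc K) * algebraMap K[X] (RatFunc K) (RatFunc.denom (d : RatFunc K)) =
        algebraMap K[X] (RatFunc K) (RatFunc.num (d : RatFunc K)) := by
      have := RatFunc.num_div_denom (d : RatFunc K)
      rw [div_eq_iff (RatFunc.algebraMap_ne_zero (RatFunc.denom_ne_zero _))] at this
      exact this.symm
    apply IsFractionRing.injective K[X] (RatFunc K)
    rw [map_mul, map_mul, ← hd, ← h]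
    ring
  have := congrArg (Polynomial.eval₂ φ μ) hpoly
  rw [eval₂_mul, eval₂_mul] at this
  rw [evalAt_apply, RatFunc.eval, div_mul_eq_mul_div, this, mul_div_assoc, div_self hden, mul_one]

theorem evalAt_mem (μ : E) (hμ : A.valuation μ < 1) (d : discRing (A.comap φ)) :
    evalAt φ A μ hμ d ∈ A := by
  obtain ⟨a, s, ha, hs, hs0, h⟩ := d.2
  have hspec := evalAt_spec μ hμ d h
  have hμA : μ ∈ A := (A.valuation_le_one_iff μ).mp hμ.le
  have h1 := valuation_eval₂_eq_one hs hs0 hμ
  rw [← A.valuation_le_one_iff]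
  have h2 : A.valuation (evalAt φ A μ hμ d) = A.valuation (a.eval₂ φ μ) := by
    rw [← hspec, map_mul, h1, mul_one]
  rw [h2]
  exact (A.valuation_le_one_iff _).mpr (eval₂_mem ha hμA)

end Eval

section Unit

universe u

variable {K : Type u} [Field K]

/-- an element `a / s` of `discRing V` with `a(0)` a unit of `V` is a unit -/
theorem isUnit_of_coeff_zero {V : ValuationSubring K} (d : discRing V) {a s : K[X]}
    (ha : a ∈ polyV V) (hs : s ∈ polyV V) (hs0 : V.valuation (s.coeff 0) = 1)
    (h : (d : RatFunc K) * algebraMap K[X] (RatFunc K) s = algebraMap K[X] (RatFunc K) a)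
    (ha0 : V.valuation (a.coeff 0) = 1) : IsUnit d := by
  have hsne : algebraMap K[X] (RatFunc K) s ≠ 0 :=
    RatFunc.algebraMap_ne_zero (ne_zero_of_valuation_coeff_zero hs0)
  have hane : algebraMap K[X] (RatFunc K) a ≠ 0 :=
    RatFunc.algebraMap_ne_zero (ne_zero_of_valuation_coeff_zero ha0)
  have hmem : algebraMap K[X] (RatFunc K) s / algebraMap K[X] (RatFunc K) a ∈ discRing V :=
    ⟨s, a, hs, ha, ha0, div_mul_cancel₀ _ hane⟩
  refine IsUnit.of_mul_eq_one (⟨_, hmem⟩ : discRing V) (Subtype.ext ?_)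
  show (d : RatFunc K) * (algebraMap K[X] (RatFunc K) s / algebraMap K[X] (RatFunc K) a) = 1
  rw [← mul_div_assoc, h, div_self hane]

variable {E : Type u} [Field E] {φ : K →+* E} {A : ValuationSubring E}

/-- a polynomial over `V` all of whose coefficients are non-units is divisible by a generator `l`
of the maximal ideal -/
theorem exists_eq_C_mul {V : ValuationSubring K} (l : K)
    (hmax : ∀ x : K, V.valuation x < 1 → ∃ y ∈ V, x = l * y) {a : K[X]}
    (ha : ∀ i, V.valuation (a.coeff i) < 1) : ∃ a' ∈ polyV V, a = C l * a' := by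
  choose y hyV hy using fun i => hmax (a.coeff i) (ha i)
  refine ⟨∑ i ∈ a.support, monomial i (y i), ?_, ?_⟩
  · refine Subring.sum_mem _ fun i _ => ?_
    rw [mem_polyV]
    intro n
    rw [coeff_monomial]
    split_ifs
    · exact hyV i
    · exact V.zero_mem
  · conv_lhs => rw [a.as_sum_support]
    rw [Finset.mul_sum]
    refine Finset.sum_congr rfl fun i _ => ?_
    rw [C_mul_monomial, ← hy i]

/-- **The pointwise unit criterion.** Let `V = A.comap φ` have maximal ideal generated by `l`.
An element `d` of `discRing V = V[μ]_(l, μ)` which is not divisible by `l` and which does not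
vanish at any point of the open unit disc of `A` is a unit. -/
theorem isUnit_of_pointwise [IsAlgClosed E] (l : K)
    (hmax : ∀ x : K, (A.comap φ).valuation x < 1 → ∃ y ∈ A.comap φ, x = l * y)
    (d : discRing (A.comap φ))
    (hld : ¬ ∃ e ∈ discRing (A.comap φ), (d : RatFunc K) = RatFunc.C l * e)
    (hpt : ∀ (μ : E) (hμ : A.valuation μ < 1), evalAt φ A μ hμ d ≠ 0) : IsUnit d := by
  obtain ⟨a, s, ha, hs, hs0, h⟩ := d.2
  have hsne : algebraMap K[X] (RatFunc K) s ≠ 0 :=
    RatFunc.algebraMap_ne_zero (ne_zero_of_valuation_coeff_zero hs0)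
  -- some coefficient of `a` is a unit
  have hcoeff : ∃ i, (A.comap φ).valuation (a.coeff i) = 1 := by
    by_contra hcon
    push Not at hcon
    have hlt : ∀ i, (A.comap φ).valuation (a.coeff i) < 1 := fun i =>
      lt_of_le_of_ne ((ValuationSubring.valuation_le_one_iff _ _).mpr ((mem_polyV _).mp ha i))
        (hcon i)
    obtain ⟨a', ha', haa'⟩ := exists_eq_C_mul l hmax hlt
    apply hld
    refine ⟨algebraMap K[X] (RatFunc K) a' / algebraMap K[X] (RatFunc K) s,
      ⟨a', s, ha', hs, hs0, div_mul_cancel₀ _ hsne⟩, ?_⟩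
    rw [← mul_div_assoc, eq_div_iff hsne, h, haa', map_mul, RatFunc.algebraMap_C]
  obtain ⟨i, hi⟩ := hcoeff
  by_cases ha0 : (A.comap φ).valuation (a.coeff 0) = 1
  · exact isUnit_of_coeff_zero d ha hs hs0 h ha0
  exfalso
  have ha0' : (A.comap φ).valuation (a.coeff 0) < 1 :=
    lt_of_le_of_ne ((ValuationSubring.valuation_le_one_iff _ _).mpr ((mem_polyV _).mp ha 0)) ha0
  obtain ⟨μ, hμ, hroot⟩ := exists_root_valuation_lt_one A (a.map φ)
    (fun n => by rw [coeff_map]; exact (mem_polyV _).mp ha n) i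
    (by rw [coeff_map]; exact (valuation_comap_eq_one_iff φ A _).mp hi)
    (by rw [coeff_map]; exact (valuation_comap_lt_one_iff φ A _).mp ha0')
  rw [eval_map] at hroot
  have hspec := evalAt_spec μ hμ d h
  rw [hroot] at hspec
  rcases mul_eq_zero.mp hspec with h0 | h0
  · exact hpt μ hμ h0
  · exact eval₂_ne_zero hs hs0 hμ h0

theorem evalAt_ne_zero_of_isUnit (μ : E) (hμ : A.valuation μ < 1) {d : discRing (A.comap φ)}
    (hd : IsUnit d) : evalAt φ A μ hμ d ≠ 0 := (hd.map (evalAt φ A μ hμ)).ne_zero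

theorem evalAt_algebraMap (μ : E) (hμ : A.valuation μ < 1) {p : K[X]}
    (hp : p ∈ polyV (A.comap φ)) :
    evalAt φ A μ hμ ⟨algebraMap K[X] (RatFunc K) p, algebraMap_mem_discRing _ hp⟩ =
      p.eval₂ φ μ := by
  rw [evalAt_apply]
  exact RatFunc.eval_algebraMap φ μ p

theorem evalAt_X (μ : E) (hμ : A.valuation μ < 1) :
    evalAt φ A μ hμ ⟨RatFunc.X, X_mem_discRing _⟩ = μ := by
  rw [evalAt_apply]
  exact RatFunc.eval_X φ μ

/-- a non-unit constant of `V` does not divide a unit of `discRing V` -/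
theorem not_C_mul_of_isUnit {V : ValuationSubring K} {l : K} (hl : V.valuation l < 1)
    {d : discRing V} (hd : IsUnit d) :
    ¬ ∃ e ∈ discRing V, (d : RatFunc K) = RatFunc.C l * e := by
  rintro ⟨e, he, hde⟩
  obtain ⟨d', hd'⟩ := hd.exists_right_inv
  have h1 : RatFunc.C l * (e * (d' : RatFunc K)) = 1 := by
    have := congrArg (fun x : discRing V => (x : RatFunc K)) hd'
    simp only [Subring.coe_mul, Subring.coe_one] at this
    rw [← mul_assoc, ← hde]
    exact this
  obtain ⟨a, s, ha, hs, hs0, h⟩ := (discRing V).mul_mem he d'.2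
  have hpoly : C l * a = s := by
    apply IsFractionRing.injective K[X] (RatFunc K)
    rw [map_mul, ← h, RatFunc.algebraMap_C, ← mul_assoc, h1, one_mul]
  have hc := congrArg (fun q : K[X] => V.valuation (q.coeff 0)) hpoly
  simp only [coeff_C_mul, map_mul, hs0] at hc
  have hle : V.valuation (a.coeff 0) ≤ 1 :=
    (ValuationSubring.valuation_le_one_iff _ _).mpr ((mem_polyV _).mp ha 0)
  have : V.valuation l * V.valuation (a.coeff 0) < 1 :=
    lt_of_le_of_lt (mul_le_mul_right hle _) (by rwa [mul_one])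
  rw [hc] at this
  exact lt_irrefl _ this

/-- **The pointwise unit criterion**, as an equivalence. -/
theorem isUnit_iff_pointwise [IsAlgClosed E] (l : K) (hl : (A.comap φ).valuation l < 1)
    (hmax : ∀ x : K, (A.comap φ).valuation x < 1 → ∃ y ∈ A.comap φ, x = l * y)
    (d : discRing (A.comap φ)) :
    IsUnit d ↔ (¬ ∃ e ∈ discRing (A.comap φ), (d : RatFunc K) = RatFunc.C l * e) ∧
      ∀ (μ : E) (hμ : A.valuation μ < 1), evalAt φ A μ hμ d ≠ 0 :=
  ⟨fun hd => ⟨not_C_mul_of_isUnit hl hd, fun μ hμ => evalAt_ne_zero_of_isUnit μ hμ hd⟩,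
    fun h => isUnit_of_pointwise l hmax d h.1 h.2⟩

end Unit

end Fermat.Agent.S18.C.PointwiseUnit
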