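import Mathlib
import Fermat.Agent.S18.C.Defs
import Fermat.Agent.S18.C.PointwiseUnit

/-!
# PROJECT H (S18), block C: Moebius substitutions preserve the disc ring

`V : ValuationSubring K`, `Defs.discRing V = V[X]_(𝔪_V, X) ⊆ K(X)`.
Let `σ` be a `K`-algebra endomorphism of `K(X)` with `σ X = T / L`, `T, L ∈ V[X]`,
`T(0) ∈ 𝔪_V`, `L(0)` a unit of `V` (e.g. `T = a X + b`, `L = c X + d` with `a, c ∈ V`, `b ∈ 𝔪_V`,
`d ∈ Vˣ`: the Moebius maps of the Hesse / Legendre groups at `ℓ`).  Then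

* `map_mem_discRing` : `σ` maps `discRing V` into itself;
* `evalAt_map` : for `μ` in the open unit disc of `A` (`V = A.comap φ`) and `ν = T(μ)/L(μ)`
  (again in the disc: `valuation_lt_one_of_mul_eq`), evaluation at `μ` of `σ f` is evaluation at
  `ν` of `f`; in particular (`evalAt_map_of_fixed`) `σ` commutes with the evaluation at a fixed
  point `μ` of the substitution - the hypothesis `hg` of `Specialize.card_fixed_eq`.
-/

set_option autoImplicit false

namespace Fermat.Agent.S18.C.MoebiusDisc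

open Polynomial
open Fermat.Agent.S18.C.Defs

section Hom

variable {K : Type*} [Field K]

/-- homogenisation of `p` in degree `n` along `(T, L)`: `∑_{i ≤ n} p_i T^i L^(n-i)`, i.e.
`L^n p(T/L)` when `deg p ≤ n` -/
noncomputable def hom (T L p : K[X]) (n : ℕ) : K[X] :=
  ∑ i ∈ Finset.range (n + 1), C (p.coeff i) * T ^ i * L ^ (n - i)

theorem C_mem_polyV (V : ValuationSubring K) {x : K} (hx : x ∈ V) : C x ∈ polyV V := by
  rw [mem_polyV]
  intro i
  rw [coeff_C]
  split_ifs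
  · exact hx
  · exact V.zero_mem

theorem hom_mem_polyV (V : ValuationSubring K) {T L p : K[X]} (hT : T ∈ polyV V)
    (hL : L ∈ polyV V) (hp : p ∈ polyV V) (n : ℕ) : hom T L p n ∈ polyV V := by
  unfold hom
  refine Subring.sum_mem _ fun i _ => ?_
  exact Subring.mul_mem _ (Subring.mul_mem _ (C_mem_polyV V ((mem_polyV V).mp hp i))
    (Subring.pow_mem _ hT i)) (Subring.pow_mem _ hL _)

theorem coeff_zero_hom (T L p : K[X]) (n : ℕ) :
    (hom T L p n).coeff 0 =
      ∑ i ∈ Finset.range (n + 1), p.coeff i * T.coeff 0 ^ i * L.coeff 0 ^ (n - i) := by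
  simp only [coeff_zero_eq_eval_zero, hom, eval_finsetSum, eval_mul, eval_C, eval_pow]

theorem valuation_coeff_zero_hom (V : ValuationSubring K) {T L p : K[X]} (hp : p ∈ polyV V)
    (hp0 : V.valuation (p.coeff 0) = 1) (hT0 : V.valuation (T.coeff 0) < 1)
    (hL0 : V.valuation (L.coeff 0) = 1) (n : ℕ) :
    V.valuation ((hom T L p n).coeff 0) = 1 := by
  rw [coeff_zero_hom, Finset.sum_range_succ']
  have h0 : V.valuation (p.coeff 0 * T.coeff 0 ^ 0 * L.coeff 0 ^ (n - 0)) = 1 := by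
    rw [pow_zero, mul_one, map_mul, map_pow, hp0, hL0, one_pow, one_mul]
  have hlt : V.valuation (∑ i ∈ Finset.range n,
      p.coeff (i + 1) * T.coeff 0 ^ (i + 1) * L.coeff 0 ^ (n - (i + 1))) < 1 := by
    apply Valuation.map_sum_lt _ one_ne_zero
    intro i _
    rw [map_mul, map_mul, map_pow, map_pow, hL0, one_pow, mul_one]
    have h1 : V.valuation (p.coeff (i + 1)) ≤ 1 :=
      (V.valuation_le_one_iff _).mpr ((mem_polyV V).mp hp (i + 1))
    have h2 : V.valuation (T.coeff 0) ^ (i + 1) < 1 := pow_lt_one₀ zero_le hT0 (Nat.succ_ne_zero i)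
    calc V.valuation (p.coeff (i + 1)) * V.valuation (T.coeff 0) ^ (i + 1)
        ≤ 1 * V.valuation (T.coeff 0) ^ (i + 1) := mul_le_mul_left h1 _
      _ = V.valuation (T.coeff 0) ^ (i + 1) := one_mul _
      _ < 1 := h2
  rw [add_comm, Valuation.map_add_eq_of_lt_left _ (by rw [h0]; exact hlt), h0]

/-- `σ(p) L^n = hom T L p n` when `σ X = T / L` and `deg p ≤ n` -/
theorem map_mul_pow (σ : RatFunc K →ₐ[K] RatFunc K) {T L : K[X]}
    (hσ : σ RatFunc.X * algebraMap K[X] (RatFunc K) L = algebraMap K[X] (RatFunc K) T)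
    (p : K[X]) {n : ℕ} (hn : p.natDegree ≤ n) :
    σ (algebraMap K[X] (RatFunc K) p) * algebraMap K[X] (RatFunc K) L ^ n =
      algebraMap K[X] (RatFunc K) (hom T L p n) := by
  have hp : σ (algebraMap K[X] (RatFunc K) p) =
      ∑ i ∈ Finset.range (n + 1), RatFunc.C (p.coeff i) * σ RatFunc.X ^ i := by
    conv_lhs => rw [p.as_sum_range_C_mul_X_pow' (Nat.lt_succ_of_le hn)]
    rw [map_sum, map_sum]
    refine Finset.sum_congr rfl fun i _ => ?_
    rw [map_mul, map_pow, RatFunc.algebraMap_C, RatFunc.algebraMap_X, map_mul, map_pow,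
      ← RatFunc.algebraMap_eq_C, AlgHom.commutes]
  rw [hp, Finset.sum_mul, hom, map_sum]
  refine Finset.sum_congr rfl fun i hi => ?_
  have hi' : i ≤ n := Nat.lt_succ_iff.mp (Finset.mem_range.mp hi)
  rw [map_mul, map_mul, map_pow, map_pow, RatFunc.algebraMap_C, ← hσ, mul_pow]
  conv_lhs => rw [← Nat.add_sub_cancel' hi', pow_add]
  ring

/-- a `K`-algebra endomorphism `σ` of `K(X)` with `σ X = T / L`, `T, L ∈ V[X]`, `T(0) ∈ 𝔪_V`,
`L(0) ∈ Vˣ`, maps `V[X]_(𝔪_V, X)` into itself -/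
theorem map_mem_discRing (V : ValuationSubring K) (σ : RatFunc K →ₐ[K] RatFunc K) {T L : K[X]}
    (hT : T ∈ polyV V) (hL : L ∈ polyV V) (hT0 : V.valuation (T.coeff 0) < 1)
    (hL0 : V.valuation (L.coeff 0) = 1)
    (hσ : σ RatFunc.X * algebraMap K[X] (RatFunc K) L = algebraMap K[X] (RatFunc K) T)
    {f : RatFunc K} (hf : f ∈ discRing V) : σ f ∈ discRing V := by
  obtain ⟨p, s, hp, hs, hs0, h⟩ := hf
  set n := max p.natDegree s.natDegree with hn
  refine ⟨hom T L p n, hom T L s n, hom_mem_polyV V hT hL hp n, hom_mem_polyV V hT hL hs n,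
    valuation_coeff_zero_hom V hs hs0 hT0 hL0 n, ?_⟩
  rw [← map_mul_pow σ hσ s (le_max_right _ _), ← map_mul_pow σ hσ p (le_max_left _ _), ← mul_assoc,
    ← map_mul, h]

end Hom

section Eval

universe u

variable {K E : Type u} [Field K] [Field E] {φ : K →+* E} {A : ValuationSubring E}

open Fermat.Agent.S18.C.PointwiseUnit

/-- `hom T L p n` evaluated at `μ` is `L(μ)^n p(ν)` when `ν L(μ) = T(μ)` -/
theorem eval₂_hom {T L : K[X]} (p : K[X]) {n : ℕ} (hn : p.natDegree ≤ n) {μ ν : E}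
    (hν : ν * L.eval₂ φ μ = T.eval₂ φ μ) :
    (hom T L p n).eval₂ φ μ = L.eval₂ φ μ ^ n * p.eval₂ φ ν := by
  rw [hom, eval₂_finsetSum, eval₂_eq_sum_range' φ (Nat.lt_succ_of_le hn), Finset.mul_sum]
  refine Finset.sum_congr rfl fun i hi => ?_
  have hi' : i ≤ n := Nat.lt_succ_iff.mp (Finset.mem_range.mp hi)
  rw [eval₂_mul, eval₂_mul, eval₂_C, eval₂_pow, eval₂_pow, ← hν, mul_pow]
  conv_rhs => rw [← Nat.add_sub_cancel' hi', pow_add]
  ring

/-- the image `ν = T(μ)/L(μ)` of a point of the open unit disc is in the open unit disc -/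
theorem valuation_lt_one_of_mul_eq {T L : K[X]} (hT : T ∈ polyV (A.comap φ))
    (hL : L ∈ polyV (A.comap φ)) (hT0 : (A.comap φ).valuation (T.coeff 0) < 1)
    (hL0 : (A.comap φ).valuation (L.coeff 0) = 1) {μ ν : E} (hμ : A.valuation μ < 1)
    (hν : ν * L.eval₂ φ μ = T.eval₂ φ μ) : A.valuation ν < 1 := by
  have h1 : A.valuation (L.eval₂ φ μ) = 1 := valuation_eval₂_eq_one hL hL0 hμ
  have hμA : μ ∈ A := (A.valuation_le_one_iff μ).mp hμ.le
  have h2 : A.valuation (T.eval₂ φ μ) < 1 := by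
    have hdiv : T.divX ∈ polyV (A.comap φ) := by
      rw [mem_polyV]
      intro n
      rw [coeff_divX]
      exact (mem_polyV _).mp hT (n + 1)
    have hT' : T.eval₂ φ μ = φ (T.coeff 0) + μ * T.divX.eval₂ φ μ := by
      conv_lhs => rw [← divX_mul_X_add T]
      rw [eval₂_add, eval₂_mul, eval₂_X, eval₂_C]
      ring
    rw [hT']
    apply Valuation.map_add_lt
    · exact (valuation_comap_lt_one_iff φ A _).mp hT0
    · rw [map_mul]
      calc A.valuation μ * A.valuation (T.divX.eval₂ φ μ) ≤ A.valuation μ * 1 :=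
            mul_le_mul_right ((A.valuation_le_one_iff _).mpr (eval₂_mem hdiv hμA)) _
        _ < 1 := by rwa [mul_one]
  have h3 : A.valuation ν = A.valuation (T.eval₂ φ μ) := by
    rw [← hν, map_mul, h1, mul_one]
  rw [h3]; exact h2

/-- evaluation at `μ` of `σ f` is evaluation at `ν = T(μ)/L(μ)` of `f` -/
theorem evalAt_map (σ : RatFunc K →ₐ[K] RatFunc K) {T L : K[X]} (hT : T ∈ polyV (A.comap φ))
    (hL : L ∈ polyV (A.comap φ)) (hT0 : (A.comap φ).valuation (T.coeff 0) < 1)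
    (hL0 : (A.comap φ).valuation (L.coeff 0) = 1)
    (hσ : σ RatFunc.X * algebraMap K[X] (RatFunc K) L = algebraMap K[X] (RatFunc K) T)
    {μ ν : E} (hμ : A.valuation μ < 1) (hνlt : A.valuation ν < 1)
    (hν : ν * L.eval₂ φ μ = T.eval₂ φ μ) (f : discRing (A.comap φ)) :
    evalAt φ A μ hμ ⟨σ (f : RatFunc K), map_mem_discRing (A.comap φ) σ hT hL hT0 hL0 hσ f.2⟩ =
      evalAt φ A ν hνlt f := by
  obtain ⟨p, s, hp, hs, hs0, h⟩ := f.2
  set n := max p.natDegree s.natDegree with hn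
  have hLμ : L.eval₂ φ μ ≠ 0 := eval₂_ne_zero hL hL0 hμ
  have hsν : s.eval₂ φ ν ≠ 0 := eval₂_ne_zero hs hs0 hνlt
  have hrel : σ (f : RatFunc K) * algebraMap K[X] (RatFunc K) (hom T L s n) =
      algebraMap K[X] (RatFunc K) (hom T L p n) := by
    rw [← map_mul_pow σ hσ s (le_max_right _ _), ← map_mul_pow σ hσ p (le_max_left _ _),
      ← mul_assoc, ← map_mul, h]
  have h1 := evalAt_spec μ hμ
    (⟨σ (f : RatFunc K), map_mem_discRing (A.comap φ) σ hT hL hT0 hL0 hσ f.2⟩ :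
      discRing (A.comap φ)) hrel
  rw [eval₂_hom s (le_max_right _ _) hν, eval₂_hom p (le_max_left _ _) hν] at h1
  have h2 := evalAt_spec ν hνlt f h
  have hpow : L.eval₂ φ μ ^ n ≠ 0 := pow_ne_zero n hLμ
  apply mul_right_cancel₀ hsν
  rw [h2]
  apply mul_left_cancel₀ hpow
  rw [← h1]; ring

/-- `σ` commutes with the evaluation at a fixed point `μ` of the substitution -/
theorem evalAt_map_of_fixed (σ : RatFunc K →ₐ[K] RatFunc K) {T L : K[X]}
    (hT : T ∈ polyV (A.comap φ)) (hL : L ∈ polyV (A.comap φ))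
    (hT0 : (A.comap φ).valuation (T.coeff 0) < 1) (hL0 : (A.comap φ).valuation (L.coeff 0) = 1)
    (hσ : σ RatFunc.X * algebraMap K[X] (RatFunc K) L = algebraMap K[X] (RatFunc K) T)
    {μ : E} (hμ : A.valuation μ < 1) (hfix : μ * L.eval₂ φ μ = T.eval₂ φ μ)
    (f : discRing (A.comap φ)) :
    evalAt φ A μ hμ ⟨σ (f : RatFunc K), map_mem_discRing (A.comap φ) σ hT hL hT0 hL0 hσ f.2⟩ =
      evalAt φ A μ hμ f :=
  evalAt_map σ hT hL hT0 hL0 hσ hμ hμ hfix f

end Eval

end Fermat.Agent.S18.C.MoebiusDisc
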