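import Mathlib
import Fermat.Agent.S18.C.GaussA
import Fermat.Agent.S18.C.MoebiusDisc
import Fermat.Agent.S18.C.SurfaceDefs

/-!
# PROJECT H (S18), block C, K-side (A4)/(A7): substitutions preserve the Gauss valuation ring

Setting of `C/GaussA` (`R : RedDatum A π r`, `Vj R` the Gauss valuation ring of `RatFunc L`,
`redVj : Vj R →+* RatFunc k`).  Let `σL`, `σk` be algebra endomorphisms of `RatFunc L`,
`RatFunc k` given by the SAME substitution `X ↦ T / B` with `T, B ∈ A[X]`, `B̄ ≠ 0`.  Then

* `subst_mem_Vj`  : `σL` maps `Vj R` into itself;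
* `redVj_subst`   : `redVj (σL x) = σk (redVj x)`.

(The cover `j ↦ P(μ)/Q(μ)` and the Moebius substitutions of the Galois group are instances.)
-/

set_option autoImplicit false
set_option linter.unusedSectionVars false

noncomputable section

namespace Fermat.Agent.S18.C.GaussA2

open Polynomial AlgebraicCurve Fermat.Agent.S18.CoreDefs Fermat.Agent.S18.C.UnramVal
  Fermat.Agent.S18.C.GaussA Fermat.Agent.S18.C.MoebiusDisc

variable {L : Type*} [Field L] {k : Type*} [Field k]
variable {A : ValuationSubring L}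

/-! ### homogenisation over `A` -/

/-- homogenisation of `p ∈ A[X]` in degree `n` along `(T, B)` -/
def homA (T B p : A[X]) (n : ℕ) : A[X] :=
  ∑ i ∈ Finset.range (n + 1), C (p.coeff i) * T ^ i * B ^ (n - i)

theorem map_homA {S : Type*} [Field S] (f : A →+* S) (T B p : A[X]) (n : ℕ) :
    (homA T B p n).map f = hom (T.map f) (B.map f) (p.map f) n := by
  unfold homA hom
  rw [Polynomial.map_sum]
  refine Finset.sum_congr rfl fun i _ => ?_
  rw [Polynomial.map_mul, Polynomial.map_mul, Polynomial.map_pow, Polynomial.map_pow,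
    Polynomial.map_C, Polynomial.coeff_map]

theorem polyL_homA (T B p : A[X]) (n : ℕ) :
    polyL (homA T B p n) = algebraMap L[X] (RatFunc L)
      (hom (T.map A.subtype) (B.map A.subtype) (p.map A.subtype) n) := by
  rw [polyL_apply, map_homA]

theorem polyK_homA (π : A →+* k) (T B p : A[X]) (n : ℕ) :
    polyK π (homA T B p n) = algebraMap k[X] (RatFunc k)
      (hom (T.map π) (B.map π) (p.map π) n) := by
  rw [polyK_apply, map_homA]

/-- `σ(p) B^n = hom_n(p)` over `L` -/
theorem subst_polyL (σL : RatFunc L →ₐ[L] RatFunc L) {T B : A[X]}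
    (hσL : σL RatFunc.X * polyL B = polyL T) (p : A[X]) {n : ℕ} (hn : p.natDegree ≤ n) :
    σL (polyL p) * polyL B ^ n = polyL (homA T B p n) := by
  rw [polyL_homA, polyL_apply, polyL_apply]
  exact map_mul_pow σL hσL (p.map A.subtype) (le_trans (Polynomial.natDegree_map_le) hn)

/-- `σ(p̄) B̄^n = hom_n(p)‾` over `k` -/
theorem subst_polyK (π : A →+* k) (σk : RatFunc k →ₐ[k] RatFunc k) {T B : A[X]}
    (hσk : σk RatFunc.X * polyK π B = polyK π T) (p : A[X]) {n : ℕ} (hn : p.natDegree ≤ n) :
    σk (polyK π p) * polyK π B ^ n = polyK π (homA T B p n) := by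
  rw [polyK_homA, polyK_apply, polyK_apply]
  exact map_mul_pow σk hσk (p.map π) (le_trans (Polynomial.natDegree_map_le) hn)

theorem homA_map_ne_zero (π : A →+* k) (σk : RatFunc k →ₐ[k] RatFunc k) {T B : A[X]}
    (hσk : σk RatFunc.X * polyK π B = polyK π T) (hB : B.map π ≠ 0) {s : A[X]}
    (hs : s.map π ≠ 0) {n : ℕ} (hn : s.natDegree ≤ n) : (homA T B s n).map π ≠ 0 := by
  intro h0
  have h1 := subst_polyK π σk hσk s hn
  rw [polyK_apply (π := π) (homA T B s n), h0, map_zero] at h1
  have h2 : σk (polyK π s) ≠ 0 := (map_ne_zero_iff _ σk.toRingHom.injective).mpr (polyK_ne_zero hs)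
  exact (mul_ne_zero h2 (pow_ne_zero n (polyK_ne_zero hB))) h1

/-! ### the substitution lemma -/

variable {FL : Type*} [Field FL] [Algebra L FL] {Fk : Type*} [Field Fk] [Algebra k Fk]
variable [Algebra (RatFunc L) FL] [IsScalarTower L (RatFunc L) FL]
variable [Algebra (RatFunc k) Fk] [IsScalarTower k (RatFunc k) Fk]
variable {π : A →+* k} {r : Place L FL → Place k Fk}
variable (R : RedDatum A π r)
variable (hx : algebraMap (RatFunc L) FL RatFunc.X ∈ R.O)
variable (hrx : R.red ⟨_, hx⟩ = algebraMap (RatFunc k) Fk RatFunc.X)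

variable (σL : RatFunc L →ₐ[L] RatFunc L) (σk : RatFunc k →ₐ[k] RatFunc k) {T B : A[X]}
  (hσL : σL RatFunc.X * polyL B = polyL T) (hσk : σk RatFunc.X * polyK π B = polyK π T)
  (hB : B.map π ≠ 0)

include hσL hσk hB in
theorem subst_rel {x : RatFunc L} {a s : A[X]} (hs : s.map π ≠ 0)
    (h : x * polyL s = polyL a) :
    (homA T B s (max a.natDegree s.natDegree)).map π ≠ 0 ∧
      σL x * polyL (homA T B s (max a.natDegree s.natDegree)) =
        polyL (homA T B a (max a.natDegree s.natDegree)) := by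
  refine ⟨homA_map_ne_zero π σk hσk hB hs (le_max_right _ _), ?_⟩
  rw [← subst_polyL σL hσL s (le_max_right _ _), ← subst_polyL σL hσL a (le_max_left _ _),
    ← mul_assoc, ← map_mul, h]

include hrx hσL hσk hB in
/-- **the substitution preserves the Gauss valuation ring** -/
theorem subst_mem_Vj {x : RatFunc L} (hxV : x ∈ Vj R) : σL x ∈ Vj R := by
  obtain ⟨a, s, hs, h⟩ := (mem_Vj_iff R hx hrx x).mp hxV
  obtain ⟨h1, h2⟩ := subst_rel σL σk hσL hσk hB hs h
  exact mem_Vj_of_rel R hx hrx h1 h2

include hσL hσk hB in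
/-- **the substitution commutes with the reduction** -/
theorem redVj_subst (x : Vj R) :
    redVj R hx hrx ⟨σL (x : RatFunc L), subst_mem_Vj R hx hrx σL σk hσL hσk hB x.2⟩ =
      σk (redVj R hx hrx x) := by
  obtain ⟨a, s, hs, h⟩ := (mem_Vj_iff R hx hrx (x : RatFunc L)).mp x.2
  obtain ⟨h1, h2⟩ := subst_rel σL σk hσL hσk hB hs h
  set n := max a.natDegree s.natDegree with hn
  have e1 := redVj_mul_polyK R hx hrx
    ⟨σL (x : RatFunc L), subst_mem_Vj R hx hrx σL σk hσL hσk hB x.2⟩ h2
  have e2 : σk (redVj R hx hrx x) * polyK π (homA T B s n) = polyK π (homA T B a n) := by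
    have e3 := redVj_mul_polyK R hx hrx x h
    rw [← subst_polyK π σk hσk s (le_max_right _ _), ← subst_polyK π σk hσk a (le_max_left _ _),
      ← mul_assoc, ← map_mul, e3]
  have h3 : polyK π (homA T B s n) ≠ 0 := polyK_ne_zero h1
  exact mul_right_cancel₀ h3 (e1.trans e2.symm)

/-! ### the Gauss valuation ring of the `μ`-line and the cover -/

section MuLine

open Fermat.Agent.S18.C.Defs Fermat.Agent.S18.C.SurfaceDefs

variable (c : Cover)

/-- the identity `MuLine c K → RatFunc K` as a ring homomorphism -/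
def toRat (K : Type*) [Field K] : MuLine c K →+* RatFunc K :=
  ((MuLine.of c K).symm : MuLine c K ≃ₐ[K] RatFunc K)

/-- the identity `RatFunc K → MuLine c K` as a ring homomorphism -/
def ofRat (K : Type*) [Field K] : RatFunc K →+* MuLine c K :=
  ((MuLine.of c K) : RatFunc K ≃ₐ[K] MuLine c K)

@[simp] theorem toRat_ofRat (K : Type*) [Field K] (f : RatFunc K) : toRat c K (ofRat c K f) = f := rfl

@[simp] theorem ofRat_toRat (K : Type*) [Field K] (m : MuLine c K) : ofRat c K (toRat c K m) = m := rfl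

/-- **the Gauss valuation ring of the `μ`-line**: the same valuation subring of `RatFunc L`, read
through the type synonym -/
def WA : ValuationSubring (MuLine c L) := (Vj R).comap (toRat c L)

theorem mem_WA {m : MuLine c L} : m ∈ WA R c ↔ toRat c L m ∈ Vj R := Iff.rfl

/-- `W_A → Vj` (the identity) -/
def WAtoVj : WA R c →+* Vj R where
  toFun w := ⟨toRat c L (w : MuLine c L), w.2⟩
  map_one' := Subtype.ext (map_one _)
  map_mul' _ _ := Subtype.ext (map_mul _ _ _)
  map_zero' := Subtype.ext (map_zero _)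
  map_add' _ _ := Subtype.ext (map_add _ _ _)

/-- the reduction `W_A → k(μ)` -/
def redW : WA R c →+* MuLine c k :=
  (ofRat c k).comp ((redVj R hx hrx).comp (WAtoVj R c))

theorem toRat_redW (w : WA R c) :
    toRat c k (redW R hx hrx c w) = redVj R hx hrx (WAtoVj R c w) := rfl

/-- `W_A → Vj` is onto (it is the identity) -/
theorem WAtoVj_surjective : Function.Surjective (WAtoVj R c) := fun x =>
  ⟨⟨ofRat c L (x : RatFunc L), x.2⟩, rfl⟩

theorem redW_surjective (hπs : Function.Surjective π) :
    Function.Surjective (redW R hx hrx c) := by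
  intro y
  obtain ⟨x, hx'⟩ := redVj_surjective R hx hrx hπs (toRat c k y)
  obtain ⟨w, rfl⟩ := WAtoVj_surjective R c x
  exact ⟨w, by show ofRat c k (redVj R hx hrx (WAtoVj R c w)) = y; rw [hx', ofRat_toRat]⟩

theorem redW_eq_zero_iff (w : WA R c) : redW R hx hrx c w = 0 ↔ ¬ IsUnit w := by
  have h1 : redW R hx hrx c w = 0 ↔ redVj R hx hrx (WAtoVj R c w) = 0 := by
    show ofRat c k (redVj R hx hrx (WAtoVj R c w)) = 0 ↔ _
    exact map_eq_zero_iff _ (ofRat c k).injective
  rw [h1, redVj_eq_zero_iff]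
  refine not_congr ⟨fun hu => ?_, fun hu => hu.map (WAtoVj R c)⟩
  obtain ⟨v, hv⟩ := hu.exists_right_inv
  obtain ⟨v', rfl⟩ := WAtoVj_surjective R c v
  refine IsUnit.of_mul_eq_one v' ?_
  apply Subtype.ext
  have h2 := congrArg (fun z : Vj R => ofRat c L (z : RatFunc L)) hv
  exact h2

/-- the integer polynomials of the cover over `A` -/
def PA (A : ValuationSubring L) : A[X] := c.P.map (Int.castRingHom A)

/-- the integer polynomials of the cover over `A` -/
def QA (A : ValuationSubring L) : A[X] := c.Q.map (Int.castRingHom A)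

theorem map_intCast_map {S S' : Type*} [Ring S] [Ring S'] (f : S →+* S') (p : ℤ[X]) :
    (p.map (Int.castRingHom S)).map f = p.map (Int.castRingHom S') := by
  rw [Polynomial.map_map]
  congr 1
  exact RingHom.ext_int _ _

theorem polyL_PA : polyL (PA c A) = algebraMap L[X] (RatFunc L) (c.PK L) := by
  rw [polyL_apply, PA, map_intCast_map]; rfl

theorem polyL_QA : polyL (QA c A) = algebraMap L[X] (RatFunc L) (c.QK L) := by
  rw [polyL_apply, QA, map_intCast_map]; rfl

theorem polyK_PA : polyK π (PA c A) = algebraMap k[X] (RatFunc k) (c.PK k) := by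
  rw [polyK_apply, PA, map_intCast_map]; rfl

theorem polyK_QA : polyK π (QA c A) = algebraMap k[X] (RatFunc k) (c.QK k) := by
  rw [polyK_apply, QA, map_intCast_map]; rfl

theorem QK_ne_zero (K : Type*) [Field K] [c.Good K] : c.QK K ≠ 0 := by
  intro h0
  have h1 : c.jOf K = 0 := by rw [Cover.jOf, h0, map_zero, div_zero]
  exact (Cover.Good.transc (c := c) (K := K)) (h1 ▸ isAlgebraic_zero)

theorem jOf_mul (K : Type*) [Field K] [c.Good K] :
    c.jOf K * algebraMap K[X] (RatFunc K) (c.QK K) = algebraMap K[X] (RatFunc K) (c.PK K) := by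
  have h : algebraMap K[X] (RatFunc K) (c.QK K) ≠ 0 :=
    (map_ne_zero_iff _ (RatFunc.algebraMap_injective K)).mpr (QK_ne_zero c K)
  rw [Cover.jOf, div_mul_cancel₀ _ h]

variable [c.Good L] [c.Good k]

/-- the cover as an endomorphism of `RatFunc K` -/
def covRat (K : Type*) [Field K] [c.Good K] : RatFunc K →ₐ[K] RatFunc K :=
  ((MuLine.of c K).symm : MuLine c K →ₐ[K] RatFunc K).comp (c.covMap K)

theorem covRat_apply (K : Type*) [Field K] [c.Good K] (f : RatFunc K) :
    covRat c K f = toRat c K (algebraMap (RatFunc K) (MuLine c K) f) := rfl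

theorem covRat_X (K : Type*) [Field K] [c.Good K] : covRat c K RatFunc.X = c.jOf K := by
  rw [covRat_apply, Cover.algebraMap_X]
  rfl

theorem covRat_rel_L : covRat c L RatFunc.X * polyL (QA c A) = polyL (PA c A) := by
  rw [covRat_X, polyL_QA, polyL_PA, jOf_mul]

theorem covRat_rel_k : covRat c k RatFunc.X * polyK π (QA c A) = polyK π (PA c A) := by
  rw [covRat_X, polyK_QA, polyK_PA, jOf_mul]

theorem QA_map_ne_zero : (QA c A).map π ≠ 0 := by
  rw [QA, map_intCast_map]
  exact QK_ne_zero c k

include hrx in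
theorem algebraMap_mem_WA {x : RatFunc L} (hxV : x ∈ Vj R) :
    algebraMap (RatFunc L) (MuLine c L) x ∈ WA R c := by
  rw [mem_WA, ← covRat_apply]
  exact subst_mem_Vj R hx hrx (covRat c L) (covRat c k) (covRat_rel_L c) (covRat_rel_k c)
    (QA_map_ne_zero c) hxV

/-- **(G4)** the cover maps the Gauss valuation ring of the `j`-line into that of the `μ`-line -/
def covW : Vj R →+* WA R c where
  toFun x := ⟨algebraMap (RatFunc L) (MuLine c L) (x : RatFunc L), algebraMap_mem_WA R hx hrx c x.2⟩
  map_one' := Subtype.ext (map_one _)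
  map_mul' _ _ := Subtype.ext (map_mul _ _ _)
  map_zero' := Subtype.ext (map_zero _)
  map_add' _ _ := Subtype.ext (map_add _ _ _)

@[simp]
theorem coe_covW (x : Vj R) :
    ((covW R hx hrx c x : WA R c) : MuLine c L) = algebraMap (RatFunc L) (MuLine c L) (x : RatFunc L) :=
  rfl

/-- **compatibility of the reductions with the cover** -/
theorem redW_covW (x : Vj R) :
    redW R hx hrx c (covW R hx hrx c x) =
      algebraMap (RatFunc k) (MuLine c k) (redVj R hx hrx x) := by
  have h := redVj_subst R hx hrx (covRat c L) (covRat c k) (covRat_rel_L c) (covRat_rel_k c)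
    (QA_map_ne_zero c) x
  have h1 : WAtoVj R c (covW R hx hrx c x) =
      ⟨covRat c L (x : RatFunc L), subst_mem_Vj R hx hrx (covRat c L) (covRat c k)
        (covRat_rel_L c) (covRat_rel_k c) (QA_map_ne_zero c) x.2⟩ := rfl
  show ofRat c k (redVj R hx hrx (WAtoVj R c (covW R hx hrx c x))) = _
  rw [h1, h, covRat_apply, ofRat_toRat]

end MuLine

/-! ### the disc ring `B_A` inside `W_A`, and its reduction -/

section BRing

open Fermat.Agent.S18.C.Defs Fermat.Agent.S18.C.SurfaceDefs

variable (c : Cover)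

/-- presentation of an element of `B_A` over `A[X]` -/
theorem exists_rel_of_mem_BRing {m : MuLine c L} (hm : m ∈ BRing c A) :
    ∃ a s : A[X], IsUnit (s.coeff 0) ∧ toRat c L m * polyL s = polyL a := by
  rw [mem_BRing] at hm
  obtain ⟨a, s, ⟨a', ha'⟩, ⟨s', hs'⟩, hs0, h⟩ := hm
  refine ⟨a', s', ?_, ?_⟩
  · have h1 : ((s'.coeff 0 : A) : L) = s.coeff 0 := by
      rw [← hs']; simp
    have h2 : A.valuation ((s'.coeff 0 : A) : L) = 1 := by rw [h1, hs0]
    exact (ValuationSubring.valuation_eq_one_iff A _).mpr h2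
  · rw [polyL_apply, polyL_apply]
    have e1 : s'.map A.subtype = s := hs'
    have e2 : a'.map A.subtype = a := ha'
    rw [e1, e2]
    exact h

theorem map_ne_zero_of_isUnit_coeff_zero (π : A →+* k) {s : A[X]} (hs : IsUnit (s.coeff 0)) :
    s.map π ≠ 0 := by
  intro h0
  have h1 : (s.map π).coeff 0 = 0 := by rw [h0, Polynomial.coeff_zero]
  rw [Polynomial.coeff_map] at h1
  exact (hs.map π).ne_zero h1

include hrx in
/-- `B_A ⊆ W_A` -/
theorem BRing_le_WA : BRing c A ≤ (WA R c).toSubring := by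
  intro m hm
  obtain ⟨a, s, hs, h⟩ := exists_rel_of_mem_BRing c hm
  exact mem_Vj_of_rel R hx hrx (map_ne_zero_of_isUnit_coeff_zero π hs) h

/-- the inclusion `B_A → W_A` -/
def incBW : BRing c A →+* WA R c :=
  Subring.inclusion (BRing_le_WA R hx hrx c)

@[simp]
theorem coe_incBW (b : BRing c A) : ((incBW R hx hrx c b : WA R c) : MuLine c L) = (b : MuLine c L) :=
  rfl

/-- the reduction of an element of `B_A` lies in `D₀ = k[μ]_(μ)` -/
theorem redW_mem_BRing_top (b : BRing c A) :
    redW R hx hrx c (incBW R hx hrx c b) ∈ BRing c (⊤ : ValuationSubring k) := by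
  obtain ⟨a, s, hs, h⟩ := exists_rel_of_mem_BRing c b.2
  have h1 := redVj_mul_polyK R hx hrx (WAtoVj R c (incBW R hx hrx c b)) h
  rw [mem_BRing]
  refine ⟨a.map π, s.map π, ?_, ?_, ?_, ?_⟩
  · rw [mem_polyV]; intro i; exact ValuationSubring.mem_top _
  · rw [mem_polyV]; intro i; exact ValuationSubring.mem_top _
  · have h2 : (s.map π).coeff 0 ≠ 0 := by
      rw [Polynomial.coeff_map]
      exact (hs.map π).ne_zero
    have h3 : ((s.map π).coeff 0)⁻¹ ∈ (⊤ : ValuationSubring k) := ValuationSubring.mem_top _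
    have h4 : (s.map π).coeff 0 ∈ (⊤ : ValuationSubring k) := ValuationSubring.mem_top _
    apply le_antisymm
    · exact (ValuationSubring.valuation_le_one_iff _ _).mpr h4
    · have h5 := (ValuationSubring.valuation_le_one_iff _ _).mpr h3
      rw [map_inv₀] at h5
      have h6 : (⊤ : ValuationSubring k).valuation ((s.map π).coeff 0) ≠ 0 :=
        (Valuation.ne_zero_iff _).mpr h2
      exact (inv_le_one₀ (zero_lt_iff.mpr h6)).mp h5
  · exact h1

/-- **the reduction `B_A → D₀`** (coefficientwise residue) -/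
def redBA : BRing c A →+* BRing c (⊤ : ValuationSubring k) :=
  ((redW R hx hrx c).comp (incBW R hx hrx c)).codRestrict _ (redW_mem_BRing_top R hx hrx c)

@[simp]
theorem coe_redBA (b : BRing c A) :
    ((redBA R hx hrx c b : BRing c (⊤ : ValuationSubring k)) : MuLine c k) =
      redW R hx hrx c (incBW R hx hrx c b) := rfl

/-- `redBA (a / s) = ā / s̄` -/
theorem redBA_rel (b : BRing c A) {a s : A[X]} (h : toRat c L (b : MuLine c L) * polyL s = polyL a) :
    toRat c k (redBA R hx hrx c b : MuLine c k) * polyK π s = polyK π a :=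
  redVj_mul_polyK R hx hrx (WAtoVj R c (incBW R hx hrx c b)) h

end BRing

/-! ### (A7) the Galois group of the cover acts on `W_A`, compatibly with the reduction -/

section Galois

open Fermat.Agent.S18.C.Defs Fermat.Agent.S18.C.SurfaceDefs

variable (c : Cover)

/-- an automorphism of the `μ`-line over the `j`-line, as an endomorphism of `RatFunc K` -/
def galRat (K : Type*) [Field K] [c.Good K] (g : c.Gal K) : RatFunc K →ₐ[K] RatFunc K :=
  ((MuLine.of c K).symm : MuLine c K →ₐ[K] RatFunc K).comp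
    (((g : MuLine c K →ₐ[RatFunc K] MuLine c K).restrictScalars K).comp
      ((MuLine.of c K) : RatFunc K →ₐ[K] MuLine c K))

theorem galRat_apply (K : Type*) [Field K] [c.Good K] (g : c.Gal K) (f : RatFunc K) :
    galRat c K g f = toRat c K (g (ofRat c K f)) := rfl

theorem galRat_X (K : Type*) [Field K] [c.Good K] (g : c.Gal K) :
    galRat c K g RatFunc.X = toRat c K (g (MuLine.mu c K)) := rfl

variable [c.Good L] [c.Good k]

variable (g : c.Gal L) (g' : c.Gal k) {Tg Bg : A[X]}
  (hgL : toRat c L (g (MuLine.mu c L)) * polyL Bg = polyL Tg)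
  (hgk : toRat c k (g' (MuLine.mu c k)) * polyK π Bg = polyK π Tg)
  (hBg : Bg.map π ≠ 0)

include hrx hgL hgk hBg in
/-- `g` preserves the Gauss valuation ring of the `μ`-line -/
theorem gal_mem_WA {w : MuLine c L} (hw : w ∈ WA R c) : g w ∈ WA R c := by
  rw [mem_WA] at hw ⊢
  have h := subst_mem_Vj R hx hrx (galRat c L g) (galRat c k g') hgL hgk hBg hw
  rwa [galRat_apply, ofRat_toRat] at h

include hgL hgk hBg in
/-- **the reduction is equivariant**: `redW (g w) = g' (redW w)` -/
theorem redW_gal (w : WA R c) :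
    redW R hx hrx c ⟨g (w : MuLine c L), gal_mem_WA R hx hrx c g g' hgL hgk hBg w.2⟩ =
      g' (redW R hx hrx c w) := by
  have h := redVj_subst R hx hrx (galRat c L g) (galRat c k g') hgL hgk hBg (WAtoVj R c w)
  have h1 : WAtoVj R c ⟨g (w : MuLine c L), gal_mem_WA R hx hrx c g g' hgL hgk hBg w.2⟩ =
      ⟨galRat c L g ((WAtoVj R c w : Vj R) : RatFunc L),
        subst_mem_Vj R hx hrx (galRat c L g) (galRat c k g') hgL hgk hBg (WAtoVj R c w).2⟩ := rfl
  show ofRat c k (redVj R hx hrx (WAtoVj R c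
    ⟨g (w : MuLine c L), gal_mem_WA R hx hrx c g g' hgL hgk hBg w.2⟩)) = _
  rw [h1, h, galRat_apply]
  rfl

end Galois

end Fermat.Agent.S18.C.GaussA2
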