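import Mathlib
import Fermat.Agent.S18.C.FinEt
import Fermat.Agent.S18.C.UnramVal

/-!
# PROJECT H (S18), block C (helper17): integral bases from a unit discriminant

`R` an integrally closed domain with fraction field `K`, `Q` a commutative `K`-algebra with a
finite `K`-basis `b` (no field / reducedness hypothesis on `Q`: in the applications `Q` is
`F ⊗_{K(j)} K(μ)`, a finite product of fields).  If all `b i` are integral over `R` and the
discriminant of `b` is (the image of) a unit of `R`, then

* `exists_repr`          : the coordinates of every `R`-integral element of `Q` lie in `R`;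
* `basisIC`              : `b` is an `R`-basis of `integralClosure R Q`;
* `discr_basisIC`        : with the same discriminant;
* `finEt_integralClosure`: `FinEt R (integralClosure R Q)`;
* `finEt_of_map`, `basisOfMap` : the same when `b` is the image of a basis `b₁` (unit
  discriminant) of an `R₁`-algebra `C₁` under compatible ring homomorphisms `R₁ → R`, `C₁ → Q`
  (base change of a finite étale normalisation, without tensor products).
-/

set_option autoImplicit false
set_option linter.unusedSectionVars false
set_option linter.style.haveILetI false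

noncomputable section

namespace Fermat.Agent.S18.C.IntegralBasis

open Module Matrix
open Fermat.Agent.S18.C.FinEt

section Main

variable {R K Q : Type*} [CommRing R] [IsDomain R] [IsIntegrallyClosed R] [Field K] [Algebra R K]
  [IsFractionRing R K] [CommRing Q] [Algebra K Q] [Algebra R Q] [IsScalarTower R K Q]
  {ι : Type*} [Fintype ι] [DecidableEq ι] (b : Basis ι K Q)

/-- the Gram matrix of a basis of integral elements has entries in `R` -/
theorem exists_gram (hb : ∀ i, IsIntegral R (b i)) :
    ∃ g : Matrix ι ι R, ∀ i j, algebraMap R K (g i j) = Algebra.traceMatrix K b i j := by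
  haveI : FiniteDimensional K Q := Module.Finite.of_basis b
  have h : ∀ i j, ∃ r : R, algebraMap R K r = Algebra.trace K Q (b i * b j) := fun i j =>
    IsIntegrallyClosed.isIntegral_iff.mp (isIntegral_trace_of_isIntegral ((hb i).mul (hb j)))
  choose g hg using h
  refine ⟨Matrix.of g, fun i j => ?_⟩
  rw [Matrix.of_apply, hg, Algebra.traceMatrix_apply, Algebra.traceForm_apply]

/-- **coordinates of integral elements are integral** when the discriminant is a unit. -/
theorem exists_repr (hb : ∀ i, IsIntegral R (b i))
    (hd : ∃ u : Rˣ, algebraMap R K u = Algebra.discr K b) {x : Q} (hx : IsIntegral R x) (k : ι) :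
    ∃ r : R, algebraMap R K r = b.repr x k := by
  classical
  haveI : FiniteDimensional K Q := Module.Finite.of_basis b
  obtain ⟨g, hg⟩ := exists_gram b hb
  obtain ⟨u, hu⟩ := hd
  have hgmap : g.map (algebraMap R K) = Algebra.traceMatrix K b := by
    ext i j
    rw [Matrix.map_apply, hg]
  have hdet : g.det = u := by
    apply IsFractionRing.injective R K
    rw [hu, Algebra.discr_def, ← hgmap, ← RingHom.mapMatrix_apply, ← RingHom.map_det]
  have hGdet : IsUnit g.det := hdet ▸ u.isUnit
  have htr : ∀ j, ∃ r : R, algebraMap R K r = Algebra.trace K Q (x * b j) := fun j =>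
    IsIntegrallyClosed.isIntegral_iff.mp (isIntegral_trace_of_isIntegral (hx.mul (hb j)))
  choose r hr using htr
  set c : ι → K := fun i => b.repr x i with hc
  have hxsum : x = ∑ i, c i • b i := (b.sum_repr x).symm
  have ht : ∀ j, algebraMap R K (r j) = ∑ i, c i * algebraMap R K (g i j) := by
    intro j
    rw [hr j]
    conv_lhs => rw [hxsum, Finset.sum_mul, map_sum]
    refine Finset.sum_congr rfl fun i _ => ?_
    rw [smul_mul_assoc, map_smul, smul_eq_mul, hg, Algebra.traceMatrix_apply,
      Algebra.traceForm_apply]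
  refine ⟨∑ j, r j * g⁻¹ j k, ?_⟩
  rw [map_sum]
  have h1 : ∑ j, algebraMap R K (r j * g⁻¹ j k)
      = ∑ i, c i * algebraMap R K ((g * g⁻¹) i k) := by
    simp_rw [map_mul, ht, Finset.sum_mul, Matrix.mul_apply, map_sum, Finset.mul_sum, map_mul]
    rw [Finset.sum_comm]
    refine Finset.sum_congr rfl fun i _ => Finset.sum_congr rfl fun j _ => ?_
    ring
  rw [h1, Matrix.mul_nonsing_inv g hGdet]
  simp [Matrix.one_apply, hc]

/-- the basis vectors as elements of the integral closure -/
def vec (hb : ∀ i, IsIntegral R (b i)) (i : ι) : integralClosure R Q := ⟨b i, hb i⟩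

theorem linearIndependent_vec (hb : ∀ i, IsIntegral R (b i)) :
    LinearIndependent R (vec b hb) := by
  have h1 : LinearIndependent R (fun i => b i) :=
    b.linearIndependent.restrict_scalars (by
      intro r s hrs
      have : algebraMap R K r = algebraMap R K s := by
        simpa [Algebra.smul_def] using hrs
      exact IsFractionRing.injective R K this)
  exact LinearIndependent.of_comp (integralClosure R Q).val.toLinearMap h1

theorem span_vec (hb : ∀ i, IsIntegral R (b i))
    (hd : ∃ u : Rˣ, algebraMap R K u = Algebra.discr K b) :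
    ⊤ ≤ Submodule.span R (Set.range (vec b hb)) := by
  intro y _
  have hy : IsIntegral R (y : Q) := y.2
  choose r hr using fun k => exists_repr b hb hd hy k
  have : y = ∑ i, r i • vec b hb i := by
    apply Subtype.ext
    rw [AddSubmonoidClass.coe_finsetSum]
    conv_lhs => rw [← b.sum_repr (y : Q)]
    refine Finset.sum_congr rfl fun i _ => ?_
    rw [← hr i, algebraMap_smul]
    rfl
  rw [this]
  exact Submodule.sum_mem _ fun i _ => Submodule.smul_mem _ _ (Submodule.subset_span ⟨i, rfl⟩)

/-- **`b` is an `R`-basis of the integral closure of `R` in `Q`.** -/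
def basisIC (hb : ∀ i, IsIntegral R (b i))
    (hd : ∃ u : Rˣ, algebraMap R K u = Algebra.discr K b) : Basis ι R (integralClosure R Q) :=
  Basis.mk (linearIndependent_vec b hb) (span_vec b hb hd)

@[simp]
theorem basisIC_apply (hb : ∀ i, IsIntegral R (b i))
    (hd : ∃ u : Rˣ, algebraMap R K u = Algebra.discr K b) (i : ι) :
    ((basisIC b hb hd i : integralClosure R Q) : Q) = b i := by
  rw [basisIC, Basis.mk_apply]
  rfl

theorem algebraMap_discr_basisIC (hb : ∀ i, IsIntegral R (b i))
    (hd : ∃ u : Rˣ, algebraMap R K u = Algebra.discr K b) :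
    algebraMap R K (Algebra.discr R (basisIC b hb hd)) = Algebra.discr K b :=
  (UnramVal.discr_map (algebraMap R K) ((integralClosure R Q).val : integralClosure R Q →+* Q)
    (basisIC b hb hd) b (fun r => by
      rw [← IsScalarTower.algebraMap_apply R K Q]
      rfl) (fun i => (basisIC_apply b hb hd i).symm)).symm

theorem isUnit_discr_basisIC (hb : ∀ i, IsIntegral R (b i))
    (hd : ∃ u : Rˣ, algebraMap R K u = Algebra.discr K b) :
    IsUnit (Algebra.discr R (basisIC b hb hd)) := by
  obtain ⟨u, hu⟩ := hd
  have : Algebra.discr R (basisIC b hb ⟨u, hu⟩) = u := by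
    apply IsFractionRing.injective R K
    rw [algebraMap_discr_basisIC, hu]
  rw [this]
  exact u.isUnit

/-- **the integral closure is finite étale** (finite free with unit discriminant). -/
theorem finEt_integralClosure (hb : ∀ i, IsIntegral R (b i))
    (hd : ∃ u : Rˣ, algebraMap R K u = Algebra.discr K b) : FinEt R (integralClosure R Q) :=
  finEt_of_basis (basisIC b hb hd) (isUnit_discr_basisIC b hb hd)

theorem isIntegral_iff_repr (hb : ∀ i, IsIntegral R (b i))
    (hd : ∃ u : Rˣ, algebraMap R K u = Algebra.discr K b) (x : Q) :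
    IsIntegral R x ↔ ∀ k, ∃ r : R, algebraMap R K r = b.repr x k := by
  refine ⟨fun hx k => exists_repr b hb hd hx k, fun h => ?_⟩
  choose r hr using h
  rw [← b.sum_repr x]
  refine IsIntegral.sum _ fun i _ => ?_
  rw [← hr i, algebraMap_smul]
  exact (hb i).smul _

end Main

section Map

variable {R K Q : Type*} [CommRing R] [IsDomain R] [IsIntegrallyClosed R] [Field K] [Algebra R K]
  [IsFractionRing R K] [CommRing Q] [Algebra K Q] [Algebra R Q] [IsScalarTower R K Q]
  {ι : Type*} [Fintype ι] [DecidableEq ι]
variable {R₁ C₁ : Type*} [CommRing R₁] [CommRing C₁] [Algebra R₁ C₁]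
  (φ : R₁ →+* R) (ψ : C₁ →+* Q)
  (hφψ : ∀ r, ψ (algebraMap R₁ C₁ r) = algebraMap R Q (φ r))
  (b₁ : Basis ι R₁ C₁) (b : Basis ι K Q) (hb : ∀ i, b i = ψ (b₁ i))

include hφψ hb

theorem isIntegral_of_map (i : ι) : IsIntegral R (b i) := by
  haveI : Module.Finite R₁ C₁ := Module.Finite.of_basis b₁
  rw [hb i]
  refine IsIntegral.map_of_comp_eq φ ψ ?_ (IsIntegral.of_finite R₁ (b₁ i))
  ext r
  exact (hφψ r).symm

theorem discr_of_map :
    Algebra.discr K b = algebraMap R K (φ (Algebra.discr R₁ b₁)) := by
  have := UnramVal.discr_map ((algebraMap R K).comp φ) ψ b₁ b (fun r => by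
    rw [hφψ r, RingHom.comp_apply, ← IsScalarTower.algebraMap_apply R K Q]) hb
  rw [this, RingHom.comp_apply]

theorem exists_unit_of_map (h₁ : IsUnit (Algebra.discr R₁ b₁)) :
    ∃ u : Rˣ, algebraMap R K u = Algebra.discr K b := by
  refine ⟨(h₁.map φ).unit, ?_⟩
  rw [discr_of_map φ ψ hφψ b₁ b hb]
  rfl

/-- the image of a basis with unit discriminant is a basis of the integral closure -/
def basisOfMap (h₁ : IsUnit (Algebra.discr R₁ b₁)) : Basis ι R (integralClosure R Q) :=
  basisIC b (isIntegral_of_map φ ψ hφψ b₁ b hb) (exists_unit_of_map φ ψ hφψ b₁ b hb h₁)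

theorem basisOfMap_apply (h₁ : IsUnit (Algebra.discr R₁ b₁)) (i : ι) :
    ((basisOfMap φ ψ hφψ b₁ b hb h₁ i : integralClosure R Q) : Q) = ψ (b₁ i) := by
  rw [basisOfMap, basisIC_apply, hb]

theorem discr_basisOfMap (h₁ : IsUnit (Algebra.discr R₁ b₁)) :
    Algebra.discr R (basisOfMap φ ψ hφψ b₁ b hb h₁) = φ (Algebra.discr R₁ b₁) := by
  apply IsFractionRing.injective R K
  rw [basisOfMap, algebraMap_discr_basisIC, discr_of_map φ ψ hφψ b₁ b hb]

/-- **Base change of a finite étale normalisation** along `R₁ → R`, `C₁ → Q`. -/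
theorem finEt_of_map (h₁ : IsUnit (Algebra.discr R₁ b₁)) : FinEt R (integralClosure R Q) :=
  finEt_integralClosure b (isIntegral_of_map φ ψ hφψ b₁ b hb)
    (exists_unit_of_map φ ψ hφψ b₁ b hb h₁)

end Map

end Fermat.Agent.S18.C.IntegralBasis
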