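import Mathlib
import Fermat.Agent.S18.C.IntegralBasis

/-!
# PROJECT H (S18), block C (helper17): a basis of the integral closure is a basis of the
total fraction algebra

`R` a domain with fraction field `K`, `Q` a commutative `K`-algebra which is integral over `K`
(e.g. finite; NO field / reducedness hypothesis).  An `R`-basis of `integralClosure R Q`
is a `K`-basis of `Q` (`basisFrac`).  Together with `IntegralBasis.basisOfMap` this gives the
base change `C₁ = integralClosure R₁ Q₁ ⟶ integralClosure R Q` of a finite étale normalisation
(`basisOfMapFrac`): only a `K`-basis of `Q` which is the image of the `R₁`-basis is needed.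
-/

set_option autoImplicit false
set_option linter.unusedSectionVars false

noncomputable section

namespace Fermat.Agent.S18.C.IntegralBasis

open Module
open scoped nonZeroDivisors

section Frac

variable {R K Q : Type*} [CommRing R] [IsDomain R] [Field K] [Algebra R K]
  [IsFractionRing R K] [CommRing Q] [Algebra K Q] [Algebra R Q] [IsScalarTower R K Q]
  {ι : Type*} (b : Basis ι R (integralClosure R Q))

theorem linearIndependent_coe : LinearIndependent R (fun i => ((b i : integralClosure R Q) : Q)) :=
  b.linearIndependent.map' (integralClosure R Q).val.toLinearMap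
    (LinearMap.ker_eq_bot.mpr Subtype.val_injective)

theorem linearIndependent_frac :
    LinearIndependent K (fun i => ((b i : integralClosure R Q) : Q)) :=
  (linearIndependent_coe b).localization K R⁰

theorem span_frac [Algebra.IsIntegral K Q] :
    ⊤ ≤ Submodule.span K (Set.range fun i => ((b i : integralClosure R Q) : Q)) := by
  intro z _
  obtain ⟨m, hm⟩ := IsIntegral.exists_multiple_integral_of_isLocalization R⁰ z
    (Algebra.IsIntegral.isIntegral (R := K) z)
  have hm0 : algebraMap R K (m : R) ≠ 0 :=
    IsFractionRing.to_map_ne_zero_of_mem_nonZeroDivisors m.2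
  have hz : z = (algebraMap R K (m : R))⁻¹ • ((m : R) • z) := by
    rw [← algebraMap_smul K (m : R) z, smul_smul, inv_mul_cancel₀ hm0, one_smul]
  rw [hz]
  refine Submodule.smul_mem _ _ ?_
  have hmem : ((⟨(m : R) • z, hm⟩ : integralClosure R Q)) ∈
      Submodule.span R (Set.range b) := by
    rw [b.span_eq]
    exact Submodule.mem_top
  have : (m : R) • z ∈ Submodule.span R (Set.range fun i => ((b i : integralClosure R Q) : Q)) := by
    have h1 := Submodule.mem_map_of_mem (f := (integralClosure R Q).val.toLinearMap) hmem
    rw [Submodule.map_span, ← Set.range_comp] at h1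
    exact h1
  exact Submodule.span_le_restrictScalars R K _ this

/-- **An `R`-basis of the integral closure of `R` in `Q` is a `K`-basis of `Q`.** -/
def basisFrac [Algebra.IsIntegral K Q] : Basis ι K Q :=
  Basis.mk (linearIndependent_frac b) (span_frac b)

@[simp]
theorem basisFrac_apply [Algebra.IsIntegral K Q] (i : ι) :
    basisFrac (K := K) b i = ((b i : integralClosure R Q) : Q) := by
  rw [basisFrac, Basis.mk_apply]

end Frac

end Fermat.Agent.S18.C.IntegralBasis
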