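import Mathlib
import Fermat.Agent.S18.C.FinEt

/-!
# PROJECT H (S18), block C, step (2a) of the surface argument in abstract form:
`ℓ ∤ d` from a finite étale model over the localisation

`B` a ring, `V = M⁻¹ B` an integrally closed domain with fraction field `K`, `R` a `K`-algebra,
`b` a finite `B`-basis of `integralClosure B R`.  If the integral closure of `V` in `R` has a
`FinEt` model `T` (`ι : T →ₐ[V] R` inducing a bijection `K ⊗[V] T → R`), then the discriminant of
`b` becomes a unit in `V`; in particular no element of `B` that is a non-unit of `V` divides it.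

* `isIntegral_iff_mem_range`, `injective_of_bijective`, `equivIntegralClosure`,
  `finEt_integralClosure`;
* `inclusionHom`, `algInclusion`, `isLocalization_integralClosure`;
* `basisLoc`, `basisLoc_apply`, `discr_basisLoc`;
* **`isUnit_algebraMap_discr`**, **`not_dvd_discr`**;
* `bijective_lift_of_basis` (the bijectivity hypothesis for the model `T = V ⊗[Vj] O`);
* `isUnit_algebraMap_discr_of_baseChange`, `not_dvd_discr_of_baseChange`.
-/

set_option autoImplicit false
set_option linter.unusedSectionVars false

namespace Fermat.Agent.S18.C.LocalDiscr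

open TensorProduct Fermat.Agent.S18.C.FinEt

section

variable {B V K R T : Type*} [CommRing B] [CommRing V] [Field K] [CommRing R] [CommRing T]
  [IsDomain V]
  [Algebra B V] [Algebra V K] [Algebra B K] [IsScalarTower B V K]
  [Algebra K R] [Algebra V R] [Algebra B R] [IsScalarTower V K R] [IsScalarTower B V R]
  [IsFractionRing V K] [IsIntegrallyClosed V]
  [Algebra V T]

/-- a `FinEt` model of the generic fibre is the integral closure -/
theorem isIntegral_iff_mem_range (hT : FinEt V T) (ι : T →ₐ[V] R)
    (hbij : Function.Bijective
      (Algebra.TensorProduct.lift (Algebra.ofId K R) ι (fun _ _ => Commute.all _ _) :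
        K ⊗[V] T →ₐ[K] R)) (x : R) :
    IsIntegral V x ↔ x ∈ ι.range := by
  constructor
  · intro hx
    obtain ⟨s, hs⟩ := hT.mem_range_of_isIntegral_of_bijective K ι hbij hx
    exact ⟨s, hs⟩
  · rintro ⟨t, rfl⟩
    have := hT.finite
    exact (IsIntegral.of_finite V t).map ι

theorem injective_of_bijective (hT : FinEt V T) (ι : T →ₐ[V] R)
    (hbij : Function.Bijective
      (Algebra.TensorProduct.lift (Algebra.ofId K R) ι (fun _ _ => Commute.all _ _) :
        K ⊗[V] T →ₐ[K] R)) : Function.Injective ι := by
  have hfree := hT.free
  have hinc : Function.Injective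
      (Algebra.TensorProduct.includeRight : T →ₐ[V] K ⊗[V] T) :=
    Algebra.TensorProduct.includeRight_injective (IsFractionRing.injective V K)
  intro t t' h
  apply hinc
  apply hbij.1
  simpa using h

/-- the model `T` is isomorphic to the integral closure of `V` in `R` -/
noncomputable def equivIntegralClosure (hT : FinEt V T) (ι : T →ₐ[V] R)
    (hbij : Function.Bijective
      (Algebra.TensorProduct.lift (Algebra.ofId K R) ι (fun _ _ => Commute.all _ _) :
        K ⊗[V] T →ₐ[K] R)) : T ≃ₐ[V] integralClosure V R :=
  AlgEquiv.ofBijective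
    (ι.codRestrict (integralClosure V R)
      (fun t => (isIntegral_iff_mem_range hT ι hbij (ι t)).mpr ⟨t, rfl⟩))
    ⟨fun t t' h => injective_of_bijective hT ι hbij (congrArg Subtype.val h),
      fun x => by
        obtain ⟨t, ht⟩ := (isIntegral_iff_mem_range hT ι hbij (x : R)).mp x.2
        exact ⟨t, Subtype.ext ht⟩⟩

theorem finEt_integralClosure (hT : FinEt V T) (ι : T →ₐ[V] R)
    (hbij : Function.Bijective
      (Algebra.TensorProduct.lift (Algebra.ofId K R) ι (fun _ _ => Commute.all _ _) :
        K ⊗[V] T →ₐ[K] R)) : FinEt V (integralClosure V R) :=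
  hT.of_algEquiv (equivIntegralClosure hT ι hbij)

end

section Loc

variable {B V K R : Type*} [CommRing B] [CommRing V] [Field K] [CommRing R]
  [IsDomain V]
  [Algebra B V] [Algebra V K] [Algebra B K] [IsScalarTower B V K]
  [Algebra K R] [Algebra V R] [Algebra B R] [IsScalarTower V K R] [IsScalarTower B V R]
  [IsFractionRing V K]
  (M : Submonoid B) [IsLocalization M V]

/-- the inclusion of the integral closure over `B` in the integral closure over `V` -/
noncomputable def inclusionHom : integralClosure B R →ₐ[B] integralClosure V R where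
  toFun c := ⟨(c : R), c.2.tower_top⟩
  map_one' := rfl
  map_mul' _ _ := rfl
  map_zero' := rfl
  map_add' _ _ := rfl
  commutes' r := by
    apply Subtype.ext
    show algebraMap B R r = ((algebraMap B (integralClosure V R) r : integralClosure V R) : R)
    rfl

end Loc

section Loc2

variable {B V K R : Type*} [CommRing B] [CommRing V] [Field K] [CommRing R]
  [IsDomain V]
  [Algebra B V] [Algebra V K] [Algebra B K] [IsScalarTower B V K]
  [Algebra K R] [Algebra V R] [Algebra B R] [IsScalarTower V K R] [IsScalarTower B V R]
  [IsFractionRing V K]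
  (M : Submonoid B) [IsLocalization M V]

/-- the algebra structure `C_B → C_V` given by the inclusion -/
@[reducible] noncomputable def algInclusion :
    Algebra (integralClosure B R) (integralClosure V R) :=
  (inclusionHom (B := B) (V := V) (R := R)).toRingHom.toAlgebra

attribute [local instance] algInclusion

theorem algebraMap_inclusion_coe (c : integralClosure B R) :
    ((algebraMap (integralClosure B R) (integralClosure V R) c : integralClosure V R) : R) =
      (c : R) := rfl

instance : IsScalarTower (integralClosure B R) (integralClosure V R) R :=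
  IsScalarTower.of_algebraMap_eq fun _ => rfl

instance : IsScalarTower B (integralClosure B R) (integralClosure V R) :=
  IsScalarTower.of_algebraMap_eq fun r => by
    apply Subtype.ext
    rfl

variable (V) in
include V M in
theorem isUnit_algebraMap_of_mem {m : B} (hm : m ∈ M) : IsUnit (algebraMap B R m) := by
  have h1 : IsUnit (algebraMap B V m) := IsLocalization.map_units V ⟨m, hm⟩
  rw [IsScalarTower.algebraMap_apply B V R]
  exact h1.map _

variable (V) in
include V M in
theorem isLocalization_self :
    IsLocalization (Algebra.algebraMapSubmonoid R M) R := by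
  refine IsLocalization.of_le_isUnit ?_
  rintro _ ⟨m, hm, rfl⟩
  exact isUnit_algebraMap_of_mem V M hm

include M in
/-- `C_V` is the localisation of `C_B` at `M`. -/
theorem isLocalization_integralClosure :
    IsLocalization (Algebra.algebraMapSubmonoid (integralClosure B R) M)
      (integralClosure V R) := by
  have := isLocalization_self V (R := R) M
  exact IsLocalization.integralClosure (R := B) (S := R) (Rf := V) (Sf := R) M

end Loc2

section Main

variable {B V K R T : Type*} [CommRing B] [CommRing V] [Field K] [CommRing R] [CommRing T]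
  [IsDomain V]
  [Algebra B V] [Algebra V K] [Algebra B K] [IsScalarTower B V K]
  [Algebra K R] [Algebra V R] [Algebra B R] [IsScalarTower V K R] [IsScalarTower B V R]
  [IsFractionRing V K] [IsIntegrallyClosed V]
  (M : Submonoid B) [IsLocalization M V]
  [Algebra V T]

attribute [local instance] algInclusion

/-- the `B`-basis of `C_B` as a `V`-basis of `C_V` -/
noncomputable def basisLoc {ι' : Type*} (b : Module.Basis ι' B (integralClosure B R)) :
    Module.Basis ι' V (integralClosure V R) :=
  haveI := isLocalization_integralClosure (V := V) (R := R) M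
  b.localizationLocalization V M (integralClosure V R)

theorem basisLoc_apply {ι' : Type*} (b : Module.Basis ι' B (integralClosure B R)) (i : ι') :
    ((basisLoc M b i : integralClosure V R) : R) = (b i : R) := by
  have := isLocalization_integralClosure (V := V) (R := R) M
  rw [basisLoc, Module.Basis.localizationLocalization_apply]
  rfl

theorem discr_basisLoc {ι' : Type*} [Fintype ι'] [DecidableEq ι']
    (b : Module.Basis ι' B (integralClosure B R)) :
    Algebra.discr V (basisLoc (V := V) M b) = algebraMap B V (Algebra.discr B b) := by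
  have := isLocalization_integralClosure (V := V) (R := R) M
  exact Algebra.discr_localizationLocalization B M (integralClosure V R) b

include M in
/-- **Step (2a), abstract form**: if the integral closure over the localisation `V = M⁻¹ B` has a
`FinEt` model, the discriminant of any `B`-basis of the integral closure over `B` becomes a unit
in `V`. -/
theorem isUnit_algebraMap_discr (hT : FinEt V T) (ι : T →ₐ[V] R)
    (hbij : Function.Bijective
      (Algebra.TensorProduct.lift (Algebra.ofId K R) ι (fun _ _ => Commute.all _ _) :
        K ⊗[V] T →ₐ[K] R))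
    {ι' : Type*} [Fintype ι'] [DecidableEq ι'] (b : Module.Basis ι' B (integralClosure B R)) :
    IsUnit (algebraMap B V (Algebra.discr B b)) := by
  rw [← discr_basisLoc M b]
  exact (finEt_integralClosure hT ι hbij).isUnit_discr _

include M in
/-- `ℓ ∤ d`: an element of `B` that is not a unit of `V` does not divide the discriminant. -/
theorem not_dvd_discr (hT : FinEt V T) (ι : T →ₐ[V] R)
    (hbij : Function.Bijective
      (Algebra.TensorProduct.lift (Algebra.ofId K R) ι (fun _ _ => Commute.all _ _) :
        K ⊗[V] T →ₐ[K] R))
    {ι' : Type*} [Fintype ι'] [DecidableEq ι'] (b : Module.Basis ι' B (integralClosure B R))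
    {l : B} (hl : ¬ IsUnit (algebraMap B V l)) : ¬ l ∣ Algebra.discr B b := by
  rintro ⟨d', hd'⟩
  have h := isUnit_algebraMap_discr M hT ι hbij b
  rw [hd', map_mul] at h
  exact hl (isUnit_of_mul_isUnit_left h)

end Main

section Bij

variable {Vj V K O R : Type*} [CommRing Vj] [CommRing V] [Field K] [CommRing O] [CommRing R]
  [Algebra Vj V] [Algebra V K] [Algebra Vj O]
  [Algebra K R] [Algebra V R] [IsScalarTower V K R]

/-- **The `hbij` of the instantiation** `T := V ⊗[Vj] O`: if `ι : V ⊗[Vj] O →ₐ[V] R` sends the
base-changed `Vj`-basis of `O` to a `K`-basis of `R`, then `K ⊗[V] (V ⊗[Vj] O) → R` is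
bijective. -/
theorem bijective_lift_of_basis {n : Type*} [Fintype n] [DecidableEq n]
    (bO : Module.Basis n Vj O) (bR : Module.Basis n K R) (ι : V ⊗[Vj] O →ₐ[V] R)
    (hι : ∀ i, ι ((1 : V) ⊗ₜ[Vj] bO i) = bR i) :
    Function.Bijective
      (Algebra.TensorProduct.lift (Algebra.ofId K R) ι (fun _ _ => Commute.all _ _) :
        K ⊗[V] (V ⊗[Vj] O) →ₐ[K] R) := by
  set Φ : K ⊗[V] (V ⊗[Vj] O) →ₐ[K] R :=
    Algebra.TensorProduct.lift (Algebra.ofId K R) ι (fun _ _ => Commute.all _ _) with hΦ
  set β : Module.Basis n K (K ⊗[V] (V ⊗[Vj] O)) :=
    Algebra.TensorProduct.basis K (Algebra.TensorProduct.basis V bO) with hβ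
  have hβi : ∀ i, Φ (β i) = bR i := by
    intro i
    rw [hβ, Algebra.TensorProduct.basis_apply, Algebra.TensorProduct.basis_apply, hΦ,
      Algebra.TensorProduct.lift_tmul, map_one, one_mul, hι]
  have heq : Φ.toLinearMap = (β.equiv bR (Equiv.refl n)).toLinearMap := by
    refine β.ext fun i => ?_
    rw [AlgHom.toLinearMap_apply, hβi, LinearEquiv.coe_coe, Module.Basis.equiv_apply,
      Equiv.refl_apply]
  have hfun : ⇑Φ = ⇑(β.equiv bR (Equiv.refl n)) := by
    ext x
    exact LinearMap.congr_fun heq x
  rw [hfun]
  exact (β.equiv bR (Equiv.refl n)).bijective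

end Bij

section Combined

variable {B Vj V K O R : Type*} [CommRing B] [CommRing Vj] [CommRing V] [Field K] [CommRing O]
  [CommRing R] [IsDomain V]
  [Algebra B V] [Algebra V K] [Algebra B K] [IsScalarTower B V K]
  [Algebra K R] [Algebra V R] [Algebra B R] [IsScalarTower V K R] [IsScalarTower B V R]
  [IsFractionRing V K] [IsIntegrallyClosed V]
  (M : Submonoid B) [IsLocalization M V]
  [Algebra Vj V] [Algebra Vj O]

include M in
/-- **Step (2a) for the model `T = V ⊗[Vj] O`** (`O` finite étale over `Vj`, e.g. `O` = the Gauss
valuation ring of the modular function field over the Gauss valuation ring `Vj` of the `j`-line,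
`V` the Gauss valuation ring of the `μ`-line): the discriminant of a `B`-basis of the integral
closure of `B` in `R` is a unit of `V`. -/
theorem isUnit_algebraMap_discr_of_baseChange (hO : FinEt Vj O)
    {n : Type*} [Fintype n] [DecidableEq n]
    (bO : Module.Basis n Vj O) (bR : Module.Basis n K R) (ι : V ⊗[Vj] O →ₐ[V] R)
    (hι : ∀ i, ι ((1 : V) ⊗ₜ[Vj] bO i) = bR i)
    {ι' : Type*} [Fintype ι'] [DecidableEq ι'] (b : Module.Basis ι' B (integralClosure B R)) :
    IsUnit (algebraMap B V (Algebra.discr B b)) :=
  isUnit_algebraMap_discr M (hO.baseChange V) ι (bijective_lift_of_basis bO bR ι hι) b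

include M in
theorem not_dvd_discr_of_baseChange (hO : FinEt Vj O)
    {n : Type*} [Fintype n] [DecidableEq n]
    (bO : Module.Basis n Vj O) (bR : Module.Basis n K R) (ι : V ⊗[Vj] O →ₐ[V] R)
    (hι : ∀ i, ι ((1 : V) ⊗ₜ[Vj] bO i) = bR i)
    {ι' : Type*} [Fintype ι'] [DecidableEq ι'] (b : Module.Basis ι' B (integralClosure B R))
    {l : B} (hl : ¬ IsUnit (algebraMap B V l)) : ¬ l ∣ Algebra.discr B b :=
  not_dvd_discr M (hO.baseChange V) ι (bijective_lift_of_basis bO bR ι hι) b hl

end Combined

end Fermat.Agent.S18.C.LocalDiscr
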