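import Mathlib
import Fermat.Agent.S18.C.FinEt
import Fermat.Agent.S18.C.LocalDiscr
import Fermat.Agent.S18.C.UnramVal
import Fermat.Agent.S18.C.IntegralBasisFrac

/-!
# PROJECT H (S18), block C, K-SIDE (A6) + `basis_map` in abstract form (helper13)

Generic rings only.  Concrete reading: `Vj` = the Gauss valuation ring of the `j`-line over `A`,
`W` = the Gauss valuation ring of the `μ`-line, `O` = the valuation ring of `F_L` over `Vj`,
`κj = k(j)`, `κμ = k(μ)`, `κ = F_k`, `K = ℚ̄(μ)`, `RL = F_L ⊗ ℚ̄(μ)`, `B = B_A`,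
`C = integralClosure B RL = C_A`.

* `rho : W ⊗[Vj] O →+* κ ⊗[κj] κμ`, `w ⊗ o ↦ red o ⊗ redW w`: `rho_tmul`, `rho_algebraMap`,
  `rho_smul`, `rho_basis`, `rho_eq_sum` (coordinatewise reduction), `rightBasis`,
  `rightBasis_repr_rho`, `rho_surjective`, `rho_eq_zero_iff`, `rho_eq_zero_iff_mem_map`,
  `rho_map` (equivariance);
* `sigma : integralClosure B RL →+* T` (the inverse of `tau : T → RL` on the integral closure),
  `tau_sigma`, `sigma_algebraMap`, `sigma_of_tau`, `sigma_map` (equivariance);
* `basis_map` : a finite `B`-basis of `integralClosure B RL` (finite étale over `B`) is sent by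
  `sigma` to a `W`-basis of `T` (`isUnit_det_sigma`) and by `rho ∘ sigma` to a `κμ`-basis of
  `κ ⊗[κj] κμ`.
-/

set_option autoImplicit false
set_option linter.unusedSectionVars false
set_option linter.style.haveILetI false

noncomputable section

namespace Fermat.Agent.S18.C.TensorRed

open TensorProduct Module Fermat.Agent.S18.C.FinEt

attribute [local instance] Algebra.TensorProduct.rightAlgebra

/-! ### the reduction map `rho` -/

section Rho

variable {Vj W O κj κμ κ : Type*} [CommRing Vj] [CommRing W] [CommRing O] [Algebra Vj W]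
  [Algebra Vj O] [CommRing κj] [CommRing κμ] [CommRing κ] [Algebra κj κμ] [Algebra κj κ]
variable (redVj : Vj →+* κj) (redW : W →+* κμ) (red : O →+* κ)
  (hW : ∀ x : Vj, redW (algebraMap Vj W x) = algebraMap κj κμ (redVj x))
  (hO : ∀ x : Vj, red (algebraMap Vj O x) = algebraMap κj κ (redVj x))

/-- the auxiliary `Vj`-algebra structure on the target (through `redVj`) -/
@[reducible] def algAux : Algebra Vj (κ ⊗[κj] κμ) :=
  ((algebraMap κj (κ ⊗[κj] κμ)).comp redVj).toAlgebra

/-- `w ↦ 1 ⊗ redW w` as a `Vj`-algebra map -/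
def leftHom :
    letI := algAux (κμ := κμ) (κ := κ) redVj
    W →ₐ[Vj] κ ⊗[κj] κμ :=
  letI := algAux (κμ := κμ) (κ := κ) redVj
  { (Algebra.TensorProduct.includeRight (R := κj) (A := κ) (B := κμ)).toRingHom.comp redW with
    commutes' := fun x => by
      show (1 : κ) ⊗ₜ[κj] redW (algebraMap Vj W x) = algebraMap κj (κ ⊗[κj] κμ) (redVj x)
      rw [hW, Algebra.TensorProduct.algebraMap_apply, Algebra.algebraMap_eq_smul_one,
        Algebra.algebraMap_eq_smul_one (A := κ), TensorProduct.smul_tmul] }

/-- `o ↦ red o ⊗ 1` as a `Vj`-algebra map -/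
def rightHom :
    letI := algAux (κμ := κμ) (κ := κ) redVj
    O →ₐ[Vj] κ ⊗[κj] κμ :=
  letI := algAux (κμ := κμ) (κ := κ) redVj
  { (Algebra.TensorProduct.includeLeftRingHom (R := κj) (A := κ) (B := κμ)).comp red with
    commutes' := fun x => by
      show red (algebraMap Vj O x) ⊗ₜ[κj] (1 : κμ) = algebraMap κj (κ ⊗[κj] κμ) (redVj x)
      rw [hO, Algebra.TensorProduct.algebraMap_apply] }

/-- **The reduction map** `rho : W ⊗[Vj] O →+* κ ⊗[κj] κμ`, `w ⊗ o ↦ red o ⊗ redW w`. -/
def rho : W ⊗[Vj] O →+* κ ⊗[κj] κμ :=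
  letI := algAux (κμ := κμ) (κ := κ) redVj
  (Algebra.TensorProduct.lift (leftHom redVj redW hW) (rightHom redVj red hO)
    (fun _ _ => Commute.all _ _)).toRingHom

@[simp]
theorem rho_tmul (w : W) (o : O) :
    rho redVj redW red hW hO (w ⊗ₜ[Vj] o) = red o ⊗ₜ[κj] redW w := by
  letI := algAux (κμ := κμ) (κ := κ) redVj
  show (Algebra.TensorProduct.lift (leftHom redVj redW hW) (rightHom redVj red hO)
    (fun _ _ => Commute.all _ _)) (w ⊗ₜ[Vj] o) = _
  rw [Algebra.TensorProduct.lift_tmul]
  show ((1 : κ) ⊗ₜ[κj] redW w) * (red o ⊗ₜ[κj] (1 : κμ)) = _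
  rw [Algebra.TensorProduct.tmul_mul_tmul, one_mul, mul_one]

theorem rho_algebraMap (w : W) :
    rho redVj redW red hW hO (algebraMap W (W ⊗[Vj] O) w) = (1 : κ) ⊗ₜ[κj] redW w := by
  rw [Algebra.TensorProduct.algebraMap_apply, Algebra.algebraMap_self_apply, rho_tmul, map_one]

/-- `rho` is semilinear over `redW`. -/
theorem rho_smul (w : W) (x : W ⊗[Vj] O) :
    rho redVj redW red hW hO (w • x) = redW w • rho redVj redW red hW hO x := by
  rw [Algebra.smul_def, map_mul, rho_algebraMap, Algebra.smul_def]
  rfl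

variable {ι : Type*} (bO : Basis ι Vj O) (bk : Basis ι κj κ)

/-- the `κμ`-basis `bk i ⊗ 1` of `κ ⊗[κj] κμ` (the shape of `RAlgStructure.muBasis`) -/
def rightBasis : Basis ι κμ (κ ⊗[κj] κμ) :=
  (Algebra.TensorProduct.basis κμ bk).map
    (Algebra.TensorProduct.commRight κj κμ κ).toLinearEquiv

@[simp]
theorem rightBasis_apply (i : ι) : rightBasis (κμ := κμ) bk i = bk i ⊗ₜ[κj] (1 : κμ) := by
  rw [rightBasis, Basis.map_apply, Algebra.TensorProduct.basis_apply]
  rfl

theorem smul_rightBasis (m : κμ) (i : ι) :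
    m • rightBasis (κμ := κμ) bk i = bk i ⊗ₜ[κj] m := by
  rw [rightBasis_apply, Algebra.smul_def]
  show ((1 : κ) ⊗ₜ[κj] m) * (bk i ⊗ₜ[κj] (1 : κμ)) = _
  rw [Algebra.TensorProduct.tmul_mul_tmul, one_mul, mul_one]

variable (hb : ∀ i, bk i = red (bO i))

include hb in
theorem rho_basis (i : ι) :
    rho redVj redW red hW hO (Algebra.TensorProduct.basis W bO i) =
      rightBasis (κμ := κμ) bk i := by
  rw [Algebra.TensorProduct.basis_apply, rho_tmul, map_one, rightBasis_apply, hb]

variable [Fintype ι]

include hb in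
/-- **`rho` is the coordinatewise reduction** in the bases `1 ⊗ bO i` and `bk i ⊗ 1`. -/
theorem rho_eq_sum (x : W ⊗[Vj] O) :
    rho redVj redW red hW hO x =
      ∑ i, redW ((Algebra.TensorProduct.basis W bO).repr x i) • rightBasis (κμ := κμ) bk i := by
  conv_lhs => rw [← (Algebra.TensorProduct.basis W bO).sum_repr x]
  rw [map_sum]
  refine Finset.sum_congr rfl fun i _ => ?_
  rw [rho_smul, rho_basis redVj redW red hW hO bO bk hb]

include hb in
theorem rightBasis_repr_rho (x : W ⊗[Vj] O) (i : ι) :
    (rightBasis (κμ := κμ) bk).repr (rho redVj redW red hW hO x) i =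
      redW ((Algebra.TensorProduct.basis W bO).repr x i) := by
  rw [rho_eq_sum redVj redW red hW hO bO bk hb x, (rightBasis (κμ := κμ) bk).repr_sum_self]

include hb in
theorem rho_surjective (hsurj : Function.Surjective redW) :
    Function.Surjective (rho redVj redW red hW hO) := by
  intro y
  choose w hw using fun i => hsurj ((rightBasis (κμ := κμ) bk).repr y i)
  refine ⟨∑ i, w i • Algebra.TensorProduct.basis W bO i, ?_⟩
  rw [map_sum]
  conv_rhs => rw [← (rightBasis (κμ := κμ) bk).sum_repr y]
  refine Finset.sum_congr rfl fun i _ => ?_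
  rw [rho_smul, rho_basis redVj redW red hW hO bO bk hb, hw]

include hb in
theorem rho_eq_zero_iff (x : W ⊗[Vj] O) :
    rho redVj redW red hW hO x = 0 ↔
      ∀ i, redW ((Algebra.TensorProduct.basis W bO).repr x i) = 0 := by
  constructor
  · intro h i
    rw [← rightBasis_repr_rho redVj redW red hW hO bO bk hb, h]
    simp
  · intro h
    rw [rho_eq_sum redVj redW red hW hO bO bk hb x]
    exact Finset.sum_eq_zero fun i _ => by rw [h i, zero_smul]

include hb in
/-- the kernel of `rho` is generated by the kernel of `redW` -/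
theorem rho_eq_zero_iff_mem_map (x : W ⊗[Vj] O) :
    rho redVj redW red hW hO x = 0 ↔
      x ∈ Ideal.map (algebraMap W (W ⊗[Vj] O)) (RingHom.ker redW) := by
  constructor
  · intro h
    rw [rho_eq_zero_iff redVj redW red hW hO bO bk hb] at h
    rw [← (Algebra.TensorProduct.basis W bO).sum_repr x]
    refine Ideal.sum_mem _ fun i _ => ?_
    rw [Algebra.smul_def]
    exact Ideal.mul_mem_right _ _ (Ideal.mem_map_of_mem _ ((RingHom.mem_ker).mpr (h i)))
  · intro h
    have hle : Ideal.map (algebraMap W (W ⊗[Vj] O)) (RingHom.ker redW) ≤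
        RingHom.ker (rho redVj redW red hW hO) := by
      rw [Ideal.map_le_iff_le_comap]
      intro w hw
      rw [Ideal.mem_comap, RingHom.mem_ker, rho_algebraMap, (RingHom.mem_ker).mp hw,
        TensorProduct.tmul_zero]
    exact (RingHom.mem_ker).mp (hle h)

omit [Fintype ι] in
/-- **Equivariance**: an automorphism `gW` of `W` over `Vj` reducing to the automorphism `gk` of
`κμ` over `κj`. -/
theorem rho_map (gW : W ≃ₐ[Vj] W) (gk : κμ ≃ₐ[κj] κμ)
    (hg : ∀ w, redW (gW w) = gk (redW w)) (x : W ⊗[Vj] O) :
    rho redVj redW red hW hO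
        (Algebra.TensorProduct.map (gW : W →ₐ[Vj] W) (AlgHom.id Vj O) x) =
      Algebra.TensorProduct.map (AlgHom.id κj κ) (gk : κμ →ₐ[κj] κμ)
        (rho redVj redW red hW hO x) := by
  induction x using TensorProduct.induction_on with
  | zero => simp
  | tmul w o =>
    rw [Algebra.TensorProduct.map_tmul, rho_tmul, rho_tmul, Algebra.TensorProduct.map_tmul]
    simp [hg]
  | add x y hx hy => rw [map_add, map_add, hx, hy, map_add, map_add]

end Rho

/-! ### the section `sigma` of `tau` over the integral closure -/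

section Sigma

variable {B W K RL T : Type*} [CommRing B] [CommRing W] [IsDomain W] [Field K] [CommRing RL]
  [CommRing T]
  [Algebra B W] [Algebra W K] [Algebra B K] [IsScalarTower B W K]
  [Algebra K RL] [Algebra W RL] [Algebra B RL] [IsScalarTower W K RL] [IsScalarTower B W RL]
  [IsFractionRing W K] [IsIntegrallyClosed W] [Algebra W T]
  (hT : FinEt W T) (tau : T →ₐ[W] RL)
  (hbij : Function.Bijective
      (Algebra.TensorProduct.lift (Algebra.ofId K RL) tau (fun _ _ => Commute.all _ _) :
        K ⊗[W] T →ₐ[K] RL))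

/-- the inclusion of the integral closure over `B` in the integral closure over `W` -/
def inclBW : integralClosure B RL →+* integralClosure W RL where
  toFun c := ⟨(c : RL), c.2.tower_top⟩
  map_one' := rfl
  map_mul' _ _ := rfl
  map_zero' := rfl
  map_add' _ _ := rfl

/-- **The inverse of `tau` on the integral closure of `B` in `RL`.** -/
def sigma : integralClosure B RL →+* T :=
  ((LocalDiscr.equivIntegralClosure hT tau hbij).symm : integralClosure W RL →+* T).comp
    (inclBW (B := B) (W := W) (RL := RL))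

include hT hbij in
theorem tau_injective : Function.Injective tau :=
  LocalDiscr.injective_of_bijective hT tau hbij

theorem tau_sigma (x : integralClosure B RL) : tau (sigma hT tau hbij x) = (x : RL) := by
  have h1 : ∀ t : T,
      ((LocalDiscr.equivIntegralClosure hT tau hbij t : integralClosure W RL) : RL) = tau t :=
    fun _ => rfl
  have h2 : sigma hT tau hbij x =
      (LocalDiscr.equivIntegralClosure hT tau hbij).symm (inclBW (B := B) (W := W) x) := rfl
  rw [h2, ← h1, AlgEquiv.apply_symm_apply]
  rfl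

theorem sigma_of_tau (y : T) (h : IsIntegral B (tau y)) :
    sigma hT tau hbij (⟨tau y, h⟩ : integralClosure B RL) = y := by
  apply tau_injective hT tau hbij
  rw [tau_sigma]

theorem sigma_algebraMap (x : B) :
    sigma hT tau hbij (algebraMap B (integralClosure B RL) x) =
      algebraMap W T (algebraMap B W x) := by
  apply tau_injective hT tau hbij
  rw [tau_sigma, AlgHom.commutes]
  show algebraMap B RL x = _
  exact IsScalarTower.algebraMap_apply B W RL x

/-- **Equivariance of `sigma`.** -/
theorem sigma_map (gT : T →+* T) (gR : RL →+* RL) (h1 : ∀ y, tau (gT y) = gR (tau y))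
    (x : integralClosure B RL) (hx : IsIntegral B (gR (x : RL))) :
    sigma hT tau hbij (⟨gR (x : RL), hx⟩ : integralClosure B RL) = gT (sigma hT tau hbij x) := by
  apply tau_injective hT tau hbij
  rw [tau_sigma, h1, tau_sigma]

/-! ### `sigma` maps a basis of a finite étale integral closure to a basis -/

section Det

variable [IsDomain B] [IsFractionRing B K]
variable {ι : Type*} [Fintype ι] [DecidableEq ι] (tT : Basis ι W T) (bR : Basis ι K RL)
  (htau : ∀ i, tau (tT i) = bR i)
variable {ι' : Type*} [Fintype ι'] [DecidableEq ι'] (b : Basis ι' B (integralClosure B RL))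

include htau in
/-- The discriminant relation: `discr_B b = det(P)² · discr_W t` inside `W`. -/
theorem exists_equiv_discr_eq :
    ∃ e : ι' ≃ ι,
      algebraMap B W (Algebra.discr B b) =
        (tT.det fun j => sigma hT tau hbij (b (e.symm j))) ^ 2 * Algebra.discr W tT := by
  haveI : IsScalarTower B K RL := IsScalarTower.of_algebraMap_eq fun x => by
    rw [IsScalarTower.algebraMap_apply B W RL, IsScalarTower.algebraMap_apply W K RL,
      ← IsScalarTower.algebraMap_apply B W K]
  haveI : Module.Finite K RL := Module.Finite.of_basis bR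
  haveI : Algebra.IsIntegral K RL := Algebra.IsIntegral.of_finite K RL
  set bK : Basis ι' K RL := IntegralBasis.basisFrac (K := K) b with hbK
  have hbKi : ∀ i, bK i = ((b i : integralClosure B RL) : RL) := fun i =>
    IntegralBasis.basisFrac_apply b i
  set e : ι' ≃ ι := bK.indexEquiv bR with he
  refine ⟨e, ?_⟩
  set P : Matrix ι ι W := tT.toMatrix fun j => sigma hT tau hbij (b (e.symm j)) with hP
  -- (a) discr over `B` and over `K`
  have ha : Algebra.discr K bK = algebraMap B K (Algebra.discr B b) := by
    refine UnramVal.discr_map (algebraMap B K) ((integralClosure B RL).val : _ →+* RL) b bK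
      (fun r => ?_) (fun i => ?_)
    · show algebraMap B RL r = _
      exact IsScalarTower.algebraMap_apply B K RL r
    · rw [hbKi]
      rfl
  -- (b) discr over `W` and over `K`
  have hb' : Algebra.discr K bR = algebraMap W K (Algebra.discr W tT) := by
    refine UnramVal.discr_map (algebraMap W K) (tau : T →+* RL) tT bR (fun r => ?_) (fun i => ?_)
    · show tau (algebraMap W T r) = _
      rw [AlgHom.commutes]
      exact IsScalarTower.algebraMap_apply W K RL r
    · exact (htau i).symm
  -- (c) the change of basis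
  have hc : (fun j => bK (e.symm j)) =
      Matrix.vecMul (⇑bR) ((P.map (algebraMap W K)).map (algebraMap K RL)) := by
    funext j
    rw [hbKi, ← tau_sigma hT tau hbij (b (e.symm j))]
    conv_lhs => rw [← tT.sum_repr (sigma hT tau hbij (b (e.symm j)))]
    rw [map_sum, Matrix.vecMul, dotProduct]
    refine Finset.sum_congr rfl fun i _ => ?_
    rw [map_smul, htau, Matrix.map_apply, Matrix.map_apply, hP, Basis.toMatrix_apply,
      ← IsScalarTower.algebraMap_apply W K RL, Algebra.smul_def, mul_comm]
  have hd : Algebra.discr K bK =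
      (algebraMap W K P.det) ^ 2 * algebraMap W K (Algebra.discr W tT) := by
    rw [← Algebra.discr_reindex K bK e]
    have : (⇑bK ∘ ⇑e.symm) = fun j => bK (e.symm j) := rfl
    rw [this, hc, Algebra.discr_of_matrix_vecMul, hb']
    congr 2
    rw [RingHom.map_det]
    rfl
  have hinj : Function.Injective (algebraMap W K) := IsFractionRing.injective W K
  apply hinj
  rw [← IsScalarTower.algebraMap_apply B W K, ← ha, hd, map_mul, map_pow, Basis.det_apply]

include htau in
/-- **`sigma` maps a `B`-basis of the (finite étale) integral closure to a `W`-basis of `T`**, in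
determinant form. -/
theorem exists_equiv_isUnit_det (hS : FinEt B (integralClosure B RL)) :
    ∃ e : ι' ≃ ι, IsUnit (tT.det fun j => sigma hT tau hbij (b (e.symm j))) := by
  obtain ⟨e, he⟩ := exists_equiv_discr_eq hT tau hbij tT bR htau b
  refine ⟨e, ?_⟩
  have h1 : IsUnit (algebraMap B W (Algebra.discr B b)) := (hS.isUnit_discr b).map _
  rw [he] at h1
  exact (isUnit_pow_iff two_ne_zero).mp (isUnit_of_mul_isUnit_left h1)

end Det

end Sigma

/-! ### `basis_map` -/

section BasisMap

variable {Vj W O κj κμ κ : Type*} [CommRing Vj] [CommRing W] [CommRing O] [Algebra Vj W]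
  [Algebra Vj O] [CommRing κj] [CommRing κμ] [CommRing κ] [Algebra κj κμ] [Algebra κj κ]
variable (redVj : Vj →+* κj) (redW : W →+* κμ) (red : O →+* κ)
  (hW : ∀ x : Vj, redW (algebraMap Vj W x) = algebraMap κj κμ (redVj x))
  (hO : ∀ x : Vj, red (algebraMap Vj O x) = algebraMap κj κ (redVj x))
variable {B K RL : Type*} [CommRing B] [IsDomain W] [Field K] [CommRing RL]
  [Algebra B W] [Algebra W K] [Algebra B K] [IsScalarTower B W K]
  [Algebra K RL] [Algebra W RL] [Algebra B RL] [IsScalarTower W K RL] [IsScalarTower B W RL]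
  [IsFractionRing W K] [IsIntegrallyClosed W]
variable (hOet : FinEt Vj O) (tau : W ⊗[Vj] O →ₐ[W] RL)
variable {ι : Type*} [Fintype ι] [DecidableEq ι] (bO : Basis ι Vj O) (bR : Basis ι K RL)
  (htau : ∀ i, tau ((1 : W) ⊗ₜ[Vj] bO i) = bR i)
  (bk : Basis ι κj κ) (hb : ∀ i, bk i = red (bO i))

/-- `sigma` for the model `T = W ⊗[Vj] O` -/
def sigmaT : integralClosure B RL →+* W ⊗[Vj] O :=
  sigma (hOet.baseChange W) tau (LocalDiscr.bijective_lift_of_basis bO bR tau htau)

/-- **The specialisation map** `sp = rho ∘ sigma : integralClosure B RL →+* κ ⊗[κj] κμ`. -/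
def sp : integralClosure B RL →+* κ ⊗[κj] κμ :=
  (rho redVj redW red hW hO).comp (sigmaT (B := B) hOet tau bO bR htau)

theorem tau_sigmaT (x : integralClosure B RL) :
    tau (sigmaT (B := B) hOet tau bO bR htau x) = (x : RL) :=
  tau_sigma _ _ _ x

theorem sp_apply (x : integralClosure B RL) :
    sp redVj redW red hW hO hOet tau bO bR htau x =
      rho redVj redW red hW hO (sigmaT (B := B) hOet tau bO bR htau x) := rfl

/-- `sp` on the base ring `B`: the reduction `redW` on `B ⊆ W`. -/
theorem sp_algebraMap (x : B) :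
    sp redVj redW red hW hO hOet tau bO bR htau (algebraMap B (integralClosure B RL) x) =
      (1 : κ) ⊗ₜ[κj] redW (algebraMap B W x) := by
  rw [sp_apply, sigmaT, sigma_algebraMap, rho_algebraMap]

/-- `sp` on elements coming from `O`: the reduction `red`. -/
theorem sp_of_tau_tmul (w : W) (o : O) (h : IsIntegral B (tau (w ⊗ₜ[Vj] o))) :
    sp redVj redW red hW hO hOet tau bO bR htau (⟨tau (w ⊗ₜ[Vj] o), h⟩ : integralClosure B RL) =
      red o ⊗ₜ[κj] redW w := by
  rw [sp_apply, sigmaT, sigma_of_tau, rho_tmul]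

/-- `sp` of an arbitrary element in the image of `tau`. -/
theorem sp_of_tau (y : W ⊗[Vj] O) (h : IsIntegral B (tau y)) :
    sp redVj redW red hW hO hOet tau bO bR htau (⟨tau y, h⟩ : integralClosure B RL) =
      rho redVj redW red hW hO y := by
  rw [sp_apply, sigmaT, sigma_of_tau]

/-- **Equivariance of `sp`**: `gR` an endomorphism of `RL` induced on `T = W ⊗[Vj] O` by the
automorphism `gW` of `W`, and `gW` reduces to `gk`. -/
theorem sp_map (gW : W ≃ₐ[Vj] W) (gk : κμ ≃ₐ[κj] κμ) (gR : RL →+* RL)
    (hg : ∀ w, redW (gW w) = gk (redW w))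
    (h1 : ∀ y : W ⊗[Vj] O,
      tau (Algebra.TensorProduct.map (gW : W →ₐ[Vj] W) (AlgHom.id Vj O) y) = gR (tau y))
    (x : integralClosure B RL) (hx : IsIntegral B (gR (x : RL))) :
    sp redVj redW red hW hO hOet tau bO bR htau (⟨gR (x : RL), hx⟩ : integralClosure B RL) =
      Algebra.TensorProduct.map (AlgHom.id κj κ) (gk : κμ →ₐ[κj] κμ)
        (sp redVj redW red hW hO hOet tau bO bR htau x) := by
  rw [sp_apply, sp_apply, sigmaT,
    sigma_map _ _ _
      ((Algebra.TensorProduct.map (gW : W →ₐ[Vj] W) (AlgHom.id Vj O) : _ →ₐ[Vj] _) :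
        W ⊗[Vj] O →+* W ⊗[Vj] O) gR h1 x hx]
  exact rho_map redVj redW red hW hO gW gk hg _

variable [IsDomain B] [IsFractionRing B K]

include hb in
/-- **`basis_map`**: if `C = integralClosure B RL` is finite étale over `B`, every finite `B`-basis
of `C` is mapped by `sp` to a `κμ`-basis of `κ ⊗[κj] κμ`. -/
theorem basis_map (hS : FinEt B (integralClosure B RL))
    {ι' : Type*} [Fintype ι'] (b : Basis ι' B (integralClosure B RL)) :
    LinearIndependent κμ (fun i => sp redVj redW red hW hO hOet tau bO bR htau (b i)) ∧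
      ⊤ ≤ Submodule.span κμ
        (Set.range fun i => sp redVj redW red hW hO hOet tau bO bR htau (b i)) := by
  classical
  have htau' : ∀ i, tau (Algebra.TensorProduct.basis W bO i) = bR i := fun i => by
    rw [Algebra.TensorProduct.basis_apply, htau]
  obtain ⟨e, he⟩ := exists_equiv_isUnit_det (hOet.baseChange W) tau
    (LocalDiscr.bijective_lift_of_basis bO bR tau htau) (Algebra.TensorProduct.basis W bO) bR
    htau' b hS
  set v : ι → κ ⊗[κj] κμ := fun j => sp redVj redW red hW hO hOet tau bO bR htau (b (e.symm j))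
    with hv
  have hdet : (rightBasis (κμ := κμ) bk).det v =
      redW ((Algebra.TensorProduct.basis W bO).det fun j =>
        sigma (hOet.baseChange W) tau (LocalDiscr.bijective_lift_of_basis bO bR tau htau)
          (b (e.symm j))) := by
    rw [Basis.det_apply, Basis.det_apply, RingHom.map_det]
    congr 1
    ext i j
    rw [RingHom.mapMatrix_apply, Matrix.map_apply, Basis.toMatrix_apply, Basis.toMatrix_apply,
      hv]
    exact rightBasis_repr_rho redVj redW red hW hO bO bk hb _ i
  have hunit : IsUnit ((rightBasis (κμ := κμ) bk).det v) := by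
    rw [hdet]
    exact he.map redW
  obtain ⟨hli, hspan⟩ := (rightBasis (κμ := κμ) bk).is_basis_iff_det.mpr hunit
  have hcomp : (fun i => sp redVj redW red hW hO hOet tau bO bR htau (b i)) = v ∘ e := by
    funext i
    simp [hv]
  rw [hcomp]
  refine ⟨hli.comp e e.injective, ?_⟩
  rw [EquivLike.range_comp v e, hspan]

end BasisMap

end Fermat.Agent.S18.C.TensorRed
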