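import Mathlib
import Fermat.Agent.S18.C.BRingLocal

/-!
# PROJECT H (S18), block C: the discrete valuation ring `D₀ = BRing c ⊤ = k[μ]_(μ)`

For a field `k` (with its trivial valuation subring `⊤`) the local ring `BRing c ⊤` of the
`μ`-line of `k` is a discrete valuation ring with uniformiser `μ` and residue field `k`.

* instances `IsDiscreteValuationRing (discRing ⊤)`, `IsDiscreteValuationRing (BRing c ⊤)`;
* `maximalIdeal_eq_span_muB`, `irreducible_muB`;
* `pTop c k : HeightOneSpectrum (BRing c ⊤)`, `intValuation_muB : … = exp (-1)`;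
* `constTop c k : k →+* BRing c ⊤`, `coe_constTop`, `isUnit_constTop`;
* `vTop c k : Valuation (MuLine c k) ℤᵐ⁰`, `vTop_const` (trivial on constants), `vTop_mu`,
  `vTop_coe` (`= intValuation` on `BRing c ⊤`);
* `exists_sub_mem` : the residue field is `k`.
-/

set_option autoImplicit false
set_option linter.style.haveILetI false

noncomputable section

namespace Fermat.Agent.S18.C.BRingTop

open Polynomial IsDedekindDomain
open Fermat.Agent.S18.C.Defs Fermat.Agent.S18.C.SurfaceDefs Fermat.Agent.S18.Purity
open Fermat.Agent.S18.C.DiscRingLocal Fermat.Agent.S18.C.BRingLocal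
open scoped WithZero
open WithZero (exp)

variable (c : Cover) (k : Type*) [Field k]

instance instDVRDiscTop : IsDiscreteValuationRing (discRing (⊤ : ValuationSubring k)) :=
  (isDiscreteValuationRing_top (K := k)).1

instance instDVRBTop : IsDiscreteValuationRing (BRing c (⊤ : ValuationSubring k)) :=
  IsDiscreteValuationRing.RingEquivClass.isDiscreteValuationRing (toB c (⊤ : ValuationSubring k))

theorem maximalIdeal_top_eq_bot : IsLocalRing.maximalIdeal ↥(⊤ : ValuationSubring k) = ⊥ :=
  (IsLocalRing.isField_iff_maximalIdeal_eq).mp isField_top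

theorem maximalIdeal_eq_span_muB :
    IsLocalRing.maximalIdeal (BRing c (⊤ : ValuationSubring k)) =
      Ideal.span {muB c (⊤ : ValuationSubring k)} := by
  ext b
  rw [BRingLocal.mem_maximalIdeal_iff, evClosedB_eq, IsLocalRing.residue_eq_zero_iff,
    maximalIdeal_top_eq_bot, Ideal.mem_bot, evZeroB_eq_evalZero, ← RingHom.mem_ker, ker_evalZero,
    algebraMap_B_X]

theorem muB_ne_zero : muB c (⊤ : ValuationSubring k) ≠ 0 := (prime_muB c ⊤).ne_zero

theorem irreducible_muB : Irreducible (muB c (⊤ : ValuationSubring k)) :=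
  (IsDiscreteValuationRing.irreducible_iff_uniformizer _).mpr (maximalIdeal_eq_span_muB c k)

/-- the closed point of `D₀ = BRing c ⊤` -/
def pTop : HeightOneSpectrum (BRing c (⊤ : ValuationSubring k)) :=
  IsDiscreteValuationRing.maximalIdeal (BRing c (⊤ : ValuationSubring k))

theorem pTop_asIdeal :
    (pTop c k).asIdeal = IsLocalRing.maximalIdeal (BRing c (⊤ : ValuationSubring k)) := rfl

theorem pTop_asIdeal_eq_span : (pTop c k).asIdeal = Ideal.span {muB c (⊤ : ValuationSubring k)} := by
  rw [pTop_asIdeal, maximalIdeal_eq_span_muB]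

/-- `D₀` has only one height one prime. -/
theorem eq_pTop (P : HeightOneSpectrum (BRing c (⊤ : ValuationSubring k))) : P = pTop c k := by
  apply HeightOneSpectrum.ext
  rw [pTop_asIdeal]
  have hmax : P.asIdeal.IsMaximal := P.isMaximal
  exact IsLocalRing.eq_maximalIdeal hmax

theorem intValuation_muB : (pTop c k).intValuation (muB c (⊤ : ValuationSubring k)) = exp (-1 : ℤ) :=
  HeightOneSpectrum.intValuation_singleton _ (muB_ne_zero c k) (pTop_asIdeal_eq_span c k)

theorem intValuation_eq_one_iff_isUnit (b : BRing c (⊤ : ValuationSubring k)) :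
    (pTop c k).intValuation b = 1 ↔ IsUnit b := by
  rw [HeightOneSpectrum.intValuation_eq_one_iff, pTop_asIdeal, IsLocalRing.notMem_maximalIdeal]

/-- the constants `k → D₀` -/
def constTop : k →+* BRing c (⊤ : ValuationSubring k) :=
  (algebraMap (↥(⊤ : ValuationSubring k))[X] (BRing c (⊤ : ValuationSubring k))).comp
    (Polynomial.C.comp ((RingHom.id k).codRestrict (⊤ : ValuationSubring k)
      fun x => ValuationSubring.mem_top x))

theorem constTop_apply (a : k) :
    constTop c k a = algebraMap (↥(⊤ : ValuationSubring k))[X] (BRing c (⊤ : ValuationSubring k))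
      (C (⟨a, ValuationSubring.mem_top a⟩ : (⊤ : ValuationSubring k))) := rfl

@[simp] theorem coe_constTop (a : k) :
    ((constTop c k a : BRing c (⊤ : ValuationSubring k)) : MuLine c k) =
      algebraMap k (MuLine c k) a := by
  rw [constTop_apply, algebraMap_B_apply, coe_toB, coe_algebraMap, polyIncl_C,
    RatFunc.algebraMap_C]
  rfl

@[simp] theorem evZeroB_constTop (a : k) :
    ((evZeroB c ⊤ (constTop c k a) : (⊤ : ValuationSubring k)) : k) = a := by
  rw [constTop_apply, evZeroB_algebraMap, Polynomial.coeff_C_zero]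

theorem isUnit_constTop {a : k} (ha : a ≠ 0) : IsUnit (constTop c k a) :=
  (IsUnit.mk0 a ha).map (constTop c k)

/-- **The residue field of `D₀` is `k`.** -/
theorem exists_sub_mem (b : BRing c (⊤ : ValuationSubring k)) :
    ∃ a : k, b - constTop c k a ∈ (pTop c k).asIdeal := by
  refine ⟨(evZeroB c ⊤ b : (⊤ : ValuationSubring k)), ?_⟩
  rw [pTop_asIdeal, BRingLocal.mem_maximalIdeal_iff, evClosedB_eq, map_sub]
  have : evZeroB c ⊤ (constTop c k ((evZeroB c ⊤ b : (⊤ : ValuationSubring k)) : k)) =
      evZeroB c ⊤ b := Subtype.ext (evZeroB_constTop c k _)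
  rw [this, sub_self, map_zero]

/-- the `μ`-adic valuation of the `μ`-line of `k` -/
def vTop : Valuation (MuLine c k) ℤᵐ⁰ := (pTop c k).valuation (MuLine c k)

theorem vTop_coe (b : BRing c (⊤ : ValuationSubring k)) :
    vTop c k (b : MuLine c k) = (pTop c k).intValuation b :=
  HeightOneSpectrum.valuation_of_algebraMap (pTop c k) b

/-- `vTop` is trivial on the constants. -/
theorem vTop_const {a : k} (ha : a ≠ 0) : vTop c k (algebraMap k (MuLine c k) a) = 1 := by
  rw [← coe_constTop, vTop_coe, intValuation_eq_one_iff_isUnit]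
  exact isUnit_constTop c k ha

theorem vTop_mu : vTop c k (MuLine.mu c k) = exp (-1 : ℤ) := by
  rw [← coe_muB c (⊤ : ValuationSubring k), vTop_coe, intValuation_muB]

theorem vTop_mu_lt_one : vTop c k (MuLine.mu c k) < 1 := by
  rw [vTop_mu, ← WithZero.exp_zero, WithZero.exp_lt_exp]
  norm_num

theorem vTop_le_one_iff (m : MuLine c k) :
    vTop c k m ≤ 1 ↔ m ∈ BRing c (⊤ : ValuationSubring k) := by
  constructor
  · intro h
    obtain ⟨b, hb⟩ := IsDiscreteValuationRing.exists_lift_of_le_one (A := BRing c ⊤) h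
    rw [← hb]
    exact b.2
  · intro h
    have := vTop_coe c k ⟨m, h⟩
    rw [show ((⟨m, h⟩ : BRing c (⊤ : ValuationSubring k)) : MuLine c k) = m from rfl] at this
    rw [this]
    exact HeightOneSpectrum.intValuation_le_one _ _

/-- In `D₀`: `intValuation b = (intValuation μ) ^ n` iff `vTop b = vTop μ ^ n`. -/
theorem intValuation_eq_exp_of_vTop {b : BRing c (⊤ : ValuationSubring k)} {n : ℕ}
    (h : vTop c k (b : MuLine c k) = vTop c k (MuLine.mu c k) ^ n) :
    (pTop c k).intValuation b = exp (-(n : ℤ)) := by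
  rw [vTop_coe, vTop_mu, ← WithZero.exp_nsmul] at h
  rw [h]
  congr 1
  simp

end Fermat.Agent.S18.C.BRingTop
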