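import Mathlib

/-!
# PROJECT H (S18), block C, slice H-C9 (abstract part): fibrewise Burnside count

`G` a finite group acting on two finite sets `X` ("points of the cover over the value `c`") and
`M` ("points of the Möbius line over `c`"), `π : X → M` equivariant.  If for every `g` and every
`g`-fixed `m` the number of `g`-fixed points of the fibre `π⁻¹ m` is a number `φ g` which does not
depend on `m` (in the application: `φ g = φ_k(g)`, the number of `g`-fixed points of the special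
fibre, by `C/Specialize.card_fixed_eq`), then

  `#(X / G) * #G = ∑ g, #Fix_g(M) * φ g`.

The two-value corollary `card_orbits_add_mul` is the formula (4) of the block C design:

  `(#(X₀/G) + #(X₁/G)) * #G = (#M₀ + #M₁) * n + ∑_{g ≠ 1} i₀(g) * φ g`.

Mathlib only.
-/

set_option autoImplicit false

namespace Fermat.Agent.S18.C.OrbitCount

open MulAction

section Fibrewise

variable {G X M : Type*} [Group G] [MulAction G X] [MulAction G M]

/-- the `g`-fixed points of `X`, fibred over the `g`-fixed points of `M` -/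
noncomputable def fixedSigmaEquiv (π : X → M) (hπ : ∀ (g : G) (x : X), π (g • x) = g • π x)
    (g : G) :
    (Σ m : fixedBy M g, {x : X // π x = (m : M) ∧ g • x = x}) ≃ fixedBy X g where
  toFun p := ⟨p.2.1, p.2.2.2⟩
  invFun x := ⟨⟨π x.1, by
    show g • π x.1 = π x.1
    rw [← hπ, x.2]⟩, ⟨x.1, rfl, x.2⟩⟩
  left_inv := by
    rintro ⟨⟨m, hm⟩, ⟨x, hx1, hx2⟩⟩
    obtain rfl : π x = m := hx1
    rfl
  right_inv := by
    rintro ⟨x, hx⟩
    rfl

/-- `#Fix_g(X) = ∑_{m ∈ Fix_g(M)} #Fix_g(π⁻¹ m)` -/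
theorem card_fixedBy_eq_sum [Finite X] [Finite M] (π : X → M)
    (hπ : ∀ (g : G) (x : X), π (g • x) = g • π x) (g : G) :
    Nat.card (fixedBy X g) =
      ∑ᶠ m : fixedBy M g, Nat.card {x : X // π x = (m : M) ∧ g • x = x} := by
  classical
  have : Fintype (fixedBy M g) := Fintype.ofFinite _
  rw [← Nat.card_congr (fixedSigmaEquiv π hπ g), Nat.card_sigma, finsum_eq_sum_of_fintype]

/-- if the fibrewise fixed-point count is constant `= φ g`, then `#Fix_g(X) = #Fix_g(M) * φ g` -/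
theorem card_fixedBy_eq_mul [Finite X] [Finite M] (π : X → M)
    (hπ : ∀ (g : G) (x : X), π (g • x) = g • π x) (g : G) (n : ℕ)
    (hφ : ∀ m : M, g • m = m → Nat.card {x : X // π x = m ∧ g • x = x} = n) :
    Nat.card (fixedBy X g) = Nat.card (fixedBy M g) * n := by
  classical
  have : Fintype (fixedBy M g) := Fintype.ofFinite _
  rw [card_fixedBy_eq_sum π hπ g, finsum_eq_sum_of_fintype]
  rw [Finset.sum_congr rfl (fun m _ => hφ m.1 m.2), Finset.sum_const, Finset.card_univ,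
    Nat.card_eq_fintype_card, smul_eq_mul]

/-- **Burnside**, `Nat.card` form. -/
theorem burnside [Fintype G] [Finite X] :
    Nat.card (Quotient (orbitRel G X)) * Nat.card G = ∑ g : G, Nat.card (fixedBy X g) := by
  classical
  have : Fintype X := Fintype.ofFinite _
  have : ∀ g : G, Fintype (fixedBy X g) := fun g => Fintype.ofFinite _
  have : Fintype (Quotient (orbitRel G X)) := Fintype.ofFinite _
  simp only [Nat.card_eq_fintype_card]
  exact (sum_card_fixedBy_eq_card_orbits_mul_card_group G X).symm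

/-- **Fibrewise Burnside**: `#(X/G) * #G = ∑_g #Fix_g(M) * φ g`. -/
theorem card_orbits_mul [Fintype G] [Finite X] [Finite M] (π : X → M)
    (hπ : ∀ (g : G) (x : X), π (g • x) = g • π x) (φ : G → ℕ)
    (hφ : ∀ (g : G) (m : M), g • m = m → Nat.card {x : X // π x = m ∧ g • x = x} = φ g) :
    Nat.card (Quotient (orbitRel G X)) * Nat.card G =
      ∑ g : G, Nat.card (fixedBy M g) * φ g := by
  rw [burnside]
  exact Finset.sum_congr rfl fun g _ => card_fixedBy_eq_mul π hπ g (φ g) (hφ g)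

/-- the fixed points of `1` are everything -/
theorem card_fixedBy_one : Nat.card (fixedBy M (1 : G)) = Nat.card M := by
  rw [fixedBy_one_eq_univ]
  exact Nat.card_congr (Equiv.Set.univ M)

end Fibrewise

section TwoValues

variable {G X₀ X₁ M₀ M₁ : Type*} [Group G] [Fintype G] [DecidableEq G]
  [MulAction G X₀] [MulAction G M₀] [MulAction G X₁] [MulAction G M₁]
  [Finite X₀] [Finite M₀] [Finite X₁] [Finite M₁]

/-- **Formula (4) of the block C design.**  Two equivariant families `X₀ → M₀` (over `j = 0`) and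
`X₁ → M₁` (over `j = 1728`) with the same fibrewise fixed-point counts `φ`, `φ 1 = n`, and
`#Fix_g(M₀) + #Fix_g(M₁) = i₀ g` for `g ≠ 1`:

  `(#(X₀/G) + #(X₁/G)) * #G = (#M₀ + #M₁) * n + ∑_{g ≠ 1} i₀ g * φ g`. -/
theorem card_orbits_add_mul (π₀ : X₀ → M₀) (π₁ : X₁ → M₁)
    (hπ₀ : ∀ (g : G) (x : X₀), π₀ (g • x) = g • π₀ x)
    (hπ₁ : ∀ (g : G) (x : X₁), π₁ (g • x) = g • π₁ x) (φ : G → ℕ) (i₀ : G → ℕ)
    (hφ₀ : ∀ (g : G) (m : M₀), g • m = m → Nat.card {x : X₀ // π₀ x = m ∧ g • x = x} = φ g)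
    (hφ₁ : ∀ (g : G) (m : M₁), g • m = m → Nat.card {x : X₁ // π₁ x = m ∧ g • x = x} = φ g)
    (hi : ∀ g : G, g ≠ 1 → Nat.card (fixedBy M₀ g) + Nat.card (fixedBy M₁ g) = i₀ g) :
    (Nat.card (Quotient (orbitRel G X₀)) + Nat.card (Quotient (orbitRel G X₁))) * Nat.card G =
      (Nat.card M₀ + Nat.card M₁) * φ 1 + ∑ g ∈ Finset.univ.erase (1 : G), i₀ g * φ g := by
  rw [add_mul, card_orbits_mul π₀ hπ₀ φ hφ₀, card_orbits_mul π₁ hπ₁ φ hφ₁, ← Finset.sum_add_distrib,
    ← Finset.add_sum_erase _ _ (Finset.mem_univ (1 : G)), card_fixedBy_one, card_fixedBy_one,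
    ← add_mul]
  congr 1
  refine Finset.sum_congr rfl fun g hg => ?_
  rw [← add_mul, hi g (Finset.ne_of_mem_erase hg)]

/-- The same with the total `∑_{g ≠ 1} i₀ g * φ g` eliminated against the special-fibre identity
`#G * D = d₀ * n - ∑_{g ≠ 1} i₀ g * φ g` (written additively) and `#M₀ + #M₁ + d₀ = 2 * #G`:
`D + #(X₀/G) + #(X₁/G) = 2 n`, i.e. contract K3 with equality. -/
theorem k3_of_counts (π₀ : X₀ → M₀) (π₁ : X₁ → M₁)
    (hπ₀ : ∀ (g : G) (x : X₀), π₀ (g • x) = g • π₀ x)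
    (hπ₁ : ∀ (g : G) (x : X₁), π₁ (g • x) = g • π₁ x) (φ : G → ℕ) (i₀ : G → ℕ)
    (hφ₀ : ∀ (g : G) (m : M₀), g • m = m → Nat.card {x : X₀ // π₀ x = m ∧ g • x = x} = φ g)
    (hφ₁ : ∀ (g : G) (m : M₁), g • m = m → Nat.card {x : X₁ // π₁ x = m ∧ g • x = x} = φ g)
    (hi : ∀ g : G, g ≠ 1 → Nat.card (fixedBy M₀ g) + Nat.card (fixedBy M₁ g) = i₀ g)
    (D d₀ : ℕ) (hD : Nat.card G * D + ∑ g ∈ Finset.univ.erase (1 : G), i₀ g * φ g = d₀ * φ 1)
    (hd₀ : Nat.card M₀ + Nat.card M₁ + d₀ = 2 * Nat.card G) :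
    D + Nat.card (Quotient (orbitRel G X₀)) + Nat.card (Quotient (orbitRel G X₁)) = 2 * φ 1 := by
  have h := card_orbits_add_mul π₀ π₁ hπ₀ hπ₁ φ i₀ hφ₀ hφ₁ hi
  have hG : 0 < Nat.card G := Nat.card_pos
  apply Nat.eq_of_mul_eq_mul_right hG
  have h2 : (Nat.card M₀ + Nat.card M₁ + d₀) * φ 1 = 2 * Nat.card G * φ 1 := by rw [hd₀]
  nlinarith [h, hD, h2]

end TwoValues

end Fermat.Agent.S18.C.OrbitCount
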