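import Mathlib
import Fermat.Agent.S18.C.OrbitCount
import Fermat.Agent.S18.C.Specialize

/-!
# PROJECT H (S18), block C, slice H-C9 (abstract part 2): the generic-fibre point count

Setting (the shape of #1558): `B` a commutative ring with an action of a finite group `G` by ring
automorphisms (in the application `B = A[μ]_(𝔪_A, μ)`, `G = H₀` acting through the Möbius maps),
`C` a `B`-algebra with a finite basis `b` and a compatible `G`-action (the normalisation `C_A`),
`Ω` an algebraically closed field with a valuation subring `A` whose residue field `k` is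
algebraically closed.

* `Pt R Ω`      : the ring homomorphisms `R →+* Ω` ("`Ω`-points of `R`") with the `G`-action
                  `g • φ = φ ∘ g⁻¹`;
* `res`         : restriction `Pt C Ω → Pt B Ω`, equivariant;
* `ptsOver M`   : the points of `C` lying over a `G`-stable set `M` of points of `B`;
* `card_fixed_fibre` : for a `g`-fixed point `m` of `B` with values in `A`, reducing to the closed
                  point `ē : B →+* k` and at which the discriminant is a unit, the number of `g`-fixed
                  points of `C` over `m` is `φk g`, the number of `g`-fixed `k`-points of `C` over `ē`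
                  (`Specialize.card_fixed_eq`);
* `card_orbits_mul` : **`#(ptsOver M / G) * #G = ∑ g, #Fix_g(M) * φk g`**;
* `card_fibre`  : the number of points over `m` is the rank.
-/

set_option autoImplicit false

namespace Fermat.Agent.S18.C.GenericCount

open MulAction Module

/-- The `Ω`-points of the ring `R`: a type synonym of `R →+* Ω` which carries the action of a group
acting on `R` by precomposition with the inverse. -/
def Pt (R Ω : Type*) [Semiring R] [Semiring Ω] : Type _ := R →+* Ω

section Action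

variable {G R Ω : Type*} [Group G] [Semiring R] [MulSemiringAction G R] [Semiring Ω]

/-- the underlying ring homomorphism of a point -/
def Pt.hom (φ : Pt R Ω) : R →+* Ω := φ

/-- a ring homomorphism as a point -/
def Pt.mk (φ : R →+* Ω) : Pt R Ω := φ

@[ext]
theorem Pt.ext {φ ψ : Pt R Ω} (h : ∀ x, φ.hom x = ψ.hom x) : φ = ψ :=
  RingHom.ext h

instance : MulAction G (Pt R Ω) where
  smul g φ := Pt.mk (φ.hom.comp (MulSemiringAction.toRingHom G R g⁻¹))
  one_smul φ := by
    apply Pt.ext
    intro x
    show φ.hom ((1 : G)⁻¹ • x) = φ.hom x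
    rw [inv_one, one_smul]
  mul_smul g h φ := by
    apply Pt.ext
    intro x
    show φ.hom ((g * h)⁻¹ • x) = φ.hom (h⁻¹ • g⁻¹ • x)
    rw [mul_inv_rev, mul_smul]

theorem smul_hom_apply (g : G) (φ : Pt R Ω) (x : R) : (g • φ).hom x = φ.hom (g⁻¹ • x) := rfl

theorem smul_eq_iff (g : G) (φ : Pt R Ω) : g • φ = φ ↔ ∀ x, φ.hom (g⁻¹ • x) = φ.hom x :=
  ⟨fun h x => by rw [← smul_hom_apply, h], fun h => Pt.ext h⟩

end Action

section Res

/-- restriction of a point of `C` to `B` -/
def res (B : Type*) {C Ω : Type*} [CommRing B] [CommRing C] [Algebra B C] [CommRing Ω]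
    (φ : Pt C Ω) : Pt B Ω := Pt.mk (φ.hom.comp (algebraMap B C))

variable {G B C Ω : Type*} [Group G] [CommRing B] [CommRing C] [Algebra B C]
  [MulSemiringAction G B] [MulSemiringAction G C] [CommRing Ω]

theorem res_hom_apply (φ : Pt C Ω) (x : B) :
    (res B φ).hom x = φ.hom (algebraMap B C x) := rfl

theorem res_smul (hcompat : ∀ (g : G) (x : B), g • algebraMap B C x = algebraMap B C (g • x))
    (g : G) (φ : Pt C Ω) : res B (g • φ) = g • res B φ := by
  apply Pt.ext
  intro x
  rw [res_hom_apply, smul_hom_apply, smul_hom_apply, res_hom_apply, hcompat]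

/-- the points of `C` over a `G`-stable set of points of `B` -/
def ptsOver (hcompat : ∀ (g : G) (x : B), g • algebraMap B C x = algebraMap B C (g • x))
    (M : SubMulAction G (Pt B Ω)) : SubMulAction G (Pt C Ω) where
  carrier := {φ | res B φ ∈ M}
  smul_mem' g φ hφ := by
    show res B (g • φ) ∈ M
    rw [res_smul hcompat]
    exact M.smul_mem g hφ

theorem mem_ptsOver (hcompat : ∀ (g : G) (x : B), g • algebraMap B C x = algebraMap B C (g • x))
    (M : SubMulAction G (Pt B Ω)) (φ : Pt C Ω) : φ ∈ ptsOver hcompat M ↔ res B φ ∈ M := Iff.rfl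

/-- the projection `ptsOver M → M` -/
def proj (hcompat : ∀ (g : G) (x : B), g • algebraMap B C x = algebraMap B C (g • x))
    (M : SubMulAction G (Pt B Ω)) (φ : ptsOver hcompat M) : M := ⟨res B φ.1, φ.2⟩

theorem proj_smul (hcompat : ∀ (g : G) (x : B), g • algebraMap B C x = algebraMap B C (g • x))
    (M : SubMulAction G (Pt B Ω)) (g : G) (φ : ptsOver hcompat M) :
    proj hcompat M (g • φ) = g • proj hcompat M φ :=
  Subtype.ext (res_smul hcompat g φ.1)

end Res

section Main

variable {G B C : Type*} [Group G] [CommRing B] [CommRing C] [Algebra B C]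
  [MulSemiringAction G B] [MulSemiringAction G C]
variable {Ω : Type*} [Field Ω] (A : ValuationSubring Ω)
variable {ι : Type*} [Fintype ι] [DecidableEq ι] (b : Basis ι B C)

/-- the number of `g`-fixed `k`-points of `C` over the closed point `ē` of `B` -/
noncomputable def phik (ebar : B →+* IsLocalRing.ResidueField A) (g : G) : ℕ :=
  Nat.card {ψ : Pt C (IsLocalRing.ResidueField A) // res B ψ = Pt.mk ebar ∧ g • ψ = ψ}

/-- points over `m` as algebra homomorphisms for the algebra structure `m` -/
def fibreEquiv {T : Type*} [CommRing T] (m : B →+* T) :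
    letI := m.toAlgebra
    {φ : Pt C T // res B φ = Pt.mk m} ≃ (C →ₐ[B] T) :=
  letI := m.toAlgebra
  { toFun := fun φ =>
      { toRingHom := φ.1.hom
        commutes' := fun x => by
          show (res B φ.1).hom x = (Pt.mk m : Pt B T).hom x
          rw [φ.2] }
    invFun := fun φ => ⟨Pt.mk φ.toRingHom, by
      apply Pt.ext
      intro x
      exact φ.commutes x⟩
    left_inv := fun _ => rfl
    right_inv := fun _ => rfl }

/-- `g`-fixed points over `m` as `σ`-fixed algebra homomorphisms, `σ = g⁻¹` -/
def fixedFibreEquiv {T : Type*} [CommRing T] (m : B →+* T) (g : G) :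
    letI := m.toAlgebra
    {φ : Pt C T // res B φ = Pt.mk m ∧ g • φ = φ} ≃
      {φ : C →ₐ[B] T // ∀ c, φ (MulSemiringAction.toRingHom G C g⁻¹ c) = φ c} :=
  letI := m.toAlgebra
  { toFun := fun φ => ⟨fibreEquiv m ⟨φ.1, φ.2.1⟩, fun c => (smul_eq_iff g φ.1).mp φ.2.2 c⟩
    invFun := fun φ => ⟨((fibreEquiv m).symm φ.1).1, ((fibreEquiv m).symm φ.1).2,
      (smul_eq_iff g _).mpr fun c => φ.2 c⟩
    left_inv := fun _ => rfl
    right_inv := fun _ => rfl }

variable [IsAlgClosed Ω] [IsAlgClosed (IsLocalRing.ResidueField A)]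

/-- **Specialisation of fixed points**: the number of `g`-fixed `Ω`-points of `C` over a `g`-fixed
`A`-valued point `e` of `B` at which the discriminant is a unit equals `φk g`. -/
theorem card_fixed_fibre
    (hcompat : ∀ (g : G) (x : B), g • algebraMap B C x = algebraMap B C (g • x))
    (e : B →+* A) (hd : IsUnit (e (Algebra.discr B b))) (g : G)
    (hg : g • (Pt.mk (A.subtype.comp e) : Pt B Ω) = Pt.mk (A.subtype.comp e)) :
    Nat.card {φ : Pt C Ω // res B φ = Pt.mk (A.subtype.comp e) ∧ g • φ = φ} =
      phik (C := C) A ((IsLocalRing.residue A).comp e) g := by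
  have hfin : Module.Finite B C := Module.Finite.of_basis b
  let algA : Algebra B A := e.toAlgebra
  let algΩ : Algebra B Ω := (A.subtype.comp e).toAlgebra
  let algk : Algebra B (IsLocalRing.ResidueField A) := ((IsLocalRing.residue A).comp e).toAlgebra
  have : IsScalarTower B A Ω := IsScalarTower.of_algebraMap_eq fun x => rfl
  have : IsScalarTower B A (IsLocalRing.ResidueField A) := IsScalarTower.of_algebraMap_eq fun x => rfl
  rw [phik, Nat.card_congr (fixedFibreEquiv (A.subtype.comp e) g),
    Nat.card_congr (fixedFibreEquiv ((IsLocalRing.residue A).comp e) g)]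
  refine Specialize.card_fixed_eq A b hd (MulSemiringAction.toRingHom G C g⁻¹) fun x => ?_
  refine ⟨g⁻¹ • x, hcompat g⁻¹ x, ?_⟩
  have h := (smul_eq_iff g (Pt.mk (A.subtype.comp e) : Pt B Ω)).mp hg x
  exact Subtype.ext h

omit [IsAlgClosed (IsLocalRing.ResidueField A)] in
/-- the number of `Ω`-points of `C` over an `A`-valued point of `B` at which the discriminant is
a unit is the rank -/
theorem card_fibre (e : B →+* A) (hd : IsUnit (e (Algebra.discr B b))) :
    Nat.card {φ : Pt C Ω // res B φ = Pt.mk (A.subtype.comp e)} = Fintype.card ι := by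
  let algA : Algebra B A := e.toAlgebra
  let algΩ : Algebra B Ω := (A.subtype.comp e).toAlgebra
  have : IsScalarTower B A Ω := IsScalarTower.of_algebraMap_eq fun x => rfl
  rw [Nat.card_congr (fibreEquiv (A.subtype.comp e))]
  exact Specialize.card_points A b hd

include b in
omit [DecidableEq ι] [IsAlgClosed Ω] in
/-- the fibre over such a point is finite -/
theorem finite_fibre (m : B →+* Ω) : Finite {φ : Pt C Ω // res B φ = Pt.mk m} := by
  let algΩ : Algebra B Ω := m.toAlgebra
  have : Module.Finite Ω (TensorProduct B Ω C) :=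
    Module.Finite.of_basis (Algebra.TensorProduct.basis Ω b)
  have : Finite (C →ₐ[B] Ω) := Finite.of_equiv _ (Specialize.pointEquiv Ω).symm
  exact Finite.of_equiv _ (fibreEquiv m).symm

include b in
omit [DecidableEq ι] [IsAlgClosed Ω] in
/-- the points over a finite set of points of `B` form a finite set -/
theorem finite_ptsOver
    (hcompat : ∀ (g : G) (x : B), g • algebraMap B C x = algebraMap B C (g • x))
    (M : SubMulAction G (Pt B Ω)) [Finite M] : Finite (ptsOver hcompat M) := by
  have hfib : ∀ m : M, Finite {φ : ptsOver hcompat M // proj hcompat M φ = m} := by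
    intro m
    have := finite_fibre b (m.1 : B →+* Ω)
    refine Finite.of_injective
      (fun φ : {φ : ptsOver hcompat M // proj hcompat M φ = m} =>
        (⟨φ.1.1, congrArg Subtype.val φ.2⟩ : {φ : Pt C Ω // res B φ = Pt.mk (m.1 : B →+* Ω)})) ?_
    intro φ ψ h
    apply Subtype.ext
    apply Subtype.ext
    exact congrArg (fun x : {φ : Pt C Ω // res B φ = Pt.mk (m.1 : B →+* Ω)} => x.1) h
  exact Finite.of_equiv _ (Equiv.sigmaFiberEquiv (proj hcompat M))

/-- the hypothesis on a set `M` of points of `B`: all its members are `A`-valued, reduce to the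
closed point `ē` and the discriminant is a unit at them -/
def IsGoodSet (M : SubMulAction G (Pt B Ω)) (ebar : B →+* IsLocalRing.ResidueField A) : Prop :=
  ∀ m ∈ M, ∃ e : B →+* A, m = Pt.mk (A.subtype.comp e) ∧
    (IsLocalRing.residue A).comp e = ebar ∧ IsUnit (e (Algebra.discr B b))

/-- fibrewise fixed-point count over a good set, in the form consumed by `OrbitCount` -/
theorem card_fixed_proj
    (hcompat : ∀ (g : G) (x : B), g • algebraMap B C x = algebraMap B C (g • x))
    (M : SubMulAction G (Pt B Ω)) (ebar : B →+* IsLocalRing.ResidueField A)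
    (hM : IsGoodSet A b M ebar) (g : G) (m : M) (hgm : g • m = m) :
    Nat.card {x : ptsOver hcompat M // proj hcompat M x = m ∧ g • x = x} =
      phik (C := C) A ebar g := by
  obtain ⟨e, hme, he, hd⟩ := hM m.1 m.2
  have hg' : g • (Pt.mk (A.subtype.comp e) : Pt B Ω) = Pt.mk (A.subtype.comp e) := by
    rw [← hme]
    exact congrArg Subtype.val hgm
  rw [← he, ← card_fixed_fibre A b hcompat e hd g hg']
  refine Nat.card_congr
    { toFun := fun φ => ⟨φ.1.1, by
        rw [← hme]
        exact ⟨congrArg Subtype.val φ.2.1, congrArg Subtype.val φ.2.2⟩⟩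
      invFun := fun φ => ⟨⟨φ.1, by
          rw [mem_ptsOver, φ.2.1, ← hme]
          exact m.2⟩, by
        refine ⟨Subtype.ext ?_, Subtype.ext φ.2.2⟩
        show res B φ.1 = m.1
        rw [φ.2.1, hme]⟩
      left_inv := fun _ => rfl
      right_inv := fun _ => rfl }

/-- **The generic-fibre orbit count.**  `M` a finite `G`-stable set of `A`-valued points of `B`,
all reducing to the same closed point `ē`, with unit discriminant at each of them:

  `#(points of C over M / G) * #G = ∑ g, #Fix_g(M) * φk g`. -/
theorem card_orbits_mul [Fintype G]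
    (hcompat : ∀ (g : G) (x : B), g • algebraMap B C x = algebraMap B C (g • x))
    (M : SubMulAction G (Pt B Ω)) [Finite M] (ebar : B →+* IsLocalRing.ResidueField A)
    (hM : IsGoodSet A b M ebar) :
    Nat.card (Quotient (orbitRel G (ptsOver hcompat M))) * Nat.card G =
      ∑ g : G, Nat.card (fixedBy M g) * phik (C := C) A ebar g := by
  have := finite_ptsOver b hcompat M
  exact OrbitCount.card_orbits_mul (proj hcompat M) (proj_smul hcompat M) _
    (card_fixed_proj A b hcompat M ebar hM)

omit [IsAlgClosed Ω] [MulSemiringAction G B] in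
/-- `φk 1` is the rank -/
theorem phik_one (e : B →+* A) (hd : IsUnit (e (Algebra.discr B b))) :
    phik (G := G) (C := C) A ((IsLocalRing.residue A).comp e) 1 = Fintype.card ι := by
  let algA : Algebra B A := e.toAlgebra
  let algk : Algebra B (IsLocalRing.ResidueField A) := ((IsLocalRing.residue A).comp e).toAlgebra
  have : IsScalarTower B A (IsLocalRing.ResidueField A) :=
    IsScalarTower.of_algebraMap_eq fun x => rfl
  rw [phik, ← Specialize.card_points_residue A b hd,
    ← Nat.card_congr (fibreEquiv (C := C) ((IsLocalRing.residue A).comp e))]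
  exact Nat.card_congr
    { toFun := fun ψ => ⟨ψ.1, ψ.2.1⟩
      invFun := fun ψ => ⟨ψ.1, ψ.2, one_smul _ _⟩
      left_inv := fun _ => rfl
      right_inv := fun _ => rfl }

/-- **Formula (4) of the block C design**, ring-hom form: two finite good sets `M₀` (the `μ̃` over
`j = 0`) and `M₁` (over `j = 1728`), `#Fix_g(M₀) + #Fix_g(M₁) = i₀ g` for `g ≠ 1`:

  `(#(pts over M₀ / G) + #(pts over M₁ / G)) * #G = (#M₀ + #M₁) * n + ∑_{g ≠ 1} i₀ g * φk g`. -/
theorem card_orbits_add_mul [Fintype G] [DecidableEq G]
    (hcompat : ∀ (g : G) (x : B), g • algebraMap B C x = algebraMap B C (g • x))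
    (M₀ M₁ : SubMulAction G (Pt B Ω)) [Finite M₀] [Finite M₁]
    (ebar : B →+* IsLocalRing.ResidueField A)
    (hM₀ : IsGoodSet A b M₀ ebar) (hM₁ : IsGoodSet A b M₁ ebar) (i₀ : G → ℕ)
    (hi : ∀ g : G, g ≠ 1 → Nat.card (fixedBy M₀ g) + Nat.card (fixedBy M₁ g) = i₀ g) :
    (Nat.card (Quotient (orbitRel G (ptsOver hcompat M₀))) +
        Nat.card (Quotient (orbitRel G (ptsOver hcompat M₁)))) * Nat.card G =
      (Nat.card M₀ + Nat.card M₁) * phik (C := C) A ebar (1 : G) +
        ∑ g ∈ Finset.univ.erase (1 : G), i₀ g * phik (C := C) A ebar g := by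
  have := finite_ptsOver b hcompat M₀
  have := finite_ptsOver b hcompat M₁
  exact OrbitCount.card_orbits_add_mul (proj hcompat M₀) (proj hcompat M₁) (proj_smul hcompat M₀)
    (proj_smul hcompat M₁) _ i₀ (card_fixed_proj A b hcompat M₀ ebar hM₀)
    (card_fixed_proj A b hcompat M₁ ebar hM₁) hi

/-- **Contract K3 from the two counts**: with the special-fibre identity
`#G * D + ∑_{g ≠ 1} i₀ g * φk g = d₀ * n` (H-C8) and `#M₀ + #M₁ + d₀ = 2 * #G`:
`D + #(pts over M₀ / G) + #(pts over M₁ / G) = 2 n`. -/
theorem k3_of_counts [Fintype G] [DecidableEq G]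
    (hcompat : ∀ (g : G) (x : B), g • algebraMap B C x = algebraMap B C (g • x))
    (M₀ M₁ : SubMulAction G (Pt B Ω)) [Finite M₀] [Finite M₁]
    (ebar : B →+* IsLocalRing.ResidueField A)
    (hM₀ : IsGoodSet A b M₀ ebar) (hM₁ : IsGoodSet A b M₁ ebar) (i₀ : G → ℕ)
    (hi : ∀ g : G, g ≠ 1 → Nat.card (fixedBy M₀ g) + Nat.card (fixedBy M₁ g) = i₀ g)
    (D d₀ : ℕ)
    (hD : Nat.card G * D + ∑ g ∈ Finset.univ.erase (1 : G), i₀ g * phik (C := C) A ebar g =
      d₀ * phik (C := C) A ebar (1 : G))
    (hd₀ : Nat.card M₀ + Nat.card M₁ + d₀ = 2 * Nat.card G) :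
    D + Nat.card (Quotient (orbitRel G (ptsOver hcompat M₀))) +
        Nat.card (Quotient (orbitRel G (ptsOver hcompat M₁))) =
      2 * phik (C := C) A ebar (1 : G) := by
  have := finite_ptsOver b hcompat M₀
  have := finite_ptsOver b hcompat M₁
  exact OrbitCount.k3_of_counts (proj hcompat M₀) (proj hcompat M₁) (proj_smul hcompat M₀)
    (proj_smul hcompat M₁) _ i₀ (card_fixed_proj A b hcompat M₀ ebar hM₀)
    (card_fixed_proj A b hcompat M₁ ebar hM₁) hi D d₀ hD hd₀

omit [IsAlgClosed (IsLocalRing.ResidueField A)] in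
/-- the number of points of `C` over `M` is `#M * rank` -/
theorem card_ptsOver
    (hcompat : ∀ (g : G) (x : B), g • algebraMap B C x = algebraMap B C (g • x))
    (M : SubMulAction G (Pt B Ω)) [Finite M]
    (hM : ∀ m ∈ M, ∃ e : B →+* A, m = Pt.mk (A.subtype.comp e) ∧
      IsUnit (e (Algebra.discr B b))) :
    Nat.card (ptsOver hcompat M) = Nat.card M * Fintype.card ι := by
  have := finite_ptsOver b hcompat M
  have h := OrbitCount.card_fixedBy_eq_mul (G := G) (proj hcompat M) (proj_smul hcompat M) 1
    (Fintype.card ι) fun m _ => ?_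
  · rwa [OrbitCount.card_fixedBy_one, OrbitCount.card_fixedBy_one] at h
  obtain ⟨e, hme, hd⟩ := hM m.1 m.2
  rw [← card_fibre A b e hd]
  refine Nat.card_congr
    { toFun := fun φ => ⟨φ.1.1, by
        rw [← hme]
        exact congrArg Subtype.val φ.2.1⟩
      invFun := fun φ => ⟨⟨φ.1, by
          rw [mem_ptsOver, φ.2, ← hme]
          exact m.2⟩, by
        refine ⟨Subtype.ext ?_, one_smul _ _⟩
        show res B φ.1 = m.1
        rw [φ.2, hme]⟩
      left_inv := fun φ => rfl
      right_inv := fun φ => rfl }

end Main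

end Fermat.Agent.S18.C.GenericCount
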