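import Mathlib
import Fermat.Agent.S18.C.GenericCount

/-!
# PROJECT H (S18), block C, slice H-C8e = (B3)/(P-d) of the #K-SIDE plan: the points of the
special fibre are the maximal ideals of `C_k`, equivariantly

ABSTRACT FORM (no `Cover`, no modular objects; the consumer instantiates).

Part 2 (`MaxSpec`, `Equivariant`): `D` a local ring, `C` an integral `D`-algebra, `k` an
algebraically closed field, `ε : D →+* k` surjective (so `k = D/𝔪_D`).
* `ker_isMaximal`, `ker_eq_maximalIdeal`, `comap_eq_maximalIdeal`;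
* `resHom ε hε m : k →+* C ⧸ m`, `resHom_apply`, `resHom_bijective` (`C/m = k`);
* `pointOf ε hε m : C →+* k`, `pointOf_algebraMap`, `ker_pointOf`;
* `exists_sub_mem` (trivial residue extension: every `c` is congruent to some `d ∈ D` mod `m`),
  `eq_of_ker_eq`;
* **`pointEquivMaxSpec ε hε : {Ψ : C →+* k // Ψ.comp (algebraMap D C) = ε} ≃ MaximalSpectrum C`**
  (`Ψ ↦ ker Ψ`), `pointEquivMaxSpec_apply`, `ker_pointEquivMaxSpec_symm`;
* `smul_mk_eq`, **`smul_eq_iff_ker`** : for a group `Γ` acting on `D` and `C` compatibly with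
  `ε (γ • d) = ε d`: `γ • Ψ = Ψ ↔ ∀ c ∈ ker Ψ, γ • c ∈ ker Ψ` (`Pt` action of `GenericCount`);
* `ptEquiv`, `fixedPointEquiv`, **`card_fixed_eq_card_maxSpec`** :
  `#{Ψ : Pt C k // res D Ψ = Pt.mk ε ∧ γ • Ψ = Ψ} = #{x : MaximalSpectrum C // ∀ c ∈ x, γ • c ∈ x}`
  (the stability condition is the one of `Different.Action.stabilizes_iff`);
* `map_smul_eq_of_const` : the hypothesis `ε (γ • d) = ε d` from a coefficient field fixed by `Γ`.

Part 1 (`Transfer`): `red : B_A →+* D₀`, `sp : C_A →+* C_k` over it, mapping a `B_A`-basis `b`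
of `C_A` to a `D₀`-basis `b'` of `C_k` (i.e. `C_k = D₀ ⊗[B_A] C_A`), `g` acting on `C_A`,
`γ` on `C_k`, `sp (g • x) = γ • sp x`.
* `compSp`, `res_compSp`, `sp_inv_smul`, `compSp_smul`, `eq_of_compSp_eq`,
  `mem_span_range_of_basis`, **`exists_extension`**, `transferFun`, `transferFun_bijective`,
  **`card_fixed_transfer`** :
  `#{ψ : Pt C_A k // res B_A ψ = Pt.mk (ε.comp red) ∧ g • ψ = ψ}
     = #{Ψ : Pt C_k k // res D₀ Ψ = Pt.mk ε ∧ γ • Ψ = Ψ}`.

Part 3: **`card_fixed_eq_card_stable`**, **`phik_eq_card_stable`** :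
  `GenericCount.phik A (ε.comp red) g = #{x : MaximalSpectrum C_k // ∀ c ∈ x, γ • c ∈ x}`.
-/

set_option autoImplicit false
set_option linter.unusedSectionVars false
set_option linter.style.haveILetI false

namespace Fermat.Agent.S18.C.SpecialPoints

open TensorProduct Fermat.Agent.S18.C.GenericCount

/-! ### Part 2: points of an integral algebra over a local ring with algebraically closed residue
field are its maximal ideals -/

section MaxSpec

variable {D C k : Type*} [CommRing D] [IsLocalRing D] [CommRing C] [Algebra D C]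
  [Algebra.IsIntegral D C] [Field k] [IsAlgClosed k]

/-- the kernel of a point is a maximal ideal -/
theorem ker_isMaximal (ε : D →+* k) (hε : Function.Surjective ε) (Ψ : C →+* k)
    (hΨ : Ψ.comp (algebraMap D C) = ε) : (RingHom.ker Ψ).IsMaximal := by
  refine RingHom.ker_isMaximal_of_surjective Ψ fun y => ?_
  obtain ⟨d, rfl⟩ := hε y
  exact ⟨algebraMap D C d, by rw [← hΨ]; rfl⟩

theorem ker_eq_maximalIdeal (ε : D →+* k) (hε : Function.Surjective ε) :
    RingHom.ker ε = IsLocalRing.maximalIdeal D :=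
  IsLocalRing.eq_maximalIdeal (RingHom.ker_isMaximal_of_surjective ε hε)

theorem comap_eq_maximalIdeal (m : Ideal C) [m.IsMaximal] :
    m.comap (algebraMap D C) = IsLocalRing.maximalIdeal D :=
  IsLocalRing.eq_maximalIdeal (Ideal.isMaximal_comap_of_isIntegral_of_isMaximal m)

/-- the map `k = D / 𝔪_D → C / m` -/
noncomputable def resHom (ε : D →+* k) (hε : Function.Surjective ε) (m : Ideal C) [m.IsMaximal] :
    k →+* C ⧸ m :=
  RingHom.liftOfSurjective ε hε
    ⟨(Ideal.Quotient.mk m).comp (algebraMap D C), fun d hd => by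
      have : d ∈ m.comap (algebraMap D C) := by
        rw [comap_eq_maximalIdeal, ← ker_eq_maximalIdeal ε hε]
        exact hd
      exact Ideal.Quotient.eq_zero_iff_mem.mpr this⟩

theorem resHom_apply (ε : D →+* k) (hε : Function.Surjective ε) (m : Ideal C) [m.IsMaximal]
    (d : D) : resHom ε hε m (ε d) = Ideal.Quotient.mk m (algebraMap D C d) :=
  RingHom.liftOfRightInverse_comp_apply ε _ (Function.rightInverse_surjInv hε) ⟨_, _⟩ d

theorem resHom_bijective (ε : D →+* k) (hε : Function.Surjective ε) (m : Ideal C)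
    [hm : m.IsMaximal] : Function.Bijective (resHom ε hε m) := by
  letI : Field (C ⧸ m) := Ideal.Quotient.field m
  letI : Algebra k (C ⧸ m) := (resHom ε hε m).toAlgebra
  have hint : Algebra.IsIntegral k (C ⧸ m) := by
    refine ⟨fun y => ?_⟩
    obtain ⟨c, rfl⟩ := Ideal.Quotient.mk_surjective y
    obtain ⟨p, hp, hpc⟩ := Algebra.IsIntegral.isIntegral (R := D) c
    refine ⟨p.map ε, hp.map ε, ?_⟩
    rw [Polynomial.eval₂_map]
    have h1 : (algebraMap k (C ⧸ m)).comp ε = (Ideal.Quotient.mk m).comp (algebraMap D C) := by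
      ext d
      exact resHom_apply ε hε m d
    rw [h1, ← Polynomial.hom_eval₂, hpc, map_zero]
  exact IsAlgClosed.algebraMap_bijective_of_isIntegral (k := k) (K := C ⧸ m)

/-- the point of `C` attached to a maximal ideal -/
noncomputable def pointOf (ε : D →+* k) (hε : Function.Surjective ε) (m : Ideal C)
    [m.IsMaximal] : C →+* k :=
  ((RingEquiv.ofBijective (resHom ε hε m) (resHom_bijective ε hε m)).symm : C ⧸ m →+* k).comp
    (Ideal.Quotient.mk m)

theorem pointOf_algebraMap (ε : D →+* k) (hε : Function.Surjective ε) (m : Ideal C)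
    [m.IsMaximal] (d : D) : pointOf ε hε m (algebraMap D C d) = ε d := by
  rw [pointOf, RingHom.comp_apply, ← resHom_apply ε hε m d]
  exact (RingEquiv.ofBijective (resHom ε hε m) (resHom_bijective ε hε m)).symm_apply_apply _

theorem ker_pointOf (ε : D →+* k) (hε : Function.Surjective ε) (m : Ideal C) [m.IsMaximal] :
    RingHom.ker (pointOf ε hε m) = m := by
  ext c
  rw [RingHom.mem_ker, pointOf, RingHom.comp_apply]
  rw [RingEquiv.coe_toRingHom, map_eq_zero_iff _
    (RingEquiv.ofBijective (resHom ε hε m) (resHom_bijective ε hε m)).symm.injective]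
  exact Ideal.Quotient.eq_zero_iff_mem

/-- every element of `C` is congruent to an element of `D` modulo a maximal ideal -/
theorem exists_sub_mem (ε : D →+* k) (hε : Function.Surjective ε) (m : Ideal C)
    [hm : m.IsMaximal] (c : C) : ∃ d : D, c - algebraMap D C d ∈ m := by
  obtain ⟨y, hy⟩ := (resHom_bijective ε hε m).2 (Ideal.Quotient.mk m c)
  obtain ⟨d, rfl⟩ := hε y
  refine ⟨d, ?_⟩
  rw [← Ideal.Quotient.eq, ← hy]
  exact resHom_apply ε hε m d

/-- a point is determined by its kernel -/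
theorem eq_of_ker_eq (ε : D →+* k) (hε : Function.Surjective ε) (Ψ Ψ' : C →+* k)
    (hΨ : Ψ.comp (algebraMap D C) = ε) (hΨ' : Ψ'.comp (algebraMap D C) = ε)
    (h : RingHom.ker Ψ = RingHom.ker Ψ') : Ψ = Ψ' := by
  haveI := ker_isMaximal ε hε Ψ hΨ
  ext c
  obtain ⟨d, hd⟩ := exists_sub_mem ε hε (RingHom.ker Ψ) c
  have h1 : Ψ (c - algebraMap D C d) = 0 := hd
  have h2 : Ψ' (c - algebraMap D C d) = 0 := by
    rw [h] at hd
    exact hd
  have e1 : Ψ (algebraMap D C d) = ε d := by rw [← hΨ]; rfl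
  have e2 : Ψ' (algebraMap D C d) = ε d := by rw [← hΨ']; rfl
  rw [map_sub, sub_eq_zero] at h1 h2
  rw [h1, h2, e1, e2]

/-- the point attached to a maximal ideal, as an element of the subtype -/
noncomputable def pointOfMax (ε : D →+* k) (hε : Function.Surjective ε) (x : MaximalSpectrum C) :
    {Ψ : C →+* k // Ψ.comp (algebraMap D C) = ε} :=
  haveI := x.isMaximal
  ⟨pointOf ε hε x.asIdeal, by
    ext d
    exact pointOf_algebraMap ε hε x.asIdeal d⟩

theorem ker_pointOfMax (ε : D →+* k) (hε : Function.Surjective ε) (x : MaximalSpectrum C) :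
    RingHom.ker (pointOfMax ε hε x).1 = x.asIdeal := by
  haveI := x.isMaximal
  exact ker_pointOf ε hε x.asIdeal

/-- **points = maximal ideals** -/
noncomputable def pointEquivMaxSpec (ε : D →+* k) (hε : Function.Surjective ε) :
    {Ψ : C →+* k // Ψ.comp (algebraMap D C) = ε} ≃ MaximalSpectrum C where
  toFun Ψ := ⟨RingHom.ker Ψ.1, ker_isMaximal ε hε Ψ.1 Ψ.2⟩
  invFun x := pointOfMax ε hε x
  left_inv Ψ := by
    apply Subtype.ext
    exact eq_of_ker_eq ε hε _ _ (pointOfMax ε hε _).2 Ψ.2 (ker_pointOfMax ε hε _)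
  right_inv x := by
    apply MaximalSpectrum.ext
    exact ker_pointOfMax ε hε x

theorem pointEquivMaxSpec_apply (ε : D →+* k) (hε : Function.Surjective ε)
    (Ψ : {Ψ : C →+* k // Ψ.comp (algebraMap D C) = ε}) :
    (pointEquivMaxSpec ε hε Ψ).asIdeal = RingHom.ker Ψ.1 := rfl

theorem ker_pointEquivMaxSpec_symm (ε : D →+* k) (hε : Function.Surjective ε)
    (x : MaximalSpectrum C) :
    RingHom.ker ((pointEquivMaxSpec ε hε).symm x).1 = x.asIdeal :=
  ker_pointOfMax ε hε x

end MaxSpec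

/-! ### Part 2b: the action of a group on the points over the closed point -/

section SmulMk

variable {Γ D k : Type*} [Group Γ] [CommRing D] [CommRing k] [MulSemiringAction Γ D]

/-- the closed point of `D` is fixed by a group acting on `D` through maps which fix `ε` -/
theorem smul_mk_eq (ε : D →+* k) (hinv : ∀ (γ : Γ) (d : D), ε (γ • d) = ε d) (γ : Γ) :
    γ • (Pt.mk ε : Pt D k) = Pt.mk ε :=
  (smul_eq_iff γ _).mpr fun d => hinv γ⁻¹ d

end SmulMk

section Equivariant

variable {Γ D C k : Type*} [Group Γ] [CommRing D] [IsLocalRing D] [CommRing C] [Algebra D C]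
  [Algebra.IsIntegral D C] [Field k] [IsAlgClosed k] [MulSemiringAction Γ D]
  [MulSemiringAction Γ C]

/-- **a point over the closed point is fixed by `γ` iff `γ` maps its kernel into itself** -/
theorem smul_eq_iff_ker (ε : D →+* k) (hε : Function.Surjective ε)
    (hcompat : ∀ (γ : Γ) (d : D), γ • algebraMap D C d = algebraMap D C (γ • d))
    (hinv : ∀ (γ : Γ) (d : D), ε (γ • d) = ε d) (γ : Γ) (Ψ : Pt C k)
    (hΨ : res D Ψ = Pt.mk ε) :
    γ • Ψ = Ψ ↔ ∀ c ∈ RingHom.ker Ψ.hom, γ • c ∈ RingHom.ker Ψ.hom := by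
  constructor
  · intro h c hc
    have h1 := (smul_eq_iff γ Ψ).mp h (γ • c)
    rw [inv_smul_smul] at h1
    rw [RingHom.mem_ker] at hc ⊢
    rw [← h1, hc]
  · intro h
    have hΨ' : res D (γ • Ψ) = Pt.mk ε := by
      rw [res_smul hcompat, hΨ, smul_mk_eq ε hinv]
    have hΨc : Ψ.hom.comp (algebraMap D C) = ε := hΨ
    have hΨc' : (γ • Ψ).hom.comp (algebraMap D C) = ε := hΨ'
    have hmax := ker_isMaximal ε hε Ψ.hom hΨc
    have hmax' := ker_isMaximal ε hε (γ • Ψ).hom hΨc'
    have hle : RingHom.ker (γ • Ψ).hom ≤ RingHom.ker Ψ.hom := by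
      intro c hc
      rw [RingHom.mem_ker, smul_hom_apply] at hc
      have := h (γ⁻¹ • c) hc
      rwa [smul_inv_smul] at this
    have hker : RingHom.ker (γ • Ψ).hom = RingHom.ker Ψ.hom :=
      hmax'.eq_of_le hmax.ne_top hle
    exact eq_of_ker_eq ε hε (γ • Ψ).hom Ψ.hom hΨc' hΨc hker

/-- points over the closed point as a subtype of ring homomorphisms -/
def ptEquiv (ε : D →+* k) :
    {Ψ : Pt C k // res D Ψ = Pt.mk ε} ≃ {Ψ : C →+* k // Ψ.comp (algebraMap D C) = ε} where
  toFun Ψ := ⟨Ψ.1.hom, Ψ.2⟩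
  invFun Ψ := ⟨Pt.mk Ψ.1, Ψ.2⟩
  left_inv _ := rfl
  right_inv _ := rfl

/-- **the `γ`-fixed points of `C` over the closed point of `D` are the maximal ideals of `C` mapped
into themselves by `γ`** -/
noncomputable def fixedPointEquiv (ε : D →+* k) (hε : Function.Surjective ε)
    (hcompat : ∀ (γ : Γ) (d : D), γ • algebraMap D C d = algebraMap D C (γ • d))
    (hinv : ∀ (γ : Γ) (d : D), ε (γ • d) = ε d) (γ : Γ) :
    {Ψ : Pt C k // res D Ψ = Pt.mk ε ∧ γ • Ψ = Ψ} ≃
      {x : MaximalSpectrum C // ∀ c ∈ x.asIdeal, γ • c ∈ x.asIdeal} where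
  toFun Ψ := ⟨pointEquivMaxSpec ε hε (ptEquiv ε ⟨Ψ.1, Ψ.2.1⟩),
    (smul_eq_iff_ker ε hε hcompat hinv γ Ψ.1 Ψ.2.1).mp Ψ.2.2⟩
  invFun x := ⟨((ptEquiv ε).symm ((pointEquivMaxSpec ε hε).symm x.1)).1,
    ((ptEquiv ε).symm ((pointEquivMaxSpec ε hε).symm x.1)).2, by
      rw [smul_eq_iff_ker ε hε hcompat hinv γ _
        ((ptEquiv ε).symm ((pointEquivMaxSpec ε hε).symm x.1)).2]
      have hk : RingHom.ker ((ptEquiv (C := C) ε).symm ((pointEquivMaxSpec ε hε).symm x.1)).1.hom =
          x.1.asIdeal := ker_pointEquivMaxSpec_symm ε hε x.1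
      rw [hk]
      exact x.2⟩
  left_inv Ψ := by
    apply Subtype.ext
    have := (pointEquivMaxSpec ε hε).symm_apply_apply (ptEquiv ε ⟨Ψ.1, Ψ.2.1⟩)
    show ((ptEquiv ε).symm ((pointEquivMaxSpec ε hε).symm
      (pointEquivMaxSpec ε hε (ptEquiv ε ⟨Ψ.1, Ψ.2.1⟩)))).1 = Ψ.1
    rw [this, Equiv.symm_apply_apply]
  right_inv x := by
    apply Subtype.ext
    show pointEquivMaxSpec ε hε (ptEquiv ε ((ptEquiv ε).symm
      ((pointEquivMaxSpec ε hε).symm x.1))) = x.1
    rw [Equiv.apply_symm_apply, Equiv.apply_symm_apply]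

/-- **the count of `γ`-fixed points over the closed point** -/
theorem card_fixed_eq_card_maxSpec (ε : D →+* k) (hε : Function.Surjective ε)
    (hcompat : ∀ (γ : Γ) (d : D), γ • algebraMap D C d = algebraMap D C (γ • d))
    (hinv : ∀ (γ : Γ) (d : D), ε (γ • d) = ε d) (γ : Γ) :
    Nat.card {Ψ : Pt C k // res D Ψ = Pt.mk ε ∧ γ • Ψ = Ψ} =
      Nat.card {x : MaximalSpectrum C // ∀ c ∈ x.asIdeal, γ • c ∈ x.asIdeal} :=
  Nat.card_congr (fixedPointEquiv ε hε hcompat hinv γ)

end Equivariant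

section Const

variable {Γ D k : Type*} [Group Γ] [CommRing D] [IsLocalRing D] [Field k] [MulSemiringAction Γ D]

/-- a group of automorphisms of a local ring `D` fixing a coefficient field `const : k → D`
pointwise commutes with the residue map `ε : D → k` (a retraction of `const`) -/
theorem map_smul_eq_of_const (ε : D →+* k) (const : k →+* D) (hεc : ∀ a, ε (const a) = a)
    (hγc : ∀ (γ : Γ) (a : k), γ • const a = const a) (γ : Γ) (d : D) : ε (γ • d) = ε d := by
  have hε : Function.Surjective ε := fun a => ⟨const a, hεc a⟩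
  have hker : RingHom.ker ε = IsLocalRing.maximalIdeal D :=
    IsLocalRing.eq_maximalIdeal (RingHom.ker_isMaximal_of_surjective ε hε)
  have h1 : d - const (ε d) ∈ IsLocalRing.maximalIdeal D := by
    rw [← hker, RingHom.mem_ker, map_sub, hεc, sub_self]
  have h2 : γ • (d - const (ε d)) ∈ IsLocalRing.maximalIdeal D := by
    rw [IsLocalRing.mem_maximalIdeal, mem_nonunits_iff] at h1 ⊢
    intro hu
    apply h1
    have := hu.map (MulSemiringAction.toRingHom Γ D γ⁻¹)
    rwa [MulSemiringAction.toRingHom_apply, inv_smul_smul] at this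
  rw [← hker, RingHom.mem_ker, smul_sub, hγc, map_sub, hεc, sub_eq_zero] at h2
  exact h2

end Const

/-! ### Part 1: transfer of the points along the specialisation map `sp : C_A → C_k` -/

section Transfer

variable {BA CA D0 Ck k : Type*} [CommRing BA] [CommRing CA] [CommRing D0] [CommRing Ck]
  [CommRing k] [Algebra BA CA] [Algebra D0 Ck]

/-- composition with `sp` -/
def compSp (sp : CA →+* Ck) (Ψ : Pt Ck k) : Pt CA k := Pt.mk (Ψ.hom.comp sp)

theorem compSp_hom_apply (sp : CA →+* Ck) (Ψ : Pt Ck k) (x : CA) :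
    (compSp sp Ψ).hom x = Ψ.hom (sp x) := rfl

theorem res_compSp (red : BA →+* D0) (sp : CA →+* Ck)
    (hsp : ∀ x : BA, sp (algebraMap BA CA x) = algebraMap D0 Ck (red x)) (Ψ : Pt Ck k) :
    res BA (compSp sp Ψ) = Pt.mk ((res D0 Ψ).hom.comp red) := by
  apply Pt.ext
  intro x
  show Ψ.hom (sp (algebraMap BA CA x)) = Ψ.hom (algebraMap D0 Ck (red x))
  rw [hsp]

section Smul

variable {G Gk : Type*} [Group G] [Group Gk] [MulSemiringAction G CA] [MulSemiringAction Gk Ck]

theorem sp_inv_smul (sp : CA →+* Ck) (g : G) (γ : Gk) (hg : ∀ x, sp (g • x) = γ • sp x) (x : CA) :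
    sp (g⁻¹ • x) = γ⁻¹ • sp x := by
  have := hg (g⁻¹ • x)
  rw [smul_inv_smul] at this
  rw [this, inv_smul_smul]

theorem compSp_smul (sp : CA →+* Ck) (g : G) (γ : Gk) (hg : ∀ x, sp (g • x) = γ • sp x)
    (Ψ : Pt Ck k) : compSp sp (γ • Ψ) = g • compSp sp Ψ := by
  apply Pt.ext
  intro x
  rw [compSp_hom_apply, smul_hom_apply, smul_hom_apply, compSp_hom_apply, sp_inv_smul sp g γ hg]

end Smul

/-- a point of `C_k` is determined by its restriction to `D₀` and its composition with `sp` when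
the image of `sp` spans `C_k` over `D₀` -/
theorem eq_of_compSp_eq (sp : CA →+* Ck)
    (hspan : ∀ y : Ck, y ∈ Submodule.span D0 (Set.range sp)) (Ψ Ψ' : Pt Ck k)
    (hres : res D0 Ψ = res D0 Ψ') (hcomp : compSp sp Ψ = compSp sp Ψ') : Ψ = Ψ' := by
  apply Pt.ext
  intro y
  refine Submodule.span_induction (p := fun y _ => Ψ.hom y = Ψ'.hom y) ?_ ?_ ?_ ?_ (hspan y)
  · rintro _ ⟨x, rfl⟩
    exact congrArg (fun φ : Pt CA k => φ.hom x) hcomp
  · rw [map_zero, map_zero]
  · intro y z _ _ hy hz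
    rw [map_add, map_add, hy, hz]
  · intro d y _ hy
    have hd : Ψ.hom (algebraMap D0 Ck d) = Ψ'.hom (algebraMap D0 Ck d) :=
      congrArg (fun φ : Pt D0 k => φ.hom d) hres
    rw [Algebra.smul_def, map_mul, map_mul, hy, hd]

section Extension

variable {ι : Type*} [Fintype ι] [DecidableEq ι]

/-- the image of a basis spans -/
theorem mem_span_range_of_basis (sp : CA →+* Ck) (b : Module.Basis ι BA CA)
    (b' : Module.Basis ι D0 Ck) (hb : ∀ i, b' i = sp (b i)) (y : Ck) :
    y ∈ Submodule.span D0 (Set.range sp) := by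
  have h : y ∈ Submodule.span D0 (Set.range b') := by
    rw [b'.span_eq]
    exact Submodule.mem_top
  refine Submodule.span_mono ?_ h
  rintro _ ⟨i, rfl⟩
  exact ⟨b i, (hb i).symm⟩

/-- **extension of points**: if `sp` maps a `B_A`-basis of `C_A` to a `D₀`-basis of `C_k`
(i.e. `C_k = D₀ ⊗[B_A] C_A`), every point of `C_A` over `ε ∘ red` extends to a point of `C_k`
over `ε`. -/
theorem exists_extension (red : BA →+* D0) (sp : CA →+* Ck)
    (hsp : ∀ x : BA, sp (algebraMap BA CA x) = algebraMap D0 Ck (red x))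
    (b : Module.Basis ι BA CA) (b' : Module.Basis ι D0 Ck) (hb : ∀ i, b' i = sp (b i))
    (ε : D0 →+* k) (ψ : Pt CA k) (hψ : res BA ψ = Pt.mk (ε.comp red)) :
    ∃ Ψ : Pt Ck k, res D0 Ψ = Pt.mk ε ∧ compSp sp Ψ = ψ := by
  letI algBD : Algebra BA D0 := red.toAlgebra
  letI algBC : Algebra BA Ck := ((algebraMap D0 Ck).comp red).toAlgebra
  haveI : IsScalarTower BA D0 Ck := IsScalarTower.of_algebraMap_eq fun x => rfl
  letI algDk : Algebra D0 k := ε.toAlgebra
  letI algBk : Algebra BA k := (ε.comp red).toAlgebra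
  haveI : IsScalarTower BA D0 k := IsScalarTower.of_algebraMap_eq fun x => rfl
  let spA : CA →ₐ[BA] Ck := { sp with commutes' := fun x => hsp x }
  let ψA : CA →ₐ[BA] k :=
    { ψ.hom with commutes' := fun x => congrArg (fun φ : Pt BA k => φ.hom x) hψ }
  let Φ : D0 ⊗[BA] CA →ₐ[D0] Ck :=
    Algebra.TensorProduct.lift (Algebra.ofId D0 Ck) spA (fun _ _ => Commute.all _ _)
  let Θ : D0 ⊗[BA] CA →ₐ[D0] k :=
    Algebra.TensorProduct.lift (Algebra.ofId D0 k) ψA (fun _ _ => Commute.all _ _)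
  have hΦ : Function.Bijective Φ := by
    set β : Module.Basis ι D0 (D0 ⊗[BA] CA) := Algebra.TensorProduct.basis D0 b with hβ
    have hβi : ∀ i, Φ (β i) = b' i := by
      intro i
      rw [hβ, Algebra.TensorProduct.basis_apply, Algebra.TensorProduct.lift_tmul, map_one,
        one_mul, hb]
      rfl
    have heq : Φ.toLinearMap = (β.equiv b' (Equiv.refl ι)).toLinearMap := by
      refine β.ext fun i => ?_
      rw [AlgHom.toLinearMap_apply, hβi, LinearEquiv.coe_coe, Module.Basis.equiv_apply,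
        Equiv.refl_apply]
    have hfun : ⇑Φ = ⇑(β.equiv b' (Equiv.refl ι)) := by
      ext x
      exact LinearMap.congr_fun heq x
    rw [hfun]
    exact (β.equiv b' (Equiv.refl ι)).bijective
  let Φe : D0 ⊗[BA] CA ≃ₐ[D0] Ck := AlgEquiv.ofBijective Φ hΦ
  have hsymm : ∀ x : CA, Φe.symm (sp x) = (1 : D0) ⊗ₜ[BA] x := by
    intro x
    rw [AlgEquiv.symm_apply_eq]
    show sp x = Φ ((1 : D0) ⊗ₜ[BA] x)
    rw [Algebra.TensorProduct.lift_tmul, map_one, one_mul]
    rfl
  refine ⟨Pt.mk ((Θ : D0 ⊗[BA] CA →+* k).comp (Φe.symm : Ck →+* D0 ⊗[BA] CA)), ?_, ?_⟩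
  · apply Pt.ext
    intro d
    show Θ (Φe.symm (algebraMap D0 Ck d)) = ε d
    rw [AlgEquiv.commutes, AlgHom.commutes]
    rfl
  · apply Pt.ext
    intro x
    show Θ (Φe.symm (sp x)) = ψ.hom x
    rw [hsymm, Algebra.TensorProduct.lift_tmul, map_one, one_mul]
    rfl

end Extension

section Main

variable {G Gk : Type*} [Group G] [Group Gk] [MulSemiringAction G CA] [MulSemiringAction Gk Ck]
  [MulSemiringAction Gk D0]
variable {ι : Type*} [Fintype ι] [DecidableEq ι]

/-- the map `Ψ ↦ Ψ ∘ sp` on fixed points over the closed point -/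
def transferFun (red : BA →+* D0) (sp : CA →+* Ck)
    (hsp : ∀ x : BA, sp (algebraMap BA CA x) = algebraMap D0 Ck (red x)) (ε : D0 →+* k)
    (g : G) (γ : Gk) (hg : ∀ x, sp (g • x) = γ • sp x)
    (Ψ : {Ψ : Pt Ck k // res D0 Ψ = Pt.mk ε ∧ γ • Ψ = Ψ}) :
    {ψ : Pt CA k // res BA ψ = Pt.mk (ε.comp red) ∧ g • ψ = ψ} :=
  ⟨compSp sp Ψ.1, by
    rw [res_compSp red sp hsp, Ψ.2.1]
    rfl, by
    rw [← compSp_smul sp g γ hg, Ψ.2.2]⟩

theorem transferFun_bijective (red : BA →+* D0) (sp : CA →+* Ck)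
    (hsp : ∀ x : BA, sp (algebraMap BA CA x) = algebraMap D0 Ck (red x))
    (b : Module.Basis ι BA CA) (b' : Module.Basis ι D0 Ck) (hb : ∀ i, b' i = sp (b i))
    (ε : D0 →+* k)
    (hcompat : ∀ (γ : Gk) (d : D0), γ • algebraMap D0 Ck d = algebraMap D0 Ck (γ • d))
    (hinv : ∀ (γ : Gk) (d : D0), ε (γ • d) = ε d)
    (g : G) (γ : Gk) (hg : ∀ x, sp (g • x) = γ • sp x) :
    Function.Bijective (transferFun red sp hsp ε g γ hg) := by
  have hspan := mem_span_range_of_basis sp b b' hb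
  constructor
  · intro Ψ Ψ' h
    apply Subtype.ext
    refine eq_of_compSp_eq sp hspan Ψ.1 Ψ'.1 (Ψ.2.1.trans Ψ'.2.1.symm) ?_
    exact congrArg Subtype.val h
  · intro ψ
    obtain ⟨Ψ, hΨres, hΨcomp⟩ := exists_extension red sp hsp b b' hb ε ψ.1 ψ.2.1
    have hfix : γ • Ψ = Ψ := by
      refine eq_of_compSp_eq sp hspan (γ • Ψ) Ψ ?_ ?_
      · rw [res_smul hcompat, hΨres, smul_mk_eq ε hinv]
      · rw [compSp_smul sp g γ hg, hΨcomp, ψ.2.2]
    exact ⟨⟨Ψ, hΨres, hfix⟩, Subtype.ext hΨcomp⟩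

/-- **the transfer**: the `g`-fixed points of `C_A` over `ε ∘ red` are as many as the `γ`-fixed
points of `C_k` over `ε`, when `sp ∘ g = γ ∘ sp`. -/
theorem card_fixed_transfer (red : BA →+* D0) (sp : CA →+* Ck)
    (hsp : ∀ x : BA, sp (algebraMap BA CA x) = algebraMap D0 Ck (red x))
    (b : Module.Basis ι BA CA) (b' : Module.Basis ι D0 Ck) (hb : ∀ i, b' i = sp (b i))
    (ε : D0 →+* k)
    (hcompat : ∀ (γ : Gk) (d : D0), γ • algebraMap D0 Ck d = algebraMap D0 Ck (γ • d))
    (hinv : ∀ (γ : Gk) (d : D0), ε (γ • d) = ε d)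
    (g : G) (γ : Gk) (hg : ∀ x, sp (g • x) = γ • sp x) :
    Nat.card {ψ : Pt CA k // res BA ψ = Pt.mk (ε.comp red) ∧ g • ψ = ψ} =
      Nat.card {Ψ : Pt Ck k // res D0 Ψ = Pt.mk ε ∧ γ • Ψ = Ψ} :=
  (Nat.card_congr (Equiv.ofBijective _
    (transferFun_bijective red sp hsp b b' hb ε hcompat hinv g γ hg))).symm

end Main

end Transfer

/-! ### Part 3: `φk g` = the number of maximal ideals of `C_k` stabilised by `γ` -/

section Final

variable {BA CA D0 Ck k : Type*} [CommRing BA] [CommRing CA] [CommRing D0] [IsLocalRing D0]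
  [CommRing Ck] [Field k] [IsAlgClosed k] [Algebra BA CA] [Algebra D0 Ck]
variable {G Gk : Type*} [Group G] [Group Gk] [MulSemiringAction G CA] [MulSemiringAction Gk Ck]
  [MulSemiringAction Gk D0]
variable {ι : Type*} [Fintype ι] [DecidableEq ι]

/-- **(B3) / (P-d)**: the number of `g`-fixed `k`-points of `C_A` over the closed point equals the
number of maximal ideals of `C_k` mapped into themselves by `γ`. -/
theorem card_fixed_eq_card_stable (red : BA →+* D0) (sp : CA →+* Ck)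
    (hsp : ∀ x : BA, sp (algebraMap BA CA x) = algebraMap D0 Ck (red x))
    (b : Module.Basis ι BA CA) (b' : Module.Basis ι D0 Ck) (hb : ∀ i, b' i = sp (b i))
    (ε : D0 →+* k) (hε : Function.Surjective ε)
    (hcompat : ∀ (γ : Gk) (d : D0), γ • algebraMap D0 Ck d = algebraMap D0 Ck (γ • d))
    (hinv : ∀ (γ : Gk) (d : D0), ε (γ • d) = ε d)
    (g : G) (γ : Gk) (hg : ∀ x, sp (g • x) = γ • sp x) :
    Nat.card {ψ : Pt CA k // res BA ψ = Pt.mk (ε.comp red) ∧ g • ψ = ψ} =
      Nat.card {x : MaximalSpectrum Ck // ∀ c ∈ x.asIdeal, γ • c ∈ x.asIdeal} := by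
  haveI : Module.Finite D0 Ck := Module.Finite.of_basis b'
  haveI : Algebra.IsIntegral D0 Ck := Algebra.IsIntegral.of_finite D0 Ck
  rw [card_fixed_transfer red sp hsp b b' hb ε hcompat hinv g γ hg]
  exact card_fixed_eq_card_maxSpec ε hε hcompat hinv γ

end Final

section Phik

variable {Ω : Type*} [Field Ω] (A : ValuationSubring Ω) [IsAlgClosed (IsLocalRing.ResidueField A)]
variable {BA CA D0 Ck : Type*} [CommRing BA] [CommRing CA] [CommRing D0] [IsLocalRing D0]
  [CommRing Ck] [Algebra BA CA] [Algebra D0 Ck]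
variable {G Gk : Type*} [Group G] [Group Gk] [MulSemiringAction G BA] [MulSemiringAction G CA]
  [MulSemiringAction Gk Ck] [MulSemiringAction Gk D0]
variable {ι : Type*} [Fintype ι] [DecidableEq ι]

/-- **(B3) in the `phik` form of `GenericCount`** -/
theorem phik_eq_card_stable (red : BA →+* D0) (sp : CA →+* Ck)
    (hsp : ∀ x : BA, sp (algebraMap BA CA x) = algebraMap D0 Ck (red x))
    (b : Module.Basis ι BA CA) (b' : Module.Basis ι D0 Ck) (hb : ∀ i, b' i = sp (b i))
    (ε : D0 →+* IsLocalRing.ResidueField A) (hε : Function.Surjective ε)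
    (hcompat : ∀ (γ : Gk) (d : D0), γ • algebraMap D0 Ck d = algebraMap D0 Ck (γ • d))
    (hinv : ∀ (γ : Gk) (d : D0), ε (γ • d) = ε d)
    (g : G) (γ : Gk) (hg : ∀ x, sp (g • x) = γ • sp x) :
    phik (C := CA) A (ε.comp red) g =
      Nat.card {x : MaximalSpectrum Ck // ∀ c ∈ x.asIdeal, γ • c ∈ x.asIdeal} :=
  card_fixed_eq_card_stable red sp hsp b b' hb ε hε hcompat hinv g γ hg

end Phik

end Fermat.Agent.S18.C.SpecialPoints
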