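import Mathlib
import Fermat.Agent.S18.C.SpecialPoints
import Fermat.Agent.S18.C.BRingTop
import Fermat.Agent.S18.C.GaussA2

/-!
# PROJECT H (S18), block C, slice H-C8g: the instantiation of `C/SpecialPoints` at the surface

`k = κ(A)`, `B_A = BRing c A`, `C_A = CInt c FL A`, `D₀ = BRing c ⊤ = k[μ]_(μ)`, `C_k = CInt c Fk ⊤`.

* `epsTop c k : BRing c ⊤ →+* k` : the closed point `μ ↦ 0` of `D₀` with values in `k`;
  `epsTop_constTop`, `epsTop_surjective`, `smul_constTop`, `epsTop_smul` (invariance under the
  Galois group of the cover);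
* **`phik_eq_card_stable`** : from `redBA : B_A →+* D₀` with
  `hred : epsTop (redBA x) = evClosedB c A x`, `spCk : C_A →+* C_k` over `redBA` mapping a basis to
  a basis, equivariant along `φ : c.Gal L →* c.Gal k`:
  `GenericCount.phik A (evClosedB c A) g
     = #{x : MaximalSpectrum (CInt c Fk ⊤) // ∀ y ∈ x.asIdeal, φ g • y ∈ x.asIdeal}`
  (the right hand side is literally the count of `SpecialCount.special_count`);
* `phik_one_eq_card_maxSpec` : `φk 1 = #MaximalSpectrum C_k`;
* `epsTop_redBA`, **`epsTop_redBA_residue`** : the hypothesis `hred` for `GaussA2.redBA`.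
-/

set_option autoImplicit false
set_option linter.unusedSectionVars false
set_option linter.style.haveILetI false

noncomputable section

namespace Fermat.Agent.S18.C.SpecialPointsInst

open Polynomial Fermat.Agent.S18.C.Defs Fermat.Agent.S18.C.SurfaceDefs
  Fermat.Agent.S18.C.BRingLocal Fermat.Agent.S18.C.BRingTop Fermat.Agent.S18.C.GenericCount

/-! ### the closed point of `D₀ = BRing c ⊤` with values in `k` -/

section ClosedPoint

variable (c : Cover) (k : Type*) [Field k]

/-- the closed point `μ ↦ 0` of `D₀ = k[μ]_(μ)`, with values in `k` -/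
def epsTop : BRing c (⊤ : ValuationSubring k) →+* k :=
  (⊤ : ValuationSubring k).subtype.comp (evZeroB c (⊤ : ValuationSubring k))

theorem epsTop_apply (b : BRing c (⊤ : ValuationSubring k)) :
    epsTop c k b = ((evZeroB c (⊤ : ValuationSubring k) b : (⊤ : ValuationSubring k)) : k) := rfl

@[simp] theorem epsTop_constTop (a : k) : epsTop c k (constTop c k a) = a :=
  evZeroB_constTop c k a

theorem epsTop_surjective : Function.Surjective (epsTop c k) := fun a =>
  ⟨constTop c k a, epsTop_constTop c k a⟩

variable [c.Good k] [IsInvariantSubring (c.Gal k) (BRing c (⊤ : ValuationSubring k))]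

/-- the Galois group of the cover fixes the constants of `D₀` -/
theorem smul_constTop (γ : c.Gal k) (a : k) : γ • constTop c k a = constTop c k a := by
  apply Subtype.ext
  rw [coe_smul_BRing, coe_constTop, IsScalarTower.algebraMap_apply k (RatFunc k) (MuLine c k)]
  exact γ.commutes _

/-- the closed point of `D₀` is invariant under the Galois group of the cover -/
theorem epsTop_smul (γ : c.Gal k) (d : BRing c (⊤ : ValuationSubring k)) :
    epsTop c k (γ • d) = epsTop c k d :=
  SpecialPoints.map_smul_eq_of_const (epsTop c k) (constTop c k) (epsTop_constTop c k)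
    (smul_constTop c k) γ d

end ClosedPoint

/-! ### the instantiation of `SpecialPoints.phik_eq_card_stable` -/

section Inst

variable (c : Cover) {L : Type*} [Field L] [c.Good L] (A : ValuationSubring L)
  [IsAlgClosed (IsLocalRing.ResidueField A)] [c.Good (IsLocalRing.ResidueField A)]
  (FL : Type*) [CommRing FL] [Algebra (RatFunc L) FL]
  (Fk : Type*) [CommRing Fk] [Algebra (RatFunc (IsLocalRing.ResidueField A)) Fk]
  [IsInvariantSubring (c.Gal L) (BRing c A)]
  [IsInvariantSubring (c.Gal (IsLocalRing.ResidueField A))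
    (BRing c (⊤ : ValuationSubring (IsLocalRing.ResidueField A)))]
  {ι : Type*} [Fintype ι] [DecidableEq ι]

/-- **(B3) for the surface**: with `k = κ(A)`, `B_A = BRing c A`, `C_A = CInt c FL A`,
`D₀ = BRing c ⊤`, `C_k = CInt c Fk ⊤`, a specialisation `spCk : C_A → C_k` over
`redBA : B_A → D₀` which maps a basis to a basis and is equivariant along `φ`, and `redBA`
compatible with the closed points: the number `φk g` of `g`-fixed `k`-points of `C_A` over the
closed point of `B_A` is the number of maximal ideals of `C_k` stable under `φ g`. -/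
theorem phik_eq_card_stable
    (redBA : BRing c A →+* BRing c (⊤ : ValuationSubring (IsLocalRing.ResidueField A)))
    (hred : ∀ x : BRing c A, epsTop c (IsLocalRing.ResidueField A) (redBA x) = evClosedB c A x)
    (spCk : CInt c FL A →+* CInt c Fk (⊤ : ValuationSubring (IsLocalRing.ResidueField A)))
    (hsp : ∀ x : BRing c A, spCk (algebraMap (BRing c A) (CInt c FL A) x) =
      algebraMap (BRing c (⊤ : ValuationSubring (IsLocalRing.ResidueField A)))
        (CInt c Fk (⊤ : ValuationSubring (IsLocalRing.ResidueField A))) (redBA x))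
    (b : Module.Basis ι (BRing c A) (CInt c FL A))
    (b' : Module.Basis ι (BRing c (⊤ : ValuationSubring (IsLocalRing.ResidueField A)))
      (CInt c Fk (⊤ : ValuationSubring (IsLocalRing.ResidueField A))))
    (hb : ∀ i, b' i = spCk (b i))
    (φ : c.Gal L →* c.Gal (IsLocalRing.ResidueField A))
    (hsmul : ∀ (g : c.Gal L) (x : CInt c FL A), spCk (g • x) = φ g • spCk x) (g : c.Gal L) :
    phik (C := CInt c FL A) A (evClosedB c A) g =
      Nat.card {x : MaximalSpectrum (CInt c Fk (⊤ : ValuationSubring (IsLocalRing.ResidueField A))) //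
        ∀ y ∈ x.asIdeal, φ g • y ∈ x.asIdeal} := by
  have hebar : evClosedB c A = (epsTop c (IsLocalRing.ResidueField A)).comp redBA := by
    ext x
    exact (hred x).symm
  rw [hebar]
  exact SpecialPoints.phik_eq_card_stable A redBA spCk hsp b b' hb
    (epsTop c (IsLocalRing.ResidueField A)) (epsTop_surjective c _)
    (fun γ d => SurfaceDefs.smul_algebraMap c Fk _ γ d) (epsTop_smul c _) g (φ g) (hsmul g)

/-- `φk 1` is the number of maximal ideals of `C_k` -/
theorem phik_one_eq_card_maxSpec
    (redBA : BRing c A →+* BRing c (⊤ : ValuationSubring (IsLocalRing.ResidueField A)))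
    (hred : ∀ x : BRing c A, epsTop c (IsLocalRing.ResidueField A) (redBA x) = evClosedB c A x)
    (spCk : CInt c FL A →+* CInt c Fk (⊤ : ValuationSubring (IsLocalRing.ResidueField A)))
    (hsp : ∀ x : BRing c A, spCk (algebraMap (BRing c A) (CInt c FL A) x) =
      algebraMap (BRing c (⊤ : ValuationSubring (IsLocalRing.ResidueField A)))
        (CInt c Fk (⊤ : ValuationSubring (IsLocalRing.ResidueField A))) (redBA x))
    (b : Module.Basis ι (BRing c A) (CInt c FL A))
    (b' : Module.Basis ι (BRing c (⊤ : ValuationSubring (IsLocalRing.ResidueField A)))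
      (CInt c Fk (⊤ : ValuationSubring (IsLocalRing.ResidueField A))))
    (hb : ∀ i, b' i = spCk (b i))
    (φ : c.Gal L →* c.Gal (IsLocalRing.ResidueField A))
    (hsmul : ∀ (g : c.Gal L) (x : CInt c FL A), spCk (g • x) = φ g • spCk x) :
    phik (C := CInt c FL A) A (evClosedB c A) (1 : c.Gal L) =
      Nat.card (MaximalSpectrum
        (CInt c Fk (⊤ : ValuationSubring (IsLocalRing.ResidueField A)))) := by
  rw [phik_eq_card_stable c A FL Fk redBA hred spCk hsp b b' hb φ hsmul 1, map_one]
  exact Nat.card_congr (Equiv.subtypeUnivEquiv fun x y hy => by rwa [one_smul])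

end Inst

/-! ### the hypothesis `hred` for the reduction `GaussA2.redBA` -/

section Red

open AlgebraicCurve Fermat.Agent.S18.CoreDefs Fermat.Agent.S18.C.GaussA Fermat.Agent.S18.C.GaussA2

variable {L : Type*} [Field L] {k : Type*} [Field k] {A : ValuationSubring L}
variable {FL : Type*} [Field FL] [Algebra L FL] {Fk : Type*} [Field Fk] [Algebra k Fk]
variable [Algebra (RatFunc L) FL] [IsScalarTower L (RatFunc L) FL]
variable [Algebra (RatFunc k) Fk] [IsScalarTower k (RatFunc k) Fk]
variable {π : A →+* k} {r : Place L FL → Place k Fk}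
variable (R : RedDatum A π r)
variable (hx : algebraMap (RatFunc L) FL RatFunc.X ∈ R.O)
variable (hrx : R.red ⟨_, hx⟩ = algebraMap (RatFunc k) Fk RatFunc.X)
variable (c : Cover)
variable {Fk' : Type*} [Field Fk'] [Algebra (IsLocalRing.ResidueField A) Fk']
  [Algebra (RatFunc (IsLocalRing.ResidueField A)) Fk']
  [IsScalarTower (IsLocalRing.ResidueField A) (RatFunc (IsLocalRing.ResidueField A)) Fk']

/-- the reduction `B_A → D₀` commutes with the evaluations at `μ = 0` -/
theorem epsTop_redBA (b : BRing c A) :
    epsTop c k (redBA R hx hrx c b) = π (evZeroB c A b) := by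
  obtain ⟨a, s, hs, h⟩ := exists_rel_of_mem_BRing c b.2
  have h' := redBA_rel R hx hrx c b h
  have h1 : ((evZeroB c A b : A) : L) * (s.map A.subtype).coeff 0 = (a.map A.subtype).coeff 0 :=
    evZeroB_spec c A b (a.map A.subtype) (s.map A.subtype) h
  have h2 : ((evZeroB c (⊤ : ValuationSubring k) (redBA R hx hrx c b) :
      (⊤ : ValuationSubring k)) : k) * (s.map π).coeff 0 = (a.map π).coeff 0 :=
    evZeroB_spec c (⊤ : ValuationSubring k) (redBA R hx hrx c b) (a.map π) (s.map π) h'
  rw [Polynomial.coeff_map, Polynomial.coeff_map] at h1 h2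
  have h3 : evZeroB c A b * s.coeff 0 = a.coeff 0 := by
    apply Subtype.ext
    exact h1
  have h4 : π (evZeroB c A b) * π (s.coeff 0) = π (a.coeff 0) := by
    rw [← map_mul, h3]
  have h5 : π (s.coeff 0) ≠ 0 := (hs.map π).ne_zero
  rw [epsTop_apply]
  exact mul_right_cancel₀ h5 (h2.trans h4.symm)

/-- **`hred` for `π = residue A`**: `GaussA2.redBA` is compatible with the closed points -/
theorem epsTop_redBA_residue {r' : Place L FL → Place (IsLocalRing.ResidueField A) Fk'}
    (R' : RedDatum A (IsLocalRing.residue A) r')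
    (hx' : algebraMap (RatFunc L) FL RatFunc.X ∈ R'.O)
    (hrx' : R'.red ⟨_, hx'⟩ = algebraMap (RatFunc (IsLocalRing.ResidueField A)) Fk' RatFunc.X)
    (b : BRing c A) :
    epsTop c (IsLocalRing.ResidueField A) (redBA R' hx' hrx' c b) = evClosedB c A b :=
  epsTop_redBA R' hx' hrx' c b

end Red

end Fermat.Agent.S18.C.SpecialPointsInst
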