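import Mathlib
import Fermat.Agent.S18.C.KModel
import Fermat.Agent.S18.C.ModularInst
import Fermat.Agent.S18.C.BaseChangeR
import Fermat.Agent.S18.C.BRingLocal
import Fermat.Agent.S18.C.SpecialPointsInst
import Fermat.Agent.S18.GaussFromHBar
import Fermat.Agent.S18.ResidueBasics
import Fermat.Agent.S18.B.SeparableFk
import Fermat.Agent.S18.A.DualChart

/-!
# PROJECT H (S18), block C, K-side: the model `sp : C_A → R_k` in the frozen S18 setting

`L = ℚ̄`, `A` a valuation subring over `ℓ ∤ N`, `k = κ(A)`, `FL = ℚ̄(X₀(N))`, `Fk = k(J(q^d))`,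
`R = GaussFromHBar.redDatumModL h`.  All the hypotheses of `KModel.exists_model` except `hS`
(finite étaleness of `C_A / B_A`) and the reduction `φ` of the group of the cover are discharged.
-/

set_option autoImplicit false
set_option linter.unusedSectionVars false
set_option linter.style.haveILetI false

noncomputable section

namespace Fermat.Agent.S18.C.KModelX0

open Polynomial AlgebraicCurve ModularCurve Fermat.Agent.S18.CoreDefs
  Fermat.Agent.S18.C.GaussA Fermat.Agent.S18.C.GaussA2 Fermat.Agent.S18.C.Defs
  Fermat.Agent.S18.C.SurfaceDefs Fermat.Agent.S18.C.FinEt Fermat.Agent.S18.C.KModel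
  Fermat.Agent.S18.C.BRingLocal Fermat.Agent.S18.C.SpecialPointsInst
  Fermat.Agent.S18.GaussFromHBar

local notation "Kb" => AlgebraicClosure ℚ

set_option synthInstance.maxHeartbeats 400000

variable {A : ValuationSubring (AlgebraicClosure ℚ)} {N : ℕ} [NeZero N]

/-- shortcut (the generic instance search for this algebra structure takes more than a second);
use it with `attribute [local instance 2000]` -/
@[reducible] def algkFk (A : ValuationSubring (AlgebraicClosure ℚ)) (N : ℕ) [NeZero N] :
    Algebra (IsLocalRing.ResidueField A)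
      ↥(modularFunctionFieldFullC (IsLocalRing.ResidueField A) N) := inferInstance

attribute [local instance 2000] algkFk

/-- `j` is Gauss-integral and reduces to `J(q)` -/
instance jIn (h : ReductionInputsModL A N) : JIn (redDatumModL h) where
  mem := by
    rw [ModularInst.algebraMap_FL_X]
    exact jgen_mem_O h
  red_eq := by
    rw [ModularInst.algebraMap_Fk_X]
    have h1 := red_jgen h
    refine Eq.trans ?_ h1
    congr 1
    exact Subtype.ext (ModularInst.algebraMap_FL_X N)

/-- `[FL : ℚ̄(j)]` is finite -/
theorem finiteDimensional_FL (N : ℕ) [NeZero N] :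
    FiniteDimensional (RatFunc Kb) ↥(modularFunctionFieldBar N) :=
  (BaseChangeR.finrank_ratFunc_bar N).1

/-- `[FL : ℚ̄(j)] ≤ [Fk : k(j̄)]` (Igusa's bound) -/
theorem finrank_le {ℓ : ℕ} [Fact ℓ.Prime] (hA : A.LiesOverPrime ℓ) (hℓN : ¬ ℓ ∣ N) :
    Module.finrank (RatFunc Kb) ↥(modularFunctionFieldBar N) ≤
      Module.finrank (RatFunc (IsLocalRing.ResidueField A))
        ↥(modularFunctionFieldFullC (IsLocalRing.ResidueField A) N) := by
  haveI := Fermat.Agent.S18.ResidueBasics.isAlgClosed_residueField A
  rw [(BaseChangeR.finrank_ratFunc_bar N).2,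
    (BaseChangeR.finrank_ratFunc_fullC (IsLocalRing.ResidueField A) N).2]
  exact Fermat.Agent.S18.B.FkBasics.psi_le_finrank (IsLocalRing.ResidueField A) N
    (Fermat.Agent.S18.ResidueBasics.natCast_ne_zero_of_not_dvd A hA hℓN)

/-- `Fk / k(j̄)` is separable -/
theorem isSeparable_Fk (A : ValuationSubring (AlgebraicClosure ℚ)) (N : ℕ) [NeZero N] :
    Algebra.IsSeparable (RatFunc (IsLocalRing.ResidueField A))
      ↥(modularFunctionFieldFullC (IsLocalRing.ResidueField A) N) := by
  haveI := Fermat.Agent.S18.ResidueBasics.isAlgClosed_residueField A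
  exact Fermat.Agent.S18.A.DualChart.isSeparable_rat
    (Fermat.Agent.S18.B.FkBasics.transcendental_jk (IsLocalRing.ResidueField A) N)
    (fun a => rfl)
    (Fermat.Agent.S18.B.SeparableFk.isSeparable_jk (IsLocalRing.ResidueField A) N)

/-! ### the package -/

section Package

variable (h : ReductionInputsModL A N) {ℓ : ℕ} [Fact ℓ.Prime] (hA : A.LiesOverPrime ℓ)
  (hℓN : ¬ ℓ ∣ N) (c : Cover) [c.Good Kb] [c.Good (IsLocalRing.ResidueField A)]
  [IsInvariantSubring (c.Gal Kb) (BRing c A)]

include hA hℓN in
/-- **the K-model in the frozen S18 setting**: the reduction `redBA : B_A → D₀` and the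
specialisation `sp : C_A → R_k`, with all the fields consumed by `SpecialPointsFinal` /
`SpecialIso` (binder shapes verbatim). -/
theorem exists_model
    (hS : FinEt (BRing c A) (CInt c ↥(modularFunctionFieldBar N) A))
    (φ : c.Gal Kb →* c.Gal (IsLocalRing.ResidueField A))
    (hφ : ∀ g : c.Gal Kb, GalData (A := A) (π := IsLocalRing.residue A) c g (φ g)) :
    ∃ (redBA : BRing c A →+* BRing c (⊤ : ValuationSubring (IsLocalRing.ResidueField A)))
      (sp : CInt c ↥(modularFunctionFieldBar N) A →+*
        RAlg c (IsLocalRing.ResidueField A)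
          ↥(modularFunctionFieldFullC (IsLocalRing.ResidueField A) N)),
      (∀ x : BRing c A, epsTop c (IsLocalRing.ResidueField A) (redBA x) = evClosedB c A x) ∧
      (∀ x : BRing c A, sp (algebraMap (BRing c A) (CInt c ↥(modularFunctionFieldBar N) A) x) =
        incMu c (IsLocalRing.ResidueField A)
          ↥(modularFunctionFieldFullC (IsLocalRing.ResidueField A) N)
          (redBA x : MuLine c (IsLocalRing.ResidueField A))) ∧
      (∀ (n : ℕ) (b : Module.Basis (Fin n) (BRing c A) (CInt c ↥(modularFunctionFieldBar N) A)),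
        LinearIndependent (MuLine c (IsLocalRing.ResidueField A)) (fun i => sp (b i)) ∧
          ⊤ ≤ Submodule.span (MuLine c (IsLocalRing.ResidueField A))
            (Set.range fun i => sp (b i))) ∧
      (∀ (g : c.Gal Kb) (x : CInt c ↥(modularFunctionFieldBar N) A), sp (g • x) = φ g • sp x) ∧
      (∀ (o : (redDatumModL h).O)
        (ho : IsIntegral (BRing c A) (incF c Kb ↥(modularFunctionFieldBar N)
          (o : ↥(modularFunctionFieldBar N)))),
        sp (⟨incF c Kb ↥(modularFunctionFieldBar N) (o : ↥(modularFunctionFieldBar N)), ho⟩ :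
            CInt c ↥(modularFunctionFieldBar N) A) =
          incF c (IsLocalRing.ResidueField A)
            ↥(modularFunctionFieldFullC (IsLocalRing.ResidueField A) N)
            ((redDatumModL h).red o)) ∧
      (∀ (b : BRing c A) (a s : A[X]),
        toRat c Kb (b : MuLine c Kb) * polyL s = polyL a →
        toRat c (IsLocalRing.ResidueField A) (redBA b : MuLine c (IsLocalRing.ResidueField A)) *
          polyK (IsLocalRing.residue A) s = polyK (IsLocalRing.residue A) a) := by
  haveI := finiteDimensional_FL N
  haveI := isSeparable_Fk A N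
  classical
  have hJ : JIn (redDatumModL h) := jIn h
  obtain ⟨t, hh⟩ := GaussA.exists_hyp (redDatumModL h) hJ.mem hJ.red_eq (red_surjective h)
    (finrank_le hA hℓN)
  refine ⟨redBA (redDatumModL h) hJ.mem hJ.red_eq c, KModel.sp (redDatumModL h) c hh,
    fun x => epsTop_redBA_residue c (redDatumModL h) hJ.mem hJ.red_eq x,
    KModel.sp_BA (redDatumModL h) c hh,
    fun n b => KModel.basis_map (redDatumModL h) c hh hS b, fun g x => ?_,
    KModel.sp_incF (redDatumModL h) c hh,
    fun b a s hrel => redBA_rel (redDatumModL h) hJ.mem hJ.red_eq c b hrel⟩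
  have hd' : GalData (A := A) (π := IsLocalRing.residue A) c g⁻¹ (φ g)⁻¹ := by
    have := hφ g⁻¹
    rwa [map_inv] at this
  exact KModel.sp_gal (redDatumModL h) hh (hφ g) hd' x

end Package

end Fermat.Agent.S18.C.KModelX0
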