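import Mathlib
import Fermat.Agent.S24.OrbitsPtAlt

/-!
# S18 / block C1 (S24-specific input): ramification indices of `ℚ̄(X₀(N)) / ℚ̄(j)` at finite places

`S24` only exports the NUMBER of places over a point.  Re-running its counting argument
(`S24.PlaceCount`: local bound `e_v ≤ #orbit` + fundamental identity `∑ e_v = #Q = ∑ #orbit`) we get
the individual ramification indices:

* `ord_jgen_sub_eq_one` : over `a ≠ 0, 1728` every place is unramified, `ord_v (j - a) = 1`;
* `ord_jgen_sub_1728_dvd` : over `1728`, `ord_v (j - 1728) ∣ 2`;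
* `ord_jgen_dvd` : over `0`, `ord_v j ∣ 3`.
-/

set_option autoImplicit false

open AlgebraicCurve WithZero

namespace Fermat.Agent.S18.C.S24Ram

section Abstract

variable {K F Om : Type*} [Field K] [Field F] [Algebra K F] [Field Om]

/-- **Lemma B, local form.**  In the situation of `S24.PlaceCount.card_places_eq_card_quotient`,
every place at which `y` vanishes is the pull-back along some `L q` and its ramification index
`ord_v y` is the size of the class of `q`. -/
theorem ord_eq_card_class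
    (w : Valuation Om ℤᵐ⁰) {Q : Type*} [Fintype Q] (L : Q → F →+* Om) (y : F)
    [Finite {v : Place K F // y ∈ v.toValuationSubring.nonunits}]
    (hFI : ∑ᶠ v : {v : Place K F // y ∈ v.toValuationSubring.nonunits}, v.1.ord y
      = Fintype.card Q)
    (hall : ∀ v : Place K F, y ∈ v.toValuationSubring.nonunits →
      ∃ q, v.toValuationSubring = w.valuationSubring.comap (L q))
    (m : ℕ) (hm : ∀ q, w (L q y) = exp (-(m : ℤ)))
    (r : Setoid Q) (hsame : ∀ q q', r q q' →
      w.valuationSubring.comap (L q) = w.valuationSubring.comap (L q'))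
    (s : Q → ℕ) (hs : ∀ q f, f ≠ 0 → ((s q : ℕ) : ℤ) ∣ log (w (L q f)))
    (hclass : ∀ q, s q * Nat.card {q' // r q q'} = m) (hm0 : 0 < m)
    (v : Place K F) (hv : y ∈ v.toValuationSubring.nonunits) :
    ∃ q, v.toValuationSubring = w.valuationSubring.comap (L q) ∧
      v.ord y = (Nat.card {q' // r q q'} : ℤ) := by
  classical
  rcases isEmpty_or_nonempty Q with hQ | hQ
  · obtain ⟨q, _⟩ := hall v hv
    exact hQ.elim q
  obtain ⟨q₀⟩ := hQ
  have hy0 : y ≠ 0 := by
    rintro rfl
    have := hm q₀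
    rw [map_zero, map_zero] at this
    exact exp_ne_zero this.symm
  set P := {v : Place K F // y ∈ v.toValuationSubring.nonunits} with hP
  let _ : Fintype P := Fintype.ofFinite P
  choose qv hqv using fun v : P => hall v.1 v.2
  let g : P → Quotient r := fun v => Quotient.mk r (qv v)
  have hg : Function.Injective g := by
    intro v v' h
    have h1 : r (qv v) (qv v') := Quotient.exact h
    have h2 := hsame _ _ h1
    apply Subtype.ext
    apply Place.ext
    rw [hqv v, hqv v', h2]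
  let cs : Quotient r → ℕ := fun C => Fintype.card {q : Q // Quotient.mk r q = C}
  have hcs_pos : ∀ C, 0 < cs C := by
    intro C
    induction C using Quotient.inductionOn with
    | _ q => exact Fintype.card_pos_iff.mpr ⟨⟨q, rfl⟩⟩
  have hcs_sum : ∑ C, cs C = Fintype.card Q := by
    rw [← Fintype.card_sigma]
    exact Fintype.card_congr (Equiv.sigmaFiberEquiv (Quotient.mk r))
  have hcs_eq : ∀ q, Nat.card {q' // r q q'} = cs (Quotient.mk r q) := by
    intro q
    rw [Nat.card_eq_fintype_card]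
    refine Fintype.card_congr (Equiv.subtypeEquivRight fun q' => ?_)
    constructor
    · intro h; exact (Quotient.sound h).symm
    · intro h; exact Quotient.exact h.symm
  -- local bound
  have hloc : ∀ v : P, v.1.ord y ≤ (cs (g v) : ℤ) := by
    intro v
    have h1 := Fermat.Agent.S24.PlaceCount.mul_ord_le v.1 w (L (qv v)) (hqv v) hy0 v.2 m
      (s (qv v)) (hm _) (hs _)
    have h2 := hclass (qv v)
    rw [hcs_eq] at h2
    have hs0 : 0 < s (qv v) := by
      rcases Nat.eq_zero_or_pos (s (qv v)) with h | h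
      · rw [h, zero_mul] at h2; omega
      · exact h
    have h3 : ((s (qv v) : ℕ) : ℤ) * v.1.ord y ≤ (s (qv v) : ℤ) * (cs (g v) : ℤ) := by
      rw [← h2] at h1
      push_cast at h1
      exact h1
    exact le_of_mul_le_mul_left h3 (by exact_mod_cast hs0)
  -- global count
  rw [finsum_eq_sum_of_fintype] at hFI
  have hsum2 : ∑ v : P, (cs (g v) : ℤ) = ∑ C ∈ Finset.univ.image g, (cs C : ℤ) := by
    rw [Finset.sum_image (fun v _ v' _ h => hg h)]
  have hsum3 : ∑ C ∈ Finset.univ.image g, (cs C : ℤ) ≤ ∑ C, (cs C : ℤ) := by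
    apply Finset.sum_le_sum_of_subset_of_nonneg (Finset.subset_univ _)
    intro C _ _
    positivity
  have htot : (∑ C, (cs C : ℤ)) = Fintype.card Q := by exact_mod_cast hcs_sum
  have hsum_le : ∑ v : P, (cs (g v) : ℤ) ≤ ∑ v : P, v.1.ord y := by
    rw [hFI, hsum2, ← htot]
    exact hsum3
  have heq : ∀ v : P, v.1.ord y = (cs (g v) : ℤ) := by
    have := (Finset.sum_eq_sum_iff_of_le (s := Finset.univ) (fun v _ => hloc v)).mp
      (le_antisymm (Finset.sum_le_sum fun v _ => hloc v) hsum_le)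
    intro v
    exact this v (Finset.mem_univ v)
  refine ⟨qv ⟨v, hv⟩, hqv ⟨v, hv⟩, ?_⟩
  rw [heq ⟨v, hv⟩, hcs_eq]

/-- **Lemma B, local orbit form.** -/
theorem ord_eq_card_orbit
    (w : Valuation Om ℤᵐ⁰) {Q : Type*} [Fintype Q] {G : Type*} [Group G] [MulAction G Q] (d : G)
    (L : Q → F →+* Om) (y : F)
    [Finite {v : Place K F // y ∈ v.toValuationSubring.nonunits}]
    (hFI : ∑ᶠ v : {v : Place K F // y ∈ v.toValuationSubring.nonunits}, v.1.ord y
      = Fintype.card Q)
    (hall : ∀ v : Place K F, y ∈ v.toValuationSubring.nonunits →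
      ∃ q, v.toValuationSubring = w.valuationSubring.comap (L q))
    (m : ℕ) (hm0 : 0 < m) (hm : ∀ q, w (L q y) = exp (-(m : ℤ)))
    (hsame : ∀ q : Q, w.valuationSubring.comap (L (d • q)) = w.valuationSubring.comap (L q))
    (hdvd : ∀ q : Q, Nat.card (MulAction.orbit (Subgroup.zpowers d) q) ∣ m)
    (hs : ∀ (q : Q) (f : F), f ≠ 0 →
      (m : ℤ) ∣ (Nat.card (MulAction.orbit (Subgroup.zpowers d) q) : ℤ) * log (w (L q f)))
    (v : Place K F) (hv : y ∈ v.toValuationSubring.nonunits) :
    ∃ q, v.toValuationSubring = w.valuationSubring.comap (L q) ∧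
      v.ord y = (Nat.card (MulAction.orbit (Subgroup.zpowers d) q) : ℤ) := by
  classical
  have hsameZ : ∀ (k : ℤ) (q : Q),
      w.valuationSubring.comap (L (d ^ k • q)) = w.valuationSubring.comap (L q) := by
    intro k
    induction k using Int.induction_on with
    | zero => intro q; simp
    | succ i ih => intro q; rw [zpow_add_one, mul_smul, ih, hsame]
    | pred i ih =>
      intro q
      rw [zpow_sub_one, mul_smul, ih]
      have := hsame (d⁻¹ • q)
      rw [smul_inv_smul] at this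
      exact this.symm
  have horb_pos : ∀ q : Q, 0 < Nat.card (MulAction.orbit (Subgroup.zpowers d) q) := fun q =>
    Nat.card_pos_iff.mpr ⟨⟨⟨q, MulAction.mem_orbit_self q⟩⟩, inferInstance⟩
  have hcard : ∀ q : Q, Nat.card {q' // (MulAction.orbitRel (Subgroup.zpowers d) Q) q q'}
      = Nat.card (MulAction.orbit (Subgroup.zpowers d) q) := by
    intro q
    refine Nat.card_congr (Equiv.subtypeEquivRight fun q' => ?_)
    rw [MulAction.orbitRel_apply]
    constructor
    · intro h
      exact (MulAction.orbitRel (Subgroup.zpowers d) Q).symm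
        (show (MulAction.orbitRel (Subgroup.zpowers d) Q) q q' from h)
    · intro h
      exact (MulAction.orbitRel (Subgroup.zpowers d) Q).symm
        (show (MulAction.orbitRel (Subgroup.zpowers d) Q) q' q from h)
  have h1 : ∀ q q', (MulAction.orbitRel (Subgroup.zpowers d) Q) q q' →
      w.valuationSubring.comap (L q) = w.valuationSubring.comap (L q') := by
    intro q q' h
    rw [MulAction.orbitRel_apply] at h
    obtain ⟨⟨g, hg⟩, rfl⟩ := h
    obtain ⟨k, rfl⟩ := Subgroup.mem_zpowers_iff.mp hg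
    exact hsameZ k q'
  have h2 : ∀ q f, f ≠ 0 →
      (((m / Nat.card (MulAction.orbit (Subgroup.zpowers d) q) : ℕ) : ℕ) : ℤ) ∣ log (w (L q f)) := by
    intro q f hf
    obtain ⟨c, hc⟩ := hdvd q
    have h1 := hs q f hf
    have hcpos : 0 < c := by
      rcases Nat.eq_zero_or_pos c with h | h
      · rw [h, mul_zero] at hc; omega
      · exact h
    have hdiv : m / Nat.card (MulAction.orbit (Subgroup.zpowers d) q) = c := by
      rw [hc]; exact Nat.mul_div_cancel_left c (horb_pos q)
    rw [hdiv]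
    rw [hc] at h1
    push_cast at h1
    exact (mul_dvd_mul_iff_left (by exact_mod_cast (horb_pos q).ne')).mp h1
  have h3 : ∀ q, (m / Nat.card (MulAction.orbit (Subgroup.zpowers d) q)) *
      Nat.card {q' // (MulAction.orbitRel (Subgroup.zpowers d) Q) q q'} = m := by
    intro q
    rw [hcard]
    exact Nat.div_mul_cancel (hdvd q)
  obtain ⟨q, hq1, hq2⟩ := ord_eq_card_class (K := K) w L y hFI hall m hm
    (MulAction.orbitRel (Subgroup.zpowers d) Q) h1
    (fun q => m / Nat.card (MulAction.orbit (Subgroup.zpowers d) q)) h2 h3 hm0 v hv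
  exact ⟨q, hq1, by rw [hq2, hcard]⟩

end Abstract

/-! ### The modular function field -/

section X0

open UpperHalfPlane CongruenceSubgroup ModularCurve MulAction Module IntermediateField ModularGroup
open Fermat.Agent.S24
open Fermat.Agent.S24.RepHom Fermat.Agent.S24.FF Fermat.Agent.S24.DegreeAlg
open Fermat.Agent.S24.OrbitsAbs Fermat.Agent.S24.OrbitDefs Fermat.Agent.S24.Taylor
open Fermat.Agent.LevelOne.JBasic
open scoped MatrixGroups

variable (N : ℕ) [NeZero N]

local notation "Kb" => AlgebraicClosure ℚ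

section AbstractX0

variable {P : (ℍ → ℂ) → Prop} (T : HolHom P (LaurentSeries ℂ)) (hP : ∀ γ : SL(2, ℤ), SlashP N P γ)
  (ι : Kb →+* ℂ)
  (hFF : IsFF Kb (jgen N)) (hdeg : finrank Kb⟮jgen N⟯ (FunF N) = Nat.card (Cos N))
  (hsep : ∀ γ γ' : SL(2, ℤ),
    (∀ f : (FunF N), Lmap T γ (hP γ) (RepAll.toRepField N ι f)
      = Lmap T γ' (hP γ') (RepAll.toRepField N ι f)) → γ' * γ⁻¹ ∈ Gamma0 N)
  (hLx : ∀ γ γ' : SL(2, ℤ), Lmap T γ (hP γ) (RepAll.toRepField N ι (jgen N))
      = Lmap T γ' (hP γ') (RepAll.toRepField N ι (jgen N)))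

include hFF hdeg hsep hLx in
/-- Local form of `S24.OrbitsAbs.card_zeros_eq_card_orbits`: the ramification index of a place over
`j = a` is the size of a `⟨d⟩`-orbit. -/
theorem ord_eq_card_orbit_of (a : Kb) (d : SL(2, ℤ)) (m : ℕ) (hm0 : 0 < m)
    (hm : ∀ γ : SL(2, ℤ), Valued.v (Lmap T γ (hP γ)
      (RepAll.toRepField N ι (jgen N - algebraMap Kb (FunF N) a))) = exp (-(m : ℤ)))
    (hsame : ∀ (γ : SL(2, ℤ)) (g : repField N),
      Valued.v (Lmap T (γ * d⁻¹) (hP _) g) ≤ 1 ↔ Valued.v (Lmap T γ (hP γ) g) ≤ 1)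
    (hdvd : ∀ q : (Cos N), Nat.card (orbit (Subgroup.zpowers d) q) ∣ m)
    (hs : ∀ (q : (Cos N)) (g : repField N), g ≠ 0 →
      (m : ℤ) ∣ (Nat.card (orbit (Subgroup.zpowers d) q) : ℤ)
        * log (Valued.v (Lmap T (Quotient.out q)⁻¹ (hP _) g)))
    (v : Place Kb (FunF N))
    (hv : jgen N - algebraMap Kb (FunF N) a ∈ v.toValuationSubring.nonunits) :
    ∃ q : Cos N, v.ord (jgen N - algebraMap Kb (FunF N) a)
      = (Nat.card (orbit (Subgroup.zpowers d) q) : ℤ) := by
  have := Fermat.Agent.S24.Hurwitz.finite_zeros hFF a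
  have hcard : Fintype.card (Cos N) = finrank Kb⟮jgen N⟯ (FunF N) := by
    rw [hdeg, Nat.card_eq_fintype_card]
  obtain ⟨q, -, hq⟩ := ord_eq_card_orbit (K := Kb) (Valued.v) d (Lq N T hP ι)
    (jgen N - algebraMap Kb (FunF N) a)
    (by rw [Fermat.Agent.S24.Hurwitz.finsum_ord_zeros hFF a, hcard])
    (by
      intro v hv
      refine Fermat.Agent.S24.LemmaA.exists_place_eq_comap_sub _ (Lq N T hP ι) hFF a hcard
        (Lq_injective N T hP ι hsep) ?_ ?_ ?_ ?_ v hv
      · intro q q' c
        rw [Lq_algebraMap, Lq_algebraMap]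
      · intro q q'
        exact hLx _ _
      · intro q c
        rw [Lq_algebraMap]
        exact v_algebraMap_le_one _
      · intro q
        have hequiv := Valuation.isEquiv_valuation_valuationSubring
          (Valued.v : Valuation (LaurentSeries ℂ) ℤᵐ⁰)
        rw [ValuationSubring.mem_nonunits_iff, ← hequiv.lt_one_iff_lt_one, Lq_apply, hm,
          ← exp_zero, exp_lt_exp]
        omega)
    m hm0 (fun q => hm _)
    (by
      intro q
      rw [Lq_smul]
      ext f
      simp only [ValuationSubring.mem_comap, RingHom.comp_apply,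
        Valuation.mem_valuationSubring_iff]
      exact hsame _ _)
    hdvd
    (by
      intro q f hf
      refine hs q (RepAll.toRepField N ι f) ?_
      exact (map_ne_zero _).mpr hf)
    v hv
  exact ⟨q, hq⟩

end AbstractX0

/-- **Generic points are unramified.** -/
theorem ord_jgen_sub_eq_one (a : Kb) (h1728 : a ≠ 1728) (h0 : a ≠ 0)
    (v : Place Kb ↥(modularFunctionFieldBar N))
    (hv : jgen N - algebraMap Kb _ a ∈ v.toValuationSubring.nonunits) :
    v.ord (jgen N - algebraMap Kb _ a) = 1 := by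
  obtain ⟨τ, hτ⟩ := jFun_surjective (OrbitDefs.ι a)
  have hτ0 : jFun τ ≠ 0 := by
    rw [hτ]
    exact (map_ne_zero _).mpr h0
  have hτ1728 : jFun τ ≠ 1728 := by
    rw [hτ]
    intro h
    apply h1728
    apply OrbitDefs.ι_injective
    rw [h, map_ofNat]
  obtain ⟨q, hq⟩ := ord_eq_card_orbit_of N (tay τ) (fun γ => slashP_mdiff N γ) OrbitDefs.ι
    (Degree.isFF N) (Degree.finrank_eq_card N) (OrbitsPtAlt.hsep_tay N _ τ)
    (OrbitsPtAlt.hLx_tay N _ τ) a
    (1 : SL(2, ℤ)) 1 Nat.one_pos
    (fun γ => by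
      rw [OrbitsPtAlt.hm_tay N _ τ a hτ γ, if_neg hτ0, if_neg hτ1728])
    (OrbitsPtAlt.hsame_tay N τ 1 (one_smul _ _))
    (fun q => OrbitsPtGlue.card_orbit_one_dvd q)
    (fun q g _ => OrbitsPtGlue.one_dvd_card_orbit_mul _ q _) v hv
  rw [hq]
  exact_mod_cast OrbitsPtGlue.card_orbit_one (G := SL(2, ℤ)) q

/-- **Over `j = 1728` the ramification index divides `2`.** -/
theorem ord_jgen_sub_1728_dvd
    (v : Place Kb ↥(modularFunctionFieldBar N))
    (hv : jgen N - algebraMap Kb _ 1728 ∈ v.toValuationSubring.nonunits) :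
    v.ord (jgen N - algebraMap Kb _ 1728) ∣ 2 := by
  have hτ : jFun UpperHalfPlane.I = OrbitDefs.ι 1728 := by
    rw [jFun_I, map_ofNat]
  have hτ0 : jFun UpperHalfPlane.I ≠ 0 := by
    rw [jFun_I]; norm_num
  obtain ⟨q, hq⟩ := ord_eq_card_orbit_of N (tay UpperHalfPlane.I) (fun γ => slashP_mdiff N γ)
    OrbitDefs.ι (Degree.isFF N) (Degree.finrank_eq_card N) (OrbitsPtAlt.hsep_tay N _ _)
    (OrbitsPtAlt.hLx_tay N _ _) 1728
    (S : SL(2, ℤ)) 2 (by norm_num)
    (fun γ => by
      rw [OrbitsPtAlt.hm_tay N _ _ 1728 hτ γ, if_neg hτ0, if_pos jFun_I])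
    (OrbitsPtAlt.hsame_tay N _ S LmapTaylor.S_smul_I)
    (fun q => OrbitsPtGlue.card_orbit_S_dvd N q)
    (fun q g _ => OrbitsPtGlue.two_dvd_card_orbit_S_mul N q _ (fun hfix =>
      LmapTaylor.two_dvd_log_v_Lmap_tay _ (OrbitsPtGlue.conj_S_mem N q hfix) g)) v hv
  rw [hq]
  exact_mod_cast OrbitsPtGlue.card_orbit_S_dvd N q

/-- **Over `j = 0` the ramification index divides `3`.** -/
theorem ord_jgen_dvd
    (v : Place Kb ↥(modularFunctionFieldBar N))
    (hv : jgen N - algebraMap Kb _ 0 ∈ v.toValuationSubring.nonunits) :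
    v.ord (jgen N - algebraMap Kb _ 0) ∣ 3 := by
  have hτ : jFun rho = OrbitDefs.ι 0 := by
    rw [jFun_rho, map_zero]
  obtain ⟨q, hq⟩ := ord_eq_card_orbit_of N (tay rho) (fun γ => slashP_mdiff N γ)
    OrbitDefs.ι (Degree.isFF N) (Degree.finrank_eq_card N) (OrbitsPtAlt.hsep_tay N _ _)
    (OrbitsPtAlt.hLx_tay N _ _) 0
    (S * T : SL(2, ℤ)) 3 (by norm_num)
    (fun γ => by
      rw [OrbitsPtAlt.hm_tay N _ _ 0 hτ γ, if_pos jFun_rho])
    (OrbitsPtAlt.hsame_tay N _ (S * T) ST_smul_rho)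
    (fun q => OrbitsPtGlue.card_orbit_ST_dvd N q)
    (fun q g _ => OrbitsPtGlue.three_dvd_card_orbit_ST_mul N q _ (fun hfix =>
      LmapTaylor.three_dvd_log_v_Lmap_tay _ (OrbitsPtGlue.conj_ST_mem N q hfix) g)) v hv
  rw [hq]
  exact_mod_cast OrbitsPtGlue.card_orbit_ST_dvd N q

theorem jgen_sub_ne_zero (a : Kb) : jgen N - algebraMap Kb ↥(modularFunctionFieldBar N) a ≠ 0 :=
  sub_ne_zero.mpr ((Degree.isFF N).ne_algebraMap a)

/-- Over `j = 0`: `e ∈ {1, 3}`. -/
theorem ord_jgen_eq_one_or_three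
    (v : Place Kb ↥(modularFunctionFieldBar N))
    (hv : jgen N - algebraMap Kb _ 0 ∈ v.toValuationSubring.nonunits) :
    v.ord (jgen N - algebraMap Kb _ 0) = 1 ∨ v.ord (jgen N - algebraMap Kb _ 0) = 3 := by
  have hpos := PlaceCount.ord_pos_of_mem_nonunits v (jgen_sub_ne_zero N 0) hv
  have hdvd := ord_jgen_dvd N v hv
  have hle : v.ord (jgen N - algebraMap Kb _ 0) ≤ 3 := Int.le_of_dvd (by norm_num) hdvd
  have h2 : v.ord (jgen N - algebraMap Kb _ 0) ≠ 2 := by
    intro h
    rw [h] at hdvd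
    norm_num at hdvd
  omega

/-- Over `j = 1728`: `e ∈ {1, 2}`. -/
theorem ord_jgen_sub_1728_eq_one_or_two
    (v : Place Kb ↥(modularFunctionFieldBar N))
    (hv : jgen N - algebraMap Kb _ 1728 ∈ v.toValuationSubring.nonunits) :
    v.ord (jgen N - algebraMap Kb _ 1728) = 1 ∨ v.ord (jgen N - algebraMap Kb _ 1728) = 2 := by
  have hpos := PlaceCount.ord_pos_of_mem_nonunits v (jgen_sub_ne_zero N 1728) hv
  have hdvd := ord_jgen_sub_1728_dvd N v hv
  have hle : v.ord (jgen N - algebraMap Kb _ 1728) ≤ 2 := Int.le_of_dvd (by norm_num) hdvd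
  omega

end X0

end Fermat.Agent.S18.C.S24Ram
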