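/-
PROJECT H (S18), block C, slice H-C6b part 2 (helper9): THE GAUSS VALUATION RING OF THE IGUSA
FUNCTION FIELD IS FINITE ÉTALE OVER THE GAUSS VALUATION RING OF `ℚ(j)`.

`F0 = modularFunctionFieldFull N ⊆ ℚ((q))`, `O = S28.GaussFull.OwFull ℓ N` its Gauss valuation ring
at `ℓ`, `E = ℚ⟮j⟯`, `Vj = O ∩ E`.  Instantiating `C/UnramVal` with the Igusa bound of S28
(`ψ(N)` elements of `𝔽_ℓ(J(q^d))` independent over `𝔽_ℓ(J)`), for `ℓ ∤ N`:

* `resField ℓ N` : the residue field of `O` (range of `redwFull`), an intermediate field of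
  `𝔽_ℓ((q))/𝔽_ℓ`; `resField_eq` : it is `modularFunctionFieldFullC (ZMod ℓ) N`;
* `finrank_full_eq` : `[F0 : ℚ(j)] = ψ(N)`; `finrank_res_eq` : `[𝔽_ℓ(J(q^d)) : 𝔽_ℓ(J)] = ψ(N)`;
* `exists_hyp` : the `UnramVal.Hyp` package, hence `O` finite free over `Vj` on a lifted basis;
* `gaussFinEt` : finite, free, and a basis with unit discriminant, given the separability of the
  residue extension (slice H-B3).
-/
import Mathlib
import Fermat.Agent.S18.C.UnramVal
import Fermat.Agent.S28.GaussFull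
import Fermat.Agent.S28.IgusaDegree
import Fermat.Agent.S28.DegreeQ
import Fermat.Agent.S28.BaseFieldDescent

set_option autoImplicit false
set_option linter.unusedSectionVars false

noncomputable section

namespace Fermat.Agent.S18.C.GaussDVR

open HahnSeries ModularCurve ModularCurve.IgusaScheme IntermediateField
open Fermat.Agent.S28 Fermat.Agent.S28.GaussFull Fermat.Agent.S28.Saturation
open Fermat.Agent.S18.C.UnramVal

variable (ℓ : ℕ) [Fact ℓ.Prime] (N : ℕ) [NeZero N]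

/-! ### Units of `OwFull` -/

theorem redwFull_eq_zero_iff_not_isUnit (z : ↥(OwFull ℓ N)) :
    redwFull ℓ N z = 0 ↔ ¬ IsUnit z := by
  constructor
  · intro h0 hu
    obtain ⟨w, hw⟩ := hu.exists_right_inv
    have := congrArg (redwFull ℓ N) hw
    rw [map_mul, h0, zero_mul, map_one] at this
    exact zero_ne_one this
  · intro hu
    by_contra h0
    apply hu
    have hnd : ¬ LDvd (OwFull ℓ N) ((ℓ : ℕ) : ↥(modularFunctionFieldFull N))
        (z : ↥(modularFunctionFieldFull N)) := fun h => h0 (hlρ ℓ N z h)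
    have hinv := hmax ℓ N z.1 z.2 hnd
    have hz0 : (z : ↥(modularFunctionFieldFull N)) ≠ 0 := by
      intro h
      apply h0
      have : z = 0 := Subtype.ext h
      rw [this, map_zero]
    refine IsUnit.of_mul_eq_one (⟨(z : ↥(modularFunctionFieldFull N))⁻¹, hinv⟩ : ↥(OwFull ℓ N)) ?_
    apply Subtype.ext
    show (z : ↥(modularFunctionFieldFull N)) * (z : ↥(modularFunctionFieldFull N))⁻¹ = 1
    exact mul_inv_cancel₀ hz0

/-! ### The residue field -/

/-- The range of `redwFull` as a subfield of `𝔽_ℓ((q))`. -/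
def resSubfield : Subfield (LaurentSeries (ZMod ℓ)) :=
  { (redwFull ℓ N).range with
    inv_mem' := by
      rintro x ⟨z, rfl⟩
      by_cases h0 : redwFull ℓ N z = 0
      · rw [h0, inv_zero]
        exact Subring.zero_mem _
      · have hu : IsUnit z := by
          by_contra hnu
          exact h0 ((redwFull_eq_zero_iff_not_isUnit ℓ N z).mpr hnu)
        obtain ⟨w, hw⟩ := hu.exists_right_inv
        refine ⟨w, ?_⟩
        have := congrArg (redwFull ℓ N) hw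
        rw [map_mul, map_one] at this
        exact (inv_eq_of_mul_eq_one_right this).symm }

theorem mem_resSubfield {x : LaurentSeries (ZMod ℓ)} :
    x ∈ resSubfield ℓ N ↔ ∃ z, redwFull ℓ N z = x :=
  Iff.rfl

/-- The residue field of `OwFull` as an intermediate field of `𝔽_ℓ((q))/𝔽_ℓ`. -/
def resField : IntermediateField (ZMod ℓ) (LaurentSeries (ZMod ℓ)) :=
  (resSubfield ℓ N).toIntermediateField (fun c => by
    obtain ⟨r, rfl⟩ := RedZl.red_surjective ℓ c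
    refine ⟨⟨_, hR ℓ N r⟩, ?_⟩
    rw [hρR, algebraMap_laurentSeries_eq_single]
    rfl)

theorem mem_resField {x : LaurentSeries (ZMod ℓ)} :
    x ∈ resField ℓ N ↔ ∃ z, redwFull ℓ N z = x :=
  Iff.rfl

theorem redwFull_mem_resField (z : ↥(OwFull ℓ N)) : redwFull ℓ N z ∈ resField ℓ N := ⟨z, rfl⟩

/-- The reduction map onto the residue field. -/
def red : ↥(OwFull ℓ N) →+* ↥(resField ℓ N) :=
  (redwFull ℓ N).codRestrict (resField ℓ N) (redwFull_mem_resField ℓ N)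

@[simp]
theorem coe_red (z : ↥(OwFull ℓ N)) :
    ((red ℓ N z : ↥(resField ℓ N)) : LaurentSeries (ZMod ℓ)) = redwFull ℓ N z := rfl

theorem red_surjective : Function.Surjective (red ℓ N) := by
  rintro ⟨x, z, rfl⟩
  exact ⟨z, rfl⟩

theorem red_eq_zero_iff (u : ↥(OwFull ℓ N)) : red ℓ N u = 0 ↔ ¬ IsUnit u := by
  rw [← redwFull_eq_zero_iff_not_isUnit, Subtype.ext_iff]
  rfl

/-- The generators `J(q^d)` lie in the residue field. -/
theorem jd_mem_resField {d : ℕ} [NeZero d] (hd : d ∣ N) :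
    qExpand (ZMod ℓ) d (jqModC (ZMod ℓ)) ∈ resField ℓ N :=
  ⟨_, redwFull_jd ℓ N hd⟩

theorem full_le_resField : modularFunctionFieldFullC (ZMod ℓ) N ≤ resField ℓ N := by
  rw [modularFunctionFieldFullC, adjoin_le_iff]
  rintro x ⟨d, hne, hd, rfl⟩
  exact jd_mem_resField ℓ N hd

/-! ### The rational subfield and its reduction -/

/-- `𝔽_ℓ(J)` inside `𝔽_ℓ((q))`. -/
def kJ : IntermediateField (ZMod ℓ) (LaurentSeries (ZMod ℓ)) :=
  IntermediateField.adjoin (ZMod ℓ) {jqModC (ZMod ℓ)}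

theorem kJ_le_full : kJ ℓ ≤ modularFunctionFieldFullC (ZMod ℓ) N := by
  rw [kJ, adjoin_le_iff, Set.singleton_subset_iff]
  exact jqModC_mem_full (ZMod ℓ) N

theorem kJ_le_resField : kJ ℓ ≤ resField ℓ N := (kJ_le_full ℓ N).trans (full_le_resField ℓ N)

/-- `𝔽_ℓ(J(q^d))` as an algebra over `𝔽_ℓ(J)`. -/
def algRes : Algebra ↥(kJ ℓ) ↥(resField ℓ N) :=
  (IntermediateField.inclusion (kJ_le_resField ℓ N)).toRingHom.toAlgebra

attribute [local instance] algRes algBelow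

theorem coe_algebraMap_res (c : ↥(kJ ℓ)) :
    ((algebraMap ↥(kJ ℓ) ↥(resField ℓ N) c : ↥(resField ℓ N)) : LaurentSeries (ZMod ℓ)) = c := rfl

/-- `ℚ(j)` inside `F0`. -/
abbrev Ej : IntermediateField ℚ ↥(modularFunctionFieldFull N) := ℚ⟮jFull N⟯

/-- **The Gauss valuation ring of `ℚ(j)`**: `Vj = OwFull ∩ ℚ(j)`. -/
abbrev Vj : ValuationSubring ↥(Ej N) := below ↥(Ej N) (OwFull ℓ N)

theorem closure_le_kJ :
    Subfield.closure ({jqModC (ZMod ℓ)} : Set (LaurentSeries (ZMod ℓ))) ≤ (kJ ℓ).toSubfield := by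
  rw [Subfield.closure_le, Set.singleton_subset_iff]
  exact IntermediateField.subset_adjoin _ _ rfl

/-- The reduction of `Vj` lands in `𝔽_ℓ(J)`. -/
def redVj : ↥(Vj ℓ N) →+* ↥(kJ ℓ) :=
  ((redwFull ℓ N).comp (incl ↥(Ej N) (OwFull ℓ N))).codRestrict (kJ ℓ) (fun x =>
    closure_le_kJ ℓ (hk0 ℓ N (x : ↥(Ej N)) x.2))

theorem coe_redVj (x : ↥(Vj ℓ N)) :
    ((redVj ℓ N x : ↥(kJ ℓ)) : LaurentSeries (ZMod ℓ)) =
      redwFull ℓ N (incl ↥(Ej N) (OwFull ℓ N) x) := rfl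

theorem compat (x : ↥(Vj ℓ N)) :
    algebraMap ↥(kJ ℓ) ↥(resField ℓ N) (redVj ℓ N x) = red ℓ N (incl ↥(Ej N) (OwFull ℓ N) x) :=
  Subtype.ext rfl

/-! ### The Igusa family and the package -/

theorem closure_gens_le_resField :
    Subfield.closure (divisorExpansionsC (ZMod ℓ) N) ≤ (resField ℓ N).toSubfield := by
  rw [Subfield.closure_le]
  rintro x ⟨d, hne, hd, rfl⟩
  exact jd_mem_resField ℓ N hd

instance finiteDimensional_Ej : FiniteDimensional ↥(Ej N) ↥(modularFunctionFieldFull N) :=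
  (DegreeQ.finrank_full_le_of_algebra N).1

theorem finrank_Ej_le :
    Module.finrank ↥(Ej N) ↥(modularFunctionFieldFull N) ≤ dedekindPsi N :=
  (DegreeQ.finrank_full_le_of_algebra N).2

/-- A family of `n` elements of the residue field, independent over `𝔽_ℓ(J)`, for every
`n ≤ ψ(N)` (Igusa's bound, `ℓ ∤ N`). -/
theorem exists_indep (hℓN : ¬ ℓ ∣ N) (n : ℕ) (hn : n ≤ dedekindPsi N) :
    ∃ e : Fin n → ↥(resField ℓ N), LinearIndependent ↥(kJ ℓ) e ∧
      ∀ i, ((e i : ↥(resField ℓ N)) : LaurentSeries (ZMod ℓ)) ∈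
        Subfield.closure (divisorExpansionsC (ZMod ℓ) N) := by
  obtain ⟨e, hemem, heli⟩ := IgusaDegree.igusaBound ℓ N hℓN
  refine ⟨fun i => ⟨e (Fin.castLE hn i), closure_gens_le_resField ℓ N (hemem _)⟩, ?_,
    fun i => hemem _⟩
  rw [Fintype.linearIndependent_iff]
  intro c hc i
  have heq : (kJ ℓ).toSubfield =
      Subfield.closure ({jqModC (ZMod ℓ)} : Set (LaurentSeries (ZMod ℓ))) :=
    BaseFieldDescent.adjoin_toSubfield_zmod ℓ _
  have hmem : ∀ j, ((c j : ↥(kJ ℓ)) : LaurentSeries (ZMod ℓ)) ∈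
      Subfield.closure ({jqModC (ZMod ℓ)} : Set (LaurentSeries (ZMod ℓ))) := fun j => by
    rw [← heq]
    exact (c j).2
  have hli' : LinearIndependent
      ↥(Subfield.closure ({jqModC (ZMod ℓ)} : Set (LaurentSeries (ZMod ℓ))))
      (fun i : Fin n => e (Fin.castLE hn i)) := heli.comp _ (Fin.castLE_injective hn)
  have hsum : ∑ j, (⟨(c j : LaurentSeries (ZMod ℓ)), hmem j⟩ :
      ↥(Subfield.closure ({jqModC (ZMod ℓ)} : Set (LaurentSeries (ZMod ℓ))))) •
        e (Fin.castLE hn j) = 0 := by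
    have h1 : (resField ℓ N).val (∑ j, c j • (⟨e (Fin.castLE hn j),
        closure_gens_le_resField ℓ N (hemem _)⟩ : ↥(resField ℓ N))) = 0 := by
      rw [hc, map_zero]
    rw [map_sum] at h1
    rw [← h1]
    refine Finset.sum_congr rfl fun j _ => ?_
    rfl
  have h2 := Fintype.linearIndependent_iff.mp hli' _ hsum i
  have h3 : ((c i : ↥(kJ ℓ)) : LaurentSeries (ZMod ℓ)) = 0 :=
    congrArg (fun z : ↥(Subfield.closure ({jqModC (ZMod ℓ)} : Set (LaurentSeries (ZMod ℓ)))) =>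
      (z : LaurentSeries (ZMod ℓ))) h2
  exact Subtype.ext h3

/-- **The package of `C/UnramVal`** for `OwFull` over `Vj`. -/
theorem exists_hyp (hℓN : ¬ ℓ ∣ N) :
    ∃ t : Fin (Module.finrank ↥(Ej N) ↥(modularFunctionFieldFull N)) → ↥(OwFull ℓ N),
      Hyp ↥(Ej N) (OwFull ℓ N) (red ℓ N) (redVj ℓ N) t ∧
        ∀ i, redwFull ℓ N (t i) ∈ Subfield.closure (divisorExpansionsC (ZMod ℓ) N) := by
  obtain ⟨e, heli, hemem⟩ := exists_indep ℓ N hℓN _ (finrank_Ej_le N)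
  choose t ht using fun i => red_surjective ℓ N (e i)
  refine ⟨t, ⟨red_eq_zero_iff ℓ N, red_surjective ℓ N, compat ℓ N, ?_, by rw [Fintype.card_fin]⟩,
    fun i => ?_⟩
  · have : (fun i => red ℓ N (t i)) = e := funext ht
    rw [this]
    exact heli
  · have h1 : redwFull ℓ N (t i) = ((e i : ↥(resField ℓ N)) : LaurentSeries (ZMod ℓ)) := by
      rw [← ht i]
      rfl
    rw [h1]
    exact hemem i

/-! ### Consequences: degrees, the residue field, finite étale -/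

/-- `[𝔽_ℓ(J(q^d)) : 𝔽_ℓ(J)] = [F0 : ℚ(j)]` (residue degree = field degree). -/
theorem finrank_res_eq_finrank (hℓN : ¬ ℓ ∣ N) :
    Module.finrank ↥(kJ ℓ) ↥(resField ℓ N) =
      Module.finrank ↥(Ej N) ↥(modularFunctionFieldFull N) := by
  obtain ⟨t, h, -⟩ := exists_hyp ℓ N hℓN
  exact h.finrank_res

theorem finite_res (hℓN : ¬ ℓ ∣ N) : Module.Finite ↥(kJ ℓ) ↥(resField ℓ N) := by
  obtain ⟨t, h, -⟩ := exists_hyp ℓ N hℓN
  exact Module.Finite.of_basis h.basisRes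

/-- **`[F0 : ℚ(j)] = ψ(N)`**. -/
theorem finrank_full_eq (hℓN : ¬ ℓ ∣ N) :
    Module.finrank ↥(Ej N) ↥(modularFunctionFieldFull N) = dedekindPsi N := by
  refine le_antisymm (finrank_Ej_le N) ?_
  obtain ⟨e, heli, -⟩ := exists_indep ℓ N hℓN (dedekindPsi N) le_rfl
  haveI := finite_res ℓ N hℓN
  have h1 := heli.fintype_card_le_finrank
  rw [Fintype.card_fin, finrank_res_eq_finrank ℓ N hℓN] at h1
  exact h1

/-- **`[𝔽_ℓ(J(q^d)) : 𝔽_ℓ(J)] = ψ(N)`**. -/
theorem finrank_res_eq (hℓN : ¬ ℓ ∣ N) :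
    Module.finrank ↥(kJ ℓ) ↥(resField ℓ N) = dedekindPsi N := by
  rw [finrank_res_eq_finrank ℓ N hℓN, finrank_full_eq ℓ N hℓN]

/-- **The residue field of `OwFull` is `𝔽_ℓ(J(q^d) : d ∣ N)`**. -/
theorem resField_eq (hℓN : ¬ ℓ ∣ N) :
    resField ℓ N = modularFunctionFieldFullC (ZMod ℓ) N := by
  refine le_antisymm ?_ (full_le_resField ℓ N)
  obtain ⟨t, h, ht⟩ := exists_hyp ℓ N hℓN
  have hfull : (modularFunctionFieldFullC (ZMod ℓ) N).toSubfield =
      Subfield.closure (divisorExpansionsC (ZMod ℓ) N) :=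
    BaseFieldDescent.adjoin_toSubfield_zmod ℓ _
  intro x hx
  have hx' : (⟨x, hx⟩ : ↥(resField ℓ N)) =
      ∑ i, h.basisRes.repr ⟨x, hx⟩ i • h.basisRes i := (h.basisRes.sum_repr _).symm
  have hx'' : x = (resField ℓ N).val (∑ i, h.basisRes.repr ⟨x, hx⟩ i • h.basisRes i) := by
    rw [← hx']
    rfl
  rw [hx'', map_sum]
  refine sum_mem fun i _ => ?_
  have h1 : (resField ℓ N).val (h.basisRes.repr ⟨x, hx⟩ i • h.basisRes i) =
      ((h.basisRes.repr ⟨x, hx⟩ i : ↥(kJ ℓ)) : LaurentSeries (ZMod ℓ)) *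
        redwFull ℓ N (t i) := by
    rw [h.basisRes_apply]
    rfl
  rw [h1]
  refine mul_mem (kJ_le_full ℓ N (h.basisRes.repr ⟨x, hx⟩ i).2) ?_
  have h2 := ht i
  rw [← hfull] at h2
  exact h2

/-- `redwFull` takes values in `𝔽_ℓ(J(q^d) : d ∣ N)`. -/
theorem redwFull_mem_full (hℓN : ¬ ℓ ∣ N) (z : ↥(OwFull ℓ N)) :
    redwFull ℓ N z ∈ modularFunctionFieldFullC (ZMod ℓ) N := by
  rw [← resField_eq ℓ N hℓN]
  exact redwFull_mem_resField ℓ N z

/-- Every element of `𝔽_ℓ(J(q^d) : d ∣ N)` is the reduction of an element of `OwFull`. -/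
theorem exists_redwFull_eq (hℓN : ¬ ℓ ∣ N) {x : LaurentSeries (ZMod ℓ)}
    (hx : x ∈ modularFunctionFieldFullC (ZMod ℓ) N) : ∃ z, redwFull ℓ N z = x := by
  rw [← resField_eq ℓ N hℓN] at hx
  exact hx

/-- **`OwFull` is finite étale over `Vj`**: finite, free, and there is a basis (of cardinality
`[F0 : ℚ(j)] = ψ(N)`) whose discriminant is a unit, as soon as the residue extension
`𝔽_ℓ(J(q^d))/𝔽_ℓ(J)` is separable. -/
theorem gaussFinEt (hℓN : ¬ ℓ ∣ N) (hsep : Algebra.IsSeparable ↥(kJ ℓ) ↥(resField ℓ N)) :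
    Module.Finite ↥(Vj ℓ N) ↥(OwFull ℓ N) ∧ Module.Free ↥(Vj ℓ N) ↥(OwFull ℓ N) ∧
      ∃ b : Module.Basis (Fin (Module.finrank ↥(Ej N) ↥(modularFunctionFieldFull N)))
        ↥(Vj ℓ N) ↥(OwFull ℓ N), IsUnit (Algebra.discr ↥(Vj ℓ N) b) := by
  obtain ⟨t, h, -⟩ := exists_hyp ℓ N hℓN
  exact ⟨h.finite, h.free, h.basisV, h.isUnit_discr⟩

/-- The value groups agree: every nonzero `f ∈ F0` is an element of `ℚ(j)ˣ` times a unit of
`OwFull`. -/
theorem exists_scale (hℓN : ¬ ℓ ∣ N) (f : ↥(modularFunctionFieldFull N)) (hf : f ≠ 0) :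
    ∃ (a : ↥(Ej N)) (u : (↥(OwFull ℓ N))ˣ), a ≠ 0 ∧
      f = (a : ↥(modularFunctionFieldFull N)) *
        ((u : ↥(OwFull ℓ N)) : ↥(modularFunctionFieldFull N)) := by
  obtain ⟨t, h, -⟩ := exists_hyp ℓ N hℓN
  exact h.exists_scale f hf

/-- `OwFull` is the integral closure of `Vj` in `F0`. -/
theorem isIntegralElem_iff_mem (hℓN : ¬ ℓ ∣ N) (f : ↥(modularFunctionFieldFull N)) :
    ((algebraMap ↥(Ej N) ↥(modularFunctionFieldFull N)).comp (Vj ℓ N).subtype).IsIntegralElem f ↔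
      f ∈ OwFull ℓ N := by
  obtain ⟨t, h, -⟩ := exists_hyp ℓ N hℓN
  exact h.isIntegralElem_iff_mem f

end Fermat.Agent.S18.C.GaussDVR
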