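/-
PROJECT H (S18), block C (helper13): the degree `[𝔽_ℓ(J(q^d) : d ∣ N) : 𝔽_ℓ(J)] = ψ(N)` in the
`IntermediateField.adjoin` form, and the hypothesis-free form / base change isomorphisms along
`𝔽_ℓ → k` (`k` algebraically closed of characteristic `ℓ ∤ N`).

* `finrank_relative_eq` : for intermediate fields `E ≤ F` of `Ω / K` with `E = K(x)`, `x ∈ F`:
  the relative degree `[F : E]` (algebra structure by inclusion) is `finrank K⟮x⟯ ↥F`;
* `finrank_zmod_eq` : `finrank (ZMod ℓ)⟮J⟯ F_{𝔽_ℓ} = ψ(N)` (from `GaussDVR.finrank_res_eq` and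
  `GaussDVR.resField_eq`);
* for `[Algebra (ZMod ℓ) k] [IsAlgClosed k]`, `ℓ ∤ N`: `finrank_fullC_eq : [F_k : k(J)] = ψ(N)`,
  `formEquivZMod`, `exists_basis_zmod`, `baseChangeEquivZMod`.
-/
import Fermat.Agent.S18.C.GaussDVR
import Fermat.Agent.S18.C.BaseChangeR

set_option autoImplicit false
set_option linter.style.haveILetI false

noncomputable section

namespace Fermat.Agent.S18.C.FormsZMod

open ModularCurve IntermediateField TensorProduct
open Fermat.Agent.S18.B.FkBasics (jk)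
open Fermat.Agent.S18.C.Defs Fermat.Agent.S18.C.RAlgStructure

/-! ### relative degree = degree over a simple adjoin inside the subtype -/

section Relative

variable {K Ω : Type*} [Field K] [Field Ω] [Algebra K Ω]

/-- For intermediate fields `E ≤ F` of `Ω / K` with `E = K(x)` for some `x ∈ F`, the relative
degree `[F : E]` (with the algebra structure given by the inclusion) equals
`finrank K⟮x⟯ ↥F`. -/
theorem finrank_relative_eq (E F : IntermediateField K Ω) (hEF : E ≤ F) (x : ↥F)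
    (hE : E = IntermediateField.adjoin K {(x : Ω)}) :
    letI := (IntermediateField.inclusion hEF).toRingHom.toAlgebra
    Module.finrank ↥E ↥F = Module.finrank K⟮x⟯ ↥F := by
  letI := (IntermediateField.inclusion hEF).toRingHom.toAlgebra
  have hmap : (K⟮x⟯).map F.val = E := by
    rw [IntermediateField.adjoin_map, Set.image_singleton, hE]
    rfl
  have hmem : ∀ c : K⟮x⟯, (((c : ↥F)) : Ω) ∈ E := by
    intro c
    rw [← hmap]
    exact ⟨(c : ↥F), c.2, rfl⟩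
  let i : ↥K⟮x⟯ → ↥E := fun c => ⟨((c : ↥F) : Ω), hmem c⟩
  have hi : Function.Bijective i := by
    constructor
    · intro c c' h
      have h1 : (((c : ↥F)) : Ω) = ((c' : ↥F) : Ω) :=
        congrArg (fun z : ↥E => (z : Ω)) h
      exact Subtype.ext (Subtype.ext h1)
    · rintro ⟨y, hy⟩
      have hy' : y ∈ (K⟮x⟯).map F.val := by rw [hmap]; exact hy
      obtain ⟨z, hz, rfl⟩ := hy'
      exact ⟨⟨z, hz⟩, rfl⟩
  have h := rank_eq_of_equiv_equiv (R := ↥K⟮x⟯) (R' := ↥E) (M := ↥F) (M₁ := ↥F) i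
    (AddEquiv.refl ↥F) hi (fun r m => by
      apply Subtype.ext
      rfl)
  unfold Module.finrank
  rw [h]

/-- Transport of `finrank K⟮x⟯ ↥F` along an equality of intermediate fields. -/
theorem finrank_adjoin_congr {F F' : IntermediateField K Ω} (h : F = F') (x : ↥F) (x' : ↥F')
    (hx : (x : Ω) = x') : Module.finrank K⟮x⟯ ↥F = Module.finrank K⟮x'⟯ ↥F' := by
  subst h
  have h1 : x = x' := Subtype.ext hx
  rw [h1]

end Relative

/-! ### the degree over `𝔽_ℓ` -/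

section ZMod

open Fermat.Agent.S18.C.GaussDVR

variable (ℓ : ℕ) [Fact ℓ.Prime] (N : ℕ) [NeZero N]

/-- **`[𝔽_ℓ(J(q^d) : d ∣ N) : 𝔽_ℓ(J)] = ψ(N)`** in the `IntermediateField.adjoin` form used by
`FkBasics` / `Forms` (`ℓ ∤ N`). -/
theorem finrank_zmod_eq (hℓN : ¬ ℓ ∣ N) :
    Module.finrank (ZMod ℓ)⟮jk (ZMod ℓ) N⟯ ↥(modularFunctionFieldFullC (ZMod ℓ) N)
      = dedekindPsi N := by
  have hmem : jqModC (ZMod ℓ) ∈ resField ℓ N :=
    full_le_resField ℓ N (jqModC_mem_full (ZMod ℓ) N)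
  have h1 := finrank_relative_eq (kJ ℓ) (resField ℓ N) (kJ_le_resField ℓ N)
    ⟨jqModC (ZMod ℓ), hmem⟩ rfl
  have h2 := finrank_adjoin_congr (resField_eq ℓ N hℓN) ⟨jqModC (ZMod ℓ), hmem⟩
    (jk (ZMod ℓ) N) rfl
  rw [← h2, ← h1]
  exact finrank_res_eq ℓ N hℓN

variable (k : Type*) [Field k] [Algebra (ZMod ℓ) k] [IsAlgClosed k]

omit [NeZero N] [IsAlgClosed k] in
include ℓ in
/-- `(N : k) ≠ 0` for a field `k` of characteristic `ℓ ∤ N`. -/
theorem natCast_ne_zero (hℓN : ¬ ℓ ∣ N) : (N : k) ≠ 0 := by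
  haveI : CharP k ℓ := by
    have h := (algebraMap (ZMod ℓ) k).injective
    exact charP_of_injective_algebraMap h ℓ
  rwa [Ne, CharP.cast_eq_zero_iff k ℓ]

/-- `[F_{𝔽_ℓ} : 𝔽_ℓ(J)] ≤ [F_k : k(J)]`. -/
theorem finrank_zmod_le (hℓN : ¬ ℓ ∣ N) :
    Module.finrank (ZMod ℓ)⟮jk (ZMod ℓ) N⟯ ↥(modularFunctionFieldFullC (ZMod ℓ) N)
      ≤ Module.finrank k⟮jk k N⟯ ↥(modularFunctionFieldFullC k N) :=
  Forms.finrank_le_finrank_fullC (ZMod ℓ) k N (natCast_ne_zero ℓ N k hℓN)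
    (finrank_zmod_eq ℓ N hℓN).le

/-- **`[F_k : k(J)] = ψ(N)`** for `k` algebraically closed of characteristic `ℓ ∤ N`. -/
theorem finrank_fullC_eq (hℓN : ¬ ℓ ∣ N) :
    Module.finrank k⟮jk k N⟯ ↥(modularFunctionFieldFullC k N) = dedekindPsi N :=
  Forms.finrank_fullC_eq_dedekindPsi (ZMod ℓ) k N (natCast_ne_zero ℓ N k hℓN)
    (finrank_zmod_eq ℓ N hℓN).le

/-- `[F_k : k(X)] = ψ(N)` (the `j`-line structure of `ModularInst`). -/
theorem finrank_ratFunc_fullC_eq (hℓN : ¬ ℓ ∣ N) :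
    Module.finrank (RatFunc k) ↥(modularFunctionFieldFullC k N) = dedekindPsi N :=
  (BaseChangeR.finrank_ratFunc_fullC k N).2.trans (finrank_fullC_eq ℓ N k hℓN)

/-- `[F_{𝔽_ℓ} : 𝔽_ℓ(X)] = ψ(N)`. -/
theorem finrank_ratFunc_zmod_eq (hℓN : ¬ ℓ ∣ N) :
    Module.finrank (RatFunc (ZMod ℓ)) ↥(modularFunctionFieldFullC (ZMod ℓ) N) = dedekindPsi N :=
  (BaseChangeR.finrank_ratFunc_fullC (ZMod ℓ) N).2.trans (finrank_zmod_eq ℓ N hℓN)

/-- **Form isomorphism (ii), hypothesis-free**: `k(J) ⊗_{𝔽_ℓ(J)} F_{𝔽_ℓ} ≃ F_k`. -/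
def formEquivZMod (hℓN : ¬ ℓ ∣ N) :=
  Forms.formEquivK (ZMod ℓ) k N (finrank_zmod_le ℓ N k hℓN)

/-- **Basis transfer (ii), hypothesis-free, `RatFunc` form**. -/
theorem exists_basis_zmod (hℓN : ¬ ℓ ∣ N) {ι : Type*}
    (b : Module.Basis ι (RatFunc (ZMod ℓ)) ↥(modularFunctionFieldFullC (ZMod ℓ) N)) :
    ∃ b' : Module.Basis ι (RatFunc k) ↥(modularFunctionFieldFullC k N),
      ∀ i, b' i = Forms.embK (ZMod ℓ) k N (b i) :=
  BaseChangeR.exists_basis_fullC (ZMod ℓ) k N (finrank_zmod_le ℓ N k hℓN) b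

variable (c : Cover) [c.Good (ZMod ℓ)] [c.Good k]

/-- **Base change isomorphism (ii), hypothesis-free**:
`k(μ) ⊗_{𝔽_ℓ(μ)} RAlg c 𝔽_ℓ F_{𝔽_ℓ} ≃ RAlg c k F_k`. -/
def baseChangeEquivZMod (hℓN : ¬ ℓ ∣ N) :=
  BaseChangeR.baseChangeEquivK (ZMod ℓ) k N (finrank_zmod_le ℓ N k hℓN) c

theorem compRK_injective_zmod (hℓN : ¬ ℓ ∣ N) :
    Function.Injective (BaseChangeR.compRK (ZMod ℓ) k N c) :=
  BaseChangeR.compRK_injective (ZMod ℓ) k N (finrank_zmod_le ℓ N k hℓN) c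

end ZMod

end Fermat.Agent.S18.C.FormsZMod

end
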