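/-
PROJECT H (S18), block C, slice H-C6b part 3 (helper9): complements to `C/GaussDVR`.

* `mem_OwFull_iff_of_mem_Ej` : the CONCRETE description of `Vj = OwFull ∩ ℚ(j)`: an element `x` of
  `ℚ(j)` lies in `OwFull` iff `x · Q(j) = P(j)` for integer polynomials `P, Q` with `Q ≢ 0 mod ℓ`
  (`Vj = ℤ_(ℓ)[j]_(ℓ)`, the Gauss valuation ring of `ℚ(j)`);
* `finEt` : `FinEt Vj OwFull` in the form of `C/FinEt`.
-/
import Mathlib
import Fermat.Agent.S18.C.GaussDVR
import Fermat.Agent.S18.C.FinEt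

set_option autoImplicit false
set_option linter.unusedSectionVars false

noncomputable section

namespace Fermat.Agent.S18.C.GaussDVR2

open HahnSeries ModularCurve ModularCurve.IgusaScheme IntermediateField Polynomial
open Fermat.Agent.S28 Fermat.Agent.S28.GaussFull Fermat.Agent.S28.GaussVal
open Fermat.Agent.S18.C.UnramVal Fermat.Agent.S18.C.GaussDVR

variable (ℓ : ℕ) [Fact ℓ.Prime] (N : ℕ) [NeZero N]

attribute [local instance] algRes algBelow

theorem coe_evZ_jFull (P : ℤ[X]) :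
    ((evZ (jFull N) P : ↥(modularFunctionFieldFull N)) : LaurentSeries ℚ) = evZ jq P :=
  map_evZ (modularFunctionFieldFull N).toSubalgebra.toSubring.subtype (jFull N) P

theorem redL_evZ_jq (P : ℤ[X]) :
    redL ℓ (evZ jq P) = Polynomial.aeval (jqModC (ZMod ℓ)) (P.map (Int.castRingHom (ZMod ℓ))) := by
  rw [redL_evZ (jq_mem_Ol ℓ), redL_jq, evZ_eq_aeval_map (k := ZMod ℓ)]

theorem redL_evZ_jq_ne_zero {Q : ℤ[X]} (hQ : Q.map (Int.castRingHom (ZMod ℓ)) ≠ 0) :
    redL ℓ (evZ jq Q) ≠ 0 := by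
  rw [redL_evZ_jq]
  intro h
  exact hQ ((transcendental_iff.mp (transcendental_J ℓ)) _ h)

theorem map_ne_zero_of_redL_ne_zero {Q : ℤ[X]} (h : redL ℓ (evZ jq Q) ≠ 0) :
    Q.map (Int.castRingHom (ZMod ℓ)) ≠ 0 := by
  intro h0
  apply h
  rw [redL_evZ_jq, h0, map_zero]

/-- **Concrete description of `Vj = OwFull ∩ ℚ(j)`**: fractions `P(j)/Q(j)` of integer polynomials
with `Q ≢ 0 mod ℓ`. -/
theorem mem_OwFull_iff_of_mem_Ej (x : ↥(Ej N)) :
    (x : ↥(modularFunctionFieldFull N)) ∈ OwFull ℓ N ↔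
      ∃ P Q : ℤ[X], Q.map (Int.castRingHom (ZMod ℓ)) ≠ 0 ∧
        (x : ↥(modularFunctionFieldFull N)) * evZ (jFull N) Q = evZ (jFull N) P := by
  have hT : Transcendental (ZMod ℓ) (redL ℓ jq) := by
    rw [redL_jq]
    exact transcendental_J ℓ
  constructor
  · intro hxO
    have hxO' : InOw ℓ (modularFunctionFieldFull N)
        ((x : ↥(modularFunctionFieldFull N)) : LaurentSeries ℚ) := hxO
    by_cases hx0 : ((x : ↥(modularFunctionFieldFull N)) : LaurentSeries ℚ) = 0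
    · refine ⟨0, 1, ?_, ?_⟩
      · rw [Polynomial.map_one]; exact one_ne_zero
      · apply Subtype.ext
        rw [map_zero, map_one, mul_one]
        exact hx0
    obtain ⟨P, Q, hQ0, hPQ⟩ := exists_evZ_of_mem_adjoin (coe_mem_adjoin_jq N x.2)
    have hP0 : evZ jq P ≠ 0 := by
      rw [← hPQ]
      exact mul_ne_zero hx0 hQ0
    obtain ⟨r, P', hP, hP'⟩ := exists_strip (jq_mem_Ol ℓ) hT P hP0
    obtain ⟨s, Q', hQ, hQ'⟩ := exists_strip (jq_mem_Ol ℓ) hT Q hQ0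
    have hFsub : ∀ R : ℤ[X], evZ jq R ∈ modularFunctionFieldFull N := fun R => by
      rw [← coe_evZ_jFull N]
      exact Subtype.coe_prop _
    set u := evZ jq P' with hu
    set v := evZ jq Q' with hv
    have huO : u ∈ Ol ℓ := evZ_mem_Ol (jq_mem_Ol ℓ) P'
    have hvO : v ∈ Ol ℓ := evZ_mem_Ol (jq_mem_Ol ℓ) Q'
    have hl0 : lL ℓ ≠ 0 := lL_ne_zero ℓ
    have hrel : ((x : ↥(modularFunctionFieldFull N)) : LaurentSeries ℚ) * (lL ℓ ^ s * v) =
        lL ℓ ^ r * u := by rw [← hQ, ← hP, hPQ]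
    rcases le_or_gt s r with hsr | hrs
    · obtain ⟨n, rfl⟩ := Nat.exists_eq_add_of_le hsr
      have hrel' : ((x : ↥(modularFunctionFieldFull N)) : LaurentSeries ℚ) * v = lL ℓ ^ n * u := by
        apply mul_left_cancel₀ (pow_ne_zero s hl0)
        rw [← mul_assoc, mul_comm (lL ℓ ^ s) _, mul_assoc, hrel, _root_.pow_add, mul_assoc]
      refine ⟨Polynomial.C (ℓ : ℤ) ^ n * P', Q', map_ne_zero_of_redL_ne_zero ℓ hQ', ?_⟩
      apply Subtype.ext
      show ((x : ↥(modularFunctionFieldFull N)) : LaurentSeries ℚ) *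
        ((evZ (jFull N) Q' : ↥(modularFunctionFieldFull N)) : LaurentSeries ℚ) =
          ((evZ (jFull N) (Polynomial.C (ℓ : ℤ) ^ n * P') : ↥(modularFunctionFieldFull N)) :
            LaurentSeries ℚ)
      rw [coe_evZ_jFull, coe_evZ_jFull, hrel', map_mul, map_pow, evZ_C, lL_eq_natCast]
      rfl
    · exfalso
      obtain ⟨n, rfl⟩ := Nat.exists_eq_add_of_le (Nat.succ_le_of_lt hrs)
      have hrel' : ((x : ↥(modularFunctionFieldFull N)) : LaurentSeries ℚ) *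
          (lL ℓ * (lL ℓ ^ n * v)) = u := by
        apply mul_left_cancel₀ (pow_ne_zero r hl0)
        rw [← hrel, Nat.succ_eq_add_one, _root_.pow_add, _root_.pow_add, pow_one]
        ring
      have hwO : lL ℓ * (lL ℓ ^ n * v) ∈ Ol ℓ :=
        (Ol ℓ).mul_mem (lL_mem_Ol ℓ) ((Ol ℓ).mul_mem (lL_pow_mem_Ol n) hvO)
      have hwF : lL ℓ * (lL ℓ ^ n * v) ∈ modularFunctionFieldFull N :=
        (modularFunctionFieldFull N).mul_mem (lL_mem_F ℓ _)
          ((modularFunctionFieldFull N).mul_mem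
            ((modularFunctionFieldFull N).pow_mem (lL_mem_F ℓ _) n) (hFsub Q'))
      have h1 := redwL_mul hxO' (inOw_of_mem hwF hwO)
      rw [hrel', redwL_of_mem (hFsub P') huO, redwL_of_mem hwF hwO,
        redL_lL_mul ℓ ((Ol ℓ).mul_mem (lL_pow_mem_Ol n) hvO), mul_zero] at h1
      exact hP' h1
  · rintro ⟨P, Q, hQ, hPQ⟩
    show InOw ℓ (modularFunctionFieldFull N)
      ((x : ↥(modularFunctionFieldFull N)) : LaurentSeries ℚ)
    refine ⟨evZ jq P, evZ jq Q, ?_, evZ_mem_Ol (jq_mem_Ol ℓ) P, ?_, evZ_mem_Ol (jq_mem_Ol ℓ) Q,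
      redL_evZ_jq_ne_zero ℓ hQ, ?_⟩
    · rw [← coe_evZ_jFull N]; exact Subtype.coe_prop _
    · rw [← coe_evZ_jFull N]; exact Subtype.coe_prop _
    · have := congrArg (Subtype.val) hPQ
      rw [coe_evZ_jFull] at this
      rw [← this, ← coe_evZ_jFull N Q]
      rfl

/-- `OwFull` is finite étale over `Vj` (form of `C/FinEt`). -/
theorem finEt (hℓN : ¬ ℓ ∣ N) (hsep : Algebra.IsSeparable ↥(kJ ℓ) ↥(resField ℓ N)) :
    Fermat.Agent.S18.C.FinEt.FinEt ↥(Vj ℓ N) ↥(OwFull ℓ N) := by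
  obtain ⟨-, -, b, hb⟩ := gaussFinEt ℓ N hℓN hsep
  exact Fermat.Agent.S18.C.FinEt.finEt_of_basis b hb

end Fermat.Agent.S18.C.GaussDVR2
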