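/-
PROJECT H (S18), block C, slice H-C6b part 4 (helper9): `C/GaussDVR` IN THE `RatFunc ℚ`
PRESENTATION OF THE `j`-LINE used by `C/Defs`, `C/SurfaceDefs`, `C/ModularInst`.

`F0 = modularFunctionFieldFull N` is a `RatFunc ℚ`-algebra through `X ↦ jFull N`
(`ModularInst.algF0`).  `Vrat ℓ N := OwFull ∩ ℚ(X)` is the Gauss valuation ring of the `j`-line at
`ℓ`; it does not depend on `N` (`mem_Vrat_iff`: fractions `P/Q` of integer polynomials with
`Q ≢ 0 mod ℓ`).  `OwFull` is finite étale over it (`hypRat`, `finEtRat`).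
-/
import Mathlib
import Fermat.Agent.S18.C.GaussDVR2
import Fermat.Agent.S18.C.ModularInst

set_option autoImplicit false
set_option linter.unusedSectionVars false

noncomputable section

namespace Fermat.Agent.S18.C.GaussRat

open HahnSeries ModularCurve ModularCurve.IgusaScheme IntermediateField Polynomial
open Fermat.Agent.S28 Fermat.Agent.S28.GaussFull Fermat.Agent.S28.GaussVal
open Fermat.Agent.S18.C.UnramVal Fermat.Agent.S18.C.GaussDVR Fermat.Agent.S18.C.GaussDVR2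
open Fermat.Agent.S18.C.ModularInst Fermat.Agent.S18.A

variable (ℓ : ℕ) [Fact ℓ.Prime] (N : ℕ) [NeZero N]

attribute [local instance] algRes algBelow

/-! ### `RatFunc ℚ` versus `ℚ⟮jFull N⟯` -/

theorem jFull_mem_Ej : jFull N ∈ Ej N := IntermediateField.mem_adjoin_simple_self ℚ (jFull N)

/-- `RatFunc ℚ → ℚ⟮j⟯`, `X ↦ j`. -/
def toEj : RatFunc ℚ →+* ↥(Ej N) :=
  Chart.ratToAdjoin (transcendental_jFull N) (jFull_mem_Ej N)

theorem coe_toEj (a : RatFunc ℚ) :
    ((toEj N a : ↥(Ej N)) : ↥(modularFunctionFieldFull N)) =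
      algebraMap (RatFunc ℚ) ↥(modularFunctionFieldFull N) a := rfl

/-- A `RatFunc ℚ`-basis of `F0` from a `ℚ⟮j⟯`-basis. -/
def ratBasisOf {ι : Type*} (b : Module.Basis ι ↥(Ej N) ↥(modularFunctionFieldFull N)) :
    Module.Basis ι (RatFunc ℚ) ↥(modularFunctionFieldFull N) :=
  Chart.ratBasis (transcendental_jFull N) (jFull_mem_Ej N)
    (Chart.evalRat_X (transcendental_jFull N)) b

instance finiteDimensional_rat : FiniteDimensional (RatFunc ℚ) ↥(modularFunctionFieldFull N) :=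
  Module.Finite.of_basis (ratBasisOf N (Module.finBasis ↥(Ej N) ↥(modularFunctionFieldFull N)))

theorem finrank_rat_eq :
    Module.finrank (RatFunc ℚ) ↥(modularFunctionFieldFull N) =
      Module.finrank ↥(Ej N) ↥(modularFunctionFieldFull N) := by
  rw [Module.finrank_eq_card_basis
    (ratBasisOf N (Module.finBasis ↥(Ej N) ↥(modularFunctionFieldFull N))), Fintype.card_fin]

/-- `[F0 : ℚ(j)] = ψ(N)` in the `RatFunc` presentation. -/
theorem finrank_rat (hℓN : ¬ ℓ ∣ N) :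
    Module.finrank (RatFunc ℚ) ↥(modularFunctionFieldFull N) = dedekindPsi N := by
  rw [finrank_rat_eq, finrank_full_eq ℓ N hℓN]

/-! ### The Gauss valuation ring of the `j`-line -/

/-- **The Gauss valuation ring of `ℚ(X)` at `ℓ`**, as the trace of `OwFull` on the `j`-line. -/
abbrev Vrat : ValuationSubring (RatFunc ℚ) := below (RatFunc ℚ) (OwFull ℓ N)

theorem mem_Vrat {f : RatFunc ℚ} :
    f ∈ Vrat ℓ N ↔ algebraMap (RatFunc ℚ) ↥(modularFunctionFieldFull N) f ∈ OwFull ℓ N := Iff.rfl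

/-- `Vrat → Vj`. -/
def toVj : ↥(Vrat ℓ N) →+* ↥(Vj ℓ N) where
  toFun x := ⟨toEj N x, x.2⟩
  map_one' := Subtype.ext (map_one _)
  map_mul' x y := Subtype.ext (map_mul _ _ _)
  map_zero' := Subtype.ext (map_zero _)
  map_add' x y := Subtype.ext (map_add _ _ _)

/-- The reduction of the Gauss valuation ring of the `j`-line, with values in `𝔽_ℓ(J)`. -/
def redVrat : ↥(Vrat ℓ N) →+* ↥(kJ ℓ) := (redVj ℓ N).comp (toVj ℓ N)

theorem compatRat (x : ↥(Vrat ℓ N)) :
    algebraMap ↥(kJ ℓ) ↥(resField ℓ N) (redVrat ℓ N x) =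
      red ℓ N (incl (RatFunc ℚ) (OwFull ℓ N) x) :=
  compat ℓ N (toVj ℓ N x)

/-- **The `UnramVal` package over the `j`-line `RatFunc ℚ`.** -/
theorem hypRat (hℓN : ¬ ℓ ∣ N) :
    ∃ t : Fin (Module.finrank ↥(Ej N) ↥(modularFunctionFieldFull N)) → ↥(OwFull ℓ N),
      Hyp (RatFunc ℚ) (OwFull ℓ N) (red ℓ N) (redVrat ℓ N) t := by
  obtain ⟨t, h, -⟩ := GaussDVR.exists_hyp ℓ N hℓN
  exact ⟨t, h.ker, h.surj, compatRat ℓ N, h.indep, by rw [Fintype.card_fin, finrank_rat_eq]⟩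

/-- **`OwFull` is finite étale over the Gauss valuation ring of the `j`-line** (given the
separability of the residue extension, slice H-B3). -/
theorem finEtRat (hℓN : ¬ ℓ ∣ N) (hsep : Algebra.IsSeparable ↥(kJ ℓ) ↥(resField ℓ N)) :
    Fermat.Agent.S18.C.FinEt.FinEt ↥(Vrat ℓ N) ↥(OwFull ℓ N) := by
  obtain ⟨t, h⟩ := hypRat ℓ N hℓN
  exact Fermat.Agent.S18.C.FinEt.finEt_of_basis h.basisV h.isUnit_discr

/-- `OwFull` is the integral closure of `Vrat` in `F0`. -/
theorem isIntegralElem_iff_mem_rat (hℓN : ¬ ℓ ∣ N) (f : ↥(modularFunctionFieldFull N)) :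
    ((algebraMap (RatFunc ℚ) ↥(modularFunctionFieldFull N)).comp
      (Vrat ℓ N).subtype).IsIntegralElem f ↔ f ∈ OwFull ℓ N := by
  obtain ⟨t, h⟩ := hypRat ℓ N hℓN
  exact h.isIntegralElem_iff_mem f

/-- Every nonzero `f ∈ F0` is a nonzero rational function of `j` times a unit of `OwFull`. -/
theorem exists_scale_rat (hℓN : ¬ ℓ ∣ N) (f : ↥(modularFunctionFieldFull N)) (hf : f ≠ 0) :
    ∃ (a : RatFunc ℚ) (u : (↥(OwFull ℓ N))ˣ), a ≠ 0 ∧
      f = algebraMap (RatFunc ℚ) ↥(modularFunctionFieldFull N) a *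
        ((u : ↥(OwFull ℓ N)) : ↥(modularFunctionFieldFull N)) := by
  obtain ⟨t, h⟩ := hypRat ℓ N hℓN
  exact h.exists_scale f hf

/-! ### The concrete description -/

/-- an integer polynomial as a rational function -/
def ofZ (P : ℤ[X]) : RatFunc ℚ := algebraMap ℚ[X] (RatFunc ℚ) (P.map (Int.castRingHom ℚ))

theorem algebraMap_ofZ (P : ℤ[X]) :
    algebraMap (RatFunc ℚ) ↥(modularFunctionFieldFull N) (ofZ P) = evZ (jFull N) P := by
  rw [ofZ, algebraMap_F0, Chart.evalRat_algebraMap, evZ_eq_aeval_map (k := ℚ)]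

/-- **Concrete description of the Gauss valuation ring of the `j`-line**: `f ∈ Vrat` iff
`f · Q = P` for integer polynomials `P, Q` with `Q ≢ 0 mod ℓ`.  (In particular `Vrat ℓ N` does not
depend on `N`.) -/
theorem mem_Vrat_iff (f : RatFunc ℚ) :
    f ∈ Vrat ℓ N ↔ ∃ P Q : ℤ[X], Q.map (Int.castRingHom (ZMod ℓ)) ≠ 0 ∧ f * ofZ Q = ofZ P := by
  rw [mem_Vrat, ← coe_toEj, mem_OwFull_iff_of_mem_Ej]
  have hinj : Function.Injective (algebraMap (RatFunc ℚ) ↥(modularFunctionFieldFull N)) :=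
    (algebraMap (RatFunc ℚ) ↥(modularFunctionFieldFull N)).injective
  constructor
  · rintro ⟨P, Q, hQ, h⟩
    refine ⟨P, Q, hQ, hinj ?_⟩
    rw [map_mul, algebraMap_ofZ, algebraMap_ofZ, ← h, coe_toEj]
  · rintro ⟨P, Q, hQ, h⟩
    refine ⟨P, Q, hQ, ?_⟩
    rw [coe_toEj, ← algebraMap_ofZ, ← algebraMap_ofZ, ← map_mul, h]

end Fermat.Agent.S18.C.GaussRat
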