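import Mathlib
import Fermat.Agent.S18.C.Defs

/-!
# PROJECT H (S18), block C: the Gauss valuation ring `V[μ]_(𝔪_V)` of `K(μ)`

For a valuation subring `V` of a field `K` with residue field `κ`:

* `polyEquiv V : V[X] ≃+* polyV V`, `redPoly V : polyV V →+* κ[X]` (coefficientwise reduction);
* `IsPrim V p` : `p ∈ V[X]` with a unit coefficient; `exists_smul_isPrim`; Gauss' lemma
  `IsPrim.mul`;
* `gaussRing V : ValuationSubring (RatFunc K)` : fractions `a / s`, `a, s ∈ V[X]`, `s` primitive;
  `discRing_le`, `algebraMap_mem_gaussRing_iff` (`gaussRing V ∩ K = V`);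
* `redG : gaussRing V →+* RatFunc κ` (`a / s ↦ ā / s̄`), `redG_eq` (any presentation), `redG_X`,
  `redG_constHom`, `redG_surjective`, `isUnit_iff_redG_ne_zero`, `ker_redG`, `residueEquiv`;
* `exists_const_mul_unit` : the value group of `gaussRing V` is that of `V`;
  `isUnit_iff_not_C_mul` : for `𝔪_V = (l)`, `d ∈ discRing V` is a unit of `gaussRing V` iff `l ∤ d`;
* `isDiscreteValuationRing` : `V` a DVR ⟹ `gaussRing V` a DVR (`maximalIdeal_eq_span`,
  `irreducible_constHom`: same uniformiser);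
* `eq_gaussRing_of_le`, `gaussRing_le` : recognising the Gauss ring among valuation rings of `K(μ)`;
* substitution `μ ↦ g` (`φ : K(μ) →ₐ[K] K(μ)`, `g = φ μ` in the Gauss ring with transcendental
  reduction): `map_mem_gaussRing_iff` (`φ⁻¹ (gaussRing V) = gaussRing V`), `substHom`,
  `isUnit_substHom_iff`, `redG_substHom`.
-/

set_option autoImplicit false

noncomputable section

namespace Fermat.Agent.S18.C.GaussRing

open Polynomial Fermat.Agent.S18.C.Defs

variable {K : Type*} [Field K] (V : ValuationSubring K)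

/-! ### polynomials over `V` -/

theorem map_subtype_injective :
    Function.Injective (Polynomial.mapRingHom V.subtype : V[X] →+* K[X]) :=
  Polynomial.map_injective _ Subtype.val_injective

/-- `V[X] ≃ polyV V` -/
def polyEquiv : V[X] ≃+* polyV V :=
  RingEquiv.ofBijective (Polynomial.mapRingHom V.subtype).rangeRestrict
    ⟨fun _ _ h => map_subtype_injective V (congrArg Subtype.val h),
      RingHom.rangeRestrict_surjective _⟩

@[simp]
theorem coe_polyEquiv (p : V[X]) : ((polyEquiv V p : polyV V) : K[X]) = p.map V.subtype := rfl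

theorem coeff_polyEquiv_symm (p : polyV V) (i : ℕ) :
    (((polyEquiv V).symm p).coeff i : K) = (p : K[X]).coeff i := by
  have h : ((polyEquiv V ((polyEquiv V).symm p) : polyV V) : K[X]) = p := by
    rw [RingEquiv.apply_symm_apply]
  rw [coe_polyEquiv] at h
  rw [← h, Polynomial.coeff_map]
  rfl

/-- the residue field of `V` -/
abbrev kappa : Type _ := IsLocalRing.ResidueField V

/-- coefficientwise reduction `V[X] → κ[X]` on `polyV V` -/
def redPoly : polyV V →+* (kappa V)[X] :=
  (Polynomial.mapRingHom (IsLocalRing.residue V)).comp (polyEquiv V).symm.toRingHom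

theorem coeff_redPoly (p : polyV V) (i : ℕ) :
    (redPoly V p).coeff i = IsLocalRing.residue V (((polyEquiv V).symm p).coeff i) := by
  simp [redPoly, Polynomial.coeff_map]

theorem C_mem_polyV {c : K} (hc : c ∈ V) : (C c : K[X]) ∈ polyV V :=
  (mem_polyV V).mpr fun i => by
    rw [Polynomial.coeff_C]
    split_ifs
    · exact hc
    · exact V.zero_mem

theorem X_mem_polyV : (X : K[X]) ∈ polyV V :=
  (mem_polyV V).mpr fun i => by
    rw [Polynomial.coeff_X]
    split_ifs
    · exact V.one_mem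
    · exact V.zero_mem

/-- `p ∈ V[X]` with a unit coefficient -/
def IsPrim (p : K[X]) : Prop := p ∈ polyV V ∧ ∃ i, V.valuation (p.coeff i) = 1

variable {V}

theorem IsPrim.mem {p : K[X]} (h : IsPrim V p) : p ∈ polyV V := h.1

theorem IsPrim.ne_zero {p : K[X]} (h : IsPrim V p) : p ≠ 0 := by
  rintro rfl
  obtain ⟨i, hi⟩ := h.2
  simp at hi

theorem redPoly_ne_zero_iff (p : polyV V) :
    redPoly V p ≠ 0 ↔ ∃ i, V.valuation ((p : K[X]).coeff i) = 1 := by
  rw [Ne, Polynomial.ext_iff, not_forall]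
  refine exists_congr fun i => ?_
  rw [coeff_redPoly, Polynomial.coeff_zero, ← Ne, IsLocalRing.residue_ne_zero_iff_isUnit,
    ValuationSubring.valuation_eq_one_iff, coeff_polyEquiv_symm]

theorem isPrim_iff {p : K[X]} (hp : p ∈ polyV V) : IsPrim V p ↔ redPoly V ⟨p, hp⟩ ≠ 0 := by
  rw [redPoly_ne_zero_iff]
  exact ⟨fun h => h.2, fun h => ⟨hp, h⟩⟩

/-- **Gauss' lemma** -/
theorem IsPrim.mul {p q : K[X]} (hp : IsPrim V p) (hq : IsPrim V q) : IsPrim V (p * q) := by
  have hpq : p * q ∈ polyV V := (polyV V).mul_mem hp.1 hq.1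
  rw [isPrim_iff hpq]
  have h : redPoly V ⟨p * q, hpq⟩ = redPoly V ⟨p, hp.1⟩ * redPoly V ⟨q, hq.1⟩ := by
    rw [← map_mul]
    rfl
  rw [h]
  exact mul_ne_zero ((isPrim_iff hp.1).mp hp) ((isPrim_iff hq.1).mp hq)

theorem isPrim_one : IsPrim V (1 : K[X]) :=
  ⟨(polyV V).one_mem, 0, by simp⟩

/-- a polynomial of `V[X]` with unit constant coefficient is primitive -/
theorem isPrim_of_coeff_zero {s : K[X]} (hs : s ∈ polyV V) (h0 : V.valuation (s.coeff 0) = 1) :
    IsPrim V s := ⟨hs, 0, h0⟩

variable (V)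

/-- every nonzero polynomial is a constant times a primitive one -/
theorem exists_smul_isPrim {p : K[X]} (hp : p ≠ 0) : ∃ c : K, c ≠ 0 ∧ IsPrim V (C c * p) := by
  have hne : p.support.Nonempty := Polynomial.nonempty_support_iff.mpr hp
  obtain ⟨i₀, hi₀, hmax⟩ := Finset.exists_max_image p.support
    (fun i => V.valuation (p.coeff i)) hne
  have hc0 : p.coeff i₀ ≠ 0 := Polynomial.mem_support_iff.mp hi₀
  have hv0 : V.valuation (p.coeff i₀) ≠ 0 := (Valuation.ne_zero_iff _).mpr hc0
  refine ⟨(p.coeff i₀)⁻¹, inv_ne_zero hc0, ?_, i₀, ?_⟩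
  · rw [mem_polyV]
    intro i
    rw [Polynomial.coeff_C_mul, ← ValuationSubring.valuation_le_one_iff, map_mul, map_inv₀]
    by_cases hi : i ∈ p.support
    · rw [inv_mul_le_iff₀ (zero_lt_iff.mpr hv0), mul_one]
      exact hmax i hi
    · rw [Polynomial.notMem_support_iff.mp hi, map_zero, mul_zero]
      exact zero_le_one
  · rw [Polynomial.coeff_C_mul, map_mul, map_inv₀, inv_mul_cancel₀ hv0]

/-! ### the Gauss valuation ring -/

/-- the underlying subring of the Gauss valuation ring -/
def gaussSubring : Subring (RatFunc K) where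
  carrier := {f | ∃ a s : K[X], a ∈ polyV V ∧ IsPrim V s ∧
    f * algebraMap K[X] (RatFunc K) s = algebraMap K[X] (RatFunc K) a}
  mul_mem' := by
    rintro f f' ⟨a, s, ha, hs, h⟩ ⟨a', s', ha', hs', h'⟩
    refine ⟨a * a', s * s', (polyV V).mul_mem ha ha', hs.mul hs', ?_⟩
    rw [map_mul, map_mul, ← h, ← h']; ring
  one_mem' := ⟨1, 1, (polyV V).one_mem, isPrim_one, by simp⟩
  add_mem' := by
    rintro f f' ⟨a, s, ha, hs, h⟩ ⟨a', s', ha', hs', h'⟩
    refine ⟨a * s' + a' * s, s * s', (polyV V).add_mem ((polyV V).mul_mem ha hs'.1)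
      ((polyV V).mul_mem ha' hs.1), hs.mul hs', ?_⟩
    rw [map_add, map_mul, map_mul, map_mul, ← h, ← h']; ring
  zero_mem' := ⟨0, 1, (polyV V).zero_mem, isPrim_one, by simp⟩
  neg_mem' := by
    rintro f ⟨a, s, ha, hs, h⟩
    exact ⟨-a, s, (polyV V).neg_mem ha, hs, by rw [map_neg, ← h]; ring⟩

theorem mem_gaussSubring {f : RatFunc K} : f ∈ gaussSubring V ↔
    ∃ a s : K[X], a ∈ polyV V ∧ IsPrim V s ∧
      f * algebraMap K[X] (RatFunc K) s = algebraMap K[X] (RatFunc K) a := Iff.rfl

theorem algebraMap_poly_ne_zero {p : K[X]} (hp : p ≠ 0) :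
    algebraMap K[X] (RatFunc K) p ≠ 0 :=
  (map_ne_zero_iff _ (IsFractionRing.injective K[X] (RatFunc K))).mpr hp

/-- **The Gauss valuation ring** `V[μ]_(𝔪_V)` of `K(μ)`. -/
def gaussRing : ValuationSubring (RatFunc K) where
  __ := gaussSubring V
  mem_or_inv_mem' := by
    intro f
    rcases eq_or_ne f 0 with rfl | hf
    · exact Or.inl (gaussSubring V).zero_mem
    have hnum : f.num ≠ 0 := RatFunc.num_ne_zero hf
    have hden : f.denom ≠ 0 := RatFunc.denom_ne_zero f
    obtain ⟨c₁, hc₁, h₁⟩ := exists_smul_isPrim V hnum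
    obtain ⟨c₂, hc₂, h₂⟩ := exists_smul_isPrim V hden
    have hfe : f * algebraMap K[X] (RatFunc K) f.denom = algebraMap K[X] (RatFunc K) f.num := by
      have h0 := RatFunc.num_div_denom f
      rw [div_eq_iff (algebraMap_poly_ne_zero hden)] at h0
      exact h0.symm
    have hC : ∀ c : K, algebraMap K[X] (RatFunc K) (C c) = algebraMap K (RatFunc K) c := fun c =>
      (IsScalarTower.algebraMap_apply K K[X] (RatFunc K) c).symm
    rcases V.mem_or_inv_mem (c₂ / c₁) with ht | ht
    · left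
      refine ⟨C (c₂ / c₁) * (C c₁ * f.num), C c₂ * f.denom,
        (polyV V).mul_mem (C_mem_polyV V ht) h₁.1, h₂, ?_⟩
      have hc₁' : algebraMap K (RatFunc K) c₁ ≠ 0 := (_root_.map_ne_zero _).mpr hc₁
      rw [map_mul, map_mul, map_mul, ← mul_assoc, mul_comm f, mul_assoc, hfe, hC, hC, hC,
        map_div₀]
      field_simp
    · right
      rw [inv_div] at ht
      refine ⟨C (c₁ / c₂) * (C c₂ * f.denom), C c₁ * f.num,
        (polyV V).mul_mem (C_mem_polyV V ht) h₂.1, h₁, ?_⟩
      have hfi : f⁻¹ * algebraMap K[X] (RatFunc K) f.num = algebraMap K[X] (RatFunc K) f.denom := by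
        rw [← hfe, ← mul_assoc, inv_mul_cancel₀ hf, one_mul]
      have hc₂' : algebraMap K (RatFunc K) c₂ ≠ 0 := (_root_.map_ne_zero _).mpr hc₂
      rw [map_mul, map_mul, map_mul, ← mul_assoc, mul_comm f⁻¹, mul_assoc, hfi, hC, hC, hC,
        map_div₀]
      field_simp

theorem mem_gaussRing {f : RatFunc K} : f ∈ gaussRing V ↔
    ∃ a s : K[X], a ∈ polyV V ∧ IsPrim V s ∧
      f * algebraMap K[X] (RatFunc K) s = algebraMap K[X] (RatFunc K) a := Iff.rfl

theorem discRing_le : discRing V ≤ (gaussRing V).toSubring := by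
  rintro f ⟨a, s, ha, hs, hs0, h⟩
  exact ⟨a, s, ha, isPrim_of_coeff_zero hs hs0, h⟩

theorem algebraMap_poly_mem_gaussRing {p : K[X]} (hp : p ∈ polyV V) :
    algebraMap K[X] (RatFunc K) p ∈ gaussRing V :=
  ⟨p, 1, hp, isPrim_one, by simp⟩

theorem X_mem_gaussRing : (RatFunc.X : RatFunc K) ∈ gaussRing V :=
  discRing_le V (X_mem_discRing V)

/-- `gaussRing V ∩ K = V` -/
theorem algebraMap_mem_gaussRing_iff {c : K} :
    algebraMap K (RatFunc K) c ∈ gaussRing V ↔ c ∈ V := by
  constructor
  · rintro ⟨a, s, ha, hs, h⟩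
    obtain ⟨i, hi⟩ := hs.2
    have h1 : C c * s = a := by
      apply IsFractionRing.injective K[X] (RatFunc K)
      have hC : algebraMap K[X] (RatFunc K) (C c) = algebraMap K (RatFunc K) c :=
        (IsScalarTower.algebraMap_apply K K[X] (RatFunc K) c).symm
      rw [map_mul, hC, h]
    have h2 : c * s.coeff i = a.coeff i := by rw [← h1, Polynomial.coeff_C_mul]
    have h3 : a.coeff i ∈ V := (mem_polyV V).mp ha i
    rw [← ValuationSubring.valuation_le_one_iff] at h3 ⊢
    rw [← h2, map_mul, hi, mul_one] at h3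
    exact h3
  · intro hc
    rw [IsScalarTower.algebraMap_apply K K[X] (RatFunc K) c]
    exact algebraMap_poly_mem_gaussRing V (C_mem_polyV V hc)

/-! ### the reduction map `gaussRing V → κ(μ̄)` -/

variable {V}

/-- primitive polynomials are invertible in the Gauss ring -/
theorem inv_algebraMap_mem_gaussRing {s : K[X]} (hs : IsPrim V s) :
    (algebraMap K[X] (RatFunc K) s)⁻¹ ∈ gaussRing V :=
  ⟨1, s, (polyV V).one_mem, hs,
    by rw [inv_mul_cancel₀ (algebraMap_poly_ne_zero hs.ne_zero), map_one]⟩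

theorem redPoly_polyEquiv (p : V[X]) :
    redPoly V (polyEquiv V p) = p.map (IsLocalRing.residue V) := by
  simp [redPoly]

theorem redPoly_C (c : V) :
    redPoly V ⟨C (c : K), C_mem_polyV V c.2⟩ = C (IsLocalRing.residue V c) := by
  have h : (⟨C (c : K), C_mem_polyV V c.2⟩ : polyV V) = polyEquiv V (C c) :=
    Subtype.ext (by simp)
  rw [h, redPoly_polyEquiv, Polynomial.map_C]

theorem redPoly_X : redPoly V ⟨X, X_mem_polyV V⟩ = X := by
  have h : (⟨X, X_mem_polyV V⟩ : polyV V) = polyEquiv V X := Subtype.ext (by simp)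
  rw [h, redPoly_polyEquiv, Polynomial.map_X]

/-- the reduction of a polynomial over `V`, as a rational function over `κ` -/
def redR (a : K[X]) (ha : a ∈ polyV V) : RatFunc (kappa V) :=
  algebraMap (kappa V)[X] (RatFunc (kappa V)) (redPoly V ⟨a, ha⟩)

theorem redR_congr {a b : K[X]} (h : a = b) (ha : a ∈ polyV V) (hb : b ∈ polyV V) :
    redR a ha = redR b hb := by
  subst h
  rfl

theorem redR_mul {a b : K[X]} (ha : a ∈ polyV V) (hb : b ∈ polyV V) :
    redR (a * b) ((polyV V).mul_mem ha hb) = redR a ha * redR b hb := by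
  unfold redR
  rw [← map_mul, ← map_mul]
  rfl

theorem redR_add {a b : K[X]} (ha : a ∈ polyV V) (hb : b ∈ polyV V) :
    redR (a + b) ((polyV V).add_mem ha hb) = redR a ha + redR b hb := by
  unfold redR
  rw [← map_add, ← map_add]
  rfl

theorem redR_one : redR (1 : K[X]) (polyV V).one_mem = 1 := by
  unfold redR
  have h : (⟨1, (polyV V).one_mem⟩ : polyV V) = 1 := rfl
  rw [h, map_one, map_one]

theorem redR_zero : redR (0 : K[X]) (polyV V).zero_mem = 0 := by
  unfold redR
  have h : (⟨0, (polyV V).zero_mem⟩ : polyV V) = 0 := rfl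
  rw [h, map_zero, map_zero]

theorem redR_ne_zero {s : K[X]} (hs : IsPrim V s) : redR s hs.mem ≠ 0 :=
  algebraMap_poly_ne_zero ((isPrim_iff hs.mem).mp hs)

theorem redR_eq_zero_iff {a : K[X]} (ha : a ∈ polyV V) : redR a ha = 0 ↔ ¬ IsPrim V a := by
  rw [isPrim_iff ha, not_not]
  unfold redR
  exact map_eq_zero_iff _ (IsFractionRing.injective (kappa V)[X] (RatFunc (kappa V)))

theorem redR_cross {f : RatFunc K} {a s a' s' : K[X]} (ha : a ∈ polyV V) (hs : s ∈ polyV V)
    (ha' : a' ∈ polyV V) (hs' : s' ∈ polyV V)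
    (h : f * algebraMap K[X] (RatFunc K) s = algebraMap K[X] (RatFunc K) a)
    (h' : f * algebraMap K[X] (RatFunc K) s' = algebraMap K[X] (RatFunc K) a') :
    redR a ha * redR s' hs' = redR a' ha' * redR s hs := by
  have hpoly : a * s' = a' * s := by
    apply IsFractionRing.injective K[X] (RatFunc K)
    rw [map_mul, map_mul, ← h, ← h']
    ring
  rw [← redR_mul, ← redR_mul]
  exact redR_congr hpoly _ _

/-- the reduction map, as a function (via a chosen presentation) -/
def redGfun (f : gaussRing V) : RatFunc (kappa V) :=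
  redR ((mem_gaussRing V).mp f.2).choose ((mem_gaussRing V).mp f.2).choose_spec.choose_spec.1 /
    redR ((mem_gaussRing V).mp f.2).choose_spec.choose
      ((mem_gaussRing V).mp f.2).choose_spec.choose_spec.2.1.mem

theorem redGfun_eq (f : gaussRing V) {a s : K[X]} (ha : a ∈ polyV V) (hs : IsPrim V s)
    (h : (f : RatFunc K) * algebraMap K[X] (RatFunc K) s = algebraMap K[X] (RatFunc K) a) :
    redGfun f = redR a ha / redR s hs.mem := by
  unfold redGfun
  rw [div_eq_div_iff (redR_ne_zero ((mem_gaussRing V).mp f.2).choose_spec.choose_spec.2.1)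
    (redR_ne_zero hs)]
  exact redR_cross _ _ _ _ ((mem_gaussRing V).mp f.2).choose_spec.choose_spec.2.2 h

/-- **The reduction map** `gaussRing V → κ(μ̄)`, `a / s ↦ ā / s̄`. -/
def redG : gaussRing V →+* RatFunc (kappa V) where
  toFun := redGfun
  map_one' := by
    rw [redGfun_eq 1 (polyV V).one_mem isPrim_one (by simp), redR_one, div_one]
  map_mul' := by
    rintro ⟨f, hf⟩ ⟨g, hg⟩
    obtain ⟨a, s, ha, hs, h⟩ := (mem_gaussRing V).mp hf
    obtain ⟨a', s', ha', hs', h'⟩ := (mem_gaussRing V).mp hg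
    have e3 := redGfun_eq (⟨f, hf⟩ * ⟨g, hg⟩) ((polyV V).mul_mem ha ha') (hs.mul hs')
      (by
        show f * g * _ = _
        rw [map_mul, map_mul, ← h, ← h']; ring)
    refine e3.trans ?_
    rw [redGfun_eq ⟨f, hf⟩ ha hs h, redGfun_eq ⟨g, hg⟩ ha' hs' h',
      redR_mul, redR_mul, mul_div_mul_comm]
  map_zero' := by
    rw [redGfun_eq 0 (polyV V).zero_mem isPrim_one (by simp), redR_zero, zero_div]
  map_add' := by
    rintro ⟨f, hf⟩ ⟨g, hg⟩
    obtain ⟨a, s, ha, hs, h⟩ := (mem_gaussRing V).mp hf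
    obtain ⟨a', s', ha', hs', h'⟩ := (mem_gaussRing V).mp hg
    have e3 := redGfun_eq (⟨f, hf⟩ + ⟨g, hg⟩)
      ((polyV V).add_mem ((polyV V).mul_mem ha hs'.mem) ((polyV V).mul_mem ha' hs.mem))
      (hs.mul hs')
      (by
        show (f + g) * _ = _
        rw [map_add, map_mul, map_mul, map_mul, ← h, ← h']; ring)
    refine e3.trans ?_
    rw [redGfun_eq ⟨f, hf⟩ ha hs h, redGfun_eq ⟨g, hg⟩ ha' hs' h',
      redR_add ((polyV V).mul_mem ha hs'.mem) ((polyV V).mul_mem ha' hs.mem),
      redR_mul ha hs'.mem, redR_mul ha' hs.mem, redR_mul hs.mem hs'.mem,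
      div_add_div _ _ (redR_ne_zero hs) (redR_ne_zero hs')]
    ring

/-- the reduction of `a / s` is `ā / s̄`, for ANY presentation -/
theorem redG_eq (f : gaussRing V) {a s : K[X]} (ha : a ∈ polyV V) (hs : IsPrim V s)
    (h : (f : RatFunc K) * algebraMap K[X] (RatFunc K) s = algebraMap K[X] (RatFunc K) a) :
    redG f = redR a ha / redR s hs.mem := redGfun_eq f ha hs h

theorem redG_algebraMap_poly {p : K[X]} (hp : p ∈ polyV V) :
    redG ⟨algebraMap K[X] (RatFunc K) p, algebraMap_poly_mem_gaussRing V hp⟩ = redR p hp := by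
  rw [redG_eq _ hp isPrim_one (by simp), redR_one, div_one]

theorem redG_X : redG ⟨(RatFunc.X : RatFunc K), X_mem_gaussRing V⟩ = RatFunc.X := by
  rw [redG_eq _ (X_mem_polyV V) isPrim_one (by simp [RatFunc.algebraMap_X]), redR_one, div_one]
  unfold redR
  rw [redPoly_X, RatFunc.algebraMap_X]

/-- the inclusion of `V` in the Gauss ring -/
def constHom : V →+* gaussRing V where
  toFun c := ⟨algebraMap K (RatFunc K) c, (algebraMap_mem_gaussRing_iff V).mpr c.2⟩
  map_one' := Subtype.ext (by simp)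
  map_mul' a b := Subtype.ext (by simp)
  map_zero' := Subtype.ext (by simp)
  map_add' a b := Subtype.ext (by simp)

@[simp]
theorem coe_constHom (c : V) :
    ((constHom c : gaussRing V) : RatFunc K) = algebraMap K (RatFunc K) c := rfl

theorem redG_constHom (c : V) :
    redG (constHom c) = algebraMap (kappa V) (RatFunc (kappa V)) (IsLocalRing.residue V c) := by
  rw [redG_eq (constHom c) (C_mem_polyV V c.2) isPrim_one
    (by rw [coe_constHom, map_one, mul_one, RatFunc.algebraMap_C, RatFunc.algebraMap_eq_C]),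
    redR_one, div_one]
  unfold redR
  rw [redPoly_C, RatFunc.algebraMap_C, RatFunc.algebraMap_eq_C]

/-- **units of the Gauss ring** are the elements with nonzero reduction -/
theorem isUnit_iff_redG_ne_zero (f : gaussRing V) : IsUnit f ↔ redG f ≠ 0 := by
  constructor
  · intro h
    exact (h.map redG).ne_zero
  · intro h
    obtain ⟨a, s, ha, hs, hfs⟩ := (mem_gaussRing V).mp f.2
    rw [redG_eq f ha hs hfs] at h
    have ha' : IsPrim V a := by
      by_contra hcon
      exact h (by rw [(redR_eq_zero_iff ha).mpr hcon, zero_div])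
    have hane := algebraMap_poly_ne_zero ha'.ne_zero
    have hinv : algebraMap K[X] (RatFunc K) s / algebraMap K[X] (RatFunc K) a ∈ gaussRing V :=
      ⟨s, a, hs.mem, ha', div_mul_cancel₀ _ hane⟩
    refine IsUnit.of_mul_eq_one ⟨_, hinv⟩ (Subtype.ext ?_)
    show (f : RatFunc K) *
      (algebraMap K[X] (RatFunc K) s / algebraMap K[X] (RatFunc K) a) = 1
    rw [← mul_div_assoc, hfs, div_self hane]

theorem redG_eq_zero_iff (f : gaussRing V) : redG f = 0 ↔ ¬ IsUnit f := by
  rw [isUnit_iff_redG_ne_zero, not_not]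

theorem ker_redG : RingHom.ker (redG (V := V)) = IsLocalRing.maximalIdeal (gaussRing V) := by
  ext f
  rw [RingHom.mem_ker, IsLocalRing.mem_maximalIdeal, mem_nonunits_iff, redG_eq_zero_iff]

theorem redG_surjective : Function.Surjective (redG (V := V)) := by
  intro g
  obtain ⟨p, hp⟩ := Polynomial.map_surjective (IsLocalRing.residue V)
    IsLocalRing.residue_surjective g.num
  obtain ⟨q, hq⟩ := Polynomial.map_surjective (IsLocalRing.residue V)
    IsLocalRing.residue_surjective g.denom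
  have hq' : IsPrim V (polyEquiv V q : K[X]) := by
    rw [isPrim_iff (polyEquiv V q).2]
    show redPoly V (polyEquiv V q) ≠ 0
    rw [redPoly_polyEquiv, hq]
    exact RatFunc.denom_ne_zero g
  have hqne := algebraMap_poly_ne_zero hq'.ne_zero
  have hmem : algebraMap K[X] (RatFunc K) (polyEquiv V p : K[X]) /
      algebraMap K[X] (RatFunc K) (polyEquiv V q : K[X]) ∈ gaussRing V :=
    ⟨_, _, (polyEquiv V p).2, hq', div_mul_cancel₀ _ hqne⟩
  refine ⟨⟨_, hmem⟩, ?_⟩
  rw [redG_eq _ (polyEquiv V p).2 hq' (div_mul_cancel₀ _ hqne)]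
  unfold redR
  rw [Subtype.coe_eta, Subtype.coe_eta, redPoly_polyEquiv, redPoly_polyEquiv, hp, hq,
    RatFunc.num_div_denom]

/-- the residue field of the Gauss ring is `κ(μ̄)` -/
def residueEquiv : IsLocalRing.ResidueField (gaussRing V) ≃+* RatFunc (kappa V) :=
  (Ideal.quotEquivOfEq ker_redG.symm).trans
    (RingHom.quotientKerEquivOfSurjective redG_surjective)

theorem residueEquiv_residue (f : gaussRing V) :
    residueEquiv (IsLocalRing.residue (gaussRing V) f) = redG f := rfl

/-- the inverse of a unit of the Gauss ring lies in the Gauss ring -/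
theorem inv_mem_of_isUnit {f : gaussRing V} (hf : IsUnit f) : (f : RatFunc K)⁻¹ ∈ gaussRing V := by
  obtain ⟨g, hg⟩ := hf.exists_right_inv
  have h : (f : RatFunc K) * (g : RatFunc K) = 1 := by
    have := congrArg (fun x : gaussRing V => (x : RatFunc K)) hg
    simpa using this
  rw [← eq_inv_of_mul_eq_one_right h]
  exact g.2

theorem isUnit_of_inv_mem {f : gaussRing V} (hf0 : f ≠ 0) (hf : (f : RatFunc K)⁻¹ ∈ gaussRing V) :
    IsUnit f := by
  refine IsUnit.of_mul_eq_one ⟨_, hf⟩ (Subtype.ext ?_)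
  show (f : RatFunc K) * (f : RatFunc K)⁻¹ = 1
  exact mul_inv_cancel₀ (fun h => hf0 (Subtype.ext h))

/-! ### the value group -/

/-- a quotient of two primitive polynomials, as a unit of the Gauss ring -/
def primUnit {a s : K[X]} (ha : IsPrim V a) (hs : IsPrim V s) : (gaussRing V)ˣ where
  val := ⟨algebraMap K[X] (RatFunc K) a / algebraMap K[X] (RatFunc K) s, a, s, ha.mem, hs,
    div_mul_cancel₀ _ (algebraMap_poly_ne_zero hs.ne_zero)⟩
  inv := ⟨algebraMap K[X] (RatFunc K) s / algebraMap K[X] (RatFunc K) a, s, a, hs.mem, ha,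
    div_mul_cancel₀ _ (algebraMap_poly_ne_zero ha.ne_zero)⟩
  val_inv := Subtype.ext (by
    show algebraMap K[X] (RatFunc K) a / algebraMap K[X] (RatFunc K) s *
      (algebraMap K[X] (RatFunc K) s / algebraMap K[X] (RatFunc K) a) = 1
    rw [div_mul_div_comm, mul_comm, div_self (mul_ne_zero (algebraMap_poly_ne_zero hs.ne_zero)
      (algebraMap_poly_ne_zero ha.ne_zero))])
  inv_val := Subtype.ext (by
    show algebraMap K[X] (RatFunc K) s / algebraMap K[X] (RatFunc K) a *
      (algebraMap K[X] (RatFunc K) a / algebraMap K[X] (RatFunc K) s) = 1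
    rw [div_mul_div_comm, mul_comm, div_self (mul_ne_zero (algebraMap_poly_ne_zero ha.ne_zero)
      (algebraMap_poly_ne_zero hs.ne_zero))])

@[simp]
theorem coe_primUnit {a s : K[X]} (ha : IsPrim V a) (hs : IsPrim V s) :
    (((primUnit ha hs : (gaussRing V)ˣ) : gaussRing V) : RatFunc K) =
      algebraMap K[X] (RatFunc K) a / algebraMap K[X] (RatFunc K) s := rfl

variable (V) in
/-- **The value group of the Gauss ring is that of `V`**: every nonzero rational function is a
nonzero constant times a unit of the Gauss ring. -/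
theorem exists_const_mul_unit {f : RatFunc K} (hf : f ≠ 0) :
    ∃ c : K, c ≠ 0 ∧ ∃ u : (gaussRing V)ˣ,
      f = algebraMap K (RatFunc K) c * ((u : gaussRing V) : RatFunc K) := by
  have hnum : f.num ≠ 0 := RatFunc.num_ne_zero hf
  have hden : f.denom ≠ 0 := RatFunc.denom_ne_zero f
  obtain ⟨c₁, hc₁, h₁⟩ := exists_smul_isPrim V hnum
  obtain ⟨c₂, hc₂, h₂⟩ := exists_smul_isPrim V hden
  have hC : ∀ c : K, algebraMap K[X] (RatFunc K) (C c) = algebraMap K (RatFunc K) c := fun c =>
    (IsScalarTower.algebraMap_apply K K[X] (RatFunc K) c).symm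
  have hc₁' : algebraMap K (RatFunc K) c₁ ≠ 0 := (_root_.map_ne_zero _).mpr hc₁
  have hc₂' : algebraMap K (RatFunc K) c₂ ≠ 0 := (_root_.map_ne_zero _).mpr hc₂
  have hden' := algebraMap_poly_ne_zero hden
  refine ⟨c₂ / c₁, div_ne_zero hc₂ hc₁, primUnit h₁ h₂, ?_⟩
  rw [coe_primUnit, map_mul, map_mul, hC, hC, map_div₀]
  conv_lhs => rw [← RatFunc.num_div_denom f]
  field_simp

/-- a non-unit constant of `V` does not divide (in `discRing V`, or even in the Gauss ring) an
element which is a unit of the Gauss ring.  This is the hypothesis `hld` of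
`PointwiseUnit.isUnit_of_pointwise`. -/
theorem not_C_mul_of_isUnit {l : K} (hl : V.valuation l < 1) {d : gaussRing V} (hd : IsUnit d) :
    ¬ ∃ e ∈ gaussRing V, (d : RatFunc K) = RatFunc.C l * e := by
  rintro ⟨e, he, hde⟩
  have hlV : l ∈ V := (ValuationSubring.valuation_le_one_iff _ _).mp hl.le
  have hd' : d = constHom ⟨l, hlV⟩ * ⟨e, he⟩ := Subtype.ext (by
    rw [hde, ← RatFunc.algebraMap_eq_C]
    rfl)
  have hres : IsLocalRing.residue V ⟨l, hlV⟩ = 0 := by
    rw [IsLocalRing.residue_eq_zero_iff, IsLocalRing.mem_maximalIdeal, mem_nonunits_iff,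
      ValuationSubring.valuation_eq_one_iff]
    exact hl.ne
  apply (isUnit_iff_redG_ne_zero d).mp hd
  rw [hd', map_mul, redG_constHom, hres, map_zero, zero_mul]

theorem not_C_mul_discRing_of_isUnit {l : K} (hl : V.valuation l < 1) {d : gaussRing V}
    (hd : IsUnit d) : ¬ ∃ e ∈ discRing V, (d : RatFunc K) = RatFunc.C l * e := by
  rintro ⟨e, he, hde⟩
  exact not_C_mul_of_isUnit hl hd ⟨e, discRing_le V he, hde⟩

/-- a polynomial over `V` all of whose coefficients are non-units is divisible by a generator `l`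
of the maximal ideal -/
theorem exists_eq_C_mul_of_not_isPrim (l : K)
    (hmax : ∀ x : K, V.valuation x < 1 → ∃ y ∈ V, x = l * y) {a : K[X]} (ha : a ∈ polyV V)
    (hnp : ¬ IsPrim V a) : ∃ a' ∈ polyV V, a = C l * a' := by
  have hlt : ∀ i, V.valuation (a.coeff i) < 1 := fun i =>
    lt_of_le_of_ne ((ValuationSubring.valuation_le_one_iff _ _).mpr ((mem_polyV V).mp ha i))
      (fun h => hnp ⟨ha, i, h⟩)
  choose y hyV hy using fun i => hmax (a.coeff i) (hlt i)
  refine ⟨∑ i ∈ a.support, monomial i (y i), ?_, ?_⟩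
  · refine Subring.sum_mem _ fun i _ => ?_
    rw [mem_polyV]
    intro n
    rw [coeff_monomial]
    split_ifs
    · exact hyV i
    · exact V.zero_mem
  · conv_lhs => rw [a.as_sum_support]
    rw [Finset.mul_sum]
    refine Finset.sum_congr rfl fun i _ => ?_
    rw [C_mul_monomial, ← hy i]

/-- if `𝔪_V = (l)`, an element of `discRing V` not divisible by `l` is a unit of the Gauss ring
(`gaussRing V` is the localisation of `discRing V` at the prime `(l)`) -/
theorem isUnit_of_not_C_mul (l : K) (hmax : ∀ x : K, V.valuation x < 1 → ∃ y ∈ V, x = l * y)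
    {d : gaussRing V} (hdd : (d : RatFunc K) ∈ discRing V)
    (h : ¬ ∃ e ∈ discRing V, (d : RatFunc K) = RatFunc.C l * e) : IsUnit d := by
  obtain ⟨a, s, ha, hs, hs0, hfs⟩ := hdd
  have hsP : IsPrim V s := isPrim_of_coeff_zero hs hs0
  have hsne := algebraMap_poly_ne_zero hsP.ne_zero
  rw [isUnit_iff_redG_ne_zero, redG_eq d ha hsP hfs]
  refine div_ne_zero ?_ (redR_ne_zero hsP)
  intro h0
  obtain ⟨a', ha', haa'⟩ := exists_eq_C_mul_of_not_isPrim l hmax ha ((redR_eq_zero_iff ha).mp h0)
  apply h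
  refine ⟨algebraMap K[X] (RatFunc K) a' / algebraMap K[X] (RatFunc K) s,
    ⟨a', s, ha', hs, hs0, div_mul_cancel₀ _ hsne⟩, ?_⟩
  rw [← mul_div_assoc, eq_div_iff hsne, hfs, haa', map_mul, RatFunc.algebraMap_C]

/-- **units of the Gauss ring inside `discRing V`**: for `𝔪_V = (l)`, `d ∈ discRing V` is a unit
of `gaussRing V` iff `l ∤ d` in `discRing V`. -/
theorem isUnit_iff_not_C_mul (l : K) (hl : V.valuation l < 1)
    (hmax : ∀ x : K, V.valuation x < 1 → ∃ y ∈ V, x = l * y)
    {d : gaussRing V} (hdd : (d : RatFunc K) ∈ discRing V) :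
    IsUnit d ↔ ¬ ∃ e ∈ discRing V, (d : RatFunc K) = RatFunc.C l * e :=
  ⟨not_C_mul_discRing_of_isUnit hl, isUnit_of_not_C_mul l hmax hdd⟩

/-! ### the Gauss ring of a discrete valuation ring -/

section DVR

variable [IsDiscreteValuationRing V]

theorem associated_pow_constHom {ϖ : V} (hϖ : Irreducible ϖ) {x : gaussRing V} (hx : x ≠ 0) :
    ∃ n : ℕ, Associated (constHom ϖ ^ n) x := by
  have hx' : (x : RatFunc K) ≠ 0 := fun h => hx (Subtype.ext h)
  obtain ⟨c, hc, u, hu⟩ := exists_const_mul_unit V hx'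
  have huu : ((u : gaussRing V) : RatFunc K) * (((u⁻¹ : (gaussRing V)ˣ) : gaussRing V) : RatFunc K)
      = 1 := congrArg (fun y : gaussRing V => (y : RatFunc K)) u.mul_inv
  have hcV : c ∈ V := by
    rw [← algebraMap_mem_gaussRing_iff V]
    have h : algebraMap K (RatFunc K) c =
        ((x * ((u⁻¹ : (gaussRing V)ˣ) : gaussRing V) : gaussRing V) : RatFunc K) := by
      show _ = (x : RatFunc K) * (((u⁻¹ : (gaussRing V)ˣ) : gaussRing V) : RatFunc K)
      rw [hu, mul_assoc, huu, mul_one]
    rw [h]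
    exact (x * ((u⁻¹ : (gaussRing V)ˣ) : gaussRing V)).2
  have hc' : (⟨c, hcV⟩ : V) ≠ 0 := fun h => hc (congrArg Subtype.val h)
  obtain ⟨n, hn⟩ := IsDiscreteValuationRing.associated_pow_irreducible hc' hϖ
  refine ⟨n, ?_⟩
  have h1 : Associated (constHom ϖ ^ n) (constHom (⟨c, hcV⟩ : V)) := by
    rw [← map_pow]
    exact (hn.map (constHom (V := V))).symm
  refine h1.trans ⟨u, Subtype.ext ?_⟩
  show algebraMap K (RatFunc K) c * ((u : gaussRing V) : RatFunc K) = x
  exact hu.symm

omit [IsDiscreteValuationRing V] in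
theorem not_isUnit_constHom {c : V} (hc : ¬ IsUnit c) : ¬ IsUnit (constHom c) := by
  rw [isUnit_iff_redG_ne_zero, not_not, redG_constHom]
  have : IsLocalRing.residue V c = 0 := by
    rw [IsLocalRing.residue_eq_zero_iff, IsLocalRing.mem_maximalIdeal, mem_nonunits_iff]
    exact hc
  rw [this, map_zero]

theorem maximalIdeal_eq_span {ϖ : V} (hϖ : Irreducible ϖ) :
    IsLocalRing.maximalIdeal (gaussRing V) = Ideal.span {constHom ϖ} := by
  apply le_antisymm
  · intro x hx
    rw [Ideal.mem_span_singleton]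
    rcases eq_or_ne x 0 with rfl | hx0
    · exact dvd_zero _
    obtain ⟨n, hn⟩ := associated_pow_constHom hϖ hx0
    rcases Nat.eq_zero_or_pos n with rfl | hn0
    · rw [pow_zero] at hn
      exact absurd (hn.isUnit isUnit_one) ((IsLocalRing.mem_maximalIdeal _).mp hx)
    · exact (dvd_pow_self _ hn0.ne').trans hn.dvd
  · rw [Ideal.span_singleton_le_iff_mem, IsLocalRing.mem_maximalIdeal, mem_nonunits_iff]
    exact not_isUnit_constHom hϖ.not_isUnit

omit [IsDiscreteValuationRing V] in
theorem constHom_injective : Function.Injective (constHom (V := V)) := by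
  intro a b h
  have := congrArg (fun y : gaussRing V => (y : RatFunc K)) h
  exact Subtype.ext ((algebraMap K (RatFunc K)).injective this)

theorem irreducible_constHom {ϖ : V} (hϖ : Irreducible ϖ) : Irreducible (constHom ϖ) := by
  have hne : constHom ϖ ≠ 0 := fun h => hϖ.ne_zero (constHom_injective (h.trans (map_zero _).symm))
  have hprime : (Ideal.span {constHom ϖ}).IsPrime := by
    rw [← maximalIdeal_eq_span hϖ]
    infer_instance
  exact ((Ideal.span_singleton_prime hne).mp hprime).irreducible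

variable (V) in
/-- **The Gauss ring of a discrete valuation ring is a discrete valuation ring**, with the same
uniformiser. -/
theorem isDiscreteValuationRing : IsDiscreteValuationRing (gaussRing V) := by
  obtain ⟨ϖ, hϖ⟩ := IsDiscreteValuationRing.exists_irreducible V
  exact IsDiscreteValuationRing.ofHasUnitMulPowIrreducibleFactorization
    ⟨constHom ϖ, irreducible_constHom hϖ, fun hx => associated_pow_constHom hϖ hx⟩

end DVR

/-! ### characterisation of the Gauss ring among valuation rings of `K(μ)` -/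

/-- A valuation ring `W` of `K(μ)` containing the Gauss ring and with `W ∩ K ⊆ V` is the Gauss
ring. -/
theorem eq_gaussRing_of_le {W : ValuationSubring (RatFunc K)} (hle : gaussRing V ≤ W)
    (hK : ∀ c : K, algebraMap K (RatFunc K) c ∈ W → c ∈ V) : W = gaussRing V := by
  refine le_antisymm (fun f hf => ?_) hle
  by_contra hcon
  have hf0 : f ≠ 0 := by
    rintro rfl
    exact hcon (gaussRing V).zero_mem
  obtain ⟨c, hc, u, hu⟩ := exists_const_mul_unit V hf0
  have huu : ((u : gaussRing V) : RatFunc K) * (((u⁻¹ : (gaussRing V)ˣ) : gaussRing V) : RatFunc K)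
      = 1 := congrArg (fun y : gaussRing V => (y : RatFunc K)) u.mul_inv
  have hcW : algebraMap K (RatFunc K) c ∈ W := by
    have h : algebraMap K (RatFunc K) c =
        f * (((u⁻¹ : (gaussRing V)ˣ) : gaussRing V) : RatFunc K) := by
      rw [hu, mul_assoc, huu, mul_one]
    rw [h]
    exact mul_mem hf (hle ((u⁻¹ : (gaussRing V)ˣ) : gaussRing V).2)
  apply hcon
  rw [hu]
  exact mul_mem ((algebraMap_mem_gaussRing_iff V).mpr (hK c hcW)) (u : gaussRing V).2

/-- the Gauss ring is contained in `W` as soon as `V`, `μ` and the inverses of the primitive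
polynomials are -/
theorem gaussRing_le {W : ValuationSubring (RatFunc K)}
    (hV : ∀ c ∈ V, algebraMap K (RatFunc K) c ∈ W) (hX : (RatFunc.X : RatFunc K) ∈ W)
    (hprim : ∀ s : K[X], IsPrim V s → (algebraMap K[X] (RatFunc K) s)⁻¹ ∈ W) :
    gaussRing V ≤ W := by
  have hpoly : ∀ a : K[X], a ∈ polyV V → algebraMap K[X] (RatFunc K) a ∈ W := by
    intro a ha
    rw [a.as_sum_support, map_sum]
    refine W.toSubring.sum_mem fun i _ => ?_
    rw [← Polynomial.C_mul_X_pow_eq_monomial, map_mul, map_pow, RatFunc.algebraMap_C,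
      RatFunc.algebraMap_X, ← RatFunc.algebraMap_eq_C]
    exact mul_mem (hV _ ((mem_polyV V).mp ha i)) (pow_mem hX i)
  rintro f ⟨a, s, ha, hs, h⟩
  have hsne := algebraMap_poly_ne_zero hs.ne_zero
  have : f = algebraMap K[X] (RatFunc K) a * (algebraMap K[X] (RatFunc K) s)⁻¹ := by
    rw [← h, mul_assoc, mul_inv_cancel₀ hsne, mul_one]
  rw [this]
  exact mul_mem (hpoly a ha) (hprim s hs)

/-! ### substitution `μ ↦ g`, for `g` with transcendental reduction -/

section Subst

theorem algHom_algebraMap_poly (φ : RatFunc K →ₐ[K] RatFunc K) (p : K[X]) :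
    φ (algebraMap K[X] (RatFunc K) p) = Polynomial.aeval (φ RatFunc.X) p := by
  have h : φ.comp (IsScalarTower.toAlgHom K K[X] (RatFunc K)) =
      Polynomial.aeval (φ RatFunc.X) := by
    apply Polynomial.algHom_ext
    simp [RatFunc.algebraMap_X]
  exact DFunLike.congr_fun h p

theorem coe_eval₂_constHom (g : gaussRing V) (p : V[X]) :
    ((p.eval₂ constHom g : gaussRing V) : RatFunc K) =
      Polynomial.aeval (g : RatFunc K) (p.map V.subtype) := by
  have h := Polynomial.hom_eval₂ p (constHom (V := V)) (gaussRing V).subtype g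
  rw [Polynomial.aeval_def, Polynomial.eval₂_map]
  exact h

theorem redG_eval₂_constHom (g : gaussRing V) (p : V[X]) :
    redG (p.eval₂ constHom g) =
      Polynomial.aeval (redG g) (p.map (IsLocalRing.residue V)) := by
  rw [Polynomial.hom_eval₂, Polynomial.aeval_def, Polynomial.eval₂_map]
  congr 1
  ext c
  exact redG_constHom c

variable (φ : RatFunc K →ₐ[K] RatFunc K) (hg : φ RatFunc.X ∈ gaussRing V)

include hg in
/-- the image of a polynomial over `V` under `μ ↦ g`, `g` in the Gauss ring, and its reduction -/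
theorem subst_poly {a : K[X]} (ha : a ∈ polyV V) :
    ∃ h : φ (algebraMap K[X] (RatFunc K) a) ∈ gaussRing V,
      redG ⟨_, h⟩ = Polynomial.aeval (redG ⟨φ RatFunc.X, hg⟩) (redPoly V ⟨a, ha⟩) := by
  have hpa : ((polyEquiv V).symm ⟨a, ha⟩).map V.subtype = a := by
    have := coe_polyEquiv V ((polyEquiv V).symm ⟨a, ha⟩)
    rw [RingEquiv.apply_symm_apply] at this
    exact this.symm
  have hcoe : ((((polyEquiv V).symm ⟨a, ha⟩).eval₂ constHom ⟨φ RatFunc.X, hg⟩ : gaussRing V) :
      RatFunc K) = φ (algebraMap K[X] (RatFunc K) a) := by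
    rw [coe_eval₂_constHom, hpa, algHom_algebraMap_poly]
  refine ⟨hcoe ▸ (((polyEquiv V).symm ⟨a, ha⟩).eval₂ constHom ⟨φ RatFunc.X, hg⟩).2, ?_⟩
  have h2 : (⟨φ (algebraMap K[X] (RatFunc K) a),
      hcoe ▸ (((polyEquiv V).symm ⟨a, ha⟩).eval₂ constHom ⟨φ RatFunc.X, hg⟩).2⟩ : gaussRing V) =
      ((polyEquiv V).symm ⟨a, ha⟩).eval₂ constHom ⟨φ RatFunc.X, hg⟩ := Subtype.ext hcoe.symm
  rw [h2, redG_eval₂_constHom]
  rfl

variable (htr : Transcendental (kappa V) (redG ⟨φ RatFunc.X, hg⟩))

include htr in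
theorem subst_prim {s : K[X]} (hs : IsPrim V s) :
    ∃ h : φ (algebraMap K[X] (RatFunc K) s) ∈ gaussRing V, IsUnit (⟨_, h⟩ : gaussRing V) := by
  obtain ⟨h, hred⟩ := subst_poly φ hg hs.mem
  refine ⟨h, ?_⟩
  rw [isUnit_iff_redG_ne_zero, hred]
  intro h0
  exact (isPrim_iff hs.mem).mp hs (transcendental_iff.mp htr _ h0)

include htr in
/-- **Substitution.** If `g := φ μ` lies in the Gauss ring and has transcendental reduction, then
`φ` maps the Gauss ring into itself ... -/
theorem map_mem_gaussRing {f : RatFunc K} (hf : f ∈ gaussRing V) : φ f ∈ gaussRing V := by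
  obtain ⟨a, s, ha, hs, h⟩ := (mem_gaussRing V).mp hf
  obtain ⟨ha', -⟩ := subst_poly φ hg ha
  obtain ⟨hs', hu⟩ := subst_prim φ hg htr hs
  have hsne : φ (algebraMap K[X] (RatFunc K) s) ≠ 0 :=
    (_root_.map_ne_zero φ).mpr (algebraMap_poly_ne_zero hs.ne_zero)
  have : φ f = φ (algebraMap K[X] (RatFunc K) a) * (φ (algebraMap K[X] (RatFunc K) s))⁻¹ := by
    rw [← h, map_mul, mul_assoc, mul_inv_cancel₀ hsne, mul_one]
  rw [this]
  exact mul_mem ha' (inv_mem_of_isUnit hu)

include htr in
/-- ... and non-units to non-units (`φ` is a local homomorphism of the Gauss ring) -/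
theorem redG_map_eq_zero {f : RatFunc K} (hf : f ∈ gaussRing V) (h0 : redG ⟨f, hf⟩ = 0) :
    redG ⟨φ f, map_mem_gaussRing φ hg htr hf⟩ = 0 := by
  obtain ⟨a, s, ha, hs, h⟩ := (mem_gaussRing V).mp hf
  rw [redG_eq ⟨f, hf⟩ ha hs h, div_eq_zero_iff] at h0
  have ha0 : redPoly V ⟨a, ha⟩ = 0 := by
    rcases h0 with h0 | h0
    · exact (map_eq_zero_iff _
        (IsFractionRing.injective (kappa V)[X] (RatFunc (kappa V)))).mp h0
    · exact absurd h0 (redR_ne_zero hs)
  obtain ⟨ha', hreda⟩ := subst_poly φ hg ha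
  obtain ⟨hs', hu⟩ := subst_prim φ hg htr hs
  have hmul : (⟨φ f, map_mem_gaussRing φ hg htr hf⟩ : gaussRing V) * ⟨_, hs'⟩ = ⟨_, ha'⟩ :=
    Subtype.ext (by
      show φ f * φ (algebraMap K[X] (RatFunc K) s) = φ (algebraMap K[X] (RatFunc K) a)
      rw [← map_mul, h])
  have h1 := congrArg redG hmul
  rw [map_mul, hreda, ha0, map_zero] at h1
  exact (mul_eq_zero.mp h1).resolve_right ((isUnit_iff_redG_ne_zero _).mp hu)

include htr in
/-- **Substitution**: `φ⁻¹(gaussRing V) = gaussRing V`. -/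
theorem map_mem_gaussRing_iff (f : RatFunc K) : φ f ∈ gaussRing V ↔ f ∈ gaussRing V := by
  refine ⟨fun hφf => ?_, map_mem_gaussRing φ hg htr⟩
  by_contra hf
  have hf0 : f ≠ 0 := by
    rintro rfl
    exact hf (gaussRing V).zero_mem
  have hinv : f⁻¹ ∈ gaussRing V := ((gaussRing V).mem_or_inv_mem f).resolve_left hf
  have hnu : ¬ IsUnit (⟨f⁻¹, hinv⟩ : gaussRing V) := by
    intro hu
    have := inv_mem_of_isUnit hu
    rw [inv_inv] at this
    exact hf this
  have h0 := redG_map_eq_zero φ hg htr hinv ((redG_eq_zero_iff _).mpr hnu)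
  have hφ0 : φ f ≠ 0 := (_root_.map_ne_zero φ).mpr hf0
  have hmul : (⟨φ f, hφf⟩ : gaussRing V) * ⟨φ f⁻¹, map_mem_gaussRing φ hg htr hinv⟩ = 1 :=
    Subtype.ext (by
      show φ f * φ f⁻¹ = 1
      rw [map_inv₀, mul_inv_cancel₀ hφ0])
  have h1 := congrArg redG hmul
  rw [map_mul, h0, mul_zero, map_one] at h1
  exact zero_ne_one h1

/-- the substitution `μ ↦ g` as an endomorphism of the Gauss ring -/
def substHom : gaussRing V →+* gaussRing V where
  toFun f := ⟨φ f, map_mem_gaussRing φ hg htr f.2⟩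
  map_one' := Subtype.ext (by
    show φ (1 : RatFunc K) = 1
    exact map_one φ)
  map_mul' a b := Subtype.ext (by
    show φ ((a : RatFunc K) * (b : RatFunc K)) = φ a * φ b
    exact map_mul φ _ _)
  map_zero' := Subtype.ext (by
    show φ (0 : RatFunc K) = 0
    exact map_zero φ)
  map_add' a b := Subtype.ext (by
    show φ ((a : RatFunc K) + (b : RatFunc K)) = φ a + φ b
    exact map_add φ _ _)

@[simp]
theorem coe_substHom (f : gaussRing V) :
    ((substHom φ hg htr f : gaussRing V) : RatFunc K) = φ f := rfl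

theorem isUnit_substHom_iff (f : gaussRing V) : IsUnit (substHom φ hg htr f) ↔ IsUnit f := by
  refine ⟨fun h => ?_, fun h => h.map _⟩
  by_contra hf
  exact (isUnit_iff_redG_ne_zero _).mp h
    (redG_map_eq_zero φ hg htr f.2 ((redG_eq_zero_iff _).mpr hf))

/-- the reductions commute with the substitutions `μ ↦ g` and `μ̄ ↦ ḡ` -/
theorem redG_substHom (ψ : RatFunc (kappa V) →ₐ[kappa V] RatFunc (kappa V))
    (hψ : ψ RatFunc.X = redG ⟨φ RatFunc.X, hg⟩) (f : gaussRing V) :
    redG (substHom φ hg htr f) = ψ (redG f) := by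
  obtain ⟨a, s, ha, hs, h⟩ := (mem_gaussRing V).mp f.2
  obtain ⟨ha', hreda⟩ := subst_poly φ hg ha
  obtain ⟨hs', hreds⟩ := subst_poly φ hg hs.mem
  obtain ⟨-, hu⟩ := subst_prim φ hg htr hs
  have hmul : substHom φ hg htr f * ⟨_, hs'⟩ = ⟨_, ha'⟩ :=
    Subtype.ext (by
      show φ f * φ (algebraMap K[X] (RatFunc K) s) = φ (algebraMap K[X] (RatFunc K) a)
      rw [← map_mul, h])
  have h1 := congrArg redG hmul
  rw [map_mul, hreda, hreds, ← hψ, ← algHom_algebraMap_poly, ← algHom_algebraMap_poly] at h1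
  have hsne : ψ (redR s hs.mem) ≠ 0 := (_root_.map_ne_zero ψ).mpr (redR_ne_zero hs)
  rw [redG_eq f ha hs h, map_div₀, eq_div_iff hsne]
  exact h1

end Subst

end Fermat.Agent.S18.C.GaussRing
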