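/-
PROJECT H (S18), block C (helper9): THE VALUATION RING `ℤ_(ℓ)` OF `ℚ` AND THE IDENTIFICATION OF THE
GAUSS VALUATION RING OF THE `j`-LINE.

For `V : ValuationSubring ℚ` with `(ℓ : ℚ) ∈ V.nonunits` (e.g. `V = A.comap (algebraMap ℚ ℚ̄)` for
`A.LiesOverPrime ℓ`):

* `valuation_intCast_lt_one_iff`, `valuation_intCast_eq_one_iff`, `mem_iff_den` : `V = ℤ_(ℓ)`;
* `exists_eq_mul` (`𝔪_V = (ℓ)` in the shape `hmax` of `C/PointwiseUnit`), `maximalIdeal_eq_span`,
  `irreducible_ell`, `isDiscreteValuationRing`;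
* `exists_int_poly` : clearing denominators prime to `ℓ` of a polynomial over `V`;
* `mem_Vrat_iff_prim` and **`Vrat_eq_gaussRing : GaussRat.Vrat ℓ N = GaussRing.gaussRing V`**:
  the trace of `S28.GaussFull.OwFull` on the `j`-line `RatFunc ℚ` is the Gauss valuation ring.
-/
import Mathlib
import Fermat.Agent.S18.C.GaussRat
import Fermat.Agent.S18.C.GaussRing

set_option autoImplicit false
set_option linter.unusedSectionVars false

noncomputable section

namespace Fermat.Agent.S18.C.GaussZl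

open Polynomial
open Fermat.Agent.S18.C.Defs Fermat.Agent.S18.C.GaussRat Fermat.Agent.S18.C.GaussRing

variable (ℓ : ℕ) [Fact ℓ.Prime] (V : ValuationSubring ℚ)

/-- `V` lies over `ℓ` -/
def Over : Prop := (ℓ : ℚ) ∈ V.nonunits

theorem over_comap {L : Type*} [Field L] [Algebra ℚ L] (A : ValuationSubring L)
    (hA : A.LiesOverPrime ℓ) : Over ℓ (A.comap (algebraMap ℚ L)) := by
  show (A.comap (algebraMap ℚ L)).valuation (ℓ : ℚ) < 1
  by_contra hcon
  rw [not_lt] at hcon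
  have h1 : ((ℓ : ℚ))⁻¹ ∈ A.comap (algebraMap ℚ L) := by
    rw [← ValuationSubring.valuation_le_one_iff, map_inv₀]
    exact inv_le_one_of_one_le₀ hcon
  have h2 : (algebraMap ℚ L (ℓ : ℚ)⁻¹) ∈ A := h1
  rw [map_inv₀, map_natCast] at h2
  have h3 : A.valuation (ℓ : L) < 1 := hA
  have h4 : A.valuation ((ℓ : L))⁻¹ ≤ 1 := (A.valuation_le_one_iff _).mpr h2
  rw [map_inv₀] at h4
  have hℓ0 : A.valuation (ℓ : L) ≠ 0 := by
    rw [ne_eq, map_eq_zero, ← map_natCast (algebraMap ℚ L)]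
    exact (map_ne_zero (algebraMap ℚ L)).mpr
      (by exact_mod_cast (Fact.out : ℓ.Prime).ne_zero)
  have h5 : 1 ≤ A.valuation (ℓ : L) := (inv_le_one₀ (zero_lt_iff.mpr hℓ0)).mp h4
  exact absurd h3 (not_lt.mpr h5)

variable {ℓ V}

theorem valuation_ell_lt_one (hV : Over ℓ V) : V.valuation (ℓ : ℚ) < 1 := hV

theorem valuation_intCast_le_one (n : ℤ) : V.valuation (n : ℚ) ≤ 1 :=
  (V.valuation_le_one_iff _).mpr (intCast_mem V n)

theorem valuation_intCast_lt_one_iff (hV : Over ℓ V) (n : ℤ) :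
    V.valuation (n : ℚ) < 1 ↔ (ℓ : ℤ) ∣ n := by
  constructor
  · intro h
    by_contra hdvd
    have hp : Prime (ℓ : ℤ) := Nat.prime_iff_prime_int.mp (Fact.out : ℓ.Prime)
    have hcop : IsCoprime n (ℓ : ℤ) :=
      ((hp.coprime_iff_not_dvd).mpr hdvd).symm
    obtain ⟨a, b, hab⟩ := hcop
    have h1 : V.valuation ((a : ℚ) * (n : ℚ) + (b : ℚ) * ((ℓ : ℤ) : ℚ)) < 1 := by
      refine Valuation.map_add_lt _ ?_ ?_
      · rw [map_mul]
        calc V.valuation (a : ℚ) * V.valuation (n : ℚ)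
            ≤ 1 * V.valuation (n : ℚ) := mul_le_mul_left (valuation_intCast_le_one a) _
          _ < 1 := by rw [one_mul]; exact h
      · rw [map_mul]
        calc V.valuation (b : ℚ) * V.valuation (((ℓ : ℤ) : ℚ))
            ≤ 1 * V.valuation (((ℓ : ℤ) : ℚ)) := mul_le_mul_left (valuation_intCast_le_one b) _
          _ < 1 := by
            rw [one_mul]
            have : (((ℓ : ℤ) : ℚ)) = (ℓ : ℚ) := by push_cast; rfl
            rw [this]
            exact hV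
    have h2 : ((a : ℚ) * (n : ℚ) + (b : ℚ) * ((ℓ : ℤ) : ℚ)) = 1 := by exact_mod_cast hab
    rw [h2, map_one] at h1
    exact lt_irrefl _ h1
  · rintro ⟨m, rfl⟩
    rw [Int.cast_mul, map_mul]
    have : (((ℓ : ℤ) : ℚ)) = (ℓ : ℚ) := by push_cast; rfl
    rw [this]
    calc V.valuation (ℓ : ℚ) * V.valuation (m : ℚ)
        ≤ V.valuation (ℓ : ℚ) * 1 := mul_le_mul_right (valuation_intCast_le_one m) _
      _ < 1 := by rw [mul_one]; exact hV

theorem valuation_intCast_eq_one_iff (hV : Over ℓ V) (n : ℤ) :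
    V.valuation (n : ℚ) = 1 ↔ ¬ (ℓ : ℤ) ∣ n := by
  rw [← valuation_intCast_lt_one_iff hV, not_lt]
  exact ⟨fun h => h.ge, fun h => le_antisymm (valuation_intCast_le_one n) h⟩

theorem valuation_natCast_eq_one_iff (hV : Over ℓ V) (n : ℕ) :
    V.valuation (n : ℚ) = 1 ↔ ¬ ℓ ∣ n := by
  have := valuation_intCast_eq_one_iff hV (n : ℤ)
  rw [Int.natCast_dvd_natCast] at this
  exact_mod_cast this

/-- **`V = ℤ_(ℓ)`**. -/
theorem mem_iff_den (hV : Over ℓ V) (x : ℚ) : x ∈ V ↔ ¬ ℓ ∣ x.den := by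
  have hx : x * (x.den : ℚ) = (x.num : ℚ) := Rat.mul_den_eq_num x
  constructor
  · intro hxV hdvd
    have h1 : V.valuation (x.den : ℚ) < 1 := by
      have := (valuation_intCast_lt_one_iff hV (x.den : ℤ)).mpr (by exact_mod_cast hdvd)
      exact_mod_cast this
    have h2 : ¬ (ℓ : ℤ) ∣ x.num := by
      intro h
      have hcop := x.reduced
      have h3 : ℓ ∣ x.num.natAbs := Int.natCast_dvd.mp h
      have h4 : ℓ ∣ Nat.gcd x.num.natAbs x.den := Nat.dvd_gcd h3 hdvd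
      rw [hcop] at h4
      exact (Fact.out : ℓ.Prime).one_lt.ne' (Nat.dvd_one.mp h4)
    have h5 : V.valuation (x.num : ℚ) = 1 := (valuation_intCast_eq_one_iff hV _).mpr h2
    have h6 : V.valuation x * V.valuation (x.den : ℚ) = 1 := by rw [← map_mul, hx, h5]
    have h7 : V.valuation x * V.valuation (x.den : ℚ) < 1 := by
      calc V.valuation x * V.valuation (x.den : ℚ)
          ≤ 1 * V.valuation (x.den : ℚ) := mul_le_mul_left ((V.valuation_le_one_iff _).mpr hxV) _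
        _ < 1 := by rw [one_mul]; exact h1
    rw [h6] at h7
    exact lt_irrefl _ h7
  · intro hdvd
    have h1 : V.valuation (x.den : ℚ) = 1 := (valuation_natCast_eq_one_iff hV _).mpr hdvd
    have h2 : V.valuation x = V.valuation (x.num : ℚ) := by
      rw [← hx, map_mul, h1, mul_one]
    rw [← V.valuation_le_one_iff, h2]
    exact valuation_intCast_le_one _

/-- `𝔪_V = (ℓ)`, in the shape `hmax` of `C/PointwiseUnit`. -/
theorem exists_eq_mul (hV : Over ℓ V) (x : ℚ) (hx : V.valuation x < 1) :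
    ∃ y ∈ V, x = (ℓ : ℚ) * y := by
  have hℓ0 : (ℓ : ℚ) ≠ 0 := by exact_mod_cast (Fact.out : ℓ.Prime).ne_zero
  have hxV : x ∈ V := (V.valuation_le_one_iff _).mp hx.le
  have hden : V.valuation (x.den : ℚ) = 1 :=
    (valuation_natCast_eq_one_iff hV _).mpr ((mem_iff_den hV x).mp hxV)
  have hxe : x * (x.den : ℚ) = (x.num : ℚ) := Rat.mul_den_eq_num x
  have hnum : V.valuation (x.num : ℚ) < 1 := by rw [← hxe, map_mul, hden, mul_one]; exact hx
  obtain ⟨m, hm⟩ := (valuation_intCast_lt_one_iff hV _).mp hnum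
  have hden0 : (x.den : ℚ) ≠ 0 := by exact_mod_cast x.den_ne_zero
  refine ⟨(m : ℚ) / (x.den : ℚ), ?_, ?_⟩
  · rw [← V.valuation_le_one_iff, map_div₀, hden, div_one]
    exact valuation_intCast_le_one m
  · calc x = (x.num : ℚ) / (x.den : ℚ) := by rw [eq_div_iff hden0, hxe]
      _ = (ℓ : ℚ) * ((m : ℚ) / (x.den : ℚ)) := by
        rw [hm]
        push_cast
        ring

/-- `ℓ` as an element of `V` -/
def ell (_hV : Over ℓ V) : ↥V := ⟨(ℓ : ℚ), natCast_mem V ℓ⟩

@[simp] theorem coe_ell (hV : Over ℓ V) : ((ell hV : ↥V) : ℚ) = (ℓ : ℚ) := rfl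

theorem ell_eq_natCast (hV : Over ℓ V) : ell hV = ((ℓ : ℕ) : ↥V) := Subtype.ext (by simp)

theorem maximalIdeal_eq_span (hV : Over ℓ V) :
    IsLocalRing.maximalIdeal ↥V = Ideal.span {ell hV} := by
  apply le_antisymm
  · intro x hx
    have h1 : V.valuation (x : ℚ) < 1 := (V.valuation_lt_one_iff x).mp hx
    obtain ⟨y, hy, hxy⟩ := exists_eq_mul hV _ h1
    rw [Ideal.mem_span_singleton]
    exact ⟨⟨y, hy⟩, Subtype.ext hxy⟩
  · rw [Ideal.span_le, Set.singleton_subset_iff, SetLike.mem_coe, V.valuation_lt_one_iff]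
    exact hV

theorem ell_ne_zero (hV : Over ℓ V) : ell hV ≠ 0 := by
  intro h
  have := congrArg (fun z : ↥V => (z : ℚ)) h
  simp only [coe_ell, ZeroMemClass.coe_zero] at this
  exact (by exact_mod_cast (Fact.out : ℓ.Prime).ne_zero : (ℓ : ℚ) ≠ 0) this

theorem not_isUnit_ell (hV : Over ℓ V) : ¬ IsUnit (ell hV) := by
  rw [V.valuation_eq_one_iff]
  exact (valuation_ell_lt_one hV).ne

theorem irreducible_ell (hV : Over ℓ V) : Irreducible (ell hV) := by
  rw [irreducible_iff]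
  refine ⟨not_isUnit_ell hV, fun a b hab => ?_⟩
  by_contra hcon
  rw [not_or] at hcon
  obtain ⟨ha, hb⟩ := hcon
  have hva : V.valuation (a : ℚ) < 1 :=
    lt_of_le_of_ne (V.valuation_le_one a) (fun h => ha ((V.valuation_eq_one_iff a).mpr h))
  have hvb : V.valuation (b : ℚ) < 1 :=
    lt_of_le_of_ne (V.valuation_le_one b) (fun h => hb ((V.valuation_eq_one_iff b).mpr h))
  obtain ⟨a', ha', haa⟩ := exists_eq_mul hV _ hva
  obtain ⟨b', hb', hbb⟩ := exists_eq_mul hV _ hvb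
  have hℓ0 : (ℓ : ℚ) ≠ 0 := by exact_mod_cast (Fact.out : ℓ.Prime).ne_zero
  have h1 : (ℓ : ℚ) = (a : ℚ) * (b : ℚ) := congrArg (fun z : ↥V => (z : ℚ)) hab
  rw [haa, hbb] at h1
  have h2 : (1 : ℚ) = (ℓ : ℚ) * (a' * b') := by
    have : (ℓ : ℚ) * 1 = (ℓ : ℚ) * ((ℓ : ℚ) * (a' * b')) := by
      rw [mul_one]
      calc (ℓ : ℚ) = (ℓ : ℚ) * a' * ((ℓ : ℚ) * b') := h1
        _ = (ℓ : ℚ) * ((ℓ : ℚ) * (a' * b')) := by ring
    exact mul_left_cancel₀ hℓ0 this
  have h3 : V.valuation ((ℓ : ℚ) * (a' * b')) < 1 := by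
    rw [map_mul]
    calc V.valuation (ℓ : ℚ) * V.valuation (a' * b')
        ≤ V.valuation (ℓ : ℚ) * 1 :=
          mul_le_mul_right ((V.valuation_le_one_iff _).mpr (V.mul_mem _ _ ha' hb')) _
      _ < 1 := by rw [mul_one]; exact hV
  rw [← h2, map_one] at h3
  exact lt_irrefl _ h3

/-- every nonzero element of `V` is a power of `ℓ` times a unit -/
theorem exists_associated_pow (hV : Over ℓ V) {x : ↥V} (hx : x ≠ 0) :
    ∃ n : ℕ, Associated (ell hV ^ n) x := by
  have hx0 : (x : ℚ) ≠ 0 := fun h => hx (Subtype.ext h)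
  have hnum0 : (x : ℚ).num ≠ 0 := Rat.num_ne_zero.mpr hx0
  have hfin : FiniteMultiplicity (ℓ : ℤ) (x : ℚ).num := by
    rw [Int.finiteMultiplicity_iff]
    exact ⟨by simpa using (Fact.out : ℓ.Prime).ne_one, hnum0⟩
  obtain ⟨m, hm, hdvd⟩ := hfin.exists_eq_pow_mul_and_not_dvd
  set e := multiplicity (ℓ : ℤ) (x : ℚ).num with he
  have hden : V.valuation ((x : ℚ).den : ℚ) = 1 :=
    (valuation_natCast_eq_one_iff hV _).mpr ((mem_iff_den hV _).mp x.2)
  have hvm : V.valuation (m : ℚ) = 1 := (valuation_intCast_eq_one_iff hV _).mpr hdvd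
  have hden0 : ((x : ℚ).den : ℚ) ≠ 0 := by exact_mod_cast (x : ℚ).den_ne_zero
  have huV : (m : ℚ) / ((x : ℚ).den : ℚ) ∈ V := by
    rw [← V.valuation_le_one_iff, map_div₀, hden, hvm, div_one]
  have hu : IsUnit (⟨(m : ℚ) / ((x : ℚ).den : ℚ), huV⟩ : ↥V) := by
    rw [V.valuation_eq_one_iff]
    show V.valuation ((m : ℚ) / ((x : ℚ).den : ℚ)) = 1
    rw [map_div₀, hden, hvm, div_one]
  refine ⟨e, hu.unit, Subtype.ext ?_⟩
  show ((ell hV ^ e : ↥V) : ℚ) * ((m : ℚ) / ((x : ℚ).den : ℚ)) = (x : ℚ)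
  have hxe : (x : ℚ) * ((x : ℚ).den : ℚ) = ((x : ℚ).num : ℚ) := Rat.mul_den_eq_num _
  rw [SubmonoidClass.coe_pow, coe_ell, eq_comm, ← mul_div_assoc, eq_div_iff hden0, hxe]
  conv_lhs => rw [hm]
  push_cast
  rfl

/-- `V = ℤ_(ℓ)` is a discrete valuation ring (with uniformiser `ℓ`: `irreducible_ell`). -/
theorem isDiscreteValuationRing (hV : Over ℓ V) : IsDiscreteValuationRing ↥V :=
  IsDiscreteValuationRing.ofHasUnitMulPowIrreducibleFactorization
    ⟨ell hV, irreducible_ell hV, fun hx => exists_associated_pow hV hx⟩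

/-! ### clearing denominators -/

/-- **Clearing denominators**: a polynomial over `V = ℤ_(ℓ)` times a suitable integer prime to `ℓ`
is an integer polynomial. -/
theorem exists_int_poly (hV : Over ℓ V) {p : ℚ[X]} (hp : p ∈ polyV V) :
    ∃ (D : ℤ) (P : ℤ[X]), ¬ (ℓ : ℤ) ∣ D ∧ P.map (Int.castRingHom ℚ) = C (D : ℚ) * p := by
  obtain ⟨q, rfl⟩ := hp
  have hpr : Prime (ℓ : ℤ) := Nat.prime_iff_prime_int.mp (Fact.out : ℓ.Prime)
  induction q using Polynomial.induction_on' with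
  | add q₁ q₂ h₁ h₂ =>
    obtain ⟨D₁, P₁, hD₁, hP₁⟩ := h₁
    obtain ⟨D₂, P₂, hD₂, hP₂⟩ := h₂
    refine ⟨D₁ * D₂, C D₂ * P₁ + C D₁ * P₂, ?_, ?_⟩
    · intro h
      rcases hpr.dvd_or_dvd h with h | h
      · exact hD₁ h
      · exact hD₂ h
    · rw [Polynomial.map_add, Polynomial.map_mul, Polynomial.map_mul, Polynomial.map_C,
        Polynomial.map_C, hP₁, hP₂, map_add]
      simp only [eq_intCast, Int.cast_mul, map_mul]
      ring
  | monomial n a =>
    have hden : ¬ ℓ ∣ (a : ℚ).den := (mem_iff_den hV _).mp a.2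
    refine ⟨((a : ℚ).den : ℤ), monomial n (a : ℚ).num, by exact_mod_cast hden, ?_⟩
    rw [Polynomial.map_monomial, Polynomial.coe_mapRingHom, Polynomial.map_monomial,
      Polynomial.C_mul_monomial]
    congr 1
    simp only [eq_intCast, Int.cast_natCast, ValuationSubring.subtype_apply]
    rw [mul_comm]
    exact (Rat.mul_den_eq_num _).symm

/-! ### the Gauss valuation ring of the `j`-line -/

variable (N : ℕ) [NeZero N]

theorem ofZ_eq (P : ℤ[X]) :
    ofZ P = algebraMap ℚ[X] (RatFunc ℚ) (P.map (Int.castRingHom ℚ)) := rfl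

theorem map_int_mem_polyV (P : ℤ[X]) : P.map (Int.castRingHom ℚ) ∈ polyV V := by
  rw [mem_polyV]
  intro i
  rw [coeff_map]
  exact intCast_mem V _

/-- an integer polynomial which is nonzero modulo `ℓ` is primitive over `V` -/
theorem isPrim_map_int (hV : Over ℓ V) {Q : ℤ[X]} (hQ : Q.map (Int.castRingHom (ZMod ℓ)) ≠ 0) :
    IsPrim V (Q.map (Int.castRingHom ℚ)) := by
  refine ⟨map_int_mem_polyV Q, ?_⟩
  obtain ⟨i, hi⟩ : ∃ i, (Q.map (Int.castRingHom (ZMod ℓ))).coeff i ≠ 0 := by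
    by_contra hcon
    rw [not_exists] at hcon
    apply hQ
    ext i
    have := hcon i
    rw [not_not] at this
    rw [this, coeff_zero]
  refine ⟨i, ?_⟩
  rw [coeff_map, eq_intCast, valuation_intCast_eq_one_iff hV]
  intro hdvd
  apply hi
  rw [coeff_map, eq_intCast]
  exact (ZMod.intCast_zmod_eq_zero_iff_dvd _ _).mpr hdvd

/-- conversely -/
theorem map_int_ne_zero_of_isPrim (hV : Over ℓ V) {Q : ℤ[X]}
    (hQ : IsPrim V (Q.map (Int.castRingHom ℚ))) : Q.map (Int.castRingHom (ZMod ℓ)) ≠ 0 := by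
  obtain ⟨-, i, hi⟩ := hQ
  rw [coeff_map, eq_intCast, valuation_intCast_eq_one_iff hV] at hi
  intro h0
  apply hi
  have := congrArg (fun q : (ZMod ℓ)[X] => q.coeff i) h0
  simp only [coeff_map, eq_intCast, coeff_zero] at this
  exact (ZMod.intCast_zmod_eq_zero_iff_dvd _ _).mp this

/-- **the Gauss valuation ring of the `j`-line in terms of polynomials over `V = ℤ_(ℓ)`**
(the shape of `GaussRing.mem_gaussRing`). -/
theorem mem_Vrat_iff_prim (hV : Over ℓ V) (f : RatFunc ℚ) :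
    f ∈ Vrat ℓ N ↔ ∃ a s : ℚ[X], a ∈ polyV V ∧ IsPrim V s ∧
      f * algebraMap ℚ[X] (RatFunc ℚ) s = algebraMap ℚ[X] (RatFunc ℚ) a := by
  rw [mem_Vrat_iff]
  constructor
  · rintro ⟨P, Q, hQ, h⟩
    exact ⟨P.map (Int.castRingHom ℚ), Q.map (Int.castRingHom ℚ), map_int_mem_polyV P,
      isPrim_map_int hV hQ, h⟩
  · rintro ⟨a, s, ha, hs, h⟩
    obtain ⟨Da, Pa, hDa, hPa⟩ := exists_int_poly hV ha
    obtain ⟨Ds, Ps, hDs, hPs⟩ := exists_int_poly hV hs.mem
    refine ⟨C Ds * Pa, C Da * Ps, ?_, ?_⟩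
    · apply map_int_ne_zero_of_isPrim hV
      rw [Polynomial.map_mul, Polynomial.map_C, hPs, eq_intCast, ← mul_assoc, ← C_mul]
      have hc : IsPrim V (C ((Da : ℚ) * (Ds : ℚ))) := by
        refine ⟨GaussRing.C_mem_polyV V (V.mul_mem _ _ (intCast_mem V _) (intCast_mem V _)), 0, ?_⟩
        rw [coeff_C_zero, map_mul, (valuation_intCast_eq_one_iff hV _).mpr hDa,
          (valuation_intCast_eq_one_iff hV _).mpr hDs, one_mul]
      exact hc.mul hs
    · rw [ofZ_eq, ofZ_eq, Polynomial.map_mul, Polynomial.map_mul, Polynomial.map_C,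
        Polynomial.map_C, hPa, hPs, eq_intCast, eq_intCast, map_mul, map_mul, map_mul, map_mul,
        ← h]
      ring

/-- **`OwFull ∩ ℚ(j)` is the Gauss valuation ring `ℤ_(ℓ)[j]_(ℓ)`.** -/
theorem Vrat_eq_gaussRing (hV : Over ℓ V) : Vrat ℓ N = gaussRing V := by
  ext f
  rw [mem_Vrat_iff_prim N hV, mem_gaussRing]

/-- the disc ring of `V` is contained in the Gauss valuation ring of the `j`-line -/
theorem discRing_le_Vrat (hV : Over ℓ V) : discRing V ≤ (Vrat ℓ N).toSubring := by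
  rw [Vrat_eq_gaussRing N hV]
  exact discRing_le V

end Fermat.Agent.S18.C.GaussZl
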