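import Mathlib

/-!
# PROJECT H (S18), block C, slice H-C3: invariants of a finite group acting on a ring

Mathlib only.  `A → B` is a ring extension, a finite group `G` acts on `B` and `A` is the ring
of invariants (`Algebra.IsInvariant A B G`); `E` is a field.

* (I1) points: `exists_smul_comp_eq` (two points of `B` with the same restriction to `A` differ by
  an element of `G`), `exists_extend` (every point of `A` with values in an algebraically closed
  field extends to `B`), `pointAction`, `restrict`, `restrict_eq_iff`, `restrict_surjective`,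
  `orbitEquiv : Hom(B, E) / G ≃ Hom(A, E)`, `card_points_mul_card` (Burnside for points over a
  set `S` of points of `A`).
* (I2) flat base change: `exists_tmul_one_of_invariant`, `tmul_one_injective`, `tensorAction`,
  `isInvariant_tensor`.
* (I3) integral closures: `isIntegral_iff_of_isIntegral`, `isIntegral_invariants_iff`.
* (I4) counting: `orbitQuotientEquiv`, `card_mul_card_eq_sum_fixedBy` (Burnside for a surjection
  whose fibres are the orbits), `sum_stabilizer_eq_sum_fixedBy`,
  `sum_mul_card_eq_sum_mul_card_stabilizer`.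
-/

set_option autoImplicit false

namespace Fermat.Agent.S18.C.Invariants

open Polynomial TensorProduct

section Counting

variable {G X Y : Type*} [Group G] [MulAction G X]

/-- A surjection whose fibres are the orbits identifies the target with the orbit space. -/
noncomputable def orbitQuotientEquiv (π : X → Y) (hsurj : Function.Surjective π)
    (hfib : ∀ x x', π x = π x' ↔ x' ∈ MulAction.orbit G x) :
    MulAction.orbitRel.Quotient G X ≃ Y :=
  Equiv.ofBijective
    (Quotient.lift π (fun x x' (h : x ∈ MulAction.orbit G x') => ((hfib x' x).mpr h).symm))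
    ⟨by
      rintro ⟨x⟩ ⟨x'⟩ h
      apply Quotient.sound
      show x ∈ MulAction.orbit G x'
      exact (hfib x' x).mp (Eq.symm h),
     fun y => by
      obtain ⟨x, hx⟩ := hsurj y
      exact ⟨Quotient.mk'' x, hx⟩⟩

/-- **Burnside**, for a surjection whose fibres are the orbits. -/
theorem card_mul_card_eq_sum_fixedBy [Finite G] [Finite X] (π : X → Y)
    (hsurj : Function.Surjective π)
    (hfib : ∀ x x', π x = π x' ↔ x' ∈ MulAction.orbit G x) :
    Nat.card Y * Nat.card G = ∑ᶠ g : G, Nat.card (MulAction.fixedBy X g) := by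
  classical
  cases nonempty_fintype G
  cases nonempty_fintype X
  have e := orbitQuotientEquiv π hsurj hfib
  haveI : Fintype (MulAction.orbitRel.Quotient G X) := Fintype.ofFinite _
  have h := MulAction.sum_card_fixedBy_eq_card_orbits_mul_card_group G X
  rw [finsum_eq_sum_of_fintype, ← Nat.card_congr e, Nat.card_eq_fintype_card,
    Nat.card_eq_fintype_card, ← h]
  refine Finset.sum_congr rfl fun g _ => ?_
  rw [Nat.card_eq_fintype_card]

/-- double counting of pairs `(g, x)` with `g • x = x`, `g ≠ 1` -/
theorem sum_stabilizer_eq_sum_fixedBy [Fintype G] [Fintype X] [DecidableEq G] [DecidableEq X]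
    (i : G → X → ℕ) :
    ∑ x : X, ∑ g ∈ Finset.univ.filter (fun g : G => g • x = x ∧ g ≠ 1), i g x =
      ∑ g ∈ Finset.univ.filter (fun g : G => g ≠ 1),
        ∑ x ∈ Finset.univ.filter (fun x : X => g • x = x), i g x := by
  simp only [Finset.sum_filter]
  rw [Finset.sum_comm]
  refine Finset.sum_congr rfl fun g _ => ?_
  by_cases hg : g = 1
  · simp [hg]
  · simp [hg]

/-- orbit sums versus point sums: for an invariant weight, summing over the orbit space and
multiplying by `|G|` is the same as summing over points with weights `|Stab x|`. -/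
theorem sum_mul_card_eq_sum_mul_card_stabilizer [Fintype G] [Fintype X] [Fintype Y]
    [DecidableEq Y] (π : X → Y) (hsurj : Function.Surjective π)
    (hfib : ∀ x x', π x = π x' ↔ x' ∈ MulAction.orbit G x) (f : Y → ℕ) :
    (∑ y : Y, f y) * Fintype.card G =
      ∑ x : X, f (π x) * Nat.card (MulAction.stabilizer G x) := by
  classical
  rw [Finset.sum_mul]
  rw [← Finset.sum_fiberwise (s := Finset.univ) (g := π)
    (f := fun x => f (π x) * Nat.card (MulAction.stabilizer G x))]
  refine Finset.sum_congr rfl fun y _ => ?_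
  obtain ⟨x₀, rfl⟩ := hsurj y
  have hfilter : (Finset.univ.filter fun x => π x = π x₀) =
      (MulAction.orbit G x₀).toFinset := by
    ext x
    simp only [Finset.mem_filter, Finset.mem_univ, true_and, Set.mem_toFinset]
    rw [eq_comm, hfib]
  rw [hfilter]
  have hstab : ∀ x ∈ (MulAction.orbit G x₀).toFinset,
      f (π x) * Nat.card (MulAction.stabilizer G x) =
        f (π x₀) * Nat.card (MulAction.stabilizer G x₀) := by
    intro x hx
    rw [Set.mem_toFinset] at hx
    have h1 : π x = π x₀ := ((hfib x₀ x).mpr hx).symm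
    obtain ⟨g, rfl⟩ := hx
    rw [h1]
    congr 1
    exact Nat.card_congr (MulAction.stabilizerEquivStabilizer (g := g) rfl).toEquiv.symm
  rw [Finset.sum_congr rfl hstab, Finset.sum_const, smul_eq_mul, Set.toFinset_card,
    mul_left_comm, Nat.card_eq_fintype_card,
    MulAction.card_orbit_mul_card_stabilizer_eq_card_group]

end Counting

section Points

variable {A B : Type*} [CommRing A] [CommRing B] [Algebra A B]
  (G : Type*) [Group G] [Finite G] [MulSemiringAction G B] [SMulCommClass G A B]
  [Algebra.IsInvariant A B G]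
  {E : Type*} [Field E]

omit [SMulCommClass G A B] in
/-- Two points of `B` with the same restriction to the invariants agree on each element up to
the group action. -/
theorem exists_smul_eq (φ φ' : B →+* E)
    (h : φ.comp (algebraMap A B) = φ'.comp (algebraMap A B)) (x : B) :
    ∃ g : G, φ' x = φ (g • x) := by
  cases nonempty_fintype G
  obtain ⟨p, hp⟩ := Algebra.IsInvariant.charpoly_mem_lifts A B G x
  have hp' : p.map (algebraMap A B) = MulSemiringAction.charpoly G x := hp
  have h1 : (MulSemiringAction.charpoly G x).map φ' = (MulSemiringAction.charpoly G x).map φ := by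
    rw [← hp', Polynomial.map_map, Polynomial.map_map, h]
  have h2 : ((MulSemiringAction.charpoly G x).map φ').eval (φ' x) = 0 := by
    rw [Polynomial.eval_map, Polynomial.eval₂_hom, MulSemiringAction.eval_charpoly, map_zero]
  rw [h1, MulSemiringAction.charpoly_eq, Polynomial.map_prod, Polynomial.eval_prod,
    Finset.prod_eq_zero_iff] at h2
  obtain ⟨g, -, hg⟩ := h2
  refine ⟨g, ?_⟩
  simpa [sub_eq_zero] using hg

/-- Same kernel case. -/
theorem exists_smul_comp_eq_of_ker_eq (φ φ' : B →+* E)
    (h : φ.comp (algebraMap A B) = φ'.comp (algebraMap A B))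
    (hker : RingHom.ker φ = RingHom.ker φ') :
    ∃ g : G, ∀ x : B, φ' x = φ (g • x) := by
  obtain ⟨Q, hQ⟩ : ∃ Q : Ideal B, Q = RingHom.ker φ := ⟨_, rfl⟩
  have hQprime : Q.IsPrime := hQ ▸ RingHom.ker_isPrime φ
  obtain ⟨P, hP⟩ : ∃ P : Ideal A, P = Q.under A := ⟨_, rfl⟩
  have : Q.LiesOver P := ⟨hP⟩
  have hmemQ : ∀ x, x ∈ Q ↔ φ x = 0 := fun x => by rw [hQ, RingHom.mem_ker]
  have hmemQ' : ∀ x, x ∈ Q ↔ φ' x = 0 := fun x => by rw [hQ, hker, RingHom.mem_ker]
  -- the two injective maps on the quotient
  let φb : B ⧸ Q →+* E := Ideal.Quotient.lift Q φ (fun a ha => (hmemQ a).mp ha)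
  let φb' : B ⧸ Q →+* E := Ideal.Quotient.lift Q φ' (fun a ha => (hmemQ' a).mp ha)
  have hinj : Function.Injective φb := by
    rw [injective_iff_map_eq_zero]
    intro y hy
    obtain ⟨x, rfl⟩ := Ideal.Quotient.mk_surjective y
    rw [Ideal.Quotient.eq_zero_iff_mem, hmemQ]
    exact hy
  have hinj' : Function.Injective φb' := by
    rw [injective_iff_map_eq_zero]
    intro y hy
    obtain ⟨x, rfl⟩ := Ideal.Quotient.mk_surjective y
    rw [Ideal.Quotient.eq_zero_iff_mem, hmemQ']
    exact hy
  -- ranges agree
  have hrange : φb'.range = φb.range := by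
    apply le_antisymm
    · rintro _ ⟨y, rfl⟩
      obtain ⟨x, rfl⟩ := Ideal.Quotient.mk_surjective y
      obtain ⟨g, hg⟩ := exists_smul_eq G φ φ' h x
      exact ⟨Ideal.Quotient.mk Q (g • x), hg.symm⟩
    · rintro _ ⟨y, rfl⟩
      obtain ⟨x, rfl⟩ := Ideal.Quotient.mk_surjective y
      obtain ⟨g, hg⟩ := exists_smul_eq G φ' φ h.symm x
      exact ⟨Ideal.Quotient.mk Q (g • x), hg.symm⟩
  let e : B ⧸ Q ≃+* φb.range := RingEquiv.ofBijective φb.rangeRestrict
    ⟨fun a b hab => hinj (congrArg Subtype.val hab), φb.rangeRestrict_surjective⟩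
  let e' : B ⧸ Q ≃+* φb'.range := RingEquiv.ofBijective φb'.rangeRestrict
    ⟨fun a b hab => hinj' (congrArg Subtype.val hab), φb'.rangeRestrict_surjective⟩
  let τ₀ : B ⧸ Q ≃+* B ⧸ Q := (e'.trans (RingEquiv.subringCongr hrange)).trans e.symm
  have hτ₀ : ∀ y, φb (τ₀ y) = φb' y := by
    intro y
    have : (e (τ₀ y) : E) = φb' y := by
      simp only [τ₀, RingEquiv.trans_apply, RingEquiv.apply_symm_apply]
      rfl
    exact this
  have hcomm : ∀ a : A ⧸ P, τ₀ (algebraMap (A ⧸ P) (B ⧸ Q) a) = algebraMap (A ⧸ P) (B ⧸ Q) a := by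
    intro a
    apply hinj
    rw [hτ₀]
    obtain ⟨a, rfl⟩ := Ideal.Quotient.mk_surjective a
    have h1 : algebraMap (A ⧸ P) (B ⧸ Q) (Ideal.Quotient.mk P a)
        = Ideal.Quotient.mk Q (algebraMap A B a) := rfl
    rw [h1]
    show φ' (algebraMap A B a) = φ (algebraMap A B a)
    exact (RingHom.congr_fun h a).symm
  let τ : (B ⧸ Q) ≃ₐ[A ⧸ P] (B ⧸ Q) := AlgEquiv.ofRingEquiv (f := τ₀) hcomm
  obtain ⟨g, hg⟩ := Ideal.Quotient.stabilizerHom_surjective G P Q τ
  refine ⟨g.1, fun x => ?_⟩
  have h2 : τ (Ideal.Quotient.mk Q x) = Ideal.Quotient.mk Q (g • x) := by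
    rw [← hg]; rfl
  have h3 := hτ₀ (Ideal.Quotient.mk Q x)
  have h4 : τ₀ (Ideal.Quotient.mk Q x) = Ideal.Quotient.mk Q (g.1 • x) := h2
  rw [h4] at h3
  exact h3.symm

/-- **Points of the invariants, injectivity part**: two points of `B` with the same restriction to
the invariants differ by an element of the group. -/
theorem exists_smul_comp_eq (φ φ' : B →+* E)
    (h : φ.comp (algebraMap A B) = φ'.comp (algebraMap A B)) :
    ∃ g : G, ∀ x : B, φ' x = φ (g • x) := by
  haveI : (RingHom.ker φ).IsPrime := RingHom.ker_isPrime φ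
  haveI : (RingHom.ker φ').IsPrime := RingHom.ker_isPrime φ'
  have hunder : (RingHom.ker φ).under A = (RingHom.ker φ').under A := by
    ext a
    simp only [Ideal.under_def, Ideal.mem_comap, RingHom.mem_ker]
    have := RingHom.congr_fun h a
    simp only [RingHom.comp_apply] at this
    rw [this]
  obtain ⟨g, hg⟩ := Algebra.IsInvariant.exists_smul_of_under_eq A B G
    (RingHom.ker φ) (RingHom.ker φ') hunder
  -- twist `φ` by `g⁻¹`
  let φ₁ : B →+* E := φ.comp (MulSemiringAction.toRingHom G B g⁻¹)
  have hφ₁ : ∀ x, φ₁ x = φ (g⁻¹ • x) := fun x => rfl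
  have h₁ : φ₁.comp (algebraMap A B) = φ'.comp (algebraMap A B) := by
    rw [← h]
    ext a
    simp only [RingHom.comp_apply, hφ₁, smul_algebraMap]
  have hker : RingHom.ker φ₁ = RingHom.ker φ' := by
    rw [hg]
    ext x
    rw [RingHom.mem_ker, hφ₁, Ideal.mem_pointwise_smul_iff_inv_smul_mem, RingHom.mem_ker]
  obtain ⟨k, hk⟩ := exists_smul_comp_eq_of_ker_eq G φ₁ φ' h₁ hker
  refine ⟨g⁻¹ * k, fun x => ?_⟩
  rw [hk x, hφ₁, mul_smul]

end Points

section Extend

variable {A B : Type*} [CommRing A] [CommRing B] [Algebra A B]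
  {E : Type*} [Field E] [IsAlgClosed E]

/-- A point of `A` with values in an algebraically closed field extends to any integral
extension `B ⊇ A`. -/
theorem exists_extend_of_isIntegral [Algebra.IsIntegral A B]
    (hinj : Function.Injective (algebraMap A B)) (ψ : A →+* E) :
    ∃ φ : B →+* E, φ.comp (algebraMap A B) = ψ := by
  obtain ⟨P, hP⟩ : ∃ P : Ideal A, P = RingHom.ker ψ := ⟨_, rfl⟩
  have hPprime : P.IsPrime := hP ▸ RingHom.ker_isPrime ψ
  obtain ⟨Q, -, hQprime, hQP⟩ := Ideal.exists_ideal_over_prime_of_isIntegral P (⊥ : Ideal B) (by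
    rw [Ideal.comap_bot_of_injective _ hinj]; exact bot_le)
  have : Q.LiesOver P := ⟨hQP.symm⟩
  let ψb : A ⧸ P →+* E := Ideal.Quotient.lift P ψ (fun a ha => by
    rw [hP] at ha; exact ha)
  have hψinj : Function.Injective ψb := by
    rw [injective_iff_map_eq_zero]
    intro y hy
    obtain ⟨x, rfl⟩ := Ideal.Quotient.mk_surjective y
    rw [Ideal.Quotient.eq_zero_iff_mem, hP]
    exact hy
  letI : Algebra (A ⧸ P) E := ψb.toAlgebra
  haveI : FaithfulSMul (A ⧸ P) E := (faithfulSMul_iff_algebraMap_injective _ _).mpr hψinj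
  haveI : IsDomain (A ⧸ P) := Ideal.Quotient.isDomain P
  haveI : IsDomain (B ⧸ Q) := Ideal.Quotient.isDomain Q
  haveI : Module.IsTorsionFree (A ⧸ P) (B ⧸ Q) := FaithfulSMul.to_isTorsionFree _ _
  haveI : Module.IsTorsionFree (A ⧸ P) E := FaithfulSMul.to_isTorsionFree _ _
  haveI : Algebra.IsAlgebraic (A ⧸ P) (B ⧸ Q) := Algebra.IsIntegral.isAlgebraic
  let f : (B ⧸ Q) →ₐ[A ⧸ P] E := IsAlgClosed.lift
  refine ⟨f.toRingHom.comp (Ideal.Quotient.mk Q), ?_⟩
  ext a
  have h1 : f (algebraMap (A ⧸ P) (B ⧸ Q) (Ideal.Quotient.mk P a)) = ψb (Ideal.Quotient.mk P a) :=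
    f.commutes _
  exact h1

end Extend

section Points2

variable {A B : Type*} [CommRing A] [CommRing B] [Algebra A B]
  (G : Type*) [Group G] [Finite G] [MulSemiringAction G B]
  [Algebra.IsInvariant A B G]
  {E : Type*} [Field E]

include G in
/-- **Points of the invariants, surjectivity part.** -/
theorem exists_extend [IsAlgClosed E] (hinj : Function.Injective (algebraMap A B))
    (ψ : A →+* E) : ∃ φ : B →+* E, φ.comp (algebraMap A B) = ψ :=
  haveI := Algebra.IsInvariant.isIntegral A B G
  exists_extend_of_isIntegral hinj ψ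

end Points2

section Action

variable (A : Type*) {B : Type*} [CommRing A] [CommRing B] [Algebra A B]
  (G : Type*) [Group G] [MulSemiringAction G B]
  (E : Type*) [Field E]

variable (B) in
/-- The action of `G` on the points of `B`: `(g • φ) x = φ (g⁻¹ • x)`. -/
@[reducible] def pointAction : MulAction G (B →+* E) where
  smul g φ := φ.comp (MulSemiringAction.toRingHom G B g⁻¹)
  one_smul φ := by
    ext x
    show φ ((1 : G)⁻¹ • x) = φ x
    rw [inv_one, one_smul]
  mul_smul g h φ := by
    ext x
    show φ ((g * h)⁻¹ • x) = φ (h⁻¹ • g⁻¹ • x)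
    rw [mul_inv_rev, mul_smul]

attribute [local instance] pointAction

theorem pointAction_apply (g : G) (φ : B →+* E) (x : B) : (g • φ) x = φ (g⁻¹ • x) := rfl

/-- restriction of points to `A` -/
def restrict (φ : B →+* E) : A →+* E := φ.comp (algebraMap A B)

variable {E}

theorem restrict_smul [SMulCommClass G A B] (g : G) (φ : B →+* E) :
    restrict A E (g • φ) = restrict A E φ := by
  ext a
  show φ (g⁻¹ • algebraMap A B a) = φ (algebraMap A B a)
  rw [smul_algebraMap]

theorem smul_eq_iff (g : G) (φ : B →+* E) : g • φ = φ ↔ ∀ x : B, φ (g • x) = φ x := by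
  constructor
  · intro h x
    have := RingHom.congr_fun h (g • x)
    rw [← this]
    show φ (g⁻¹ • g • x) = _
    rw [inv_smul_smul]
  · intro h
    ext x
    show φ (g⁻¹ • x) = φ x
    rw [← h (g⁻¹ • x), smul_inv_smul]

variable [Finite G] [SMulCommClass G A B] [Algebra.IsInvariant A B G]

/-- **Points of the invariants**: the fibres of the restriction map are the `G`-orbits. -/
theorem restrict_eq_iff (φ φ' : B →+* E) :
    restrict A E φ = restrict A E φ' ↔ φ' ∈ MulAction.orbit G φ := by
  constructor
  · intro h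
    obtain ⟨g, hg⟩ := exists_smul_comp_eq G φ φ' h
    refine ⟨g⁻¹, ?_⟩
    ext x
    show φ ((g⁻¹)⁻¹ • x) = φ' x
    rw [inv_inv, hg x]
  · rintro ⟨g, rfl⟩
    exact (restrict_smul A G g φ).symm

omit [SMulCommClass G A B] in
include G in
theorem restrict_surjective [IsAlgClosed E] (hinj : Function.Injective (algebraMap A B)) :
    Function.Surjective (restrict A E : (B →+* E) → (A →+* E)) :=
  fun ψ => exists_extend G hinj ψ

/-- **Points of the invariants**: `Hom(B, E) / G ≃ Hom(B^G, E)`. -/
noncomputable def orbitEquiv [IsAlgClosed E] (hinj : Function.Injective (algebraMap A B)) :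
    MulAction.orbitRel.Quotient G (B →+* E) ≃ (A →+* E) :=
  Equiv.ofBijective
    (Quotient.lift (restrict A E) (fun φ φ' (h : φ ∈ MulAction.orbit G φ') =>
      ((restrict_eq_iff A G φ' φ).mpr h).symm))
    ⟨by
      rintro ⟨φ⟩ ⟨φ'⟩ h
      apply Quotient.sound
      show φ ∈ MulAction.orbit G φ'
      exact (restrict_eq_iff A G φ' φ).mp (Eq.symm h),
     fun ψ => by
      obtain ⟨φ, hφ⟩ := restrict_surjective A G hinj ψ
      exact ⟨Quotient.mk'' φ, hφ⟩⟩

/-- the `G`-set of points of `B` lying over a set `S` of points of `A` -/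
@[reducible] def pointsOverAction (S : Set (A →+* E)) :
    MulAction G {φ : B →+* E // restrict A E φ ∈ S} where
  smul g φ := ⟨g • φ.1, by rw [restrict_smul A G g φ.1]; exact φ.2⟩
  one_smul φ := Subtype.ext (one_smul G φ.1)
  mul_smul g h φ := Subtype.ext (mul_smul g h φ.1)

/-- **Burnside for points**: the number of points of `B ^ G` in `S`, times `|G|`, is the number
of pairs `(g, φ)` with `φ` a point of `B` over `S` fixed by `g`. -/
theorem card_points_mul_card [IsAlgClosed E] (hinj : Function.Injective (algebraMap A B))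
    (S : Set (A →+* E)) [Finite {φ : B →+* E // restrict A E φ ∈ S}] :
    Nat.card S * Nat.card G =
      ∑ᶠ g : G, Nat.card {φ : B →+* E // restrict A E φ ∈ S ∧ ∀ x : B, φ (g • x) = φ x} := by
  letI := pointsOverAction (B := B) (E := E) A G S
  let π : {φ : B →+* E // restrict A E φ ∈ S} → S := fun φ => ⟨restrict A E φ.1, φ.2⟩
  have hsurj : Function.Surjective π := by
    rintro ⟨ψ, hψ⟩
    obtain ⟨φ, rfl⟩ := restrict_surjective A G hinj ψ
    exact ⟨⟨φ, hψ⟩, rfl⟩
  have hfib : ∀ x x', π x = π x' ↔ x' ∈ MulAction.orbit G x := by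
    rintro ⟨φ, hφ⟩ ⟨φ', hφ'⟩
    rw [Subtype.ext_iff]
    show restrict A E φ = restrict A E φ' ↔ _
    rw [restrict_eq_iff A G]
    constructor
    · rintro ⟨g, hg⟩
      exact ⟨g, Subtype.ext hg⟩
    · rintro ⟨g, hg⟩
      exact ⟨g, congrArg Subtype.val hg⟩
  rw [card_mul_card_eq_sum_fixedBy π hsurj hfib]
  refine finsum_congr fun g => ?_
  refine Nat.card_congr
    { toFun := fun φ => ⟨φ.1.1, φ.1.2, (smul_eq_iff G g φ.1.1).mp (congrArg Subtype.val φ.2)⟩
      invFun := fun φ => ⟨⟨φ.1, φ.2.1⟩, Subtype.ext ((smul_eq_iff G g φ.1).mpr φ.2.2)⟩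
      left_inv := fun φ => rfl
      right_inv := fun φ => rfl }

end Action

section FlatBaseChange

variable {A B : Type*} [CommRing A] [CommRing B] [Algebra A B]
  (G : Type*) [Group G] [MulSemiringAction G B] [SMulCommClass G A B]
  (T : Type*) [CommRing T] [Algebra A T]

/-- the `A`-linear map `b ↦ (g • b - b)_g` whose kernel is the ring of invariants -/
def delta : B →ₗ[A] (G → B) where
  toFun b g := g • b - b
  map_add' a b := by ext g; simp [smul_add]; ring
  map_smul' c b := by ext g; simp [smul_sub, smul_comm g c b]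

variable (A B) in
theorem exact_delta [Algebra.IsInvariant A B G] :
    Function.Exact (Algebra.linearMap A B) (delta (A := A) (B := B) G) := by
  intro b
  constructor
  · intro hb
    have : ∀ g : G, g • b = b := fun g => by
      have := congrFun hb g
      simpa [delta, sub_eq_zero] using this
    obtain ⟨a, ha⟩ := Algebra.IsInvariant.isInvariant (A := A) (G := G) b this
    exact ⟨a, ha⟩
  · rintro ⟨a, rfl⟩
    ext g
    simp [delta, smul_algebraMap]

/-- `1 ⊗ g` on `T ⊗ B` -/
def tensorSMul (g : G) : T ⊗[A] B →ₐ[T] T ⊗[A] B :=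
  Algebra.TensorProduct.map (AlgHom.id T T) (MulSemiringAction.toAlgHom A B g)

theorem tensorSMul_tmul (g : G) (t : T) (b : B) :
    tensorSMul G T g (t ⊗ₜ[A] b) = t ⊗ₜ (g • b) := by
  simp [tensorSMul]

theorem lTensor_delta_apply [Fintype G] [DecidableEq G] (x : T ⊗[A] B) (g : G) :
    TensorProduct.piRight A A T (fun _ : G => B) ((delta (A := A) (B := B) G).lTensor T x) g =
      tensorSMul G T g x - x := by
  induction x using TensorProduct.induction_on with
  | zero => simp
  | tmul t b =>
    rw [LinearMap.lTensor_tmul, TensorProduct.piRight_apply, TensorProduct.piRightHom_tmul,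
      tensorSMul_tmul]
    show t ⊗ₜ[A] (g • b - b) = _
    rw [TensorProduct.tmul_sub]
  | add x y hx hy =>
    simp only [map_add, Pi.add_apply, hx, hy]
    ring

/-- **Invariants commute with flat base change.** -/
theorem exists_tmul_one_of_invariant [Finite G] [Algebra.IsInvariant A B G] [Module.Flat A T]
    (x : T ⊗[A] B) (hx : ∀ g : G, tensorSMul G T g x = x) : ∃ t : T, x = t ⊗ₜ[A] (1 : B) := by
  classical
  cases nonempty_fintype G
  have hex := Module.Flat.lTensor_exact T (exact_delta A B G)
  have hzero : (delta (A := A) (B := B) G).lTensor T x = 0 := by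
    apply (TensorProduct.piRight A A T (fun _ : G => B)).injective
    rw [map_zero]
    ext g
    rw [lTensor_delta_apply, hx g, sub_self]
    rfl
  have key : ∀ y : T ⊗[A] A, (Algebra.linearMap A B).lTensor T y =
      (TensorProduct.rid A T y) ⊗ₜ[A] (1 : B) := by
    intro y
    induction y using TensorProduct.induction_on with
    | zero => simp
    | tmul t a =>
      simp only [LinearMap.lTensor_tmul, Algebra.linearMap_apply, TensorProduct.rid_tmul]
      rw [Algebra.algebraMap_eq_smul_one, TensorProduct.tmul_smul, TensorProduct.smul_tmul']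
    | add y z hy hz =>
      simp only [map_add, hy, hz, TensorProduct.add_tmul]
  obtain ⟨y, hy⟩ := (hex x).mp hzero
  exact ⟨TensorProduct.rid A T y, by rw [← hy, key]⟩

omit [SMulCommClass G A B] in
/-- `T → T ⊗ B` is injective for flat `T` and `A ⊆ B`. -/
theorem tmul_one_injective [Module.Flat A T] (hinj : Function.Injective (algebraMap A B)) :
    Function.Injective fun t : T => t ⊗ₜ[A] (1 : B) := by
  have h1 : Function.Injective ((Algebra.linearMap A B).lTensor T) :=
    Module.Flat.lTensor_preserves_injective_linearMap _ hinj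
  intro t t' h
  have : (Algebra.linearMap A B).lTensor T (t ⊗ₜ 1) =
      (Algebra.linearMap A B).lTensor T (t' ⊗ₜ 1) := by
    simpa using h
  have h2 := h1 this
  have h3 := congrArg (TensorProduct.rid A T) h2
  simpa using h3

theorem tensorSMul_one (x : T ⊗[A] B) : tensorSMul G T (1 : G) x = x := by
  induction x using TensorProduct.induction_on with
  | zero => simp
  | tmul t b => rw [tensorSMul_tmul, one_smul]
  | add x y hx hy => rw [map_add, hx, hy]

theorem tensorSMul_mul (g h : G) (x : T ⊗[A] B) :
    tensorSMul G T (g * h) x = tensorSMul G T g (tensorSMul G T h x) := by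
  induction x using TensorProduct.induction_on with
  | zero => simp
  | tmul t b => rw [tensorSMul_tmul, tensorSMul_tmul, tensorSMul_tmul, mul_smul]
  | add x y hx hy => rw [map_add, hx, hy, map_add, map_add]

/-- the action of `G` on `T ⊗ B` through the second factor -/
@[reducible] def tensorAction : MulSemiringAction G (T ⊗[A] B) where
  smul g x := tensorSMul G T g x
  one_smul x := tensorSMul_one G T x
  mul_smul g h x := tensorSMul_mul G T g h x
  smul_zero g := map_zero (tensorSMul G T g)
  smul_add g x y := map_add (tensorSMul G T g) x y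
  smul_one g := map_one (tensorSMul G T g)
  smul_mul g x y := map_mul (tensorSMul G T g) x y

/-- **Invariants commute with flat base change**, `IsInvariant` form. -/
theorem isInvariant_tensor [Finite G] [Algebra.IsInvariant A B G] [Module.Flat A T] :
    letI := tensorAction (A := A) (B := B) G T
    Algebra.IsInvariant T (T ⊗[A] B) G := by
  letI := tensorAction (A := A) (B := B) G T
  refine ⟨fun x hx => ?_⟩
  obtain ⟨t, ht⟩ := exists_tmul_one_of_invariant G T x hx
  exact ⟨t, by rw [ht]; rfl⟩

end FlatBaseChange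

section IntegralClosure

variable {A₀ B₀ R : Type*} [CommRing A₀] [CommRing B₀] [CommRing R]
  [Algebra A₀ B₀] [Algebra B₀ R] [Algebra A₀ R] [IsScalarTower A₀ B₀ R]

/-- Integrality over a ring and over an integral subring are the same thing.  With
`A₀ = B₀ ^ G` this says that the integral closure of `B₀ ^ G` in `R ^ G` is the ring of invariants
of the integral closure of `B₀` in `R`. -/
theorem isIntegral_iff_of_isIntegral [Algebra.IsIntegral A₀ B₀] (x : R) :
    IsIntegral A₀ x ↔ IsIntegral B₀ x :=
  ⟨fun h => h.tower_top, fun h => isIntegral_trans x h⟩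

/-- invariants case -/
theorem isIntegral_invariants_iff (G : Type*) [Group G] [Finite G] [MulSemiringAction G B₀]
    [Algebra.IsInvariant A₀ B₀ G] (x : R) :
    IsIntegral A₀ x ↔ IsIntegral B₀ x :=
  haveI := Algebra.IsInvariant.isIntegral A₀ B₀ G
  isIntegral_iff_of_isIntegral x

end IntegralClosure

end Fermat.Agent.S18.C.Invariants
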