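import Mathlib
import Fermat.Agent.S18.C.Defs

/-!
# PROJECT H (S18), block C, slice H-C7e (E0): the `μ`-line is finite over the `j`-line

For a cover `c` which is `Good` over `K` (i.e. `j = P(μ)/Q(μ)` is transcendental over `K`):

* `covEquiv`               : `K(j) = RatFunc K ≃+* K⟮jOf⟯ ⊆ K(μ)`;
* `finrank_muLine`         : `[K(μ) : K(j)] = max (deg num j) (deg denom j)`;
* `finiteDimensional_muLine` : `FiniteDimensional (RatFunc K) (MuLine c K)`.
-/

set_option autoImplicit false
set_option linter.style.haveILetI false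

noncomputable section

namespace Fermat.Agent.S18.C.MuLineFinite

open Polynomial IntermediateField Fermat.Agent.S18.C.Defs

variable (c : Cover) (K : Type*) [Field K] [c.Good K]

theorem covMap_apply (a : RatFunc K) :
    c.covMap K a = Polynomial.aeval (MuLine.j c K) a.num / Polynomial.aeval (MuLine.j c K) a.denom :=
  RatFunc.liftAlgHom_apply _ _ a

theorem covMap_div (p q : K[X]) :
    c.covMap K (algebraMap K[X] (RatFunc K) p / algebraMap K[X] (RatFunc K) q) =
      Polynomial.aeval (MuLine.j c K) p / Polynomial.aeval (MuLine.j c K) q :=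
  RatFunc.liftAlgHom_apply_div _ _ p q

theorem algebraMap_eq_covMap (a : RatFunc K) :
    algebraMap (RatFunc K) (MuLine c K) a = c.covMap K a := rfl

/-- the image of the `j`-line lies in `K⟮jOf⟯` -/
theorem covMap_mem (a : RatFunc K) :
    (MuLine.of c K).symm (c.covMap K a) ∈ K⟮c.jOf K⟯ := by
  rw [IntermediateField.mem_adjoin_simple_iff]
  exact ⟨a.num, a.denom, covMap_apply c K a⟩

/-- `K(j) → K⟮jOf⟯`, as a ring homomorphism -/
def covToAdjoin : RatFunc K →+* K⟮c.jOf K⟯ :=
  (((MuLine.of c K).symm : MuLine c K →+* RatFunc K).comp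
    (c.covMap K : RatFunc K →+* MuLine c K)).codRestrict K⟮c.jOf K⟯ (covMap_mem c K)

theorem coe_covToAdjoin (a : RatFunc K) :
    ((covToAdjoin c K a : K⟮c.jOf K⟯) : RatFunc K) = (MuLine.of c K).symm (c.covMap K a) := rfl

theorem covToAdjoin_bijective : Function.Bijective (covToAdjoin c K) := by
  refine ⟨(covToAdjoin c K).injective, fun z => ?_⟩
  obtain ⟨r, s, hrs⟩ := (IntermediateField.mem_adjoin_simple_iff K (z : RatFunc K)).mp z.2
  refine ⟨algebraMap K[X] (RatFunc K) r / algebraMap K[X] (RatFunc K) s, Subtype.ext ?_⟩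
  rw [coe_covToAdjoin, covMap_div, hrs]
  rfl

/-- the ring isomorphism `K(j) ≃ K⟮jOf⟯` -/
def covEquiv : RatFunc K ≃+* K⟮c.jOf K⟯ :=
  RingEquiv.ofBijective (covToAdjoin c K) (covToAdjoin_bijective c K)

theorem coe_covEquiv (a : RatFunc K) :
    ((covEquiv c K a : K⟮c.jOf K⟯) : RatFunc K) = (MuLine.of c K).symm (c.covMap K a) := rfl

/-- **the degree of the cover** -/
theorem finrank_muLine :
    Module.finrank (RatFunc K) (MuLine c K) =
      max (c.jOf K).num.natDegree (c.jOf K).denom.natDegree := by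
  rw [← RatFunc.finrank_eq_max_natDegree]
  refine Algebra.finrank_eq_of_equiv_equiv (covEquiv c K)
    ((MuLine.of c K).symm : MuLine c K ≃+* RatFunc K) ?_
  ext a
  rfl

theorem jOf_ne_C : ¬ ∃ a : K, c.jOf K = RatFunc.C a := by
  rintro ⟨a, ha⟩
  apply Cover.Good.transc (c := c) (K := K)
  rw [ha, ← RatFunc.algebraMap_eq_C]
  exact isAlgebraic_algebraMap a

theorem finrank_muLine_pos : 0 < Module.finrank (RatFunc K) (MuLine c K) := by
  rw [finrank_muLine]
  by_contra h
  push Not at h
  have h0 : max (c.jOf K).num.natDegree (c.jOf K).denom.natDegree = 0 := by omega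
  rw [Nat.max_eq_zero_iff, ← RatFunc.eq_C_iff] at h0
  exact jOf_ne_C c K h0

instance finiteDimensional_muLine : FiniteDimensional (RatFunc K) (MuLine c K) :=
  Module.finite_of_finrank_pos (finrank_muLine_pos c K)

open scoped Classical in
omit [c.Good K] in
theorem natDegree_div_gcd_of_isCoprime {p q : K[X]} (h : IsCoprime p q) :
    (p / GCDMonoid.gcd p q).natDegree = p.natDegree ∧
      (q / GCDMonoid.gcd p q).natDegree = q.natDegree ∧
      (q ≠ 0 → q / GCDMonoid.gcd p q ≠ 0) := by
  have hu : IsUnit (GCDMonoid.gcd p q) := gcd_isUnit_iff_isRelPrime.mpr h.isRelPrime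
  obtain ⟨a, ha, hC⟩ := Polynomial.isUnit_iff.mp hu
  have ha0 : a ≠ 0 := ha.ne_zero
  rw [← hC, Polynomial.div_C, Polynomial.div_C, mul_comm, mul_comm q,
    Polynomial.natDegree_C_mul (inv_ne_zero ha0), Polynomial.natDegree_C_mul (inv_ne_zero ha0)]
  refine ⟨rfl, rfl, fun hq => mul_ne_zero ?_ hq⟩
  rw [Ne, Polynomial.C_eq_zero]
  exact inv_ne_zero ha0

open scoped Classical in
/-- the degree of the cover when `P` and `Q` are coprime over `K` -/
theorem finrank_muLine_of_isCoprime (h : IsCoprime (c.PK K) (c.QK K)) :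
    Module.finrank (RatFunc K) (MuLine c K) = max (c.PK K).natDegree (c.QK K).natDegree := by
  have hQ : c.QK K ≠ 0 := by
    intro h0
    apply jOf_ne_C c K
    refine ⟨0, ?_⟩
    rw [Cover.jOf, h0, map_zero, div_zero, map_zero]
  obtain ⟨h1, h2, h3⟩ := natDegree_div_gcd_of_isCoprime K h
  have hlc : ((c.QK K) / GCDMonoid.gcd (c.PK K) (c.QK K)).leadingCoeff⁻¹ ≠ 0 :=
    inv_ne_zero (Polynomial.leadingCoeff_ne_zero.mpr (h3 hQ))
  rw [finrank_muLine, Cover.jOf, RatFunc.num_div, RatFunc.denom_div _ hQ,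
    Polynomial.natDegree_C_mul hlc, Polynomial.natDegree_C_mul hlc, h1, h2]

end Fermat.Agent.S18.C.MuLineFinite
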