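import Mathlib
import Fermat.Agent.S18.A.Defs
import Fermat.Agent.S18.A.FibreSep

/-!
# PROJECT H (S18), block C service file: places = points

`K` algebraically closed, `F/K` a function field (`hx : S24.FF.IsFF K x`).  For a Dedekind domain
`B` with `Frac B = F` containing `K` (any chart: the integral closure of `K[x]`, a localisation of
it, the integral closure of a local ring `K[x]_(x - a)`, ...):

* `pointOfPrime hx P : B →ₐ[K] K`      the residue map of a nonzero prime `P` (residue field `= K`);
* `ker_pointOfPrime`                   its kernel is `P`;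
* `primeOfPoint hx φ`                  the nonzero prime `ker φ` of a `K`-point `φ : B →ₐ[K] K`;
* `pointEquiv hx : HeightOneSpectrum B ≃ (B →ₐ[K] K)`;
* `placeEquiv hx : (B →ₐ[K] K) ≃ {v : Place K F // ∀ b, algebraMap B F b ∈ v.toValuationSubring}`;
* `adicValuation_sub_lt_one_iff`       `v_φ (y - a) < 1 ↔ φ y = a` for `y : B`;
* for the chart `O = intRing K x` of a separating element (`hsep` explicit, any characteristic):
  `fibreEquiv hx hsep a : {φ : O →ₐ[K] K // φ x = a} ≃ {v // v.adicValuation (x - a) < 1}` and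
  `card_zeros_eq hx hsep a : (FibreSep.zeros hx hsep a).card = Nat.card {φ // φ x = a}`.
-/

set_option autoImplicit false

namespace Fermat.Agent.S18.C.PlacePoints

open AlgebraicCurve IsDedekindDomain IntermediateField
  Fermat.Agent.S24.PlacePrime Fermat.Agent.S24.FF Fermat.Agent.S24.Ord Fermat.Agent.S24.Fibre

universe u w

variable {K : Type w} {F : Type u} [Field K] [Field F] [Algebra K F] [IsAlgClosed K]

section General

variable {B : Type*} [CommRing B] [IsDedekindDomain B] [Algebra B F] [IsFractionRing B F]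
  [Algebra K B] [IsScalarTower K B F]
variable {x : F}

/-- every element of `B` is congruent to a constant modulo a nonzero prime -/
theorem exists_sub_mem (hx : IsFF K x) (P : HeightOneSpectrum B) (b : B) :
    ∃ c : K, b - algebraMap K B c ∈ P.asIdeal := by
  have hb : (placeOfPrime (K := K) P).adicValuation (algebraMap B F b) ≤ 1 := by
    rw [Fermat.Agent.S18.A.FibreSep.adicValuation_placeOfPrime]
    exact P.valuation_le_one b
  obtain ⟨c, hc⟩ := exists_sub_lt_one hx (placeOfPrime (K := K) P) hb
  refine ⟨c, ?_⟩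
  rw [Fermat.Agent.S18.A.FibreSep.adicValuation_placeOfPrime,
    IsScalarTower.algebraMap_apply K B F, ← map_sub,
    HeightOneSpectrum.valuation_lt_one_iff_mem] at hc
  exact hc

omit [IsAlgClosed K] [IsDedekindDomain B] in
theorem algebraMap_mem_iff (P : HeightOneSpectrum B) (c : K) :
    algebraMap K B c ∈ P.asIdeal ↔ c = 0 := by
  constructor
  · intro h
    by_contra hc
    have hu : IsUnit (algebraMap K B c) := (IsUnit.mk0 c hc).map (algebraMap K B)
    exact P.isPrime.ne_top (Ideal.eq_top_of_isUnit_mem _ h hu)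
  · rintro rfl
    rw [map_zero]
    exact Ideal.zero_mem _

theorem bijective_algebraMap_quotient (hx : IsFF K x) (P : HeightOneSpectrum B) :
    Function.Bijective (algebraMap K (B ⧸ P.asIdeal)) := by
  constructor
  · rw [injective_iff_map_eq_zero]
    intro c hc
    rw [IsScalarTower.algebraMap_apply K B (B ⧸ P.asIdeal), Ideal.Quotient.algebraMap_eq,
      Ideal.Quotient.eq_zero_iff_mem] at hc
    exact (algebraMap_mem_iff P c).mp hc
  · intro w
    obtain ⟨b, rfl⟩ := Ideal.Quotient.mk_surjective w
    obtain ⟨c, hc⟩ := exists_sub_mem hx P b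
    refine ⟨c, ?_⟩
    rw [IsScalarTower.algebraMap_apply K B (B ⧸ P.asIdeal), Ideal.Quotient.algebraMap_eq]
    symm
    rw [Ideal.Quotient.eq]
    exact hc

/-- the residue map of a nonzero prime, as a `K`-point -/
noncomputable def pointOfPrime (hx : IsFF K x) (P : HeightOneSpectrum B) : B →ₐ[K] K :=
  ((AlgEquiv.ofBijective (Algebra.ofId K (B ⧸ P.asIdeal))
    (bijective_algebraMap_quotient hx P)).symm : (B ⧸ P.asIdeal) →ₐ[K] K).comp
    (Ideal.Quotient.mkₐ K P.asIdeal)

theorem sub_pointOfPrime_mem (hx : IsFF K x) (P : HeightOneSpectrum B) (b : B) :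
    b - algebraMap K B (pointOfPrime hx P b) ∈ P.asIdeal := by
  rw [← Ideal.Quotient.eq]
  have h := (AlgEquiv.ofBijective (Algebra.ofId K (B ⧸ P.asIdeal))
    (bijective_algebraMap_quotient hx P)).apply_symm_apply (Ideal.Quotient.mk P.asIdeal b)
  have h' : algebraMap K (B ⧸ P.asIdeal) (pointOfPrime hx P b) =
      Ideal.Quotient.mk P.asIdeal b := h
  rw [IsScalarTower.algebraMap_apply K B (B ⧸ P.asIdeal), Ideal.Quotient.algebraMap_eq] at h'
  exact h'.symm

theorem pointOfPrime_eq_iff (hx : IsFF K x) (P : HeightOneSpectrum B) (b : B) (c : K) :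
    pointOfPrime hx P b = c ↔ b - algebraMap K B c ∈ P.asIdeal := by
  constructor
  · rintro rfl
    exact sub_pointOfPrime_mem hx P b
  · intro h
    have h1 := sub_pointOfPrime_mem hx P b
    have h2 : algebraMap K B (pointOfPrime hx P b - c) ∈ P.asIdeal := by
      have := P.asIdeal.sub_mem h h1
      rw [map_sub]
      convert this using 1
      ring
    exact sub_eq_zero.mp ((algebraMap_mem_iff P _).mp h2)

theorem ker_pointOfPrime (hx : IsFF K x) (P : HeightOneSpectrum B) :
    RingHom.ker (pointOfPrime hx P : B →+* K) = P.asIdeal := by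
  ext b
  rw [RingHom.mem_ker, RingHom.coe_coe, pointOfPrime_eq_iff, map_zero, sub_zero]

omit [IsAlgClosed K] [IsDedekindDomain B] in
theorem sub_mem_ker (φ : B →ₐ[K] K) (b : B) :
    b - algebraMap K B (φ b) ∈ RingHom.ker (φ : B →+* K) := by
  rw [RingHom.mem_ker, RingHom.coe_coe, map_sub, AlgHom.commutes, Algebra.algebraMap_self,
    RingHom.id_apply, sub_self]

omit [IsAlgClosed K] [IsDedekindDomain B] in
theorem ker_isMaximal (φ : B →ₐ[K] K) : (RingHom.ker (φ : B →+* K)).IsMaximal := by
  refine RingHom.ker_isMaximal_of_surjective (φ : B →+* K) fun c => ⟨algebraMap K B c, ?_⟩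
  rw [RingHom.coe_coe, AlgHom.commutes, Algebra.algebraMap_self, RingHom.id_apply]

omit [IsAlgClosed K] [IsDedekindDomain B] in
theorem ker_ne_bot (hx : IsFF K x) (φ : B →ₐ[K] K) : RingHom.ker (φ : B →+* K) ≠ ⊥ := by
  intro hbot
  -- then `φ` is injective, so every element of `B` is a constant, and so is every element of `F`
  have hinj : Function.Injective φ := by
    have := (RingHom.injective_iff_ker_eq_bot (φ : B →+* K)).mpr hbot
    exact this
  have hconst : ∀ b : B, b = algebraMap K B (φ b) := by
    intro b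
    apply hinj
    rw [AlgHom.commutes, Algebra.algebraMap_self, RingHom.id_apply]
  obtain ⟨b, s, hs, hxs⟩ := IsFractionRing.div_surjective (A := B) x
  apply hx.transcendental
  have hxK : x = algebraMap K F (φ b / φ s) := by
    rw [← hxs, hconst b, hconst s, ← IsScalarTower.algebraMap_apply K B F,
      ← IsScalarTower.algebraMap_apply K B F, map_div₀, AlgHom.commutes, AlgHom.commutes,
      Algebra.algebraMap_self, RingHom.id_apply, RingHom.id_apply]
  rw [hxK]
  exact isAlgebraic_algebraMap _

/-- the nonzero prime attached to a `K`-point -/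
noncomputable def primeOfPoint (hx : IsFF K x) (φ : B →ₐ[K] K) : HeightOneSpectrum B :=
  ⟨RingHom.ker (φ : B →+* K), (ker_isMaximal φ).isPrime, ker_ne_bot hx φ⟩

omit [IsAlgClosed K] [IsDedekindDomain B] in
@[simp]
theorem primeOfPoint_asIdeal (hx : IsFF K x) (φ : B →ₐ[K] K) :
    (primeOfPoint hx φ).asIdeal = RingHom.ker (φ : B →+* K) := rfl

theorem primeOfPoint_pointOfPrime (hx : IsFF K x) (P : HeightOneSpectrum B) :
    primeOfPoint hx (pointOfPrime hx P) = P :=
  HeightOneSpectrum.ext (ker_pointOfPrime hx P)

theorem pointOfPrime_primeOfPoint (hx : IsFF K x) (φ : B →ₐ[K] K) :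
    pointOfPrime hx (primeOfPoint hx φ) = φ := by
  ext b
  rw [pointOfPrime_eq_iff, primeOfPoint_asIdeal]
  exact sub_mem_ker φ b

/-- **nonzero primes of `B` = `K`-points of `B`** -/
noncomputable def pointEquiv (hx : IsFF K x) : HeightOneSpectrum B ≃ (B →ₐ[K] K) where
  toFun := pointOfPrime hx
  invFun := primeOfPoint hx
  left_inv := primeOfPoint_pointOfPrime hx
  right_inv := pointOfPrime_primeOfPoint hx

@[simp]
theorem pointEquiv_apply (hx : IsFF K x) (P : HeightOneSpectrum B) :
    pointEquiv hx P = pointOfPrime hx P := rfl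

@[simp]
theorem pointEquiv_symm_apply (hx : IsFF K x) (φ : B →ₐ[K] K) :
    (pointEquiv hx).symm φ = primeOfPoint hx φ := rfl

/-- the place of a `K`-point -/
noncomputable def placeOfPoint (hx : IsFF K x) (φ : B →ₐ[K] K) : Place K F :=
  placeOfPrime (K := K) (primeOfPoint hx φ)

omit [IsAlgClosed K] in
theorem algebraMap_mem_placeOfPoint (hx : IsFF K x) (φ : B →ₐ[K] K) (b : B) :
    algebraMap B F b ∈ (placeOfPoint hx φ).toValuationSubring := by
  rw [placeOfPoint, mem_placeOfPrime]
  exact (primeOfPoint hx φ).valuation_le_one b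

theorem placeOfPoint_injective (hx : IsFF K x) :
    Function.Injective (placeOfPoint (B := B) (F := F) hx) := by
  intro φ ψ h
  have h1 := placeOfPrime_injective (K := K) h
  rw [← pointOfPrime_primeOfPoint hx φ, ← pointOfPrime_primeOfPoint hx ψ, h1]

theorem exists_point_of_place (hx : IsFF K x) (v : Place K F)
    (hv : ∀ b : B, algebraMap B F b ∈ v.toValuationSubring) :
    ∃ φ : B →ₐ[K] K, placeOfPoint hx φ = v := by
  obtain ⟨P, hP⟩ := exists_prime_of_place (K := K) v hv
  exact ⟨pointOfPrime hx P, by rw [placeOfPoint, primeOfPoint_pointOfPrime, hP]⟩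

/-- **`K`-points of `B` = places of `F` whose valuation ring contains `B`** -/
noncomputable def placeEquiv (hx : IsFF K x) :
    (B →ₐ[K] K) ≃ {v : Place K F // ∀ b : B, algebraMap B F b ∈ v.toValuationSubring} :=
  Equiv.ofBijective (fun φ => ⟨placeOfPoint hx φ, algebraMap_mem_placeOfPoint hx φ⟩)
    ⟨fun φ ψ h => placeOfPoint_injective hx (congrArg Subtype.val h),
      fun v => by
        obtain ⟨φ, hφ⟩ := exists_point_of_place hx v.1 v.2
        exact ⟨φ, Subtype.ext hφ⟩⟩

@[simp]
theorem coe_placeEquiv (hx : IsFF K x) (φ : B →ₐ[K] K) :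
    ((placeEquiv (F := F) hx φ : {v : Place K F // ∀ b : B, algebraMap B F b ∈ v.toValuationSubring}) :
      Place K F) = placeOfPoint hx φ := rfl

omit [IsAlgClosed K] in
/-- the value of a point at `y` is `a` iff `y - a` vanishes at its place -/
theorem adicValuation_sub_lt_one_iff (hx : IsFF K x) (φ : B →ₐ[K] K) (y : B) (a : K) :
    (placeOfPoint hx φ).adicValuation (algebraMap B F y - algebraMap K F a) < 1 ↔ φ y = a := by
  rw [placeOfPoint, Fermat.Agent.S18.A.FibreSep.adicValuation_placeOfPrime,
    IsScalarTower.algebraMap_apply K B F, ← map_sub,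
    HeightOneSpectrum.valuation_lt_one_iff_mem, primeOfPoint_asIdeal, RingHom.mem_ker,
    RingHom.coe_coe, map_sub, AlgHom.commutes, Algebra.algebraMap_self, RingHom.id_apply,
    sub_eq_zero]

omit [IsAlgClosed K] in
/-- the order of vanishing of `y - φ y` at the place of `φ` is positive -/
theorem ord_sub_pos (hx : IsFF K x) (φ : B →ₐ[K] K) (y : B)
    (hy : algebraMap B F y - algebraMap K F (φ y) ≠ 0) :
    0 < (placeOfPoint hx φ).ord (algebraMap B F y - algebraMap K F (φ y)) := by
  rw [ord_pos_iff _ hy]
  exact (adicValuation_sub_lt_one_iff hx φ y (φ y)).mpr rfl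

omit [IsAlgClosed K] in
/-- `ord` of an element of `B` at the place of a point is its multiplicity at the kernel -/
theorem ord_placeOfPoint_algebraMap (hx : IsFF K x) (φ : B →ₐ[K] K) {y : B} (hy : y ≠ 0) :
    (placeOfPoint hx φ).ord (algebraMap B F y) =
      (multiplicity (RingHom.ker (φ : B →+* K)) (Ideal.span {y}) : ℤ) := by
  rw [placeOfPoint, placeOfPrime_ord_algebraMap _ hy, primeOfPoint_asIdeal]

end General

/-! ### the chart `intRing K x` of a separating element -/

section Chart

variable {x : F}

/-- `x` as an element of the integral closure of `K[x]` -/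
def xInt (K : Type w) {F : Type u} [Field K] [Field F] [Algebra K F] (x : F) : intRing K x :=
  ⟨x, isIntegral_algebraMap (R := polyRing K x) (A := F)
    (x := ⟨x, Algebra.self_mem_adjoin_singleton K x⟩)⟩

omit [IsAlgClosed K] in
@[simp]
theorem coe_xInt : ((xInt K x : intRing K x) : F) = x := rfl

omit [IsAlgClosed K] in
theorem algebraMap_xInt : algebraMap (intRing K x) F (xInt K x) = x := rfl

omit [IsAlgClosed K] in
/-- the places whose valuation ring contains `intRing K x` are those at which `x` is regular -/
theorem forall_mem_iff (v : Place K F) :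
    (∀ b : intRing K x, algebraMap (intRing K x) F b ∈ v.toValuationSubring) ↔
      v.adicValuation x ≤ 1 := by
  constructor
  · intro h
    exact (mem_iff v _).mp (h (xInt K x))
  · intro hv b
    exact (mem_iff v _).mpr
      (adicValuation_le_one_of_isIntegral v (adicValuation_adjoin_le_one v hv) b.2)

omit [IsAlgClosed K] in
theorem adicValuation_le_one_of_sub_lt_one (v : Place K F) (a : K)
    (hv : v.adicValuation (x - algebraMap K F a) < 1) : v.adicValuation x ≤ 1 := by
  have h1 : x = (x - algebraMap K F a) + algebraMap K F a := by ring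
  rw [h1]
  exact Valuation.map_add_le _ hv.le ((mem_iff v _).mp (v.algebraMap_mem' a))

/-- **the fibre of `x` over `a`: points of the chart with `x ↦ a` = places over `a`** -/
noncomputable def fibreEquiv (hx : IsFF K x) (hsep : Algebra.IsSeparable K⟮x⟯ F) (a : K) :
    haveI := Fermat.Agent.S18.A.Defs.isDedekind hx hsep
    haveI := Fermat.Agent.S18.A.Defs.isFractionRing hx
    {φ : intRing K x →ₐ[K] K // φ (xInt K x) = a} ≃
      {v : Place K F // v.adicValuation (x - algebraMap K F a) < 1} :=
  haveI := Fermat.Agent.S18.A.Defs.isDedekind hx hsep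
  haveI := Fermat.Agent.S18.A.Defs.isFractionRing hx
  Equiv.ofBijective
    (fun φ => ⟨placeOfPoint hx φ.1, by
      have := (adicValuation_sub_lt_one_iff hx φ.1 (xInt K x) a).mpr φ.2
      rwa [algebraMap_xInt] at this⟩)
    ⟨fun φ ψ h => Subtype.ext (placeOfPoint_injective hx (congrArg Subtype.val h)),
      fun v => by
        have hvx : v.1.adicValuation x ≤ 1 := adicValuation_le_one_of_sub_lt_one v.1 a v.2
        obtain ⟨φ, hφ⟩ := exists_point_of_place (B := intRing K x) hx v.1
          ((forall_mem_iff v.1).mpr hvx)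
        refine ⟨⟨φ, ?_⟩, Subtype.ext hφ⟩
        have h2 : (placeOfPoint hx φ).adicValuation (x - algebraMap K F a) < 1 := by
          rw [hφ]
          exact v.2
        exact (adicValuation_sub_lt_one_iff hx φ (xInt K x) a).mp h2⟩

theorem coe_fibreEquiv (hx : IsFF K x) (hsep : Algebra.IsSeparable K⟮x⟯ F) (a : K)
    (φ : {φ : intRing K x →ₐ[K] K // φ (xInt K x) = a}) :
    haveI := Fermat.Agent.S18.A.Defs.isDedekind hx hsep
    haveI := Fermat.Agent.S18.A.Defs.isFractionRing hx
    ((fibreEquiv hx hsep a φ : {v : Place K F // v.adicValuation (x - algebraMap K F a) < 1}) :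
      Place K F) = placeOfPoint hx φ.1 := rfl

/-- **number of places over `a` = number of points of the chart over `a`** -/
theorem card_zeros_eq (hx : IsFF K x) (hsep : Algebra.IsSeparable K⟮x⟯ F) (a : K) :
    (Fermat.Agent.S18.A.FibreSep.zeros hx hsep a).card =
      Nat.card {φ : intRing K x →ₐ[K] K // φ (xInt K x) = a} := by
  rw [Nat.card_congr (fibreEquiv hx hsep a)]
  have h : {v : Place K F // v.adicValuation (x - algebraMap K F a) < 1} ≃
      {v : Place K F // v ∈ Fermat.Agent.S18.A.FibreSep.zeros hx hsep a} :=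
    Equiv.subtypeEquivRight fun v => (Fermat.Agent.S18.A.FibreSep.mem_zeros hx hsep a v).symm
  rw [Nat.card_congr h, Nat.card_eq_fintype_card, Fintype.card_coe]

end Chart

end Fermat.Agent.S18.C.PlacePoints
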