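import Mathlib
import Fermat.Agent.S18.C.PlacePoints

/-!
# PROJECT H (S18), block C, slice H-C9 (dictionary, part I): places over `a` = `A`-points of an order

`L` algebraically closed with a valuation subring `A` (so `L = Frac A`), `FL/L` a function field
with separating element `x`, `a : L`.  Let `O ⊆ FL` be a subring ("order") which contains the
constants of `A` and `x`, and such that

* `h1` : `O` is contained in the valuation ring of every place of `FL` over `x = a`;
* `h2` : every element of the integral closure `intRing L x` of `L[x]` has an `A`-multiple in `O`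
         (`O ⊗_A L ⊇ intRing L x`).

Then the `A`-linear ring homomorphisms `ψ : O →+* L` with `ψ x = a` are in bijection with the
places of `FL` over `x = a` (`ofPlace`, restriction of the residue map), hence

  `card_ptsOver_eq_card_zeros : #{ψ} = (FibreSep.zeros hx hsep a).card`.

In the application `O = C_A ^ H₀ = (integral closure of B_A in R) ∩ FL`.

Auxiliary: `scaled A O hA` = the localisation of `O` at the nonzero constants of `A`, realised
inside `FL` (`isLocalization_scaled`); `evalAt hx v` = the residue map of a place as an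
`L`-algebra homomorphism `𝒪_v →ₐ[L] L` (`evalAt_eq_iff`).
-/

set_option autoImplicit false

namespace Fermat.Agent.S18.C.PlacePointsA

open AlgebraicCurve IsDedekindDomain IntermediateField
  Fermat.Agent.S24.PlacePrime Fermat.Agent.S24.FF Fermat.Agent.S24.Ord Fermat.Agent.S24.Fibre
  Fermat.Agent.S18.C.PlacePoints

universe u w

variable {L : Type w} {FL : Type u} [Field L] [Field FL] [Algebra L FL]

section Scaled

variable (A : ValuationSubring L) (O : Subring FL)
  (hA : ∀ α : A, algebraMap L FL (α : L) ∈ O)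

/-- the constants of `A` as elements of `O` -/
def constHom : A →+* O :=
  ((algebraMap L FL).comp A.subtype).codRestrict O hA

@[simp]
theorem coe_constHom (α : A) : ((constHom A O hA α : O) : FL) = algebraMap L FL (α : L) := rfl

/-- the localisation of `O` at the nonzero constants of `A`, realised inside `FL` -/
def scaled : Subring FL where
  carrier := {r | ∃ α : A, α ≠ 0 ∧ algebraMap L FL (α : L) * r ∈ O}
  mul_mem' := by
    rintro r s ⟨α, hα, hr⟩ ⟨β, hβ, hs⟩
    refine ⟨α * β, mul_ne_zero hα hβ, ?_⟩
    have : algebraMap L FL ((α * β : A) : L) * (r * s) =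
        (algebraMap L FL (α : L) * r) * (algebraMap L FL (β : L) * s) := by
      rw [show ((α * β : A) : L) = (α : L) * (β : L) from rfl, map_mul]; ring
    rw [this]
    exact O.mul_mem hr hs
  one_mem' := ⟨1, one_ne_zero, by simp [O.one_mem]⟩
  add_mem' := by
    rintro r s ⟨α, hα, hr⟩ ⟨β, hβ, hs⟩
    refine ⟨α * β, mul_ne_zero hα hβ, ?_⟩
    have : algebraMap L FL ((α * β : A) : L) * (r + s) =
        algebraMap L FL (β : L) * (algebraMap L FL (α : L) * r) +
          algebraMap L FL (α : L) * (algebraMap L FL (β : L) * s) := by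
      rw [show ((α * β : A) : L) = (α : L) * (β : L) from rfl, map_mul]; ring
    rw [this]
    exact O.add_mem (O.mul_mem (hA β) hr) (O.mul_mem (hA α) hs)
  zero_mem' := ⟨1, one_ne_zero, by simp [O.zero_mem]⟩
  neg_mem' := by
    rintro r ⟨α, hα, hr⟩
    exact ⟨α, hα, by rw [mul_neg]; exact O.neg_mem hr⟩

theorem mem_scaled {r : FL} :
    r ∈ scaled A O hA ↔ ∃ α : A, α ≠ 0 ∧ algebraMap L FL (α : L) * r ∈ O := Iff.rfl

theorem le_scaled : O ≤ scaled A O hA := fun r hr => ⟨1, one_ne_zero, by simpa using hr⟩

theorem algebraMap_mem_scaled (l : L) : algebraMap L FL l ∈ scaled A O hA := by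
  obtain ⟨p, q, hq, rfl⟩ := IsFractionRing.div_surjective (A := A) l
  have hq0 : q ≠ 0 := nonZeroDivisors.ne_zero hq
  refine ⟨q, hq0, ?_⟩
  have hqL : (algebraMap A L q) ≠ 0 := by
    simpa using hq0
  have : algebraMap L FL (q : L) * algebraMap L FL (algebraMap A L p / algebraMap A L q) =
      algebraMap L FL (p : L) := by
    rw [← map_mul]
    congr 1
    show algebraMap A L q * _ = _
    field_simp
    rfl
  rw [this]
  exact hA p

/-- the nonzero constants of `A`, as a submonoid of `O` -/
def constMonoid : Submonoid O := (nonZeroDivisors A).map (constHom A O hA : A →* O)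

theorem mem_constMonoid {o : O} :
    o ∈ constMonoid A O hA ↔ ∃ α : A, α ≠ 0 ∧ constHom A O hA α = o := by
  constructor
  · rintro ⟨α, hα, rfl⟩
    exact ⟨α, nonZeroDivisors.ne_zero hα, rfl⟩
  · rintro ⟨α, hα, rfl⟩
    exact ⟨α, mem_nonZeroDivisors_of_ne_zero hα, rfl⟩

/-- `O → scaled` -/
def toScaled : O →+* scaled A O hA := Subring.inclusion (le_scaled A O hA)

@[simp]
theorem coe_toScaled (o : O) : ((toScaled A O hA o : scaled A O hA) : FL) = o := rfl

/-- the `O`-algebra structure of the localisation -/
@[reducible] def algScaled : Algebra O (scaled A O hA) := (toScaled A O hA).toAlgebra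

attribute [local instance] algScaled

theorem isLocalization_scaled : IsLocalization (constMonoid A O hA) (scaled A O hA) where
  map_units := by
    rintro ⟨o, ho⟩
    obtain ⟨α, hα, rfl⟩ := (mem_constMonoid A O hA).mp ho
    have hαL : (α : L) ≠ 0 := fun h => hα (Subtype.ext h)
    refine ⟨⟨toScaled A O hA (constHom A O hA α),
      ⟨algebraMap L FL ((α : L)⁻¹), algebraMap_mem_scaled A O hA _⟩, ?_, ?_⟩, rfl⟩
    · apply Subtype.ext
      show algebraMap L FL (α : L) * algebraMap L FL ((α : L)⁻¹) = 1
      rw [← map_mul, mul_inv_cancel₀ hαL, map_one]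
    · apply Subtype.ext
      show algebraMap L FL ((α : L)⁻¹) * algebraMap L FL (α : L) = 1
      rw [← map_mul, inv_mul_cancel₀ hαL, map_one]
  surj := by
    rintro ⟨r, α, hα, hr⟩
    refine ⟨(⟨algebraMap L FL (α : L) * r, hr⟩,
      ⟨constHom A O hA α, (mem_constMonoid A O hA).mpr ⟨α, hα, rfl⟩⟩), ?_⟩
    apply Subtype.ext
    show r * algebraMap L FL (α : L) = algebraMap L FL (α : L) * r
    ring
  exists_of_eq := by
    intro o o' h
    refine ⟨1, ?_⟩
    have : (o : FL) = o' := congrArg (fun z : scaled A O hA => (z : FL)) h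
    rw [Subtype.ext this]

end Scaled

section Main

variable [IsAlgClosed L] {x : FL}

/-- evaluation at a place (the residue map; the residue field is `L`) -/
noncomputable def evalAt (hx : IsFF L x) (v : Place L FL) : v.toValuationSubring →ₐ[L] L :=
  pointOfPrime hx v.heightOneSpectrum

theorem evalAt_eq_iff (hx : IsFF L x) (v : Place L FL) (u : v.toValuationSubring) (c : L) :
    evalAt hx v u = c ↔ v.adicValuation ((u : FL) - algebraMap L FL c) < 1 := by
  rw [evalAt, pointOfPrime_eq_iff, Place.heightOneSpectrum_asIdeal,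
    Fermat.Agent.S24.Ord.mem_maximalIdeal_iff]
  rfl

section Chart

variable [IsDedekindDomain (intRing L x)] [IsFractionRing (intRing L x) FL]
variable (hx : IsFF L x)

/-- the value of a point of the chart at `b` is the value of `b` at its place -/
theorem evalAt_placeOfPoint (φ : intRing L x →ₐ[L] L) (b : intRing L x)
    (hb : (b : FL) ∈ (placeOfPoint hx φ).toValuationSubring) :
    evalAt hx (placeOfPoint hx φ) ⟨(b : FL), hb⟩ = φ b := by
  rw [evalAt_eq_iff]
  exact (adicValuation_sub_lt_one_iff hx φ b (φ b)).mpr rfl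

variable (A : ValuationSubring L) (O : Subring FL)
  (hA : ∀ α : A, algebraMap L FL (α : L) ∈ O) (hxO : x ∈ O) (a : L)

/-- the `A`-linear points of `O` over `x = a` -/
abbrev PtsOver : Type _ :=
  {ψ : O →+* L // ψ.comp (constHom A O hA) = A.subtype ∧ ψ ⟨x, hxO⟩ = a}

/-- the places over `x = a` -/
abbrev PlacesOver (x : FL) (a : L) : Type _ :=
  {v : Place L FL // v.adicValuation (x - algebraMap L FL a) < 1}

variable (h1 : ∀ v : Place L FL, v.adicValuation (x - algebraMap L FL a) < 1 →
  O ≤ v.toValuationSubring.toSubring)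

/-- the point of `O` attached to a place over `a`: restriction of the residue map -/
noncomputable def ofPlace (v : PlacesOver x a) : PtsOver A O hA hxO a :=
  ⟨(evalAt hx v.1 : v.1.toValuationSubring →+* L).comp (Subring.inclusion (h1 v.1 v.2)), by
    constructor
    · ext α
      show evalAt hx v.1 ⟨algebraMap L FL (α : L), _⟩ = (α : L)
      rw [evalAt_eq_iff]
      simp
    · show evalAt hx v.1 ⟨x, _⟩ = a
      rw [evalAt_eq_iff]
      exact v.2⟩

omit [IsDedekindDomain (intRing L x)] [IsFractionRing (intRing L x) FL] in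
theorem ofPlace_apply (v : PlacesOver x a) (f : O) :
    (ofPlace hx A O hA hxO a h1 v).1 f = evalAt hx v.1 ⟨(f : FL), h1 v.1 v.2 f.2⟩ := rfl

variable (h2 : ∀ b : intRing L x, (b : FL) ∈ scaled A O hA)

include h2 in
theorem ofPlace_injective : Function.Injective (ofPlace hx A O hA hxO a h1) := by
  rintro ⟨v, hv⟩ ⟨v', hv'⟩ h
  have hvx : v.adicValuation x ≤ 1 := adicValuation_le_one_of_sub_lt_one v a hv
  have hvx' : v'.adicValuation x ≤ 1 := adicValuation_le_one_of_sub_lt_one v' a hv'
  obtain ⟨φ, rfl⟩ := exists_point_of_place (B := intRing L x) hx v ((forall_mem_iff v).mpr hvx)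
  obtain ⟨φ', rfl⟩ := exists_point_of_place (B := intRing L x) hx v' ((forall_mem_iff v').mpr hvx')
  have hφ : φ = φ' := by
    apply AlgHom.ext
    intro b
    obtain ⟨α, hα, hαb⟩ := h2 b
    have hαL : (α : L) ≠ 0 := fun h0 => hα (Subtype.ext h0)
    have hcongr : (ofPlace hx A O hA hxO a h1 ⟨_, hv⟩).1 ⟨_, hαb⟩ =
        (ofPlace hx A O hA hxO a h1 ⟨_, hv'⟩).1 ⟨_, hαb⟩ := by rw [h]
    rw [ofPlace_apply, ofPlace_apply] at hcongr
    have e1 : ∀ (ψ : intRing L x →ₐ[L] L)
        (hm : algebraMap L FL (α : L) * (b : FL) ∈ (placeOfPoint hx ψ).toValuationSubring),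
        evalAt hx (placeOfPoint hx ψ) ⟨algebraMap L FL (α : L) * (b : FL), hm⟩ = (α : L) * ψ b := by
      intro ψ hm
      have hb := algebraMap_mem_placeOfPoint hx ψ b
      have : (⟨algebraMap L FL (α : L) * (b : FL), hm⟩ : (placeOfPoint hx ψ).toValuationSubring) =
          algebraMap L _ (α : L) * ⟨(b : FL), hb⟩ := Subtype.ext rfl
      rw [this, map_mul, AlgHom.commutes, evalAt_placeOfPoint hx ψ b hb]
      rfl
    rw [e1 φ, e1 φ'] at hcongr
    exact mul_left_cancel₀ hαL hcongr
  subst hφ
  rfl

attribute [local instance] algScaled in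
include h2 in
theorem ofPlace_surjective : Function.Surjective (ofPlace hx A O hA hxO a h1) := by
  rintro ⟨ψ, hψA, hψx⟩
  have := isLocalization_scaled A O hA
  have hψconst : ∀ α : A, ψ (constHom A O hA α) = (α : L) := fun α =>
    RingHom.congr_fun hψA α
  have hunits : ∀ y : constMonoid A O hA, IsUnit (ψ y) := by
    rintro ⟨o, ho⟩
    obtain ⟨α, hα, rfl⟩ := (mem_constMonoid A O hA).mp ho
    show IsUnit (ψ (constHom A O hA α))
    rw [hψconst α]
    exact IsUnit.mk0 _ fun h0 => hα (Subtype.ext h0)
  let ψ' : scaled A O hA →+* L := IsLocalization.lift (M := constMonoid A O hA) hunits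
  have hψ' : ∀ o : O, ψ' (toScaled A O hA o) = ψ o := fun o =>
    IsLocalization.lift_eq hunits o
  have hψ'const : ∀ l : L, ψ' ⟨algebraMap L FL l, algebraMap_mem_scaled A O hA l⟩ = l := by
    intro l
    obtain ⟨p, q, hq, rfl⟩ := IsFractionRing.div_surjective (A := A) l
    have hq0 : (q : L) ≠ 0 := fun h0 => nonZeroDivisors.ne_zero hq (Subtype.ext h0)
    set l := algebraMap A L p / algebraMap A L q with hl
    have hmul : (⟨algebraMap L FL l, algebraMap_mem_scaled A O hA l⟩ : scaled A O hA) *
        toScaled A O hA (constHom A O hA q) = toScaled A O hA (constHom A O hA p) := by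
      apply Subtype.ext
      show algebraMap L FL l * algebraMap L FL (q : L) = algebraMap L FL (p : L)
      rw [← map_mul]
      congr 1
      rw [hl]
      show (p : L) / (q : L) * (q : L) = (p : L)
      field_simp
    have := congrArg ψ' hmul
    rw [map_mul, hψ', hψ', hψconst, hψconst] at this
    rw [hl]
    show _ = (p : L) / (q : L)
    rw [eq_div_iff hq0]
    exact this
  let jInt : intRing L x →+* scaled A O hA :=
    (algebraMap (intRing L x) FL).codRestrict (scaled A O hA) h2
  let φ : intRing L x →ₐ[L] L :=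
    { toRingHom := ψ'.comp jInt
      commutes' := fun l => by
        show ψ' (jInt (algebraMap L (intRing L x) l)) = l
        have : jInt (algebraMap L (intRing L x) l) =
            ⟨algebraMap L FL l, algebraMap_mem_scaled A O hA l⟩ := Subtype.ext rfl
        rw [this, hψ'const] }
  have hφ : ∀ b : intRing L x, φ b = ψ' (jInt b) := fun b => rfl
  have hφx : φ (xInt L x) = a := by
    rw [hφ]
    have : jInt (xInt L x) = toScaled A O hA ⟨x, hxO⟩ := Subtype.ext rfl
    rw [this, hψ', hψx]
  have hv : (placeOfPoint hx φ).adicValuation (x - algebraMap L FL a) < 1 := by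
    have := (adicValuation_sub_lt_one_iff hx φ (xInt L x) a).mpr hφx
    rwa [algebraMap_xInt] at this
  refine ⟨⟨placeOfPoint hx φ, hv⟩, ?_⟩
  apply Subtype.ext
  apply RingHom.ext
  intro f
  rw [ofPlace_apply]
  have hfv : (primeOfPoint hx φ).valuation FL (f : FL) ≤ 1 :=
    (mem_placeOfPrime (K := L) (primeOfPoint hx φ) (f : FL)).mp (h1 _ hv f.2)
  obtain ⟨n, d, hnd⟩ :=
    HeightOneSpectrum.exists_primeCompl_mul_eq_of_integer (primeOfPoint hx φ) (f : FL) hfv
  have hker : ∀ y : intRing L x, φ y = 0 → y ∈ (primeOfPoint hx φ).asIdeal := by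
    intro y hy
    rw [primeOfPoint_asIdeal]
    exact hy
  have hd : φ (d : intRing L x) ≠ 0 := fun h0 => d.2 (hker _ h0)
  have hdm := algebraMap_mem_placeOfPoint hx φ (d : intRing L x)
  have hnm := algebraMap_mem_placeOfPoint hx φ n
  have E1 : evalAt hx (placeOfPoint hx φ) ⟨(f : FL), h1 _ hv f.2⟩ * φ (d : intRing L x) = φ n := by
    rw [← evalAt_placeOfPoint hx φ (d : intRing L x) hdm, ← evalAt_placeOfPoint hx φ n hnm,
      ← map_mul]
    congr 1
    exact Subtype.ext hnd
  have E2 : ψ f * φ (d : intRing L x) = φ n := by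
    rw [hφ, hφ, ← hψ', ← map_mul]
    congr 1
    exact Subtype.ext hnd
  exact mul_right_cancel₀ hd (E1.trans E2.symm)

include hx h1 h2 in
/-- **Places over `a` = `A`-linear points of `O` over `a`.** -/
theorem card_ptsOver_eq :
    Nat.card (PtsOver A O hA hxO a) = Nat.card (PlacesOver (L := L) x a) :=
  (Nat.card_congr (Equiv.ofBijective _
    ⟨ofPlace_injective hx A O hA hxO a h1 h2, ofPlace_surjective hx A O hA hxO a h1 h2⟩)).symm

end Chart

/-- **Places over `a` = `A`-linear points of `O` over `a`**, counted. -/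
theorem card_ptsOver_eq_card_zeros (hx : IsFF L x) (hsep : Algebra.IsSeparable L⟮x⟯ FL)
    (A : ValuationSubring L) (O : Subring FL) (hA : ∀ α : A, algebraMap L FL (α : L) ∈ O)
    (hxO : x ∈ O) (a : L)
    (h1 : ∀ v : Place L FL, v.adicValuation (x - algebraMap L FL a) < 1 →
      O ≤ v.toValuationSubring.toSubring)
    (h2 : ∀ b : intRing L x, (b : FL) ∈ scaled A O hA) :
    Nat.card (PtsOver A O hA hxO a) = (Fermat.Agent.S18.A.FibreSep.zeros hx hsep a).card := by
  have := Fermat.Agent.S18.A.Defs.isDedekind hx hsep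
  have := Fermat.Agent.S18.A.Defs.isFractionRing hx
  rw [card_ptsOver_eq hx A O hA hxO a h1 h2]
  exact Nat.subtype_card _ fun v => by rw [Fermat.Agent.S18.A.FibreSep.mem_zeros]

end Main

end Fermat.Agent.S18.C.PlacePointsA
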