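import Mathlib
import Fermat.Agent.S18.C.SurfaceDefs
import Fermat.Agent.S18.C.RAlgStructure
import Fermat.Agent.S18.C.MuLineFinite
import Fermat.Agent.S18.C.Invariants
import Fermat.Agent.S18.C.PlacePointsA
import Fermat.Agent.S18.C.GenericCount

/-!
# PROJECT H (S18), block C, slice H-C9: the generic fibre - orbits of points = places

Setting of `C/SurfaceDefs`: a cover `c`, `L` algebraically closed with a valuation subring `A`,
`FL` a finite extension of the `j`-line `RatFunc L` (so `x = xF L FL` is the image of `X`),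
`R = RAlg c L FL = FL ⊗_{L(j)} L(μ)`, `B_A = BRing c A`, `C_A = CInt c FL A` the integral closure of
`B_A` in `R`, `H₀ = c.Gal L` acting on everything (`L(μ)/L(j)` Galois, `B_A` stable).

* `OA c A FL`     : the order `O_A = C_A ∩ FL` (`= C_A ^ H₀` by Galois descent `RAlgStructure.fixed_iff`);
* `mem_OA_of_isIntegral` : `O_A` is integrally closed in `FL`;
* `intRing_le_scaled`    : **(d2)** `O_A ⊗_A L ⊇` the integral closure of `L[x]` in `FL`;
* `isIntegral_Bj_of_mem_OA` : `O_A` is integral over `Bj = B_A ∩ L(j)` (`= B_A ^ H₀`);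
* `OA_le`         : **(d1)** `O_A ⊆ 𝒪_v` for every place `v` over `x = a`, if the elements of `Bj`
                    are regular at `a` (`hreg`);
* `card_points_OA`: `#{A-linear points of O_A over a} = #zeros(x - a)` (`PlacePointsA`);
* `card_orbits_eq_card_ptsOver` : `#(points of C_A over a / H₀) = #{points of O_A over a}`
                    (`Invariants`: extension of points + fibres of the restriction = orbits);
* `card_orbits_eq_card_zeros`   : **the dictionary**
  `#(ptsOver M / H₀) = (FibreSep.zeros hx hsep a).card` for any `H₀`-stable set `M` of points of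
  `B_A` such that the points of `C_A` over `M` are exactly the `A`-linear points with `x ↦ a`.
-/

set_option autoImplicit false

noncomputable section

namespace Fermat.Agent.S18.C.GenericFibre

open Polynomial TensorProduct AlgebraicCurve MulAction
  Fermat.Agent.S18.C.Defs Fermat.Agent.S18.C.SurfaceDefs Fermat.Agent.S18.C.GenericCount
  Fermat.Agent.S24.FF

variable (c : Cover) {L : Type*} [Field L] [c.Good L] (A : ValuationSubring L)
variable (FL : Type*) [Field FL] [Algebra (RatFunc L) FL]

variable (L) in
/-- `F → R` as a ring homomorphism -/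
def iota : FL →+* RAlg c L FL := (incF c L FL : FL →+* RAlg c L FL)

theorem iota_injective : Function.Injective (iota c L FL) :=
  RAlgStructure.incF_injective c L FL

/-- compatibility of the two inclusions on the `j`-line -/
theorem iota_algebraMap (r : RatFunc L) :
    iota c L FL (algebraMap (RatFunc L) FL r) =
      algebraMap (MuLine c L) (RAlg c L FL) (algebraMap (RatFunc L) (MuLine c L) r) := by
  show incF c L FL (algebraMap (RatFunc L) FL r) = _
  rw [(incF c L FL).commutes, IsScalarTower.algebraMap_apply (RatFunc L) (MuLine c L) (RAlg c L FL)]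

/-- the order `O_A = C_A ∩ F`: the elements of `F` which are integral over `B_A` in `R` -/
def OA : Subring FL := (CInt c FL A).toSubring.comap (iota c L FL)

theorem mem_OA {f : FL} : f ∈ OA c A FL ↔ IsIntegral (BRing c A) (iota c L FL f) := Iff.rfl

/-- `O_A → C_A` -/
def toC : OA c A FL →+* CInt c FL A where
  toFun f := ⟨iota c L FL f.1, f.2⟩
  map_one' := Subtype.ext (map_one _)
  map_mul' _ _ := Subtype.ext (map_mul _ _ _)
  map_zero' := Subtype.ext (map_zero _)
  map_add' _ _ := Subtype.ext (map_add _ _ _)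

@[simp]
theorem coe_toC (f : OA c A FL) : ((toC c A FL f : CInt c FL A) : RAlg c L FL) = iota c L FL f.1 :=
  rfl

theorem toC_injective : Function.Injective (toC c A FL) := by
  intro f g h
  apply Subtype.ext
  apply iota_injective c FL (L := L)
  exact congrArg (fun y : CInt c FL A => (y : RAlg c L FL)) h

/-- the part of the `j`-line which lands in `B_A` -/
def Bj : Subring (RatFunc L) := (BRing c A).comap (algebraMap (RatFunc L) (MuLine c L))

theorem mem_Bj {r : RatFunc L} :
    r ∈ Bj c A ↔ algebraMap (RatFunc L) (MuLine c L) r ∈ BRing c A := Iff.rfl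

/-- elements of the `j`-line landing in `B_A` give elements of `O_A` -/
theorem algebraMap_mem_OA {r : RatFunc L} (hr : r ∈ Bj c A) :
    algebraMap (RatFunc L) FL r ∈ OA c A FL := by
  rw [mem_OA, iota_algebraMap]
  exact isIntegral_algebraMap (R := BRing c A) (A := RAlg c L FL)
    (x := ⟨algebraMap (RatFunc L) (MuLine c L) r, hr⟩)

section Constants

variable [Algebra L FL] [IsScalarTower L (RatFunc L) FL]

omit [c.Good L] in
/-- constants of `A` lie in `B_A` -/
theorem const_mem_BRing (α : A) : algebraMap L (MuLine c L) (α : L) ∈ BRing c A := by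
  rw [mem_BRing]
  have h : (MuLine.of c L).symm (algebraMap L (MuLine c L) (α : L)) =
      algebraMap L[X] (RatFunc L) (Polynomial.C (α : L)) := by
    rw [AlgEquiv.commutes]
    rfl
  rw [h]
  exact algebraMap_mem_discRing A ((mem_polyV A).mpr fun i => by
    rw [Polynomial.coeff_C]
    split_ifs
    · exact α.2
    · exact A.zero_mem)

theorem const_mem_Bj (α : A) : algebraMap L (RatFunc L) (α : L) ∈ Bj c A := by
  rw [mem_Bj, ← IsScalarTower.algebraMap_apply L (RatFunc L) (MuLine c L)]
  exact const_mem_BRing c A α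

/-- constants of `A` lie in `O_A` -/
theorem const_mem_OA (α : A) : algebraMap L FL (α : L) ∈ OA c A FL := by
  rw [IsScalarTower.algebraMap_apply L (RatFunc L) FL]
  exact algebraMap_mem_OA c A FL (const_mem_Bj c A α)

end Constants

section IntegrallyClosed

/-- `O_A` is integrally closed in `F` -/
theorem mem_OA_of_isIntegral {y : FL} (hy : IsIntegral (OA c A FL) y) : y ∈ OA c A FL := by
  rw [mem_OA]
  obtain ⟨p, hp, hpy⟩ := hy
  have h1 : IsIntegral (CInt c FL A) (iota c L FL y) := by
    refine ⟨p.map (toC c A FL), hp.map _, ?_⟩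
    rw [Polynomial.eval₂_map]
    have hcomp : (algebraMap (CInt c FL A) (RAlg c L FL)).comp (toC c A FL) =
        (iota c L FL).comp (algebraMap (OA c A FL) FL) := by
      ext f
      rfl
    rw [hcomp, ← Polynomial.hom_eval₂, hpy, map_zero]
  have : Algebra.IsIntegral (BRing c A) (CInt c FL A) := by
    unfold CInt
    infer_instance
  exact isIntegral_trans (R := BRing c A) (A := CInt c FL A) _ h1

end IntegrallyClosed

section D2

variable [Algebra L FL] [IsScalarTower L (RatFunc L) FL]

open Fermat.Agent.S18.C.PlacePointsA Fermat.Agent.S24.Fibre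

variable (L) in
/-- the coordinate `x = j` of `F` -/
def xF : FL := algebraMap (RatFunc L) FL RatFunc.X

omit [Algebra L FL] [IsScalarTower L (RatFunc L) FL] in
/-- `x ∈ O_A` as soon as `j ∈ B_A` -/
theorem xF_mem_OA (hj : (RatFunc.X : RatFunc L) ∈ Bj c A) : xF L FL ∈ OA c A FL :=
  algebraMap_mem_OA c A FL hj

attribute [local instance] algScaled in
/-- the localisation of `O_A` at the nonzero constants is integrally closed in `F` -/
theorem mem_scaled_of_isIntegral {y : FL}
    (hy : IsIntegral (scaled A (OA c A FL) (const_mem_OA c A FL)) y) :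
    y ∈ scaled A (OA c A FL) (const_mem_OA c A FL) := by
  have hloc := isLocalization_scaled A (OA c A FL) (const_mem_OA c A FL)
  have : IsScalarTower (OA c A FL) (scaled A (OA c A FL) (const_mem_OA c A FL)) FL :=
    IsScalarTower.of_algebraMap_eq fun f => rfl
  obtain ⟨m, hm⟩ := IsIntegral.exists_multiple_integral_of_isLocalization
    (constMonoid A (OA c A FL) (const_mem_OA c A FL))
    (Rₘ := scaled A (OA c A FL) (const_mem_OA c A FL)) y hy
  obtain ⟨α, hα, hαm⟩ := (mem_constMonoid A (OA c A FL) (const_mem_OA c A FL)).mp m.2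
  refine ⟨α, hα, ?_⟩
  have h := mem_OA_of_isIntegral c A FL hm
  have h2 : m • y = algebraMap L FL (α : L) * y := by
    rw [Submonoid.smul_def, ← hαm]
    rfl
  rwa [h2] at h

/-- **(d2)** every element of `F` integral over `L[x]` has an `A`-multiple in `O_A` -/
theorem intRing_le_scaled (hj : (RatFunc.X : RatFunc L) ∈ Bj c A) (b : intRing L (xF L FL)) :
    (b : FL) ∈ scaled A (OA c A FL) (const_mem_OA c A FL) := by
  have hpoly : ∀ y : polyRing L (xF L FL),
      (y : FL) ∈ scaled A (OA c A FL) (const_mem_OA c A FL) := by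
    rintro ⟨y, hy⟩
    induction hy using Algebra.adjoin_induction with
    | mem z hz =>
      rw [Set.mem_singleton_iff] at hz
      subst hz
      exact le_scaled A _ _ (xF_mem_OA c A FL hj)
    | algebraMap l => exact algebraMap_mem_scaled A _ _ l
    | add y z _ _ hy hz => exact Subring.add_mem _ hy hz
    | mul y z _ _ hy hz => exact Subring.mul_mem _ hy hz
  let e : polyRing L (xF L FL) →+* scaled A (OA c A FL) (const_mem_OA c A FL) :=
    (algebraMap (polyRing L (xF L FL)) FL).codRestrict _ hpoly
  let _ : Algebra (polyRing L (xF L FL)) (scaled A (OA c A FL) (const_mem_OA c A FL)) :=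
    e.toAlgebra
  have : IsScalarTower (polyRing L (xF L FL)) (scaled A (OA c A FL) (const_mem_OA c A FL)) FL :=
    IsScalarTower.of_algebraMap_eq fun f => rfl
  exact mem_scaled_of_isIntegral c A FL (IsIntegral.tower_top b.2)

end D2

section D1

variable [IsInvariantSubring (c.Gal L) (BRing c A)]
variable [IsGalois (RatFunc L) (MuLine c L)] [FiniteDimensional (RatFunc L) (MuLine c L)]

example (r : Bj c A) : algebraMap (Bj c A) FL r = algebraMap (RatFunc L) FL r.1 := rfl

/-- the invariants of `H₀` in `B_A` -/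
abbrev B0 : Subring (BRing c A) := FixedPoints.subring (BRing c A) (c.Gal L)

example : IsScalarTower (B0 c A) (BRing c A) (RAlg c L FL) := inferInstance

instance : Algebra.IsInvariant (B0 c A) (BRing c A) (c.Gal L) :=
  ⟨fun b hb => ⟨⟨b, hb⟩, rfl⟩⟩

/-- `Bj → B0` -/
def bjToB0 : Bj c A →+* B0 c A where
  toFun r := ⟨⟨algebraMap (RatFunc L) (MuLine c L) r.1, r.2⟩, fun g => by
    apply Subtype.ext
    show g (algebraMap (RatFunc L) (MuLine c L) r.1) = _
    exact g.commutes r.1⟩
  map_one' := Subtype.ext (Subtype.ext (map_one _))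
  map_mul' _ _ := Subtype.ext (Subtype.ext (map_mul _ _ _))
  map_zero' := Subtype.ext (Subtype.ext (map_zero _))
  map_add' _ _ := Subtype.ext (Subtype.ext (map_add _ _ _))

theorem bjToB0_bijective : Function.Bijective (bjToB0 c A) := by
  constructor
  · intro r s h
    apply Subtype.ext
    apply (algebraMap (RatFunc L) (MuLine c L)).injective
    exact congrArg (fun z : B0 c A => ((z : BRing c A) : MuLine c L)) h
  · rintro ⟨b, hb⟩
    have hfix : ∀ g : c.Gal L, g (b : MuLine c L) = b := fun g => by
      have := congrArg (fun z : BRing c A => (z : MuLine c L)) (hb g)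
      simpa using this
    obtain ⟨r, hr⟩ := (IsGalois.mem_range_algebraMap_iff_fixed (b : MuLine c L)).mpr hfix
    exact ⟨⟨r, by rw [mem_Bj, hr]; exact b.2⟩, Subtype.ext (Subtype.ext hr)⟩

/-- every element of `O_A` is integral over the part `Bj` of the `j`-line -/
theorem isIntegral_Bj_of_mem_OA {f : FL} (hf : f ∈ OA c A FL) : IsIntegral (Bj c A) f := by
  have h1 : IsIntegral (B0 c A) (iota c L FL f) :=
    (Invariants.isIntegral_invariants_iff (c.Gal L) (A₀ := B0 c A) (B₀ := BRing c A) _).mpr hf
  obtain ⟨p, hp, hpf⟩ := h1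
  let e : Bj c A ≃+* B0 c A := RingEquiv.ofBijective (bjToB0 c A) (bjToB0_bijective c A)
  refine ⟨p.map (e.symm : B0 c A →+* Bj c A), hp.map _, ?_⟩
  apply iota_injective c FL (L := L)
  rw [map_zero, Polynomial.hom_eval₂, Polynomial.eval₂_map]
  have hcomp : ((iota c L FL).comp (algebraMap (Bj c A) FL)).comp (e.symm : B0 c A →+* Bj c A) =
      algebraMap (B0 c A) (RAlg c L FL) := by
    ext b
    obtain ⟨r, rfl⟩ := e.surjective b
    show iota c L FL (algebraMap (RatFunc L) FL ((e.symm (e r) : Bj c A) : RatFunc L)) = _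
    rw [e.symm_apply_apply, iota_algebraMap]
    rfl
  rw [hcomp]
  exact hpf

end D1

section Final

variable [IsAlgClosed L] [Algebra L FL] [IsScalarTower L (RatFunc L) FL]
  [FiniteDimensional (RatFunc L) FL]
variable [IsInvariantSubring (c.Gal L) (BRing c A)]
variable [IsGalois (RatFunc L) (MuLine c L)] [FiniteDimensional (RatFunc L) (MuLine c L)]

open Fermat.Agent.S18.C.PlacePointsA Fermat.Agent.S24.Fibre IntermediateField

variable (a : L)

omit [IsAlgClosed L] [IsScalarTower L (RatFunc L) FL] [FiniteDimensional (RatFunc L) FL] in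
/-- **(d1)** `O_A` lies in the valuation ring of every place over `x = a`, if the elements of the
`j`-line landing in `B_A` are regular at `a`. -/
theorem OA_le
    (hreg : ∀ r ∈ Bj c A, ∀ v : Place L FL,
      v.adicValuation (xF L FL - algebraMap L FL a) < 1 →
        v.adicValuation (algebraMap (RatFunc L) FL r) ≤ 1)
    (v : Place L FL) (hv : v.adicValuation (xF L FL - algebraMap L FL a) < 1) :
    OA c A FL ≤ v.toValuationSubring.toSubring := fun f hf =>
  (Fermat.Agent.S24.Ord.mem_iff v f).mpr
    (Fermat.Agent.S24.Ord.adicValuation_le_one_of_isIntegral v (R := Bj c A)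
      (fun r => hreg r.1 r.2 v hv) (isIntegral_Bj_of_mem_OA c A FL hf))

omit [FiniteDimensional (RatFunc L) FL] in
/-- **Places over `a` = `A`-linear points of `O_A = C_A ^ H₀` over `a`.** -/
theorem card_points_OA (hx : IsFF L (xF L FL)) (hsep : Algebra.IsSeparable L⟮xF L FL⟯ FL)
    (hj : (RatFunc.X : RatFunc L) ∈ Bj c A)
    (hreg : ∀ r ∈ Bj c A, ∀ v : Place L FL,
      v.adicValuation (xF L FL - algebraMap L FL a) < 1 →
        v.adicValuation (algebraMap (RatFunc L) FL r) ≤ 1) :
    Nat.card (PtsOver A (OA c A FL) (const_mem_OA c A FL) (xF_mem_OA c A FL hj) a) =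
      (Fermat.Agent.S18.A.FibreSep.zeros hx hsep a).card :=
  card_ptsOver_eq_card_zeros hx hsep A _ _ _ a (OA_le c A FL a hreg)
    (intRing_le_scaled c A FL hj)

end Final

section Orbits

variable [IsAlgClosed L] [Algebra L FL] [IsScalarTower L (RatFunc L) FL]
  [FiniteDimensional (RatFunc L) FL]
variable [IsInvariantSubring (c.Gal L) (BRing c A)]
variable [IsGalois (RatFunc L) (MuLine c L)] [FiniteDimensional (RatFunc L) (MuLine c L)]

open Fermat.Agent.S18.C.PlacePointsA

/-- the `O_A`-algebra structure of `C_A` -/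
@[reducible] def algOAC : Algebra (OA c A FL) (CInt c FL A) := (toC c A FL).toAlgebra

attribute [local instance] algOAC

omit [IsAlgClosed L] [Algebra L FL] [IsScalarTower L (RatFunc L) FL]
  [FiniteDimensional (RatFunc L) FL] [IsGalois (RatFunc L) (MuLine c L)]
  [FiniteDimensional (RatFunc L) (MuLine c L)] in
theorem smul_toC (g : c.Gal L) (f : OA c A FL) : g • toC c A FL f = toC c A FL f := by
  apply Subtype.ext
  show g • iota c L FL f.1 = iota c L FL f.1
  exact smul_incF c L FL g f.1

instance smulCommClass_OAC : SMulCommClass (c.Gal L) (OA c A FL) (CInt c FL A) where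
  smul_comm g f y := by
    show g • (toC c A FL f * y) = toC c A FL f * g • y
    rw [smul_mul', smul_toC]

instance isInvariant_OAC : Algebra.IsInvariant (OA c A FL) (CInt c FL A) (c.Gal L) where
  isInvariant y hy := by
    have hfix : ∀ g : c.Gal L, g • (y : RAlg c L FL) = y := fun g =>
      congrArg (fun z : CInt c FL A => (z : RAlg c L FL)) (hy g)
    obtain ⟨f, hf⟩ := (RAlgStructure.fixed_iff c L FL (y : RAlg c L FL)).mp hfix
    have hfO : f ∈ OA c A FL := by
      rw [mem_OA]
      show IsIntegral (BRing c A) (incF c L FL f)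
      rw [hf]
      exact y.2
    exact ⟨⟨f, hfO⟩, Subtype.ext hf⟩

variable (a : L) (hj : (RatFunc.X : RatFunc L) ∈ Bj c A)

/-- the condition cutting out the points of `C_A` over `x = a`: `A`-linear and `x ↦ a` -/
def IsOver (φ : Pt (CInt c FL A) L) : Prop :=
  φ.hom.comp ((toC c A FL).comp (constHom A (OA c A FL) (const_mem_OA c A FL))) = A.subtype ∧
    φ.hom (toC c A FL ⟨xF L FL, xF_mem_OA c A FL hj⟩) = a

variable (M : SubMulAction (c.Gal L) (Pt (BRing c A) L))
  (hM : ∀ φ : Pt (CInt c FL A) L,
    φ ∈ ptsOver (smul_algebraMap c FL A) M ↔ IsOver c A FL a hj φ)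

/-- restriction of a point of `C_A` over `a` to `O_A` -/
def toPtsOver (φ : ptsOver (smul_algebraMap c FL A) M) :
    PtsOver A (OA c A FL) (const_mem_OA c A FL) (xF_mem_OA c A FL hj) a :=
  ⟨φ.1.hom.comp (toC c A FL), ((hM φ.1).mp φ.2).1, ((hM φ.1).mp φ.2).2⟩

include hM in
theorem toPtsOver_surjective : Function.Surjective (toPtsOver c A FL a hj M hM) := by
  rintro ⟨ψ, hψ1, hψ2⟩
  obtain ⟨φ, hφ⟩ := Invariants.exists_extend (c.Gal L) (toC_injective c A FL) ψ
  have hφ' : ∀ f, φ (toC c A FL f) = ψ f := fun f => RingHom.congr_fun hφ f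
  refine ⟨⟨Pt.mk φ, (hM _).mpr ⟨?_, ?_⟩⟩, ?_⟩
  · ext α
    show φ (toC c A FL _) = _
    rw [hφ']
    exact RingHom.congr_fun hψ1 α
  · show φ (toC c A FL _) = a
    rw [hφ']
    exact hψ2
  · apply Subtype.ext
    exact hφ

omit [IsAlgClosed L] in
theorem toPtsOver_eq_iff (φ φ' : ptsOver (smul_algebraMap c FL A) M) :
    toPtsOver c A FL a hj M hM φ = toPtsOver c A FL a hj M hM φ' ↔
      φ' ∈ MulAction.orbit (c.Gal L) φ := by
  constructor
  · intro h
    have h' : φ.1.hom.comp (algebraMap (OA c A FL) (CInt c FL A)) =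
        φ'.1.hom.comp (algebraMap (OA c A FL) (CInt c FL A)) := congrArg Subtype.val h
    obtain ⟨g, hg⟩ := Invariants.exists_smul_comp_eq (c.Gal L) φ.1.hom φ'.1.hom h'
    refine ⟨g⁻¹, ?_⟩
    apply Subtype.ext
    apply Pt.ext
    intro y
    show φ.1.hom ((g⁻¹)⁻¹ • y) = φ'.1.hom y
    rw [inv_inv, hg y]
  · rintro ⟨g, rfl⟩
    apply Subtype.ext
    apply RingHom.ext
    intro f
    show φ.1.hom (toC c A FL f) = φ.1.hom (g⁻¹ • toC c A FL f)
    rw [smul_toC]

include hM in
/-- **orbits of `H₀` on the points of `C_A` over `x = a` = points of `O_A` over `a`** -/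
theorem card_orbits_eq_card_ptsOver :
    Nat.card (Quotient (orbitRel (c.Gal L) (ptsOver (smul_algebraMap c FL A) M))) =
      Nat.card (PtsOver A (OA c A FL) (const_mem_OA c A FL) (xF_mem_OA c A FL hj) a) :=
  Nat.card_congr (Invariants.orbitQuotientEquiv (toPtsOver c A FL a hj M hM)
    (toPtsOver_surjective c A FL a hj M hM) (toPtsOver_eq_iff c A FL a hj M hM))

include hM in
/-- **The dictionary**: orbits of `H₀` on the points of `C_A` over `x = a` = places of `FL` over
`x = a`. -/
theorem card_orbits_eq_card_zeros (hx : IsFF L (xF L FL))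
    (hsep : Algebra.IsSeparable (IntermediateField.adjoin L {xF L FL}) FL)
    (hreg : ∀ r ∈ Bj c A, ∀ v : Place L FL,
      v.adicValuation (xF L FL - algebraMap L FL a) < 1 →
        v.adicValuation (algebraMap (RatFunc L) FL r) ≤ 1) :
    Nat.card (Quotient (orbitRel (c.Gal L) (ptsOver (smul_algebraMap c FL A) M))) =
      (Fermat.Agent.S18.A.FibreSep.zeros hx hsep a).card :=
  (card_orbits_eq_card_ptsOver c A FL a hj M hM).trans (card_points_OA c A FL a hx hsep hj hreg)

end Orbits

end Fermat.Agent.S18.C.GenericFibre
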