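import Mathlib
import Fermat.Agent.S18.Wire
import Fermat.Agent.S18.C.ModularInst
import Fermat.Agent.S18.C.GenericFibre
import Fermat.Agent.S18.C.Forms

/-!
# PROJECT H (S18), block C, slice H-C10 (preparation, helper4): glue for `C/Final.lean`

Independent of the Surface / K-side outputs; everything `C/Final.lean` needs in order to pass from
the end theorems of block C (`GenericK3.hesse_k3_rank`, `legendre_k3_rank`: stated for the
coordinate `xF = algebraMap (RatFunc ℚ̄) F_L X`, with natural-number counts) to `Wire.K3 N A`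
(stated for `jgen N`, with integers):

* `ell_eq_two_or_three`  : `1728 = 0` in the residue field forces `ℓ ∈ {2, 3}`;
* `valuation_natCast_lt_one` : `A.valuation ℓ < 1`;
* `card_zeros_congr`, `sum_diffExp_congr` : the fibre counts do not depend on the presentation
  of the coordinate;
* `xF_eq_jgen`, `isFF_xF`, `isSeparable_xF`, `card_zeros_xF`;
* `finrank_jgen` : `[F_L : ℚ̄(j)] = ψ(N)`;
* `k3_of_count` : **`Wire.K3 N A` from `D + #zeros(xF, 0) + #zeros(xF, 1728) = 2 n`** and
  `D ≤ ∑_{Q | j̄ = 0} d_Q`.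
-/

set_option autoImplicit false
set_option synthInstance.maxHeartbeats 400000

noncomputable section

namespace Fermat.Agent.S18.C.FinalPrep

open AlgebraicCurve ModularCurve IntermediateField
open Fermat.Agent.S18.A Fermat.Agent.S18.B Fermat.Agent.S24.FF
open Fermat.Agent.S24.DegreeAlg (jgen)

local notation "Kb" => AlgebraicClosure ℚ

/-! ### the residue characteristic -/

section Char

variable {A : ValuationSubring (AlgebraicClosure ℚ)} {ℓ : ℕ} [Fact ℓ.Prime]

/-- `1728 = 2^6 * 3^3 = 0` in the residue field forces `ℓ = 2` or `ℓ = 3`. -/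
theorem ell_eq_two_or_three (hA : A.LiesOverPrime ℓ)
    (h1728 : (1728 : IsLocalRing.ResidueField A) = 0) : ℓ = 2 ∨ ℓ = 3 := by
  have := Fermat.Agent.S18.ResidueBasics.charP_residueField A hA
  have hℓ : ℓ.Prime := Fact.out
  have h1 : ((1728 : ℕ) : IsLocalRing.ResidueField A) = 0 := by exact_mod_cast h1728
  have h2 : ℓ ∣ 1728 := (CharP.cast_eq_zero_iff (IsLocalRing.ResidueField A) ℓ 1728).mp h1
  have h3 : (1728 : ℕ) = 2 ^ 6 * 3 ^ 3 := by norm_num
  rw [h3] at h2
  rcases (Nat.Prime.dvd_mul hℓ).mp h2 with h | h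
  · exact Or.inl ((Nat.prime_dvd_prime_iff_eq hℓ Nat.prime_two).mp (hℓ.dvd_of_dvd_pow h))
  · exact Or.inr ((Nat.prime_dvd_prime_iff_eq hℓ Nat.prime_three).mp (hℓ.dvd_of_dvd_pow h))

omit [Fact ℓ.Prime] in
/-- `ℓ` lies in the maximal ideal of `A`. -/
theorem valuation_natCast_lt_one (hA : A.LiesOverPrime ℓ) :
    A.valuation ((ℓ : ℕ) : AlgebraicClosure ℚ) < 1 := by
  have h := Fermat.Agent.S18.ResidueBasics.natCast_mem_maximalIdeal A hA
  have h2 := (A.valuation_lt_one_iff ((ℓ : ℕ) : A)).mp h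
  simpa using h2

end Char

/-! ### the fibre counts do not depend on the presentation of the coordinate -/

section Transport

variable {K : Type*} {F : Type*} [Field K] [Field F] [Algebra K F] [IsAlgClosed K]

theorem zeros_congr {x x' : F} (e : x = x') (hx : IsFF K x)
    (hsep : Algebra.IsSeparable K⟮x⟯ F) (hx' : IsFF K x') (hsep' : Algebra.IsSeparable K⟮x'⟯ F)
    (a : K) : FibreSep.zeros hx hsep a = FibreSep.zeros hx' hsep' a := by
  subst e
  rfl

theorem card_zeros_congr {x x' : F} (e : x = x') (hx : IsFF K x)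
    (hsep : Algebra.IsSeparable K⟮x⟯ F) (hx' : IsFF K x') (hsep' : Algebra.IsSeparable K⟮x'⟯ F)
    (a : K) : (FibreSep.zeros hx hsep a).card = (FibreSep.zeros hx' hsep' a).card := by
  rw [zeros_congr e hx hsep hx' hsep' a]

theorem sum_diffExp_congr {x x' : F} (e : x = x') (hx : IsFF K x)
    (hsep : Algebra.IsSeparable K⟮x⟯ F) (hx' : IsFF K x') (hsep' : Algebra.IsSeparable K⟮x'⟯ F)
    (a : K) : ∑ Q ∈ FibreSep.zeros hx hsep a, Defs.diffExp hx hsep Q =
      ∑ Q ∈ FibreSep.zeros hx' hsep' a, Defs.diffExp hx' hsep' Q := by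
  subst e
  rfl

end Transport

/-! ### the coordinate of `F_L` -/

section Bar

open Fermat.Agent.S18.C.GenericFibre

variable (N : ℕ) [NeZero N]

/-- the coordinate `xF` of block C is `jgen N` -/
theorem xF_eq_jgen : xF Kb ↥(modularFunctionFieldBar N) = jgen N :=
  Fermat.Agent.S18.C.ModularInst.algebraMap_FL_X N

theorem isFF_xF : IsFF Kb (xF Kb ↥(modularFunctionFieldBar N)) :=
  (xF_eq_jgen N).symm ▸ Instances.isFF_jgen N

theorem isSeparable_xF :
    Algebra.IsSeparable Kb⟮xF Kb ↥(modularFunctionFieldBar N)⟯ ↥(modularFunctionFieldBar N) :=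
  (xF_eq_jgen N).symm ▸ Instances.isSeparable_jgen N

theorem card_zeros_xF (hx : IsFF Kb (xF Kb ↥(modularFunctionFieldBar N)))
    (hsep : Algebra.IsSeparable Kb⟮xF Kb ↥(modularFunctionFieldBar N)⟯
      ↥(modularFunctionFieldBar N)) (a : Kb) :
    (FibreSep.zeros hx hsep a).card =
      (FibreSep.zeros (Instances.isFF_jgen N) (Instances.isSeparable_jgen N) a).card :=
  card_zeros_congr (xF_eq_jgen N) hx hsep _ _ a

/-- `[F_L : ℚ̄(j)] = ψ(N)` -/
theorem finrank_jgen :
    Module.finrank Kb⟮jgen N⟯ ↥(modularFunctionFieldBar N) = dedekindPsi N :=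
  Fermat.Agent.S18.C.Forms.finrank_bar_eq_dedekindPsi N

end Bar

/-! ### from the count to contract K3 -/

section K3

open Fermat.Agent.S18.C.GenericFibre

variable (N : ℕ) [NeZero N] (A : ValuationSubring (AlgebraicClosure ℚ))

/-- **The inequality of contract K3 from the count of block C**, for a number `D` bounded by
the different sum of the supersingular fibre. -/
theorem k3_ineq [IsAlgClosed (IsLocalRing.ResidueField A)]
    (hsep : Algebra.IsSeparable
      (IsLocalRing.ResidueField A)⟮FkBasics.jk (IsLocalRing.ResidueField A) N⟯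
      ↥(modularFunctionFieldFullC (IsLocalRing.ResidueField A) N))
    (hx : IsFF Kb (xF Kb ↥(modularFunctionFieldBar N)))
    (hsepL : Algebra.IsSeparable Kb⟮xF Kb ↥(modularFunctionFieldBar N)⟯
      ↥(modularFunctionFieldBar N))
    (D n : ℕ) (hn : n = dedekindPsi N)
    (hcount : D + (FibreSep.zeros hx hsepL 0).card + (FibreSep.zeros hx hsepL 1728).card = 2 * n)
    (hD : D ≤ ∑ Q ∈ FibreSep.zeros (FkBasics.isFF (IsLocalRing.ResidueField A) N) hsep 0,
      Defs.diffExp (FkBasics.isFF (IsLocalRing.ResidueField A) N) hsep Q) :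
    ((Module.finrank Kb⟮jgen N⟯ ↥(modularFunctionFieldBar N) : ℤ)
        - ((FibreSep.zeros (Instances.isFF_jgen N) (Instances.isSeparable_jgen N) 0).card : ℤ))
      + ((Module.finrank Kb⟮jgen N⟯ ↥(modularFunctionFieldBar N) : ℤ)
        - ((FibreSep.zeros (Instances.isFF_jgen N) (Instances.isSeparable_jgen N) 1728).card : ℤ))
    ≤ ∑ Q ∈ FibreSep.zeros (FkBasics.isFF (IsLocalRing.ResidueField A) N) hsep 0,
        (Defs.diffExp (FkBasics.isFF (IsLocalRing.ResidueField A) N) hsep Q : ℤ) := by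
  rw [card_zeros_xF N hx hsepL 0, card_zeros_xF N hx hsepL 1728] at hcount
  rw [finrank_jgen N, ← hn, ← Nat.cast_sum]
  have h1 : (D : ℤ) ≤ ((∑ Q ∈ FibreSep.zeros (FkBasics.isFF (IsLocalRing.ResidueField A) N) hsep 0,
      Defs.diffExp (FkBasics.isFF (IsLocalRing.ResidueField A) N) hsep Q : ℕ) : ℤ) := by
    exact_mod_cast hD
  have h2 : ((D + (FibreSep.zeros (Instances.isFF_jgen N) (Instances.isSeparable_jgen N) 0).card +
      (FibreSep.zeros (Instances.isFF_jgen N) (Instances.isSeparable_jgen N) 1728).card : ℕ) : ℤ) =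
      ((2 * n : ℕ) : ℤ) := by rw [hcount]
  push_cast at h2
  linarith

/-- **`Wire.K3 N A` from the count of block C** (`hcount` is the conclusion of
`GenericK3.hesse_k3_rank` / `legendre_k3_rank` with `Fintype.card ι = ψ(N)`, `D` the different
sum of the special fibre). -/
theorem k3_of_count
    (H : ∀ [IsAlgClosed (IsLocalRing.ResidueField A)]
      (hsep : Algebra.IsSeparable
        (IsLocalRing.ResidueField A)⟮FkBasics.jk (IsLocalRing.ResidueField A) N⟯
        ↥(modularFunctionFieldFullC (IsLocalRing.ResidueField A) N)),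
      (1728 : IsLocalRing.ResidueField A) = 0 →
      ∃ (hx : IsFF Kb (xF Kb ↥(modularFunctionFieldBar N)))
        (hsepL : Algebra.IsSeparable Kb⟮xF Kb ↥(modularFunctionFieldBar N)⟯
          ↥(modularFunctionFieldBar N)) (D : ℕ),
        D + (FibreSep.zeros hx hsepL 0).card + (FibreSep.zeros hx hsepL 1728).card =
          2 * dedekindPsi N ∧
        D ≤ ∑ Q ∈ FibreSep.zeros (FkBasics.isFF (IsLocalRing.ResidueField A) N) hsep 0,
          Defs.diffExp (FkBasics.isFF (IsLocalRing.ResidueField A) N) hsep Q) :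
    Fermat.Agent.S18.Wire.K3 N A := by
  intro _ hsep h1728
  obtain ⟨hx, hsepL, D, hcount, hD⟩ := H hsep h1728
  exact k3_ineq N A hsep hx hsepL D (dedekindPsi N) rfl hcount hD

end K3

end Fermat.Agent.S18.C.FinalPrep
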