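import Mathlib

/-!
# PROJECT H (S18), block C: reduction of a Galois group of Moebius maps (generic part)

A finite Galois extension `M / E` (`M = K0(μ)`) all of whose automorphisms act on `μ` by Moebius
maps `μ ↦ (a_i μ + b_i) / (c_i μ + d_i)` with coefficients in `K0`, indexed through a bijection
`idx : Aut(M/E) ≃ ι`.  If the coefficients come from a ring `S` mapping injectively to `K0` and to
a second field `k0` with the same structure, then the bijection `Aut(M/E) ≃ ι ≃ Aut(M'/E')` is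
multiplicative: the composition law is a polynomial identity of degree `≤ 2` over `S`.
-/

set_option autoImplicit false
set_option linter.unusedSectionVars false

namespace Fermat.Agent.S18.C.MoebiusRed

open Polynomial

section Poly

variable {ι R : Type*} [CommRing R]

/-- numerator polynomial `a_i X + b_i` -/
noncomputable def topP (a b : ι → R) (i : ι) : R[X] := C (a i) * X + C (b i)

/-- the polynomial whose vanishing expresses `g_m = g_j ∘ g_i` for the Moebius maps
`g_i x = (a_i x + b_i) / (c_i x + d_i)` -/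
noncomputable def compPoly (a b c d : ι → R) (i j m : ι) : R[X] :=
  (C (a j) * topP a b i + C (b j) * topP c d i) * topP c d m -
    topP a b m * (C (c j) * topP a b i + C (d j) * topP c d i)

theorem map_topP {S : Type*} [CommRing S] (f : R →+* S) (a b : ι → R) (i : ι) :
    (topP a b i).map f = topP (f ∘ a) (f ∘ b) i := by
  simp [topP]

theorem map_compPoly {S : Type*} [CommRing S] (f : R →+* S) (a b c d : ι → R) (i j m : ι) :
    (compPoly a b c d i j m).map f = compPoly (f ∘ a) (f ∘ b) (f ∘ c) (f ∘ d) i j m := by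
  simp only [compPoly, Polynomial.map_sub, Polynomial.map_mul, Polynomial.map_add, map_topP,
    Polynomial.map_C, Function.comp_apply]

theorem aeval_topP {A : Type*} [CommRing A] [Algebra R A] (a b : ι → R) (i : ι) (x : A) :
    aeval x (topP a b i) = algebraMap R A (a i) * x + algebraMap R A (b i) := by
  simp [topP]

end Poly

section Gal

variable {K0 E M : Type*} [Field K0] [Field E] [Field M] [Algebra K0 E] [Algebra E M]
  [Algebra K0 M] [IsScalarTower K0 E M] {ι : Type*}

/-- The automorphisms of `M / E` act on `μ` by the Moebius maps with coefficients `a b c d`. -/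
structure MoebiusGal (μ : M) (a b c d : ι → K0) (idx : (M ≃ₐ[E] M) ≃ ι) : Prop where
  transc : Transcendental K0 μ
  ext : ∀ σ τ : M ≃ₐ[E] M, σ μ = τ μ → σ = τ
  bot_ne : ∀ i, aeval μ (topP c d i) ≠ 0
  apply_mu : ∀ σ : M ≃ₐ[E] M,
    σ μ * aeval μ (topP c d (idx σ)) = aeval μ (topP a b (idx σ))

namespace MoebiusGal

variable {μ : M} {a b c d : ι → K0} {idx : (M ≃ₐ[E] M) ≃ ι}

theorem apply_algebraMap (σ : M ≃ₐ[E] M) (x : K0) :
    σ (algebraMap K0 M x) = algebraMap K0 M x := by
  rw [IsScalarTower.algebraMap_apply K0 E M, σ.commutes]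

theorem apply_aeval (σ : M ≃ₐ[E] M) (p : K0[X]) (x : M) : σ (aeval x p) = aeval (σ x) p :=
  (aeval_algHom_apply ((σ : M →ₐ[E] M).restrictScalars K0) x p).symm

theorem apply_mu_eq (h : MoebiusGal μ a b c d idx) (σ : M ≃ₐ[E] M) :
    σ μ = aeval μ (topP a b (idx σ)) / aeval μ (topP c d (idx σ)) := by
  rw [eq_div_iff (h.bot_ne _), h.apply_mu]

/-- the two sides of the composition law, as an identity in `M` -/
theorem comp_identity (h : MoebiusGal μ a b c d idx) (σ τ : M ≃ₐ[E] M) (i j : ι)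
    (hi : idx σ = i) (hj : idx τ = j) :
    (σ * τ) μ * (algebraMap K0 M (c j) * aeval μ (topP a b i) +
        algebraMap K0 M (d j) * aeval μ (topP c d i)) =
      algebraMap K0 M (a j) * aeval μ (topP a b i) +
        algebraMap K0 M (b j) * aeval μ (topP c d i) := by
  subst hi hj
  have hs := h.bot_ne (idx σ)
  have h1 : (σ * τ) μ = σ (τ μ) := rfl
  have h2 : σ (τ μ) * σ (aeval μ (topP c d (idx τ))) = σ (aeval μ (topP a b (idx τ))) := by
    rw [← map_mul, h.apply_mu]
  rw [apply_aeval, apply_aeval, aeval_topP, aeval_topP, h.apply_mu_eq σ] at h2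
  rw [h1]
  field_simp at h2
  linear_combination h2

theorem comp_den_ne (h : MoebiusGal μ a b c d idx) (σ : M ≃ₐ[E] M) (j : ι) :
    algebraMap K0 M (c j) * aeval μ (topP a b (idx σ)) +
        algebraMap K0 M (d j) * aeval μ (topP c d (idx σ)) ≠ 0 := by
  have hs := h.bot_ne (idx σ)
  have h1 : σ (aeval μ (topP c d j)) ≠ 0 := (map_ne_zero σ).mpr (h.bot_ne j)
  rw [apply_aeval, aeval_topP, h.apply_mu_eq σ] at h1
  intro h0
  apply h1
  field_simp
  linear_combination h0

/-- the composition law as a polynomial identity -/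
theorem compPoly_eq_zero (h : MoebiusGal μ a b c d idx) (σ τ : M ≃ₐ[E] M) :
    compPoly a b c d (idx σ) (idx τ) (idx (σ * τ)) = 0 := by
  apply (transcendental_iff.mp h.transc)
  have h1 := h.comp_identity σ τ _ _ rfl rfl
  have h2 := h.apply_mu (σ * τ)
  have hD := h.comp_den_ne σ (idx τ)
  have hB := h.bot_ne (idx (σ * τ))
  simp only [compPoly, map_sub, map_mul, map_add, aeval_C]
  have e1 : (σ * τ) μ = aeval μ (topP a b (idx (σ * τ))) / aeval μ (topP c d (idx (σ * τ))) :=
    h.apply_mu_eq _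
  rw [e1] at h1
  field_simp at h1
  linear_combination -h1

/-- conversely, the polynomial identity gives the composition law -/
theorem mul_eq_of_compPoly (h : MoebiusGal μ a b c d idx) {σ τ ρ : M ≃ₐ[E] M}
    (hP : compPoly a b c d (idx σ) (idx τ) (idx ρ) = 0) : σ * τ = ρ := by
  apply h.ext
  have h1 := h.comp_identity σ τ _ _ rfl rfl
  have hD := h.comp_den_ne σ (idx τ)
  have hB := h.bot_ne (idx ρ)
  have h3 := congrArg (aeval μ) hP
  simp only [compPoly, map_sub, map_mul, map_add, aeval_C, map_zero] at h3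
  rw [h.apply_mu_eq ρ, eq_div_iff hB]
  have e1 : (σ * τ) μ = (algebraMap K0 M (a (idx τ)) * aeval μ (topP a b (idx σ)) +
        algebraMap K0 M (b (idx τ)) * aeval μ (topP c d (idx σ))) /
      (algebraMap K0 M (c (idx τ)) * aeval μ (topP a b (idx σ)) +
        algebraMap K0 M (d (idx τ)) * aeval μ (topP c d (idx σ))) := by
    rw [eq_div_iff hD, h1]
  rw [e1, div_mul_eq_mul_div, div_eq_iff hD]
  linear_combination h3

end MoebiusGal

end Gal

section Red

variable {K0 E M : Type*} [Field K0] [Field E] [Field M] [Algebra K0 E] [Algebra E M]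
  [Algebra K0 M] [IsScalarTower K0 E M]
  {k0 E' M' : Type*} [Field k0] [Field E'] [Field M'] [Algebra k0 E'] [Algebra E' M']
  [Algebra k0 M'] [IsScalarTower k0 E' M']
  {ι S : Type*} [CommRing S]

/-- the reduction `Aut(M/E) ≃ ι ≃ Aut(M'/E')` is multiplicative -/
theorem map_mul_of_moebius (iK : S →+* K0) (hinj : Function.Injective iK) (ik : S →+* k0)
    (a b c d : ι → S) {μ : M} {μ' : M'} {idx : (M ≃ₐ[E] M) ≃ ι} {idx' : (M' ≃ₐ[E'] M') ≃ ι}
    (hK : MoebiusGal μ (iK ∘ a) (iK ∘ b) (iK ∘ c) (iK ∘ d) idx)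
    (hk : MoebiusGal μ' (ik ∘ a) (ik ∘ b) (ik ∘ c) (ik ∘ d) idx') (σ τ : M ≃ₐ[E] M) :
    (idx.trans idx'.symm) (σ * τ) = (idx.trans idx'.symm) σ * (idx.trans idx'.symm) τ := by
  have h1 := hK.compPoly_eq_zero σ τ
  rw [← map_compPoly] at h1
  have h2 : compPoly a b c d (idx σ) (idx τ) (idx (σ * τ)) = 0 :=
    Polynomial.map_injective iK hinj (by rw [h1, Polynomial.map_zero])
  have h3 : compPoly (ik ∘ a) (ik ∘ b) (ik ∘ c) (ik ∘ d) (idx σ) (idx τ) (idx (σ * τ)) = 0 := by
    rw [← map_compPoly, h2, Polynomial.map_zero]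
  symm
  apply hk.mul_eq_of_compPoly
  simpa using h3

/-- the reduction `Aut(M/E) ≃* Aut(M'/E')` -/
noncomputable def redEquiv (iK : S →+* K0) (hinj : Function.Injective iK) (ik : S →+* k0)
    (a b c d : ι → S) {μ : M} {μ' : M'} {idx : (M ≃ₐ[E] M) ≃ ι} {idx' : (M' ≃ₐ[E'] M') ≃ ι}
    (hK : MoebiusGal μ (iK ∘ a) (iK ∘ b) (iK ∘ c) (iK ∘ d) idx)
    (hk : MoebiusGal μ' (ik ∘ a) (ik ∘ b) (ik ∘ c) (ik ∘ d) idx') :
    (M ≃ₐ[E] M) ≃* (M' ≃ₐ[E'] M') :=
  { idx.trans idx'.symm with
    map_mul' := map_mul_of_moebius iK hinj ik a b c d hK hk }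

@[simp] theorem redEquiv_apply (iK : S →+* K0) (hinj : Function.Injective iK) (ik : S →+* k0)
    (a b c d : ι → S) {μ : M} {μ' : M'} {idx : (M ≃ₐ[E] M) ≃ ι} {idx' : (M' ≃ₐ[E'] M') ≃ ι}
    (hK : MoebiusGal μ (iK ∘ a) (iK ∘ b) (iK ∘ c) (iK ∘ d) idx)
    (hk : MoebiusGal μ' (ik ∘ a) (ik ∘ b) (ik ∘ c) (ik ∘ d) idx') (σ : M ≃ₐ[E] M) :
    idx' (redEquiv iK hinj ik a b c d hK hk σ) = idx σ := by
  simp [redEquiv]

end Red

end Fermat.Agent.S18.C.MoebiusRed
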