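import Fermat.Agent.S18.C.CoverInst
import Fermat.Agent.S18.C.MoebiusRed

/-!
# PROJECT H (S18), block C, slice H-C7p: reduction of the group of the cover

For a ring `S` with an injective map `iK : S →+* K` and a map `ik : S →+* k` (`S = A`, `K = ℚ̄`,
`k` the residue field), the identification of the groups of the Hesse / Legendre cover over `K`
and over `k` through the index set is a GROUP isomorphism:

* `hesseRed : hesse.Gal K ≃* hesse.Gal k`, `hesseIdx (hesseRed g) = hesseIdx g`,
  `hesseRed g μ = actH ω̄ (hesseIdx g) μ`;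
* `legendreRed : legendre.Gal K ≃* legendre.Gal k`, same statements with `topT / botT`.
-/

set_option autoImplicit false
set_option linter.unusedSectionVars false

noncomputable section

namespace Fermat.Agent.S18.C.GalRed

open Polynomial
open Fermat.Agent.S18.C.Defs Fermat.Agent.S18.C.CoverInst Fermat.Agent.S18.C.MoebiusRed

/-! ### Hesse -/

section Hesse

open Fermat.Agent.S18.C.Hesse

section Coeff

variable {R : Type*} [CommRing R]

/-- coefficient `a` of the Moebius map `g` of the Hesse group: `g x = (a x + b) / (c x + d)` -/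
def aH (ω : R) : Idx → R
  | Sum.inl a => ω ^ (a : ℕ)
  | Sum.inr (a, _) => ω ^ (a : ℕ)

/-- coefficient `b` -/
def bH (ω : R) : Idx → R
  | Sum.inl _ => 0
  | Sum.inr (a, c) => 2 * (ω ^ (a : ℕ) * ω ^ (c : ℕ))

/-- coefficient `c` -/
def cH : Idx → R
  | Sum.inl _ => 0
  | Sum.inr _ => 1

/-- coefficient `d` -/
def dH (ω : R) : Idx → R
  | Sum.inl _ => 1
  | Sum.inr (_, c) => -ω ^ (c : ℕ)

theorem topH_eq (ω : R) (i : Idx) (x : R) : topH ω i x = aH ω i * x + bH ω i := by
  rcases i with a | ⟨a, c⟩
  · simp [aH, bH]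
  · simp only [topH_inr, aH, bH]; ring

theorem botH_eq (ω : R) (i : Idx) (x : R) : botH ω i x = cH i * x + dH ω i := by
  rcases i with a | ⟨a, c⟩
  · simp [cH, dH]
  · simp only [botH_inr, cH, dH]; ring

variable {S : Type*} [CommRing S] (f : R →+* S)

theorem map_aH (ω : R) (i : Idx) : f (aH ω i) = aH (f ω) i := by
  rcases i with a | ⟨a, c⟩ <;> simp [aH]

theorem map_bH (ω : R) (i : Idx) : f (bH ω i) = bH (f ω) i := by
  rcases i with a | ⟨a, c⟩ <;> simp [bH, map_ofNat]

theorem map_cH (i : Idx) : f (cH i) = cH i := by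
  rcases i with a | ⟨a, c⟩ <;> simp [cH]

theorem map_dH (ω : R) (i : Idx) : f (dH ω i) = dH (f ω) i := by
  rcases i with a | ⟨a, c⟩ <;> simp [dH]

end Coeff

variable {K : Type*} [Field K] [hesse.Good K]

theorem aeval_topP_top {ω : K} (i : Idx) :
    aeval (MuLine.mu hesse K) (topP (aH ω) (bH ω) i) =
      topH (algebraMap K (MuLine hesse K) ω) i (MuLine.mu hesse K) := by
  rw [aeval_topP, topH_eq, map_aH, map_bH]

theorem aeval_topP_bot {ω : K} (i : Idx) :
    aeval (MuLine.mu hesse K) (topP (cH (R := K)) (dH ω) i) =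
      botH (algebraMap K (MuLine hesse K) ω) i (MuLine.mu hesse K) := by
  rw [aeval_topP, botH_eq, map_cH, map_dH]

/-- the group of the Hesse cover acts on `μ` by the Moebius maps with coefficients `aH bH cH dH` -/
theorem moebiusGal_hesse {ω : K} (hω : ω ^ 2 + ω + 1 = 0) (h3 : (3 : K) ≠ 0) :
    MoebiusGal (E := RatFunc K) (M := MuLine hesse K) (MuLine.mu hesse K)
      (aH ω) (bH ω) (cH (R := K)) (dH ω) (hesseIdx hω h3) where
  transc := transcendental_mu hesse
  ext := fun _ _ h => (isHesse hω h3).algEquiv_ext h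
  bot_ne := fun i => by rw [aeval_topP_bot]; exact hesse_botH_ne_zero hω h3 i
  apply_mu := fun σ => by
    rw [aeval_topP_bot, aeval_topP_top, hesse_apply_mu hω h3 σ]
    unfold actH
    rw [div_mul_cancel₀ _ (hesse_botH_ne_zero hω h3 _)]

variable {k : Type*} [Field k] [hesse.Good k] {S : Type*} [CommRing S]

/-- the reduction of the group of the Hesse cover: `hesse.Gal K ≃* hesse.Gal k` for a ring `S`
with `iK : S →+* K` injective, `ik : S →+* k`, and `ωS : S` a primitive cube root of unity -/
def hesseRed (iK : S →+* K) (hinj : Function.Injective iK) (ik : S →+* k) {ωS : S}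
    (hω : ωS ^ 2 + ωS + 1 = 0) (h3 : (3 : K) ≠ 0) (h3' : (3 : k) ≠ 0) :
    hesse.Gal K ≃* hesse.Gal k :=
  have hωK : (iK ωS) ^ 2 + iK ωS + 1 = 0 := by
    rw [← map_pow, ← map_add, ← map_one iK, ← map_add, hω, map_zero]
  have hωk : (ik ωS) ^ 2 + ik ωS + 1 = 0 := by
    rw [← map_pow, ← map_add, ← map_one ik, ← map_add, hω, map_zero]
  redEquiv iK hinj ik (aH ωS) (bH ωS) (cH (R := S)) (dH ωS)
    (idx := hesseIdx hωK h3) (idx' := hesseIdx hωk h3')
    (by
      have e1 : (iK ∘ aH ωS) = aH (iK ωS) := funext fun i => map_aH iK ωS i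
      have e2 : (iK ∘ bH ωS) = bH (iK ωS) := funext fun i => map_bH iK ωS i
      have e3 : (iK ∘ cH (R := S)) = cH (R := K) := funext fun i => map_cH iK i
      have e4 : (iK ∘ dH ωS) = dH (iK ωS) := funext fun i => map_dH iK ωS i
      rw [e1, e2, e3, e4]
      exact moebiusGal_hesse hωK h3)
    (by
      have e1 : (ik ∘ aH ωS) = aH (ik ωS) := funext fun i => map_aH ik ωS i
      have e2 : (ik ∘ bH ωS) = bH (ik ωS) := funext fun i => map_bH ik ωS i
      have e3 : (ik ∘ cH (R := S)) = cH (R := k) := funext fun i => map_cH ik i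
      have e4 : (ik ∘ dH ωS) = dH (ik ωS) := funext fun i => map_dH ik ωS i
      rw [e1, e2, e3, e4]
      exact moebiusGal_hesse hωk h3')

/-- the reduction preserves the index -/
theorem hesseIdx_hesseRed (iK : S →+* K) (hinj : Function.Injective iK) (ik : S →+* k) {ωS : S}
    (hω : ωS ^ 2 + ωS + 1 = 0) (h3 : (3 : K) ≠ 0) (h3' : (3 : k) ≠ 0)
    (hωK : (iK ωS) ^ 2 + iK ωS + 1 = 0) (hωk : (ik ωS) ^ 2 + ik ωS + 1 = 0) (g : hesse.Gal K) :
    hesseIdx hωk h3' (hesseRed iK hinj ik hω h3 h3' g) = hesseIdx hωK h3 g := by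
  unfold hesseRed
  exact redEquiv_apply iK hinj ik _ _ _ _ _ _ g

/-- the reduced automorphism acts on `μ` by the Moebius map with the same index -/
theorem hesseRed_apply_mu (iK : S →+* K) (hinj : Function.Injective iK) (ik : S →+* k) {ωS : S}
    (hω : ωS ^ 2 + ωS + 1 = 0) (h3 : (3 : K) ≠ 0) (h3' : (3 : k) ≠ 0)
    (hωK : (iK ωS) ^ 2 + iK ωS + 1 = 0) (g : hesse.Gal K) :
    hesseRed iK hinj ik hω h3 h3' g (MuLine.mu hesse k) =
      actH (algebraMap k (MuLine hesse k) (ik ωS)) (hesseIdx hωK h3 g) (MuLine.mu hesse k) := by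
  have hωk : (ik ωS) ^ 2 + ik ωS + 1 = 0 := by
    rw [← map_pow, ← map_add, ← map_one ik, ← map_add, hω, map_zero]
  rw [hesse_apply_mu hωk h3', hesseIdx_hesseRed iK hinj ik hω h3 h3' hωK hωk]

theorem hesseRed_eq_one_iff (iK : S →+* K) (hinj : Function.Injective iK) (ik : S →+* k) {ωS : S}
    (hω : ωS ^ 2 + ωS + 1 = 0) (h3 : (3 : K) ≠ 0) (h3' : (3 : k) ≠ 0) (g : hesse.Gal K) :
    hesseRed iK hinj ik hω h3 h3' g = 1 ↔ g = 1 :=
  (hesseRed iK hinj ik hω h3 h3').map_eq_one_iff

end Hesse

/-! ### Legendre (recentred) -/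

section Legendre

open Fermat.Agent.S18.C.Legendre Fermat.Agent.S18.C.LegendreDisc

section Coeff

variable {R : Type*} [CommRing R]

/-- coefficient `a` of the Moebius map `g` in the coordinate `t`: `g t = (a t + b) / (c t + d)` -/
def aT (g : Fin 6) : R := cA g + cC g

/-- coefficient `b` -/
def bT (g : Fin 6) : R := cB g + cD g - cA g - cC g

/-- coefficient `c` -/
def cT (g : Fin 6) : R := cC g

/-- coefficient `d` -/
def dT (g : Fin 6) : R := cD g - cC g

theorem topT_eq (g : Fin 6) (t : R) : topT g t = aT g * t + bT g := by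
  unfold topT topL botL aT bT; ring

theorem botT_eq (g : Fin 6) (t : R) : botT g t = cT g * t + dT g := by
  unfold botT botL cT dT; ring

variable {S : Type*} [CommRing S] (f : R →+* S)

theorem map_aT (g : Fin 6) : f (aT g) = aT g := by
  unfold aT; rw [map_add, LegendreGalois.map_cA, LegendreGalois.map_cC]

theorem map_bT (g : Fin 6) : f (bT g) = bT g := by
  unfold bT
  rw [map_sub, map_sub, map_add, LegendreGalois.map_cA, LegendreGalois.map_cB,
    LegendreGalois.map_cC, LegendreGalois.map_cD]

theorem map_cT (g : Fin 6) : f (cT g) = cT g := by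
  unfold cT; rw [LegendreGalois.map_cC]

theorem map_dT (g : Fin 6) : f (dT g) = dT g := by
  unfold dT; rw [map_sub, LegendreGalois.map_cC, LegendreGalois.map_cD]

end Coeff

variable {K : Type*} [Field K] [legendre.Good K]

theorem aeval_topP_topT (i : Fin 6) :
    aeval (MuLine.mu legendre K) (topP (aT (R := K)) (bT (R := K)) i) =
      topT i (MuLine.mu legendre K) := by
  rw [aeval_topP, topT_eq, map_aT, map_bT]

theorem aeval_topP_botT (i : Fin 6) :
    aeval (MuLine.mu legendre K) (topP (cT (R := K)) (dT (R := K)) i) =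
      botT i (MuLine.mu legendre K) := by
  rw [aeval_topP, botT_eq, map_cT, map_dT]

/-- the group of the Legendre cover acts on `t` by the Moebius maps with coefficients
`aT bT cT dT` -/
theorem moebiusGal_legendre (h2 : (2 : K) ≠ 0) :
    MoebiusGal (E := RatFunc K) (M := MuLine legendre K) (MuLine.mu legendre K)
      (aT (R := K)) (bT (R := K)) (cT (R := K)) (dT (R := K)) (legendreIdx h2) where
  transc := transcendental_mu legendre
  ext := fun σ τ h => by
    apply (isLegendre h2).algEquiv_ext
    rw [map_sub, map_sub, h, map_one, map_one]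
  bot_ne := fun i => by rw [aeval_topP_botT]; exact legendre_botT_ne_zero h2 i
  apply_mu := fun σ => by
    rw [aeval_topP_botT, aeval_topP_topT, legendre_apply_mu h2 σ,
      div_mul_cancel₀ _ (legendre_botT_ne_zero h2 _)]

variable {k : Type*} [Field k] [legendre.Good k] {S : Type*} [CommRing S]

/-- the reduction of the group of the Legendre cover: `legendre.Gal K ≃* legendre.Gal k` for a ring
`S` with `iK : S →+* K` injective and `ik : S →+* k` (e.g. `S = ℤ` for `K` of characteristic `0`) -/
def legendreRed (iK : S →+* K) (hinj : Function.Injective iK) (ik : S →+* k)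
    (h2 : (2 : K) ≠ 0) (h2' : (2 : k) ≠ 0) : legendre.Gal K ≃* legendre.Gal k :=
  redEquiv iK hinj ik (aT (R := S)) (bT (R := S)) (cT (R := S)) (dT (R := S))
    (idx := legendreIdx h2) (idx' := legendreIdx h2')
    (by
      have e1 : (iK ∘ aT (R := S)) = aT (R := K) := funext fun i => map_aT iK i
      have e2 : (iK ∘ bT (R := S)) = bT (R := K) := funext fun i => map_bT iK i
      have e3 : (iK ∘ cT (R := S)) = cT (R := K) := funext fun i => map_cT iK i
      have e4 : (iK ∘ dT (R := S)) = dT (R := K) := funext fun i => map_dT iK i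
      rw [e1, e2, e3, e4]
      exact moebiusGal_legendre h2)
    (by
      have e1 : (ik ∘ aT (R := S)) = aT (R := k) := funext fun i => map_aT ik i
      have e2 : (ik ∘ bT (R := S)) = bT (R := k) := funext fun i => map_bT ik i
      have e3 : (ik ∘ cT (R := S)) = cT (R := k) := funext fun i => map_cT ik i
      have e4 : (ik ∘ dT (R := S)) = dT (R := k) := funext fun i => map_dT ik i
      rw [e1, e2, e3, e4]
      exact moebiusGal_legendre h2')

/-- the reduction preserves the index -/
theorem legendreIdx_legendreRed (iK : S →+* K) (hinj : Function.Injective iK) (ik : S →+* k)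
    (h2 : (2 : K) ≠ 0) (h2' : (2 : k) ≠ 0) (g : legendre.Gal K) :
    legendreIdx h2' (legendreRed iK hinj ik h2 h2' g) = legendreIdx h2 g := by
  unfold legendreRed
  exact redEquiv_apply iK hinj ik _ _ _ _ _ _ g

/-- the reduced automorphism acts on `t` by the Moebius map with the same index -/
theorem legendreRed_apply_mu (iK : S →+* K) (hinj : Function.Injective iK) (ik : S →+* k)
    (h2 : (2 : K) ≠ 0) (h2' : (2 : k) ≠ 0) (g : legendre.Gal K) :
    legendreRed iK hinj ik h2 h2' g (MuLine.mu legendre k) =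
      topT (legendreIdx h2 g) (MuLine.mu legendre k) /
        botT (legendreIdx h2 g) (MuLine.mu legendre k) := by
  rw [legendre_apply_mu h2', legendreIdx_legendreRed]

theorem legendreRed_eq_one_iff (iK : S →+* K) (hinj : Function.Injective iK) (ik : S →+* k)
    (h2 : (2 : K) ≠ 0) (h2' : (2 : k) ≠ 0) (g : legendre.Gal K) :
    legendreRed iK hinj ik h2 h2' g = 1 ↔ g = 1 :=
  (legendreRed iK hinj ik h2 h2').map_eq_one_iff

end Legendre

end Fermat.Agent.S18.C.GalRed
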