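import Fermat.Agent.S18.C.KModel
import Fermat.Agent.S18.C.GalRed

/-!
# PROJECT H (S18), block C, K-side: the hypothesis `hφ` of `KModel.exists_model` for the two covers

`KModel.GalData c g g'` says that `g ∈ Gal(L(μ)/L(j))` and `g' ∈ Gal(k(μ̄)/k(j̄))` act on `μ`, `μ̄` by
THE SAME Moebius substitution `T/B` with `T, B ∈ A[X]`, `B̄ ≠ 0`.

* `galData_redEquiv` : abstractly, if both groups act by Moebius maps with coefficients
  `a b c' d : ι → A` (`MoebiusRed.MoebiusGal` over `L` through `A.subtype` and over `k` through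
  `π`), then `GalData c g (MoebiusRed.redEquiv .. g)` for every `g`;
* `galData_hesseRed`, `galData_legendreRed` : the instances for the Hesse and the Legendre cover
  with `φ := (GalRed.hesseRed ..).toMonoidHom`, resp. `(GalRed.legendreRed ..).toMonoidHom`.
-/

set_option autoImplicit false
set_option linter.unusedSectionVars false

noncomputable section

namespace Fermat.Agent.S18.C.GalDataInst

open Polynomial Fermat.Agent.S18.C.Defs Fermat.Agent.S18.C.GaussA Fermat.Agent.S18.C.GaussA2
  Fermat.Agent.S18.C.KModel Fermat.Agent.S18.C.MoebiusRed Fermat.Agent.S18.C.GalRed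
  Fermat.Agent.S18.C.CoverInst

section Abstract

variable {K : Type*} [Field K] (c : Cover)

/-- `toRat` of a polynomial in `μ` is the polynomial -/
theorem toRat_aeval_mu (p : K[X]) :
    toRat c K (aeval (MuLine.mu c K) p) = algebraMap K[X] (RatFunc K) p := by
  show ((MuLine.of c K).symm : MuLine c K ≃ₐ[K] RatFunc K) (aeval (MuLine.mu c K) p) = _
  rw [← Polynomial.aeval_algHom_apply, MuLine.mu, AlgEquiv.symm_apply_apply,
    RatFunc.aeval_X_left_eq_algebraMap]

variable {L : Type*} [Field L] {k : Type*} [Field k] {A : ValuationSubring L} {π : A →+* k}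

theorem polyL_topP {ι : Type*} (a b : ι → A) (i : ι) :
    polyL (topP a b i) =
      algebraMap L[X] (RatFunc L) (topP (A.subtype ∘ a) (A.subtype ∘ b) i) := by
  rw [polyL_apply, map_topP]

theorem polyK_topP {ι : Type*} (a b : ι → A) (i : ι) :
    polyK π (topP a b i) = algebraMap k[X] (RatFunc k) (topP (π ∘ a) (π ∘ b) i) := by
  rw [polyK_apply, map_topP]

variable [c.Good L] [c.Good k] {ι : Type*} (a b c' d : ι → A)
  {idx : c.Gal L ≃ ι} {idx' : c.Gal k ≃ ι}
  (hK : MoebiusGal (E := RatFunc L) (M := MuLine c L) (MuLine.mu c L)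
    (A.subtype ∘ a) (A.subtype ∘ b) (A.subtype ∘ c') (A.subtype ∘ d) idx)
  (hk : MoebiusGal (E := RatFunc k) (M := MuLine c k) (MuLine.mu c k)
    (π ∘ a) (π ∘ b) (π ∘ c') (π ∘ d) idx')

/-- **(1)** the abstract statement: a group of Moebius maps with coefficients in `A` and its
reduction have common Moebius data. -/
theorem galData_redEquiv (g : c.Gal L) :
    GalData (A := A) (π := π) c g
      (redEquiv A.subtype A.subtype_injective π a b c' d hK hk g) := by
  refine ⟨topP a b (idx g), topP c' d (idx g), ?_, ?_, ?_⟩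
  · rw [polyL_topP, polyL_topP, ← toRat_aeval_mu c, ← toRat_aeval_mu c, ← map_mul, hK.apply_mu g]
  · have h := hk.apply_mu (redEquiv A.subtype A.subtype_injective π a b c' d hK hk g)
    rw [redEquiv_apply] at h
    rw [polyK_topP, polyK_topP, ← toRat_aeval_mu c, ← toRat_aeval_mu c, ← map_mul, h]
  · rw [map_topP]
    intro h0
    have h := hk.bot_ne (idx g)
    rw [h0, map_zero] at h
    exact h rfl

end Abstract

/-! ### the two covers -/

section Covers

variable {L : Type*} [Field L] {k : Type*} [Field k] (A : ValuationSubring L) (π : A →+* k)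

/-- **(2)** the Hesse cover -/
theorem galData_hesseRed [hesse.Good L] [hesse.Good k] {ωS : A} (hω : ωS ^ 2 + ωS + 1 = 0)
    (h3 : (3 : L) ≠ 0) (h3' : (3 : k) ≠ 0) (g : hesse.Gal L) :
    GalData (A := A) (π := π) hesse g
      ((hesseRed A.subtype A.subtype_injective π hω h3 h3').toMonoidHom g) := by
  show GalData (A := A) (π := π) hesse g (hesseRed A.subtype A.subtype_injective π hω h3 h3' g)
  unfold hesseRed
  exact galData_redEquiv hesse (aH ωS) (bH ωS) (cH (R := A)) (dH ωS) _ _ g

/-- **(3)** the Legendre cover -/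
theorem galData_legendreRed [legendre.Good L] [legendre.Good k]
    (h2 : (2 : L) ≠ 0) (h2' : (2 : k) ≠ 0) (g : legendre.Gal L) :
    GalData (A := A) (π := π) legendre g
      ((legendreRed A.subtype A.subtype_injective π h2 h2').toMonoidHom g) := by
  show GalData (A := A) (π := π) legendre g (legendreRed A.subtype A.subtype_injective π h2 h2' g)
  unfold legendreRed
  exact galData_redEquiv legendre (aT (R := A)) (bT (R := A)) (cT (R := A)) (dT (R := A)) _ _ g

end Covers

end Fermat.Agent.S18.C.GalDataInst
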