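import Mathlib

/-!
# PROJECT H (S18), block C0: elementary valuation lemmas for the residue disc

`v : Valuation Ω Γ₀` on a field.  Integers have `v ≤ 1`; roots of unity have `v = 1`;
if `x ^ n = π * r` with `v π < 1` and `v r ≤ max 1 (v x ^ m)`, `m < n`, then `v x < 1`
(Newton polygon in its most elementary form).
-/

set_option autoImplicit false

namespace Fermat.Agent.S18.C.DiscBasic

variable {Ω : Type*} [Field Ω] {Γ₀ : Type*} [LinearOrderedCommGroupWithZero Γ₀]
  (v : Valuation Ω Γ₀)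

theorem val_natCast_le_one (n : ℕ) : v (n : Ω) ≤ 1 := by
  induction n with
  | zero => simp
  | succ n ih =>
    rw [Nat.cast_succ]
    exact v.map_add_le ih (le_of_eq v.map_one)

theorem val_intCast_le_one (n : ℤ) : v (n : Ω) ≤ 1 := by
  rcases Int.eq_nat_or_neg n with ⟨m, rfl | rfl⟩
  · simpa using val_natCast_le_one v m
  · simpa using val_natCast_le_one v m

theorem val_ofNat_le_one (n : ℕ) [n.AtLeastTwo] : v (OfNat.ofNat n : Ω) ≤ 1 := by
  rw [← Nat.cast_ofNat (R := Ω)]
  exact val_natCast_le_one v n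

/-- roots of unity have valuation `1` -/
theorem val_eq_one_of_pow_eq_one {x : Ω} {n : ℕ} (hn : n ≠ 0) (h : x ^ n = 1) : v x = 1 := by
  have h1 : v x ^ n = 1 := by rw [← v.map_pow, h, v.map_one]
  exact (pow_eq_one_iff_left hn).mp h1

/-- the elementary Newton-polygon lemma -/
theorem val_lt_one_of_pow_eq {π r x : Ω} {n m : ℕ} (hm : m < n) (hπ : v π < 1)
    (hr : v r ≤ max 1 (v x ^ m)) (h : x ^ n = π * r) : v x < 1 := by
  by_contra hcon
  have hy : 1 ≤ v x := not_lt.mp hcon
  have hym : 1 ≤ v x ^ m := one_le_pow₀ hy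
  have hr' : v r ≤ v x ^ m := by rwa [max_eq_right hym] at hr
  have hpos : 0 < v x ^ m := lt_of_lt_of_le zero_lt_one hym
  have h1 : v x ^ n = v π * v r := by rw [← v.map_pow, h, v.map_mul]
  have h2 : v x ^ n ≤ v π * v x ^ m := by
    rw [h1]; exact mul_le_mul_right hr' _
  have h3 : v π * v x ^ m < 1 * v x ^ m := mul_lt_mul_of_pos_right hπ hpos
  rw [one_mul] at h3
  have h4 : v x ^ m ≤ v x ^ n := pow_le_pow_right₀ hy hm.le
  exact absurd (lt_of_le_of_lt h2 h3) (not_lt.mpr h4)

/-- if `v 2 < 1` then `v 3 = 1`, in particular `3 ≠ 0` -/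
theorem val_three_of_val_two (h : v (2 : Ω) < 1) : v (3 : Ω) = 1 := by
  have : (3 : Ω) = 1 + 2 := by norm_num
  rw [this]; exact v.map_one_add_of_lt h

/-- if `v 3 < 1` then `v 2 = 1`, in particular `2 ≠ 0` -/
theorem val_two_of_val_three (h : v (3 : Ω) < 1) : v (2 : Ω) = 1 := by
  have : (2 : Ω) = -(1 - 3) := by norm_num
  rw [this, v.map_neg]; exact v.map_one_sub_of_lt h

theorem ne_zero_of_val_eq_one {x : Ω} (h : v x = 1) : x ≠ 0 := by
  intro hx; rw [hx, v.map_zero] at h; exact zero_ne_one h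

end Fermat.Agent.S18.C.DiscBasic
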