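import Mathlib

/-!
# PROJECT H (S18), block C0: the Hesse cover of the `j`-line (used at `ℓ = 2`)

`jH μ = 27 μ^3 (μ^3 + 8)^3 / (μ^3 - 1)^3` and the twelve Moebius maps
`μ ↦ ω^a μ`, `μ ↦ ω^a (μ + 2 ω^c) / (μ - ω^c)` (`a, c ∈ Fin 3`, `ω` a primitive cube root of unity):
the tetrahedral group `A4`, whose involutions are the three maps with `a = c`.

Everything is stated first as a POLYNOMIAL identity in an arbitrary commutative ring `R` with an
element `ω` (hypothesis `ω^2 + ω + 1 = 0`, or only `ω^3 = 1` where that suffices), so that it can be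
specialised to `Qbar`, to a field of characteristic `2`, to a discrete valuation ring `W`, to
polynomial rings, to function fields ...; then in the quotient form in a field.

Conventions.  The index type is `Idx = Fin 3 ⊕ (Fin 3 × Fin 3)`: `inl a` is `μ ↦ ω^a μ`,
`inr (a, c)` is `μ ↦ ω^a (μ + 2 ω^c) / (μ - ω^c)`.  The map `g` is `μ ↦ topH ω g μ / botH ω g μ`;
`fixH ω g μ = topH ω g μ - μ * botH ω g μ` is the numerator of `g μ - μ`.

Main statements.
* `numH_top_bot`, `denH_top_bot`, `jH_actH` : invariance of `jH` (H1).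
* `numJ_sub_1728_denJ`, `jH_sub_1728` : `jH - 1728` (H2).
* `prod_botH_mul_sub_topH`, `exists_eq_actH` : the fibre of `jH` through `μ` is the orbit of `μ` (H3).
* `numJ_of_two_eq_zero`, `denJ_of_two_eq_zero`, `fixH_eq_of_two_eq_zero`, `sum_iH` :
  characteristic `2` (H4).
* `fixH_inl`, `fixH_inr`, `fixH_inr_self`, `fixH_inr_of_ne`, `prod_invol`, `prod_add_two_mul`,
  `prod_sub_pow` : the fixed points (H5).
-/

set_option autoImplicit false

namespace Fermat.Agent.S18.C.Hesse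

section Ring

variable {R : Type*} [CommRing R]

/-- numerator of the Hesse `j`-function -/
def numJ (μ : R) : R := 27 * μ ^ 3 * (μ ^ 3 + 8) ^ 3

/-- denominator of the Hesse `j`-function -/
def denJ (μ : R) : R := (μ ^ 3 - 1) ^ 3

/-- homogeneous numerator: `numJ (t / b) = numH t b / b ^ 12` -/
def numH (t b : R) : R := 27 * t ^ 3 * (t ^ 3 + 8 * b ^ 3) ^ 3

/-- homogeneous denominator: `denJ (t / b) = denH t b / b ^ 12` -/
def denH (t b : R) : R := b ^ 3 * (t ^ 3 - b ^ 3) ^ 3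

theorem numH_one (μ : R) : numH μ 1 = numJ μ := by
  unfold numH numJ; ring

theorem denH_one (μ : R) : denH μ 1 = denJ μ := by
  unfold denH denJ; ring

/-- the index type of the twelve Moebius maps -/
abbrev Idx : Type := Fin 3 ⊕ (Fin 3 × Fin 3)

/-- numerator of `g μ` -/
def topH (ω : R) (g : Idx) (μ : R) : R :=
  match g with
  | Sum.inl a => ω ^ (a : ℕ) * μ
  | Sum.inr (a, c) => ω ^ (a : ℕ) * (μ + 2 * ω ^ (c : ℕ))

/-- denominator of `g μ` -/
def botH (ω : R) (g : Idx) (μ : R) : R :=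
  match g with
  | Sum.inl _ => 1
  | Sum.inr (_, c) => μ - ω ^ (c : ℕ)

/-- numerator of `g μ - μ`: the fixed-point polynomial of `g` -/
def fixH (ω : R) (g : Idx) (μ : R) : R := topH ω g μ - μ * botH ω g μ

/-- the scalar by which the substitution `g` multiplies the homogeneous numerator and denominator
(`= det ^ 6` up to cube roots of unity) -/
def kap (g : Idx) : R :=
  match g with
  | Sum.inl _ => 1
  | Sum.inr _ => 729

@[simp] theorem topH_inl (ω : R) (a : Fin 3) (μ : R) : topH ω (Sum.inl a) μ = ω ^ (a : ℕ) * μ := rfl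
@[simp] theorem topH_inr (ω : R) (a c : Fin 3) (μ : R) :
    topH ω (Sum.inr (a, c)) μ = ω ^ (a : ℕ) * (μ + 2 * ω ^ (c : ℕ)) := rfl
@[simp] theorem botH_inl (ω : R) (a : Fin 3) (μ : R) : botH ω (Sum.inl a) μ = 1 := rfl
@[simp] theorem botH_inr (ω : R) (a c : Fin 3) (μ : R) :
    botH ω (Sum.inr (a, c)) μ = μ - ω ^ (c : ℕ) := rfl
@[simp] theorem kap_inl (a : Fin 3) : kap (R := R) (Sum.inl a) = 1 := rfl
@[simp] theorem kap_inr (p : Fin 3 × Fin 3) : kap (R := R) (Sum.inr p) = 729 := rfl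

theorem pow_fin_pow_three {ω : R} (hω3 : ω ^ 3 = 1) (a : Fin 3) : (ω ^ (a : ℕ)) ^ 3 = 1 := by
  rw [← pow_mul, mul_comm, pow_mul, hω3, one_pow]

theorem omega_pow_three {ω : R} (hω : ω ^ 2 + ω + 1 = 0) : ω ^ 3 = 1 := by
  linear_combination (ω - 1) * hω

/-- the substitution `τ` in homogeneous form, with a free parameter `w` -/
theorem numH_tau (μ w : R) :
    numH (μ + 2 * w) (μ - w) = 729 * (27 * μ ^ 3 * (μ ^ 3 + 8 * w ^ 3) ^ 3) := by
  unfold numH; ring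

theorem denH_tau (μ w : R) :
    denH (μ + 2 * w) (μ - w) = 729 * (w ^ 3 * (μ ^ 3 - w ^ 3) ^ 3) := by
  unfold denH; ring

theorem numH_mul_left {u : R} (hu : u ^ 3 = 1) (t b : R) : numH (u * t) b = numH t b := by
  unfold numH
  rw [mul_pow, hu, one_mul]

theorem denH_mul_left {u : R} (hu : u ^ 3 = 1) (t b : R) : denH (u * t) b = denH t b := by
  unfold denH
  rw [mul_pow, hu, one_mul]

/-- (H1), numerator: the homogeneous numerator is multiplied by `kap g` under the twelve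
substitutions -/
theorem numH_top_bot {ω : R} (hω3 : ω ^ 3 = 1) (g : Idx) (μ : R) :
    numH (topH ω g μ) (botH ω g μ) = kap g * numJ μ := by
  rcases g with a | ⟨a, c⟩
  · rw [topH_inl, botH_inl, kap_inl, numH_mul_left (pow_fin_pow_three hω3 a), numH_one, one_mul]
  · rw [topH_inr, botH_inr, kap_inr, numH_mul_left (pow_fin_pow_three hω3 a), numH_tau,
      pow_fin_pow_three hω3 c]
    unfold numJ; ring

/-- (H1), denominator -/
theorem denH_top_bot {ω : R} (hω3 : ω ^ 3 = 1) (g : Idx) (μ : R) :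
    denH (topH ω g μ) (botH ω g μ) = kap g * denJ μ := by
  rcases g with a | ⟨a, c⟩
  · rw [topH_inl, botH_inl, kap_inl, denH_mul_left (pow_fin_pow_three hω3 a), denH_one, one_mul]
  · rw [topH_inr, botH_inr, kap_inr, denH_mul_left (pow_fin_pow_three hω3 a), denH_tau,
      pow_fin_pow_three hω3 c]
    unfold denJ; ring

/-- (H2) `numJ - 1728 denJ = 27 (μ^6 - 20 μ^3 - 8)^2` -/
theorem numJ_sub_1728_denJ (μ : R) :
    numJ μ - 1728 * denJ μ = 27 * (μ ^ 6 - 20 * μ ^ 3 - 8) ^ 2 := by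
  unfold numJ denJ; ring

/-- `∏_a (U - ω^a V) = U^3 - V^3` -/
theorem prod_sub_omega_pow_mul {ω : R} (hω : ω ^ 2 + ω + 1 = 0) (U V : R) :
    ∏ a : Fin 3, (U - ω ^ (a : ℕ) * V) = U ^ 3 - V ^ 3 := by
  simp only [Fin.prod_univ_three, Fin.val_zero, Fin.val_one, Fin.val_two, pow_zero, pow_one]
  linear_combination ((U - V) * (-(U * V) + (ω - 1) * V ^ 2)) * hω

/-- the circulant norm: `∏_c (p + q ω^c + r ω^(2c)) = p^3 + q^3 + r^3 - 3 p q r` -/
theorem prod_circulant {ω : R} (hω : ω ^ 2 + ω + 1 = 0) (p q r : R) :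
    ∏ c : Fin 3, (p + q * ω ^ (c : ℕ) + r * (ω ^ (c : ℕ)) ^ 2) =
      p ^ 3 + q ^ 3 + r ^ 3 - 3 * p * q * r := by
  simp only [Fin.prod_univ_three, Fin.val_zero, Fin.val_one, Fin.val_two, pow_zero, pow_one]
  linear_combination (p^2*q + p^2*r*ω^2 - p^2*r*ω + p^2*r + p*q^2*ω + p*q*r*ω^3 + p*q*r*ω^2
    - 2*p*q*r*ω + 3*p*q*r + p*r^2*ω^4 - p*r^2*ω^3 + p*r^2*ω^2 + q^3*ω - q^3 + q^2*r*ω^3
    + q*r^2*ω^4 + r^3*ω^4 - r^3*ω^3 + r^3*ω - r^3) * hω

/-- (H5) `∏_b (μ + 2 ω^b) = μ^3 + 8` -/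
theorem prod_add_two_mul {ω : R} (hω : ω ^ 2 + ω + 1 = 0) (μ : R) :
    ∏ b : Fin 3, (μ + 2 * ω ^ (b : ℕ)) = μ ^ 3 + 8 := by
  have h := prod_sub_omega_pow_mul hω μ (-2)
  have e : ∀ b : Fin 3, μ - ω ^ (b : ℕ) * (-2) = μ + 2 * ω ^ (b : ℕ) := fun b => by ring
  simp only [e] at h
  rw [h]; ring

/-- (H5) `∏_b (μ - ω^b) = μ^3 - 1` -/
theorem prod_sub_pow {ω : R} (hω : ω ^ 2 + ω + 1 = 0) (μ : R) :
    ∏ b : Fin 3, (μ - ω ^ (b : ℕ)) = μ ^ 3 - 1 := by
  have h := prod_sub_omega_pow_mul hω μ 1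
  simp only [mul_one, one_pow] at h
  exact h

/-- (H5) the fixed points of the three involutions are the six roots of `μ^6 - 20 μ^3 - 8`
(the points over `j = 1728`) -/
theorem prod_invol {ω : R} (hω : ω ^ 2 + ω + 1 = 0) (μ : R) :
    ∏ c : Fin 3, (μ ^ 2 - 2 * ω ^ (c : ℕ) * μ - 2 * (ω ^ (c : ℕ)) ^ 2) =
      μ ^ 6 - 20 * μ ^ 3 - 8 := by
  have h := prod_circulant hω (μ ^ 2) (-2 * μ) (-2)
  have e : ∀ c : Fin 3, μ ^ 2 + -2 * μ * ω ^ (c : ℕ) + -2 * (ω ^ (c : ℕ)) ^ 2 =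
      μ ^ 2 - 2 * ω ^ (c : ℕ) * μ - 2 * (ω ^ (c : ℕ)) ^ 2 := fun c => by ring
  simp only [e] at h
  rw [h]; ring

/-- the product over the three maps `inr (a, c)`, `a : Fin 3`, with `c` fixed -/
theorem prod_inr_fst {ω : R} (hω : ω ^ 2 + ω + 1 = 0) (c : Fin 3) (μ X : R) :
    ∏ a : Fin 3, (botH ω (Sum.inr (a, c)) μ * X - topH ω (Sum.inr (a, c)) μ) =
      (μ - ω ^ (c : ℕ)) ^ 3 * X ^ 3 - (μ + 2 * ω ^ (c : ℕ)) ^ 3 := by
  simp only [botH_inr, topH_inr]
  rw [prod_sub_omega_pow_mul hω]; ring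

/-- (H3) the fibre of `jH` through `μ` is the orbit of `μ`: polynomial form.  The left side is
`∏ g, (botH g μ * X - topH g μ)`, i.e. up to the denominators `∏ g, (X - g μ)`. -/
theorem prod_botH_mul_sub_topH {ω : R} (hω : ω ^ 2 + ω + 1 = 0) (μ X : R) :
    ∏ g : Idx, (botH ω g μ * X - topH ω g μ) =
      X ^ 3 * (X ^ 3 + 8) ^ 3 * (μ ^ 3 - 1) ^ 3 - μ ^ 3 * (μ ^ 3 + 8) ^ 3 * (X ^ 3 - 1) ^ 3 := by
  have hω3 := omega_pow_three hω
  rw [Fintype.prod_sum_type, Fintype.prod_prod_type, Finset.prod_comm]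
  simp only [prod_inr_fst hω]
  have e1 : ∏ a : Fin 3, (botH ω (Sum.inl a) μ * X - topH ω (Sum.inl a) μ) = X ^ 3 - μ ^ 3 := by
    simp only [botH_inl, topH_inl, one_mul]
    exact prod_sub_omega_pow_mul hω X μ
  have e2 : ∀ c : Fin 3, (μ - ω ^ (c : ℕ)) ^ 3 * X ^ 3 - (μ + 2 * ω ^ (c : ℕ)) ^ 3 =
      (μ ^ 3 * (X ^ 3 - 1) - (X ^ 3 + 8)) + (-3 * μ ^ 2 * (X ^ 3 + 2)) * ω ^ (c : ℕ)
        + (3 * μ * (X ^ 3 - 4)) * (ω ^ (c : ℕ)) ^ 2 := fun c => by
    linear_combination (-(X ^ 3 + 8)) * pow_fin_pow_three hω3 c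
  simp only [e2]
  rw [e1, prod_circulant hω]
  ring

/-- (H3) in the `numJ / denJ` form -/
theorem prod_botH_mul_sub_topH' {ω : R} (hω : ω ^ 2 + ω + 1 = 0) (μ X : R) :
    27 * ∏ g : Idx, (botH ω g μ * X - topH ω g μ) = numJ X * denJ μ - numJ μ * denJ X := by
  rw [prod_botH_mul_sub_topH hω]; unfold numJ denJ; ring

/-- (H5) fixed-point polynomial of `μ ↦ ω^a μ`: fixes `0` (and `∞`) -/
theorem fixH_inl (ω : R) (a : Fin 3) (μ : R) : fixH ω (Sum.inl a) μ = (ω ^ (a : ℕ) - 1) * μ := by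
  unfold fixH; rw [topH_inl, botH_inl]; ring

/-- (H5) fixed-point polynomial of `μ ↦ ω^a (μ + 2 ω^c)/(μ - ω^c)` -/
theorem fixH_inr (ω : R) (a c : Fin 3) (μ : R) :
    fixH ω (Sum.inr (a, c)) μ =
      -(μ ^ 2 - (ω ^ (a : ℕ) + ω ^ (c : ℕ)) * μ - 2 * (ω ^ (a : ℕ) * ω ^ (c : ℕ))) := by
  unfold fixH; rw [topH_inr, botH_inr]; ring

/-- (H5) the involutions (`a = c`): the fixed points are the two roots of
`μ^2 - 2 ω^c μ - 2 ω^(2c)` -/
theorem fixH_inr_self (ω : R) (c : Fin 3) (μ : R) :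
    fixH ω (Sum.inr (c, c)) μ = -(μ ^ 2 - 2 * ω ^ (c : ℕ) * μ - 2 * (ω ^ (c : ℕ)) ^ 2) := by
  rw [fixH_inr]; ring

/-- for pairwise distinct `a b c : Fin 3`: `ω^a + ω^b + ω^c = 0` -/
theorem sum_pow_of_ne {ω : R} (hω : ω ^ 2 + ω + 1 = 0) {a b c : Fin 3} (hab : a ≠ b)
    (hbc : b ≠ c) (hac : a ≠ c) : ω ^ (a : ℕ) + ω ^ (b : ℕ) + ω ^ (c : ℕ) = 0 := by
  fin_cases a <;> fin_cases b <;> fin_cases c <;> simp at hab hbc hac ⊢ <;>
    linear_combination hω

/-- for pairwise distinct `a b c : Fin 3`: `ω^a ω^c = ω^(2b)` -/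
theorem mul_pow_of_ne {ω : R} (hω : ω ^ 2 + ω + 1 = 0) {a b c : Fin 3} (hab : a ≠ b)
    (hbc : b ≠ c) (hac : a ≠ c) : ω ^ (a : ℕ) * ω ^ (c : ℕ) = (ω ^ (b : ℕ)) ^ 2 := by
  fin_cases a <;> fin_cases b <;> fin_cases c <;> simp at hab hbc hac ⊢ <;>
    first
    | ring1
    | linear_combination (ω - 1) * hω
    | linear_combination (-(ω * (ω - 1))) * hω

/-- (H5) the elements of order `3` outside the diagonal torus (`a ≠ c`): with `b` the third
index, the fixed points are `-2 ω^b` (over `j = 0`) and `ω^b` (a cusp) -/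
theorem fixH_inr_of_ne {ω : R} (hω : ω ^ 2 + ω + 1 = 0) {a b c : Fin 3} (hab : a ≠ b)
    (hbc : b ≠ c) (hac : a ≠ c) (μ : R) :
    fixH ω (Sum.inr (a, c)) μ = -((μ + 2 * ω ^ (b : ℕ)) * (μ - ω ^ (b : ℕ))) := by
  rw [fixH_inr]
  linear_combination μ * sum_pow_of_ne hω hab hbc hac + 2 * mul_pow_of_ne hω hab hbc hac

/-- the third index: for `a ≠ c` it is the element of `Fin 3` different from both -/
theorem third_ne {a c : Fin 3} (hac : a ≠ c) : a ≠ -(a + c) ∧ -(a + c) ≠ c := by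
  revert a c; decide

/-- (H5) with a square root `s` of `3`: the two fixed points of the involution `inr (c, c)` are
`ω^c (1 + s)` and `ω^c (1 - s)` -/
theorem invol_factor {s : R} (hs : s ^ 2 = 3) (w μ : R) :
    μ ^ 2 - 2 * w * μ - 2 * w ^ 2 = (μ - w * (1 + s)) * (μ - w * (1 - s)) := by
  linear_combination (w ^ 2) * hs

/-- `(ω - 1) (ω^2 - 1) = 3`: so `ω^a - 1` is a unit for `a ≠ 0` as soon as `3` is -/
theorem omega_sub_one_mul {ω : R} (hω : ω ^ 2 + ω + 1 = 0) : (ω - 1) * (ω ^ 2 - 1) = 3 := by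
  linear_combination (ω - 2) * hω

/-- (H4) the order of vanishing of `g μ - μ` at `μ = 0` in characteristic `2`: `2` for the three
involutions, `1` for the eight elements of order `3` -/
def iH (g : Idx) : ℕ :=
  match g with
  | Sum.inl a => if a = 0 then 0 else 1
  | Sum.inr (a, c) => if a = c then 2 else 1

/-- (H4) the unit factor of `fixH ω g μ` at `μ = 0` in characteristic `2` -/
def uH (ω : R) (g : Idx) (μ : R) : R :=
  match g with
  | Sum.inl a => ω ^ (a : ℕ) - 1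
  | Sum.inr (a, c) => if a = c then -1 else ω ^ (a : ℕ) + ω ^ (c : ℕ) - μ

/-- (H4) `∑_{g ≠ 1} i(g) = 14`, the different exponent of `jH` at `μ = 0` in characteristic `2` -/
theorem sum_iH : ∑ g : Idx, iH g = 14 := by decide

/-- (H4) in characteristic `2`: `numJ μ = μ^12` -/
theorem numJ_of_two_eq_zero (h2 : (2 : R) = 0) (μ : R) : numJ μ = μ ^ 12 := by
  have h27 : (27 : R) = 1 := by linear_combination 13 * h2
  have h8 : (8 : R) = 0 := by linear_combination 4 * h2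
  unfold numJ
  rw [h27, h8]; ring

/-- (H4) in characteristic `2`: `denJ μ = (μ^3 + 1)^3` -/
theorem denJ_of_two_eq_zero (h2 : (2 : R) = 0) (μ : R) : denJ μ = (μ ^ 3 + 1) ^ 3 := by
  have h : μ ^ 3 - 1 = μ ^ 3 + 1 := by linear_combination (-1 : R) * h2
  unfold denJ
  rw [h]

/-- (H4) in characteristic `2` the numerator of `g μ` is `ω^a μ` for all twelve maps: every `g`
fixes `μ = 0` -/
theorem topH_of_two_eq_zero (h2 : (2 : R) = 0) (ω : R) (a c : Fin 3) (μ : R) :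
    topH ω (Sum.inr (a, c)) μ = ω ^ (a : ℕ) * μ := by
  rw [topH_inr]; linear_combination (ω ^ (a : ℕ) * ω ^ (c : ℕ)) * h2

/-- (H4) in characteristic `2`: `g μ - μ = μ^(i g) * unit / botH g μ` -/
theorem fixH_eq_of_two_eq_zero (h2 : (2 : R) = 0) (ω : R) (g : Idx) (μ : R) :
    fixH ω g μ = μ ^ iH g * uH ω g μ := by
  rcases g with a | ⟨a, c⟩
  · rw [fixH_inl]
    by_cases ha : a = 0
    · subst ha; simp [iH, uH]
    · simp only [iH, uH, if_neg ha]; ring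
  · rw [fixH_inr]
    by_cases hac : a = c
    · subst hac
      simp only [iH, uH, if_true]
      linear_combination (ω ^ (a : ℕ) * μ + ω ^ (a : ℕ) * ω ^ (a : ℕ)) * h2
    · simp only [iH, uH, if_neg hac]
      linear_combination (ω ^ (a : ℕ) * ω ^ (c : ℕ)) * h2

/-- (H4) the unit factor at `μ = 0` for the elements `inr (a, c)`, `a ≠ c`: it is `-ω^b` -/
theorem uH_inr_zero_of_ne {ω : R} (hω : ω ^ 2 + ω + 1 = 0) {a b c : Fin 3} (hab : a ≠ b)
    (hbc : b ≠ c) (hac : a ≠ c) : uH ω (Sum.inr (a, c)) 0 = -ω ^ (b : ℕ) := by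
  simp only [uH, if_neg hac]
  linear_combination sum_pow_of_ne hω hab hbc hac

/-- `ω` is a unit -/
theorem isUnit_omega {ω : R} (hω : ω ^ 2 + ω + 1 = 0) : IsUnit ω := by
  refine IsUnit.of_mul_eq_one (ω ^ 2) ?_
  linear_combination (ω - 1) * hω

end Ring

section Field

variable {E : Type*} [Field E]

/-- the Hesse `j`-function -/
noncomputable def jH (μ : E) : E := numJ μ / denJ μ

theorem jH_def (μ : E) : jH μ = 27 * μ ^ 3 * (μ ^ 3 + 8) ^ 3 / (μ ^ 3 - 1) ^ 3 := rfl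

/-- the twelve Moebius maps of the Hesse group -/
noncomputable def actH (ω : E) (g : Idx) (μ : E) : E := topH ω g μ / botH ω g μ

theorem jH_div {t b : E} (hb : b ≠ 0) : jH (t / b) = numH t b / denH t b := by
  unfold jH numJ denJ numH denH
  have e1 : 27 * (t / b) ^ 3 * ((t / b) ^ 3 + 8) ^ 3 =
      27 * t ^ 3 * (t ^ 3 + 8 * b ^ 3) ^ 3 / b ^ 12 := by
    field_simp
  have e2 : ((t / b) ^ 3 - 1) ^ 3 = b ^ 3 * (t ^ 3 - b ^ 3) ^ 3 / b ^ 12 := by
    field_simp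
  rw [e1, e2, div_div_div_cancel_right₀ (pow_ne_zero 12 hb)]

theorem kap_ne_zero (h3 : (3 : E) ≠ 0) (g : Idx) : kap (R := E) g ≠ 0 := by
  rcases g with a | p
  · simp
  · rw [kap_inr]
    have : (729 : E) = 3 ^ 6 := by norm_num
    rw [this]; exact pow_ne_zero 6 h3

/-- (H1) `jH (g μ) = jH μ` -/
theorem jH_actH {ω : E} (hω3 : ω ^ 3 = 1) (h3 : (3 : E) ≠ 0) (g : Idx) {μ : E}
    (hb : botH ω g μ ≠ 0) : jH (actH ω g μ) = jH μ := by
  unfold actH
  rw [jH_div hb, numH_top_bot hω3, denH_top_bot hω3, mul_div_mul_left _ _ (kap_ne_zero h3 g)]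
  rfl

/-- (H2) -/
theorem jH_sub_1728 {μ : E} (hμ : denJ μ ≠ 0) :
    jH μ - 1728 = 27 * (μ ^ 6 - 20 * μ ^ 3 - 8) ^ 2 / denJ μ := by
  rw [← numJ_sub_1728_denJ, jH]
  field_simp

theorem denJ_ne_zero_iff {μ : E} : denJ μ ≠ 0 ↔ μ ^ 3 ≠ 1 := by
  unfold denJ
  rw [pow_ne_zero_iff three_ne_zero, sub_ne_zero]

/-- away from the cusps `μ^3 = 1` all twelve denominators are nonzero -/
theorem botH_ne_zero {ω : E} (hω3 : ω ^ 3 = 1) (g : Idx) {μ : E} (hμ : denJ μ ≠ 0) :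
    botH ω g μ ≠ 0 := by
  rcases g with a | ⟨a, c⟩
  · simp
  · rw [botH_inr, sub_ne_zero]
    intro h
    apply denJ_ne_zero_iff.mp hμ
    rw [h, pow_fin_pow_three hω3]

/-- (H3) if `jH x = jH μ` (denominators nonzero, `3 ≠ 0`) then `x = g μ` for one of the twelve
Moebius maps `g`, in the form `botH g μ * x = topH g μ` -/
theorem exists_botH_mul_eq_topH {ω : E} (hω : ω ^ 2 + ω + 1 = 0) (h3 : (3 : E) ≠ 0) {x μ : E}
    (hx : denJ x ≠ 0) (hμ : denJ μ ≠ 0) (h : jH x = jH μ) :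
    ∃ g : Idx, botH ω g μ * x = topH ω g μ := by
  have h27 : (27 : E) ≠ 0 := by
    have : (27 : E) = 3 ^ 3 := by norm_num
    rw [this]; exact pow_ne_zero 3 h3
  have hp : ∏ g : Idx, (botH ω g μ * x - topH ω g μ) = 0 := by
    have := prod_botH_mul_sub_topH' hω μ x
    unfold jH at h
    rw [div_eq_div_iff hx hμ] at h
    rw [h, sub_self] at this
    exact (mul_eq_zero.mp this).resolve_left h27
  obtain ⟨g, -, hg⟩ := Finset.prod_eq_zero_iff.mp hp
  exact ⟨g, sub_eq_zero.mp hg⟩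

/-- (H3) if `jH x = jH μ` (denominators nonzero, `3 ≠ 0`) then `x = g μ` for one of the twelve
Moebius maps `g` -/
theorem exists_eq_actH {ω : E} (hω : ω ^ 2 + ω + 1 = 0) (h3 : (3 : E) ≠ 0) {x μ : E}
    (hx : denJ x ≠ 0) (hμ : denJ μ ≠ 0) (h : jH x = jH μ) : ∃ g : Idx, x = actH ω g μ := by
  obtain ⟨g, hg⟩ := exists_botH_mul_eq_topH hω h3 hx hμ h
  refine ⟨g, ?_⟩
  unfold actH
  rw [eq_div_iff (botH_ne_zero (omega_pow_three hω) g hμ), ← hg, mul_comm]

/-- the twelve maps preserve the complement of the cusps -/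
theorem denJ_actH_ne_zero {ω : E} (hω3 : ω ^ 3 = 1) (h3 : (3 : E) ≠ 0) (g : Idx) {μ : E}
    (hμ : denJ μ ≠ 0) : denJ (actH ω g μ) ≠ 0 := by
  have hb := botH_ne_zero hω3 g hμ
  have h : denJ (actH ω g μ) = kap g * denJ μ / botH ω g μ ^ 12 := by
    unfold actH
    rw [← denH_top_bot hω3 g μ]
    unfold denJ denH
    field_simp
  rw [h]
  exact div_ne_zero (mul_ne_zero (kap_ne_zero h3 g) hμ) (pow_ne_zero 12 hb)

theorem actH_sub {ω : E} {g : Idx} {μ : E} (hb : botH ω g μ ≠ 0) :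
    actH ω g μ - μ = fixH ω g μ / botH ω g μ := by
  unfold actH fixH; field_simp

/-- the six points over `j = 1728` are simple roots of `μ^6 - 20 μ^3 - 8` when `2, 3 ≠ 0`:
the derivative `6 ν^5 - 60 ν^2` does not vanish at a root -/
theorem derivative_ne_zero_of_root (h2 : (2 : E) ≠ 0) (h3 : (3 : E) ≠ 0) {ν : E}
    (h : ν ^ 6 - 20 * ν ^ 3 - 8 = 0) : 6 * ν ^ 5 - 60 * ν ^ 2 ≠ 0 := by
  intro hd
  have key : 648 * ν ^ 3 = 0 := by
    linear_combination (-6 * ν ^ 3) * h + (ν * (ν ^ 3 - 10)) * hd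
  have h648 : (648 : E) ≠ 0 := by
    have : (648 : E) = 2 ^ 3 * 3 ^ 4 := by norm_num
    rw [this]; exact mul_ne_zero (pow_ne_zero 3 h2) (pow_ne_zero 4 h3)
  have hν : ν = 0 := by
    have := (mul_eq_zero.mp key).resolve_left h648
    exact pow_eq_zero_iff (three_ne_zero) |>.mp this
  rw [hν] at h
  have h8 : (8 : E) ≠ 0 := by
    have : (8 : E) = 2 ^ 3 := by norm_num
    rw [this]; exact pow_ne_zero 3 h2
  apply h8
  linear_combination (-1 : E) * h

end Field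

end Fermat.Agent.S18.C.Hesse
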