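import Mathlib
import Fermat.Agent.S18.C.Hesse
import Fermat.Agent.S18.C.DiscBasic

/-!
# PROJECT H (S18), block C0: the Hesse cover, integrality and the residue disc at `ℓ = 2`

* Polynomial forms `polyP R = 27 X^3 (X^3+8)^3`, `polyQ R = (X^3-1)^3`, `rel R j = P - j Q`
  (degree `12`, leading coefficient `27`; `P = X^12` when `2 = 0`; `Q` monic with `Q(0) = -1`),
  the monic relation `monicRel` and integrality of `μ` over `R[j]` when `27` is a unit.
* Coefficients of the twelve Moebius maps at the special point: `botH ω g 0` is a unit and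
  `topH ω g 0` is divisible by `2`.
* DISC statements for a valuation `v` with `v 2 < 1`: every point over `j = 0` or `j = 1728` lies
  in the open unit disc; a fixed point of `g ≠ 1` in the open unit disc lies over `0` or `1728`;
  the number of fixed points of `g ≠ 1` in the disc is `iH g`; `4 = 12/3` points over `0`,
  `6 = 12/2` points over `1728`.
-/

set_option autoImplicit false

namespace Fermat.Agent.S18.C.HesseDisc

open Polynomial
open Fermat.Agent.S18.C.Hesse
open Fermat.Agent.S18.C.DiscBasic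

section Poly

variable (R : Type*) [CommRing R]

/-- the numerator `27 X^3 (X^3+8)^3` of the Hesse `j`-function as a polynomial -/
noncomputable def polyP : R[X] := 27 * X ^ 3 * (X ^ 3 + 8) ^ 3

/-- the denominator `(X^3-1)^3` of the Hesse `j`-function as a polynomial -/
noncomputable def polyQ : R[X] := (X ^ 3 - 1) ^ 3

/-- the relation `P(X) - j Q(X)` satisfied by `μ` over `R[j]` -/
noncomputable def rel (j : R) : R[X] := polyP R - C j * polyQ R

variable {R}

@[simp] theorem eval_polyP (μ : R) : (polyP R).eval μ = numJ μ := by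
  simp [polyP, numJ]

@[simp] theorem eval_polyQ (μ : R) : (polyQ R).eval μ = denJ μ := by
  simp [polyQ, denJ]

@[simp] theorem eval_rel (j μ : R) : (rel R j).eval μ = numJ μ - j * denJ μ := by
  simp [rel]

theorem map_polyP {S : Type*} [CommRing S] (f : R →+* S) : (polyP R).map f = polyP S := by
  simp [polyP]

theorem map_polyQ {S : Type*} [CommRing S] (f : R →+* S) : (polyQ R).map f = polyQ S := by
  simp [polyQ]

theorem map_rel {S : Type*} [CommRing S] (f : R →+* S) (j : R) :
    (rel R j).map f = rel S (f j) := by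
  simp [rel, map_polyP, map_polyQ]

theorem aeval_polyP {S : Type*} [CommRing S] [Algebra R S] (μ : S) :
    aeval μ (polyP R) = numJ μ := by
  simp [polyP, numJ, map_ofNat]

theorem aeval_polyQ {S : Type*} [CommRing S] [Algebra R S] (μ : S) :
    aeval μ (polyQ R) = denJ μ := by
  simp [polyQ, denJ]

variable (R)

theorem polyP_eq : polyP R = 27 * X ^ 12 + 648 * X ^ 9 + 5184 * X ^ 6 + 13824 * X ^ 3 := by
  unfold polyP; ring

theorem polyQ_eq : polyQ R = X ^ 9 - 3 * X ^ 6 + 3 * X ^ 3 - 1 := by
  unfold polyQ; ring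

theorem polyQ_monic : (polyQ R).Monic := by
  unfold polyQ
  exact (monic_X_pow_sub_C (1 : R) (by norm_num)).pow 3

theorem natDegree_polyQ [Nontrivial R] : (polyQ R).natDegree = 9 := by
  have h : polyQ R = (X ^ 3 - C 1) ^ 3 := by unfold polyQ; simp
  rw [h, (monic_X_pow_sub_C (1 : R) (by norm_num)).natDegree_pow, natDegree_X_pow_sub_C]

theorem natDegree_polyQ_le : (polyQ R).natDegree ≤ 9 := by
  unfold polyQ; compute_degree

theorem coeff_zero_polyQ : (polyQ R).coeff 0 = -1 := by
  rw [coeff_zero_eq_eval_zero, eval_polyQ]; unfold denJ; norm_num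

theorem natDegree_polyP_le : (polyP R).natDegree ≤ 12 := by
  unfold polyP; compute_degree

theorem coeff_polyP_twelve : (polyP R).coeff 12 = 27 := by
  rw [polyP_eq]
  simp [coeff_X_pow, coeff_ofNat_mul]

theorem natDegree_rel_le (j : R) : (rel R j).natDegree ≤ 12 := by
  unfold rel
  refine (natDegree_sub_le _ _).trans (max_le (natDegree_polyP_le R) ?_)
  exact (natDegree_C_mul_le _ _).trans ((natDegree_polyQ_le R).trans (by norm_num))

theorem coeff_rel_twelve (j : R) : (rel R j).coeff 12 = 27 := by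
  unfold rel
  rw [coeff_sub, coeff_polyP_twelve, coeff_C_mul,
    coeff_eq_zero_of_natDegree_lt (lt_of_le_of_lt (natDegree_polyQ_le R) (by norm_num))]
  ring

/-- in characteristic `2`: `P = X^12` -/
theorem polyP_of_two_eq_zero (h2 : (2 : R) = 0) : polyP R = X ^ 12 := by
  have h2' : (2 : R[X]) = 0 := by
    have h := congrArg (C : R → R[X]) h2
    rwa [map_ofNat, map_zero] at h
  rw [polyP_eq]
  linear_combination (13 * X ^ 12 + 324 * X ^ 9 + 2592 * X ^ 6 + 6912 * X ^ 3) * h2'

/-- in characteristic `2`: `Q = (X^3+1)^3` -/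
theorem polyQ_of_two_eq_zero (h2 : (2 : R) = 0) : polyQ R = (X ^ 3 + 1) ^ 3 := by
  have h2' : (2 : R[X]) = 0 := by
    have h := congrArg (C : R → R[X]) h2
    rwa [map_ofNat, map_zero] at h
  have : (X : R[X]) ^ 3 - 1 = X ^ 3 + 1 := by linear_combination (-1 : R[X]) * h2'
  unfold polyQ; rw [this]

/-- the monic relation `u (P - j Q)`, `u = 1/27` -/
noncomputable def monicRel (u j : R) : R[X] := C u * rel R j

theorem monicRel_monic {u : R} (hu : u * 27 = 1) (j : R) : (monicRel R u j).Monic := by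
  apply monic_of_natDegree_le_of_coeff_eq_one 12
  · exact (natDegree_C_mul_le _ _).trans (natDegree_rel_le R j)
  · unfold monicRel
    rw [coeff_C_mul, coeff_rel_twelve, hu]

theorem natDegree_monicRel [Nontrivial R] {u : R} (hu : u * 27 = 1) (j : R) :
    (monicRel R u j).natDegree = 12 := by
  apply le_antisymm ((natDegree_C_mul_le _ _).trans (natDegree_rel_le R j))
  apply le_natDegree_of_ne_zero
  show (C u * rel R j).coeff 12 ≠ 0
  rw [coeff_C_mul, coeff_rel_twelve, hu]
  exact one_ne_zero

theorem map_monicRel {S : Type*} [CommRing S] (f : R →+* S) (u j : R) :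
    (monicRel R u j).map f = monicRel S (f u) (f j) := by
  simp [monicRel, map_rel]

variable {R}

/-- `μ` is integral over `R[j]` as soon as `27` is a unit of `R` and `numJ μ = j denJ μ` -/
theorem isIntegral_of_numJ_eq {S : Type*} [CommRing S] [Algebra R S] {u : R} (hu : u * 27 = 1)
    {j μ : S} (h : numJ μ = j * denJ μ) : IsIntegral (Algebra.adjoin R {j}) μ := by
  classical
  set A := Algebra.adjoin R {j} with hA
  let j' : A := ⟨j, Algebra.self_mem_adjoin_singleton R j⟩
  have hu' : algebraMap R A u * 27 = 1 := by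
    have := congrArg (algebraMap R A) hu
    simpa [map_ofNat] using this
  refine ⟨monicRel A (algebraMap R A u) j', monicRel_monic A hu' j', ?_⟩
  rw [eval₂_eq_eval_map, map_monicRel]
  simp only [monicRel, eval_mul, eval_C, eval_rel]
  have hj : algebraMap A S j' = j := rfl
  rw [hj, h, sub_self, mul_zero]

end Poly

section Coeff

variable {R : Type*} [CommRing R]

@[simp] theorem botH_zero_inl (ω : R) (a : Fin 3) : botH ω (Sum.inl a) 0 = 1 := rfl

@[simp] theorem botH_zero_inr (ω : R) (a c : Fin 3) :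
    botH ω (Sum.inr (a, c)) 0 = -ω ^ (c : ℕ) := by
  rw [botH_inr, zero_sub]

@[simp] theorem topH_zero_inl (ω : R) (a : Fin 3) : topH ω (Sum.inl a) 0 = 0 := by
  rw [topH_inl, mul_zero]

@[simp] theorem topH_zero_inr (ω : R) (a c : Fin 3) :
    topH ω (Sum.inr (a, c)) 0 = 2 * (ω ^ (a : ℕ) * ω ^ (c : ℕ)) := by
  rw [topH_inr]; ring

/-- every `m_g` has `d_g` a unit -/
theorem isUnit_botH_zero {ω : R} (hω : ω ^ 2 + ω + 1 = 0) (g : Idx) : IsUnit (botH ω g 0) := by
  rcases g with a | ⟨a, c⟩
  · simp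
  · rw [botH_zero_inr]
    exact ((isUnit_omega hω).pow _).neg

/-- every `m_g` has `b_g` divisible by `2` -/
theorem two_dvd_topH_zero (ω : R) (g : Idx) : (2 : R) ∣ topH ω g 0 := by
  rcases g with a | ⟨a, c⟩
  · simp
  · rw [topH_zero_inr]; exact dvd_mul_right _ _

end Coeff


section Omega

variable {Ω : Type*} [Field Ω]

theorem omega_ne_one {ω : Ω} (hω : ω ^ 2 + ω + 1 = 0) (h3 : (3 : Ω) ≠ 0) : ω ≠ 1 := by
  intro h
  apply h3
  rw [← omega_sub_one_mul hω, h, sub_self, zero_mul]

theorem omega_sq_ne_one {ω : Ω} (hω : ω ^ 2 + ω + 1 = 0) (h3 : (3 : Ω) ≠ 0) : ω ^ 2 ≠ 1 := by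
  intro h
  apply h3
  rw [← omega_sub_one_mul hω, h, sub_self, mul_zero]

theorem omega_ne_zero {ω : Ω} (hω : ω ^ 2 + ω + 1 = 0) : ω ≠ 0 := (isUnit_omega hω).ne_zero

theorem omega_pow_ne_zero {ω : Ω} (hω : ω ^ 2 + ω + 1 = 0) (b : Fin 3) : ω ^ (b : ℕ) ≠ 0 :=
  pow_ne_zero _ (omega_ne_zero hω)

/-- the three powers `1, ω, ω^2` are distinct -/
theorem omega_pow_injective {ω : Ω} (hω : ω ^ 2 + ω + 1 = 0) (h3 : (3 : Ω) ≠ 0) :
    Function.Injective (fun b : Fin 3 => ω ^ (b : ℕ)) := by
  have h1 := omega_ne_one hω h3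
  have h2 := omega_sq_ne_one hω h3
  have h0 := omega_ne_zero hω
  have h12 : ω ≠ ω ^ 2 := by
    intro h
    apply h1
    have : ω * (ω - 1) = 0 := by linear_combination -h
    rcases mul_eq_zero.mp this with h' | h'
    · exact absurd h' h0
    · exact sub_eq_zero.mp h'
  intro a b hab
  simp only at hab
  fin_cases a <;> fin_cases b
  · rfl
  · change ω ^ 0 = ω ^ 1 at hab
    rw [pow_zero, pow_one] at hab
    exact absurd hab.symm h1
  · change ω ^ 0 = ω ^ 2 at hab
    rw [pow_zero] at hab
    exact absurd hab.symm h2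
  · change ω ^ 1 = ω ^ 0 at hab
    rw [pow_zero, pow_one] at hab
    exact absurd hab h1
  · rfl
  · change ω ^ 1 = ω ^ 2 at hab
    rw [pow_one] at hab
    exact absurd hab h12
  · change ω ^ 2 = ω ^ 0 at hab
    rw [pow_zero] at hab
    exact absurd hab h2
  · change ω ^ 2 = ω ^ 1 at hab
    rw [pow_one] at hab
    exact absurd hab.symm h12
  · rfl

theorem omega_pow_sub_one_ne_zero {ω : Ω} (hω : ω ^ 2 + ω + 1 = 0) (h3 : (3 : Ω) ≠ 0)
    {a : Fin 3} (ha : a ≠ 0) : ω ^ (a : ℕ) - 1 ≠ 0 := by
  rw [sub_ne_zero]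
  intro h
  apply ha
  apply omega_pow_injective hω h3
  simpa using h

end Omega

section Disc

variable {Ω : Type*} [Field Ω] {Γ₀ : Type*} [LinearOrderedCommGroupWithZero Γ₀]
  (v : Valuation Ω Γ₀)

theorem three_ne_zero_of_val (hv : v (2 : Ω) < 1) : (3 : Ω) ≠ 0 :=
  ne_zero_of_val_eq_one v (val_three_of_val_two v hv)

theorem twentyseven_ne_zero_of_val (hv : v (2 : Ω) < 1) : (27 : Ω) ≠ 0 := by
  have : (27 : Ω) = 3 ^ 3 := by norm_num
  rw [this]; exact pow_ne_zero 3 (three_ne_zero_of_val v hv)

/-- DISC: every point over `j = 0` lies in the open unit disc -/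
theorem val_lt_one_of_numJ_eq_zero (hv : v (2 : Ω) < 1) {x : Ω} (h : numJ x = 0) : v x < 1 := by
  unfold numJ at h
  rcases mul_eq_zero.mp h with h | h
  · rcases mul_eq_zero.mp h with h | h
    · exact absurd h (twentyseven_ne_zero_of_val v hv)
    · have hx : x = 0 := by simpa using h
      rw [hx, v.map_zero]; exact zero_lt_one
  · have h' : x ^ 3 + 8 = 0 := by simpa using h
    have hx : x ^ 3 = 2 * (-4) := by linear_combination h'
    refine val_lt_one_of_pow_eq v (m := 0) (by norm_num) hv ?_ hx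
    rw [v.map_neg]
    exact le_max_of_le_left (val_ofNat_le_one v 4)

/-- DISC: every root of `x^6 - 20 x^3 - 8` lies in the open unit disc -/
theorem val_lt_one_of_sextic (hv : v (2 : Ω) < 1) {x : Ω} (h : x ^ 6 - 20 * x ^ 3 - 8 = 0) :
    v x < 1 := by
  have hx : x ^ 6 = 2 * (10 * x ^ 3 + 4) := by linear_combination h
  refine val_lt_one_of_pow_eq v (m := 3) (by norm_num) hv ?_ hx
  apply v.map_add_le
  · rw [v.map_mul, v.map_pow]
    refine le_max_of_le_right ?_
    calc v 10 * v x ^ 3 ≤ 1 * v x ^ 3 := mul_le_mul_left (val_ofNat_le_one v 10) _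
      _ = v x ^ 3 := one_mul _
  · exact le_max_of_le_left (val_ofNat_le_one v 4)

theorem sextic_eq_zero_of_eq_1728 (hv : v (2 : Ω) < 1) {x : Ω} (h : numJ x = 1728 * denJ x) :
    x ^ 6 - 20 * x ^ 3 - 8 = 0 := by
  have h1 : 27 * (x ^ 6 - 20 * x ^ 3 - 8) ^ 2 = 0 := by
    rw [← numJ_sub_1728_denJ, h, sub_self]
  rcases mul_eq_zero.mp h1 with h1 | h1
  · exact absurd h1 (twentyseven_ne_zero_of_val v hv)
  · simpa using h1

theorem eq_1728_of_sextic_eq_zero {x : Ω} (h : x ^ 6 - 20 * x ^ 3 - 8 = 0) :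
    numJ x = 1728 * denJ x := by
  have := numJ_sub_1728_denJ x
  rw [h] at this
  linear_combination this

/-- DISC: every point over `j = 1728` lies in the open unit disc -/
theorem val_lt_one_of_eq_1728 (hv : v (2 : Ω) < 1) {x : Ω} (h : numJ x = 1728 * denJ x) :
    v x < 1 :=
  val_lt_one_of_sextic v hv (sextic_eq_zero_of_eq_1728 v hv h)

/-- DISC: both fixed points of an involution lie in the open unit disc -/
theorem val_lt_one_of_invol (hv : v (2 : Ω) < 1) {w x : Ω} (hw : w ^ 3 = 1)
    (h : x ^ 2 - 2 * w * x - 2 * w ^ 2 = 0) : v x < 1 := by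
  have hvw : v w = 1 := val_eq_one_of_pow_eq_one v (by norm_num) hw
  have hx : x ^ 2 = 2 * (w * x + w ^ 2) := by linear_combination h
  refine val_lt_one_of_pow_eq v (m := 1) (by norm_num) hv ?_ hx
  apply v.map_add_le
  · rw [v.map_mul, hvw, one_mul, pow_one]; exact le_max_right _ _
  · rw [v.map_pow, hvw, one_pow]; exact le_max_left _ _

/-- the fixed points of the involution `inr (c, c)` lie over `j = 1728` -/
theorem sextic_eq_zero_of_invol {ω : Ω} (hω : ω ^ 2 + ω + 1 = 0) (c : Fin 3) {x : Ω}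
    (h : x ^ 2 - 2 * ω ^ (c : ℕ) * x - 2 * (ω ^ (c : ℕ)) ^ 2 = 0) :
    x ^ 6 - 20 * x ^ 3 - 8 = 0 := by
  rw [← prod_invol hω x]
  exact Finset.prod_eq_zero (Finset.mem_univ c) h

/-- DISC: for `g ≠ 1`, a fixed point of `g` in the open unit disc lies over `j = 0` or
`j = 1728` -/
theorem over_of_fixH (hv : v (2 : Ω) < 1) {ω : Ω} (hω : ω ^ 2 + ω + 1 = 0) {g : Idx}
    (hg : g ≠ Sum.inl 0) {x : Ω} (hx : fixH ω g x = 0) (hvx : v x < 1) :
    numJ x = 0 ∨ numJ x = 1728 * denJ x := by
  have h3 := three_ne_zero_of_val v hv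
  have hω3 := omega_pow_three hω
  rcases g with a | ⟨a, c⟩
  · left
    have ha : a ≠ 0 := fun h => hg (by rw [h])
    rw [fixH_inl] at hx
    have hx0 : x = 0 :=
      (mul_eq_zero.mp hx).resolve_left (omega_pow_sub_one_ne_zero hω h3 ha)
    rw [hx0]; unfold numJ; ring
  · by_cases hac : a = c
    · right
      subst hac
      rw [fixH_inr_self, neg_eq_zero] at hx
      exact eq_1728_of_sextic_eq_zero (sextic_eq_zero_of_invol hω a hx)
    · left
      obtain ⟨hab, hbc⟩ := third_ne hac
      rw [fixH_inr_of_ne hω hab hbc hac, neg_eq_zero] at hx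
      rcases mul_eq_zero.mp hx with h | h
      · have hx' : x = -(2 * ω ^ ((-(a + c) : Fin 3) : ℕ)) := by linear_combination h
        have h8 : x ^ 3 + 8 = 0 := by
          rw [hx']
          linear_combination (-8 : Ω) * pow_fin_pow_three hω3 (-(a + c))
        unfold numJ; rw [h8]; ring
      · exfalso
        have hx' : x = ω ^ ((-(a + c) : Fin 3) : ℕ) := by linear_combination h
        have : v x = 1 :=
          val_eq_one_of_pow_eq_one v (n := 3) (by norm_num)
            (by rw [hx']; exact pow_fin_pow_three hω3 _)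
        rw [this] at hvx
        exact lt_irrefl _ hvx

/-- DISC: for `g ≠ 1`, the number of fixed points of `g` in the open unit disc is `iH g`
(`s` a square root of `3`; `2 ≠ 0`) -/
theorem card_fixH_disc (hv : v (2 : Ω) < 1) (h2 : (2 : Ω) ≠ 0) {ω : Ω}
    (hω : ω ^ 2 + ω + 1 = 0) {s : Ω} (hs : s ^ 2 = 3) {g : Idx} (hg : g ≠ Sum.inl 0) :
    Nat.card {x : Ω // fixH ω g x = 0 ∧ v x < 1} = iH g := by
  classical
  have h3 := three_ne_zero_of_val v hv
  have hω3 := omega_pow_three hω
  rcases g with a | ⟨a, c⟩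
  · have ha : a ≠ 0 := fun h => hg (by rw [h])
    have : iH (Sum.inl a) = 1 := by simp [iH, ha]
    rw [this, Nat.subtype_card {0}]
    · simp
    · intro x
      rw [Finset.mem_singleton, fixH_inl]
      constructor
      · rintro rfl
        exact ⟨mul_zero _, by rw [v.map_zero]; exact zero_lt_one⟩
      · rintro ⟨hx, -⟩
        exact (mul_eq_zero.mp hx).resolve_left (omega_pow_sub_one_ne_zero hω h3 ha)
  · by_cases hac : a = c
    · subst hac
      have : iH (Sum.inr (a, a)) = 2 := by simp [iH]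
      rw [this, Nat.subtype_card {ω ^ (a : ℕ) * (1 + s), ω ^ (a : ℕ) * (1 - s)}]
      · apply Finset.card_pair
        intro h
        have hs0 : s ≠ 0 := by
          intro h0; rw [h0] at hs; apply h3; rw [← hs]; ring
        have : ω ^ (a : ℕ) * (2 * s) = 0 := by linear_combination h
        rcases mul_eq_zero.mp this with h' | h'
        · exact omega_pow_ne_zero hω a h'
        · rcases mul_eq_zero.mp h' with h'' | h''
          · exact h2 h''
          · exact hs0 h''
      · intro x
        rw [Finset.mem_insert, Finset.mem_singleton, fixH_inr_self, neg_eq_zero]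
        have hfac := invol_factor hs (ω ^ (a : ℕ)) x
        constructor
        · intro hx
          have hq : x ^ 2 - 2 * ω ^ (a : ℕ) * x - 2 * (ω ^ (a : ℕ)) ^ 2 = 0 := by
            rw [hfac]
            rcases hx with hx | hx
            · rw [hx, sub_self, zero_mul]
            · rw [hx, sub_self, mul_zero]
          exact ⟨hq, val_lt_one_of_invol v hv (pow_fin_pow_three hω3 a) hq⟩
        · rintro ⟨hx, -⟩
          rw [hfac] at hx
          rcases mul_eq_zero.mp hx with h | h
          · left; exact sub_eq_zero.mp h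
          · right; exact sub_eq_zero.mp h
    · have : iH (Sum.inr (a, c)) = 1 := by simp [iH, hac]
      obtain ⟨hab, hbc⟩ := third_ne hac
      rw [this, Nat.subtype_card {-(2 * ω ^ ((-(a + c) : Fin 3) : ℕ))}]
      · simp
      · intro x
        rw [Finset.mem_singleton, fixH_inr_of_ne hω hab hbc hac, neg_eq_zero]
        have hvb : v (ω ^ ((-(a + c) : Fin 3) : ℕ)) = 1 :=
          val_eq_one_of_pow_eq_one v (n := 3) (by norm_num) (pow_fin_pow_three hω3 _)
        constructor
        · rintro rfl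
          refine ⟨by ring, ?_⟩
          rw [v.map_neg, v.map_mul, hvb, mul_one]; exact hv
        · rintro ⟨hx, hvx⟩
          rcases mul_eq_zero.mp hx with h | h
          · linear_combination h
          · exfalso
            have hx' : x = ω ^ ((-(a + c) : Fin 3) : ℕ) := by linear_combination h
            rw [hx', hvb] at hvx
            exact lt_irrefl _ hvx

/-- there are exactly `4 = 12 / 3` points over `j = 0` -/
theorem card_over_zero (hv : v (2 : Ω) < 1) (h2 : (2 : Ω) ≠ 0) {ω : Ω}
    (hω : ω ^ 2 + ω + 1 = 0) : Nat.card {x : Ω // numJ x = 0} = 4 := by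
  classical
  have h3 := three_ne_zero_of_val v hv
  have h27 := twentyseven_ne_zero_of_val v hv
  have hinj : Function.Injective (fun b : Fin 3 => -(2 * ω ^ (b : ℕ))) := by
    intro b b' h
    apply omega_pow_injective hω h3
    have : 2 * (ω ^ (b : ℕ) - ω ^ (b' : ℕ)) = 0 := by
      simp only at h; linear_combination -h
    exact sub_eq_zero.mp ((mul_eq_zero.mp this).resolve_left h2)
  rw [Nat.subtype_card (insert 0 (Finset.univ.image (fun b : Fin 3 => -(2 * ω ^ (b : ℕ)))))]
  · rw [Finset.card_insert_of_notMem, Finset.card_image_of_injective _ hinj]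
    · simp
    · rw [Finset.mem_image]
      rintro ⟨b, -, hb⟩
      have : 2 * ω ^ (b : ℕ) = 0 := by linear_combination -hb
      rcases mul_eq_zero.mp this with h | h
      · exact h2 h
      · exact omega_pow_ne_zero hω b h
  · intro x
    rw [Finset.mem_insert, Finset.mem_image]
    unfold numJ
    constructor
    · rintro (rfl | ⟨b, -, rfl⟩)
      · ring
      · have : (-(2 * ω ^ (b : ℕ))) ^ 3 + 8 = 0 := by
          linear_combination (-8 : Ω) * pow_fin_pow_three (omega_pow_three hω) b
        rw [this]; ring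
    · intro h
      rcases mul_eq_zero.mp h with h | h
      · rcases mul_eq_zero.mp h with h | h
        · exact absurd h h27
        · left; simpa using h
      · right
        have h' : x ^ 3 + 8 = 0 := by simpa using h
        rw [← prod_add_two_mul hω x] at h'
        obtain ⟨b, -, hb⟩ := Finset.prod_eq_zero_iff.mp h'
        exact ⟨b, Finset.mem_univ _, by linear_combination -hb⟩

/-- the six points over `j = 1728`, indexed by `Fin 3 × Bool` -/
def pt1728 (ω s : Ω) (p : Fin 3 × Bool) : Ω :=
  ω ^ (p.1 : ℕ) * (if p.2 then 1 + s else 1 - s)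

theorem pt1728_injective (h2 : (2 : Ω) ≠ 0) (h3 : (3 : Ω) ≠ 0) {ω : Ω}
    (hω : ω ^ 2 + ω + 1 = 0) {s : Ω} (hs : s ^ 2 = 3) : Function.Injective (pt1728 ω s) := by
  have hω3 := omega_pow_three hω
  have hs0 : s ≠ 0 := by
    intro h0; rw [h0] at hs; apply h3; rw [← hs]; ring
  have hp : (1 + s) * (1 - s) = -2 := by linear_combination -hs
  have hp1 : (1 + s) ≠ 0 := by
    intro h; rw [h, zero_mul] at hp; exact h2 (by linear_combination hp)
  have hm1 : (1 - s) ≠ 0 := by
    intro h; rw [h, mul_zero] at hp; exact h2 (by linear_combination hp)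
  have hcube : ∀ p : Fin 3 × Bool, (pt1728 ω s p) ^ 3 = if p.2 then 10 + 6 * s else 10 - 6 * s := by
    rintro ⟨c, b⟩
    unfold pt1728
    rw [mul_pow, pow_fin_pow_three hω3 c, one_mul]
    cases b
    · simp only [Bool.false_eq_true, if_false]; linear_combination (3 - s) * hs
    · simp only [if_true]; linear_combination (3 + s) * hs
  have h12 : (12 : Ω) * s ≠ 0 := by
    have : (12 : Ω) = 2 ^ 2 * 3 := by norm_num
    rw [this]
    exact mul_ne_zero (mul_ne_zero (pow_ne_zero 2 h2) h3) hs0
  rintro ⟨c, b⟩ ⟨c', b'⟩ h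
  have hc := congrArg (· ^ 3) h
  simp only [hcube] at hc
  have hb : b = b' := by
    cases b <;> cases b'
    · rfl
    · exfalso; simp only [Bool.false_eq_true, if_false, if_true] at hc
      exact h12 (by linear_combination -hc)
    · exfalso; simp only [Bool.false_eq_true, if_false, if_true] at hc
      exact h12 (by linear_combination hc)
    · rfl
  subst hb
  have hne : (if b then 1 + s else 1 - s) ≠ 0 := by
    cases b
    · simpa using hm1
    · simpa using hp1
  have : ω ^ (c : ℕ) = ω ^ (c' : ℕ) := by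
    unfold pt1728 at h
    exact mul_right_cancel₀ hne h
  have hcc : c = c' := omega_pow_injective hω h3 this
  rw [hcc]

/-- there are exactly `6 = 12 / 2` points over `j = 1728` (`s` a square root of `3`) -/
theorem card_over_1728 (hv : v (2 : Ω) < 1) (h2 : (2 : Ω) ≠ 0) {ω : Ω}
    (hω : ω ^ 2 + ω + 1 = 0) {s : Ω} (hs : s ^ 2 = 3) :
    Nat.card {x : Ω // numJ x = 1728 * denJ x} = 6 := by
  classical
  have h3 := three_ne_zero_of_val v hv
  rw [Nat.subtype_card (Finset.univ.image (pt1728 ω s))]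
  · rw [Finset.card_image_of_injective _ (pt1728_injective h2 h3 hω hs)]
    simp
  · intro x
    rw [Finset.mem_image]
    constructor
    · rintro ⟨⟨c, b⟩, -, rfl⟩
      apply eq_1728_of_sextic_eq_zero
      apply sextic_eq_zero_of_invol hω c
      rw [invol_factor hs]
      unfold pt1728
      cases b
      · simp
      · simp
    · intro h
      have h6 := sextic_eq_zero_of_eq_1728 v hv h
      rw [← prod_invol hω x] at h6
      obtain ⟨c, -, hc⟩ := Finset.prod_eq_zero_iff.mp h6
      rw [invol_factor hs] at hc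
      rcases mul_eq_zero.mp hc with h' | h'
      · exact ⟨(c, true), Finset.mem_univ _, by unfold pt1728; simp [sub_eq_zero.mp h']⟩
      · exact ⟨(c, false), Finset.mem_univ _, by unfold pt1728; simp [sub_eq_zero.mp h']⟩

/-- for `g ≠ 1`: the fixed points of `g` over `j ∈ {0, 1728}` are exactly the fixed points in
the open unit disc -/
theorem fix_over_iff_fix_disc (hv : v (2 : Ω) < 1) {ω : Ω} (hω : ω ^ 2 + ω + 1 = 0) {g : Idx}
    (hg : g ≠ Sum.inl 0) (x : Ω) :
    (fixH ω g x = 0 ∧ (numJ x = 0 ∨ numJ x = 1728 * denJ x)) ↔ (fixH ω g x = 0 ∧ v x < 1) := by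
  constructor
  · rintro ⟨hx, h | h⟩
    · exact ⟨hx, val_lt_one_of_numJ_eq_zero v hv h⟩
    · exact ⟨hx, val_lt_one_of_eq_1728 v hv h⟩
  · rintro ⟨hx, hvx⟩
    exact ⟨hx, over_of_fixH v hv hω hg hx hvx⟩

/-- for `g ≠ 1`: the number of fixed points of `g` over `j ∈ {0, 1728}` is `iH g` -/
theorem card_fixH_over (hv : v (2 : Ω) < 1) (h2 : (2 : Ω) ≠ 0) {ω : Ω}
    (hω : ω ^ 2 + ω + 1 = 0) {s : Ω} (hs : s ^ 2 = 3) {g : Idx} (hg : g ≠ Sum.inl 0) :
    Nat.card {x : Ω // fixH ω g x = 0 ∧ (numJ x = 0 ∨ numJ x = 1728 * denJ x)} = iH g := by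
  rw [← card_fixH_disc v hv h2 hω hs hg]
  exact Nat.card_congr (Equiv.subtypeEquivRight (fix_over_iff_fix_disc v hv hω hg))

/-- the points over `j = 0` and over `j = 1728` are different points -/
theorem not_over_both (h2 : (2 : Ω) ≠ 0) (h3 : (3 : Ω) ≠ 0) {x : Ω} (h0 : numJ x = 0)
    (h1 : numJ x = 1728 * denJ x) : False := by
  have h1728 : (1728 : Ω) ≠ 0 := by
    have : (1728 : Ω) = 2 ^ 6 * 3 ^ 3 := by norm_num
    rw [this]; exact mul_ne_zero (pow_ne_zero 6 h2) (pow_ne_zero 3 h3)
  have hd : denJ x = 0 := by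
    rw [h0] at h1
    exact (mul_eq_zero.mp h1.symm).resolve_left h1728
  have hx3 : x ^ 3 = 1 := by
    unfold denJ at hd
    have : x ^ 3 - 1 = 0 := by simpa using hd
    linear_combination this
  unfold numJ at h0
  rw [hx3] at h0
  have : (3 : Ω) ^ 9 = 0 := by linear_combination h0
  exact pow_ne_zero 9 h3 this

end Disc

end Fermat.Agent.S18.C.HesseDisc
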