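import Mathlib

/-!
# PROJECT H (S18), block C0: the Legendre cover of the `j`-line (used at `ℓ = 3`)

`jL la = 256 (la^2 - la + 1)^3 / (la^2 (la - 1)^2)` and the six Moebius maps
`la, 1 - la, 1/la, 1/(1 - la), (la - 1)/la, la/(la - 1)` (the anharmonic group `S3`).

Everything is stated first as a POLYNOMIAL identity in an arbitrary commutative ring `R`
(so that it can be specialised to `Qbar`, to a field of characteristic `3`, to a discrete valuation
ring `W`, to polynomial rings, to function fields ...), and then in the quotient form in a field.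

Conventions.  The six maps are indexed by `Fin 6` in the order above; the map `g` is
`la ↦ topL g la / botL g la` with `topL g la = cA g * la + cB g`, `botL g la = cC g * la + cD g`.
`fixL g la = topL g la - la * botL g la` is the numerator of `g la - la` (fixed-point polynomial).

Main statements.
* `numH_top_bot`, `denH_top_bot`, `jL_actL` : invariance of `jL` (L1).
* `numL_sub_1728_denL`, `jL_sub_1728` : `jL - 1728` (L2).
* `prod_botL_mul_sub_topL`, `exists_botL_mul_eq_topL` : the fibre of `jL` through `la` is the orbit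
  of `la` (L3).
* `numL_of_three_eq_zero`, `fixL_eq_of_three_eq_zero` : characteristic `3` (L4).
* `fixL_one` ... `fixL_five` : the fixed points (L5).
-/

set_option autoImplicit false

namespace Fermat.Agent.S18.C.Legendre

section Ring

variable {R : Type*} [CommRing R]

/-- numerator of the Legendre `j`-function -/
def numL (la : R) : R := 256 * (la ^ 2 - la + 1) ^ 3

/-- denominator of the Legendre `j`-function -/
def denL (la : R) : R := la ^ 2 * (la - 1) ^ 2

/-- homogeneous numerator: `numL (t / b) = numH t b / b ^ 6` -/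
def numH (t b : R) : R := 256 * (t ^ 2 - t * b + b ^ 2) ^ 3

/-- homogeneous denominator: `denL (t / b) = denH t b / b ^ 6` -/
def denH (t b : R) : R := t ^ 2 * (t - b) ^ 2 * b ^ 2

theorem numH_one (la : R) : numH la 1 = numL la := by
  unfold numH numL; ring

theorem denH_one (la : R) : denH la 1 = denL la := by
  unfold denH denL; ring

/-- coefficient `a` of the Moebius map `g la = (a la + b) / (c la + d)` -/
def cA : Fin 6 → R := ![1, -1, 0, 0, 1, 1]
/-- coefficient `b` of the Moebius map `g la = (a la + b) / (c la + d)` -/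
def cB : Fin 6 → R := ![0, 1, 1, 1, -1, 0]
/-- coefficient `c` of the Moebius map `g la = (a la + b) / (c la + d)` -/
def cC : Fin 6 → R := ![0, 0, 1, -1, 1, 1]
/-- coefficient `d` of the Moebius map `g la = (a la + b) / (c la + d)` -/
def cD : Fin 6 → R := ![1, 1, 0, 1, 0, -1]

/-- numerator of `g la` -/
def topL (g : Fin 6) (la : R) : R := cA g * la + cB g

/-- denominator of `g la` -/
def botL (g : Fin 6) (la : R) : R := cC g * la + cD g

/-- numerator of `g la - la`: the fixed-point polynomial of `g` -/
def fixL (g : Fin 6) (la : R) : R := topL g la - la * botL g la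

@[simp] theorem topL_zero (la : R) : topL 0 la = la := by simp [topL, cA, cB]
@[simp] theorem topL_one (la : R) : topL 1 la = 1 - la := by simp [topL, cA, cB]; ring
@[simp] theorem topL_two (la : R) : topL 2 la = 1 := by simp [topL, cA, cB]
@[simp] theorem topL_three (la : R) : topL 3 la = 1 := by simp [topL, cA, cB]
@[simp] theorem topL_four (la : R) : topL 4 la = la - 1 := by simp [topL, cA, cB]; ring
@[simp] theorem topL_five (la : R) : topL 5 la = la := by simp [topL, cA, cB]

@[simp] theorem botL_zero (la : R) : botL 0 la = 1 := by simp [botL, cC, cD]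
@[simp] theorem botL_one (la : R) : botL 1 la = 1 := by simp [botL, cC, cD]
@[simp] theorem botL_two (la : R) : botL 2 la = la := by simp [botL, cC, cD]
@[simp] theorem botL_three (la : R) : botL 3 la = 1 - la := by simp [botL, cC, cD]; ring
@[simp] theorem botL_four (la : R) : botL 4 la = la := by simp [botL, cC, cD]
@[simp] theorem botL_five (la : R) : botL 5 la = la - 1 := by simp [botL, cC, cD]; ring

/-- (L1), numerator: the homogeneous numerator is invariant under the six substitutions -/
theorem numH_top_bot (g : Fin 6) (la : R) : numH (topL g la) (botL g la) = numL la := by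
  fin_cases g <;> simp [numH, numL] <;> ring

/-- (L1), denominator: the homogeneous denominator is invariant under the six substitutions -/
theorem denH_top_bot (g : Fin 6) (la : R) : denH (topL g la) (botL g la) = denL la := by
  fin_cases g <;> simp [denH, denL] <;> ring

/-- (L2) `numL - 1728 denL = 64 ((la + 1) (la - 2) (2 la - 1))^2` -/
theorem numL_sub_1728_denL (la : R) :
    numL la - 1728 * denL la = 64 * ((la + 1) * (la - 2) * (2 * la - 1)) ^ 2 := by
  unfold numL denL; ring

/-- (L3) the fibre of `jL` through `la` is the orbit of `la`: polynomial form.  The left side is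
`∏ g, (botL g la * X - topL g la)`, i.e. up to the denominators `∏ g, (X - g la)`. -/
theorem prod_botL_mul_sub_topL (la X : R) :
    ∏ g : Fin 6, (botL g la * X - topL g la) =
      (la ^ 2 - la + 1) ^ 3 * (X ^ 2 * (X - 1) ^ 2) - (X ^ 2 - X + 1) ^ 3 * (la ^ 2 * (la - 1) ^ 2) := by
  simp only [Fin.prod_univ_succ, Fin.prod_univ_zero]
  simp [Fin.succ]
  ring

/-- (L3) in the `numL / denL` form -/
theorem prod_botL_mul_sub_topL' (la X : R) :
    256 * ∏ g : Fin 6, (botL g la * X - topL g la) = numL la * denL X - numL X * denL la := by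
  rw [prod_botL_mul_sub_topL]; unfold numL denL; ring

/-- (L5) fixed-point polynomials: `g = 1 - la` fixes `la = 1/2` -/
theorem fixL_one (la : R) : fixL 1 la = -(2 * la - 1) := by simp [fixL]; ring

/-- (L5) `g = 1/la` fixes `la = 1` (a cusp) and `la = -1` -/
theorem fixL_two (la : R) : fixL 2 la = -((la - 1) * (la + 1)) := by simp [fixL]; ring

/-- (L5) `g = 1/(1 - la)` (order `3`) fixes the two roots of `la^2 - la + 1` -/
theorem fixL_three (la : R) : fixL 3 la = la ^ 2 - la + 1 := by simp [fixL]; ring

/-- (L5) `g = (la - 1)/la` (order `3`) fixes the two roots of `la^2 - la + 1` -/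
theorem fixL_four (la : R) : fixL 4 la = -(la ^ 2 - la + 1) := by simp [fixL]; ring

/-- (L5) `g = la/(la - 1)` fixes `la = 0` (a cusp) and `la = 2` -/
theorem fixL_five (la : R) : fixL 5 la = -(la * (la - 2)) := by simp [fixL]; ring

theorem fixL_zero (la : R) : fixL 0 la = 0 := by simp [fixL]

/-- (L4) the order of vanishing of `g la - la` at `la = -1` in characteristic `3` -/
def iL : Fin 6 → ℕ := ![0, 1, 1, 2, 2, 1]

/-- (L4) the unit factor of `fixL g la` at `la = -1` in characteristic `3` -/
def uL (g : Fin 6) (la : R) : R :=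
  match g with
  | 0 => 0
  | 1 => 1
  | 2 => 1 - la
  | 3 => 1
  | 4 => -1
  | 5 => -la

/-- (L4) `∑_{g ≠ 1} i(g) = 7`, the different exponent of `jL` at `la = -1` in characteristic `3` -/
theorem sum_iL : ∑ g : Fin 6, iL g = 7 := by decide

/-- (L4) in characteristic `3`: `numL la = (la + 1)^6` -/
theorem numL_of_three_eq_zero (h3 : (3 : R) = 0) (la : R) : numL la = (la + 1) ^ 6 := by
  have h1 : la ^ 2 - la + 1 = (la + 1) ^ 2 := by linear_combination (-la) * h3
  have h2 : (256 : R) = 1 := by linear_combination 85 * h3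
  unfold numL
  rw [h1, h2]; ring

/-- (L4) in characteristic `3`: `g la - la = (la + 1)^(i g) * unit / botL g la` -/
theorem fixL_eq_of_three_eq_zero (h3 : (3 : R) = 0) (g : Fin 6) (la : R) :
    fixL g la = (la + 1) ^ iL g * uL g la := by
  fin_cases g
  · simp [fixL, uL]
  · simp [fixL, uL, iL]; linear_combination (-la) * h3
  · simp [fixL, uL, iL]; ring
  · simp [fixL, uL, iL]; linear_combination (-la) * h3
  · simp [fixL, uL, iL]; linear_combination (la) * h3
  · simp [fixL, uL, iL]; linear_combination (la) * h3

/-- (L4) the unit factors at `la = -1`: values `1, 2, 1, -1, 1` -/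
theorem uL_neg_one (g : Fin 6) : uL g (-1 : R) = ![0, 1, 2, 1, -1, 1] g := by
  fin_cases g
  · simp [uL]
  · simp [uL]
  · simp [uL]; norm_num
  · simp [uL]
  · simp [uL]
  · simp [uL]

/-- (L4) the denominators at `la = -1`: values `1, 1, -1, 2, -1, -2` -/
theorem botL_neg_one (g : Fin 6) : botL g (-1 : R) = ![1, 1, -1, 2, -1, -2] g := by
  fin_cases g
  · simp
  · simp
  · simp
  · simp; norm_num
  · simp
  · simp; norm_num

end Ring

section Field

variable {E : Type*} [Field E]

/-- the Legendre `j`-function -/
noncomputable def jL (la : E) : E := numL la / denL la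

theorem jL_def (la : E) : jL la = 256 * (la ^ 2 - la + 1) ^ 3 / (la ^ 2 * (la - 1) ^ 2) := rfl

/-- the six Moebius maps of the anharmonic group -/
noncomputable def actL (g : Fin 6) (la : E) : E := topL g la / botL g la

theorem jL_div {t b : E} (hb : b ≠ 0) : jL (t / b) = numH t b / denH t b := by
  unfold jL numL denL numH denH
  have e1 : 256 * ((t / b) ^ 2 - t / b + 1) ^ 3 = 256 * (t ^ 2 - t * b + b ^ 2) ^ 3 / b ^ 6 := by
    field_simp
  have e2 : (t / b) ^ 2 * (t / b - 1) ^ 2 = t ^ 2 * (t - b) ^ 2 * b ^ 2 / b ^ 6 := by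
    field_simp
  rw [e1, e2, div_div_div_cancel_right₀ (pow_ne_zero 6 hb)]

/-- (L1) `jL (g la) = jL la` -/
theorem jL_actL (g : Fin 6) {la : E} (hb : botL g la ≠ 0) : jL (actL g la) = jL la := by
  unfold actL
  rw [jL_div hb, numH_top_bot, denH_top_bot]; rfl

/-- (L2) -/
theorem jL_sub_1728 {la : E} (h0 : la ≠ 0) (h1 : la ≠ 1) :
    jL la - 1728 = 64 * ((la + 1) * (la - 2) * (2 * la - 1)) ^ 2 / denL la := by
  have hd : denL la ≠ 0 := by
    unfold denL
    exact mul_ne_zero (pow_ne_zero 2 h0) (pow_ne_zero 2 (sub_ne_zero.mpr h1))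
  rw [← numL_sub_1728_denL, jL]
  field_simp

/-- (L3) if `jL x = jL la` (denominators nonzero, `2 ≠ 0`) then `x = g la` for one of the six
Moebius maps `g`, in the form `botL g la * x = topL g la` -/
theorem exists_botL_mul_eq_topL (h2 : (2 : E) ≠ 0) {x la : E} (hx : denL x ≠ 0)
    (hla : denL la ≠ 0) (h : jL x = jL la) : ∃ g : Fin 6, botL g la * x = topL g la := by
  have h256 : (256 : E) ≠ 0 := by
    have : (256 : E) = 2 ^ 8 := by norm_num
    rw [this]; exact pow_ne_zero 8 h2
  have hp : ∏ g : Fin 6, (botL g la * x - topL g la) = 0 := by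
    have := prod_botL_mul_sub_topL' la x
    unfold jL at h
    rw [div_eq_div_iff hx hla] at h
    rw [h, sub_self] at this
    exact (mul_eq_zero.mp this).resolve_left h256
  obtain ⟨g, -, hg⟩ := Finset.prod_eq_zero_iff.mp hp
  exact ⟨g, sub_eq_zero.mp hg⟩

theorem denL_ne_zero_iff {la : E} : denL la ≠ 0 ↔ la ≠ 0 ∧ la ≠ 1 := by
  unfold denL
  rw [mul_ne_zero_iff, pow_ne_zero_iff two_ne_zero, pow_ne_zero_iff two_ne_zero, sub_ne_zero]

/-- away from the cusps `la = 0, 1` all six denominators are nonzero -/
theorem botL_ne_zero (g : Fin 6) {la : E} (hla : denL la ≠ 0) : botL g la ≠ 0 := by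
  obtain ⟨h0, h1⟩ := denL_ne_zero_iff.mp hla
  have h1' : (1 : E) - la ≠ 0 := sub_ne_zero.mpr (Ne.symm h1)
  have h1'' : la - 1 ≠ 0 := sub_ne_zero.mpr h1
  fin_cases g
  · simp
  · simp
  · simpa using h0
  · simpa using h1'
  · simpa using h0
  · simpa using h1''

/-- (L3) if `jL x = jL la` (denominators nonzero, `2 ≠ 0`) then `x = g la` for one of the six
Moebius maps `g` -/
theorem exists_eq_actL (h2 : (2 : E) ≠ 0) {x la : E} (hx : denL x ≠ 0)
    (hla : denL la ≠ 0) (h : jL x = jL la) : ∃ g : Fin 6, x = actL g la := by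
  obtain ⟨g, hg⟩ := exists_botL_mul_eq_topL h2 hx hla h
  refine ⟨g, ?_⟩
  unfold actL
  rw [eq_div_iff (botL_ne_zero g hla), ← hg, mul_comm]

/-- the six maps preserve the complement of the cusps -/
theorem denL_actL_ne_zero (g : Fin 6) {la : E} (hla : denL la ≠ 0) : denL (actL g la) ≠ 0 := by
  have hb := botL_ne_zero g hla
  have h : denL (actL g la) = denL la / botL g la ^ 6 := by
    unfold actL
    rw [← denH_top_bot g la]
    unfold denL denH
    field_simp
  rw [h]
  exact div_ne_zero hla (pow_ne_zero 6 hb)

theorem actL_sub {g : Fin 6} {la : E} (hb : botL g la ≠ 0) :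
    actL g la - la = fixL g la / botL g la := by
  unfold actL fixL; field_simp

end Field

end Fermat.Agent.S18.C.Legendre
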