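import Mathlib
import Fermat.Agent.S18.C.Legendre
import Fermat.Agent.S18.C.HesseDisc

/-!
# PROJECT H (S18), block C0: the Legendre cover, integrality and the residue disc at `ℓ = 3`

The special point of the Legendre cover in characteristic `3` is `la = -1`; we RECENTRE at
`t = la + 1`, so that (as for the Hesse cover) the special point is `t = 0`.

* `numT t = 256 (t^2 - 3 t + 3)^3 = numL (t - 1)`, `denT t = (t-1)^2 (t-2)^2 = denL (t - 1)`;
  `topT g t`, `botT g t`, `fixT g t`: the six Moebius maps in the coordinate `t`;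
  `botT g 0` is a unit when `2` is, `topT g 0` is divisible by `3`.
* Polynomial forms `polyPT`, `polyQT`, `relT j = P - j Q` (degree `6`, leading coefficient `256`;
  `P = X^6` when `3 = 0`; `Q` monic with `Q(0) = 4`), the monic relation and integrality of `t`
  over `R[j]` when `256` is a unit.
* DISC statements for a valuation `v` with `v 3 < 1` (the disc is `v (la + 1) < 1`): every point
  over `j = 0` or `j = 1728` lies in the disc; a fixed point of `g ≠ 1` in the disc lies over `0` or
  `1728`; the number of fixed points of `g ≠ 1` in the disc is `iL g`; `2 = 6/3` points over `0`,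
  `3 = 6/2` points over `1728`.
-/

set_option autoImplicit false

namespace Fermat.Agent.S18.C.LegendreDisc

open Polynomial
open Fermat.Agent.S18.C.Legendre
open Fermat.Agent.S18.C.DiscBasic

section Ring

variable {R : Type*} [CommRing R]

/-- numerator of `jL` in the coordinate `t = la + 1` -/
def numT (t : R) : R := 256 * (t ^ 2 - 3 * t + 3) ^ 3

/-- denominator of `jL` in the coordinate `t = la + 1` -/
def denT (t : R) : R := (t - 1) ^ 2 * (t - 2) ^ 2

theorem numT_eq (t : R) : numT t = numL (t - 1) := by unfold numT numL; ring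
theorem denT_eq (t : R) : denT t = denL (t - 1) := by unfold denT denL; ring
theorem numT_add_one (la : R) : numT (la + 1) = numL la := by rw [numT_eq]; ring_nf
theorem denT_add_one (la : R) : denT (la + 1) = denL la := by rw [denT_eq]; ring_nf

/-- numerator of `g` in the coordinate `t`: `g(la) + 1 = topT g t / botT g t`, `t = la + 1` -/
def topT (g : Fin 6) (t : R) : R := topL g (t - 1) + botL g (t - 1)

/-- denominator of `g` in the coordinate `t` -/
def botT (g : Fin 6) (t : R) : R := botL g (t - 1)

/-- numerator of `g t - t` in the coordinate `t` -/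
def fixT (g : Fin 6) (t : R) : R := topT g t - t * botT g t

theorem fixT_eq (g : Fin 6) (t : R) : fixT g t = fixL g (t - 1) := by
  unfold fixT topT botT fixL; ring

theorem botT_zero (g : Fin 6) : botT g (0 : R) = ![1, 1, -1, 2, -1, -2] g := by
  unfold botT; rw [zero_sub]; exact botL_neg_one g

/-- every `m_g` (in the coordinate `t`) has `b_g` divisible by `3` -/
theorem topT_zero (g : Fin 6) : topT g (0 : R) = 3 * ![0, 1, 0, 1, -1, -1] g := by
  unfold topT
  rw [zero_sub]
  fin_cases g
  · simp
  · simp; norm_num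
  · simp
  · simp; norm_num
  · simp; norm_num
  · simp; norm_num

theorem three_dvd_topT_zero (g : Fin 6) : (3 : R) ∣ topT g 0 := by
  rw [topT_zero]; exact dvd_mul_right _ _

/-- every `m_g` (in the coordinate `t`) has `d_g` a unit as soon as `2` is a unit -/
theorem isUnit_botT_zero (h2 : IsUnit (2 : R)) (g : Fin 6) : IsUnit (botT g (0 : R)) := by
  rw [botT_zero]
  fin_cases g
  · simp
  · simp
  · simp
  · simpa using h2
  · simp
  · simpa using h2.neg

/-- in characteristic `3`: `numT t = t^6` -/
theorem numT_of_three_eq_zero (h3 : (3 : R) = 0) (t : R) : numT t = t ^ 6 := by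
  rw [numT_eq, numL_of_three_eq_zero h3]; ring_nf

/-- in characteristic `3`: `g t - t = t^(i g) * unit / botT g t` -/
theorem fixT_eq_of_three_eq_zero (h3 : (3 : R) = 0) (g : Fin 6) (t : R) :
    fixT g t = t ^ iL g * uL g (t - 1) := by
  rw [fixT_eq, fixL_eq_of_three_eq_zero h3]; ring_nf

end Ring

section Poly

variable (R : Type*) [CommRing R]

/-- `256 (X^2 - 3 X + 3)^3` -/
noncomputable def polyPT : R[X] := 256 * (X ^ 2 - 3 * X + 3) ^ 3

/-- `(X - 1)^2 (X - 2)^2` -/
noncomputable def polyQT : R[X] := (X - 1) ^ 2 * (X - 2) ^ 2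

/-- the relation `P(X) - j Q(X)` satisfied by `t` over `R[j]` -/
noncomputable def relT (j : R) : R[X] := polyPT R - C j * polyQT R

variable {R}

@[simp] theorem eval_polyPT (t : R) : (polyPT R).eval t = numT t := by
  simp [polyPT, numT]

@[simp] theorem eval_polyQT (t : R) : (polyQT R).eval t = denT t := by
  simp [polyQT, denT]

@[simp] theorem eval_relT (j t : R) : (relT R j).eval t = numT t - j * denT t := by
  simp [relT]

theorem map_polyPT {S : Type*} [CommRing S] (f : R →+* S) : (polyPT R).map f = polyPT S := by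
  simp [polyPT]

theorem map_polyQT {S : Type*} [CommRing S] (f : R →+* S) : (polyQT R).map f = polyQT S := by
  simp [polyQT]

theorem map_relT {S : Type*} [CommRing S] (f : R →+* S) (j : R) :
    (relT R j).map f = relT S (f j) := by
  simp [relT, map_polyPT, map_polyQT]

theorem aeval_polyPT {S : Type*} [CommRing S] [Algebra R S] (t : S) :
    aeval t (polyPT R) = numT t := by
  simp [polyPT, numT, map_ofNat]

theorem aeval_polyQT {S : Type*} [CommRing S] [Algebra R S] (t : S) :
    aeval t (polyQT R) = denT t := by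
  simp [polyQT, denT, map_ofNat]

variable (R)

theorem polyPT_eq : polyPT R = 256 * X ^ 6 - 2304 * X ^ 5 + 9216 * X ^ 4 - 20736 * X ^ 3
    + 27648 * X ^ 2 - 20736 * X + 6912 := by
  unfold polyPT; ring

theorem polyQT_eq : polyQT R = X ^ 4 - 6 * X ^ 3 + 13 * X ^ 2 - 12 * X + 4 := by
  unfold polyQT; ring

theorem natDegree_polyQT_le : (polyQT R).natDegree ≤ 4 := by
  unfold polyQT; compute_degree

theorem polyQT_monic : (polyQT R).Monic := by
  have h1 : (X - 1 : R[X]) = X - C 1 := by simp
  have h2 : (X - 2 : R[X]) = X - C 2 := by rw [map_ofNat]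
  unfold polyQT
  rw [h1, h2]
  exact ((monic_X_sub_C 1).pow 2).mul ((monic_X_sub_C 2).pow 2)

theorem coeff_zero_polyQT : (polyQT R).coeff 0 = 4 := by
  rw [coeff_zero_eq_eval_zero, eval_polyQT]; unfold denT; norm_num

theorem natDegree_polyPT_le : (polyPT R).natDegree ≤ 6 := by
  unfold polyPT; compute_degree

theorem coeff_polyPT_six : (polyPT R).coeff 6 = 256 := by
  rw [polyPT_eq]
  simp [coeff_X_pow, coeff_ofNat_mul, coeff_X]

theorem natDegree_relT_le (j : R) : (relT R j).natDegree ≤ 6 := by
  unfold relT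
  refine (natDegree_sub_le _ _).trans (max_le (natDegree_polyPT_le R) ?_)
  exact (natDegree_C_mul_le _ _).trans ((natDegree_polyQT_le R).trans (by norm_num))

theorem coeff_relT_six (j : R) : (relT R j).coeff 6 = 256 := by
  unfold relT
  rw [coeff_sub, coeff_polyPT_six, coeff_C_mul,
    coeff_eq_zero_of_natDegree_lt (lt_of_le_of_lt (natDegree_polyQT_le R) (by norm_num))]
  ring

/-- in characteristic `3`: `P = X^6` -/
theorem polyPT_of_three_eq_zero (h3 : (3 : R) = 0) : polyPT R = X ^ 6 := by
  have h3' : (3 : R[X]) = 0 := by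
    have h := congrArg (C : R → R[X]) h3
    rwa [map_ofNat, map_zero] at h
  rw [polyPT_eq]
  linear_combination (85 * X ^ 6 - 768 * X ^ 5 + 3072 * X ^ 4 - 6912 * X ^ 3
    + 9216 * X ^ 2 - 6912 * X + 2304) * h3'

/-- the monic relation `u (P - j Q)`, `u = 1/256` -/
noncomputable def monicRelT (u j : R) : R[X] := C u * relT R j

theorem monicRelT_monic {u : R} (hu : u * 256 = 1) (j : R) : (monicRelT R u j).Monic := by
  apply monic_of_natDegree_le_of_coeff_eq_one 6
  · exact (natDegree_C_mul_le _ _).trans (natDegree_relT_le R j)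
  · unfold monicRelT
    rw [coeff_C_mul, coeff_relT_six, hu]

theorem natDegree_monicRelT [Nontrivial R] {u : R} (hu : u * 256 = 1) (j : R) :
    (monicRelT R u j).natDegree = 6 := by
  apply le_antisymm ((natDegree_C_mul_le _ _).trans (natDegree_relT_le R j))
  apply le_natDegree_of_ne_zero
  show (C u * relT R j).coeff 6 ≠ 0
  rw [coeff_C_mul, coeff_relT_six, hu]
  exact one_ne_zero

theorem map_monicRelT {S : Type*} [CommRing S] (f : R →+* S) (u j : R) :
    (monicRelT R u j).map f = monicRelT S (f u) (f j) := by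
  simp [monicRelT, map_relT]

variable {R}

/-- `t` is integral over `R[j]` as soon as `256` is a unit of `R` and `numT t = j denT t` -/
theorem isIntegral_of_numT_eq {S : Type*} [CommRing S] [Algebra R S] {u : R} (hu : u * 256 = 1)
    {j t : S} (h : numT t = j * denT t) : IsIntegral (Algebra.adjoin R {j}) t := by
  classical
  set A := Algebra.adjoin R {j} with hA
  let j' : A := ⟨j, Algebra.self_mem_adjoin_singleton R j⟩
  have hu' : algebraMap R A u * 256 = 1 := by
    have := congrArg (algebraMap R A) hu
    simpa [map_ofNat] using this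
  refine ⟨monicRelT A (algebraMap R A u) j', monicRelT_monic A hu' j', ?_⟩
  rw [eval₂_eq_eval_map, map_monicRelT]
  simp only [monicRelT, eval_mul, eval_C, eval_relT]
  have hj : algebraMap A S j' = j := rfl
  rw [hj, h, sub_self, mul_zero]

end Poly

section Disc

variable {Ω : Type*} [Field Ω] {Γ₀ : Type*} [LinearOrderedCommGroupWithZero Γ₀]
  (v : Valuation Ω Γ₀)

theorem two_ne_zero_of_val (hv : v (3 : Ω) < 1) : (2 : Ω) ≠ 0 :=
  ne_zero_of_val_eq_one v (val_two_of_val_three v hv)

theorem c256_ne_zero_of_val (hv : v (3 : Ω) < 1) : (256 : Ω) ≠ 0 := by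
  have : (256 : Ω) = 2 ^ 8 := by norm_num
  rw [this]; exact pow_ne_zero 8 (two_ne_zero_of_val v hv)

theorem quad_eq_zero_of_numL_eq_zero (hv : v (3 : Ω) < 1) {la : Ω} (h : numL la = 0) :
    la ^ 2 - la + 1 = 0 := by
  unfold numL at h
  rcases mul_eq_zero.mp h with h | h
  · exact absurd h (c256_ne_zero_of_val v hv)
  · simpa using h

theorem numL_eq_zero_of_quad {la : Ω} (h : la ^ 2 - la + 1 = 0) : numL la = 0 := by
  unfold numL; rw [h]; ring

/-- DISC: every point over `j = 0` lies in the open disc `v (la + 1) < 1` -/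
theorem val_lt_one_of_numL_eq_zero (hv : v (3 : Ω) < 1) {la : Ω} (h : numL la = 0) :
    v (la + 1) < 1 := by
  have hq := quad_eq_zero_of_numL_eq_zero v hv h
  have hx : (la + 1) ^ 2 = 3 * ((la + 1) - 1) := by linear_combination hq
  refine val_lt_one_of_pow_eq v (m := 1) (by norm_num) hv ?_ hx
  apply v.map_sub_le
  · rw [pow_one]; exact le_max_right _ _
  · rw [v.map_one]; exact le_max_left _ _

theorem cubic_eq_zero_of_eq_1728 (hv : v (3 : Ω) < 1) {la : Ω} (h : numL la = 1728 * denL la) :
    (la + 1) * (la - 2) * (2 * la - 1) = 0 := by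
  have h1 : 64 * ((la + 1) * (la - 2) * (2 * la - 1)) ^ 2 = 0 := by
    rw [← numL_sub_1728_denL, h, sub_self]
  rcases mul_eq_zero.mp h1 with h1 | h1
  · exfalso
    have : (64 : Ω) = 2 ^ 6 := by norm_num
    rw [this] at h1
    exact pow_ne_zero 6 (two_ne_zero_of_val v hv) h1
  · simpa using h1

theorem eq_1728_of_cubic_eq_zero {la : Ω} (h : (la + 1) * (la - 2) * (2 * la - 1) = 0) :
    numL la = 1728 * denL la := by
  have := numL_sub_1728_denL la
  rw [h] at this
  linear_combination this

theorem val_half_add_one (hv : v (3 : Ω) < 1) {la : Ω} (h : 2 * la - 1 = 0) :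
    v (la + 1) < 1 := by
  have h2 : v (2 : Ω) = 1 := val_two_of_val_three v hv
  have e : 2 * (la + 1) = 3 := by linear_combination h
  have : v (2 : Ω) * v (la + 1) = v 3 := by rw [← v.map_mul, e]
  rw [h2, one_mul] at this
  rw [this]; exact hv

/-- DISC: every point over `j = 1728` lies in the open disc `v (la + 1) < 1` -/
theorem val_lt_one_of_eq_1728 (hv : v (3 : Ω) < 1) {la : Ω} (h : numL la = 1728 * denL la) :
    v (la + 1) < 1 := by
  rcases mul_eq_zero.mp (cubic_eq_zero_of_eq_1728 v hv h) with h' | h'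
  · rcases mul_eq_zero.mp h' with h'' | h''
    · rw [h'', v.map_zero]; exact zero_lt_one
    · have : la + 1 = 3 := by linear_combination h''
      rw [this]; exact hv
  · exact val_half_add_one v hv h'

/-- DISC: for `g ≠ 1`, a fixed point of `g` in the disc lies over `j = 0` or `j = 1728` -/
theorem over_of_fixL (hv : v (3 : Ω) < 1) {g : Fin 6} (hg : g ≠ 0) {la : Ω}
    (hx : fixL g la = 0) (hvx : v (la + 1) < 1) : numL la = 0 ∨ numL la = 1728 * denL la := by
  have h2 : v (2 : Ω) = 1 := val_two_of_val_three v hv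
  fin_cases g
  · exact absurd rfl hg
  · right
    have hx' : fixL 1 la = 0 := hx
    rw [fixL_one, neg_eq_zero] at hx'
    apply eq_1728_of_cubic_eq_zero; rw [hx', mul_zero]
  · have hx' : fixL 2 la = 0 := hx
    rw [fixL_two, neg_eq_zero] at hx'
    rcases mul_eq_zero.mp hx' with h | h
    · exfalso
      have : la + 1 = 2 := by linear_combination h
      rw [this, h2] at hvx
      exact lt_irrefl _ hvx
    · right
      apply eq_1728_of_cubic_eq_zero; rw [h, zero_mul, zero_mul]
  · left
    have hx' : fixL 3 la = 0 := hx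
    rw [fixL_three] at hx'
    exact numL_eq_zero_of_quad hx'
  · left
    have hx' : fixL 4 la = 0 := hx
    rw [fixL_four, neg_eq_zero] at hx'
    exact numL_eq_zero_of_quad hx'
  · have hx' : fixL 5 la = 0 := hx
    rw [fixL_five, neg_eq_zero] at hx'
    rcases mul_eq_zero.mp hx' with h | h
    · exfalso
      rw [h, zero_add, v.map_one] at hvx
      exact lt_irrefl _ hvx
    · right
      apply eq_1728_of_cubic_eq_zero; rw [h, mul_zero, zero_mul]

theorem quad_factor {ω : Ω} (hω : ω ^ 2 + ω + 1 = 0) (la : Ω) :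
    la ^ 2 - la + 1 = (la + ω) * (la + ω ^ 2) := by
  linear_combination (-la - ω + 1) * hω

theorem val_lt_one_of_quad (hv : v (3 : Ω) < 1) {la : Ω} (h : la ^ 2 - la + 1 = 0) :
    v (la + 1) < 1 :=
  val_lt_one_of_numL_eq_zero v hv (numL_eq_zero_of_quad h)

/-- the two points over `j = 0` are `-ω` and `-ω^2` -/
theorem quad_eq_zero_iff {ω : Ω} (hω : ω ^ 2 + ω + 1 = 0) (la : Ω) :
    la ^ 2 - la + 1 = 0 ↔ la = -ω ∨ la = -ω ^ 2 := by
  rw [quad_factor hω, mul_eq_zero]
  constructor
  · rintro (h | h)
    · left; linear_combination h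
    · right; linear_combination h
  · rintro (h | h)
    · left; rw [h]; ring
    · right; rw [h]; ring

theorem neg_omega_ne {ω : Ω} (hω : ω ^ 2 + ω + 1 = 0) (h3 : (3 : Ω) ≠ 0) : -ω ≠ -ω ^ 2 := by
  intro h
  have h' : ω = ω ^ 2 := by linear_combination -h
  have := HesseDisc.omega_pow_injective hω h3 (a₁ := 1) (a₂ := 2) (by simpa using h')
  exact absurd this (by decide)

/-- DISC: for `g ≠ 1`, the number of fixed points of `g` in the disc `v (la + 1) < 1` is `iL g`
(`ω` a primitive cube root of unity; `3 ≠ 0`) -/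
theorem card_fixL_disc (hv : v (3 : Ω) < 1) (h3 : (3 : Ω) ≠ 0) {ω : Ω}
    (hω : ω ^ 2 + ω + 1 = 0) {g : Fin 6} (hg : g ≠ 0) :
    Nat.card {la : Ω // fixL g la = 0 ∧ v (la + 1) < 1} = iL g := by
  classical
  have h2v : v (2 : Ω) = 1 := val_two_of_val_three v hv
  have h2 : (2 : Ω) ≠ 0 := two_ne_zero_of_val v hv
  have hquad : ∀ la : Ω, (la ^ 2 - la + 1 = 0 ∧ v (la + 1) < 1) ↔ la ∈ ({-ω, -ω ^ 2} : Finset Ω) := by
    intro la
    rw [Finset.mem_insert, Finset.mem_singleton, ← quad_eq_zero_iff hω]
    exact ⟨fun h => h.1, fun h => ⟨h, val_lt_one_of_quad v hv h⟩⟩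
  fin_cases g
  · exact absurd rfl hg
  · show Nat.card {la : Ω // fixL 1 la = 0 ∧ v (la + 1) < 1} = 1
    rw [Nat.subtype_card {1 / 2}]
    · simp
    · intro la
      rw [Finset.mem_singleton, fixL_one, neg_eq_zero]
      constructor
      · rintro rfl
        have e : 2 * (1 / 2 : Ω) - 1 = 0 := by field_simp; ring
        exact ⟨e, val_half_add_one v hv e⟩
      · rintro ⟨h, -⟩
        field_simp
        linear_combination h
  · show Nat.card {la : Ω // fixL 2 la = 0 ∧ v (la + 1) < 1} = 1
    rw [Nat.subtype_card {-1}]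
    · simp
    · intro la
      rw [Finset.mem_singleton, fixL_two, neg_eq_zero]
      constructor
      · rintro rfl
        refine ⟨by ring, ?_⟩
        rw [neg_add_cancel, v.map_zero]; exact zero_lt_one
      · rintro ⟨h, hvx⟩
        rcases mul_eq_zero.mp h with h | h
        · exfalso
          have : la + 1 = 2 := by linear_combination h
          rw [this, h2v] at hvx
          exact lt_irrefl _ hvx
        · linear_combination h
  · show Nat.card {la : Ω // fixL 3 la = 0 ∧ v (la + 1) < 1} = 2
    rw [Nat.subtype_card {-ω, -ω ^ 2}]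
    · exact Finset.card_pair (neg_omega_ne hω h3)
    · intro la
      rw [fixL_three]; exact (hquad la).symm
  · show Nat.card {la : Ω // fixL 4 la = 0 ∧ v (la + 1) < 1} = 2
    rw [Nat.subtype_card {-ω, -ω ^ 2}]
    · exact Finset.card_pair (neg_omega_ne hω h3)
    · intro la
      rw [fixL_four, neg_eq_zero]; exact (hquad la).symm
  · show Nat.card {la : Ω // fixL 5 la = 0 ∧ v (la + 1) < 1} = 1
    rw [Nat.subtype_card {2}]
    · simp
    · intro la
      rw [Finset.mem_singleton, fixL_five, neg_eq_zero]
      constructor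
      · rintro rfl
        refine ⟨by ring, ?_⟩
        have : (2 : Ω) + 1 = 3 := by norm_num
        rw [this]; exact hv
      · rintro ⟨h, hvx⟩
        rcases mul_eq_zero.mp h with h | h
        · exfalso
          rw [h, zero_add, v.map_one] at hvx
          exact lt_irrefl _ hvx
        · linear_combination h

/-- there are exactly `2 = 6 / 3` points over `j = 0` -/
theorem card_over_zero (hv : v (3 : Ω) < 1) (h3 : (3 : Ω) ≠ 0) {ω : Ω}
    (hω : ω ^ 2 + ω + 1 = 0) : Nat.card {la : Ω // numL la = 0} = 2 := by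
  classical
  rw [Nat.subtype_card {-ω, -ω ^ 2}]
  · exact Finset.card_pair (neg_omega_ne hω h3)
  · intro la
    rw [Finset.mem_insert, Finset.mem_singleton, ← quad_eq_zero_iff hω]
    exact ⟨numL_eq_zero_of_quad, quad_eq_zero_of_numL_eq_zero v hv⟩

/-- there are exactly `3 = 6 / 2` points over `j = 1728`: `-1`, `2`, `1/2` -/
theorem card_over_1728 (hv : v (3 : Ω) < 1) (h3 : (3 : Ω) ≠ 0) :
    Nat.card {la : Ω // numL la = 1728 * denL la} = 3 := by
  classical
  have h2 : (2 : Ω) ≠ 0 := two_ne_zero_of_val v hv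
  rw [Nat.subtype_card {-1, 2, 1 / 2}]
  · rw [Finset.card_insert_of_notMem, Finset.card_pair]
    · intro h
      apply h3
      have : (2 : Ω) * 2 = 1 := (eq_div_iff h2).mp h
      linear_combination this
    · rw [Finset.mem_insert, Finset.mem_singleton]
      rintro (h | h)
      · apply h3; linear_combination -h
      · apply h3
        have : (-1 : Ω) * 2 = 1 := (eq_div_iff h2).mp h
        linear_combination -this
  · intro la
    rw [Finset.mem_insert, Finset.mem_insert, Finset.mem_singleton]
    constructor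
    · rintro (rfl | rfl | rfl)
      · apply eq_1728_of_cubic_eq_zero; ring
      · apply eq_1728_of_cubic_eq_zero; ring
      · apply eq_1728_of_cubic_eq_zero
        have e : 2 * (1 / 2 : Ω) - 1 = 0 := by field_simp; ring
        rw [e, mul_zero]
    · intro h
      rcases mul_eq_zero.mp (cubic_eq_zero_of_eq_1728 v hv h) with h' | h'
      · rcases mul_eq_zero.mp h' with h'' | h''
        · left; linear_combination h''
        · right; left; linear_combination h''
      · right; right
        field_simp
        linear_combination h'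

/-- for `g ≠ 1`: the fixed points of `g` over `j ∈ {0, 1728}` are exactly the fixed points in
the disc -/
theorem fix_over_iff_fix_disc (hv : v (3 : Ω) < 1) {g : Fin 6} (hg : g ≠ 0) (la : Ω) :
    (fixL g la = 0 ∧ (numL la = 0 ∨ numL la = 1728 * denL la)) ↔
      (fixL g la = 0 ∧ v (la + 1) < 1) := by
  constructor
  · rintro ⟨hx, h | h⟩
    · exact ⟨hx, val_lt_one_of_numL_eq_zero v hv h⟩
    · exact ⟨hx, val_lt_one_of_eq_1728 v hv h⟩
  · rintro ⟨hx, hvx⟩
    exact ⟨hx, over_of_fixL v hv hg hx hvx⟩

/-- for `g ≠ 1`: the number of fixed points of `g` over `j ∈ {0, 1728}` is `iL g` -/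
theorem card_fixL_over (hv : v (3 : Ω) < 1) (h3 : (3 : Ω) ≠ 0) {ω : Ω}
    (hω : ω ^ 2 + ω + 1 = 0) {g : Fin 6} (hg : g ≠ 0) :
    Nat.card {la : Ω // fixL g la = 0 ∧ (numL la = 0 ∨ numL la = 1728 * denL la)} = iL g := by
  rw [← card_fixL_disc v hv h3 hω hg]
  exact Nat.card_congr (Equiv.subtypeEquivRight (fix_over_iff_fix_disc v hv hg))

/-- the points over `j = 0` and over `j = 1728` are different points -/
theorem not_over_both (h2 : (2 : Ω) ≠ 0) (h3 : (3 : Ω) ≠ 0) {la : Ω} (h0 : numL la = 0)
    (h1 : numL la = 1728 * denL la) : False := by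
  have h1728 : (1728 : Ω) ≠ 0 := by
    have : (1728 : Ω) = 2 ^ 6 * 3 ^ 3 := by norm_num
    rw [this]; exact mul_ne_zero (pow_ne_zero 6 h2) (pow_ne_zero 3 h3)
  have hd : denL la = 0 := by
    rw [h0] at h1
    exact (mul_eq_zero.mp h1.symm).resolve_left h1728
  have h256 : (256 : Ω) ≠ 0 := by
    have : (256 : Ω) = 2 ^ 8 := by norm_num
    rw [this]; exact pow_ne_zero 8 h2
  have hq : la ^ 2 - la + 1 = 0 := by
    unfold numL at h0
    have := (mul_eq_zero.mp h0).resolve_left h256
    simpa using this
  unfold denL at hd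
  rcases mul_eq_zero.mp hd with h | h
  · have hla : la = 0 := by simpa using h
    rw [hla] at hq
    exact one_ne_zero (by linear_combination hq)
  · have hla : la - 1 = 0 := by simpa using h
    have hla' : la = 1 := by linear_combination hla
    rw [hla'] at hq
    exact one_ne_zero (by linear_combination hq)

end Disc

end Fermat.Agent.S18.C.LegendreDisc
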