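import Mathlib
import Fermat.Agent.S18.C.LegendreDisc

/-!
# PROJECT H (S18), block C0: the fixed-point count split over `j = 0` and `j = 1728`

For `g ≠ 1` in the Hesse group (resp. the anharmonic group):
`#{g-fixed points over j = 0} + #{g-fixed points over j = 1728} = i₀(g)`,
the form in which the orbit count (`OrbitCount.card_orbits_add_mul`, hypothesis `hi`) consumes the
fixed-point analysis of `HesseDisc` / `LegendreDisc`.
-/

set_option autoImplicit false

namespace Fermat.Agent.S18.C.FixCount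

open Fermat.Agent.S18.C

/-- abstract splitting of a count along two mutually exclusive conditions -/
theorem card_and_or {α : Type*} (p q0 q1 : α → Prop) (hq : ∀ x, q0 x → q1 x → False)
    (hfin : Finite {x : α // p x ∧ (q0 x ∨ q1 x)}) :
    Nat.card {x : α // p x ∧ q0 x} + Nat.card {x : α // p x ∧ q1 x} =
      Nat.card {x : α // p x ∧ (q0 x ∨ q1 x)} := by
  classical
  set s0 : Set α := {x | p x ∧ q0 x} with hs0
  set s1 : Set α := {x | p x ∧ q1 x} with hs1
  have hU : {x : α | p x ∧ (q0 x ∨ q1 x)} = s0 ∪ s1 := by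
    ext x
    show p x ∧ (q0 x ∨ q1 x) ↔ (p x ∧ q0 x) ∨ (p x ∧ q1 x)
    exact and_or_left
  have hfinU : (s0 ∪ s1).Finite := by
    rw [← hU]; exact Set.finite_coe_iff.mp hfin
  have hdisj : Disjoint s0 s1 := by
    rw [Set.disjoint_left]
    rintro x ⟨-, h0⟩ ⟨-, h1⟩
    exact hq x h0 h1
  have h0 : Nat.card {x : α // p x ∧ q0 x} = s0.ncard := Nat.card_coe_set_eq s0
  have h1 : Nat.card {x : α // p x ∧ q1 x} = s1.ncard := Nat.card_coe_set_eq s1
  have hu : Nat.card {x : α // p x ∧ (q0 x ∨ q1 x)} = (s0 ∪ s1).ncard := by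
    rw [← hU]; exact Nat.card_coe_set_eq _
  rw [h0, h1, hu, Set.ncard_union_eq hdisj (hfinU.subset Set.subset_union_left)
    (hfinU.subset Set.subset_union_right)]

section Hesse

open Hesse HesseDisc DiscBasic

variable {Ω : Type*} [Field Ω] {Γ₀ : Type*} [LinearOrderedCommGroupWithZero Γ₀]
  (v : Valuation Ω Γ₀)

theorem iH_ne_zero {g : Idx} (hg : g ≠ Sum.inl 0) : iH g ≠ 0 := by
  rcases g with a | ⟨a, c⟩
  · have ha : a ≠ 0 := fun h => hg (by rw [h])
    simp [iH, ha]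
  · by_cases hac : a = c <;> simp [iH, hac]

/-- HESSE: for `g ≠ 1`, `#Fix_g(M₀) + #Fix_g(M₁₇₂₈) = i₀(g)` -/
theorem card_fixH_zero_add_card_fixH_1728 (hv : v (2 : Ω) < 1) (h2 : (2 : Ω) ≠ 0) {ω : Ω}
    (hω : ω ^ 2 + ω + 1 = 0) {s : Ω} (hs : s ^ 2 = 3) {g : Idx} (hg : g ≠ Sum.inl 0) :
    Nat.card {x : Ω // fixH ω g x = 0 ∧ numJ x = 0} +
      Nat.card {x : Ω // fixH ω g x = 0 ∧ numJ x = 1728 * denJ x} = iH g := by
  have hcard := card_fixH_over v hv h2 hω hs hg
  rw [← hcard]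
  refine card_and_or _ _ _ (fun x h0 h1 => not_over_both h2 (three_ne_zero_of_val v hv) h0 h1) ?_
  apply Nat.finite_of_card_ne_zero
  rw [hcard]; exact iH_ne_zero hg

end Hesse

section Legendre

open Legendre LegendreDisc DiscBasic

variable {Ω : Type*} [Field Ω] {Γ₀ : Type*} [LinearOrderedCommGroupWithZero Γ₀]
  (v : Valuation Ω Γ₀)

theorem iL_ne_zero {g : Fin 6} (hg : g ≠ 0) : iL g ≠ 0 := by
  revert g; decide

/-- LEGENDRE: for `g ≠ 1`, `#Fix_g(M₀) + #Fix_g(M₁₇₂₈) = i₀(g)` -/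
theorem card_fixL_zero_add_card_fixL_1728 (hv : v (3 : Ω) < 1) (h3 : (3 : Ω) ≠ 0) {ω : Ω}
    (hω : ω ^ 2 + ω + 1 = 0) {g : Fin 6} (hg : g ≠ 0) :
    Nat.card {la : Ω // fixL g la = 0 ∧ numL la = 0} +
      Nat.card {la : Ω // fixL g la = 0 ∧ numL la = 1728 * denL la} = iL g := by
  have hcard := card_fixL_over v hv h3 hω hg
  rw [← hcard]
  refine card_and_or _ _ _
    (fun x h0 h1 => LegendreDisc.not_over_both (two_ne_zero_of_val v hv) h3 h0 h1) ?_
  apply Nat.finite_of_card_ne_zero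
  rw [hcard]; exact iL_ne_zero hg

end Legendre

end Fermat.Agent.S18.C.FixCount
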