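import Mathlib
import Fermat.Agent.S18.C.Defs

/-!
# PROJECT H (S18), block C, slice H-C7g (part 1): substitutions preserving the disc ring

For a valuation subring `V` of `K` and a `K`-algebra endomorphism `φ` of `K(X)` with
`φ X = T / B`, `T, B ∈ V[X]`, `T(0) ∈ 𝔪_V`, `B(0) ∈ Vˣ`: `φ` maps `discRing V = V[X]_(𝔪_V, X)`
into itself.
-/

set_option autoImplicit false

namespace Fermat.Agent.S18.C.DiscSubst

open Polynomial Fermat.Agent.S18.C.Defs

variable {K : Type*} [Field K] (V : ValuationSubring K)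

theorem C_mem_polyV {x : K} (hx : x ∈ V) : (C x : K[X]) ∈ polyV V := by
  rw [mem_polyV]
  intro i
  rw [coeff_C]
  split_ifs
  · exact hx
  · exact V.zero_mem

theorem X_mem_polyV : (X : K[X]) ∈ polyV V := by
  rw [mem_polyV]
  intro i
  rw [coeff_X]
  split_ifs
  · exact V.one_mem
  · exact V.zero_mem

theorem map_int_mem_polyV (p : ℤ[X]) : p.map (Int.castRingHom K) ∈ polyV V := by
  rw [mem_polyV]
  intro i
  rw [coeff_map]
  exact intCast_mem V _

/-- the homogenisation `∑_{i ≤ N} p_i T^i B^(N-i)` -/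
noncomputable def hom (T B p : K[X]) (N : ℕ) : K[X] :=
  ∑ i ∈ Finset.range (N + 1), C (p.coeff i) * T ^ i * B ^ (N - i)

theorem hom_mem_polyV {T B p : K[X]} (hT : T ∈ polyV V) (hB : B ∈ polyV V) (hp : p ∈ polyV V)
    (N : ℕ) : hom T B p N ∈ polyV V := by
  unfold hom
  refine Subring.sum_mem _ fun i _ => ?_
  exact Subring.mul_mem _ (Subring.mul_mem _ (C_mem_polyV V ((mem_polyV V).mp hp i))
    (Subring.pow_mem _ hT i)) (Subring.pow_mem _ hB _)

theorem coeff_zero_hom (T B p : K[X]) (N : ℕ) :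
    (hom T B p N).coeff 0 =
      ∑ i ∈ Finset.range (N + 1), p.coeff i * T.coeff 0 ^ i * B.coeff 0 ^ (N - i) := by
  unfold hom
  simp only [coeff_zero_eq_eval_zero, eval_finsetSum, eval_mul, eval_pow, eval_C]

/-- the constant coefficient of the homogenisation is a unit -/
theorem valuation_coeff_zero_hom {T B p : K[X]} (hp : p ∈ polyV V)
    (hT0 : V.valuation (T.coeff 0) < 1) (hB0 : V.valuation (B.coeff 0) = 1)
    (hp0 : V.valuation (p.coeff 0) = 1) (N : ℕ) :
    V.valuation ((hom T B p N).coeff 0) = 1 := by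
  rw [coeff_zero_hom, Finset.sum_range_succ', pow_zero, mul_one, Nat.sub_zero]
  have h1 : V.valuation (p.coeff 0 * B.coeff 0 ^ N) = 1 := by
    rw [map_mul, map_pow, hp0, hB0, one_pow, one_mul]
  have h2 : V.valuation (∑ i ∈ Finset.range N,
      p.coeff (i + 1) * T.coeff 0 ^ (i + 1) * B.coeff 0 ^ (N - (i + 1))) < 1 := by
    refine Valuation.map_sum_lt _ one_ne_zero fun i _ => ?_
    rw [map_mul, map_mul, map_pow, map_pow, hB0, one_pow, mul_one]
    have hpi : V.valuation (p.coeff (i + 1)) ≤ 1 :=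
      (V.valuation_le_one_iff _).mpr ((mem_polyV V).mp hp _)
    have hTi : V.valuation (T.coeff 0) ^ (i + 1) < 1 := pow_lt_one₀ zero_le hT0 (Nat.succ_ne_zero i)
    calc V.valuation (p.coeff (i + 1)) * V.valuation (T.coeff 0) ^ (i + 1)
        ≤ 1 * V.valuation (T.coeff 0) ^ (i + 1) := mul_le_mul_left hpi _
      _ < 1 := by rw [one_mul]; exact hTi
  rw [add_comm]
  rw [Valuation.map_add_eq_of_lt_left _ (by rw [h1]; exact h2), h1]

/-- the key identity: `φ(p) B^N = hom p N` when `φ X = T / B` and `deg p ≤ N` -/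
theorem map_mul_pow_eq_hom (φ : RatFunc K →ₐ[K] RatFunc K) {T B : K[X]}
    (hφ : φ RatFunc.X * algebraMap K[X] (RatFunc K) B = algebraMap K[X] (RatFunc K) T)
    {p : K[X]} {N : ℕ} (hN : p.natDegree ≤ N) :
    φ (algebraMap K[X] (RatFunc K) p) * algebraMap K[X] (RatFunc K) B ^ N =
      algebraMap K[X] (RatFunc K) (hom T B p N) := by
  have h1 : φ (algebraMap K[X] (RatFunc K) p) = aeval (φ RatFunc.X) p := by
    rw [aeval_algHom_apply, RatFunc.aeval_X_left_eq_algebraMap]
  rw [h1, aeval_eq_sum_range' (Nat.lt_succ_of_le hN), Finset.sum_mul]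
  unfold hom
  rw [map_sum]
  refine Finset.sum_congr rfl fun i hi => ?_
  have hiN : i ≤ N := Nat.lt_succ_iff.mp (Finset.mem_range.mp hi)
  rw [map_mul, map_mul, map_pow, map_pow, ← hφ, Algebra.smul_def, mul_pow]
  have e : algebraMap K[X] (RatFunc K) B ^ N =
      algebraMap K[X] (RatFunc K) B ^ i * algebraMap K[X] (RatFunc K) B ^ (N - i) := by
    rw [← pow_add, Nat.add_sub_cancel' hiN]
  rw [e, RatFunc.algebraMap_C, RatFunc.algebraMap_eq_C]
  ring

/-- a `K`-algebra endomorphism `φ` of `K(X)` with `φ X = T / B`, `T, B ∈ V[X]`, `T(0) ∈ 𝔪_V`,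
`B(0) ∈ Vˣ`, maps the disc ring `V[X]_(𝔪_V, X)` into itself -/
theorem map_mem_discRing (φ : RatFunc K →ₐ[K] RatFunc K) {T B : K[X]}
    (hT : T ∈ polyV V) (hB : B ∈ polyV V)
    (hT0 : V.valuation (T.coeff 0) < 1) (hB0 : V.valuation (B.coeff 0) = 1)
    (hφ : φ RatFunc.X * algebraMap K[X] (RatFunc K) B = algebraMap K[X] (RatFunc K) T)
    {f : RatFunc K} (hf : f ∈ discRing V) : φ f ∈ discRing V := by
  obtain ⟨a, s, ha, hs, hs0, h⟩ := hf
  set N := max a.natDegree s.natDegree with hN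
  refine ⟨hom T B a N, hom T B s N, hom_mem_polyV V hT hB ha N, hom_mem_polyV V hT hB hs N,
    valuation_coeff_zero_hom V hs hT0 hB0 hs0 N, ?_⟩
  rw [← map_mul_pow_eq_hom φ hφ (le_max_right _ _), ← map_mul_pow_eq_hom φ hφ (le_max_left _ _),
    ← h, map_mul]
  ring

end Fermat.Agent.S18.C.DiscSubst
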