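import Mathlib

/-!
# PROJECT H (S18), block C0g: rational covers of the line which are Galois by explicit conjugates

Generic statement used for the Hesse cover (`ℓ = 2`) and the Legendre cover (`ℓ = 3`).

Setting: fields `K0 → E → M` (a tower), `μ : M` transcendental over `K0` with `K0(μ) = M`,
`j' : E` with `K0(j') = E`, polynomials `num den : K0[X]` with `deg den < deg num` and
`j' = num(μ) / den(μ)` in `M`; a finite family `ν : ι → M` of pairwise distinct elements with
`num(ν g) / den(ν g) = j'`, and `card ι = deg num`.

Conclusions: `j'` is transcendental over `K0`, `[M : E] = deg num`, `M / E` is Galois, for every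
`g : ι` there is a unique `E`-automorphism of `M` with `μ ↦ ν g`, and every `E`-automorphism of `M`
is of this form.
-/

set_option autoImplicit false
set_option linter.unusedSectionVars false

namespace Fermat.Agent.S18.C.MoebiusGalois

open Polynomial IntermediateField

/-- in the field `K0(α)`, the generator generates -/
theorem adjoin_gen_eq_top {K0 M : Type*} [Field K0] [Field M] [Algebra K0 M] (α : M) :
    K0⟮AdjoinSimple.gen K0 α⟯ = ⊤ := by
  rw [eq_top_iff]
  rintro ⟨y, hy⟩ -
  obtain ⟨r, s, hrs⟩ := (mem_adjoin_simple_iff K0 y).mp hy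
  refine (mem_adjoin_simple_iff K0 _).mpr ⟨r, s, ?_⟩
  apply Subtype.ext
  simp only [IntermediateField.coe_div, AdjoinSimple.coe_aeval_gen_apply]
  exact hrs

variable {K0 E M : Type*} [Field K0] [Field E] [Field M] [Algebra K0 E] [Algebra E M]
  [Algebra K0 M] [IsScalarTower K0 E M]

/-- The hypotheses of the generic statement. -/
structure IsCover (μ : M) (j' : E) (num den : K0[X]) {ι : Type*} (ν : ι → M) : Prop where
  transc : Transcendental K0 μ
  top : K0⟮μ⟯ = ⊤
  gen : K0⟮j'⟯ = ⊤
  deg_lt : den.natDegree < num.natDegree
  den_mu : aeval μ den ≠ 0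
  eq_j : aeval μ num / aeval μ den = algebraMap E M j'
  inj : Function.Injective ν
  eq_j' : ∀ g, aeval (ν g) num / aeval (ν g) den = algebraMap E M j'

/-- the relation satisfied by `μ` over `E` -/
noncomputable def rel (j' : E) (num den : K0[X]) : E[X] :=
  num.map (algebraMap K0 E) - C j' * den.map (algebraMap K0 E)

namespace IsCover

variable {μ : M} {j' : E} {num den : K0[X]} {ι : Type*} {ν : ι → M}

theorem natDegree_rel (h : IsCover μ j' num den ν) :
    (rel j' num den).natDegree = num.natDegree := by
  unfold rel
  have h1 : (num.map (algebraMap K0 E)).natDegree = num.natDegree := natDegree_map _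
  have h2 : (C j' * den.map (algebraMap K0 E)).natDegree < (num.map (algebraMap K0 E)).natDegree := by
    rw [h1]
    refine lt_of_le_of_lt (natDegree_C_mul_le _ _) ?_
    rw [natDegree_map]
    exact h.deg_lt
  rw [natDegree_sub_eq_left_of_natDegree_lt h2, h1]

theorem rel_ne_zero (h : IsCover μ j' num den ν) : rel j' num den ≠ 0 := by
  intro h0
  have := h.natDegree_rel
  rw [h0, natDegree_zero] at this
  have := h.deg_lt
  omega

theorem aeval_rel (h : IsCover μ j' num den ν) : aeval μ (rel j' num den) = 0 := by
  unfold rel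
  rw [map_sub, map_mul, aeval_C, aeval_map_algebraMap, aeval_map_algebraMap, ← h.eq_j,
    div_mul_cancel₀ _ h.den_mu, sub_self]

theorem isIntegral (h : IsCover μ j' num den ν) : IsIntegral E μ :=
  (IsAlgebraic.isIntegral ⟨rel j' num den, h.rel_ne_zero, h.aeval_rel⟩)

theorem adjoin_eq_top (h : IsCover μ j' num den ν) : E⟮μ⟯ = ⊤ := by
  rw [eq_top_iff]
  intro x _
  have hx : x ∈ K0⟮μ⟯ := by rw [h.top]; trivial
  obtain ⟨r, s, rfl⟩ := (mem_adjoin_simple_iff K0 x).mp hx
  exact (mem_adjoin_simple_iff E _).mpr
    ⟨r.map (algebraMap K0 E), s.map (algebraMap K0 E), by simp only [aeval_map_algebraMap]⟩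

theorem finiteDimensional (h : IsCover μ j' num den ν) : FiniteDimensional E M := by
  have : FiniteDimensional E E⟮μ⟯ := adjoin.finiteDimensional h.isIntegral
  rw [h.adjoin_eq_top] at this
  exact Module.Finite.equiv (IntermediateField.topEquiv (F := E) (E := M)).toLinearEquiv

theorem finrank_le (h : IsCover μ j' num den ν) : Module.finrank E M ≤ num.natDegree := by
  have h1 := IntermediateField.adjoin.finrank h.isIntegral
  rw [h.adjoin_eq_top, IntermediateField.finrank_top'] at h1
  rw [h1, ← h.natDegree_rel]
  exact natDegree_le_natDegree (minpoly.degree_le_of_ne_zero E μ h.rel_ne_zero h.aeval_rel)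

/-- `j'` is transcendental over `K0` -/
theorem transcendental_j (h : IsCover μ j' num den ν) : Transcendental K0 j' := by
  intro halg
  have : Algebra.IsAlgebraic K0 K0⟮j'⟯ := isAlgebraic_adjoin_simple halg.isIntegral
  have : Algebra.IsAlgebraic K0 E := by
    rw [h.gen] at this
    exact (IntermediateField.topEquiv (F := K0) (E := E)).isAlgebraic
  exact h.transc (h.isIntegral.isAlgebraic.restrictScalars K0)

/-- an element `x` with `num x / den x = j'`, `den x ≠ 0`, is transcendental over `K0` -/
theorem transcendental_of_eq (h : IsCover μ j' num den ν) {x : M}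
    (hx : aeval x num / aeval x den = algebraMap E M j') : Transcendental K0 x := by
  intro halg
  apply h.transcendental_j
  have : Algebra.IsAlgebraic K0 K0⟮x⟯ := isAlgebraic_adjoin_simple halg.isIntegral
  have hmem : algebraMap E M j' ∈ K0⟮x⟯ := by
    rw [← hx]
    exact (mem_adjoin_simple_iff K0 _).mpr ⟨num, den, rfl⟩
  have h1 : IsAlgebraic K0 (⟨algebraMap E M j', hmem⟩ : K0⟮x⟯) := Algebra.IsAlgebraic.isAlgebraic _
  have h2 : IsAlgebraic K0 (algebraMap E M j') := by
    have := h1.algebraMap (A := M)
    simpa using this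
  exact (isAlgebraic_algebraMap_iff (algebraMap E M).injective).mp h2

/-- the `K0`-algebra endomorphism of `M = K0(μ)` with `μ ↦ x`, for `x` transcendental -/
noncomputable def substHom (h : IsCover μ j' num den ν) {x : M} (hx : Transcendental K0 x) :
    M →ₐ[K0] M :=
  (K0⟮x⟯.val.comp (RatFunc.algEquivOfTranscendental x hx).toAlgHom).comp
    (((RatFunc.algEquivOfTranscendental μ h.transc).symm.toAlgHom).comp
      ((IntermediateField.topEquiv (F := K0) (E := M)).symm.trans
        (IntermediateField.equivOfEq h.top.symm)).toAlgHom)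

theorem substHom_apply_mu (h : IsCover μ j' num den ν) {x : M} (hx : Transcendental K0 x) :
    h.substHom hx μ = x := by
  have h1 : ((IntermediateField.topEquiv (F := K0) (E := M)).symm.trans
      (IntermediateField.equivOfEq h.top.symm)) μ = AdjoinSimple.gen K0 μ := by
    apply Subtype.ext
    rfl
  show K0⟮x⟯.val (RatFunc.algEquivOfTranscendental x hx
    ((RatFunc.algEquivOfTranscendental μ h.transc).symm
      (((IntermediateField.topEquiv (F := K0) (E := M)).symm.trans
        (IntermediateField.equivOfEq h.top.symm)) μ))) = x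
  rw [h1, RatFunc.algEquivOfTranscendental_symm_gen]
  exact RatFunc.algEquivOfTranscendental_X x hx

theorem substHom_aeval (h : IsCover μ j' num den ν) {x : M} (hx : Transcendental K0 x)
    (p : K0[X]) : h.substHom hx (aeval μ p) = aeval x p := by
  rw [← aeval_algHom_apply, h.substHom_apply_mu]

theorem substHom_j (h : IsCover μ j' num den ν) {x : M} (hx : Transcendental K0 x)
    (hxj : aeval x num / aeval x den = algebraMap E M j') :
    h.substHom hx (algebraMap E M j') = algebraMap E M j' := by
  conv_lhs => rw [← h.eq_j]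
  rw [map_div₀, h.substHom_aeval, h.substHom_aeval, hxj]

/-- a `K0`-endomorphism of `M` fixing `j'` fixes `E` pointwise -/
theorem commutes_of_j (h : IsCover μ j' num den ν) (τ : M →ₐ[K0] M)
    (hτ : τ (algebraMap E M j') = algebraMap E M j') (e : E) :
    τ (algebraMap E M e) = algebraMap E M e := by
  let F : IntermediateField K0 E :=
    { carrier := {e | τ (algebraMap E M e) = algebraMap E M e}
      mul_mem' := fun {a b} ha hb => by
        simp only [Set.mem_ofPred_eq] at ha hb ⊢
        rw [map_mul, map_mul, ha, hb]
      add_mem' := fun {a b} ha hb => by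
        simp only [Set.mem_ofPred_eq] at ha hb ⊢
        rw [map_add, map_add, ha, hb]
      algebraMap_mem' := fun c => by
        simp only [Set.mem_ofPred_eq]
        rw [← IsScalarTower.algebraMap_apply, τ.commutes]
      inv_mem' := fun a ha => by
        simp only [Set.mem_ofPred_eq] at ha ⊢
        rw [map_inv₀, map_inv₀, ha] }
  have hj : j' ∈ F := hτ
  have hle : K0⟮j'⟯ ≤ F := adjoin_simple_le_iff.mpr hj
  rw [h.gen] at hle
  exact hle (show e ∈ (⊤ : IntermediateField K0 E) from trivial)

/-- the `E`-algebra endomorphism of `M` with `μ ↦ x`, for `x` with `num x / den x = j'` -/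
noncomputable def substAlgHom (h : IsCover μ j' num den ν) {x : M}
    (hxj : aeval x num / aeval x den = algebraMap E M j') : M →ₐ[E] M :=
  { (h.substHom (h.transcendental_of_eq hxj)).toRingHom with
    commutes' := fun e => h.commutes_of_j _ (h.substHom_j _ hxj) e }

theorem substAlgHom_apply_mu (h : IsCover μ j' num den ν) {x : M}
    (hxj : aeval x num / aeval x den = algebraMap E M j') : h.substAlgHom hxj μ = x :=
  h.substHom_apply_mu _

/-- the `E`-algebra automorphism of `M` with `μ ↦ x`, for `x` with `num x / den x = j'` -/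
noncomputable def substEquiv (h : IsCover μ j' num den ν) {x : M}
    (hxj : aeval x num / aeval x den = algebraMap E M j') : M ≃ₐ[E] M :=
  have := h.finiteDimensional
  AlgEquiv.ofBijective (h.substAlgHom hxj) (Algebra.IsAlgebraic.algHom_bijective _)

theorem substEquiv_apply_mu (h : IsCover μ j' num den ν) {x : M}
    (hxj : aeval x num / aeval x den = algebraMap E M j') : h.substEquiv hxj μ = x :=
  h.substAlgHom_apply_mu hxj

/-- two `E`-automorphisms of `M` agreeing at `μ` are equal -/
theorem algEquiv_ext (h : IsCover μ j' num den ν) {σ τ : M ≃ₐ[E] M} (hμ : σ μ = τ μ) : σ = τ := by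
  let F : IntermediateField E M :=
    { carrier := {x | σ x = τ x}
      mul_mem' := fun {a b} ha hb => by
        simp only [Set.mem_ofPred_eq] at ha hb ⊢
        rw [map_mul, map_mul, ha, hb]
      add_mem' := fun {a b} ha hb => by
        simp only [Set.mem_ofPred_eq] at ha hb ⊢
        rw [map_add, map_add, ha, hb]
      algebraMap_mem' := fun c => by
        simp only [Set.mem_ofPred_eq]
        rw [σ.commutes, τ.commutes]
      inv_mem' := fun a ha => by
        simp only [Set.mem_ofPred_eq] at ha ⊢
        rw [map_inv₀, map_inv₀, ha] }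
  have hm : μ ∈ F := hμ
  have hle : E⟮μ⟯ ≤ F := adjoin_simple_le_iff.mpr hm
  rw [h.adjoin_eq_top] at hle
  exact AlgEquiv.ext fun x => hle (show x ∈ (⊤ : IntermediateField E M) from trivial)

variable [Fintype ι]

/-- the map `ι → Aut(M / E)`, `g ↦ (μ ↦ ν g)` -/
noncomputable def toAut (h : IsCover μ j' num den ν) (g : ι) : M ≃ₐ[E] M :=
  h.substEquiv (h.eq_j' g)

theorem toAut_apply_mu (h : IsCover μ j' num den ν) (g : ι) : h.toAut g μ = ν g :=
  h.substEquiv_apply_mu _

theorem toAut_injective (h : IsCover μ j' num den ν) : Function.Injective h.toAut := by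
  intro g g' hgg
  apply h.inj
  rw [← h.toAut_apply_mu, ← h.toAut_apply_mu, hgg]

theorem finrank_eq (h : IsCover μ j' num den ν) (hcard : Fintype.card ι = num.natDegree) :
    Module.finrank E M = num.natDegree := by
  have := h.finiteDimensional
  apply le_antisymm h.finrank_le
  rw [← hcard]
  exact (Fintype.card_le_of_injective _ h.toAut_injective).trans AlgEquiv.card_le

theorem card_aut (h : IsCover μ j' num den ν) (hcard : Fintype.card ι = num.natDegree) :
    Nat.card (M ≃ₐ[E] M) = num.natDegree := by
  have := h.finiteDimensional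
  rw [Nat.card_eq_fintype_card]
  apply le_antisymm
  · exact AlgEquiv.card_le.trans h.finrank_le
  · rw [← hcard]
    exact Fintype.card_le_of_injective _ h.toAut_injective

theorem isGalois (h : IsCover μ j' num den ν) (hcard : Fintype.card ι = num.natDegree) :
    IsGalois E M := by
  have := h.finiteDimensional
  exact IsGalois.of_card_aut_eq_finrank _ _ ((h.card_aut hcard).trans (h.finrank_eq hcard).symm)

theorem toAut_bijective (h : IsCover μ j' num den ν) (hcard : Fintype.card ι = num.natDegree) :
    Function.Bijective h.toAut := by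
  have := h.finiteDimensional
  rw [Fintype.bijective_iff_injective_and_card]
  refine ⟨h.toAut_injective, ?_⟩
  rw [hcard, ← h.card_aut hcard, Nat.card_eq_fintype_card]

/-- `Aut(M / E) ≃ ι` -/
noncomputable def autEquiv (h : IsCover μ j' num den ν) (hcard : Fintype.card ι = num.natDegree) :
    (M ≃ₐ[E] M) ≃ ι :=
  (Equiv.ofBijective _ (h.toAut_bijective hcard)).symm

@[simp] theorem autEquiv_symm_apply (h : IsCover μ j' num den ν)
    (hcard : Fintype.card ι = num.natDegree) (g : ι) : (h.autEquiv hcard).symm g = h.toAut g := rfl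

@[simp] theorem autEquiv_toAut (h : IsCover μ j' num den ν)
    (hcard : Fintype.card ι = num.natDegree) (g : ι) : h.autEquiv hcard (h.toAut g) = g :=
  (h.autEquiv hcard).apply_symm_apply g

theorem toAut_autEquiv (h : IsCover μ j' num den ν)
    (hcard : Fintype.card ι = num.natDegree) (σ : M ≃ₐ[E] M) :
    h.toAut (h.autEquiv hcard σ) = σ :=
  (h.autEquiv hcard).symm_apply_apply σ

/-- every `E`-automorphism `σ` of `M` sends `μ` to `ν g` for `g = autEquiv σ` -/
theorem apply_mu (h : IsCover μ j' num den ν) (hcard : Fintype.card ι = num.natDegree)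
    (σ : M ≃ₐ[E] M) : σ μ = ν (h.autEquiv hcard σ) := by
  conv_lhs => rw [← h.toAut_autEquiv hcard σ]
  exact h.toAut_apply_mu _

theorem autEquiv_eq_iff (h : IsCover μ j' num den ν) (hcard : Fintype.card ι = num.natDegree)
    (σ : M ≃ₐ[E] M) (g : ι) : h.autEquiv hcard σ = g ↔ σ μ = ν g := by
  rw [h.apply_mu hcard σ]
  exact ⟨fun hh => by rw [hh], fun hh => h.inj hh⟩

end IsCover

end Fermat.Agent.S18.C.MoebiusGalois
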