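import Fermat.Agent.S18.C.Hesse
import Fermat.Agent.S18.C.MoebiusGalois

/-!
# PROJECT H (S18), block C0g: the Hesse cover `μ ↦ jH μ` is Galois with group the twelve Moebius maps
-/

set_option autoImplicit false
set_option linter.unusedSectionVars false
set_option linter.unusedSimpArgs false

namespace Fermat.Agent.S18.C.HesseGalois

open Polynomial IntermediateField
open Fermat.Agent.S18.C.Hesse Fermat.Agent.S18.C.MoebiusGalois

section Ring

variable {R S : Type*} [CommRing R] [CommRing S]

theorem map_topH (f : R →+* S) (ω : R) (g : Idx) (x : R) :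
    f (topH ω g x) = topH (f ω) g (f x) := by
  rcases g with a | ⟨a, c⟩
  · simp only [topH_inl, map_mul, map_pow]
  · simp only [topH_inr, map_mul, map_pow, map_add, map_ofNat]

theorem map_botH (f : R →+* S) (ω : R) (g : Idx) (x : R) :
    f (botH ω g x) = botH (f ω) g (f x) := by
  rcases g with a | ⟨a, c⟩
  · simp only [botH_inl, map_one]
  · simp only [botH_inr, map_sub, map_pow]

theorem map_numJ (f : R →+* S) (x : R) : f (numJ x) = numJ (f x) := by
  simp only [numJ, map_mul, map_pow, map_add, map_ofNat]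

theorem map_denJ (f : R →+* S) (x : R) : f (denJ x) = denJ (f x) := by
  simp only [denJ, map_pow, map_sub, map_one]

end Ring

section Field

variable {K0 : Type*} [Field K0]

theorem pow_injective_aux {ω : K0} (hω : ω ^ 2 + ω + 1 = 0) (h3 : (3 : K0) ≠ 0) {a a' : ℕ}
    (ha : a < 3) (ha' : a' < 3) (h : ω ^ a = ω ^ a') : a = a' := by
  interval_cases a <;> interval_cases a'
  · rfl
  · exfalso; apply h3
    simp only [pow_zero, pow_one] at h
    linear_combination hω + (ω + 2) * h
  · exfalso; apply h3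
    simp only [pow_zero, pow_one] at h
    linear_combination (-(ω - 2)) * hω + (1 - ω) * h
  · exfalso; apply h3
    simp only [pow_zero, pow_one] at h
    linear_combination hω - (ω + 2) * h
  · rfl
  · exfalso; apply h3
    simp only [pow_zero, pow_one] at h
    linear_combination (1 + (ω + 2) * (1 - ω) ^ 2) * hω + (ω + 2) * ω ^ 2 * h
  · exfalso; apply h3
    simp only [pow_zero, pow_one] at h
    linear_combination (-(ω - 2)) * hω - (1 - ω) * h
  · exfalso; apply h3
    simp only [pow_zero, pow_one] at h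
    linear_combination (1 + (ω + 2) * (1 - ω) ^ 2) * hω - (ω + 2) * ω ^ 2 * h
  · rfl

theorem pow_fin_injective {ω : K0} (hω : ω ^ 2 + ω + 1 = 0) (h3 : (3 : K0) ≠ 0) {a a' : Fin 3}
    (h : ω ^ (a : ℕ) = ω ^ (a' : ℕ)) : a = a' :=
  Fin.ext (pow_injective_aux hω h3 a.2 a'.2 h)

theorem idx_eq_of_cross {ω : K0} (hω : ω ^ 2 + ω + 1 = 0) (h3 : (3 : K0) ≠ 0) {g g' : Idx}
    (h : ∀ x : K0, topH ω g x * botH ω g' x = topH ω g' x * botH ω g x) : g = g' := by
  have hu : ∀ n : ℕ, ω ^ n ≠ 0 := fun n => pow_ne_zero n (isUnit_omega hω).ne_zero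
  rcases g with a | ⟨a, c⟩ <;> rcases g' with a' | ⟨a', c'⟩
  · have := h 1
    simp only [topH_inl, botH_inl, mul_one] at this
    rw [pow_fin_injective hω h3 this]
  · exfalso
    have := h (ω ^ (c' : ℕ))
    simp only [topH_inl, botH_inl, topH_inr, botH_inr, sub_self, mul_zero, mul_one] at this
    have h' : 3 * (ω ^ (a' : ℕ) * ω ^ (c' : ℕ)) = 0 := by linear_combination -this
    rcases mul_eq_zero.mp h' with h0 | h0
    · exact h3 h0
    · exact mul_ne_zero (hu _) (hu _) h0
  · exfalso
    have := h (ω ^ (c : ℕ))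
    simp only [topH_inl, botH_inl, topH_inr, botH_inr, sub_self, mul_zero, mul_one] at this
    have h' : 3 * (ω ^ (a : ℕ) * ω ^ (c : ℕ)) = 0 := by linear_combination this
    rcases mul_eq_zero.mp h' with h0 | h0
    · exact h3 h0
    · exact mul_ne_zero (hu _) (hu _) h0
  · have h1 := h (ω ^ (c : ℕ))
    simp only [topH_inr, botH_inr, sub_self, mul_zero] at h1
    have hc : c = c' := by
      apply pow_fin_injective hω h3
      have h' : 3 * (ω ^ (a : ℕ) * ω ^ (c : ℕ)) * (ω ^ (c : ℕ) - ω ^ (c' : ℕ)) = 0 := by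
        linear_combination h1
      rcases mul_eq_zero.mp h' with h0 | h0
      · exfalso
        rcases mul_eq_zero.mp h0 with h0 | h0
        · exact h3 h0
        · exact mul_ne_zero (hu _) (hu _) h0
      · exact sub_eq_zero.mp h0
    subst hc
    have h2 := h (ω * ω ^ (c : ℕ))
    simp only [topH_inr, botH_inr] at h2
    have ha : a = a' := by
      apply pow_fin_injective hω h3
      have h' : (-3) * (ω ^ (c : ℕ)) ^ 2 * (ω ^ (a : ℕ) - ω ^ (a' : ℕ)) = 0 := by
        linear_combination h2 - (ω ^ (c : ℕ)) ^ 2 * (ω ^ (a : ℕ) - ω ^ (a' : ℕ)) * hω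
      rcases mul_eq_zero.mp h' with h0 | h0
      · exfalso
        rcases mul_eq_zero.mp h0 with h0 | h0
        · exact h3 (neg_eq_zero.mp h0)
        · exact pow_ne_zero 2 (hu _) h0
      · exact sub_eq_zero.mp h0
    rw [ha]

end Field

section Cover

variable {K0 E M : Type*} [Field K0] [Field E] [Field M] [Algebra K0 E] [Algebra E M]
  [Algebra K0 M] [IsScalarTower K0 E M]

variable (K0) in
/-- the numerator `27 X^3 (X^3 + 8)^3` of the Hesse `j`-function as a polynomial -/
noncomputable def numP : K0[X] := C 27 * X ^ 3 * (X ^ 3 + C 8) ^ 3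

variable (K0) in
/-- the denominator `(X^3 - 1)^3` of the Hesse `j`-function as a polynomial -/
noncomputable def denP : K0[X] := (X ^ 3 - C 1) ^ 3

theorem aeval_numP (x : M) : aeval x (numP K0) = numJ x := by
  simp only [numP, numJ, map_mul, map_pow, map_add, aeval_C, aeval_X, map_ofNat]

theorem aeval_denP (x : M) : aeval x (denP K0) = denJ x := by
  simp only [denP, denJ, map_pow, map_sub, aeval_C, aeval_X, map_one]

theorem natDegree_numP (h3 : (3 : K0) ≠ 0) : (numP K0).natDegree = 12 := by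
  have h27 : (27 : K0) ≠ 0 := by
    have : (27 : K0) = 3 ^ 3 := by norm_num
    rw [this]; exact pow_ne_zero 3 h3
  unfold numP
  compute_degree!

theorem natDegree_denP : (denP K0).natDegree = 9 := by
  unfold denP
  compute_degree!

/-- The hypotheses for the Hesse cover: a tower `K0 → E → M`, `M = K0(μ)` with `μ` transcendental,
`E = K0(j')` with `j' = jH μ`; `ω ∈ K0` a primitive cube root of unity, `3 ≠ 0`. -/
structure IsHesse (ω : K0) (μ : M) (j' : E) : Prop where
  omega : ω ^ 2 + ω + 1 = 0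
  three : (3 : K0) ≠ 0
  transc : Transcendental K0 μ
  top : K0⟮μ⟯ = ⊤
  gen : K0⟮j'⟯ = ⊤
  eq_j : algebraMap E M j' = jH μ

namespace IsHesse

variable {ω : K0} {μ : M} {j' : E}

theorem omega' (h : IsHesse ω μ j') :
    (algebraMap K0 M ω) ^ 2 + algebraMap K0 M ω + 1 = 0 := by
  rw [← map_pow, ← map_add, ← map_one (algebraMap K0 M), ← map_add, h.omega, map_zero]

theorem three' (h : IsHesse ω μ j') : (3 : M) ≠ 0 := by
  have := (map_ne_zero (algebraMap K0 M)).mpr h.three
  rwa [map_ofNat] at this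

theorem denJ_mu (h : IsHesse ω μ j') : denJ μ ≠ 0 := by
  rw [denJ_ne_zero_iff]
  intro h1
  have h2 : aeval μ (X ^ 3 - C 1 : K0[X]) = 0 := by
    simp only [map_sub, map_pow, aeval_X, aeval_C, map_one, h1, sub_self]
  exact X_pow_sub_C_ne_zero (by norm_num) (1 : K0) (transcendental_iff.mp h.transc _ h2)

theorem botH_mu (h : IsHesse ω μ j') (g : Idx) : botH (algebraMap K0 M ω) g μ ≠ 0 :=
  botH_ne_zero (omega_pow_three h.omega') g h.denJ_mu

/-- distinct indices give distinct conjugates of `μ` -/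
theorem actH_injective (h : IsHesse ω μ j') :
    Function.Injective (fun g : Idx => actH (algebraMap K0 M ω) g μ) := by
  intro g g' hgg
  simp only [actH] at hgg
  rw [div_eq_div_iff (h.botH_mu g) (h.botH_mu g')] at hgg
  apply idx_eq_of_cross h.omega h.three
  intro x
  let p : K0[X] := topH (C ω) g X * botH (C ω) g' X - topH (C ω) g' X * botH (C ω) g X
  have hp : aeval μ p = 0 := by
    have e1 : ∀ q : K0[X], aeval μ q = (aeval μ : K0[X] →ₐ[K0] M).toRingHom q := fun _ => rfl
    simp only [p, map_sub, map_mul]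
    simp only [e1, map_topH, map_botH]
    simp only [AlgHom.toRingHom_eq_coe, RingHom.coe_coe, aeval_C, aeval_X]
    rw [hgg, sub_self]
  have hp0 : p = 0 := transcendental_iff.mp h.transc p hp
  have hx : (evalRingHom x) p = 0 := by rw [hp0, map_zero]
  simp only [p, map_sub, map_mul, map_topH, map_botH, coe_evalRingHom, eval_C, eval_X] at hx
  exact sub_eq_zero.mp hx

theorem isCover (h : IsHesse ω μ j') :
    IsCover μ j' (numP K0) (denP K0) (fun g : Idx => actH (algebraMap K0 M ω) g μ) where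
  transc := h.transc
  top := h.top
  gen := h.gen
  deg_lt := by rw [natDegree_numP h.three, natDegree_denP]; norm_num
  den_mu := by rw [aeval_denP]; exact h.denJ_mu
  eq_j := by rw [aeval_numP, aeval_denP, h.eq_j]; rfl
  inj := h.actH_injective
  eq_j' := fun g => by
    rw [aeval_numP, aeval_denP, h.eq_j]
    exact jH_actH (omega_pow_three h.omega') h.three' g (h.botH_mu g)

theorem card_idx : Fintype.card Idx = 12 := by decide

theorem hcard (h : IsHesse ω μ j') : Fintype.card Idx = (numP K0).natDegree := by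
  rw [natDegree_numP h.three, card_idx]

/-- (G1) `jH μ` is transcendental over `K0` -/
theorem transcendental_j (h : IsHesse ω μ j') : Transcendental K0 j' := h.isCover.transcendental_j

theorem finiteDimensional (h : IsHesse ω μ j') : FiniteDimensional E M := h.isCover.finiteDimensional

/-- (G2) `[K0(μ) : K0(jH μ)] = 12` -/
theorem finrank_eq (h : IsHesse ω μ j') : Module.finrank E M = 12 := by
  rw [h.isCover.finrank_eq h.hcard, natDegree_numP h.three]

/-- (G4) `K0(μ) / K0(jH μ)` is Galois -/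
theorem isGalois (h : IsHesse ω μ j') : IsGalois E M := h.isCover.isGalois h.hcard

theorem card_aut (h : IsHesse ω μ j') : Nat.card (M ≃ₐ[E] M) = 12 := by
  rw [h.isCover.card_aut h.hcard, natDegree_numP h.three]

/-- (G3) the automorphism `μ ↦ g μ` of `K0(μ)` over `K0(jH μ)` -/
noncomputable def actEquiv (h : IsHesse ω μ j') (g : Idx) : M ≃ₐ[E] M := h.isCover.toAut g

@[simp] theorem actEquiv_apply_mu (h : IsHesse ω μ j') (g : Idx) :
    h.actEquiv g μ = actH (algebraMap K0 M ω) g μ := h.isCover.toAut_apply_mu g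

/-- (G5) the Galois group of `K0(μ) / K0(jH μ)` is the set of the twelve Moebius maps -/
noncomputable def galEquiv (h : IsHesse ω μ j') : (M ≃ₐ[E] M) ≃ Idx := h.isCover.autEquiv h.hcard

@[simp] theorem galEquiv_symm_apply (h : IsHesse ω μ j') (g : Idx) :
    h.galEquiv.symm g = h.actEquiv g := rfl

@[simp] theorem galEquiv_actEquiv (h : IsHesse ω μ j') (g : Idx) :
    h.galEquiv (h.actEquiv g) = g := h.isCover.autEquiv_toAut h.hcard g

theorem actEquiv_galEquiv (h : IsHesse ω μ j') (σ : M ≃ₐ[E] M) :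
    h.actEquiv (h.galEquiv σ) = σ := h.isCover.toAut_autEquiv h.hcard σ

/-- every automorphism acts on `μ` by the Moebius map of its index -/
theorem apply_mu (h : IsHesse ω μ j') (σ : M ≃ₐ[E] M) :
    σ μ = actH (algebraMap K0 M ω) (h.galEquiv σ) μ := h.isCover.apply_mu h.hcard σ

theorem galEquiv_eq_iff (h : IsHesse ω μ j') (σ : M ≃ₐ[E] M) (g : Idx) :
    h.galEquiv σ = g ↔ σ μ = actH (algebraMap K0 M ω) g μ := h.isCover.autEquiv_eq_iff h.hcard σ g

theorem algEquiv_ext (h : IsHesse ω μ j') {σ τ : M ≃ₐ[E] M} (hμ : σ μ = τ μ) : σ = τ :=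
  h.isCover.algEquiv_ext hμ

/-- the identity has index `inl 0` -/
theorem galEquiv_one (h : IsHesse ω μ j') : h.galEquiv 1 = Sum.inl 0 := by
  rw [galEquiv_eq_iff]
  simp [actH]

theorem galEquiv_eq_inl_zero_iff (h : IsHesse ω μ j') (σ : M ≃ₐ[E] M) :
    h.galEquiv σ = Sum.inl 0 ↔ σ = 1 := by
  rw [← h.galEquiv_one]
  exact h.galEquiv.apply_eq_iff_eq

theorem apply_aeval (h : IsHesse ω μ j') (σ : M ≃ₐ[E] M) (p : K0[X]) :
    σ (aeval μ p) = aeval (actH (algebraMap K0 M ω) (h.galEquiv σ) μ) p := by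
  rw [← h.apply_mu σ]
  exact (aeval_algHom_apply ((σ : M →ₐ[E] M).restrictScalars K0) μ p).symm

end IsHesse

end Cover

section Instances

variable {K0 M : Type*} [Field K0] [Field M] [Algebra K0 M]

/-- the Hesse cover with `E := K0(jH μ)` as an intermediate field of `M = K0(μ)` -/
theorem isHesse_adjoin {ω : K0} {μ : M} (hω : ω ^ 2 + ω + 1 = 0) (h3 : (3 : K0) ≠ 0)
    (hμ : Transcendental K0 μ) (htop : K0⟮μ⟯ = ⊤) :
    IsHesse (E := K0⟮jH μ⟯) ω μ (AdjoinSimple.gen K0 (jH μ)) where
  omega := hω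
  three := h3
  transc := hμ
  top := htop
  gen := adjoin_gen_eq_top _
  eq_j := rfl

/-- the Hesse cover of the rational function field `K0(X)` over `K0(jH X)` -/
theorem isHesse_ratFunc {ω : K0} (hω : ω ^ 2 + ω + 1 = 0) (h3 : (3 : K0) ≠ 0) :
    IsHesse (E := K0⟮jH (RatFunc.X : RatFunc K0)⟯) ω (RatFunc.X : RatFunc K0)
      (AdjoinSimple.gen K0 (jH (RatFunc.X : RatFunc K0))) :=
  isHesse_adjoin hω h3 RatFunc.transcendental_X RatFunc.adjoin_X

end Instances

end Fermat.Agent.S18.C.HesseGalois
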