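import Fermat.Agent.S18.C.Legendre
import Fermat.Agent.S18.C.MoebiusGalois

/-!
# PROJECT H (S18), block C0g: the Legendre cover `la ↦ jL la` is Galois with group the six
anharmonic Moebius maps
-/

set_option autoImplicit false
set_option linter.unusedSectionVars false
set_option linter.unusedSimpArgs false

namespace Fermat.Agent.S18.C.LegendreGalois

open Polynomial IntermediateField
open Fermat.Agent.S18.C.Legendre Fermat.Agent.S18.C.MoebiusGalois

section Ring

variable {R S : Type*} [CommRing R] [CommRing S]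

theorem map_cA (f : R →+* S) (g : Fin 6) : f (cA g) = cA g := by
  fin_cases g <;> simp [cA]

theorem map_cB (f : R →+* S) (g : Fin 6) : f (cB g) = cB g := by
  fin_cases g <;> simp [cB]

theorem map_cC (f : R →+* S) (g : Fin 6) : f (cC g) = cC g := by
  fin_cases g <;> simp [cC]

theorem map_cD (f : R →+* S) (g : Fin 6) : f (cD g) = cD g := by
  fin_cases g <;> simp [cD]

theorem map_topL (f : R →+* S) (g : Fin 6) (x : R) : f (topL g x) = topL g (f x) := by
  simp only [topL, map_add, map_mul, map_cA, map_cB]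

theorem map_botL (f : R →+* S) (g : Fin 6) (x : R) : f (botL g x) = botL g (f x) := by
  simp only [botL, map_add, map_mul, map_cC, map_cD]

end Ring

section Field

variable {K0 : Type*} [Field K0]

theorem idx_eq_of_cross {g g' : Fin 6}
    (h : ∀ x : K0, topL g x * botL g' x = topL g' x * botL g x) : g = g' := by
  have h0 := h 0
  have h1 := h 1
  fin_cases g <;> fin_cases g' <;> simp at h0 h1 ⊢

end Field

section Cover

variable {K0 E M : Type*} [Field K0] [Field E] [Field M] [Algebra K0 E] [Algebra E M]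
  [Algebra K0 M] [IsScalarTower K0 E M]

variable (K0) in
/-- the numerator `256 (X^2 - X + 1)^3` of the Legendre `j`-function as a polynomial -/
noncomputable def numP : K0[X] := C 256 * (X ^ 2 - X + C 1) ^ 3

variable (K0) in
/-- the denominator `X^2 (X - 1)^2` of the Legendre `j`-function as a polynomial -/
noncomputable def denP : K0[X] := X ^ 2 * (X - C 1) ^ 2

theorem aeval_numP (x : M) : aeval x (numP K0) = numL x := by
  simp only [numP, numL, map_mul, map_pow, map_add, map_sub, aeval_C, aeval_X, map_ofNat, map_one]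

theorem aeval_denP (x : M) : aeval x (denP K0) = denL x := by
  simp only [denP, denL, map_mul, map_pow, map_sub, aeval_C, aeval_X, map_one]

theorem natDegree_numP (h2 : (2 : K0) ≠ 0) : (numP K0).natDegree = 6 := by
  have h256 : (256 : K0) ≠ 0 := by
    have : (256 : K0) = 2 ^ 8 := by norm_num
    rw [this]; exact pow_ne_zero 8 h2
  unfold numP
  compute_degree!

theorem natDegree_denP : (denP K0).natDegree = 4 := by
  unfold denP
  compute_degree!

/-- The hypotheses for the Legendre cover: a tower `K0 → E → M`, `M = K0(μ)` with `μ`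
transcendental, `E = K0(j')` with `j' = jL μ`; `2 ≠ 0`. -/
structure IsLegendre (μ : M) (j' : E) : Prop where
  two : (2 : K0) ≠ 0
  transc : Transcendental K0 μ
  top : K0⟮μ⟯ = ⊤
  gen : K0⟮j'⟯ = ⊤
  eq_j : algebraMap E M j' = jL μ

namespace IsLegendre

variable {μ : M} {j' : E}

theorem denL_mu (h : IsLegendre (K0 := K0) μ j') : denL μ ≠ 0 := by
  rw [denL_ne_zero_iff]
  constructor
  · intro h1
    have h2 : aeval μ (X : K0[X]) = 0 := by rw [aeval_X, h1]
    exact X_ne_zero (transcendental_iff.mp h.transc _ h2)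
  · intro h1
    have h2 : aeval μ (X - C 1 : K0[X]) = 0 := by
      simp only [map_sub, aeval_X, aeval_C, map_one, h1, sub_self]
    exact X_sub_C_ne_zero (1 : K0) (transcendental_iff.mp h.transc _ h2)

theorem botL_mu (h : IsLegendre (K0 := K0) μ j') (g : Fin 6) : botL g μ ≠ 0 :=
  botL_ne_zero g h.denL_mu

/-- distinct indices give distinct conjugates of `μ` -/
theorem actL_injective (h : IsLegendre (K0 := K0) μ j') :
    Function.Injective (fun g : Fin 6 => actL g μ) := by
  intro g g' hgg
  simp only [actL] at hgg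
  rw [div_eq_div_iff (h.botL_mu g) (h.botL_mu g')] at hgg
  apply idx_eq_of_cross (K0 := K0)
  intro x
  let p : K0[X] := topL g X * botL g' X - topL g' X * botL g X
  have hp : aeval μ p = 0 := by
    have e1 : ∀ q : K0[X], aeval μ q = (aeval μ : K0[X] →ₐ[K0] M).toRingHom q := fun _ => rfl
    simp only [p, map_sub, map_mul]
    simp only [e1, map_topL, map_botL]
    simp only [AlgHom.toRingHom_eq_coe, RingHom.coe_coe, aeval_X]
    rw [hgg, sub_self]
  have hp0 : p = 0 := transcendental_iff.mp h.transc p hp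
  have hx : (evalRingHom x) p = 0 := by rw [hp0, map_zero]
  simp only [p, map_sub, map_mul, map_topL, map_botL, coe_evalRingHom, eval_X] at hx
  exact sub_eq_zero.mp hx

theorem isCover (h : IsLegendre (K0 := K0) μ j') :
    IsCover μ j' (numP K0) (denP K0) (fun g : Fin 6 => actL g μ) where
  transc := h.transc
  top := h.top
  gen := h.gen
  deg_lt := by rw [natDegree_numP h.two, natDegree_denP]; norm_num
  den_mu := by rw [aeval_denP]; exact h.denL_mu
  eq_j := by rw [aeval_numP, aeval_denP, h.eq_j]; rfl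
  inj := h.actL_injective
  eq_j' := fun g => by
    rw [aeval_numP, aeval_denP, h.eq_j]
    exact jL_actL g (h.botL_mu g)

theorem hcard (h : IsLegendre (K0 := K0) μ j') : Fintype.card (Fin 6) = (numP K0).natDegree := by
  rw [natDegree_numP h.two, Fintype.card_fin]

/-- (G1) `jL μ` is transcendental over `K0` -/
theorem transcendental_j (h : IsLegendre (K0 := K0) μ j') : Transcendental K0 j' :=
  h.isCover.transcendental_j

theorem finiteDimensional (h : IsLegendre (K0 := K0) μ j') : FiniteDimensional E M :=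
  h.isCover.finiteDimensional

/-- (G2) `[K0(μ) : K0(jL μ)] = 6` -/
theorem finrank_eq (h : IsLegendre (K0 := K0) μ j') : Module.finrank E M = 6 := by
  rw [h.isCover.finrank_eq h.hcard, natDegree_numP h.two]

/-- (G4) `K0(μ) / K0(jL μ)` is Galois -/
theorem isGalois (h : IsLegendre (K0 := K0) μ j') : IsGalois E M := h.isCover.isGalois h.hcard

theorem card_aut (h : IsLegendre (K0 := K0) μ j') : Nat.card (M ≃ₐ[E] M) = 6 := by
  rw [h.isCover.card_aut h.hcard, natDegree_numP h.two]

/-- (G3) the automorphism `μ ↦ g μ` of `K0(μ)` over `K0(jL μ)` -/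
noncomputable def actEquiv (h : IsLegendre (K0 := K0) μ j') (g : Fin 6) : M ≃ₐ[E] M :=
  h.isCover.toAut g

@[simp] theorem actEquiv_apply_mu (h : IsLegendre (K0 := K0) μ j') (g : Fin 6) :
    h.actEquiv g μ = actL g μ := h.isCover.toAut_apply_mu g

/-- (G5) the Galois group of `K0(μ) / K0(jL μ)` is the set of the six Moebius maps -/
noncomputable def galEquiv (h : IsLegendre (K0 := K0) μ j') : (M ≃ₐ[E] M) ≃ Fin 6 :=
  h.isCover.autEquiv h.hcard

@[simp] theorem galEquiv_symm_apply (h : IsLegendre (K0 := K0) μ j') (g : Fin 6) :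
    h.galEquiv.symm g = h.actEquiv g := rfl

@[simp] theorem galEquiv_actEquiv (h : IsLegendre (K0 := K0) μ j') (g : Fin 6) :
    h.galEquiv (h.actEquiv g) = g := h.isCover.autEquiv_toAut h.hcard g

theorem actEquiv_galEquiv (h : IsLegendre (K0 := K0) μ j') (σ : M ≃ₐ[E] M) :
    h.actEquiv (h.galEquiv σ) = σ := h.isCover.toAut_autEquiv h.hcard σ

/-- every automorphism acts on `μ` by the Moebius map of its index -/
theorem apply_mu (h : IsLegendre (K0 := K0) μ j') (σ : M ≃ₐ[E] M) :
    σ μ = actL (h.galEquiv σ) μ := h.isCover.apply_mu h.hcard σ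

theorem galEquiv_eq_iff (h : IsLegendre (K0 := K0) μ j') (σ : M ≃ₐ[E] M) (g : Fin 6) :
    h.galEquiv σ = g ↔ σ μ = actL g μ := h.isCover.autEquiv_eq_iff h.hcard σ g

theorem algEquiv_ext (h : IsLegendre (K0 := K0) μ j') {σ τ : M ≃ₐ[E] M} (hμ : σ μ = τ μ) :
    σ = τ :=
  h.isCover.algEquiv_ext hμ

/-- the identity has index `0` -/
theorem galEquiv_one (h : IsLegendre (K0 := K0) μ j') : h.galEquiv 1 = 0 := by
  rw [galEquiv_eq_iff]
  simp [actL]

theorem galEquiv_eq_zero_iff (h : IsLegendre (K0 := K0) μ j') (σ : M ≃ₐ[E] M) :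
    h.galEquiv σ = 0 ↔ σ = 1 := by
  rw [← h.galEquiv_one]
  exact h.galEquiv.apply_eq_iff_eq

theorem apply_aeval (h : IsLegendre (K0 := K0) μ j') (σ : M ≃ₐ[E] M) (p : K0[X]) :
    σ (aeval μ p) = aeval (actL (h.galEquiv σ) μ) p := by
  rw [← h.apply_mu σ]
  exact (aeval_algHom_apply ((σ : M →ₐ[E] M).restrictScalars K0) μ p).symm

end IsLegendre

end Cover

section Instances

variable {K0 M : Type*} [Field K0] [Field M] [Algebra K0 M]

/-- the Legendre cover with `E := K0(jL μ)` as an intermediate field of `M = K0(μ)` -/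
theorem isLegendre_adjoin {μ : M} (h2 : (2 : K0) ≠ 0)
    (hμ : Transcendental K0 μ) (htop : K0⟮μ⟯ = ⊤) :
    IsLegendre (K0 := K0) (E := K0⟮jL μ⟯) μ (AdjoinSimple.gen K0 (jL μ)) where
  two := h2
  transc := hμ
  top := htop
  gen := adjoin_gen_eq_top _
  eq_j := rfl

/-- the Legendre cover of the rational function field `K0(X)` over `K0(jL X)` -/
theorem isLegendre_ratFunc (h2 : (2 : K0) ≠ 0) :
    IsLegendre (K0 := K0) (E := K0⟮jL (RatFunc.X : RatFunc K0)⟯) (RatFunc.X : RatFunc K0)
      (AdjoinSimple.gen K0 (jL (RatFunc.X : RatFunc K0))) :=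
  isLegendre_adjoin h2 RatFunc.transcendental_X RatFunc.adjoin_X

end Instances

end Fermat.Agent.S18.C.LegendreGalois
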