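import Fermat.Agent.S18.C.Defs
import Fermat.Agent.S18.C.SurfaceDefs
import Fermat.Agent.S18.C.HesseDisc
import Fermat.Agent.S18.C.LegendreDisc
import Fermat.Agent.S18.C.HesseGalois
import Fermat.Agent.S18.C.LegendreGalois
import Fermat.Agent.S18.C.DiscSubst

/-!
# PROJECT H (S18), block C, slice H-C7g: the two covers as terms of `Defs.Cover`

* `hesse`, `legendre : Defs.Cover` (Legendre recentred at `t = la + 1`);
* `Good` over every field of characteristic `≠ 3` (Hesse) resp. `≠ 2` (Legendre);
* for `K ∋ ω` (Hesse): `IsGalois (RatFunc K) (MuLine hesse K)`, `Nat.card (hesse.Gal K) = 12`,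
  `hesseIdx : hesse.Gal K ≃ Idx` with `g μ = topH ω g μ / botH ω g μ`; same for Legendre with
  `Fin 6` and `topT / botT`;
* `covMap` maps `discRing V` (`j`-line) into `BRing c V` (`μ`-line) when `P(0) ∈ 𝔪_V`, `Q(0) ∈ Vˣ`;
* every `g ∈ Gal` maps `BRing c V` into itself (`IsInvariantSubring`) when `v 2 < 1` (Hesse) resp.
  `v 3 < 1` (Legendre).
-/

set_option autoImplicit false
set_option linter.unusedSectionVars false

noncomputable section

namespace Fermat.Agent.S18.C.CoverInst

open Polynomial IntermediateField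
open Fermat.Agent.S18.C.Defs Fermat.Agent.S18.C.SurfaceDefs

/-! ### general covers -/

section General

variable (c : Cover) (K : Type*) [Field K]

theorem jOf_mul (hQ : c.QK K ≠ 0) :
    c.jOf K * algebraMap K[X] (RatFunc K) (c.QK K) = algebraMap K[X] (RatFunc K) (c.PK K) := by
  unfold Cover.jOf
  rw [div_mul_cancel₀]
  exact (map_ne_zero_iff _ (IsFractionRing.injective K[X] (RatFunc K))).mpr hQ

/-- a cover with `deg Q < deg P` over `K` is nonconstant -/
theorem good_of_natDegree_lt (hQ : c.QK K ≠ 0) (h : (c.QK K).natDegree < (c.PK K).natDegree) :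
    c.Good K := by
  refine ⟨RatFunc.transcendental_of_ne_C _ ?_⟩
  rintro ⟨x, hx⟩
  have h1 := jOf_mul c K hQ
  rw [hx, ← RatFunc.algebraMap_C, ← map_mul] at h1
  have h2 : Polynomial.C x * c.QK K = c.PK K := IsFractionRing.injective K[X] (RatFunc K) h1
  have h3 := natDegree_C_mul_le x (c.QK K)
  rw [h2] at h3
  omega

variable {K} [c.Good K] (V : ValuationSubring K)

/-- `covMap` maps the disc ring of the `j`-line into the disc ring of the `μ`-line as soon as
`P(0) ∈ 𝔪_V` and `Q(0) ∈ Vˣ` -/
theorem covMap_mem_BRing (hP : V.valuation ((c.PK K).coeff 0) < 1)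
    (hQ : V.valuation ((c.QK K).coeff 0) = 1) {f : RatFunc K} (hf : f ∈ discRing V) :
    algebraMap (RatFunc K) (MuLine c K) f ∈ BRing c V := by
  rw [mem_BRing]
  have hQ0 : c.QK K ≠ 0 := by
    intro h0
    rw [h0, coeff_zero, map_zero] at hQ
    exact zero_ne_one hQ
  let φ : RatFunc K →ₐ[K] RatFunc K :=
    ((MuLine.of c K).symm : MuLine c K →ₐ[K] RatFunc K).comp (c.covMap K)
  have hφ : φ RatFunc.X * algebraMap K[X] (RatFunc K) (c.QK K) =
      algebraMap K[X] (RatFunc K) (c.PK K) := by
    have : φ RatFunc.X = c.jOf K := by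
      show (MuLine.of c K).symm (algebraMap (RatFunc K) (MuLine c K) RatFunc.X) = _
      rw [Cover.algebraMap_X]
      rfl
    rw [this, jOf_mul c K hQ0]
  exact DiscSubst.map_mem_discRing V φ (DiscSubst.map_int_mem_polyV V c.P)
    (DiscSubst.map_int_mem_polyV V c.Q) hP hQ hφ hf

/-- an element `g` of the group of the cover acting on `μ` by `T(μ) / B(μ)` with `T, B ∈ V[X]`,
`T(0) ∈ 𝔪_V`, `B(0) ∈ Vˣ`, maps `B_V` into itself -/
theorem gal_mem_BRing (g : c.Gal K) {T B : K[X]} (hT : T ∈ polyV V) (hB : B ∈ polyV V)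
    (hT0 : V.valuation (T.coeff 0) < 1) (hB0 : V.valuation (B.coeff 0) = 1)
    (hg : g (MuLine.mu c K) * MuLine.of c K (algebraMap K[X] (RatFunc K) B) =
      MuLine.of c K (algebraMap K[X] (RatFunc K) T))
    {m : MuLine c K} (hm : m ∈ BRing c V) : g m ∈ BRing c V := by
  rw [mem_BRing] at hm ⊢
  let φ : RatFunc K →ₐ[K] RatFunc K :=
    ((MuLine.of c K).symm : MuLine c K →ₐ[K] RatFunc K).comp
      (((g.restrictScalars K : MuLine c K ≃ₐ[K] MuLine c K) : MuLine c K →ₐ[K] MuLine c K).comp
        (MuLine.of c K : RatFunc K →ₐ[K] MuLine c K))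
  have hφ : φ RatFunc.X * algebraMap K[X] (RatFunc K) B = algebraMap K[X] (RatFunc K) T := by
    have h1 := congrArg (MuLine.of c K).symm hg
    rw [map_mul, AlgEquiv.symm_apply_apply, AlgEquiv.symm_apply_apply] at h1
    exact h1
  have := DiscSubst.map_mem_discRing V φ hT hB hT0 hB0 hφ hm
  exact this

end General

section NoGood

variable {K : Type*} [Field K]

theorem transcendental_mu (c : Cover) : Transcendental K (MuLine.mu c K) :=
  RatFunc.transcendental_X (K := K)

theorem adjoin_mu (c : Cover) : K⟮MuLine.mu c K⟯ = ⊤ := RatFunc.adjoin_X (K := K)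

theorem transcendental_mu_sub_one (c : Cover) : Transcendental K (MuLine.mu c K - 1) := by
  intro h
  apply transcendental_mu (K := K) c
  have : MuLine.mu c K = (MuLine.mu c K - 1) + algebraMap K (MuLine c K) 1 := by
    rw [map_one]; ring
  rw [this]
  exact h.add (isAlgebraic_algebraMap 1)

theorem adjoin_mu_sub_one (c : Cover) : K⟮MuLine.mu c K - 1⟯ = ⊤ := by
  rw [eq_top_iff, ← adjoin_mu c, adjoin_simple_le_iff]
  have h := add_mem (mem_adjoin_simple_self K (MuLine.mu c K - 1))
    (one_mem (K⟮MuLine.mu c K - 1⟯))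
  rwa [sub_add_cancel] at h

/-- the ring hom `K[X] → MuLine c K`, `X ↦ μ` -/
def polyToMu (c : Cover) : K[X] →+* MuLine c K :=
  ((MuLine.of c K : RatFunc K ≃ₐ[K] MuLine c K) : RatFunc K →+* MuLine c K).comp
    (algebraMap K[X] (RatFunc K))

theorem polyToMu_apply (c : Cover) (p : K[X]) :
    polyToMu c p = MuLine.of c K (algebraMap K[X] (RatFunc K) p) := rfl

theorem polyToMu_C (c : Cover) (x : K) : polyToMu c (C x) = algebraMap K (MuLine c K) x := by
  rw [polyToMu_apply, RatFunc.algebraMap_C, ← RatFunc.algebraMap_eq_C]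
  exact (MuLine.of c K).commutes x

theorem polyToMu_X (c : Cover) : polyToMu c (X : K[X]) = MuLine.mu c K := by
  rw [polyToMu_apply, RatFunc.algebraMap_X]
  rfl

end NoGood


/-! ### the Hesse cover -/

/-- the Hesse cover `j = 27 μ^3 (μ^3 + 8)^3 / (μ^3 - 1)^3` -/
def hesse : Cover := ⟨HesseDisc.polyP ℤ, HesseDisc.polyQ ℤ⟩

/-- the Legendre cover recentred at `t = la + 1`:
`j = 256 (t^2 - 3 t + 3)^3 / ((t - 1)^2 (t - 2)^2)` -/
def legendre : Cover := ⟨LegendreDisc.polyPT ℤ, LegendreDisc.polyQT ℤ⟩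

section Hesse

open Fermat.Agent.S18.C.Hesse

variable (K : Type*) [Field K]

theorem hesse_PK : hesse.PK K = HesseDisc.polyP K := HesseDisc.map_polyP _
theorem hesse_QK : hesse.QK K = HesseDisc.polyQ K := HesseDisc.map_polyQ _

theorem hesse_PK_coeff_zero : (hesse.PK K).coeff 0 = 0 := by
  rw [hesse_PK, coeff_zero_eq_eval_zero, HesseDisc.eval_polyP]
  unfold numJ; ring

theorem hesse_QK_coeff_zero : (hesse.QK K).coeff 0 = -1 := by
  rw [hesse_QK, HesseDisc.coeff_zero_polyQ]

theorem natDegree_hesse_QK : (hesse.QK K).natDegree = 9 := by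
  rw [hesse_QK, HesseDisc.natDegree_polyQ]

theorem natDegree_hesse_PK (h3 : (3 : K) ≠ 0) : (hesse.PK K).natDegree = 12 := by
  rw [hesse_PK]
  apply le_antisymm (HesseDisc.natDegree_polyP_le K)
  apply le_natDegree_of_ne_zero
  rw [HesseDisc.coeff_polyP_twelve]
  have : (27 : K) = 3 ^ 3 := by norm_num
  rw [this]; exact pow_ne_zero 3 h3

/-- the Hesse cover is nonconstant in every characteristic `≠ 3` -/
theorem hesse_good (h3 : (3 : K) ≠ 0) : hesse.Good K := by
  apply good_of_natDegree_lt
  · intro h0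
    have := hesse_QK_coeff_zero K
    rw [h0, coeff_zero] at this
    exact one_ne_zero (neg_eq_zero.mp this.symm)
  · rw [natDegree_hesse_QK, natDegree_hesse_PK K h3]; norm_num

instance hesse_good_of_charZero [CharZero K] : hesse.Good K :=
  hesse_good K (by norm_num)

/-- the Hesse cover is nonconstant in characteristic `2` -/
theorem hesse_good_of_two_eq_zero (h2 : (2 : K) = 0) : hesse.Good K := by
  apply hesse_good
  have : (3 : K) = 1 := by linear_combination h2
  rw [this]; exact one_ne_zero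

variable {K} [hesse.Good K]

theorem of_algebraMap_polyP :
    MuLine.of hesse K (algebraMap K[X] (RatFunc K) (HesseDisc.polyP K)) =
      numJ (MuLine.mu hesse K) := by
  rw [← RatFunc.aeval_X_left_eq_algebraMap, ← aeval_algHom_apply, HesseDisc.aeval_polyP]
  rfl

theorem of_algebraMap_polyQ :
    MuLine.of hesse K (algebraMap K[X] (RatFunc K) (HesseDisc.polyQ K)) =
      denJ (MuLine.mu hesse K) := by
  rw [← RatFunc.aeval_X_left_eq_algebraMap, ← aeval_algHom_apply, HesseDisc.aeval_polyQ]
  rfl

theorem hesse_algebraMap_X :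
    algebraMap (RatFunc K) (MuLine hesse K) RatFunc.X = jH (MuLine.mu hesse K) := by
  rw [Cover.algebraMap_X]
  unfold MuLine.j Cover.jOf jH
  rw [map_div₀, hesse_PK, hesse_QK, of_algebraMap_polyP, of_algebraMap_polyQ]

/-- the Hesse cover over a field `K ∋ ω` of characteristic `≠ 3` -/
theorem isHesse {ω : K} (hω : ω ^ 2 + ω + 1 = 0) (h3 : (3 : K) ≠ 0) :
    HesseGalois.IsHesse (E := RatFunc K) (M := MuLine hesse K) ω (MuLine.mu hesse K)
      (RatFunc.X : RatFunc K) where
  omega := hω
  three := h3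
  transc := transcendental_mu hesse
  top := adjoin_mu hesse
  gen := RatFunc.adjoin_X
  eq_j := hesse_algebraMap_X

theorem isGalois_hesse {ω : K} (hω : ω ^ 2 + ω + 1 = 0) (h3 : (3 : K) ≠ 0) :
    IsGalois (RatFunc K) (MuLine hesse K) := (isHesse hω h3).isGalois

theorem finiteDimensional_hesse {ω : K} (hω : ω ^ 2 + ω + 1 = 0) (h3 : (3 : K) ≠ 0) :
    FiniteDimensional (RatFunc K) (MuLine hesse K) := (isHesse hω h3).finiteDimensional

theorem finrank_hesse {ω : K} (hω : ω ^ 2 + ω + 1 = 0) (h3 : (3 : K) ≠ 0) :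
    Module.finrank (RatFunc K) (MuLine hesse K) = 12 := (isHesse hω h3).finrank_eq

theorem card_gal_hesse {ω : K} (hω : ω ^ 2 + ω + 1 = 0) (h3 : (3 : K) ≠ 0) :
    Nat.card (hesse.Gal K) = 12 := (isHesse hω h3).card_aut

/-- the identification of the group of the Hesse cover with the twelve Moebius maps -/
def hesseIdx {ω : K} (hω : ω ^ 2 + ω + 1 = 0) (h3 : (3 : K) ≠ 0) : hesse.Gal K ≃ Idx :=
  (isHesse hω h3).galEquiv

theorem hesseIdx_one {ω : K} (hω : ω ^ 2 + ω + 1 = 0) (h3 : (3 : K) ≠ 0) :
    hesseIdx hω h3 1 = Sum.inl 0 := (isHesse hω h3).galEquiv_one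

theorem hesseIdx_eq_inl_zero_iff {ω : K} (hω : ω ^ 2 + ω + 1 = 0) (h3 : (3 : K) ≠ 0)
    (g : hesse.Gal K) : hesseIdx hω h3 g = Sum.inl 0 ↔ g = 1 :=
  (isHesse hω h3).galEquiv_eq_inl_zero_iff g

/-- `g μ = topH ω g μ / botH ω g μ` -/
theorem hesse_apply_mu {ω : K} (hω : ω ^ 2 + ω + 1 = 0) (h3 : (3 : K) ≠ 0) (g : hesse.Gal K) :
    g (MuLine.mu hesse K) =
      actH (algebraMap K (MuLine hesse K) ω) (hesseIdx hω h3 g) (MuLine.mu hesse K) :=
  (isHesse hω h3).apply_mu g

theorem hesse_botH_ne_zero {ω : K} (hω : ω ^ 2 + ω + 1 = 0) (h3 : (3 : K) ≠ 0) (i : Idx) :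
    botH (algebraMap K (MuLine hesse K) ω) i (MuLine.mu hesse K) ≠ 0 :=
  (isHesse hω h3).botH_mu i

section Subring

variable {R : Type*} [CommRing R] (S : Subring R)

theorem topH_mem {ω x : R} (hω : ω ∈ S) (hx : x ∈ S) (g : Idx) : topH ω g x ∈ S := by
  rcases g with a | ⟨a, c⟩
  · rw [topH_inl]; exact S.mul_mem (S.pow_mem hω _) hx
  · rw [topH_inr]
    exact S.mul_mem (S.pow_mem hω _) (S.add_mem hx (S.mul_mem (ofNat_mem S 2) (S.pow_mem hω _)))

theorem botH_mem {ω x : R} (hω : ω ∈ S) (hx : x ∈ S) (g : Idx) : botH ω g x ∈ S := by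
  rcases g with a | ⟨a, c⟩
  · rw [botH_inl]; exact S.one_mem
  · rw [botH_inr]; exact S.sub_mem hx (S.pow_mem hω _)

end Subring

/-- every element of the group of the Hesse cover maps `B_V` into itself when `v 2 < 1` -/
theorem hesse_gal_mem_BRing {ω : K} (hω : ω ^ 2 + ω + 1 = 0) (V : ValuationSubring K)
    (h2 : V.valuation 2 < 1) (g : hesse.Gal K) {m : MuLine hesse K} (hm : m ∈ BRing hesse V) :
    g m ∈ BRing hesse V := by
  have h3 : (3 : K) ≠ 0 := HesseDisc.three_ne_zero_of_val V.valuation h2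
  set i := hesseIdx hω h3 g with hi
  have hvω : V.valuation ω = 1 :=
    DiscBasic.val_eq_one_of_pow_eq_one _ (by norm_num) (omega_pow_three hω)
  have hωV : ω ∈ V := (V.valuation_le_one_iff ω).mp hvω.le
  refine gal_mem_BRing hesse V g (T := topH (C ω) i X) (B := botH (C ω) i X) ?_ ?_ ?_ ?_ ?_ hm
  · exact topH_mem (polyV V) (DiscSubst.C_mem_polyV V hωV) (DiscSubst.X_mem_polyV V) i
  · exact botH_mem (polyV V) (DiscSubst.C_mem_polyV V hωV) (DiscSubst.X_mem_polyV V) i
  · rw [coeff_zero_eq_eval_zero, ← coe_evalRingHom, HesseGalois.map_topH, coe_evalRingHom, eval_C,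
      eval_X]
    rcases i with a | ⟨a, c⟩
    · rw [HesseDisc.topH_zero_inl, map_zero]; exact zero_lt_one
    · rw [HesseDisc.topH_zero_inr, map_mul, map_mul, map_pow, map_pow, hvω, one_pow, one_pow,
        mul_one, mul_one]
      exact h2
  · rw [coeff_zero_eq_eval_zero, ← coe_evalRingHom, HesseGalois.map_botH, coe_evalRingHom, eval_C,
      eval_X]
    rcases i with a | ⟨a, c⟩
    · rw [HesseDisc.botH_zero_inl, map_one]
    · rw [HesseDisc.botH_zero_inr, Valuation.map_neg, map_pow, hvω, one_pow]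
  · rw [← polyToMu_apply, ← polyToMu_apply, HesseGalois.map_topH, HesseGalois.map_botH,
      polyToMu_C, polyToMu_X, hesse_apply_mu hω h3 g, ← hi]
    unfold actH
    rw [div_mul_cancel₀ _ (hesse_botH_ne_zero hω h3 i)]

/-- `B_V` is stable under the group of the Hesse cover when `v 2 < 1` -/
theorem isInvariantSubring_hesse {ω : K} (hω : ω ^ 2 + ω + 1 = 0) (V : ValuationSubring K)
    (h2 : V.valuation 2 < 1) : IsInvariantSubring (hesse.Gal K) (BRing hesse V) :=
  ⟨fun g _ hx => hesse_gal_mem_BRing hω V h2 g hx⟩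

/-- `covMap` maps the disc ring of the `j`-line into `B_V` for the Hesse cover -/
theorem hesse_covMap_mem_BRing (V : ValuationSubring K) {f : RatFunc K} (hf : f ∈ discRing V) :
    algebraMap (RatFunc K) (MuLine hesse K) f ∈ BRing hesse V := by
  apply covMap_mem_BRing hesse V _ _ hf
  · rw [hesse_PK_coeff_zero, map_zero]; exact zero_lt_one
  · rw [hesse_QK_coeff_zero, Valuation.map_neg, map_one]

end Hesse

/-! ### the Legendre cover (recentred) -/

section Legendre

open Fermat.Agent.S18.C.Legendre Fermat.Agent.S18.C.LegendreDisc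

variable (K : Type*) [Field K]

theorem legendre_PK : legendre.PK K = polyPT K := map_polyPT _
theorem legendre_QK : legendre.QK K = polyQT K := map_polyQT _

theorem legendre_PK_coeff_zero : (legendre.PK K).coeff 0 = 6912 := by
  rw [legendre_PK, coeff_zero_eq_eval_zero, eval_polyPT]
  unfold numT; norm_num

theorem legendre_QK_coeff_zero : (legendre.QK K).coeff 0 = 4 := by
  rw [legendre_QK, coeff_zero_polyQT]

theorem natDegree_legendre_QK : (legendre.QK K).natDegree = 4 := by
  rw [legendre_QK]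
  apply le_antisymm (natDegree_polyQT_le K)
  apply le_natDegree_of_ne_zero
  have := (polyQT_monic K).leadingCoeff
  intro h0
  have h1 : (polyQT K).natDegree < 4 := by
    rcases lt_or_eq_of_le (natDegree_polyQT_le K) with h | h
    · exact h
    · exfalso
      rw [Polynomial.leadingCoeff, h, h0] at this
      exact zero_ne_one this
  have h2 : (polyQT K).natDegree = 4 := by
    rw [polyQT_eq]
    compute_degree!
  omega

theorem natDegree_legendre_PK (h2 : (2 : K) ≠ 0) : (legendre.PK K).natDegree = 6 := by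
  rw [legendre_PK]
  apply le_antisymm (natDegree_polyPT_le K)
  apply le_natDegree_of_ne_zero
  rw [coeff_polyPT_six]
  have : (256 : K) = 2 ^ 8 := by norm_num
  rw [this]; exact pow_ne_zero 8 h2

/-- the Legendre cover is nonconstant in every characteristic `≠ 2` -/
theorem legendre_good (h2 : (2 : K) ≠ 0) : legendre.Good K := by
  apply good_of_natDegree_lt
  · intro h0
    have := natDegree_legendre_QK K
    rw [h0, natDegree_zero] at this
    omega
  · rw [natDegree_legendre_QK, natDegree_legendre_PK K h2]; norm_num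

instance legendre_good_of_charZero [CharZero K] : legendre.Good K :=
  legendre_good K (by norm_num)

/-- the Legendre cover is nonconstant in characteristic `3` -/
theorem legendre_good_of_three_eq_zero (h3 : (3 : K) = 0) : legendre.Good K := by
  apply legendre_good
  have : (2 : K) = -1 := by linear_combination h3
  rw [this]; exact neg_ne_zero.mpr one_ne_zero

variable {K} [legendre.Good K]

theorem of_algebraMap_polyPT :
    MuLine.of legendre K (algebraMap K[X] (RatFunc K) (polyPT K)) =
      numT (MuLine.mu legendre K) := by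
  rw [← RatFunc.aeval_X_left_eq_algebraMap, ← aeval_algHom_apply, aeval_polyPT]
  rfl

theorem of_algebraMap_polyQT :
    MuLine.of legendre K (algebraMap K[X] (RatFunc K) (polyQT K)) =
      denT (MuLine.mu legendre K) := by
  rw [← RatFunc.aeval_X_left_eq_algebraMap, ← aeval_algHom_apply, aeval_polyQT]
  rfl

theorem legendre_algebraMap_X :
    algebraMap (RatFunc K) (MuLine legendre K) RatFunc.X = jL (MuLine.mu legendre K - 1) := by
  rw [Cover.algebraMap_X]
  unfold MuLine.j Cover.jOf jL
  rw [map_div₀, legendre_PK, legendre_QK, of_algebraMap_polyPT, of_algebraMap_polyQT, numT_eq,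
    denT_eq]

/-- the Legendre cover over a field `K` of characteristic `≠ 2`, in the coordinate `la = t - 1` -/
theorem isLegendre (h2 : (2 : K) ≠ 0) :
    LegendreGalois.IsLegendre (K0 := K) (E := RatFunc K) (M := MuLine legendre K)
      (MuLine.mu legendre K - 1) (RatFunc.X : RatFunc K) where
  two := h2
  transc := transcendental_mu_sub_one legendre
  top := adjoin_mu_sub_one legendre
  gen := RatFunc.adjoin_X
  eq_j := legendre_algebraMap_X

theorem isGalois_legendre (h2 : (2 : K) ≠ 0) : IsGalois (RatFunc K) (MuLine legendre K) :=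
  (isLegendre h2).isGalois

theorem finiteDimensional_legendre (h2 : (2 : K) ≠ 0) :
    FiniteDimensional (RatFunc K) (MuLine legendre K) := (isLegendre h2).finiteDimensional

theorem finrank_legendre (h2 : (2 : K) ≠ 0) :
    Module.finrank (RatFunc K) (MuLine legendre K) = 6 := (isLegendre h2).finrank_eq

theorem card_gal_legendre (h2 : (2 : K) ≠ 0) : Nat.card (legendre.Gal K) = 6 :=
  (isLegendre h2).card_aut

/-- the identification of the group of the Legendre cover with the six Moebius maps -/
def legendreIdx (h2 : (2 : K) ≠ 0) : legendre.Gal K ≃ Fin 6 := (isLegendre h2).galEquiv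

theorem legendreIdx_one (h2 : (2 : K) ≠ 0) : legendreIdx h2 1 = 0 := (isLegendre h2).galEquiv_one

theorem legendreIdx_eq_zero_iff (h2 : (2 : K) ≠ 0) (g : legendre.Gal K) :
    legendreIdx h2 g = 0 ↔ g = 1 := (isLegendre h2).galEquiv_eq_zero_iff g

theorem legendre_botT_ne_zero (h2 : (2 : K) ≠ 0) (i : Fin 6) :
    botT i (MuLine.mu legendre K) ≠ 0 := (isLegendre h2).botL_mu i

/-- `g t = topT g t / botT g t` in the recentred coordinate `t = μ` -/
theorem legendre_apply_mu (h2 : (2 : K) ≠ 0) (g : legendre.Gal K) :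
    g (MuLine.mu legendre K) =
      topT (legendreIdx h2 g) (MuLine.mu legendre K) /
        botT (legendreIdx h2 g) (MuLine.mu legendre K) := by
  have h1 : g (MuLine.mu legendre K - 1) =
      actL (legendreIdx h2 g) (MuLine.mu legendre K - 1) := (isLegendre h2).apply_mu g
  have hb := legendre_botT_ne_zero h2 (legendreIdx h2 g)
  have e : g (MuLine.mu legendre K) = g (MuLine.mu legendre K - 1) + 1 := by
    rw [map_sub, map_one]; ring
  rw [e, h1]
  unfold actL topT botT at *
  rw [eq_div_iff hb, add_mul, div_mul_cancel₀ _ hb, one_mul]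

section SubringL

variable {R : Type*} [CommRing R] (S : Subring R)

theorem cA_mem (g : Fin 6) : (cA g : R) ∈ S := by
  fin_cases g <;> simp [cA, S.zero_mem, S.one_mem, S.neg_mem S.one_mem]

theorem cB_mem (g : Fin 6) : (cB g : R) ∈ S := by
  fin_cases g <;> simp [cB, S.zero_mem, S.one_mem, S.neg_mem S.one_mem]

theorem cC_mem (g : Fin 6) : (cC g : R) ∈ S := by
  fin_cases g <;> simp [cC, S.zero_mem, S.one_mem, S.neg_mem S.one_mem]

theorem cD_mem (g : Fin 6) : (cD g : R) ∈ S := by
  fin_cases g <;> simp [cD, S.zero_mem, S.one_mem, S.neg_mem S.one_mem]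

theorem topL_mem {x : R} (hx : x ∈ S) (g : Fin 6) : topL g x ∈ S :=
  S.add_mem (S.mul_mem (cA_mem S g) hx) (cB_mem S g)

theorem botL_mem {x : R} (hx : x ∈ S) (g : Fin 6) : botL g x ∈ S :=
  S.add_mem (S.mul_mem (cC_mem S g) hx) (cD_mem S g)

theorem topT_mem {x : R} (hx : x ∈ S) (g : Fin 6) : topT g x ∈ S :=
  S.add_mem (topL_mem S (S.sub_mem hx S.one_mem) g) (botL_mem S (S.sub_mem hx S.one_mem) g)

theorem botT_mem {x : R} (hx : x ∈ S) (g : Fin 6) : botT g x ∈ S :=
  botL_mem S (S.sub_mem hx S.one_mem) g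

theorem map_topT {R' : Type*} [CommRing R'] (f : R →+* R') (g : Fin 6) (x : R) :
    f (topT g x) = topT g (f x) := by
  unfold topT
  rw [map_add, LegendreGalois.map_topL, LegendreGalois.map_botL, map_sub, map_one]

theorem map_botT {R' : Type*} [CommRing R'] (f : R →+* R') (g : Fin 6) (x : R) :
    f (botT g x) = botT g (f x) := by
  unfold botT
  rw [LegendreGalois.map_botL, map_sub, map_one]

end SubringL

omit [legendre.Good K] in
theorem val_topT_vec_le {Γ₀ : Type*} [LinearOrderedCommGroupWithZero Γ₀] (v : Valuation K Γ₀)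
    (i : Fin 6) : v ((![0, 1, 0, 1, -1, -1] : Fin 6 → K) i) ≤ 1 := by
  fin_cases i <;> simp

omit [legendre.Good K] in
theorem val_botT_vec {Γ₀ : Type*} [LinearOrderedCommGroupWithZero Γ₀] (v : Valuation K Γ₀)
    (hv2 : v (2 : K) = 1) (i : Fin 6) : v ((![1, 1, -1, 2, -1, -2] : Fin 6 → K) i) = 1 := by
  fin_cases i <;> simp [hv2]

/-- every element of the group of the Legendre cover maps `B_V` into itself when `v 3 < 1` -/
theorem legendre_gal_mem_BRing (V : ValuationSubring K) (h3 : V.valuation 3 < 1)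
    (g : legendre.Gal K) {m : MuLine legendre K} (hm : m ∈ BRing legendre V) :
    g m ∈ BRing legendre V := by
  have hv2 : V.valuation (2 : K) = 1 := DiscBasic.val_two_of_val_three V.valuation h3
  have h2 : (2 : K) ≠ 0 := two_ne_zero_of_val V.valuation h3
  set i := legendreIdx h2 g with hi
  refine gal_mem_BRing legendre V g (T := topT i X) (B := botT i X) ?_ ?_ ?_ ?_ ?_ hm
  · exact topT_mem (polyV V) (DiscSubst.X_mem_polyV V) i
  · exact botT_mem (polyV V) (DiscSubst.X_mem_polyV V) i
  · rw [coeff_zero_eq_eval_zero, ← coe_evalRingHom, map_topT, coe_evalRingHom, eval_X, topT_zero,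
      map_mul]
    have hle : V.valuation ((![0, 1, 0, 1, -1, -1] : Fin 6 → K) i) ≤ 1 :=
      val_topT_vec_le V.valuation i
    calc V.valuation 3 * V.valuation ((![0, 1, 0, 1, -1, -1] : Fin 6 → K) i)
        ≤ V.valuation 3 * 1 := mul_le_mul_right hle _
      _ < 1 := by rw [mul_one]; exact h3
  · rw [coeff_zero_eq_eval_zero, ← coe_evalRingHom, map_botT, coe_evalRingHom, eval_X, botT_zero]
    exact val_botT_vec V.valuation hv2 i
  · rw [← polyToMu_apply, ← polyToMu_apply, map_topT, map_botT, polyToMu_X,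
      legendre_apply_mu h2 g, ← hi]
    rw [div_mul_cancel₀ _ (legendre_botT_ne_zero h2 i)]

/-- `B_V` is stable under the group of the Legendre cover when `v 3 < 1` -/
theorem isInvariantSubring_legendre (V : ValuationSubring K) (h3 : V.valuation 3 < 1) :
    IsInvariantSubring (legendre.Gal K) (BRing legendre V) :=
  ⟨fun g _ hx => legendre_gal_mem_BRing V h3 g hx⟩

/-- `covMap` maps the disc ring of the `j`-line into `B_V` for the Legendre cover when `v 3 < 1` -/
theorem legendre_covMap_mem_BRing (V : ValuationSubring K) (h3 : V.valuation 3 < 1)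
    {f : RatFunc K} (hf : f ∈ discRing V) :
    algebraMap (RatFunc K) (MuLine legendre K) f ∈ BRing legendre V := by
  have hv2 : V.valuation (2 : K) = 1 := DiscBasic.val_two_of_val_three V.valuation h3
  apply covMap_mem_BRing legendre V _ _ hf
  · rw [legendre_PK_coeff_zero]
    have : (6912 : K) = 3 * 2304 := by norm_num
    rw [this, map_mul]
    calc V.valuation 3 * V.valuation 2304 ≤ V.valuation 3 * 1 :=
          mul_le_mul_right (DiscBasic.val_ofNat_le_one _ 2304) _
      _ < 1 := by rw [mul_one]; exact h3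
  · rw [legendre_QK_coeff_zero]
    have : (4 : K) = 2 ^ 2 := by norm_num
    rw [this, map_pow, hv2, one_pow]

end Legendre

end Fermat.Agent.S18.C.CoverInst
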