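import Mathlib
import Fermat.Agent.S18.C.PlacePoints

/-!
# PROJECT H (S18), block C service file: the residue map of a place

`K` algebraically closed, `F/K` a function field (`hx : S24.FF.IsFF K x`), `v : Place K F`.

* `evalAt hx v : v.toValuationSubring →ₐ[K] K`   the residue map ("value at `v`");
* `evalAt_eq_iff`        `evalAt hx v u = a ↔ v.adicValuation (u - a) < 1`;
* `evalAt_eq_zero_iff`, `evalAt_unique` (every `K`-algebra map `O_v → K` is `evalAt`),
  `evalAt_eq_of_ker_le` (a `K`-algebra map `ψ` on a subalgebra `S ≤ O_v` whose kernel lies in `𝔪_v`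
  is the restriction of `evalAt`);
* for a chart `B` (Dedekind, `Frac B = F`, `K ⊆ B`) with `B ⊆ O_v`:
  `chartToPlace v hv : B →ₐ[K] O_v`, `pointOfPlace hx v hv : B →ₐ[K] K` (`= evalAt ∘ inclusion`),
  `placeOfPoint_pointOfPlace`, `pointOfPlace_placeOfPoint`, `evalAt_placeOfPoint`.
-/

set_option autoImplicit false

namespace Fermat.Agent.S18.C.PlaceEval

open AlgebraicCurve IsDedekindDomain IntermediateField
  Fermat.Agent.S24.PlacePrime Fermat.Agent.S24.FF Fermat.Agent.S24.Ord Fermat.Agent.S24.Fibre
  Fermat.Agent.S18.C.PlacePoints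

universe u w

variable {K : Type w} {F : Type u} [Field K] [Field F] [Algebra K F] [IsAlgClosed K] {x : F}

/-- **the residue map of a place**, as a `K`-algebra map to the constant field -/
noncomputable def evalAt (hx : IsFF K x) (v : Place K F) : v.toValuationSubring →ₐ[K] K :=
  pointOfPrime (B := v.toValuationSubring) hx v.heightOneSpectrum

theorem evalAt_eq_iff (hx : IsFF K x) (v : Place K F) (u : v.toValuationSubring) (a : K) :
    evalAt hx v u = a ↔ v.adicValuation ((u : F) - algebraMap K F a) < 1 := by
  rw [evalAt, pointOfPrime_eq_iff, Place.heightOneSpectrum_asIdeal, mem_maximalIdeal_iff]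
  rfl

theorem evalAt_eq_zero_iff (hx : IsFF K x) (v : Place K F) (u : v.toValuationSubring) :
    evalAt hx v u = 0 ↔ v.adicValuation (u : F) < 1 := by
  rw [evalAt_eq_iff, map_zero, sub_zero]

theorem adicValuation_sub_evalAt_lt_one (hx : IsFF K x) (v : Place K F)
    (u : v.toValuationSubring) :
    v.adicValuation ((u : F) - algebraMap K F (evalAt hx v u)) < 1 :=
  (evalAt_eq_iff hx v u _).mp rfl

theorem ker_evalAt (hx : IsFF K x) (v : Place K F) :
    RingHom.ker (evalAt hx v : v.toValuationSubring →+* K) =
      IsLocalRing.maximalIdeal v.toValuationSubring := by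
  rw [evalAt, ker_pointOfPrime, Place.heightOneSpectrum_asIdeal]

theorem evalAt_isUnit_iff (hx : IsFF K x) (v : Place K F) (u : v.toValuationSubring) :
    evalAt hx v u ≠ 0 ↔ IsUnit u := by
  rw [ne_eq, evalAt_eq_zero_iff, ← mem_maximalIdeal_iff, IsLocalRing.mem_maximalIdeal,
    mem_nonunits_iff, not_not]

/-- a `K`-algebra map on a subalgebra of `O_v` whose kernel lies in `𝔪_v` is the restriction of
the residue map -/
theorem evalAt_eq_of_ker_le (hx : IsFF K x) (v : Place K F)
    {S : Type*} [CommRing S] [Algebra K S] (ι : S →ₐ[K] v.toValuationSubring) (ψ : S →ₐ[K] K)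
    (hψ : ∀ s : S, ψ s = 0 → v.adicValuation ((ι s : v.toValuationSubring) : F) < 1) (s : S) :
    evalAt hx v (ι s) = ψ s := by
  rw [evalAt_eq_iff]
  have h0 : ψ (s - algebraMap K S (ψ s)) = 0 := by
    rw [map_sub, AlgHom.commutes, Algebra.algebraMap_self, RingHom.id_apply, sub_self]
  have h1 := hψ _ h0
  rwa [map_sub, AlgHom.commutes] at h1

/-- every `K`-algebra map `O_v → K` is the residue map -/
theorem evalAt_unique (hx : IsFF K x) (v : Place K F) (ψ : v.toValuationSubring →ₐ[K] K) :
    ψ = evalAt hx v := by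
  ext u
  symm
  refine evalAt_eq_of_ker_le hx v (AlgHom.id K v.toValuationSubring) ψ (fun s hs => ?_) u
  rw [AlgHom.id_apply, ← mem_maximalIdeal_iff, IsLocalRing.mem_maximalIdeal, mem_nonunits_iff]
  intro hu
  exact (hu.map ψ).ne_zero hs

/-! ### charts contained in the valuation ring -/

section Chart

variable {B : Type*} [CommRing B] [IsDedekindDomain B] [Algebra B F] [IsFractionRing B F]
  [Algebra K B] [IsScalarTower K B F]

omit [IsAlgClosed K] [IsDedekindDomain B] [IsFractionRing B F] in
/-- the inclusion of a chart in the valuation ring of a place at which it is regular -/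
noncomputable def chartToPlace (v : Place K F)
    (hv : ∀ b : B, algebraMap B F b ∈ v.toValuationSubring) : B →ₐ[K] v.toValuationSubring where
  toFun b := ⟨algebraMap B F b, hv b⟩
  map_one' := Subtype.ext (map_one _)
  map_mul' a b := Subtype.ext (map_mul _ a b)
  map_zero' := Subtype.ext (map_zero _)
  map_add' a b := Subtype.ext (map_add _ a b)
  commutes' c := Subtype.ext (IsScalarTower.algebraMap_apply K B F c).symm

omit [IsAlgClosed K] [IsDedekindDomain B] [IsFractionRing B F] in
@[simp]
theorem coe_chartToPlace (v : Place K F)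
    (hv : ∀ b : B, algebraMap B F b ∈ v.toValuationSubring) (b : B) :
    ((chartToPlace v hv b : v.toValuationSubring) : F) = algebraMap B F b := rfl

/-- the point of the chart `B` attached to a place at which `B` is regular -/
noncomputable def pointOfPlace (hx : IsFF K x) (v : Place K F)
    (hv : ∀ b : B, algebraMap B F b ∈ v.toValuationSubring) : B →ₐ[K] K :=
  (evalAt hx v).comp (chartToPlace v hv)

omit [IsDedekindDomain B] [IsFractionRing B F] in
theorem pointOfPlace_apply (hx : IsFF K x) (v : Place K F)
    (hv : ∀ b : B, algebraMap B F b ∈ v.toValuationSubring) (b : B) :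
    pointOfPlace hx v hv b = evalAt hx v ⟨algebraMap B F b, hv b⟩ := rfl

omit [IsDedekindDomain B] [IsFractionRing B F] in
theorem pointOfPlace_eq_iff (hx : IsFF K x) (v : Place K F)
    (hv : ∀ b : B, algebraMap B F b ∈ v.toValuationSubring) (b : B) (a : K) :
    pointOfPlace hx v hv b = a ↔ v.adicValuation (algebraMap B F b - algebraMap K F a) < 1 := by
  rw [pointOfPlace_apply, evalAt_eq_iff]

/-- the value of the residue map of the place of a point `φ` on the chart is `φ` -/
theorem evalAt_placeOfPoint (hx : IsFF K x) (φ : B →ₐ[K] K) (b : B) :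
    evalAt hx (placeOfPoint hx φ) ⟨algebraMap B F b, algebraMap_mem_placeOfPoint hx φ b⟩ = φ b := by
  rw [evalAt_eq_iff]
  exact (adicValuation_sub_lt_one_iff hx φ b (φ b)).mpr rfl

theorem pointOfPlace_placeOfPoint (hx : IsFF K x) (φ : B →ₐ[K] K) :
    pointOfPlace hx (placeOfPoint hx φ) (algebraMap_mem_placeOfPoint hx φ) = φ := by
  ext b
  rw [pointOfPlace_apply]
  exact evalAt_placeOfPoint hx φ b

theorem placeOfPoint_pointOfPlace (hx : IsFF K x) (v : Place K F)
    (hv : ∀ b : B, algebraMap B F b ∈ v.toValuationSubring) :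
    placeOfPoint hx (pointOfPlace hx v hv) = v := by
  obtain ⟨φ, hφ⟩ := exists_point_of_place hx v hv
  subst hφ
  rw [pointOfPlace_placeOfPoint]

/-- `placeEquiv` of `PlacePoints`, inverse direction made explicit -/
theorem placeEquiv_symm_apply (hx : IsFF K x)
    (v : {v : Place K F // ∀ b : B, algebraMap B F b ∈ v.toValuationSubring}) :
    (placeEquiv hx).symm v = pointOfPlace hx v.1 v.2 := by
  rw [Equiv.symm_apply_eq]
  exact Subtype.ext (placeOfPoint_pointOfPlace hx v.1 v.2).symm

end Chart

end Fermat.Agent.S18.C.PlaceEval
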