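import Mathlib
import Fermat.Agent.S18.C.GenericFibre
import Fermat.Agent.S18.C.BRingLocal
import Fermat.Agent.S18.C.CoverInst
import Fermat.Agent.S18.C.PlaceEval

/-!
# PROJECT H (S18), block C, slice H-C9 (part 2): the sets `M_a` of points of the disc over `j = a`

For a cover `c` (`j = P(μ)/Q(μ)`), `A` a valuation ring of the algebraically closed field `L`,
`B_A = BRing c A` the ring of the open unit disc of the `μ`-line:

* `Mset c A a hj : SubMulAction (c.Gal L) (Pt B_A L)` : the `A`-linear points of `B_A` with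
  `j ↦ a`;  `mem_ptsOver_Mset_iff` : the points of `C_A` over `M_a` are the points over `x = a`
  (hypothesis `hM` of `GenericFibre.card_orbits_eq_card_zeros`);
* `ptOfDisc`, `eq_ptOfDisc`, `MsetEquiv`, `card_Mset` : **(E)** `M_a` = zeros of `P - a Q` in the
  open unit disc (`Q(0)` a unit of `A`);
* `isGoodSet_Mset` : **(G)** `M_a` is a good set (`GenericCount.IsGoodSet`) for every basis with unit
  discriminant, with closed point `evClosedB c A`;
* `smul_eq_iff_of_moebius`, `fixedByEquiv`, `card_fixedBy_Mset` : **(F)** for `g μ = T(μ)/S(μ)`,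
  `Fix_g(M_a)` = common zeros in the disc of `P - a Q` and `T - X S`;
* `denom_eval_ne_zero`, `hreg_of_point` : **(R)** the regularity hypothesis `hreg` holds as soon as
  `M_a` has a point;
* `card_orbits_Mset` : the dictionary `#(pts of C_A over M_a / H₀) = #(places of FL over x = a)`
  with all side conditions discharged.
-/

set_option autoImplicit false

noncomputable section

namespace Fermat.Agent.S18.C.GenericFibre2

open Polynomial TensorProduct AlgebraicCurve MulAction
  Fermat.Agent.S18.C.Defs Fermat.Agent.S18.C.SurfaceDefs Fermat.Agent.S18.C.GenericCount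
  Fermat.Agent.S18.C.GenericFibre Fermat.Agent.S18.C.BRingLocal Fermat.Agent.S24.FF
  Fermat.Agent.S18.C

variable (c : Cover) {L : Type*} [Field L] [c.Good L] (A : ValuationSubring L)

/-- the constants of `A` in `B_A` -/
def constB : A →+* BRing c A := (algebraMap (↥A)[X] (BRing c A)).comp Polynomial.C

omit [c.Good L] in
theorem coe_constB (α : A) :
    ((constB c A α : BRing c A) : MuLine c L) = algebraMap L (MuLine c L) (α : L) := by
  show ((toB c A (algebraMap (↥A)[X] (discRing A) (C α)) : BRing c A) : MuLine c L) = _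
  rw [coe_toB, DiscRingLocal.coe_algebraMap, DiscRingLocal.polyIncl_C]
  rfl

/-- `j` as an element of `B_A` -/
def jB (hj : (RatFunc.X : RatFunc L) ∈ Bj c A) : BRing c A :=
  ⟨algebraMap (RatFunc L) (MuLine c L) RatFunc.X, hj⟩

variable [IsInvariantSubring (c.Gal L) (BRing c A)]

theorem smul_constB (g : c.Gal L) (α : A) : g • constB c A α = constB c A α := by
  apply Subtype.ext
  rw [coe_smul_BRing, coe_constB, IsScalarTower.algebraMap_apply L (RatFunc L) (MuLine c L)]
  exact g.commutes _

theorem smul_jB (hj : (RatFunc.X : RatFunc L) ∈ Bj c A) (g : c.Gal L) :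
    g • jB c A hj = jB c A hj := by
  apply Subtype.ext
  rw [coe_smul_BRing]
  exact g.commutes _

/-- **the set `M_a`** of `A`-linear points of `B_A` over `j = a` -/
def Mset (a : L) (hj : (RatFunc.X : RatFunc L) ∈ Bj c A) :
    SubMulAction (c.Gal L) (Pt (BRing c A) L) where
  carrier := {m | m.hom.comp (constB c A) = A.subtype ∧ m.hom (jB c A hj) = a}
  smul_mem' g m hm := by
    refine ⟨?_, ?_⟩
    · ext α
      show m.hom (g⁻¹ • constB c A α) = _
      rw [smul_constB]
      exact RingHom.congr_fun hm.1 α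
    · show m.hom (g⁻¹ • jB c A hj) = a
      rw [smul_jB]
      exact hm.2

theorem mem_Mset {a : L} {hj : (RatFunc.X : RatFunc L) ∈ Bj c A} {m : Pt (BRing c A) L} :
    m ∈ Mset c A a hj ↔ m.hom.comp (constB c A) = A.subtype ∧ m.hom (jB c A hj) = a := Iff.rfl

section HM

variable (FL : Type*) [Field FL] [Algebra (RatFunc L) FL] [Algebra L FL]
  [IsScalarTower L (RatFunc L) FL]

open Fermat.Agent.S18.C.PlacePointsA

theorem algebraMap_constB (α : A) :
    algebraMap (BRing c A) (CInt c FL A) (constB c A α) =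
      toC c A FL (constHom A (OA c A FL) (const_mem_OA c A FL) α) := by
  apply Subtype.ext
  show algebraMap (MuLine c L) (RAlg c L FL) ((constB c A α : BRing c A) : MuLine c L) =
    iota c L FL (algebraMap L FL (α : L))
  rw [coe_constB, IsScalarTower.algebraMap_apply L (RatFunc L) FL, iota_algebraMap,
    ← IsScalarTower.algebraMap_apply L (RatFunc L) (MuLine c L)]

theorem algebraMap_jB (hj : (RatFunc.X : RatFunc L) ∈ Bj c A) :
    algebraMap (BRing c A) (CInt c FL A) (jB c A hj) =
      toC c A FL ⟨xF L FL, xF_mem_OA c A FL hj⟩ := by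
  apply Subtype.ext
  show algebraMap (MuLine c L) (RAlg c L FL) (algebraMap (RatFunc L) (MuLine c L) RatFunc.X) =
    iota c L FL (xF L FL)
  rw [xF, iota_algebraMap]

/-- the points of `C_A` over `M_a` are the `A`-linear points with `x ↦ a` -/
theorem mem_ptsOver_Mset_iff (a : L) (hj : (RatFunc.X : RatFunc L) ∈ Bj c A)
    (φ : Pt (CInt c FL A) L) :
    φ ∈ ptsOver (smul_algebraMap c FL A) (Mset c A a hj) ↔ IsOver c A FL a hj φ := by
  rw [mem_ptsOver, mem_Mset, IsOver]
  constructor
  · rintro ⟨h1, h2⟩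
    refine ⟨?_, ?_⟩
    · ext α
      have := RingHom.congr_fun h1 α
      show φ.hom (toC c A FL (constHom A (OA c A FL) (const_mem_OA c A FL) α)) = _
      rw [← algebraMap_constB]
      exact this
    · rw [← algebraMap_jB]
      exact h2
  · rintro ⟨h1, h2⟩
    refine ⟨?_, ?_⟩
    · ext α
      have := RingHom.congr_fun h1 α
      show φ.hom (algebraMap (BRing c A) (CInt c FL A) (constB c A α)) = _
      rw [algebraMap_constB]
      exact this
    · show φ.hom (algebraMap (BRing c A) (CInt c FL A) (jB c A hj)) = a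
      rw [algebraMap_jB]
      exact h2

end HM

section Disc

open Fermat.Agent.S18.Purity Fermat.Agent.S18.C.DiscRingLocal

/-- the point of `B_A` attached to a point `t` of the open unit disc -/
def ptOfDisc (t : L) (ht : A.valuation t < 1) : Pt (BRing c A) L :=
  Pt.mk (A.subtype.comp (evDiscB c A t ht))

omit [c.Good L] [IsInvariantSubring (c.Gal L) (BRing c A)] in
theorem ptOfDisc_hom_apply (t : L) (ht : A.valuation t < 1) (b : BRing c A) :
    (ptOfDisc c A t ht).hom b = (evDiscB c A t ht b : L) := rfl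

omit [c.Good L] [IsInvariantSubring (c.Gal L) (BRing c A)] in
theorem ptOfDisc_constB (t : L) (ht : A.valuation t < 1) :
    (ptOfDisc c A t ht).hom.comp (constB c A) = A.subtype := by
  ext α
  show ((evDiscB c A t ht (algebraMap (↥A)[X] (BRing c A) (C α)) : A) : L) = α
  rw [evDiscB_algebraMap, eval_C]

omit [c.Good L] [IsInvariantSubring (c.Gal L) (BRing c A)] in
theorem ptOfDisc_muB (t : L) (ht : A.valuation t < 1) :
    (ptOfDisc c A t ht).hom (muB c A) = t := by
  rw [ptOfDisc_hom_apply, evDiscB_muB, coe_discPt]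

omit [c.Good L] [IsInvariantSubring (c.Gal L) (BRing c A)] in
/-- an `A`-linear point of `B_A` restricted to `A[X]` is evaluation at its value at `μ` -/
theorem hom_algebraMap_poly (m : Pt (BRing c A) L) (hm : m.hom.comp (constB c A) = A.subtype)
    (p : (↥A)[X]) :
    m.hom (algebraMap (↥A)[X] (BRing c A) p) = p.eval₂ A.subtype (m.hom (muB c A)) := by
  have h : m.hom.comp (algebraMap (↥A)[X] (BRing c A)) =
      Polynomial.eval₂RingHom A.subtype (m.hom (muB c A)) := by
    apply Polynomial.ringHom_ext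
    · intro α
      rw [Polynomial.coe_eval₂RingHom, eval₂_C]
      exact RingHom.congr_fun hm α
    · rw [Polynomial.coe_eval₂RingHom, eval₂_X, RingHom.comp_apply, algebraMap_B_X]
  exact RingHom.congr_fun h p

omit [c.Good L] [IsInvariantSubring (c.Gal L) (BRing c A)] in
/-- the value at `μ` of an `A`-linear point of `B_A` lies in the open unit disc -/
theorem valuation_hom_muB_lt_one (m : Pt (BRing c A) L)
    (hm : m.hom.comp (constB c A) = A.subtype) : A.valuation (m.hom (muB c A)) < 1 := by
  by_contra hlt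
  rw [not_lt] at hlt
  set t := m.hom (muB c A) with ht
  have ht0 : t ≠ 0 := by
    intro h0
    rw [h0, map_zero] at hlt
    exact not_le.mpr zero_lt_one hlt
  have htinv : t⁻¹ ∈ A := by
    rw [← A.valuation_le_one_iff, map_inv₀]
    exact inv_le_one_of_one_le₀ hlt
  let s : (↥A)[X] := C 1 - C (⟨t⁻¹, htinv⟩ : A) * X
  have hs : s ∈ (closedPoint ↥A).primeCompl := by
    rw [mem_primeCompl_iff]
    simp [s]
  have hunit : IsUnit (algebraMap (↥A)[X] (BRing c A) s) :=
    IsLocalization.map_units (BRing c A) (⟨s, hs⟩ : (closedPoint ↥A).primeCompl)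
  have h0 : m.hom (algebraMap (↥A)[X] (BRing c A) s) = 0 := by
    rw [hom_algebraMap_poly c A m hm, ← ht]
    simp only [s, eval₂_sub, eval₂_mul, eval₂_C, eval₂_X, map_one, eval₂_one]
    show (1 : L) - t⁻¹ * t = 0
    rw [inv_mul_cancel₀ ht0, sub_self]
  exact (hunit.map m.hom).ne_zero h0

omit [c.Good L] [IsInvariantSubring (c.Gal L) (BRing c A)] in
/-- an `A`-linear point of `B_A` is the evaluation at its value at `μ` -/
theorem eq_ptOfDisc (m : Pt (BRing c A) L) (hm : m.hom.comp (constB c A) = A.subtype) :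
    m = ptOfDisc c A (m.hom (muB c A)) (valuation_hom_muB_lt_one c A m hm) := by
  have h : m.hom = (ptOfDisc c A (m.hom (muB c A)) (valuation_hom_muB_lt_one c A m hm)).hom := by
    apply IsLocalization.ringHom_ext (closedPoint ↥A).primeCompl
    apply Polynomial.ringHom_ext
    · intro α
      exact (RingHom.congr_fun hm α).trans
        (RingHom.congr_fun (ptOfDisc_constB c A _ _) α).symm
    · show m.hom (algebraMap (↥A)[X] (BRing c A) X) = (ptOfDisc c A _ _).hom (algebraMap _ _ X)
      rw [algebraMap_B_X, ptOfDisc_muB]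
  exact Pt.ext fun b => RingHom.congr_fun h b

omit [c.Good L] [IsInvariantSubring (c.Gal L) (BRing c A)] in
/-- `A`-linear points of `B_A` are separated by their value at `μ` -/
theorem eq_of_hom_muB_eq (m m' : Pt (BRing c A) L) (hm : m.hom.comp (constB c A) = A.subtype)
    (hm' : m'.hom.comp (constB c A) = A.subtype) (h : m.hom (muB c A) = m'.hom (muB c A)) :
    m = m' := by
  rw [eq_ptOfDisc c A m hm, eq_ptOfDisc c A m' hm']
  congr 1


omit [c.Good L] [IsInvariantSubring (c.Gal L) (BRing c A)] in
/-- a polynomial with coefficients in `A` and unit constant term has no zero in the open unit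
disc -/
theorem eval_ne_zero_of_coeff_zero {p : L[X]} (hp : p ∈ polyV A)
    (h0 : A.valuation (p.coeff 0) = 1) (t : L) (ht : A.valuation t < 1) : p.eval t ≠ 0 := by
  obtain ⟨q, rfl⟩ := exists_polyIncl_eq A hp
  rw [← coe_eval_discPt A t ht q]
  have hu : IsUnit (q.coeff 0) := by
    rw [ValuationSubring.valuation_eq_one_iff]
    rwa [polyIncl_coeff] at h0
  have := ((isUnit_eval_iff A q (discPt_mem A t ht)).mpr hu).ne_zero
  exact fun h => this (Subtype.ext h)

omit [IsInvariantSubring (c.Gal L) (BRing c A)] in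
/-- **(P3)** the value of `j` at the point `μ = t` of the disc: `j(t) * Q(t) = P(t)` -/
theorem ptOfDisc_jB_mul (hj : (RatFunc.X : RatFunc L) ∈ Bj c A) (hQ0 : c.QK L ≠ 0) (t : L)
    (ht : A.valuation t < 1) :
    (ptOfDisc c A t ht).hom (jB c A hj) * (c.QK L).eval t = (c.PK L).eval t := by
  rw [ptOfDisc_hom_apply]
  apply evDiscB_spec
  show algebraMap (RatFunc L) (MuLine c L) RatFunc.X * _ = _
  rw [Cover.algebraMap_X]
  exact CoverInst.jOf_mul c L hQ0

omit [IsInvariantSubring (c.Gal L) (BRing c A)] in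
theorem QK_ne_zero (hQ : A.valuation ((c.QK L).coeff 0) = 1) : c.QK L ≠ 0 := by
  intro h0
  rw [h0, coeff_zero, map_zero] at hQ
  exact zero_ne_one hQ

omit [IsInvariantSubring (c.Gal L) (BRing c A)] in
theorem QK_eval_ne_zero (hQ : A.valuation ((c.QK L).coeff 0) = 1) (t : L)
    (ht : A.valuation t < 1) : (c.QK L).eval t ≠ 0 :=
  eval_ne_zero_of_coeff_zero A (DiscSubst.map_int_mem_polyV A c.Q) hQ t ht

omit [IsInvariantSubring (c.Gal L) (BRing c A)] in
theorem ptOfDisc_jB_eq_iff (hj : (RatFunc.X : RatFunc L) ∈ Bj c A)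
    (hQ : A.valuation ((c.QK L).coeff 0) = 1) (a t : L) (ht : A.valuation t < 1) :
    (ptOfDisc c A t ht).hom (jB c A hj) = a ↔ (c.PK L).eval t = a * (c.QK L).eval t := by
  rw [← ptOfDisc_jB_mul c A hj (QK_ne_zero c A hQ) t ht]
  constructor
  · intro h; rw [h]
  · intro h; exact mul_right_cancel₀ (QK_eval_ne_zero c A hQ t ht) h

/-- **(E)** the points of `M_a` are the zeros of `P - a Q` in the open unit disc -/
def MsetEquiv (a : L) (hj : (RatFunc.X : RatFunc L) ∈ Bj c A)
    (hQ : A.valuation ((c.QK L).coeff 0) = 1) :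
    Mset c A a hj ≃ {t : L // A.valuation t < 1 ∧ (c.PK L).eval t = a * (c.QK L).eval t} where
  toFun m := ⟨m.1.hom (muB c A), valuation_hom_muB_lt_one c A m.1 m.2.1, by
    have h2 := m.2.2
    rw [eq_ptOfDisc c A m.1 m.2.1] at h2
    exact (ptOfDisc_jB_eq_iff c A hj hQ a _ _).mp h2⟩
  invFun t := ⟨ptOfDisc c A t.1 t.2.1, ptOfDisc_constB c A t.1 t.2.1,
    (ptOfDisc_jB_eq_iff c A hj hQ a t.1 t.2.1).mpr t.2.2⟩
  left_inv m := Subtype.ext (eq_ptOfDisc c A m.1 m.2.1).symm
  right_inv t := Subtype.ext (ptOfDisc_muB c A t.1 t.2.1)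

theorem MsetEquiv_apply (a : L) (hj : (RatFunc.X : RatFunc L) ∈ Bj c A)
    (hQ : A.valuation ((c.QK L).coeff 0) = 1) (m : Mset c A a hj) :
    ((MsetEquiv c A a hj hQ m : {t : L // _}) : L) = m.1.hom (muB c A) := rfl

/-- **(G)** `M_a` is a good set for every `B_A`-basis of `C` with unit discriminant -/
theorem isGoodSet_Mset {C : Type*} [CommRing C] [Algebra (BRing c A) C]
    [MulSemiringAction (c.Gal L) C] {ι : Type*} [Fintype ι]
    [DecidableEq ι] (b : Module.Basis ι (BRing c A) C)
    (hb : IsUnit (Algebra.discr (BRing c A) b)) (a : L)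
    (hj : (RatFunc.X : RatFunc L) ∈ Bj c A) :
    IsGoodSet A b (Mset c A a hj) (evClosedB c A) := by
  intro m hm
  refine ⟨evDiscB c A (m.hom (muB c A)) (valuation_hom_muB_lt_one c A m hm.1),
    eq_ptOfDisc c A m hm.1, ?_, hb.map _⟩
  ext x
  exact residue_evDiscB c A _ _ x

/-- **(F)** fixed points: if `g μ = T(μ) / S(μ)` with `S` without zero in the disc, then the point
`μ = t` of `M_a` is fixed by `g` iff `T(t) = t S(t)` -/
theorem smul_eq_iff_of_moebius (g : c.Gal L) {T S : L[X]}
    (hg : g (MuLine.mu c L) * algebraMap L[X] (MuLine c L) S = algebraMap L[X] (MuLine c L) T)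
    (hS : ∀ t : L, A.valuation t < 1 → S.eval t ≠ 0)
    (m : Pt (BRing c A) L) (hm : m.hom.comp (constB c A) = A.subtype) :
    g • m = m ↔ T.eval (m.hom (muB c A)) = m.hom (muB c A) * S.eval (m.hom (muB c A)) := by
  have ht := valuation_hom_muB_lt_one c A m hm
  set t := m.hom (muB c A) with htdef
  have hspec : m.hom (g • muB c A) * S.eval t = T.eval t := by
    have h1 : m.hom (g • muB c A) = (evDiscB c A t ht (g • muB c A) : L) := by
      conv_lhs => rw [eq_ptOfDisc c A m hm]
      rfl
    rw [h1]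
    apply evDiscB_spec
    rw [coe_smul_BRing, coe_muB]
    exact hg
  have hlin : (g⁻¹ • m).hom.comp (constB c A) = A.subtype := by
    ext α
    show m.hom (g⁻¹⁻¹ • constB c A α) = _
    rw [smul_constB]
    exact RingHom.congr_fun hm α
  have h1 : g • m = m ↔ m.hom (g • muB c A) = t := by
    constructor
    · intro h
      have h3 : g⁻¹ • m = m := by
        rw [inv_smul_eq_iff]; exact h.symm
      have h2 : (g⁻¹ • m).hom (muB c A) = m.hom (muB c A) := by
        rw [h3]
      rw [smul_hom_apply, inv_inv] at h2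
      exact h2
    · intro h
      have h2 : g⁻¹ • m = m := by
        apply eq_of_hom_muB_eq c A _ _ hlin hm
        rw [smul_hom_apply, inv_inv]
        exact h
      rw [← h2, smul_inv_smul, h2]
  rw [h1, ← hspec]
  constructor
  · intro h; rw [h]
  · intro h; exact mul_right_cancel₀ (hS t ht) h

/-- **(F)** the `g`-fixed points of `M_a` are the common zeros in the disc of `P - a Q` and
`T - X S` -/
def fixedByEquiv (a : L) (hj : (RatFunc.X : RatFunc L) ∈ Bj c A)
    (hQ : A.valuation ((c.QK L).coeff 0) = 1) (g : c.Gal L) {T S : L[X]}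
    (hg : g (MuLine.mu c L) * algebraMap L[X] (MuLine c L) S = algebraMap L[X] (MuLine c L) T)
    (hS : ∀ t : L, A.valuation t < 1 → S.eval t ≠ 0) :
    fixedBy (Mset c A a hj) g ≃
      {t : L // (A.valuation t < 1 ∧ (c.PK L).eval t = a * (c.QK L).eval t) ∧
        T.eval t = t * S.eval t} where
  toFun m := ⟨(MsetEquiv c A a hj hQ m.1).1, (MsetEquiv c A a hj hQ m.1).2, by
    have h := m.2
    rw [mem_fixedBy] at h
    have h' : g • m.1.1 = m.1.1 := congrArg Subtype.val h
    exact (smul_eq_iff_of_moebius c A g hg hS m.1.1 m.1.2.1).mp h'⟩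
  invFun t := ⟨(MsetEquiv c A a hj hQ).symm ⟨t.1, t.2.1⟩, by
    rw [mem_fixedBy]
    apply Subtype.ext
    show g • ptOfDisc c A t.1 t.2.1.1 = ptOfDisc c A t.1 t.2.1.1
    rw [smul_eq_iff_of_moebius c A g hg hS _ (ptOfDisc_constB c A t.1 t.2.1.1), ptOfDisc_muB]
    exact t.2.2⟩
  left_inv m := Subtype.ext ((MsetEquiv c A a hj hQ).symm_apply_apply m.1)
  right_inv t := Subtype.ext (by
    show ((MsetEquiv c A a hj hQ) ((MsetEquiv c A a hj hQ).symm ⟨t.1, t.2.1⟩)).1 = t.1
    rw [Equiv.apply_symm_apply])

end Disc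

section Reg

open Fermat.Agent.S18.C.DiscRingLocal

omit [c.Good L] [IsInvariantSubring (c.Gal L) (BRing c A)] in
/-- clearing denominators: every polynomial over `L` has a nonzero `A`-multiple with coefficients
in `A` -/
theorem exists_scale (p : L[X]) :
    ∃ α : A, (α : L) ≠ 0 ∧ ∃ q : (↥A)[X], q.map A.subtype = C (α : L) * p := by
  obtain ⟨b, hb⟩ := IsLocalization.integerNormalization_map_to_map (nonZeroDivisors ↥A) p
  refine ⟨b.1, ?_, IsLocalization.integerNormalization (nonZeroDivisors ↥A) p, ?_⟩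
  · have := nonZeroDivisors.ne_zero b.2
    exact fun h => this (Subtype.ext h)
  · rw [← Polynomial.smul_eq_C_mul]
    exact hb

variable (hj : (RatFunc.X : RatFunc L) ∈ Bj c A)

/-- evaluation of `A`-polynomials at `j`, inside `B_A` -/
def evj : (↥A)[X] →+* BRing c A := Polynomial.eval₂RingHom (constB c A) (jB c A hj)

omit [IsInvariantSubring (c.Gal L) (BRing c A)] in
theorem coe_evj (q : (↥A)[X]) :
    ((evj c A hj q : BRing c A) : MuLine c L) =
      algebraMap (RatFunc L) (MuLine c L) (algebraMap L[X] (RatFunc L) (q.map A.subtype)) := by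
  have h : (BRing c A).subtype.comp (evj c A hj) =
      ((algebraMap (RatFunc L) (MuLine c L)).comp (algebraMap L[X] (RatFunc L))).comp
        (Polynomial.mapRingHom A.subtype) := by
    apply Polynomial.ringHom_ext
    · intro α
      show (((evj c A hj (C α) : BRing c A)) : MuLine c L) =
        algebraMap (RatFunc L) (MuLine c L) (algebraMap L[X] (RatFunc L) ((C α).map A.subtype))
      rw [evj, Polynomial.coe_eval₂RingHom, eval₂_C, coe_constB, Polynomial.map_C,
        RatFunc.algebraMap_C, ← RatFunc.algebraMap_eq_C,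
        ← IsScalarTower.algebraMap_apply L (RatFunc L) (MuLine c L)]
      rfl
    · show (((evj c A hj X : BRing c A)) : MuLine c L) =
        algebraMap (RatFunc L) (MuLine c L) (algebraMap L[X] (RatFunc L) ((X : (↥A)[X]).map A.subtype))
      rw [evj, Polynomial.coe_eval₂RingHom, eval₂_X, Polynomial.map_X, RatFunc.algebraMap_X]
      rfl
  exact RingHom.congr_fun h q

omit [IsInvariantSubring (c.Gal L) (BRing c A)] in
theorem hom_evj {a : L} {m : Pt (BRing c A) L}
    (hm : m.hom.comp (constB c A) = A.subtype ∧ m.hom (jB c A hj) = a) (q : (↥A)[X]) :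
    m.hom (evj c A hj q) = (q.map A.subtype).eval a := by
  rw [evj, Polynomial.coe_eval₂RingHom, Polynomial.hom_eval₂, hm.1, hm.2, Polynomial.eval_map]

omit [IsInvariantSubring (c.Gal L) (BRing c A)] in
/-- a rational function of `j` lying in `B_A` is regular at `a` as soon as `M_a` has a point -/
theorem denom_eval_ne_zero {a : L} {m : Pt (BRing c A) L}
    (hm : m.hom.comp (constB c A) = A.subtype ∧ m.hom (jB c A hj) = a) {r : RatFunc L}
    (hr : r ∈ Bj c A) : r.denom.eval a ≠ 0 := by
  intro hd0
  obtain ⟨αn, hαn, n', hn'⟩ := exists_scale A r.num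
  obtain ⟨αd, hαd, d', hd'⟩ := exists_scale A r.denom
  have hrel : r * algebraMap L[X] (RatFunc L) r.denom = algebraMap L[X] (RatFunc L) r.num := by
    have h := RatFunc.num_div_denom r
    rw [div_eq_iff (RatFunc.algebraMap_ne_zero (RatFunc.denom_ne_zero r))] at h
    exact h.symm
  let R' : BRing c A := ⟨algebraMap (RatFunc L) (MuLine c L) r, hr⟩
  have key : R' * evj c A hj d' * constB c A αn = constB c A αd * evj c A hj n' := by
    apply Subtype.ext
    show algebraMap (RatFunc L) (MuLine c L) r * ((evj c A hj d' : BRing c A) : MuLine c L) *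
      ((constB c A αn : BRing c A) : MuLine c L) =
      ((constB c A αd : BRing c A) : MuLine c L) * ((evj c A hj n' : BRing c A) : MuLine c L)
    rw [coe_evj, coe_evj, coe_constB, coe_constB, hn', hd',
      IsScalarTower.algebraMap_apply L (RatFunc L) (MuLine c L),
      IsScalarTower.algebraMap_apply L (RatFunc L) (MuLine c L), ← map_mul, ← map_mul, ← map_mul]
    congr 1
    rw [map_mul, map_mul, ← hrel, RatFunc.algebraMap_C, RatFunc.algebraMap_C,
      RatFunc.algebraMap_eq_C]
    ring
  have h2 := congrArg m.hom key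
  rw [map_mul, map_mul, map_mul, hom_evj c A hj hm, hom_evj c A hj hm, hn', hd', eval_mul,
    eval_mul, eval_C, eval_C, hd0, mul_zero, mul_zero, zero_mul] at h2
  have hαd' : m.hom (constB c A αd) = (αd : L) := RingHom.congr_fun hm.1 αd
  rw [hαd'] at h2
  have hn0 : r.num.eval a = 0 := by
    rcases mul_eq_zero.mp h2.symm with h | h
    · exact absurd h hαd
    · rcases mul_eq_zero.mp h with h | h
      · exact absurd h hαn
      · exact h
  obtain ⟨u, w, huw⟩ := RatFunc.isCoprime_num_denom r
  have := congrArg (Polynomial.eval a) huw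
  rw [eval_add, eval_mul, eval_mul, hn0, hd0, mul_zero, mul_zero, add_zero, eval_one] at this
  exact zero_ne_one this

variable (FL : Type*) [Field FL] [Algebra (RatFunc L) FL] [Algebra L FL]
  [IsScalarTower L (RatFunc L) FL] [IsAlgClosed L]

omit [IsInvariantSubring (c.Gal L) (BRing c A)] in
/-- **(R)** the regularity hypothesis `hreg` of `GenericFibre.card_orbits_eq_card_zeros` holds as
soon as `M_a` has a point -/
theorem hreg_of_point (hx : IsFF L (xF L FL)) {a : L} {m : Pt (BRing c A) L}
    (hm : m.hom.comp (constB c A) = A.subtype ∧ m.hom (jB c A hj) = a) :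
    ∀ r ∈ Bj c A, ∀ v : Place L FL,
      v.adicValuation (xF L FL - algebraMap L FL a) < 1 →
        v.adicValuation (algebraMap (RatFunc L) FL r) ≤ 1 := by
  intro r hr v hv
  have hd := denom_eval_ne_zero c A hj hm hr
  have hxv : v.adicValuation (xF L FL) ≤ 1 :=
    PlacePoints.adicValuation_le_one_of_sub_lt_one v a hv
  let X0 : v.toValuationSubring := ⟨xF L FL, (Fermat.Agent.S24.Ord.mem_iff v _).mpr hxv⟩
  have hev : PlaceEval.evalAt hx v X0 = a := (PlaceEval.evalAt_eq_iff hx v X0 a).mpr hv
  have hpoly : ∀ p : L[X], algebraMap (RatFunc L) FL (algebraMap L[X] (RatFunc L) p) =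
      ((aeval X0 p : v.toValuationSubring) : FL) := by
    intro p
    rw [← RatFunc.aeval_X_left_eq_algebraMap, ← Polynomial.aeval_algebraMap_apply]
    have h1 : ((aeval X0 p : v.toValuationSubring) : FL) =
        algebraMap v.toValuationSubring FL (aeval X0 p) := rfl
    rw [h1, ← Polynomial.aeval_algebraMap_apply]
    rfl
  have hevp : ∀ p : L[X], PlaceEval.evalAt hx v (aeval X0 p) = p.eval a := by
    intro p
    rw [← Polynomial.aeval_algHom_apply, hev, Polynomial.coe_aeval_eq_eval]
  have hunit : IsUnit (aeval X0 r.denom : v.toValuationSubring) :=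
    (PlaceEval.evalAt_isUnit_iff hx v _).mp (by rw [hevp]; exact hd)
  have hrel : algebraMap (RatFunc L) FL r * ((aeval X0 r.denom : v.toValuationSubring) : FL) =
      ((aeval X0 r.num : v.toValuationSubring) : FL) := by
    rw [← hpoly, ← hpoly, ← map_mul]
    congr 1
    have h := RatFunc.num_div_denom r
    rw [div_eq_iff (RatFunc.algebraMap_ne_zero (RatFunc.denom_ne_zero r))] at h
    exact h.symm
  obtain ⟨u, hu⟩ := hunit
  have : algebraMap (RatFunc L) FL r =
      ((aeval X0 r.num * (u⁻¹ : (v.toValuationSubring)ˣ) : v.toValuationSubring) : FL) := by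
    have hne : ((aeval X0 r.denom : v.toValuationSubring) : FL) ≠ 0 := by
      rw [← hu]
      exact fun h => u.ne_zero (Subtype.ext h)
    apply mul_right_cancel₀ hne
    rw [hrel, ← hu]
    show _ = ((aeval X0 r.num * (u⁻¹ : (v.toValuationSubring)ˣ) * u : v.toValuationSubring) : FL)
    rw [mul_assoc, Units.inv_mul, mul_one]
  rw [this]
  exact (Fermat.Agent.S24.Ord.mem_iff v _).mp (Subtype.property _)

end Reg

section Summary

open Fermat.Agent.S18.C.DiscRingLocal

variable (hj : (RatFunc.X : RatFunc L) ∈ Bj c A) (hQ : A.valuation ((c.QK L).coeff 0) = 1)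

include hQ

/-- `#M_a` = number of zeros of `P - a Q` in the open unit disc -/
theorem card_Mset (a : L) :
    Nat.card (Mset c A a hj) =
      Nat.card {t : L // A.valuation t < 1 ∧ (c.PK L).eval t = a * (c.QK L).eval t} :=
  Nat.card_congr (MsetEquiv c A a hj hQ)

/-- `#Fix_g(M_a)` = number of common zeros in the disc of `P - a Q` and `T - X S` -/
theorem card_fixedBy_Mset (a : L) (g : c.Gal L) {T S : L[X]}
    (hg : g (MuLine.mu c L) * algebraMap L[X] (MuLine c L) S = algebraMap L[X] (MuLine c L) T)
    (hS : ∀ t : L, A.valuation t < 1 → S.eval t ≠ 0) :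
    Nat.card (fixedBy (Mset c A a hj) g) =
      Nat.card {t : L // (A.valuation t < 1 ∧ (c.PK L).eval t = a * (c.QK L).eval t) ∧
        T.eval t = t * S.eval t} :=
  Nat.card_congr (fixedByEquiv c A a hj hQ g hg hS)

variable (FL : Type*) [Field FL] [Algebra (RatFunc L) FL] [Algebra L FL]
  [IsScalarTower L (RatFunc L) FL] [IsAlgClosed L] [FiniteDimensional (RatFunc L) FL]
  [IsGalois (RatFunc L) (MuLine c L)] [FiniteDimensional (RatFunc L) (MuLine c L)]

/-- **The dictionary, unconditional form**: if `M_a` is nonempty (`P - a Q` has a zero `t₀` in the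
disc), the orbits of `H₀` on the points of `C_A` over `M_a` are the places of `FL` over `x = a`. -/
theorem card_orbits_Mset (hx : IsFF L (xF L FL))
    (hsep : Algebra.IsSeparable (IntermediateField.adjoin L {xF L FL}) FL) (a : L) {t₀ : L}
    (ht₀ : A.valuation t₀ < 1) (hPt : (c.PK L).eval t₀ = a * (c.QK L).eval t₀) :
    Nat.card (Quotient (orbitRel (c.Gal L)
        (ptsOver (smul_algebraMap c FL A) (Mset c A a hj)))) =
      (Fermat.Agent.S18.A.FibreSep.zeros hx hsep a).card :=
  card_orbits_eq_card_zeros c A FL a hj (Mset c A a hj) (mem_ptsOver_Mset_iff c A FL a hj) hx hsep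
    (hreg_of_point c A hj FL hx (m := ptOfDisc c A t₀ ht₀)
      ⟨ptOfDisc_constB c A t₀ ht₀, (ptOfDisc_jB_eq_iff c A hj hQ a t₀ ht₀).mpr hPt⟩)

end Summary

end Fermat.Agent.S18.C.GenericFibre2
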