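import Mathlib
import Fermat.Agent.S18.C.MoebiusDisc
import Fermat.Agent.S18.C.LegendreDisc

/-!
# PROJECT H (S18), block C: the Hesse and Legendre substitutions preserve the disc ring

Polynomial forms `topPolyH ω g`, `botPolyH ω g` (Hesse, coordinate `μ`) and `topPolyT g`,
`botPolyT g` (Legendre, coordinate `t = la + 1`) of the numerators and denominators of the
Moebius maps, with the four hypotheses of `MoebiusDisc.map_mem_discRing` /
`MoebiusDisc.evalAt_map`:
both polynomials have coefficients in `V`, the constant term of the numerator is in `𝔪_V`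
(`v 2 < 1` resp. `v 3 < 1`), the constant term of the denominator is a unit of `V`.

Consequences `hesse_map_mem_discRing`, `legendre_map_mem_discRing`: a `K`-algebra endomorphism
`σ` of `K(X)` with `σ X = g X` (one of the 12 resp. 6 Moebius maps) maps `discRing V` into itself.
-/

set_option autoImplicit false

namespace Fermat.Agent.S18.C.MoebiusDiscInst

open Polynomial
open Fermat.Agent.S18.C.Defs
open Fermat.Agent.S18.C.MoebiusDisc

section Hesse

open Fermat.Agent.S18.C.Hesse

variable {K : Type*} [Field K]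

/-- the numerator of the Moebius map `g` as a polynomial -/
noncomputable def topPolyH (ω : K) (g : Idx) : K[X] :=
  match g with
  | Sum.inl a => C (ω ^ (a : ℕ)) * X
  | Sum.inr (a, c) => C (ω ^ (a : ℕ)) * (X + C (2 * ω ^ (c : ℕ)))

/-- the denominator of the Moebius map `g` as a polynomial -/
noncomputable def botPolyH (ω : K) (g : Idx) : K[X] :=
  match g with
  | Sum.inl _ => 1
  | Sum.inr (_, c) => X - C (ω ^ (c : ℕ))

theorem eval_topPolyH (ω : K) (g : Idx) (x : K) : (topPolyH ω g).eval x = topH ω g x := by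
  rcases g with a | ⟨a, c⟩ <;> simp [topPolyH]

theorem eval_botPolyH (ω : K) (g : Idx) (x : K) : (botPolyH ω g).eval x = botH ω g x := by
  rcases g with a | ⟨a, c⟩ <;> simp [botPolyH]

theorem eval₂_topPolyH {E : Type*} [CommRing E] (φ : K →+* E) (ω : K) (g : Idx) (x : E) :
    (topPolyH ω g).eval₂ φ x = topH (φ ω) g x := by
  rcases g with a | ⟨a, c⟩ <;>
    simp [topPolyH, eval₂_mul, eval₂_add, eval₂_C, eval₂_X, eval₂_pow, map_ofNat]

theorem eval₂_botPolyH {E : Type*} [CommRing E] (φ : K →+* E) (ω : K) (g : Idx) (x : E) :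
    (botPolyH ω g).eval₂ φ x = botH (φ ω) g x := by
  rcases g with a | ⟨a, c⟩ <;> simp [botPolyH, eval₂_sub, eval₂_X, eval₂_pow]

theorem algebraMap_topPolyH (ω : K) (g : Idx) :
    algebraMap K[X] (RatFunc K) (topPolyH ω g) = topH (RatFunc.C ω) g RatFunc.X := by
  rcases g with a | ⟨a, c⟩ <;>
    simp [topPolyH, RatFunc.algebraMap_C, RatFunc.algebraMap_X, map_ofNat]

theorem algebraMap_botPolyH (ω : K) (g : Idx) :
    algebraMap K[X] (RatFunc K) (botPolyH ω g) = botH (RatFunc.C ω) g RatFunc.X := by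
  rcases g with a | ⟨a, c⟩ <;>
    simp [botPolyH, RatFunc.algebraMap_C, RatFunc.algebraMap_X]

theorem coeff_zero_topPolyH (ω : K) (g : Idx) : (topPolyH ω g).coeff 0 = topH ω g 0 := by
  rw [coeff_zero_eq_eval_zero, eval_topPolyH]

theorem coeff_zero_botPolyH (ω : K) (g : Idx) : (botPolyH ω g).coeff 0 = botH ω g 0 := by
  rw [coeff_zero_eq_eval_zero, eval_botPolyH]

variable (V : ValuationSubring K)

theorem valuation_omega {ω : K} (hω3 : ω ^ 3 = 1) : V.valuation ω = 1 :=
  DiscBasic.val_eq_one_of_pow_eq_one V.valuation (by norm_num) hω3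

theorem omega_mem {ω : K} (hω3 : ω ^ 3 = 1) : ω ∈ V :=
  (V.valuation_le_one_iff ω).mp (valuation_omega V hω3).le

theorem topPolyH_mem_polyV {ω : K} (hω3 : ω ^ 3 = 1) (g : Idx) : topPolyH ω g ∈ polyV V := by
  have hω := omega_mem V hω3
  have hX : (X : K[X]) ∈ polyV V := by
    rw [mem_polyV]; intro i; rw [coeff_X]; split_ifs
    · exact V.one_mem
    · exact V.zero_mem
  have h2 : (2 : K) ∈ V := by
    have : (2 : K) = 1 + 1 := by norm_num
    rw [this]; exact V.add_mem _ _ V.one_mem V.one_mem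
  rcases g with a | ⟨a, c⟩
  · exact Subring.mul_mem _ (C_mem_polyV V (V.toSubring.pow_mem hω _)) hX
  · exact Subring.mul_mem _ (C_mem_polyV V (V.toSubring.pow_mem hω _))
      (Subring.add_mem _ hX (C_mem_polyV V (V.mul_mem _ _ h2 (V.toSubring.pow_mem hω _))))

theorem botPolyH_mem_polyV {ω : K} (hω3 : ω ^ 3 = 1) (g : Idx) : botPolyH ω g ∈ polyV V := by
  have hω := omega_mem V hω3
  have hX : (X : K[X]) ∈ polyV V := by
    rw [mem_polyV]; intro i; rw [coeff_X]; split_ifs
    · exact V.one_mem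
    · exact V.zero_mem
  rcases g with a | ⟨a, c⟩
  · exact Subring.one_mem _
  · exact Subring.sub_mem _ hX (C_mem_polyV V (V.toSubring.pow_mem hω _))

theorem valuation_coeff_zero_topPolyH {ω : K} (hω3 : ω ^ 3 = 1) (hv2 : V.valuation (2 : K) < 1)
    (g : Idx) : V.valuation ((topPolyH ω g).coeff 0) < 1 := by
  have hvω := valuation_omega V hω3
  rw [coeff_zero_topPolyH]
  rcases g with a | ⟨a, c⟩
  · rw [HesseDisc.topH_zero_inl, map_zero]; exact zero_lt_one
  · rw [HesseDisc.topH_zero_inr, map_mul, map_mul, map_pow, map_pow, hvω, one_pow, one_pow,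
      mul_one, mul_one]
    exact hv2

theorem valuation_coeff_zero_botPolyH {ω : K} (hω3 : ω ^ 3 = 1) (g : Idx) :
    V.valuation ((botPolyH ω g).coeff 0) = 1 := by
  have hvω := valuation_omega V hω3
  rw [coeff_zero_botPolyH]
  rcases g with a | ⟨a, c⟩
  · rw [HesseDisc.botH_zero_inl, map_one]
  · rw [HesseDisc.botH_zero_inr, Valuation.map_neg, map_pow, hvω, one_pow]

/-- HESSE: a `K`-algebra endomorphism `σ` of `K(X)` with `σ X = g X` maps `discRing V` into
itself (`v 2 < 1`) -/
theorem hesse_map_mem_discRing {ω : K} (hω3 : ω ^ 3 = 1) (hv2 : V.valuation (2 : K) < 1)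
    (σ : RatFunc K →ₐ[K] RatFunc K) (g : Idx)
    (hσ : σ RatFunc.X * botH (RatFunc.C ω) g RatFunc.X = topH (RatFunc.C ω) g RatFunc.X)
    {f : RatFunc K} (hf : f ∈ discRing V) : σ f ∈ discRing V := by
  refine map_mem_discRing V σ (topPolyH_mem_polyV V hω3 g) (botPolyH_mem_polyV V hω3 g)
    (valuation_coeff_zero_topPolyH V hω3 hv2 g) (valuation_coeff_zero_botPolyH V hω3 g) ?_ hf
  rw [algebraMap_topPolyH, algebraMap_botPolyH]; exact hσ

end Hesse

section Legendre

open Fermat.Agent.S18.C.Legendre Fermat.Agent.S18.C.LegendreDisc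

variable {K : Type*} [Field K]

/-- the numerator of the Moebius map `g` in the coordinate `t = la + 1`, as a polynomial -/
noncomputable def topPolyT (g : Fin 6) : K[X] :=
  C (cA g + cC g) * X + C (cB g + cD g - cA g - cC g)

/-- the denominator of the Moebius map `g` in the coordinate `t = la + 1`, as a polynomial -/
noncomputable def botPolyT (g : Fin 6) : K[X] := C (cC g) * X + C (cD g - cC g)

theorem eval_topPolyT (g : Fin 6) (x : K) : (topPolyT g).eval x = topT g x := by
  simp [topPolyT, topT, topL, botL]; ring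

theorem eval_botPolyT (g : Fin 6) (x : K) : (botPolyT g).eval x = botT g x := by
  simp [botPolyT, botT, botL]; ring

theorem coeff_zero_topPolyT (g : Fin 6) : (topPolyT (K := K) g).coeff 0 = topT g 0 := by
  rw [coeff_zero_eq_eval_zero, eval_topPolyT]

theorem coeff_zero_botPolyT (g : Fin 6) : (botPolyT (K := K) g).coeff 0 = botT g 0 := by
  rw [coeff_zero_eq_eval_zero, eval_botPolyT]

variable (V : ValuationSubring K)

theorem intCast_mem (n : ℤ) : (n : K) ∈ V :=
  (V.valuation_le_one_iff _).mp (DiscBasic.val_intCast_le_one V.valuation n)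

theorem cA_mem (g : Fin 6) : (cA g : K) ∈ V := by
  fin_cases g <;> simp [cA, V.one_mem, V.zero_mem, V.neg_mem]

theorem cB_mem (g : Fin 6) : (cB g : K) ∈ V := by
  fin_cases g <;> simp [cB, V.one_mem, V.zero_mem, V.neg_mem]

theorem cC_mem (g : Fin 6) : (cC g : K) ∈ V := by
  fin_cases g <;> simp [cC, V.one_mem, V.zero_mem, V.neg_mem]

theorem cD_mem (g : Fin 6) : (cD g : K) ∈ V := by
  fin_cases g <;> simp [cD, V.one_mem, V.zero_mem, V.neg_mem]

theorem X_mem_polyV : (X : K[X]) ∈ polyV V := by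
  rw [mem_polyV]; intro i; rw [coeff_X]; split_ifs
  · exact V.one_mem
  · exact V.zero_mem

theorem topPolyT_mem_polyV (g : Fin 6) : topPolyT (K := K) g ∈ polyV V := by
  unfold topPolyT
  exact Subring.add_mem _
    (Subring.mul_mem _ (C_mem_polyV V (add_mem (cA_mem V g) (cC_mem V g))) (X_mem_polyV V))
    (C_mem_polyV V (sub_mem (sub_mem (add_mem (cB_mem V g) (cD_mem V g))
      (cA_mem V g)) (cC_mem V g)))

theorem botPolyT_mem_polyV (g : Fin 6) : botPolyT (K := K) g ∈ polyV V := by
  unfold botPolyT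
  exact Subring.add_mem _ (Subring.mul_mem _ (C_mem_polyV V (cC_mem V g)) (X_mem_polyV V))
    (C_mem_polyV V (sub_mem (cD_mem V g) (cC_mem V g)))

theorem valuation_coeff_zero_topPolyT (hv3 : V.valuation (3 : K) < 1) (g : Fin 6) :
    V.valuation ((topPolyT (K := K) g).coeff 0) < 1 := by
  rw [coeff_zero_topPolyT, topT_zero, map_mul]
  have h : V.valuation ((![0, 1, 0, 1, -1, -1] : Fin 6 → K) g) ≤ 1 := by
    fin_cases g <;> simp
  calc V.valuation (3 : K) * V.valuation ((![0, 1, 0, 1, -1, -1] : Fin 6 → K) g)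
      ≤ V.valuation (3 : K) * 1 := mul_le_mul_right h _
    _ < 1 := by rwa [mul_one]

theorem valuation_coeff_zero_botPolyT (hv3 : V.valuation (3 : K) < 1) (g : Fin 6) :
    V.valuation ((botPolyT (K := K) g).coeff 0) = 1 := by
  have h2 : V.valuation (2 : K) = 1 := DiscBasic.val_two_of_val_three V.valuation hv3
  rw [coeff_zero_botPolyT, botT_zero]
  fin_cases g <;> simp [h2]

theorem algebraMap_topPolyT (g : Fin 6) :
    algebraMap K[X] (RatFunc K) (topPolyT g) = topT g (RatFunc.X : RatFunc K) := by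
  unfold topPolyT topT topL botL
  fin_cases g <;>
    simp [cA, cB, cC, cD, RatFunc.algebraMap_X] <;> ring

theorem algebraMap_botPolyT (g : Fin 6) :
    algebraMap K[X] (RatFunc K) (botPolyT g) = botT g (RatFunc.X : RatFunc K) := by
  unfold botPolyT botT botL
  fin_cases g <;>
    simp [cC, cD, RatFunc.algebraMap_X] <;> ring

/-- LEGENDRE (coordinate `t = la + 1`): a `K`-algebra endomorphism `σ` of `K(X)` with
`σ X = g X` maps `discRing V` into itself (`v 3 < 1`) -/
theorem legendre_map_mem_discRing (hv3 : V.valuation (3 : K) < 1)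
    (σ : RatFunc K →ₐ[K] RatFunc K) (g : Fin 6)
    (hσ : σ RatFunc.X * botT g (RatFunc.X : RatFunc K) = topT g (RatFunc.X : RatFunc K))
    {f : RatFunc K} (hf : f ∈ discRing V) : σ f ∈ discRing V := by
  refine map_mem_discRing V σ (topPolyT_mem_polyV V g) (botPolyT_mem_polyV V g)
    (valuation_coeff_zero_topPolyT V hv3 g) (valuation_coeff_zero_botPolyT V hv3 g) ?_ hf
  rw [algebraMap_topPolyT, algebraMap_botPolyT]; exact hσ

end Legendre

end Fermat.Agent.S18.C.MoebiusDiscInst
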