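import Mathlib
import Fermat.Agent.S18.C.GenericFibre2
import Fermat.Agent.S18.C.FixCount
import Fermat.Agent.S18.C.MoebiusDiscInst

/-!
# PROJECT H (S18), block C, slice H-C9 (part 3): contract K3 from the special-fibre identity

The generic-fibre side of block C, fully instantiated for the two covers:

* `hesse_k3` (`ℓ = 2`, `A.valuation 2 < 1`, `#H₀ = 12`, `#M₀ = 4`, `#M₁₇₂₈ = 6`, `d₀ = 14`,
  `i₀ g = iH (hesseIdx g)`) and
* `legendre_k3` (`ℓ = 3`, `A.valuation 3 < 1`, `#H₀ = 6`, `#M₀ = 2`, `#M₁₇₂₈ = 3`, `d₀ = 7`,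
  `i₀ g = iL (legendreIdx g)`):

for every `B_A`-basis `b` of `C_A = CInt c FL A` with unit discriminant and every `D : ℕ` with

  `#H₀ * D + ∑_{g ≠ 1} i₀ g * φk g = d₀ * φk 1`     (the special-fibre identity, H-C8),

one has `D + #zeros(x, 0) + #zeros(x, 1728) = 2 * φk 1` (`= 2 * rank`, `hesse_k3_rank`,
`legendre_k3_rank`), where `zeros(x, a)` are the places of `FL` over `x = a`.
-/

set_option autoImplicit false

noncomputable section

namespace Fermat.Agent.S18.C.GenericK3

open Polynomial TensorProduct AlgebraicCurve MulAction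
  Fermat.Agent.S18.C.Defs Fermat.Agent.S18.C.SurfaceDefs Fermat.Agent.S18.C.GenericCount
  Fermat.Agent.S18.C.GenericFibre Fermat.Agent.S18.C.GenericFibre2
  Fermat.Agent.S18.C.BRingLocal Fermat.Agent.S24.FF Fermat.Agent.S18.C.CoverInst

section General

variable (c : Cover) {L : Type*} [Field L] [c.Good L] (A : ValuationSubring L)

omit [c.Good L] in
/-- the closed point of `B_A` is the reduction of the point `μ = 0` of the disc -/
theorem residue_comp_evDiscB (t : L) (ht : A.valuation t < 1) :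
    (IsLocalRing.residue A).comp (evDiscB c A t ht) = evClosedB c A :=
  RingHom.ext fun x => residue_evDiscB c A t ht x

/-- `φk 1` over the closed point of `B_A` is the rank -/
theorem phik_one_evClosedB {C : Type*} [CommRing C] [Algebra (BRing c A) C]
    [MulSemiringAction (c.Gal L) C] [IsAlgClosed (IsLocalRing.ResidueField A)]
    {ι : Type*} [Fintype ι] [DecidableEq ι] (b : Module.Basis ι (BRing c A) C)
    (hb : IsUnit (Algebra.discr (BRing c A) b)) :
    phik (G := c.Gal L) (C := C) A (evClosedB c A) (1 : c.Gal L) = Fintype.card ι := by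
  have h := phik_one (G := c.Gal L) A b (evDiscB c A 0 (by rw [map_zero]; exact zero_lt_one))
    (hb.map _)
  rwa [residue_comp_evDiscB] at h

end General

section Hesse

open Fermat.Agent.S18.C.Hesse Fermat.Agent.S18.C.HesseDisc Fermat.Agent.S18.C.MoebiusDiscInst

variable {L : Type*} [Field L] [CharZero L] (A : ValuationSubring L)

/-- `j ∈ B_A` for the Hesse cover -/
theorem hesse_hj : (RatFunc.X : RatFunc L) ∈ Bj hesse A :=
  hesse_covMap_mem_BRing A (X_mem_discRing A)

theorem hesse_hQ : A.valuation ((hesse.QK L).coeff 0) = 1 := by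
  rw [hesse_QK_coeff_zero, Valuation.map_neg, map_one]

variable {ω : L} (hω : ω ^ 2 + ω + 1 = 0) (h3 : (3 : L) ≠ 0)

/-- the Moebius relation `g μ * S_g(μ) = T_g(μ)` for the Hesse group -/
theorem hesse_moebius (g : hesse.Gal L) :
    g (MuLine.mu hesse L) *
        algebraMap L[X] (MuLine hesse L) (botPolyH ω (hesseIdx hω h3 g)) =
      algebraMap L[X] (MuLine hesse L) (topPolyH ω (hesseIdx hω h3 g)) := by
  have h1 : algebraMap L[X] (MuLine hesse L) (botPolyH ω (hesseIdx hω h3 g)) =
      botH (algebraMap L (MuLine hesse L) ω) (hesseIdx hω h3 g) (MuLine.mu hesse L) :=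
    algebraMap_botPolyH ω _
  have h2 : algebraMap L[X] (MuLine hesse L) (topPolyH ω (hesseIdx hω h3 g)) =
      topH (algebraMap L (MuLine hesse L) ω) (hesseIdx hω h3 g) (MuLine.mu hesse L) :=
    algebraMap_topPolyH ω _
  rw [h1, h2, hesse_apply_mu hω h3 g]
  unfold actH
  rw [div_mul_cancel₀ _ (hesse_botH_ne_zero hω h3 _)]

include hω in
theorem hesse_bot_ne_zero (i : Idx) (t : L) (ht : A.valuation t < 1) :
    (botPolyH ω i).eval t ≠ 0 :=
  eval_ne_zero_of_coeff_zero A (botPolyH_mem_polyV A (omega_pow_three hω) i)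
    (valuation_coeff_zero_botPolyH A (omega_pow_three hω) i) t ht


variable (h2 : A.valuation 2 < 1) [IsInvariantSubring (hesse.Gal L) (BRing hesse A)]

include h2 in
/-- the zeros of `P - a Q` in the disc, for `a = 0`: all the zeros of `numJ` -/
theorem hesse_card_M0 :
    Nat.card (Mset hesse A 0 (hesse_hj A)) = Nat.card {x : L // numJ x = 0} := by
  rw [card_Mset hesse A (hesse_hj A) (hesse_hQ A) 0]
  refine Nat.card_congr (Equiv.subtypeEquivRight fun t => ?_)
  rw [hesse_PK, hesse_QK, eval_polyP, eval_polyQ, zero_mul]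
  exact ⟨fun h => h.2, fun h => ⟨val_lt_one_of_numJ_eq_zero A.valuation h2 h, h⟩⟩

include h2 in
theorem hesse_card_M1728 :
    Nat.card (Mset hesse A 1728 (hesse_hj A)) =
      Nat.card {x : L // numJ x = 1728 * denJ x} := by
  rw [card_Mset hesse A (hesse_hj A) (hesse_hQ A) 1728]
  refine Nat.card_congr (Equiv.subtypeEquivRight fun t => ?_)
  rw [hesse_PK, hesse_QK, eval_polyP, eval_polyQ]
  exact ⟨fun h => h.2, fun h => ⟨val_lt_one_of_eq_1728 A.valuation h2 h, h⟩⟩

include h2 in
theorem hesse_card_fix0 (g : hesse.Gal L) :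
    Nat.card (fixedBy (Mset hesse A 0 (hesse_hj A)) g) =
      Nat.card {x : L // fixH ω (hesseIdx hω h3 g) x = 0 ∧ numJ x = 0} := by
  rw [card_fixedBy_Mset hesse A (hesse_hj A) (hesse_hQ A) 0 g (hesse_moebius hω h3 g)
    (hesse_bot_ne_zero A hω _)]
  refine Nat.card_congr (Equiv.subtypeEquivRight fun t => ?_)
  rw [hesse_PK, hesse_QK, eval_polyP, eval_polyQ, zero_mul, eval_topPolyH, eval_botPolyH]
  unfold fixH
  exact ⟨fun h => ⟨sub_eq_zero.mpr h.2, h.1.2⟩,
    fun h => ⟨⟨val_lt_one_of_numJ_eq_zero A.valuation h2 h.2, h.2⟩, sub_eq_zero.mp h.1⟩⟩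

include h2 in
theorem hesse_card_fix1728 (g : hesse.Gal L) :
    Nat.card (fixedBy (Mset hesse A 1728 (hesse_hj A)) g) =
      Nat.card {x : L // fixH ω (hesseIdx hω h3 g) x = 0 ∧ numJ x = 1728 * denJ x} := by
  rw [card_fixedBy_Mset hesse A (hesse_hj A) (hesse_hQ A) 1728 g (hesse_moebius hω h3 g)
    (hesse_bot_ne_zero A hω _)]
  refine Nat.card_congr (Equiv.subtypeEquivRight fun t => ?_)
  rw [hesse_PK, hesse_QK, eval_polyP, eval_polyQ, eval_topPolyH, eval_botPolyH]
  unfold fixH
  exact ⟨fun h => ⟨sub_eq_zero.mpr h.2, h.1.2⟩,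
    fun h => ⟨⟨val_lt_one_of_eq_1728 A.valuation h2 h.2, h.2⟩, sub_eq_zero.mp h.1⟩⟩


variable [IsAlgClosed L]
variable (FL : Type*) [Field FL] [Algebra (RatFunc L) FL] [Algebra L FL]
  [IsScalarTower L (RatFunc L) FL] [FiniteDimensional (RatFunc L) FL]
  [IsAlgClosed (IsLocalRing.ResidueField A)]
  [Fintype (hesse.Gal L)] [DecidableEq (hesse.Gal L)]
  {ι : Type*} [Fintype ι] [DecidableEq ι]
  (b : Module.Basis ι (BRing hesse A) (CInt hesse FL A))
  (hb : IsUnit (Algebra.discr (BRing hesse A) b))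
  (hx : IsFF L (xF L FL)) (hsep : Algebra.IsSeparable (IntermediateField.adjoin L {xF L FL}) FL)

include h2 hb in
/-- **Contract K3, generic side, Hesse cover (`ℓ = 2`)**: from the special-fibre identity `hD`
(H-C8) for the different sum `D`. -/
theorem hesse_k3 (D : ℕ)
    (hD : 12 * D + ∑ g ∈ Finset.univ.erase (1 : hesse.Gal L),
        iH (hesseIdx hω h3 g) * phik (C := CInt hesse FL A) A (evClosedB hesse A) g =
      14 * phik (C := CInt hesse FL A) A (evClosedB hesse A) (1 : hesse.Gal L)) :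
    D + (Fermat.Agent.S18.A.FibreSep.zeros hx hsep 0).card +
        (Fermat.Agent.S18.A.FibreSep.zeros hx hsep 1728).card =
      2 * phik (C := CInt hesse FL A) A (evClosedB hesse A) (1 : hesse.Gal L) := by
  haveI := isGalois_hesse hω h3
  haveI := finiteDimensional_hesse hω h3
  obtain ⟨s, hs⟩ : ∃ s : L, s ^ 2 = 3 := IsAlgClosed.exists_pow_nat_eq 3 (by norm_num)
  have h2ne : (2 : L) ≠ 0 := two_ne_zero
  have hc0 : Nat.card (Mset hesse A 0 (hesse_hj A)) = 4 :=
    (hesse_card_M0 A h2).trans (card_over_zero A.valuation h2 h2ne hω)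
  have hc1 : Nat.card (Mset hesse A 1728 (hesse_hj A)) = 6 :=
    (hesse_card_M1728 A h2).trans (card_over_1728 A.valuation h2 h2ne hω hs)
  haveI : Finite (Mset hesse A 0 (hesse_hj A)) :=
    Nat.finite_of_card_ne_zero (by rw [hc0]; norm_num)
  haveI : Finite (Mset hesse A 1728 (hesse_hj A)) :=
    Nat.finite_of_card_ne_zero (by rw [hc1]; norm_num)
  have hk := k3_of_counts A b (smul_algebraMap hesse FL A) (Mset hesse A 0 (hesse_hj A))
    (Mset hesse A 1728 (hesse_hj A)) (evClosedB hesse A)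
    (isGoodSet_Mset hesse A b hb 0 _) (isGoodSet_Mset hesse A b hb 1728 _)
    (fun g => iH (hesseIdx hω h3 g)) (fun g hg => by
      rw [hesse_card_fix0 A hω h3 h2, hesse_card_fix1728 A hω h3 h2]
      exact FixCount.card_fixH_zero_add_card_fixH_1728 A.valuation h2 h2ne hω hs
        (fun h => hg ((hesseIdx_eq_inl_zero_iff hω h3 g).mp h))) D 14
    (by rw [card_gal_hesse hω h3]; exact hD) (by rw [hc0, hc1, card_gal_hesse hω h3])
  have hne : Nonempty {x : L // numJ x = 1728 * denJ x} :=
    (Nat.card_pos_iff.mp (by rw [card_over_1728 A.valuation h2 h2ne hω hs]; norm_num)).1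
  obtain ⟨⟨t₁, ht₁⟩⟩ := hne
  rw [card_orbits_Mset hesse A (hesse_hj A) (hesse_hQ A) FL hx hsep 0 (t₀ := 0)
      (by rw [map_zero]; exact zero_lt_one)
      (by rw [hesse_PK, hesse_QK, eval_polyP, eval_polyQ, zero_mul]; simp [numJ]),
    card_orbits_Mset hesse A (hesse_hj A) (hesse_hQ A) FL hx hsep 1728 (t₀ := t₁)
      (val_lt_one_of_eq_1728 A.valuation h2 ht₁)
      (by rw [hesse_PK, hesse_QK, eval_polyP, eval_polyQ]; exact ht₁)] at hk
  exact hk


include h2 hb in
/-- `hesse_k3` with the rank `n = #ι` on the right -/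
theorem hesse_k3_rank (D : ℕ)
    (hD : 12 * D + ∑ g ∈ Finset.univ.erase (1 : hesse.Gal L),
        iH (hesseIdx hω h3 g) * phik (C := CInt hesse FL A) A (evClosedB hesse A) g =
      14 * Fintype.card ι) :
    D + (Fermat.Agent.S18.A.FibreSep.zeros hx hsep 0).card +
        (Fermat.Agent.S18.A.FibreSep.zeros hx hsep 1728).card = 2 * Fintype.card ι := by
  rw [← phik_one_evClosedB hesse A b hb] at hD ⊢
  exact hesse_k3 A hω h3 h2 FL b hb hx hsep D hD

end Hesse

section Legendre

open Fermat.Agent.S18.C.Legendre Fermat.Agent.S18.C.LegendreDisc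
  Fermat.Agent.S18.C.MoebiusDiscInst

variable {L : Type*} [Field L] [CharZero L] (A : ValuationSubring L) (hv3 : A.valuation 3 < 1)

include hv3 in
/-- `j ∈ B_A` for the Legendre cover -/
theorem legendre_hj : (RatFunc.X : RatFunc L) ∈ Bj legendre A :=
  legendre_covMap_mem_BRing A hv3 (X_mem_discRing A)

include hv3 in
theorem legendre_hQ : A.valuation ((legendre.QK L).coeff 0) = 1 := by
  rw [legendre_QK_coeff_zero]
  have : (4 : L) = 2 ^ 2 := by norm_num
  rw [this, map_pow, DiscBasic.val_two_of_val_three A.valuation hv3, one_pow]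

variable (h2 : (2 : L) ≠ 0)

/-- the Moebius relation `g t * S_g(t) = T_g(t)` for the anharmonic group -/
theorem legendre_moebius (g : legendre.Gal L) :
    g (MuLine.mu legendre L) *
        algebraMap L[X] (MuLine legendre L) (botPolyT (legendreIdx h2 g)) =
      algebraMap L[X] (MuLine legendre L) (topPolyT (legendreIdx h2 g)) := by
  have h1 : algebraMap L[X] (MuLine legendre L) (botPolyT (legendreIdx h2 g)) =
      botT (legendreIdx h2 g) (MuLine.mu legendre L) := algebraMap_botPolyT _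
  have h2' : algebraMap L[X] (MuLine legendre L) (topPolyT (legendreIdx h2 g)) =
      topT (legendreIdx h2 g) (MuLine.mu legendre L) := algebraMap_topPolyT _
  rw [h1, h2', legendre_apply_mu h2 g, div_mul_cancel₀ _ (legendre_botT_ne_zero h2 _)]

include hv3 in
theorem legendre_bot_ne_zero (i : Fin 6) (t : L) (ht : A.valuation t < 1) :
    (botPolyT (K := L) i).eval t ≠ 0 :=
  eval_ne_zero_of_coeff_zero A (botPolyT_mem_polyV A i)
    (valuation_coeff_zero_botPolyT A hv3 i) t ht

variable [IsInvariantSubring (legendre.Gal L) (BRing legendre A)]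

theorem legendre_card_M0 :
    Nat.card (Mset legendre A 0 (legendre_hj A hv3)) = Nat.card {la : L // numL la = 0} := by
  rw [card_Mset legendre A (legendre_hj A hv3) (legendre_hQ A hv3) 0]
  refine Nat.card_congr (Equiv.subtypeEquiv (Equiv.subRight 1) fun t => ?_)
  rw [legendre_PK, legendre_QK, eval_polyPT, eval_polyQT, zero_mul, numT_eq]
  show _ ↔ numL (t - 1) = 0
  refine ⟨fun h => h.2, fun h => ⟨?_, h⟩⟩
  have := val_lt_one_of_numL_eq_zero A.valuation hv3 h
  rwa [sub_add_cancel] at this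

theorem legendre_card_M1728 :
    Nat.card (Mset legendre A 1728 (legendre_hj A hv3)) =
      Nat.card {la : L // numL la = 1728 * denL la} := by
  rw [card_Mset legendre A (legendre_hj A hv3) (legendre_hQ A hv3) 1728]
  refine Nat.card_congr (Equiv.subtypeEquiv (Equiv.subRight 1) fun t => ?_)
  rw [legendre_PK, legendre_QK, eval_polyPT, eval_polyQT, numT_eq, denT_eq]
  show _ ↔ numL (t - 1) = 1728 * denL (t - 1)
  refine ⟨fun h => h.2, fun h => ⟨?_, h⟩⟩
  have := val_lt_one_of_eq_1728 A.valuation hv3 h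
  rwa [sub_add_cancel] at this

theorem legendre_card_fix0 (g : legendre.Gal L) :
    Nat.card (fixedBy (Mset legendre A 0 (legendre_hj A hv3)) g) =
      Nat.card {la : L // fixL (legendreIdx h2 g) la = 0 ∧ numL la = 0} := by
  rw [card_fixedBy_Mset legendre A (legendre_hj A hv3) (legendre_hQ A hv3) 0 g
    (legendre_moebius h2 g) (legendre_bot_ne_zero A hv3 _)]
  refine Nat.card_congr (Equiv.subtypeEquiv (Equiv.subRight 1) fun t => ?_)
  rw [legendre_PK, legendre_QK, eval_polyPT, eval_polyQT, zero_mul, eval_topPolyT, eval_botPolyT,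
    numT_eq]
  show _ ↔ fixL (legendreIdx h2 g) (t - 1) = 0 ∧ numL (t - 1) = 0
  rw [← fixT_eq]
  unfold fixT
  refine ⟨fun h => ⟨sub_eq_zero.mpr h.2, h.1.2⟩, fun h => ⟨⟨?_, h.2⟩, sub_eq_zero.mp h.1⟩⟩
  have := val_lt_one_of_numL_eq_zero A.valuation hv3 h.2
  rwa [sub_add_cancel] at this

theorem legendre_card_fix1728 (g : legendre.Gal L) :
    Nat.card (fixedBy (Mset legendre A 1728 (legendre_hj A hv3)) g) =
      Nat.card {la : L // fixL (legendreIdx h2 g) la = 0 ∧ numL la = 1728 * denL la} := by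
  rw [card_fixedBy_Mset legendre A (legendre_hj A hv3) (legendre_hQ A hv3) 1728 g
    (legendre_moebius h2 g) (legendre_bot_ne_zero A hv3 _)]
  refine Nat.card_congr (Equiv.subtypeEquiv (Equiv.subRight 1) fun t => ?_)
  rw [legendre_PK, legendre_QK, eval_polyPT, eval_polyQT, eval_topPolyT, eval_botPolyT,
    numT_eq, denT_eq]
  show _ ↔ fixL (legendreIdx h2 g) (t - 1) = 0 ∧ numL (t - 1) = 1728 * denL (t - 1)
  rw [← fixT_eq]
  unfold fixT
  refine ⟨fun h => ⟨sub_eq_zero.mpr h.2, h.1.2⟩, fun h => ⟨⟨?_, h.2⟩, sub_eq_zero.mp h.1⟩⟩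
  have := val_lt_one_of_eq_1728 A.valuation hv3 h.2
  rwa [sub_add_cancel] at this


omit [CharZero L] in
/-- a primitive cube root of unity exists in an algebraically closed field of characteristic
`≠ 2` -/
theorem exists_omega [IsAlgClosed L] (h2 : (2 : L) ≠ 0) : ∃ ω : L, ω ^ 2 + ω + 1 = 0 := by
  obtain ⟨z, hz⟩ : ∃ z : L, z ^ 2 = -3 := IsAlgClosed.exists_pow_nat_eq (-3) (by norm_num)
  refine ⟨(-1 + z) / 2, ?_⟩
  field_simp
  linear_combination hz

variable [IsAlgClosed L]
variable (FL : Type*) [Field FL] [Algebra (RatFunc L) FL] [Algebra L FL]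
  [IsScalarTower L (RatFunc L) FL] [FiniteDimensional (RatFunc L) FL]
  [IsAlgClosed (IsLocalRing.ResidueField A)]
  [Fintype (legendre.Gal L)] [DecidableEq (legendre.Gal L)]
  {ι : Type*} [Fintype ι] [DecidableEq ι]
  (b : Module.Basis ι (BRing legendre A) (CInt legendre FL A))
  (hb : IsUnit (Algebra.discr (BRing legendre A) b))
  (hx : IsFF L (xF L FL)) (hsep : Algebra.IsSeparable (IntermediateField.adjoin L {xF L FL}) FL)

include hv3 hb in
/-- **Contract K3, generic side, Legendre cover (`ℓ = 3`)**: from the special-fibre identity `hD`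
(H-C8) for the different sum `D`. -/
theorem legendre_k3 (D : ℕ)
    (hD : 6 * D + ∑ g ∈ Finset.univ.erase (1 : legendre.Gal L),
        iL (legendreIdx h2 g) * phik (C := CInt legendre FL A) A (evClosedB legendre A) g =
      7 * phik (C := CInt legendre FL A) A (evClosedB legendre A) (1 : legendre.Gal L)) :
    D + (Fermat.Agent.S18.A.FibreSep.zeros hx hsep 0).card +
        (Fermat.Agent.S18.A.FibreSep.zeros hx hsep 1728).card =
      2 * phik (C := CInt legendre FL A) A (evClosedB legendre A) (1 : legendre.Gal L) := by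
  haveI := isGalois_legendre h2
  haveI := finiteDimensional_legendre h2
  obtain ⟨ω, hω⟩ := exists_omega h2
  have h3ne : (3 : L) ≠ 0 := three_ne_zero
  have hj := legendre_hj A hv3
  have hQ := legendre_hQ A hv3
  have hc0 : Nat.card (Mset legendre A 0 hj) = 2 :=
    (legendre_card_M0 A hv3).trans (LegendreDisc.card_over_zero A.valuation hv3 h3ne hω)
  have hc1 : Nat.card (Mset legendre A 1728 hj) = 3 :=
    (legendre_card_M1728 A hv3).trans (LegendreDisc.card_over_1728 A.valuation hv3 h3ne)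
  haveI : Finite (Mset legendre A 0 hj) := Nat.finite_of_card_ne_zero (by rw [hc0]; norm_num)
  haveI : Finite (Mset legendre A 1728 hj) := Nat.finite_of_card_ne_zero (by rw [hc1]; norm_num)
  have hk := k3_of_counts A b (smul_algebraMap legendre FL A) (Mset legendre A 0 hj)
    (Mset legendre A 1728 hj) (evClosedB legendre A)
    (isGoodSet_Mset legendre A b hb 0 _) (isGoodSet_Mset legendre A b hb 1728 _)
    (fun g => iL (legendreIdx h2 g)) (fun g hg => by
      rw [legendre_card_fix0 A hv3 h2, legendre_card_fix1728 A hv3 h2]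
      exact FixCount.card_fixL_zero_add_card_fixL_1728 A.valuation hv3 h3ne hω
        (fun h => hg ((legendreIdx_eq_zero_iff h2 g).mp h))) D 7
    (by rw [card_gal_legendre h2]; exact hD) (by rw [hc0, hc1, card_gal_legendre h2])
  obtain ⟨⟨l₀, hl₀⟩⟩ : Nonempty {la : L // numL la = 0} :=
    (Nat.card_pos_iff.mp (by
      rw [LegendreDisc.card_over_zero A.valuation hv3 h3ne hω]; norm_num)).1
  obtain ⟨⟨l₁, hl₁⟩⟩ : Nonempty {la : L // numL la = 1728 * denL la} :=
    (Nat.card_pos_iff.mp (by
      rw [LegendreDisc.card_over_1728 A.valuation hv3 h3ne]; norm_num)).1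
  rw [card_orbits_Mset legendre A hj hQ FL hx hsep 0 (t₀ := l₀ + 1)
      (val_lt_one_of_numL_eq_zero A.valuation hv3 hl₀)
      (by rw [legendre_PK, legendre_QK, eval_polyPT, eval_polyQT, zero_mul, numT_add_one]
          exact hl₀),
    card_orbits_Mset legendre A hj hQ FL hx hsep 1728 (t₀ := l₁ + 1)
      (val_lt_one_of_eq_1728 A.valuation hv3 hl₁)
      (by rw [legendre_PK, legendre_QK, eval_polyPT, eval_polyQT, numT_add_one, denT_add_one]
          exact hl₁)] at hk
  exact hk


include hv3 hb in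
/-- `legendre_k3` with the rank `n = #ι` on the right -/
theorem legendre_k3_rank (D : ℕ)
    (hD : 6 * D + ∑ g ∈ Finset.univ.erase (1 : legendre.Gal L),
        iL (legendreIdx h2 g) * phik (C := CInt legendre FL A) A (evClosedB legendre A) g =
      7 * Fintype.card ι) :
    D + (Fermat.Agent.S18.A.FibreSep.zeros hx hsep 0).card +
        (Fermat.Agent.S18.A.FibreSep.zeros hx hsep 1728).card = 2 * Fintype.card ι := by
  rw [← phik_one_evClosedB legendre A b hb] at hD ⊢
  exact legendre_k3 A hv3 h2 FL b hb hx hsep D hD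

end Legendre

end Fermat.Agent.S18.C.GenericK3
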