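import Mathlib
import Fermat.Agent.S18.C.GenericK3
import Fermat.Agent.S18.C.ModularInst

/-!
# PROJECT H (S18), block C, slice H-C9 (part 4): K3 for `X₀(N)` in the shape of `Final.of_blocks`

* `val_two_or_three_of_1728` : `1728 = 0` in the residue field of `A` gives `|2| < 1` or `|3| < 1`;
* `hesse_k3_modular` (`|2| < 1`) / `legendre_k3_modular` (`|3| < 1`): for `FL = ℚ̄(X₀(N))` with the
  `j`-line structure `ModularInst.algFL`, a `B_A`-basis `b` of `C_A` of unit discriminant with
  `#ι = [FL : ℚ̄(j)]`, and the special-fibre identity `hD`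
  (`#H₀ * D + ∑_{g ≠ 1} i₀ g * φk g = d₀ * #ι`):

    `(n - #zeros(j, 0)) + (n - #zeros(j, 1728)) = D`   in `ℤ`,

  the left side being literally the left side of the hypothesis `hC` of `S18.Final.of_blocks`.
-/

set_option autoImplicit false
set_option synthInstance.maxHeartbeats 400000

noncomputable section

namespace Fermat.Agent.S18.C.GenericK3Final

open Polynomial TensorProduct AlgebraicCurve MulAction ModularCurve IntermediateField
  Fermat.Agent.S18.C.Defs Fermat.Agent.S18.C.SurfaceDefs Fermat.Agent.S18.C.GenericCount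
  Fermat.Agent.S18.C.GenericFibre Fermat.Agent.S18.C.GenericFibre2 Fermat.Agent.S18.C.GenericK3
  Fermat.Agent.S18.C.BRingLocal Fermat.Agent.S24.FF Fermat.Agent.S18.C.CoverInst
  Fermat.Agent.S18.A Fermat.Agent.S18.C.ModularInst
open Fermat.Agent.S24.DegreeAlg (jgen)

local notation "Kb" => AlgebraicClosure ℚ

section Split

variable {L : Type*} [Field L] (A : ValuationSubring L)

/-- `1728 = 0` in the residue field forces residue characteristic `2` or `3` -/
theorem val_two_or_three_of_1728 (h : (1728 : IsLocalRing.ResidueField A) = 0) :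
    A.valuation 2 < 1 ∨ A.valuation 3 < 1 := by
  have h1 : A.valuation (1728 : L) < 1 := by
    have h2 : IsLocalRing.residue A (1728 : A) = 0 := by
      rw [map_ofNat]; exact h
    rw [IsLocalRing.residue_eq_zero_iff] at h2
    exact (A.valuation_lt_one_iff _).mp h2
  by_contra hcon
  rw [not_or, not_lt, not_lt] at hcon
  have h2le : A.valuation (2 : L) ≤ 1 := DiscBasic.val_ofNat_le_one _ 2
  have h3le : A.valuation (3 : L) ≤ 1 := DiscBasic.val_ofNat_le_one _ 3
  have e2 : A.valuation (2 : L) = 1 := le_antisymm h2le hcon.1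
  have e3 : A.valuation (3 : L) = 1 := le_antisymm h3le hcon.2
  have : (1728 : L) = 2 ^ 6 * 3 ^ 3 := by norm_num
  rw [this, map_mul, map_pow, map_pow, e2, e3, one_pow, one_pow, one_mul] at h1
  exact lt_irrefl _ h1

end Split

section Transport

variable {K : Type*} {F : Type*} [Field K] [Field F] [Algebra K F] [IsAlgClosed K]

/-- the fibre of `x` over `a` does not depend on the name of `x` -/
theorem card_zeros_congr {x x' : F} (h : x = x') (hx : IsFF K x)
    (hsep : Algebra.IsSeparable K⟮x⟯ F) (hx' : IsFF K x') (hsep' : Algebra.IsSeparable K⟮x'⟯ F)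
    (a : K) : (FibreSep.zeros hx hsep a).card = (FibreSep.zeros hx' hsep' a).card := by
  subst h
  rfl

end Transport

section Modular

variable (N : ℕ) [NeZero N] (A : ValuationSubring Kb) [IsAlgClosed (IsLocalRing.ResidueField A)]
  [FiniteDimensional (RatFunc Kb) ↥(modularFunctionFieldBar N)]

theorem xF_eq_jgen : xF Kb ↥(modularFunctionFieldBar N) = jgen N := algebraMap_FL_X N

theorem isFF_xF : IsFF Kb (xF Kb ↥(modularFunctionFieldBar N)) := by
  rw [xF_eq_jgen]; exact Instances.isFF_jgen N

theorem isSeparable_xF :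
    Algebra.IsSeparable Kb⟮xF Kb ↥(modularFunctionFieldBar N)⟯ ↥(modularFunctionFieldBar N) := by
  rw [xF_eq_jgen]; exact Instances.isSeparable_jgen N

/-- the arithmetic step: `D + z₀ + z₁ = 2 n` gives `(n - z₀) + (n - z₁) = D` in `ℤ` -/
theorem int_form {n z₀ z₁ D : ℕ} (h : D + z₀ + z₁ = 2 * n) :
    ((n : ℤ) - (z₀ : ℤ)) + ((n : ℤ) - (z₁ : ℤ)) = (D : ℤ) := by
  have := congrArg (Nat.cast : ℕ → ℤ) h
  push_cast at this
  linarith

section Hesse

open Fermat.Agent.S18.C.Hesse

variable [IsInvariantSubring (hesse.Gal Kb) (BRing hesse A)]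
  [Fintype (hesse.Gal Kb)] [DecidableEq (hesse.Gal Kb)]
  {ι : Type*} [Fintype ι] [DecidableEq ι]
  (b : Module.Basis ι (BRing hesse A) (CInt hesse ↥(modularFunctionFieldBar N) A))

/-- **K3 for `X₀(N)`, `ℓ = 2`**, as an equality with the number `D` of the special-fibre identity
`hD`; the left side is literally the left side of `hC` in `S18.Final.of_blocks`. -/
theorem hesse_k3_modular (h2 : A.valuation 2 < 1) {ω : Kb} (hω : ω ^ 2 + ω + 1 = 0)
    (h3 : (3 : Kb) ≠ 0) (hb : IsUnit (Algebra.discr (BRing hesse A) b))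
    (hn : Fintype.card ι = Module.finrank Kb⟮jgen N⟯ ↥(modularFunctionFieldBar N)) (D : ℕ)
    (hD : 12 * D + ∑ g ∈ Finset.univ.erase (1 : hesse.Gal Kb),
        iH (hesseIdx hω h3 g) *
          phik (C := CInt hesse ↥(modularFunctionFieldBar N) A) A (evClosedB hesse A) g =
      14 * Fintype.card ι) :
    ((Module.finrank Kb⟮jgen N⟯ ↥(modularFunctionFieldBar N) : ℤ)
        - ((FibreSep.zeros (Instances.isFF_jgen N) (Instances.isSeparable_jgen N) 0).card : ℤ))
      + ((Module.finrank Kb⟮jgen N⟯ ↥(modularFunctionFieldBar N) : ℤ)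
        - ((FibreSep.zeros (Instances.isFF_jgen N) (Instances.isSeparable_jgen N) 1728).card : ℤ))
      = (D : ℤ) := by
  have h := hesse_k3_rank A hω h3 h2 ↥(modularFunctionFieldBar N) b hb (isFF_xF N)
    (isSeparable_xF N) D hD
  rw [card_zeros_congr (xF_eq_jgen N) (isFF_xF N) (isSeparable_xF N) (Instances.isFF_jgen N)
      (Instances.isSeparable_jgen N) 0,
    card_zeros_congr (xF_eq_jgen N) (isFF_xF N) (isSeparable_xF N) (Instances.isFF_jgen N)
      (Instances.isSeparable_jgen N) 1728, hn] at h
  exact int_form h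

end Hesse

section Legendre

open Fermat.Agent.S18.C.Legendre

variable [IsInvariantSubring (legendre.Gal Kb) (BRing legendre A)]
  [Fintype (legendre.Gal Kb)] [DecidableEq (legendre.Gal Kb)]
  {ι : Type*} [Fintype ι] [DecidableEq ι]
  (b : Module.Basis ι (BRing legendre A) (CInt legendre ↥(modularFunctionFieldBar N) A))

/-- **K3 for `X₀(N)`, `ℓ = 3`**, as an equality with the number `D` of the special-fibre identity
`hD`; the left side is literally the left side of `hC` in `S18.Final.of_blocks`. -/
theorem legendre_k3_modular (hv3 : A.valuation 3 < 1) (h2 : (2 : Kb) ≠ 0)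
    (hb : IsUnit (Algebra.discr (BRing legendre A) b))
    (hn : Fintype.card ι = Module.finrank Kb⟮jgen N⟯ ↥(modularFunctionFieldBar N)) (D : ℕ)
    (hD : 6 * D + ∑ g ∈ Finset.univ.erase (1 : legendre.Gal Kb),
        iL (legendreIdx h2 g) *
          phik (C := CInt legendre ↥(modularFunctionFieldBar N) A) A (evClosedB legendre A) g =
      7 * Fintype.card ι) :
    ((Module.finrank Kb⟮jgen N⟯ ↥(modularFunctionFieldBar N) : ℤ)
        - ((FibreSep.zeros (Instances.isFF_jgen N) (Instances.isSeparable_jgen N) 0).card : ℤ))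
      + ((Module.finrank Kb⟮jgen N⟯ ↥(modularFunctionFieldBar N) : ℤ)
        - ((FibreSep.zeros (Instances.isFF_jgen N) (Instances.isSeparable_jgen N) 1728).card : ℤ))
      = (D : ℤ) := by
  have h := legendre_k3_rank A hv3 h2 ↥(modularFunctionFieldBar N) b hb (isFF_xF N)
    (isSeparable_xF N) D hD
  rw [card_zeros_congr (xF_eq_jgen N) (isFF_xF N) (isSeparable_xF N) (Instances.isFF_jgen N)
      (Instances.isSeparable_jgen N) 0,
    card_zeros_congr (xF_eq_jgen N) (isFF_xF N) (isSeparable_xF N) (Instances.isFF_jgen N)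
      (Instances.isSeparable_jgen N) 1728, hn] at h
  exact int_form h

end Legendre

end Modular

end Fermat.Agent.S18.C.GenericK3Final
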