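import Mathlib
import Fermat.Agent.S18.C.BRingLocal
import Fermat.Agent.S18.C.MuLineFinite
import Fermat.Agent.S18.Different.ActionLocal

/-!
# PROJECT H (S18), block C, slice H-C10d: the different exponent `d₀` of a cover at `μ = 0`

`k` a field, `c` a cover `j = P(μ)/Q(μ)` with `P(0) = 0`, `Q(0) ≠ 0` in `k` (so `μ = 0` lies over
`j = 0`).  `Dj := discRing ⊤ = k[j]_(j)` (inside the `j`-line `RatFunc k`) and
`D₀ := BRing c ⊤ = k[μ]_(μ)` (inside the `μ`-line `MuLine c k`).

* `covMap_mem_BRing` : the cover map `k(j) → k(μ)` sends `Dj` into `D₀`;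
* `covTop : Dj →+* D₀`, `covTopAlgebra` (reducible def: `letI := covTopAlgebra c k hP0 hQ0`),
  `evZeroB_covTop`, `isLocalHom_covTop`, `covTop_injective`;
* for `IsGalois (RatFunc k) (MuLine c k)` and `H₀ = c.Gal k` preserving `D₀`:
  `isGaloisGroup_top : IsGaloisGroup (c.Gal k) Dj D₀`;
* `d0_eq_sum` : `Defs.diffExpAt Dj P = ∑_{g ≠ 1} m g` whenever
  `P.intValuation (g μ - μ) = exp (-(m g))` for all `g ≠ 1`  (Hilbert's formula).
-/

set_option autoImplicit false
set_option linter.style.haveILetI false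
set_option linter.unusedSectionVars false

noncomputable section

namespace Fermat.Agent.S18.C.CoverDifferent

open Polynomial IsDedekindDomain HeightOneSpectrum WithZero
open Fermat.Agent.S18.C.Defs Fermat.Agent.S18.C.SurfaceDefs Fermat.Agent.S18.C.DiscRingLocal
  Fermat.Agent.S18.C.BRingLocal Fermat.Agent.S18.C.MuLineFinite

variable (c : Cover) (k : Type*) [Field k]

/-! ### constants and `j` in `D₀` -/

theorem valuation_top_eq_one {x : k} (hx : x ≠ 0) :
    (⊤ : ValuationSubring k).valuation x = 1 :=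
  (valuation_eq_one_iff_mem ⊤).mpr ⟨hx, ValuationSubring.mem_top _, ValuationSubring.mem_top _⟩

theorem mem_polyV_top (p : k[X]) : p ∈ polyV (⊤ : ValuationSubring k) :=
  (mem_polyV ⊤).mpr fun _ => ValuationSubring.mem_top _

theorem algebraMap_poly_mem_BRing (p : k[X]) :
    algebraMap k[X] (MuLine c k) p ∈ BRing c (⊤ : ValuationSubring k) :=
  (mem_BRing c ⊤).mpr (algebraMap_mem_discRing ⊤ (mem_polyV_top k p))

theorem algebraMap_mem_BRing (a : k) :
    algebraMap k (MuLine c k) a ∈ BRing c (⊤ : ValuationSubring k) := by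
  have h := algebraMap_poly_mem_BRing c k (C a)
  rwa [← Polynomial.algebraMap_eq, ← IsScalarTower.algebraMap_apply k k[X] (MuLine c k)] at h

theorem j_mem_BRing (hQ0 : (c.QK k).coeff 0 ≠ 0) :
    MuLine.j c k ∈ BRing c (⊤ : ValuationSubring k) := by
  rw [mem_BRing]
  have hQ : algebraMap k[X] (RatFunc k) (c.QK k) ≠ 0 := by
    rw [Ne, map_eq_zero_iff _ (IsFractionRing.injective k[X] (RatFunc k))]
    rintro h
    exact hQ0 (by rw [h, coeff_zero])
  refine ⟨c.PK k, c.QK k, mem_polyV_top k _, mem_polyV_top k _, valuation_top_eq_one k hQ0, ?_⟩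
  show (MuLine.of c k).symm (MuLine.of c k (c.jOf k)) * _ = _
  rw [AlgEquiv.symm_apply_apply, Cover.jOf, div_mul_cancel₀ _ hQ]

/-! ### polynomials in `j` inside `D₀` -/

/-- the constants `k → D₀` -/
def constTop : k →+* BRing c (⊤ : ValuationSubring k) :=
  (algebraMap k (MuLine c k)).codRestrict (BRing c (⊤ : ValuationSubring k))
    (algebraMap_mem_BRing c k)

@[simp] theorem coe_constTop (a : k) :
    ((constTop c k a : BRing c (⊤ : ValuationSubring k)) : MuLine c k) =
      algebraMap k (MuLine c k) a := rfl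

theorem evZeroB_constTop (a : k) :
    ((evZeroB c (⊤ : ValuationSubring k) (constTop c k a) : (⊤ : ValuationSubring k)) : k) = a := by
  have h := evZeroB_spec c (⊤ : ValuationSubring k) (constTop c k a) (C a) 1 (by
    rw [map_one, mul_one, coe_constTop, ← Polynomial.algebraMap_eq,
      ← IsScalarTower.algebraMap_apply k k[X] (MuLine c k)])
  simpa using h

variable {c k} in
/-- `j` as an element of `D₀` -/
def jTop (hQ0 : (c.QK k).coeff 0 ≠ 0) : BRing c (⊤ : ValuationSubring k) :=
  ⟨MuLine.j c k, j_mem_BRing c k hQ0⟩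

@[simp] theorem coe_jTop (hQ0 : (c.QK k).coeff 0 ≠ 0) :
    ((jTop hQ0 : BRing c (⊤ : ValuationSubring k)) : MuLine c k) = MuLine.j c k := rfl

theorem evZeroB_jTop (hP0 : (c.PK k).coeff 0 = 0) (hQ0 : (c.QK k).coeff 0 ≠ 0) :
    evZeroB c (⊤ : ValuationSubring k) (jTop hQ0) = 0 := by
  have hQ : algebraMap k[X] (MuLine c k) (c.QK k) ≠ 0 := by
    rw [Ne, map_eq_zero_iff _ (IsFractionRing.injective k[X] (MuLine c k))]
    rintro h
    exact hQ0 (by rw [h, coeff_zero])
  have h := evZeroB_spec c (⊤ : ValuationSubring k) (jTop hQ0) (c.PK k) (c.QK k) (by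
    rw [coe_jTop]
    show (algebraMap k[X] (RatFunc k) (c.PK k) / algebraMap k[X] (RatFunc k) (c.QK k) :
      RatFunc k) * algebraMap k[X] (RatFunc k) (c.QK k) = _
    exact div_mul_cancel₀ _ hQ)
  rw [hP0] at h
  apply Subtype.ext
  rcases mul_eq_zero.mp h with h | h
  · exact h
  · exact absurd h hQ0

/-- `p ↦ p(j)`, as a ring homomorphism `k[X] → D₀` -/
def polyJ (hQ0 : (c.QK k).coeff 0 ≠ 0) : k[X] →+* BRing c (⊤ : ValuationSubring k) :=
  Polynomial.eval₂RingHom (constTop c k) (jTop hQ0)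

theorem coe_polyJ (hQ0 : (c.QK k).coeff 0 ≠ 0) (p : k[X]) :
    ((polyJ c k hQ0 p : BRing c (⊤ : ValuationSubring k)) : MuLine c k) =
      Polynomial.aeval (MuLine.j c k) p := by
  have h := Polynomial.hom_eval₂ p (constTop c k) (BRing c (⊤ : ValuationSubring k)).subtype
    (jTop hQ0)
  rw [polyJ, Polynomial.coe_eval₂RingHom]
  exact h.trans rfl

theorem evZeroB_polyJ (hP0 : (c.PK k).coeff 0 = 0) (hQ0 : (c.QK k).coeff 0 ≠ 0) (p : k[X]) :
    ((evZeroB c (⊤ : ValuationSubring k) (polyJ c k hQ0 p) : (⊤ : ValuationSubring k)) : k) =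
      p.coeff 0 := by
  rw [polyJ, Polynomial.coe_eval₂RingHom, Polynomial.hom_eval₂, evZeroB_jTop c k hP0 hQ0,
    Polynomial.eval₂_at_zero, RingHom.comp_apply, evZeroB_constTop]

/-! ### the cover map sends `Dj` into `D₀` -/

theorem isUnit_top_of_ne_zero {x : (⊤ : ValuationSubring k)} (hx : (x : k) ≠ 0) : IsUnit x :=
  IsUnit.of_mul_eq_one ⟨(x : k)⁻¹, ValuationSubring.mem_top _⟩
    (Subtype.ext (mul_inv_cancel₀ hx))

theorem isUnit_iff_evZeroB_ne_zero (b : BRing c (⊤ : ValuationSubring k)) :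
    IsUnit b ↔ ((evZeroB c (⊤ : ValuationSubring k) b : (⊤ : ValuationSubring k)) : k) ≠ 0 := by
  rw [isUnit_iff_evClosedB_ne_zero, evClosedB_eq, Ne, IsLocalRing.residue_eq_zero_iff,
    IsLocalRing.notMem_maximalIdeal]
  constructor
  · intro h h0
    have : evZeroB c (⊤ : ValuationSubring k) b = 0 := Subtype.ext h0
    rw [this] at h
    exact not_isUnit_zero h
  · exact isUnit_top_of_ne_zero k

variable [c.Good k]

theorem covMap_algebraMap (p : k[X]) :
    c.covMap k (algebraMap k[X] (RatFunc k) p) = Polynomial.aeval (MuLine.j c k) p := by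
  have h := covMap_div c k p 1
  simpa using h

theorem isUnit_polyJ (hP0 : (c.PK k).coeff 0 = 0) (hQ0 : (c.QK k).coeff 0 ≠ 0) {s : k[X]}
    (hs : s.coeff 0 ≠ 0) : IsUnit (polyJ c k hQ0 s) := by
  rw [isUnit_iff_evZeroB_ne_zero, evZeroB_polyJ c k hP0 hQ0]
  exact hs

/-- **The cover map sends `Dj = k[j]_(j)` into `D₀ = k[μ]_(μ)`.** -/
theorem covMap_mem_BRing (hP0 : (c.PK k).coeff 0 = 0) (hQ0 : (c.QK k).coeff 0 ≠ 0)
    {f : RatFunc k} (hf : f ∈ discRing (⊤ : ValuationSubring k)) :
    c.covMap k f ∈ BRing c (⊤ : ValuationSubring k) := by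
  obtain ⟨a, s, -, -, hs0, hfs⟩ := hf
  have hs : s.coeff 0 ≠ 0 := by
    rintro h
    rw [h, map_zero] at hs0
    exact zero_ne_one hs0
  obtain ⟨u, hu⟩ := isUnit_polyJ c k hP0 hQ0 hs
  have h1 : c.covMap k f * ((polyJ c k hQ0 s : BRing c (⊤ : ValuationSubring k)) : MuLine c k) =
      ((polyJ c k hQ0 a : BRing c (⊤ : ValuationSubring k)) : MuLine c k) := by
    rw [coe_polyJ, coe_polyJ, ← covMap_algebraMap, ← covMap_algebraMap, ← map_mul, hfs]
  have h2 : c.covMap k f =
      ((polyJ c k hQ0 a * (u⁻¹ : (BRing c (⊤ : ValuationSubring k))ˣ) :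
        BRing c (⊤ : ValuationSubring k)) : MuLine c k) := by
    have h3 : ((polyJ c k hQ0 s * (u⁻¹ : (BRing c (⊤ : ValuationSubring k))ˣ) :
        BRing c (⊤ : ValuationSubring k)) : MuLine c k) = 1 := by
      rw [← hu, Units.mul_inv]
      rfl
    rw [Subring.coe_mul] at h3 ⊢
    rw [← h1, mul_assoc, h3, mul_one]
  rw [h2]
  exact Subtype.coe_prop _

/-- the cover map `Dj → D₀` -/
def covTop (hP0 : (c.PK k).coeff 0 = 0) (hQ0 : (c.QK k).coeff 0 ≠ 0) :
    discRing (⊤ : ValuationSubring k) →+* BRing c (⊤ : ValuationSubring k) :=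
  ((c.covMap k : RatFunc k →+* MuLine c k).comp
    (discRing (⊤ : ValuationSubring k)).subtype).codRestrict (BRing c (⊤ : ValuationSubring k))
    fun f => covMap_mem_BRing c k hP0 hQ0 f.2

@[simp] theorem coe_covTop (hP0 : (c.PK k).coeff 0 = 0) (hQ0 : (c.QK k).coeff 0 ≠ 0)
    (f : discRing (⊤ : ValuationSubring k)) :
    ((covTop c k hP0 hQ0 f : BRing c (⊤ : ValuationSubring k)) : MuLine c k) =
      c.covMap k (f : RatFunc k) := rfl

theorem covTop_injective (hP0 : (c.PK k).coeff 0 = 0) (hQ0 : (c.QK k).coeff 0 ≠ 0) :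
    Function.Injective (covTop c k hP0 hQ0) := by
  intro f g h
  apply Subtype.ext
  have := congrArg Subtype.val h
  exact (c.covMap k).toRingHom.injective this

theorem covTop_algebraMap (hP0 : (c.PK k).coeff 0 = 0) (hQ0 : (c.QK k).coeff 0 ≠ 0) (p : k[X])
    (hp : algebraMap k[X] (RatFunc k) p ∈ discRing (⊤ : ValuationSubring k)) :
    covTop c k hP0 hQ0 ⟨_, hp⟩ = polyJ c k hQ0 p := by
  apply Subtype.ext
  rw [coe_covTop, coe_polyJ, covMap_algebraMap]

/-- evaluation at the closed points is compatible with the cover map (`j(0) = 0`) -/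
theorem evZeroB_covTop (hP0 : (c.PK k).coeff 0 = 0) (hQ0 : (c.QK k).coeff 0 ≠ 0)
    (f : discRing (⊤ : ValuationSubring k)) :
    evZeroB c (⊤ : ValuationSubring k) (covTop c k hP0 hQ0 f) =
      evZero (⊤ : ValuationSubring k) f := by
  obtain ⟨a, s, -, -, hs0, hfs⟩ := f.2
  have hs : s.coeff 0 ≠ 0 := by
    rintro h
    rw [h, map_zero] at hs0
    exact zero_ne_one hs0
  have h1 := evZero_spec' (⊤ : ValuationSubring k) f a s hfs
  have h2 : covTop c k hP0 hQ0 f * polyJ c k hQ0 s = polyJ c k hQ0 a := by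
    apply Subtype.ext
    rw [Subring.coe_mul, coe_covTop, coe_polyJ, coe_polyJ, ← covMap_algebraMap,
      ← covMap_algebraMap, ← map_mul, hfs]
  have h3 := congrArg (fun b => ((evZeroB c (⊤ : ValuationSubring k) b :
    (⊤ : ValuationSubring k)) : k)) h2
  simp only [map_mul, MulMemClass.coe_mul, evZeroB_polyJ c k hP0 hQ0] at h3
  apply Subtype.ext
  exact mul_right_cancel₀ hs (h3.trans h1.symm)

theorem isLocalHom_covTop (hP0 : (c.PK k).coeff 0 = 0) (hQ0 : (c.QK k).coeff 0 ≠ 0) :
    IsLocalHom (covTop c k hP0 hQ0) := by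
  refine ⟨fun f hf => ?_⟩
  rw [isUnit_iff_evZeroB_ne_zero, evZeroB_covTop] at hf
  rw [isUnit_iff_isUnit_evZero]
  exact isUnit_top_of_ne_zero k hf

/-! ### the local structure of `D₀ = k[μ]_(μ)` -/

omit [c.Good k] in
theorem isDiscreteValuationRing_Dj :
    IsDiscreteValuationRing (discRing (⊤ : ValuationSubring k)) :=
  (isDiscreteValuationRing_top (K := k)).1

omit [c.Good k] in
theorem isDiscreteValuationRing_D0 :
    IsDiscreteValuationRing (BRing c (⊤ : ValuationSubring k)) :=
  haveI := isDiscreteValuationRing_Dj k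
  IsDiscreteValuationRing.RingEquivClass.isDiscreteValuationRing (toB c (⊤ : ValuationSubring k))

omit [c.Good k] in
theorem evZeroB_eq_zero_iff (b : BRing c (⊤ : ValuationSubring k)) :
    evZeroB c (⊤ : ValuationSubring k) b = 0 ↔ b ∈ Ideal.span {muB c (⊤ : ValuationSubring k)} := by
  rw [evZeroB_apply, ← RingHom.mem_ker, ker_evZero, Ideal.mem_span_singleton,
    Ideal.mem_span_singleton]
  constructor
  · rintro ⟨w, hw⟩
    refine ⟨toB c ⊤ w, ?_⟩
    rw [← algebraMap_B_X, algebraMap_B_apply, ← map_mul, ← hw, RingEquiv.apply_symm_apply]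
  · rintro ⟨w, hw⟩
    refine ⟨(toB c ⊤).symm w, ?_⟩
    rw [hw, map_mul, ← algebraMap_B_X, algebraMap_B_apply, RingEquiv.symm_apply_apply]

omit [c.Good k] in
theorem maximalIdeal_D0 :
    IsLocalRing.maximalIdeal (BRing c (⊤ : ValuationSubring k)) =
      Ideal.span {muB c (⊤ : ValuationSubring k)} := by
  ext b
  rw [← evZeroB_eq_zero_iff, ← not_iff_not, IsLocalRing.notMem_maximalIdeal,
    isUnit_iff_evZeroB_ne_zero, Ne, Subtype.ext_iff]
  rfl

omit [c.Good k] in
theorem muB_ne_zero : muB c (⊤ : ValuationSubring k) ≠ 0 := (prime_muB c ⊤).ne_zero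

omit [c.Good k] in
/-- `μ` is a uniformiser at the closed point of `D₀` -/
theorem intValuation_muB [IsDiscreteValuationRing (BRing c (⊤ : ValuationSubring k))]
    (P : HeightOneSpectrum (BRing c (⊤ : ValuationSubring k))) :
    P.intValuation (muB c (⊤ : ValuationSubring k)) = exp (-1 : ℤ) := by
  refine intValuation_singleton P (muB_ne_zero c k) ?_
  rw [IsLocalRing.eq_maximalIdeal P.isMaximal, maximalIdeal_D0]

omit [c.Good k] in
/-- `b = μ ^ n * unit` has valuation `exp (-n)` -/
theorem intValuation_eq_of_eq_pow_mul [IsDiscreteValuationRing (BRing c (⊤ : ValuationSubring k))]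
    (P : HeightOneSpectrum (BRing c (⊤ : ValuationSubring k)))
    {b u : BRing c (⊤ : ValuationSubring k)} {n : ℕ} (hu : IsUnit u)
    (hb : b = muB c (⊤ : ValuationSubring k) ^ n * u) :
    P.intValuation b = exp (-(n : ℤ)) := by
  have hu1 : P.intValuation u = 1 := by
    rw [intValuation_eq_one_iff]
    rw [IsLocalRing.eq_maximalIdeal P.isMaximal]
    exact (IsLocalRing.notMem_maximalIdeal).mpr hu
  rw [hb, map_mul, map_pow, intValuation_muB, hu1, mul_one, ← exp_nsmul]
  simp

/-! ### `D₀` as a `Dj`-algebra, the Galois group, Hilbert's formula -/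

section Algebra

variable (hP0 : (c.PK k).coeff 0 = 0) (hQ0 : (c.QK k).coeff 0 ≠ 0)

/-- `D₀ = k[μ]_(μ)` as an algebra over `Dj = k[j]_(j)` through the cover map
(use `letI := covTopAlgebra c k hP0 hQ0`). -/
@[reducible] def covTopAlgebra :
    Algebra (discRing (⊤ : ValuationSubring k)) (BRing c (⊤ : ValuationSubring k)) :=
  (covTop c k hP0 hQ0).toAlgebra

/-- the `μ`-line as an algebra over `Dj` (through the `j`-line) -/
@[reducible] def djMuAlgebra : Algebra (discRing (⊤ : ValuationSubring k)) (MuLine c k) :=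
  ((algebraMap (RatFunc k) (MuLine c k)).comp (discRing (⊤ : ValuationSubring k)).subtype).toAlgebra

theorem faithfulSMul_covTop :
    letI := covTopAlgebra c k hP0 hQ0
    FaithfulSMul (discRing (⊤ : ValuationSubring k)) (BRing c (⊤ : ValuationSubring k)) := by
  letI := covTopAlgebra c k hP0 hQ0
  exact (faithfulSMul_iff_algebraMap_injective _ _).mpr (covTop_injective c k hP0 hQ0)

variable [Algebra (discRing (⊤ : ValuationSubring k)) (BRing c (⊤ : ValuationSubring k))]
  (halg : ∀ f, algebraMap (discRing (⊤ : ValuationSubring k)) (BRing c (⊤ : ValuationSubring k)) f =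
    covTop c k hP0 hQ0 f)

include halg in
theorem faithfulSMul_of_halg :
    FaithfulSMul (discRing (⊤ : ValuationSubring k)) (BRing c (⊤ : ValuationSubring k)) := by
  refine (faithfulSMul_iff_algebraMap_injective _ _).mpr fun f g h => ?_
  rw [halg, halg] at h
  exact covTop_injective c k hP0 hQ0 h

include halg in
theorem isLocalHom_of_halg :
    IsLocalHom (algebraMap (discRing (⊤ : ValuationSubring k))
      (BRing c (⊤ : ValuationSubring k))) := by
  have := isLocalHom_covTop c k hP0 hQ0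
  refine ⟨fun f hf => ?_⟩
  rw [halg] at hf
  exact this.map_nonunit f hf

variable [IsInvariantSubring (c.Gal k) (BRing c (⊤ : ValuationSubring k))]

include halg in
/-- **`H₀` is a Galois group for `D₀ / Dj`**: the invariants of `H₀` on `k[μ]_(μ)` are `k[j]_(j)`. -/
theorem isGaloisGroup_top [IsGalois (RatFunc k) (MuLine c k)] :
    IsGaloisGroup (c.Gal k) (discRing (⊤ : ValuationSubring k))
      (BRing c (⊤ : ValuationSubring k)) := by
  haveI := isDiscreteValuationRing_Dj k
  haveI := isLocalHom_of_halg c k hP0 hQ0 halg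
  letI := djMuAlgebra c k
  haveI : IsScalarTower (discRing (⊤ : ValuationSubring k)) (RatFunc k) (MuLine c k) :=
    IsScalarTower.of_algebraMap_eq' rfl
  haveI : IsScalarTower (discRing (⊤ : ValuationSubring k)) (BRing c (⊤ : ValuationSubring k))
      (MuLine c k) := IsScalarTower.of_algebraMap_eq fun f => by
    rw [halg]
    rfl
  haveI : SMulDistribClass (c.Gal k) (BRing c (⊤ : ValuationSubring k)) (MuLine c k) :=
    ⟨fun g b x => by
      rw [Algebra.smul_def, Algebra.smul_def, smul_mul']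
      rfl⟩
  exact Fermat.Agent.S18.Different.ActionLocal.isGaloisGroup_of_valuationRing (c.Gal k)
    (discRing (⊤ : ValuationSubring k)) (BRing c (⊤ : ValuationSubring k)) (RatFunc k) (MuLine c k)

end Algebra

section Hilbert

open Fermat.Agent.S18.A

variable (hP0 : (c.PK k).coeff 0 = 0) (hQ0 : (c.QK k).coeff 0 ≠ 0)
  [Algebra (discRing (⊤ : ValuationSubring k)) (BRing c (⊤ : ValuationSubring k))]
  (halg : ∀ f, algebraMap (discRing (⊤ : ValuationSubring k)) (BRing c (⊤ : ValuationSubring k)) f =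
    covTop c k hP0 hQ0 f)
  [IsInvariantSubring (c.Gal k) (BRing c (⊤ : ValuationSubring k))]
  [IsDiscreteValuationRing (BRing c (⊤ : ValuationSubring k))]

include halg in
/-- trivial residue field extension: every element of `D₀` is congruent to a constant -/
theorem exists_sub_mem (P : HeightOneSpectrum (BRing c (⊤ : ValuationSubring k)))
    (b : BRing c (⊤ : ValuationSubring k)) :
    ∃ a : discRing (⊤ : ValuationSubring k),
      b - algebraMap (discRing (⊤ : ValuationSubring k)) (BRing c (⊤ : ValuationSubring k)) a ∈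
        P.asIdeal := by
  set e : k := ((evZeroB c (⊤ : ValuationSubring k) b : (⊤ : ValuationSubring k)) : k) with he
  have hmem : algebraMap k[X] (RatFunc k) (C e) ∈ discRing (⊤ : ValuationSubring k) :=
    algebraMap_mem_discRing ⊤ (mem_polyV_top k _)
  refine ⟨⟨_, hmem⟩, ?_⟩
  rw [halg, IsLocalRing.eq_maximalIdeal P.isMaximal, maximalIdeal_D0, ← evZeroB_eq_zero_iff,
    map_sub, sub_eq_zero, covTop_algebraMap c k hP0 hQ0 (C e) hmem]
  apply Subtype.ext
  rw [evZeroB_polyJ c k hP0 hQ0, coeff_C_zero]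

include halg in
open scoped Classical in
/-- **The different exponent `d₀` of the cover at `μ = 0`** (Hilbert's formula):
if `ord_μ (g μ - μ) = m g` for every `g ≠ 1` in `H₀`, then `d₀ = ∑_{g ≠ 1} m g`. -/
theorem d0_eq_sum [IsGalois (RatFunc k) (MuLine c k)] [Fintype (c.Gal k)]
    [IsDiscreteValuationRing (discRing (⊤ : ValuationSubring k))]
    [FaithfulSMul (discRing (⊤ : ValuationSubring k)) (BRing c (⊤ : ValuationSubring k))]
    (P : HeightOneSpectrum (BRing c (⊤ : ValuationSubring k))) (m : c.Gal k → ℕ)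
    (hm : ∀ g : c.Gal k, g ≠ 1 →
      P.intValuation (g • muB c (⊤ : ValuationSubring k) - muB c (⊤ : ValuationSubring k)) =
        exp (-(m g : ℤ))) :
    Defs.diffExpAt (discRing (⊤ : ValuationSubring k)) P =
      ∑ g ∈ Finset.univ.erase (1 : c.Gal k), m g := by
  haveI := isGaloisGroup_top c k hP0 hQ0 halg
  refine Fermat.Agent.S18.Different.Action.diffExpAt_eq_sum_of_isLocalRing (c.Gal k)
    (discRing (⊤ : ValuationSubring k)) (BRing c (⊤ : ValuationSubring k)) P
    (exists_sub_mem c k hP0 hQ0 halg P) (muB c ⊤) (intValuation_muB c k P) m fun g hg => ?_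
  rw [← hm g hg, ← Valuation.map_neg, neg_sub]

end Hilbert

section Packaged

open Fermat.Agent.S18.A

open scoped Classical in
/-- `d0_eq_sum` for the canonical structures (`covTopAlgebra`, the two DVR structures). -/
theorem d0_eq_sum_canonical (hP0 : (c.PK k).coeff 0 = 0) (hQ0 : (c.QK k).coeff 0 ≠ 0)
    [IsInvariantSubring (c.Gal k) (BRing c (⊤ : ValuationSubring k))]
    [IsGalois (RatFunc k) (MuLine c k)] [Fintype (c.Gal k)] :
    letI := covTopAlgebra c k hP0 hQ0
    haveI := isDiscreteValuationRing_Dj k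
    haveI := isDiscreteValuationRing_D0 c k
    haveI := faithfulSMul_covTop c k hP0 hQ0
    ∀ (P : HeightOneSpectrum (BRing c (⊤ : ValuationSubring k))) (m : c.Gal k → ℕ),
      (∀ g : c.Gal k, g ≠ 1 →
        P.intValuation (g • muB c (⊤ : ValuationSubring k) - muB c (⊤ : ValuationSubring k)) =
          exp (-(m g : ℤ))) →
      Defs.diffExpAt (discRing (⊤ : ValuationSubring k)) P =
        ∑ g ∈ Finset.univ.erase (1 : c.Gal k), m g := by
  letI := covTopAlgebra c k hP0 hQ0
  haveI := isDiscreteValuationRing_Dj k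
  haveI := isDiscreteValuationRing_D0 c k
  haveI := faithfulSMul_covTop c k hP0 hQ0
  intro P m hm
  exact d0_eq_sum c k hP0 hQ0 (fun _ => rfl) P m hm

end Packaged

end Fermat.Agent.S18.C.CoverDifferent
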