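import Mathlib
import Fermat.Agent.S18.C.HesseGalois
import Fermat.Agent.S18.C.LegendreGalois
import Fermat.Agent.S18.C.HesseDisc

/-!
# PROJECT H (S18), block C: inverses in the Hesse and Legendre groups

The action of the Galois group on POINTS is contravariant (`(g • φ) x = φ (g⁻¹ • x)`), so the
fixed points of `g` on the points `μ̃` of the `μ`-line are the fixed points of the Moebius map of
`g⁻¹`.  This file records the index of the inverse:

* HESSE: `invIdxH (inl a) = inl (-a)`, `invIdxH (inr (a, c)) = inr (c, a)`;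
  `iH (invIdxH g) = iH g`; `g⁻¹` and `g` have the same fixed points
  (`fixH_invIdxH_eq_zero_iff`); `actH ω (invIdxH g) (actH ω g μ) = μ`;
  `IsHesse.galEquiv_inv : galEquiv σ⁻¹ = invIdxH (galEquiv σ)`.
* LEGENDRE: `invIdxL = ![0, 1, 2, 4, 3, 5]`, same statements.
-/

set_option autoImplicit false

namespace Fermat.Agent.S18.C.InvIdx

open Fermat.Agent.S18.C

section Hesse

open Hesse HesseGalois

/-- the index of the inverse Moebius map -/
def invIdxH (g : Idx) : Idx :=
  match g with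
  | Sum.inl a => Sum.inl (-a)
  | Sum.inr (a, c) => Sum.inr (c, a)

@[simp] theorem invIdxH_inl (a : Fin 3) : invIdxH (Sum.inl a) = Sum.inl (-a) := rfl
@[simp] theorem invIdxH_inr (a c : Fin 3) : invIdxH (Sum.inr (a, c)) = Sum.inr (c, a) := rfl

theorem invIdxH_invIdxH (g : Idx) : invIdxH (invIdxH g) = g := by
  rcases g with a | ⟨a, c⟩
  · simp
  · simp

theorem iH_invIdxH (g : Idx) : iH (invIdxH g) = iH g := by
  rcases g with a | ⟨a, c⟩
  · simp only [invIdxH_inl, iH, neg_eq_zero]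
  · simp only [invIdxH_inr, iH, eq_comm]

theorem invIdxH_eq_inl_zero_iff (g : Idx) : invIdxH g = Sum.inl 0 ↔ g = Sum.inl 0 := by
  rcases g with a | ⟨a, c⟩
  · simp
  · simp

variable {E : Type*} [Field E]

theorem omega_pow_neg {ω : E} (hω3 : ω ^ 3 = 1) (a : Fin 3) :
    ω ^ ((-a : Fin 3) : ℕ) * ω ^ (a : ℕ) = 1 := by
  fin_cases a
  · simp
  · show ω ^ 2 * ω ^ 1 = 1
    rw [← pow_add]; exact hω3
  · show ω ^ 1 * ω ^ 2 = 1
    rw [← pow_add]; exact hω3

/-- `g⁻¹` and `g` have the same fixed points -/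
theorem fixH_invIdxH_eq_zero_iff {ω : E} (hω : ω ^ 2 + ω + 1 = 0) (h3 : (3 : E) ≠ 0) (g : Idx)
    (x : E) : fixH ω (invIdxH g) x = 0 ↔ fixH ω g x = 0 := by
  rcases g with a | ⟨a, c⟩
  · rw [invIdxH_inl, fixH_inl, fixH_inl]
    by_cases ha : a = 0
    · subst ha; simp
    · have hna : (-a : Fin 3) ≠ 0 := by simpa using ha
      rw [mul_eq_zero, mul_eq_zero,
        or_iff_right (HesseDisc.omega_pow_sub_one_ne_zero hω h3 hna),
        or_iff_right (HesseDisc.omega_pow_sub_one_ne_zero hω h3 ha)]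
  · rw [invIdxH_inr, fixH_inr, fixH_inr]
    have : x ^ 2 - (ω ^ (c : ℕ) + ω ^ (a : ℕ)) * x - 2 * (ω ^ (c : ℕ) * ω ^ (a : ℕ)) =
        x ^ 2 - (ω ^ (a : ℕ) + ω ^ (c : ℕ)) * x - 2 * (ω ^ (a : ℕ) * ω ^ (c : ℕ)) := by ring
    rw [this]

/-- the Moebius map of `invIdxH g` is inverse to the Moebius map of `g` -/
theorem actH_invIdxH {ω : E} (hω : ω ^ 2 + ω + 1 = 0) (h3 : (3 : E) ≠ 0) (g : Idx) {μ : E}
    (hb : botH ω g μ ≠ 0) : actH ω (invIdxH g) (actH ω g μ) = μ := by
  have hω3 := omega_pow_three hω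
  rcases g with a | ⟨a, c⟩
  · simp only [actH, invIdxH_inl, topH_inl, botH_inl, div_one]
    rw [← mul_assoc, omega_pow_neg hω3, one_mul]
  · simp only [actH, invIdxH_inr, topH_inr, botH_inr] at hb ⊢
    have hc0 : ω ^ (c : ℕ) ≠ 0 := HesseDisc.omega_pow_ne_zero hω c
    have ha0 : ω ^ (a : ℕ) ≠ 0 := HesseDisc.omega_pow_ne_zero hω a
    have e1 : ω ^ (a : ℕ) * (μ + 2 * ω ^ (c : ℕ)) / (μ - ω ^ (c : ℕ)) + 2 * ω ^ (a : ℕ) =
        ω ^ (a : ℕ) * (3 * μ) / (μ - ω ^ (c : ℕ)) := by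
      field_simp; ring
    have e2 : ω ^ (a : ℕ) * (μ + 2 * ω ^ (c : ℕ)) / (μ - ω ^ (c : ℕ)) - ω ^ (a : ℕ) =
        ω ^ (a : ℕ) * (3 * ω ^ (c : ℕ)) / (μ - ω ^ (c : ℕ)) := by
      field_simp; ring
    rw [e1, e2]
    field_simp

variable {K0 F M : Type*} [Field K0] [Field F] [Field M] [Algebra K0 F] [Algebra F M]
  [Algebra K0 M] [IsScalarTower K0 F M]

/-- an algebra automorphism commutes with the Moebius maps -/
theorem map_actH (σ : M ≃ₐ[F] M) (ω : K0) (g : Idx) (x : M) :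
    σ (actH (algebraMap K0 M ω) g x) = actH (algebraMap K0 M ω) g (σ x) := by
  have hσω : σ (algebraMap K0 M ω) = algebraMap K0 M ω := by
    rw [IsScalarTower.algebraMap_apply K0 F M, AlgEquiv.commutes]
  unfold actH
  rw [map_div₀]
  have h1 := map_topH (σ : M →+* M) (algebraMap K0 M ω) g x
  have h2 := map_botH (σ : M →+* M) (algebraMap K0 M ω) g x
  simp only [RingHom.coe_coe] at h1 h2
  rw [h1, h2, hσω]

/-- the index of the inverse automorphism -/
theorem IsHesse.galEquiv_inv {ω : K0} {μ : M} {j' : F} (h : IsHesse ω μ j') (σ : M ≃ₐ[F] M) :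
    h.galEquiv σ⁻¹ = invIdxH (h.galEquiv σ) := by
  rw [h.galEquiv_eq_iff]
  set g := h.galEquiv σ with hg
  have h1 : σ μ = actH (algebraMap K0 M ω) g μ := h.apply_mu σ
  -- apply σ⁻¹ to `σ μ = g μ`
  have h2 : μ = actH (algebraMap K0 M ω) g (σ⁻¹ μ) := by
    have := congrArg (σ⁻¹ : M ≃ₐ[F] M) h1
    rw [map_actH] at this
    rw [← this]
    exact (AlgEquiv.symm_apply_apply σ μ).symm
  -- `σ⁻¹ μ = g' μ` for `g' = galEquiv σ⁻¹`; then `g (g' μ) = μ = g (invIdx g μ)`
  set g' := h.galEquiv σ⁻¹ with hg'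
  have h3 : σ⁻¹ μ = actH (algebraMap K0 M ω) g' μ := h.apply_mu σ⁻¹
  have h4 : actH (algebraMap K0 M ω) (invIdxH g) (actH (algebraMap K0 M ω) g (σ⁻¹ μ)) = σ⁻¹ μ := by
    apply actH_invIdxH h.omega' h.three'
    rw [h3]
    -- `botH g (g' μ) ≠ 0` since `g' μ` is not a cusp
    apply botH_ne_zero (omega_pow_three h.omega') g
    exact denJ_actH_ne_zero (omega_pow_three h.omega') h.three' g' h.denJ_mu
  rw [← h2] at h4
  exact h4.symm

end Hesse

section Legendre

open Legendre LegendreGalois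

/-- the index of the inverse Moebius map -/
def invIdxL : Fin 6 → Fin 6 := ![0, 1, 2, 4, 3, 5]

theorem invIdxL_invIdxL (g : Fin 6) : invIdxL (invIdxL g) = g := by
  revert g; decide

theorem iL_invIdxL (g : Fin 6) : iL (invIdxL g) = iL g := by
  revert g; decide

theorem invIdxL_eq_zero_iff (g : Fin 6) : invIdxL g = 0 ↔ g = 0 := by
  revert g; decide

variable {E : Type*} [Field E]

/-- `g⁻¹` and `g` have the same fixed points -/
theorem fixL_invIdxL_eq_zero_iff (g : Fin 6) (x : E) :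
    fixL (invIdxL g) x = 0 ↔ fixL g x = 0 := by
  fin_cases g
  · exact Iff.rfl
  · exact Iff.rfl
  · exact Iff.rfl
  · show fixL 4 x = 0 ↔ fixL 3 x = 0
    rw [fixL_four, fixL_three, neg_eq_zero]
  · show fixL 3 x = 0 ↔ fixL 4 x = 0
    rw [fixL_four, fixL_three, neg_eq_zero]
  · exact Iff.rfl

/-- the Moebius map of `invIdxL g` is inverse to the Moebius map of `g` -/
theorem actL_invIdxL (g : Fin 6) {la : E} (hla : denL la ≠ 0) :
    actL (invIdxL g) (actL g la) = la := by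
  obtain ⟨h0, h1⟩ := denL_ne_zero_iff.mp hla
  have h1' : (1 : E) - la ≠ 0 := sub_ne_zero.mpr (Ne.symm h1)
  have h1'' : la - 1 ≠ 0 := sub_ne_zero.mpr h1
  fin_cases g
  · show actL 0 (actL 0 la) = la
    simp [actL]
  · show actL 1 (actL 1 la) = la
    simp [actL]
  · show actL 2 (actL 2 la) = la
    simp [actL]
  · show actL 4 (actL 3 la) = la
    simp only [actL, topL_three, botL_three, topL_four, botL_four]
    field_simp
    ring
  · show actL 3 (actL 4 la) = la
    simp only [actL, topL_three, botL_three, topL_four, botL_four]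
    field_simp
    ring
  · show actL 5 (actL 5 la) = la
    simp only [actL, topL_five, botL_five]
    field_simp
    ring

variable {K0 F M : Type*} [Field K0] [Field F] [Field M] [Algebra K0 F] [Algebra F M]
  [Algebra K0 M] [IsScalarTower K0 F M]

/-- an algebra automorphism commutes with the Moebius maps -/
theorem map_actL (σ : M ≃ₐ[F] M) (g : Fin 6) (x : M) : σ (actL g x) = actL g (σ x) := by
  unfold actL
  rw [map_div₀]
  have h1 := map_topL (σ : M →+* M) g x
  have h2 := map_botL (σ : M →+* M) g x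
  simp only [RingHom.coe_coe] at h1 h2
  rw [h1, h2]

/-- the index of the inverse automorphism -/
theorem IsLegendre.galEquiv_inv {la : M} {j' : F} (h : IsLegendre (K0 := K0) la j')
    (σ : M ≃ₐ[F] M) : h.galEquiv σ⁻¹ = invIdxL (h.galEquiv σ) := by
  rw [h.galEquiv_eq_iff]
  set g := h.galEquiv σ with hg
  have h1 : σ la = actL g la := h.apply_mu σ
  have h2 : la = actL g (σ⁻¹ la) := by
    have := congrArg (σ⁻¹ : M ≃ₐ[F] M) h1
    rw [map_actL] at this
    rw [← this]
    exact (AlgEquiv.symm_apply_apply σ la).symm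
  set g' := h.galEquiv σ⁻¹ with hg'
  have h3 : σ⁻¹ la = actL g' la := h.apply_mu σ⁻¹
  have h4 : actL (invIdxL g) (actL g (σ⁻¹ la)) = σ⁻¹ la := by
    apply actL_invIdxL
    rw [h3]
    exact denL_actL_ne_zero g' h.denL_mu
  rw [← h2] at h4
  exact h4.symm

end Legendre

end Fermat.Agent.S18.C.InvIdx
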