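import Mathlib
import Fermat.Agent.S18.C.BRingLocal
import Fermat.Agent.S18.C.GenericCount
import Fermat.Agent.S18.C.MoebiusDisc
import Fermat.Agent.S18.C.CoverInst

/-!
# PROJECT H (S18), block C, slice N4 (part 1): the points of the open unit disc of `B_A`

`c : Cover`, `K` a field with a valuation subring `A`, `B_A = BRing c A = A[μ]_(𝔪_A, μ)`.

* `ptAt c A t ht : GenericCount.Pt (BRing c A) K` : the point `μ = t` of the open unit disc
  (`A.valuation t < 1`), i.e. the ring hom `B_A → A → K`, `b ↦ b(t)` (`BRingLocal.evDiscB`);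
  `ptAt_spec` (any presentation), `ptAt_muB`, `ptAt_injective`;
* `ptAt_smul_apply`, `smul_ptAt` : the (contravariant) action of the group `H₀ = c.Gal K` on these
  points through the Moebius maps: if `g⁻¹ μ = T(μ)/L(μ)` (`T, L ∈ A[X]`, `T(0) ∈ 𝔪_A`,
  `L(0) ∈ Aˣ`) then `g • ptAt t = ptAt (T(t)/L(t))`; `smul_ptAt_eq_iff` : the fixed points;
* `IsMoebius c A` : every `g ∈ H₀` acts on `μ` by such a Moebius map;
* `jB c A hQ : BRing c A` : the function `j = P(μ)/Q(μ)` (when `Q(0) ∈ Aˣ`), fixed by `H₀`;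
  `ptAt_jB : j(ptAt t) * Q(t) = P(t)`;
* `MOver c A hQ hM c₀ : SubMulAction (c.Gal K) (Pt (BRing c A) K)` : the points of the disc over
  `j = c₀`; `mem_MOver_iff`; `equivMOver : MOver ≃ {t // v t < 1 ∧ P(t) = c₀ Q(t)}`;
  `equivFixedBy` : the `g`-fixed points of `MOver`;
* `isGoodSet_of_disc` : every `H₀`-stable set of such points is a good set in the sense of
  `GenericCount.IsGoodSet` (closed point `evClosedB`) as soon as the discriminant is a unit of `B_A`.
-/

set_option autoImplicit false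

noncomputable section

namespace Fermat.Agent.S18.C.NumbersPts

open Polynomial
open Fermat.Agent.S18.C.Defs Fermat.Agent.S18.C.SurfaceDefs Fermat.Agent.S18.C.BRingLocal
open Fermat.Agent.S18.C.GenericCount

/-! ### values of integral polynomials on the open unit disc -/

section Val

variable {K : Type*} [Field K] (A : ValuationSubring K)

theorem eval_mem {p : K[X]} (hp : p ∈ polyV A) {t : K} (ht : t ∈ A) : p.eval t ∈ A := by
  rw [eval_eq_sum_range]
  exact Subring.sum_mem A.toSubring fun i _ =>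
    A.mul_mem _ _ ((mem_polyV A).mp hp i) (Subring.pow_mem A.toSubring ht i)

theorem eval_eq_coeff_zero_add (p : K[X]) (t : K) :
    p.eval t = p.coeff 0 + t * p.divX.eval t := by
  conv_lhs => rw [← divX_mul_X_add p]
  rw [eval_add, eval_mul, eval_X, eval_C]
  ring

theorem divX_mem_polyV {p : K[X]} (hp : p ∈ polyV A) : p.divX ∈ polyV A := by
  rw [mem_polyV]
  intro n
  rw [coeff_divX]
  exact (mem_polyV A).mp hp (n + 1)

theorem valuation_mul_divX_lt_one {p : K[X]} (hp : p ∈ polyV A) {t : K}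
    (ht : A.valuation t < 1) : A.valuation (t * p.divX.eval t) < 1 := by
  have htA : t ∈ A := (A.valuation_le_one_iff t).mp ht.le
  rw [map_mul]
  calc A.valuation t * A.valuation (p.divX.eval t) ≤ A.valuation t * 1 :=
        mul_le_mul_right ((A.valuation_le_one_iff _).mpr (eval_mem A (divX_mem_polyV A hp) htA)) _
    _ < 1 := by rwa [mul_one]

/-- a polynomial over `A` with unit constant coefficient takes unit values on the open disc -/
theorem valuation_eval_eq_one {s : K[X]} (hs : s ∈ polyV A) (hs0 : A.valuation (s.coeff 0) = 1)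
    {t : K} (ht : A.valuation t < 1) : A.valuation (s.eval t) = 1 := by
  rw [eval_eq_coeff_zero_add, Valuation.map_add_eq_of_lt_left, hs0]
  rw [hs0]
  exact valuation_mul_divX_lt_one A hs ht

theorem eval_ne_zero {s : K[X]} (hs : s ∈ polyV A) (hs0 : A.valuation (s.coeff 0) = 1)
    {t : K} (ht : A.valuation t < 1) : s.eval t ≠ 0 := by
  intro h
  have := valuation_eval_eq_one A hs hs0 ht
  rw [h, map_zero] at this
  exact zero_ne_one this

/-- a polynomial over `A` with constant coefficient in `𝔪_A` maps the open disc into `𝔪_A` -/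
theorem valuation_eval_lt_one {T : K[X]} (hT : T ∈ polyV A) (hT0 : A.valuation (T.coeff 0) < 1)
    {t : K} (ht : A.valuation t < 1) : A.valuation (T.eval t) < 1 := by
  rw [eval_eq_coeff_zero_add]
  exact Valuation.map_add_lt _ hT0 (valuation_mul_divX_lt_one A hT ht)

/-- the image `T(t)/L(t)` of a point of the open disc under a Moebius map is in the open disc -/
theorem valuation_lt_one_of_mul_eq {T L : K[X]} (hT : T ∈ polyV A) (hL : L ∈ polyV A)
    (hT0 : A.valuation (T.coeff 0) < 1) (hL0 : A.valuation (L.coeff 0) = 1) {t t' : K}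
    (ht : A.valuation t < 1) (htt' : t' * L.eval t = T.eval t) : A.valuation t' < 1 := by
  have h1 := valuation_eval_eq_one A hL hL0 ht
  have h2 := valuation_eval_lt_one A hT hT0 ht
  have h3 : A.valuation t' = A.valuation (T.eval t) := by
    rw [← htt', map_mul, h1, mul_one]
  rw [h3]
  exact h2

/-- `hom T L p n` evaluated at `t` is `L(t)^n p(t')` when `t' L(t) = T(t)` -/
theorem eval_hom {T L : K[X]} (p : K[X]) {n : ℕ} (hn : p.natDegree ≤ n) {t t' : K}
    (htt' : t' * L.eval t = T.eval t) :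
    (MoebiusDisc.hom T L p n).eval t = L.eval t ^ n * p.eval t' := by
  rw [MoebiusDisc.hom, eval_finsetSum, eval_eq_sum_range' (Nat.lt_succ_of_le hn),
    Finset.mul_sum]
  refine Finset.sum_congr rfl fun i hi => ?_
  have hi' : i ≤ n := Nat.lt_succ_iff.mp (Finset.mem_range.mp hi)
  rw [eval_mul, eval_mul, eval_C, eval_pow, eval_pow, ← htt', mul_pow]
  conv_rhs => rw [← Nat.add_sub_cancel' hi', pow_add]
  ring

end Val

/-! ### the points of the open disc -/

section Points

variable (c : Cover) {K : Type*} [Field K] (A : ValuationSubring K)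

/-- the point `μ = t` of the open unit disc as a `K`-point of `B_A` -/
def ptAt (t : K) (ht : A.valuation t < 1) : Pt (BRing c A) K :=
  Pt.mk (A.subtype.comp (evDiscB c A t ht))

theorem ptAt_hom_apply (t : K) (ht : A.valuation t < 1) (b : BRing c A) :
    (ptAt c A t ht).hom b = (evDiscB c A t ht b : K) := rfl

/-- the value at `ptAt t` through ANY presentation `b * s(μ) = a(μ)` -/
theorem ptAt_spec (t : K) (ht : A.valuation t < 1) (b : BRing c A) (a s : K[X])
    (h : (b : MuLine c K) * algebraMap K[X] (MuLine c K) s = algebraMap K[X] (MuLine c K) a) :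
    (ptAt c A t ht).hom b * s.eval t = a.eval t :=
  evDiscB_spec c A t ht b a s h

theorem ptAt_muB (t : K) (ht : A.valuation t < 1) : (ptAt c A t ht).hom (muB c A) = t := by
  rw [ptAt_hom_apply, evDiscB_muB]
  rfl

theorem ptAt_injective {t t' : K} {ht : A.valuation t < 1} {ht' : A.valuation t' < 1}
    (h : ptAt c A t ht = ptAt c A t' ht') : t = t' := by
  rw [← ptAt_muB c A t ht, h, ptAt_muB]

/-- the points of the open disc are `A`-valued and reduce to the closed point -/
theorem ptAt_eq (t : K) (ht : A.valuation t < 1) :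
    ptAt c A t ht = Pt.mk (A.subtype.comp (evDiscB c A t ht)) := rfl

theorem residue_comp_evDiscB (t : K) (ht : A.valuation t < 1) :
    (IsLocalRing.residue A).comp (evDiscB c A t ht) = evClosedB c A :=
  RingHom.ext fun b => residue_evDiscB c A t ht b

end Points

/-! ### the action of the group of the cover on the points of the disc -/

section Action

variable (c : Cover) {K : Type*} [Field K] [c.Good K] (A : ValuationSubring K)

/-- `g` as a `K`-algebra endomorphism of `RatFunc K` -/
def galRat (g : c.Gal K) : RatFunc K →ₐ[K] RatFunc K :=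
  ((MuLine.of c K).symm : MuLine c K →ₐ[K] RatFunc K).comp
    (((g.restrictScalars K : MuLine c K ≃ₐ[K] MuLine c K) : MuLine c K →ₐ[K] MuLine c K).comp
      (MuLine.of c K : RatFunc K →ₐ[K] MuLine c K))

theorem galRat_apply (g : c.Gal K) (f : RatFunc K) :
    galRat c g f = (MuLine.of c K).symm (g (MuLine.of c K f)) := rfl

theorem galRat_X_mul (g : c.Gal K) {T L : K[X]}
    (hg : g (MuLine.mu c K) * algebraMap K[X] (MuLine c K) L = algebraMap K[X] (MuLine c K) T) :
    galRat c g RatFunc.X * algebraMap K[X] (RatFunc K) L = algebraMap K[X] (RatFunc K) T := by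
  have h1 := congrArg (MuLine.of c K).symm hg
  rw [map_mul] at h1
  exact h1

variable [IsInvariantSubring (c.Gal K) (BRing c A)]

/-- the value of `g • b` at `μ = t` is the value of `b` at `T(t)/L(t)` when `g μ = T(μ)/L(μ)` -/
theorem ptAt_smul_apply (g : c.Gal K) {T L : K[X]} (hL : L ∈ polyV A)
    (hL0 : A.valuation (L.coeff 0) = 1)
    (hg : g (MuLine.mu c K) * algebraMap K[X] (MuLine c K) L = algebraMap K[X] (MuLine c K) T)
    {t t' : K} (ht : A.valuation t < 1) (ht' : A.valuation t' < 1)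
    (htt' : t' * L.eval t = T.eval t) (b : BRing c A) :
    (ptAt c A t ht).hom (g • b) = (ptAt c A t' ht').hom b := by
  obtain ⟨a, s, ha, hs, hs0, h⟩ := (mem_BRing c A).mp b.2
  set n := max a.natDegree s.natDegree with hn
  have hσ := galRat_X_mul c g hg
  have hLt : L.eval t ≠ 0 := eval_ne_zero A hL hL0 ht
  have hst' : s.eval t' ≠ 0 := eval_ne_zero A hs hs0 ht'
  have hrel : galRat c g ((MuLine.of c K).symm (b : MuLine c K)) *
      algebraMap K[X] (RatFunc K) (MoebiusDisc.hom T L s n) =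
      algebraMap K[X] (RatFunc K) (MoebiusDisc.hom T L a n) := by
    rw [← MoebiusDisc.map_mul_pow (galRat c g) hσ s (le_max_right _ _),
      ← MoebiusDisc.map_mul_pow (galRat c g) hσ a (le_max_left _ _), ← mul_assoc, ← map_mul, h]
  have h1 := ptAt_spec c A t ht (g • b) (MoebiusDisc.hom T L a n) (MoebiusDisc.hom T L s n) hrel
  rw [eval_hom s (le_max_right _ _) htt', eval_hom a (le_max_left _ _) htt'] at h1
  have h2 := ptAt_spec c A t' ht' b a s h
  have hpow : L.eval t ^ n ≠ 0 := pow_ne_zero n hLt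
  apply mul_right_cancel₀ hst'
  rw [h2]
  apply mul_left_cancel₀ hpow
  rw [← h1]
  ring

/-- **the action on the points of the disc**: if `g⁻¹ μ = T(μ)/L(μ)` then
`g • ptAt t = ptAt (T(t)/L(t))` -/
theorem smul_ptAt (g : c.Gal K) {T L : K[X]} (hL : L ∈ polyV A)
    (hL0 : A.valuation (L.coeff 0) = 1)
    (hg : g⁻¹ (MuLine.mu c K) * algebraMap K[X] (MuLine c K) L =
      algebraMap K[X] (MuLine c K) T)
    {t t' : K} (ht : A.valuation t < 1) (ht' : A.valuation t' < 1)
    (htt' : t' * L.eval t = T.eval t) :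
    g • ptAt c A t ht = ptAt c A t' ht' := by
  apply Pt.ext
  intro b
  rw [smul_hom_apply]
  exact ptAt_smul_apply c A g⁻¹ hL hL0 hg ht ht' htt' b

/-- the fixed points: `g • ptAt t = ptAt t ↔ t L(t) = T(t)` when `g⁻¹ μ = T(μ)/L(μ)` -/
theorem smul_ptAt_eq_iff (g : c.Gal K) {T L : K[X]} (hT : T ∈ polyV A) (hL : L ∈ polyV A)
    (hT0 : A.valuation (T.coeff 0) < 1) (hL0 : A.valuation (L.coeff 0) = 1)
    (hg : g⁻¹ (MuLine.mu c K) * algebraMap K[X] (MuLine c K) L =
      algebraMap K[X] (MuLine c K) T)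
    {t : K} (ht : A.valuation t < 1) :
    g • ptAt c A t ht = ptAt c A t ht ↔ t * L.eval t = T.eval t := by
  have hLt : L.eval t ≠ 0 := eval_ne_zero A hL hL0 ht
  constructor
  · intro h
    have ht' : A.valuation (T.eval t / L.eval t) < 1 :=
      valuation_lt_one_of_mul_eq A hT hL hT0 hL0 ht (div_mul_cancel₀ _ hLt)
    have h1 := smul_ptAt c A g hL hL0 hg ht ht' (div_mul_cancel₀ _ hLt)
    rw [h] at h1
    exact (eq_div_iff hLt).mp (ptAt_injective c A h1)
  · intro h
    exact smul_ptAt c A g hL hL0 hg ht ht h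

end Action

/-! ### the points of the disc over a value of `j` -/

section Over

variable (c : Cover) {K : Type*} [Field K] [c.Good K] (A : ValuationSubring K)

/-- every element of the group of the cover acts on `μ` by a Moebius map `T/L` with `T, L ∈ A[X]`,
`T(0) ∈ 𝔪_A`, `L(0) ∈ Aˣ` -/
def IsMoebius : Prop :=
  ∀ g : c.Gal K, ∃ T L : K[X], T ∈ polyV A ∧ L ∈ polyV A ∧ A.valuation (T.coeff 0) < 1 ∧
    A.valuation (L.coeff 0) = 1 ∧
    g (MuLine.mu c K) * algebraMap K[X] (MuLine c K) L = algebraMap K[X] (MuLine c K) T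

theorem IsMoebius.isInvariantSubring (hM : IsMoebius c A) :
    IsInvariantSubring (c.Gal K) (BRing c A) :=
  ⟨fun g _ hx => by
    obtain ⟨T, L, hT, hL, hT0, hL0, hg⟩ := hM g
    exact CoverInst.gal_mem_BRing c A g hT hL hT0 hL0 hg hx⟩

variable [IsInvariantSubring (c.Gal K) (BRing c A)]

/-- the group of the cover permutes the points of the open disc -/
theorem exists_smul_ptAt (hM : IsMoebius c A) (g : c.Gal K) (t : K) (ht : A.valuation t < 1) :
    ∃ (t' : K) (ht' : A.valuation t' < 1), g • ptAt c A t ht = ptAt c A t' ht' := by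
  obtain ⟨T, L, hT, hL, hT0, hL0, hg⟩ := hM g⁻¹
  have hLt := eval_ne_zero A hL hL0 ht
  have htt' : T.eval t / L.eval t * L.eval t = T.eval t := div_mul_cancel₀ _ hLt
  exact ⟨T.eval t / L.eval t, valuation_lt_one_of_mul_eq A hT hL hT0 hL0 ht htt',
    smul_ptAt c A g hL hL0 hg ht _ htt'⟩

variable (hQ : A.valuation ((c.QK K).coeff 0) = 1)

include hQ in
omit [c.Good K] [IsInvariantSubring (c.Gal K) (BRing c A)] in
theorem QK_ne_zero : c.QK K ≠ 0 := by
  intro h0
  rw [h0, coeff_zero, map_zero] at hQ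
  exact zero_ne_one hQ

include hQ in
omit [c.Good K] [IsInvariantSubring (c.Gal K) (BRing c A)] in
theorem j_mem_BRing : MuLine.j c K ∈ BRing c A :=
  ⟨c.jOf K, ⟨c.PK K, c.QK K, DiscSubst.map_int_mem_polyV A c.P, DiscSubst.map_int_mem_polyV A c.Q,
    hQ, CoverInst.jOf_mul c K (QK_ne_zero c A hQ)⟩, rfl⟩

/-- the function `j = P(μ)/Q(μ)` as an element of `B_A` (when `Q(0)` is a unit of `A`) -/
def jB : BRing c A := ⟨MuLine.j c K, j_mem_BRing c A hQ⟩

omit [c.Good K] [IsInvariantSubring (c.Gal K) (BRing c A)] in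
theorem coe_jB : ((jB c A hQ : BRing c A) : MuLine c K) = MuLine.j c K := rfl

theorem smul_jB (g : c.Gal K) : g • jB c A hQ = jB c A hQ := by
  apply Subtype.ext
  show g (MuLine.j c K) = MuLine.j c K
  rw [← Cover.algebraMap_X, AlgEquiv.commutes]

omit [c.Good K] [IsInvariantSubring (c.Gal K) (BRing c A)] in
/-- `j(t) Q(t) = P(t)` at the points of the disc -/
theorem ptAt_jB (t : K) (ht : A.valuation t < 1) :
    (ptAt c A t ht).hom (jB c A hQ) * (c.QK K).eval t = (c.PK K).eval t :=
  ptAt_spec c A t ht (jB c A hQ) (c.PK K) (c.QK K) (CoverInst.jOf_mul c K (QK_ne_zero c A hQ))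

include hQ in
omit [c.Good K] [IsInvariantSubring (c.Gal K) (BRing c A)] in
theorem QK_eval_ne_zero (t : K) (ht : A.valuation t < 1) : (c.QK K).eval t ≠ 0 :=
  eval_ne_zero A (DiscSubst.map_int_mem_polyV A c.Q) hQ ht

omit [c.Good K] [IsInvariantSubring (c.Gal K) (BRing c A)] in
theorem ptAt_jB_eq_iff (t : K) (ht : A.valuation t < 1) (c₀ : K) :
    (ptAt c A t ht).hom (jB c A hQ) = c₀ ↔ (c.PK K).eval t = c₀ * (c.QK K).eval t := by
  rw [← ptAt_jB c A hQ t ht]
  constructor
  · intro h
    rw [h]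
  · intro h
    exact mul_right_cancel₀ (QK_eval_ne_zero c A hQ t ht) h

/-- the points of the open disc over `j = c₀`, as a `H₀`-stable set of `K`-points of `B_A` -/
def MOver (hM : IsMoebius c A) (c₀ : K) : SubMulAction (c.Gal K) (Pt (BRing c A) K) where
  carrier := {m | (∃ (t : K) (ht : A.valuation t < 1), m = ptAt c A t ht) ∧
    m.hom (jB c A hQ) = c₀}
  smul_mem' g m := by
    rintro ⟨⟨t, ht, rfl⟩, hj⟩
    obtain ⟨t', ht', h⟩ := exists_smul_ptAt c A hM g t ht
    refine ⟨⟨t', ht', h⟩, ?_⟩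
    rw [smul_hom_apply, smul_jB]
    exact hj

theorem mem_MOver_iff (hM : IsMoebius c A) (c₀ : K) (m : Pt (BRing c A) K) :
    m ∈ MOver c A hQ hM c₀ ↔ ∃ (t : K) (ht : A.valuation t < 1),
      m = ptAt c A t ht ∧ (c.PK K).eval t = c₀ * (c.QK K).eval t := by
  constructor
  · rintro ⟨⟨t, ht, rfl⟩, hj⟩
    exact ⟨t, ht, rfl, (ptAt_jB_eq_iff c A hQ t ht c₀).mp hj⟩
  · rintro ⟨t, ht, rfl, h⟩
    exact ⟨⟨t, ht, rfl⟩, (ptAt_jB_eq_iff c A hQ t ht c₀).mpr h⟩

theorem exists_ptAt_of_mem_MOver (hM : IsMoebius c A) (c₀ : K) {m : Pt (BRing c A) K}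
    (hm : m ∈ MOver c A hQ hM c₀) : ∃ (t : K) (ht : A.valuation t < 1), m = ptAt c A t ht :=
  hm.1

/-- the points of the disc over `j = c₀` are the solutions `t` of `P(t) = c₀ Q(t)` in the disc -/
def equivMOver (hM : IsMoebius c A) (c₀ : K) :
    {t : K // A.valuation t < 1 ∧ (c.PK K).eval t = c₀ * (c.QK K).eval t} ≃ MOver c A hQ hM c₀ :=
  Equiv.ofBijective
    (fun t => ⟨ptAt c A t.1 t.2.1, (mem_MOver_iff c A hQ hM c₀ _).mpr ⟨t.1, t.2.1, rfl, t.2.2⟩⟩)
    ⟨fun t t' h => Subtype.ext (ptAt_injective c A (congrArg Subtype.val h)), fun m => by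
      obtain ⟨t, ht, hm, h⟩ := (mem_MOver_iff c A hQ hM c₀ m.1).mp m.2
      exact ⟨⟨t, ht, h⟩, Subtype.ext hm.symm⟩⟩

theorem coe_equivMOver (hM : IsMoebius c A) (c₀ : K)
    (t : {t : K // A.valuation t < 1 ∧ (c.PK K).eval t = c₀ * (c.QK K).eval t}) :
    ((equivMOver c A hQ hM c₀ t : MOver c A hQ hM c₀) : Pt (BRing c A) K) =
      ptAt c A t.1 t.2.1 := rfl

/-- the `g`-fixed points of the disc over `j = c₀`, when `g⁻¹ μ = T(μ)/L(μ)` -/
def equivFixedBy (hM : IsMoebius c A) (c₀ : K) (g : c.Gal K) {T L : K[X]} (hT : T ∈ polyV A)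
    (hL : L ∈ polyV A) (hT0 : A.valuation (T.coeff 0) < 1) (hL0 : A.valuation (L.coeff 0) = 1)
    (hg : g⁻¹ (MuLine.mu c K) * algebraMap K[X] (MuLine c K) L =
      algebraMap K[X] (MuLine c K) T) :
    {t : {t : K // A.valuation t < 1 ∧ (c.PK K).eval t = c₀ * (c.QK K).eval t} //
        t.1 * L.eval t.1 = T.eval t.1} ≃ MulAction.fixedBy (MOver c A hQ hM c₀) g :=
  (equivMOver c A hQ hM c₀).subtypeEquiv fun t => by
    rw [MulAction.mem_fixedBy, ← smul_ptAt_eq_iff c A g hT hL hT0 hL0 hg t.2.1]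
    constructor
    · intro h
      exact Subtype.ext h
    · intro h
      exact congrArg Subtype.val h

/-- every `H₀`-stable set of points of the open disc is a good set (closed point `evClosedB`) as
soon as the discriminant of the basis is a unit of `B_A` -/
theorem isGoodSet_of_disc {C : Type*} [CommRing C] [Algebra (BRing c A) C] {ι : Type*}
    [Fintype ι] [DecidableEq ι] (b : Module.Basis ι (BRing c A) C)
    (hd : IsUnit (Algebra.discr (BRing c A) b))
    (M : SubMulAction (c.Gal K) (Pt (BRing c A) K))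
    (hM : ∀ m ∈ M, ∃ (t : K) (ht : A.valuation t < 1), m = ptAt c A t ht) :
    IsGoodSet A b M (evClosedB c A) := by
  intro m hm
  obtain ⟨t, ht, rfl⟩ := hM m hm
  exact ⟨evDiscB c A t ht, rfl, residue_comp_evDiscB c A t ht,
    (isUnit_evDiscB_iff c A t ht _).mpr hd⟩

/-- the points of the disc over `j = c₀` form a good set -/
theorem isGoodSet_MOver {C : Type*} [CommRing C] [Algebra (BRing c A) C] {ι : Type*}
    [Fintype ι] [DecidableEq ι] (b : Module.Basis ι (BRing c A) C)
    (hd : IsUnit (Algebra.discr (BRing c A) b)) (hM : IsMoebius c A) (c₀ : K) :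
    IsGoodSet A b (MOver c A hQ hM c₀) (evClosedB c A) :=
  isGoodSet_of_disc c A b hd _ fun _ hm => exists_ptAt_of_mem_MOver c A hQ hM c₀ hm

end Over

end Fermat.Agent.S18.C.NumbersPts
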