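import Mathlib
import Fermat.Agent.S18.C.NumbersPts
import Fermat.Agent.S18.C.FixCount
import Fermat.Agent.S18.C.InvIdx

/-!
# PROJECT H (S18), block C, slice N4 (part 2): the numbers of the Hesse cover at `ℓ = 2`

`K` a field, `A` a valuation subring with `v 2 < 1`, `ω² + ω + 1 = 0`, `s² = 3` in `K`
(for `K = ℚ̄`: `exists_omega`, `exists_sqrt_three`).  With `G = hesse.Gal K`, `B = BRing hesse A`:

* `isMoebius hω A h2 : NumbersPts.IsMoebius hesse A`, `valuation_QK` (`Q(0) = -1`);
* `M0 hω A h2`, `M1728 hω A h2 : SubMulAction G (Pt B K)` : the points of the open disc over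
  `j = 0`, `j = 1728` (`mem_M0_iff`, `mem_M1728_iff`: `m = ptAt t` with `numJ t = 0` resp.
  `numJ t = 1728 denJ t`); all of them are points of the open disc (`exists_ptAt_of_mem_*`);
* `card_M0 = 4`, `card_M1728 = 6`, finiteness;
* `i0 hω h3 g := iH (hesseIdx hω h3 g)`; `card_fixedBy_add` : for `g ≠ 1`,
  `#Fix_g(M0) + #Fix_g(M1728) = i0 g`; `sum_i0 = 14`; `card_add_card_add : #M0 + #M1728 + 14 =
  2 #G`;
* `isGoodSet_M0`, `isGoodSet_M1728` from a unit discriminant.
-/

set_option autoImplicit false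

noncomputable section

namespace Fermat.Agent.S18.C.NumbersHesse

open Polynomial
open Fermat.Agent.S18.C.Defs Fermat.Agent.S18.C.SurfaceDefs Fermat.Agent.S18.C.BRingLocal
open Fermat.Agent.S18.C.GenericCount Fermat.Agent.S18.C.NumbersPts
open Fermat.Agent.S18.C.CoverInst Fermat.Agent.S18.C.Hesse

section Data

variable {K : Type*} [Field K] (A : ValuationSubring K)

theorem eval_topH (ω : K) (i : Idx) (t : K) : (topH (C ω) i X).eval t = topH ω i t := by
  rw [← coe_evalRingHom, HesseGalois.map_topH, coe_evalRingHom, eval_C, eval_X]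

theorem eval_botH (ω : K) (i : Idx) (t : K) : (botH (C ω) i X).eval t = botH ω i t := by
  rw [← coe_evalRingHom, HesseGalois.map_botH, coe_evalRingHom, eval_C, eval_X]

theorem eval_PK (t : K) : (hesse.PK K).eval t = numJ t := by
  rw [hesse_PK, HesseDisc.eval_polyP]

theorem eval_QK (t : K) : (hesse.QK K).eval t = denJ t := by
  rw [hesse_QK, HesseDisc.eval_polyQ]

theorem valuation_QK : A.valuation ((hesse.QK K).coeff 0) = 1 := by
  rw [hesse_QK_coeff_zero, Valuation.map_neg, map_one]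

variable {ω : K} (hω : ω ^ 2 + ω + 1 = 0)

include hω in
theorem valuation_omega : A.valuation ω = 1 :=
  DiscBasic.val_eq_one_of_pow_eq_one _ (by norm_num) (omega_pow_three hω)

include hω in
theorem omega_mem : ω ∈ A := (A.valuation_le_one_iff ω).mp (valuation_omega A hω).le

variable [hesse.Good K]

/-- the Moebius data of `g` : `g μ = topH ω i μ / botH ω i μ`, `i = hesseIdx g` -/
theorem moebius_data (h2 : A.valuation 2 < 1) (h3 : (3 : K) ≠ 0) (g : hesse.Gal K) :
    topH (C ω) (hesseIdx hω h3 g) X ∈ polyV A ∧ botH (C ω) (hesseIdx hω h3 g) X ∈ polyV A ∧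
    A.valuation ((topH (C ω) (hesseIdx hω h3 g) X).coeff 0) < 1 ∧
    A.valuation ((botH (C ω) (hesseIdx hω h3 g) X).coeff 0) = 1 ∧
    g (MuLine.mu hesse K) * algebraMap K[X] (MuLine hesse K) (botH (C ω) (hesseIdx hω h3 g) X) =
      algebraMap K[X] (MuLine hesse K) (topH (C ω) (hesseIdx hω h3 g) X) := by
  set i := hesseIdx hω h3 g with hi
  have hvω := valuation_omega A hω
  have hωA := omega_mem A hω
  refine ⟨topH_mem (polyV A) (DiscSubst.C_mem_polyV A hωA) (DiscSubst.X_mem_polyV A) i,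
    botH_mem (polyV A) (DiscSubst.C_mem_polyV A hωA) (DiscSubst.X_mem_polyV A) i, ?_, ?_, ?_⟩
  · rw [coeff_zero_eq_eval_zero, eval_topH]
    rcases i with a | ⟨a, c⟩
    · rw [HesseDisc.topH_zero_inl, map_zero]; exact zero_lt_one
    · rw [HesseDisc.topH_zero_inr, map_mul, map_mul, map_pow, map_pow, hvω, one_pow, one_pow,
        mul_one, mul_one]
      exact h2
  · rw [coeff_zero_eq_eval_zero, eval_botH]
    rcases i with a | ⟨a, c⟩
    · rw [HesseDisc.botH_zero_inl, map_one]
    · rw [HesseDisc.botH_zero_inr, Valuation.map_neg, map_pow, hvω, one_pow]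
  · show g (MuLine.mu hesse K) * polyToMu hesse (botH (C ω) i X) = polyToMu hesse (topH (C ω) i X)
    rw [HesseGalois.map_topH, HesseGalois.map_botH, polyToMu_C, polyToMu_X,
      hesse_apply_mu hω h3 g, ← hi]
    unfold actH
    rw [div_mul_cancel₀ _ (hesse_botH_ne_zero hω h3 i)]

include hω in
/-- the group of the Hesse cover acts on the open disc of `A` (`v 2 < 1`) by Moebius maps -/
theorem isMoebius (h2 : A.valuation 2 < 1) : IsMoebius hesse A := by
  intro g
  have h3 : (3 : K) ≠ 0 := HesseDisc.three_ne_zero_of_val A.valuation h2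
  exact ⟨_, _, moebius_data A hω h2 h3 g⟩

end Data

/-! ### `ω` and `√3` in an algebraically closed field -/

section Exists

variable (K : Type*) [Field K] [IsAlgClosed K]

theorem exists_omega : ∃ ω : K, ω ^ 2 + ω + 1 = 0 := by
  obtain ⟨ω, hω⟩ := IsAlgClosed.exists_root (X ^ 2 + X + 1 : K[X]) (by
    have h : (X ^ 2 + X + 1 : K[X]).degree = 2 := by compute_degree!
    rw [h]; norm_num)
  refine ⟨ω, ?_⟩
  simpa using hω

theorem exists_sqrt_three : ∃ s : K, s ^ 2 = 3 :=
  IsAlgClosed.exists_pow_nat_eq (3 : K) (by norm_num)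

end Exists

/-! ### the two sets of points and their counts -/

section Sets

variable {K : Type*} [Field K] [hesse.Good K] (A : ValuationSubring K)
  [IsInvariantSubring (hesse.Gal K) (BRing hesse A)]
  {ω : K} (hω : ω ^ 2 + ω + 1 = 0) (h2 : A.valuation 2 < 1)

/-- the points of the open disc over `j = c₀` for the Hesse cover -/
def MH (c₀ : K) : SubMulAction (hesse.Gal K) (Pt (BRing hesse A) K) :=
  MOver hesse A (valuation_QK A) (isMoebius A hω h2) c₀

/-- the points over `j = 0` -/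
def M0 : SubMulAction (hesse.Gal K) (Pt (BRing hesse A) K) := MH A hω h2 0

/-- the points over `j = 1728` -/
def M1728 : SubMulAction (hesse.Gal K) (Pt (BRing hesse A) K) := MH A hω h2 1728

theorem mem_MH_iff (c₀ : K) (m : Pt (BRing hesse A) K) :
    m ∈ MH A hω h2 c₀ ↔ ∃ (t : K) (ht : A.valuation t < 1),
      m = ptAt hesse A t ht ∧ numJ t = c₀ * denJ t := by
  unfold MH
  rw [mem_MOver_iff]
  simp only [eval_PK, eval_QK]

theorem mem_M0_iff (m : Pt (BRing hesse A) K) :
    m ∈ M0 A hω h2 ↔ ∃ (t : K) (ht : A.valuation t < 1),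
      m = ptAt hesse A t ht ∧ numJ t = 0 := by
  unfold M0
  rw [mem_MH_iff]
  simp only [zero_mul]

theorem mem_M1728_iff (m : Pt (BRing hesse A) K) :
    m ∈ M1728 A hω h2 ↔ ∃ (t : K) (ht : A.valuation t < 1),
      m = ptAt hesse A t ht ∧ numJ t = 1728 * denJ t :=
  mem_MH_iff A hω h2 1728 m

theorem exists_ptAt_of_mem_MH (c₀ : K) {m : Pt (BRing hesse A) K} (hm : m ∈ MH A hω h2 c₀) :
    ∃ (t : K) (ht : A.valuation t < 1), m = ptAt hesse A t ht :=
  exists_ptAt_of_mem_MOver hesse A _ _ c₀ hm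

/-- the points over `j = c₀` are the solutions of `numJ x = c₀ denJ x`, when all of them lie in the
open disc -/
def equivMH (c₀ : K) (hdisc : ∀ t : K, numJ t = c₀ * denJ t → A.valuation t < 1) :
    {x : K // numJ x = c₀ * denJ x} ≃ MH A hω h2 c₀ :=
  (Equiv.subtypeEquivRight (fun t => by
    rw [eval_PK, eval_QK]
    exact ⟨fun h => ⟨hdisc t h, h⟩, fun h => h.2⟩)).trans
    (equivMOver hesse A (valuation_QK A) (isMoebius A hω h2) c₀)

theorem coe_equivMH (c₀ : K) (hdisc : ∀ t : K, numJ t = c₀ * denJ t → A.valuation t < 1)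
    (x : {x : K // numJ x = c₀ * denJ x}) :
    ((equivMH A hω h2 c₀ hdisc x : MH A hω h2 c₀) : Pt (BRing hesse A) K) =
      ptAt hesse A x.1 (hdisc x.1 x.2) := rfl

/-- the `g`-fixed points over `j = c₀` are the common solutions of `fixH ω g x = 0` and
`numJ x = c₀ denJ x` -/
theorem card_fixedBy_MH (c₀ : K) (hdisc : ∀ t : K, numJ t = c₀ * denJ t → A.valuation t < 1)
    (h3 : (3 : K) ≠ 0) (g : hesse.Gal K) :
    Nat.card (MulAction.fixedBy (MH A hω h2 c₀) g) =
      Nat.card {x : K // fixH ω (hesseIdx hω h3 g) x = 0 ∧ numJ x = c₀ * denJ x} := by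
  obtain ⟨hT, hL, hT0, hL0, hg⟩ := moebius_data A hω h2 h3 g⁻¹
  have hinv : hesseIdx hω h3 g⁻¹ = InvIdx.invIdxH (hesseIdx hω h3 g) :=
    InvIdx.IsHesse.galEquiv_inv (isHesse hω h3) g
  unfold MH
  rw [← Nat.card_congr (equivFixedBy hesse A (valuation_QK A) (isMoebius A hω h2) c₀ g hT hL hT0
    hL0 hg)]
  refine Nat.card_congr ((Equiv.subtypeSubtypeEquivSubtypeInter
    (fun t : K => A.valuation t < 1 ∧ (hesse.PK K).eval t = c₀ * (hesse.QK K).eval t)
    (fun t : K => t * (botH (C ω) (hesseIdx hω h3 g⁻¹) X).eval t =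
      (topH (C ω) (hesseIdx hω h3 g⁻¹) X).eval t)).trans
    (Equiv.subtypeEquivRight fun t => ?_))
  rw [eval_PK, eval_QK, eval_topH, eval_botH, hinv,
    ← InvIdx.fixH_invIdxH_eq_zero_iff hω h3 (hesseIdx hω h3 g) t]
  unfold fixH
  constructor
  · rintro ⟨⟨-, h⟩, hfix⟩
    exact ⟨by rw [hfix, sub_self], h⟩
  · rintro ⟨hfix, h⟩
    exact ⟨⟨hdisc t h, h⟩, (sub_eq_zero.mp hfix).symm⟩

end Sets

/-! ### the numbers -/

section Counts

variable {K : Type*} [Field K] [hesse.Good K] (A : ValuationSubring K)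
  [IsInvariantSubring (hesse.Gal K) (BRing hesse A)]
  {ω : K} (hω : ω ^ 2 + ω + 1 = 0) (h2 : A.valuation 2 < 1) (h2ne : (2 : K) ≠ 0)

include h2 in
omit [hesse.Good K] [IsInvariantSubring (hesse.Gal K) (BRing hesse A)] in
theorem disc_zero (t : K) (h : numJ t = 0 * denJ t) : A.valuation t < 1 := by
  rw [zero_mul] at h
  exact HesseDisc.val_lt_one_of_numJ_eq_zero A.valuation h2 h

include h2 in
omit [hesse.Good K] [IsInvariantSubring (hesse.Gal K) (BRing hesse A)] in
theorem disc_1728 (t : K) (h : numJ t = 1728 * denJ t) : A.valuation t < 1 :=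
  HesseDisc.val_lt_one_of_eq_1728 A.valuation h2 h

/-- the points over `j = 0` are the four zeros of `numJ` -/
def equivM0 : {x : K // numJ x = 0} ≃ M0 A hω h2 :=
  (Equiv.subtypeEquivRight (fun x => by rw [zero_mul])).trans
    (equivMH A hω h2 0 (disc_zero A h2))

/-- the points over `j = 1728` are the six solutions of `numJ x = 1728 denJ x` -/
def equivM1728 : {x : K // numJ x = 1728 * denJ x} ≃ M1728 A hω h2 :=
  equivMH A hω h2 1728 (disc_1728 A h2)

include h2ne in
/-- there are `4 = 12 / 3` points over `j = 0` -/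
theorem card_M0 : Nat.card (M0 A hω h2) = 4 := by
  rw [← Nat.card_congr (equivM0 A hω h2)]
  exact HesseDisc.card_over_zero A.valuation h2 h2ne hω

include h2ne in
/-- there are `6 = 12 / 2` points over `j = 1728` -/
theorem card_M1728 {s : K} (hs : s ^ 2 = 3) : Nat.card (M1728 A hω h2) = 6 := by
  rw [← Nat.card_congr (equivM1728 A hω h2)]
  exact HesseDisc.card_over_1728 A.valuation h2 h2ne hω hs

include h2ne in
theorem finite_M0 : Finite (M0 A hω h2) :=
  Nat.finite_of_card_ne_zero (by rw [card_M0 A hω h2 h2ne]; norm_num)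

include h2ne in
theorem finite_M1728 {s : K} (hs : s ^ 2 = 3) : Finite (M1728 A hω h2) :=
  Nat.finite_of_card_ne_zero (by rw [card_M1728 A hω h2 h2ne hs]; norm_num)

/-- the higher ramification number of `g` : `i₀ g = iH (hesseIdx g)` -/
def i0 (h3 : (3 : K) ≠ 0) (g : hesse.Gal K) : ℕ := iH (hesseIdx hω h3 g)

omit [IsInvariantSubring (hesse.Gal K) (BRing hesse A)] in
theorem i0_one (h3 : (3 : K) ≠ 0) : i0 hω h3 1 = 0 := by
  unfold i0
  rw [hesseIdx_one]
  rfl

include h2ne in
/-- **for `g ≠ 1` : `#Fix_g(M₀) + #Fix_g(M₁₇₂₈) = i₀ g`** -/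
theorem card_fixedBy_add {s : K} (hs : s ^ 2 = 3) (h3 : (3 : K) ≠ 0) (g : hesse.Gal K)
    (hg : g ≠ 1) :
    Nat.card (MulAction.fixedBy (M0 A hω h2) g) + Nat.card (MulAction.fixedBy (M1728 A hω h2) g) =
      i0 hω h3 g := by
  have hidx : hesseIdx hω h3 g ≠ Sum.inl 0 := fun h =>
    hg ((hesseIdx_eq_inl_zero_iff hω h3 g).mp h)
  unfold M0 M1728
  rw [card_fixedBy_MH A hω h2 0 (disc_zero A h2) h3 g,
    card_fixedBy_MH A hω h2 1728 (disc_1728 A h2) h3 g]
  simp only [zero_mul]
  exact FixCount.card_fixH_zero_add_card_fixH_1728 A.valuation h2 h2ne hω hs hidx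

omit [IsInvariantSubring (hesse.Gal K) (BRing hesse A)] in
/-- `∑_{g ≠ 1} i₀ g = 14` -/
theorem sum_i0 (h3 : (3 : K) ≠ 0) [Fintype (hesse.Gal K)] [DecidableEq (hesse.Gal K)] :
    ∑ g ∈ Finset.univ.erase (1 : hesse.Gal K), i0 hω h3 g = 14 := by
  rw [Finset.sum_erase _ (i0_one hω h3)]
  unfold i0
  rw [Equiv.sum_comp (hesseIdx hω h3) iH]
  exact sum_iH

include h2ne in
/-- `#M₀ + #M₁₇₂₈ + d₀ = 2 #H₀` with `d₀ = 14` : `4 + 6 + 14 = 24` -/
theorem card_add_card_add {s : K} (hs : s ^ 2 = 3) (h3 : (3 : K) ≠ 0) :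
    Nat.card (M0 A hω h2) + Nat.card (M1728 A hω h2) + 14 = 2 * Nat.card (hesse.Gal K) := by
  rw [card_M0 A hω h2 h2ne, card_M1728 A hω h2 h2ne hs, card_gal_hesse hω h3]

/-- `M₀` is a good set as soon as the discriminant is a unit -/
theorem isGoodSet_M0 {C : Type*} [CommRing C] [Algebra (BRing hesse A) C] {ι : Type*}
    [Fintype ι] [DecidableEq ι] (b : Module.Basis ι (BRing hesse A) C)
    (hd : IsUnit (Algebra.discr (BRing hesse A) b)) :
    IsGoodSet A b (M0 A hω h2) (evClosedB hesse A) :=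
  isGoodSet_MOver hesse A (valuation_QK A) b hd (isMoebius A hω h2) 0

/-- `M₁₇₂₈` is a good set as soon as the discriminant is a unit -/
theorem isGoodSet_M1728 {C : Type*} [CommRing C] [Algebra (BRing hesse A) C] {ι : Type*}
    [Fintype ι] [DecidableEq ι] (b : Module.Basis ι (BRing hesse A) C)
    (hd : IsUnit (Algebra.discr (BRing hesse A) b)) :
    IsGoodSet A b (M1728 A hω h2) (evClosedB hesse A) :=
  isGoodSet_MOver hesse A (valuation_QK A) b hd (isMoebius A hω h2) 1728

end Counts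

end Fermat.Agent.S18.C.NumbersHesse
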