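import Mathlib
import Fermat.Agent.S18.C.NumbersPts
import Fermat.Agent.S18.C.FixCount
import Fermat.Agent.S18.C.InvIdx

/-!
# PROJECT H (S18), block C, slice N4 (part 3): the numbers of the Legendre cover at `ℓ = 3`

`K` a field, `A` a valuation subring with `v 3 < 1`, `(3 : K) ≠ 0`, `ω² + ω + 1 = 0` in `K`.
The cover `legendre` is written in the recentred coordinate `t = la + 1` (`numT`, `denT`, `topT`,
`botT`, `fixT` of `LegendreDisc`).  With `G = legendre.Gal K`, `B = BRing legendre A`:

* `isMoebius A h3 : NumbersPts.IsMoebius legendre A`, `valuation_QK` (`Q(0) = 4`);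
* `M0 A h3`, `M1728 A h3 : SubMulAction G (Pt B K)` : the points of the open disc over `j = 0`,
  `j = 1728` (`mem_M0_iff`, `mem_M1728_iff`: `m = ptAt t` with `numT t = 0` resp.
  `numT t = 1728 denT t`);
* `card_M0 = 2`, `card_M1728 = 3`, finiteness;
* `i0 h2 g := iL (legendreIdx h2 g)`; `card_fixedBy_add` : for `g ≠ 1`,
  `#Fix_g(M0) + #Fix_g(M1728) = i0 g`; `sum_i0 = 7`; `card_add_card_add : #M0 + #M1728 + 7 = 2 #G`;
* `isGoodSet_M0`, `isGoodSet_M1728` from a unit discriminant.
-/

set_option autoImplicit false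

noncomputable section

namespace Fermat.Agent.S18.C.NumbersLegendre

open Polynomial
open Fermat.Agent.S18.C.Defs Fermat.Agent.S18.C.SurfaceDefs Fermat.Agent.S18.C.BRingLocal
open Fermat.Agent.S18.C.GenericCount Fermat.Agent.S18.C.NumbersPts
open Fermat.Agent.S18.C.CoverInst Fermat.Agent.S18.C.Legendre Fermat.Agent.S18.C.LegendreDisc

section Data

variable {K : Type*} [Field K] (A : ValuationSubring K)

theorem eval_topT (i : Fin 6) (t : K) : (topT i (X : K[X])).eval t = topT i t := by
  rw [← coe_evalRingHom, map_topT, coe_evalRingHom, eval_X]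

theorem eval_botT (i : Fin 6) (t : K) : (botT i (X : K[X])).eval t = botT i t := by
  rw [← coe_evalRingHom, map_botT, coe_evalRingHom, eval_X]

theorem eval_PK (t : K) : (legendre.PK K).eval t = numT t := by
  rw [legendre_PK, eval_polyPT]

theorem eval_QK (t : K) : (legendre.QK K).eval t = denT t := by
  rw [legendre_QK, eval_polyQT]

theorem valuation_QK (h3 : A.valuation 3 < 1) : A.valuation ((legendre.QK K).coeff 0) = 1 := by
  have hv2 : A.valuation (2 : K) = 1 := DiscBasic.val_two_of_val_three A.valuation h3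
  rw [legendre_QK_coeff_zero]
  have : (4 : K) = 2 ^ 2 := by norm_num
  rw [this, map_pow, hv2, one_pow]

variable [legendre.Good K]

/-- the Moebius data of `g` : `g t = topT i t / botT i t`, `i = legendreIdx g` -/
theorem moebius_data (h3 : A.valuation 3 < 1) (h2 : (2 : K) ≠ 0) (g : legendre.Gal K) :
    topT (legendreIdx h2 g) (X : K[X]) ∈ polyV A ∧ botT (legendreIdx h2 g) (X : K[X]) ∈ polyV A ∧
    A.valuation ((topT (legendreIdx h2 g) (X : K[X])).coeff 0) < 1 ∧
    A.valuation ((botT (legendreIdx h2 g) (X : K[X])).coeff 0) = 1 ∧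
    g (MuLine.mu legendre K) * algebraMap K[X] (MuLine legendre K) (botT (legendreIdx h2 g) X) =
      algebraMap K[X] (MuLine legendre K) (topT (legendreIdx h2 g) X) := by
  have hv2 : A.valuation (2 : K) = 1 := DiscBasic.val_two_of_val_three A.valuation h3
  set i := legendreIdx h2 g with hi
  refine ⟨topT_mem (polyV A) (DiscSubst.X_mem_polyV A) i,
    botT_mem (polyV A) (DiscSubst.X_mem_polyV A) i, ?_, ?_, ?_⟩
  · rw [coeff_zero_eq_eval_zero, eval_topT, topT_zero, map_mul]
    have hle : A.valuation ((![0, 1, 0, 1, -1, -1] : Fin 6 → K) i) ≤ 1 :=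
      val_topT_vec_le A.valuation i
    calc A.valuation 3 * A.valuation ((![0, 1, 0, 1, -1, -1] : Fin 6 → K) i)
        ≤ A.valuation 3 * 1 := mul_le_mul_right hle _
      _ < 1 := by rw [mul_one]; exact h3
  · rw [coeff_zero_eq_eval_zero, eval_botT, botT_zero]
    exact val_botT_vec A.valuation hv2 i
  · show g (MuLine.mu legendre K) * polyToMu legendre (botT i X) = polyToMu legendre (topT i X)
    rw [map_topT, map_botT, polyToMu_X, legendre_apply_mu h2 g, ← hi]
    rw [div_mul_cancel₀ _ (legendre_botT_ne_zero h2 i)]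

/-- the group of the Legendre cover acts on the open disc of `A` (`v 3 < 1`) by Moebius maps -/
theorem isMoebius (h3 : A.valuation 3 < 1) : IsMoebius legendre A := by
  intro g
  have h2 : (2 : K) ≠ 0 := two_ne_zero_of_val A.valuation h3
  exact ⟨_, _, moebius_data A h3 h2 g⟩

end Data

/-! ### the two sets of points and their counts -/

section Sets

variable {K : Type*} [Field K] [legendre.Good K] (A : ValuationSubring K)
  [IsInvariantSubring (legendre.Gal K) (BRing legendre A)] (h3 : A.valuation 3 < 1)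

/-- the points of the open disc over `j = c₀` for the Legendre cover -/
def ML (c₀ : K) : SubMulAction (legendre.Gal K) (Pt (BRing legendre A) K) :=
  MOver legendre A (valuation_QK A h3) (isMoebius A h3) c₀

/-- the points over `j = 0` -/
def M0 : SubMulAction (legendre.Gal K) (Pt (BRing legendre A) K) := ML A h3 0

/-- the points over `j = 1728` -/
def M1728 : SubMulAction (legendre.Gal K) (Pt (BRing legendre A) K) := ML A h3 1728

theorem mem_ML_iff (c₀ : K) (m : Pt (BRing legendre A) K) :
    m ∈ ML A h3 c₀ ↔ ∃ (t : K) (ht : A.valuation t < 1),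
      m = ptAt legendre A t ht ∧ numT t = c₀ * denT t := by
  unfold ML
  rw [mem_MOver_iff]
  simp only [eval_PK, eval_QK]

theorem mem_M0_iff (m : Pt (BRing legendre A) K) :
    m ∈ M0 A h3 ↔ ∃ (t : K) (ht : A.valuation t < 1),
      m = ptAt legendre A t ht ∧ numT t = 0 := by
  unfold M0
  rw [mem_ML_iff]
  simp only [zero_mul]

theorem mem_M1728_iff (m : Pt (BRing legendre A) K) :
    m ∈ M1728 A h3 ↔ ∃ (t : K) (ht : A.valuation t < 1),
      m = ptAt legendre A t ht ∧ numT t = 1728 * denT t :=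
  mem_ML_iff A h3 1728 m

theorem exists_ptAt_of_mem_ML (c₀ : K) {m : Pt (BRing legendre A) K} (hm : m ∈ ML A h3 c₀) :
    ∃ (t : K) (ht : A.valuation t < 1), m = ptAt legendre A t ht :=
  exists_ptAt_of_mem_MOver legendre A _ _ c₀ hm

/-- the shift `la ↦ t = la + 1` -/
def shift : K ≃ K := Equiv.addRight (1 : K)

/-- the points over `j = c₀` are the solutions of `numL la = c₀ denL la` (`t = la + 1`), when all
of them lie in the open disc -/
def equivML (c₀ : K) (hdisc : ∀ la : K, numL la = c₀ * denL la → A.valuation (la + 1) < 1) :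
    {la : K // numL la = c₀ * denL la} ≃ ML A h3 c₀ :=
  ((shift (K := K)).subtypeEquiv (fun la => by
    show numL la = c₀ * denL la ↔
      A.valuation (la + 1) < 1 ∧ (legendre.PK K).eval (la + 1) = c₀ * (legendre.QK K).eval (la + 1)
    rw [eval_PK, eval_QK, numT_add_one, denT_add_one]
    exact ⟨fun h => ⟨hdisc la h, h⟩, fun h => h.2⟩)).trans
    (equivMOver legendre A (valuation_QK A h3) (isMoebius A h3) c₀)

/-- the `g`-fixed points over `j = c₀` are the common solutions of `fixL g la = 0` and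
`numL la = c₀ denL la` (`t = la + 1`) -/
theorem card_fixedBy_ML (c₀ : K)
    (hdisc : ∀ la : K, numL la = c₀ * denL la → A.valuation (la + 1) < 1)
    (h2 : (2 : K) ≠ 0) (g : legendre.Gal K) :
    Nat.card (MulAction.fixedBy (ML A h3 c₀) g) =
      Nat.card {la : K // fixL (legendreIdx h2 g) la = 0 ∧ numL la = c₀ * denL la} := by
  obtain ⟨hT, hL, hT0, hL0, hg⟩ := moebius_data A h3 h2 g⁻¹
  have hinv : legendreIdx h2 g⁻¹ = InvIdx.invIdxL (legendreIdx h2 g) :=
    InvIdx.IsLegendre.galEquiv_inv (isLegendre h2) g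
  unfold ML
  rw [← Nat.card_congr (equivFixedBy legendre A (valuation_QK A h3) (isMoebius A h3) c₀ g hT hL
    hT0 hL0 hg)]
  symm
  refine Nat.card_congr (((shift (K := K)).subtypeEquiv (fun la => ?_)).trans
    (Equiv.subtypeSubtypeEquivSubtypeInter
      (fun t : K => A.valuation t < 1 ∧ (legendre.PK K).eval t = c₀ * (legendre.QK K).eval t)
      (fun t : K => t * (botT (legendreIdx h2 g⁻¹) (X : K[X])).eval t =
        (topT (legendreIdx h2 g⁻¹) (X : K[X])).eval t)).symm)
  show fixL (legendreIdx h2 g) la = 0 ∧ numL la = c₀ * denL la ↔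
    (A.valuation (la + 1) < 1 ∧
      (legendre.PK K).eval (la + 1) = c₀ * (legendre.QK K).eval (la + 1)) ∧
    (la + 1) * (botT (legendreIdx h2 g⁻¹) (X : K[X])).eval (la + 1) =
      (topT (legendreIdx h2 g⁻¹) (X : K[X])).eval (la + 1)
  rw [eval_PK, eval_QK, eval_topT, eval_botT, numT_add_one, denT_add_one, hinv,
    ← InvIdx.fixL_invIdxL_eq_zero_iff (legendreIdx h2 g) la]
  have hfix : fixL (InvIdx.invIdxL (legendreIdx h2 g)) la =
      topT (InvIdx.invIdxL (legendreIdx h2 g)) (la + 1) -
        (la + 1) * botT (InvIdx.invIdxL (legendreIdx h2 g)) (la + 1) := by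
    rw [← fixT, fixT_eq, add_sub_cancel_right]
  rw [hfix]
  constructor
  · rintro ⟨hfix, h⟩
    exact ⟨⟨hdisc la h, h⟩, (sub_eq_zero.mp hfix).symm⟩
  · rintro ⟨⟨-, h⟩, hfix⟩
    exact ⟨by rw [hfix, sub_self], h⟩

end Sets

/-! ### the numbers -/

section Counts

variable {K : Type*} [Field K] [legendre.Good K] (A : ValuationSubring K)
  [IsInvariantSubring (legendre.Gal K) (BRing legendre A)] (h3 : A.valuation 3 < 1)
  (h3ne : (3 : K) ≠ 0)

include h3 in
omit [legendre.Good K] [IsInvariantSubring (legendre.Gal K) (BRing legendre A)] in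
theorem disc_zero (la : K) (h : numL la = 0 * denL la) : A.valuation (la + 1) < 1 := by
  rw [zero_mul] at h
  exact val_lt_one_of_numL_eq_zero A.valuation h3 h

include h3 in
omit [legendre.Good K] [IsInvariantSubring (legendre.Gal K) (BRing legendre A)] in
theorem disc_1728 (la : K) (h : numL la = 1728 * denL la) : A.valuation (la + 1) < 1 :=
  val_lt_one_of_eq_1728 A.valuation h3 h

/-- the points over `j = 0` are the two zeros of `numL` (`t = la + 1`) -/
def equivM0 : {la : K // numL la = 0} ≃ M0 A h3 :=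
  (Equiv.subtypeEquivRight (fun x => by rw [zero_mul])).trans
    (equivML A h3 0 (disc_zero A h3))

/-- the points over `j = 1728` are the three solutions of `numL la = 1728 denL la` -/
def equivM1728 : {la : K // numL la = 1728 * denL la} ≃ M1728 A h3 :=
  equivML A h3 1728 (disc_1728 A h3)

include h3ne in
/-- there are `2 = 6 / 3` points over `j = 0` -/
theorem card_M0 {ω : K} (hω : ω ^ 2 + ω + 1 = 0) : Nat.card (M0 A h3) = 2 := by
  rw [← Nat.card_congr (equivM0 A h3)]
  exact card_over_zero A.valuation h3 h3ne hω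

include h3ne in
/-- there are `3 = 6 / 2` points over `j = 1728` -/
theorem card_M1728 : Nat.card (M1728 A h3) = 3 := by
  rw [← Nat.card_congr (equivM1728 A h3)]
  exact card_over_1728 A.valuation h3 h3ne

include h3ne in
theorem finite_M0 {ω : K} (hω : ω ^ 2 + ω + 1 = 0) : Finite (M0 A h3) :=
  Nat.finite_of_card_ne_zero (by rw [card_M0 A h3 h3ne hω]; norm_num)

include h3ne in
theorem finite_M1728 : Finite (M1728 A h3) :=
  Nat.finite_of_card_ne_zero (by rw [card_M1728 A h3 h3ne]; norm_num)

/-- the higher ramification number of `g` : `i₀ g = iL (legendreIdx g)` -/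
def i0 (h2 : (2 : K) ≠ 0) (g : legendre.Gal K) : ℕ := iL (legendreIdx h2 g)

omit [IsInvariantSubring (legendre.Gal K) (BRing legendre A)] in
theorem i0_one (h2 : (2 : K) ≠ 0) : i0 h2 (1 : legendre.Gal K) = 0 := by
  unfold i0
  rw [legendreIdx_one]
  rfl

include h3ne in
/-- **for `g ≠ 1` : `#Fix_g(M₀) + #Fix_g(M₁₇₂₈) = i₀ g`** -/
theorem card_fixedBy_add {ω : K} (hω : ω ^ 2 + ω + 1 = 0) (h2 : (2 : K) ≠ 0)
    (g : legendre.Gal K) (hg : g ≠ 1) :
    Nat.card (MulAction.fixedBy (M0 A h3) g) + Nat.card (MulAction.fixedBy (M1728 A h3) g) =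
      i0 h2 g := by
  have hidx : legendreIdx h2 g ≠ 0 := fun h => hg ((legendreIdx_eq_zero_iff h2 g).mp h)
  unfold M0 M1728
  rw [card_fixedBy_ML A h3 0 (disc_zero A h3) h2 g,
    card_fixedBy_ML A h3 1728 (disc_1728 A h3) h2 g]
  simp only [zero_mul]
  exact FixCount.card_fixL_zero_add_card_fixL_1728 A.valuation h3 h3ne hω hidx

omit [IsInvariantSubring (legendre.Gal K) (BRing legendre A)] in
/-- `∑_{g ≠ 1} i₀ g = 7` -/
theorem sum_i0 (h2 : (2 : K) ≠ 0) [Fintype (legendre.Gal K)] [DecidableEq (legendre.Gal K)] :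
    ∑ g ∈ Finset.univ.erase (1 : legendre.Gal K), i0 h2 g = 7 := by
  rw [Finset.sum_erase _ (i0_one h2)]
  unfold i0
  rw [Equiv.sum_comp (legendreIdx h2) iL]
  exact sum_iL

include h3ne in
/-- `#M₀ + #M₁₇₂₈ + d₀ = 2 #H₀` with `d₀ = 7` : `2 + 3 + 7 = 12` -/
theorem card_add_card_add {ω : K} (hω : ω ^ 2 + ω + 1 = 0) (h2 : (2 : K) ≠ 0) :
    Nat.card (M0 A h3) + Nat.card (M1728 A h3) + 7 = 2 * Nat.card (legendre.Gal K) := by
  rw [card_M0 A h3 h3ne hω, card_M1728 A h3 h3ne, card_gal_legendre h2]

/-- `M₀` is a good set as soon as the discriminant is a unit -/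
theorem isGoodSet_M0 {C : Type*} [CommRing C] [Algebra (BRing legendre A) C] {ι : Type*}
    [Fintype ι] [DecidableEq ι] (b : Module.Basis ι (BRing legendre A) C)
    (hd : IsUnit (Algebra.discr (BRing legendre A) b)) :
    IsGoodSet A b (M0 A h3) (evClosedB legendre A) :=
  isGoodSet_MOver legendre A (valuation_QK A h3) b hd (isMoebius A h3) 0

/-- `M₁₇₂₈` is a good set as soon as the discriminant is a unit -/
theorem isGoodSet_M1728 {C : Type*} [CommRing C] [Algebra (BRing legendre A) C] {ι : Type*}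
    [Fintype ι] [DecidableEq ι] (b : Module.Basis ι (BRing legendre A) C)
    (hd : IsUnit (Algebra.discr (BRing legendre A) b)) :
    IsGoodSet A b (M1728 A h3) (evClosedB legendre A) :=
  isGoodSet_MOver legendre A (valuation_QK A h3) b hd (isMoebius A h3) 1728

end Counts

end Fermat.Agent.S18.C.NumbersLegendre
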