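import Mathlib
import Fermat.Agent.S18.C.HesseGalois
import Fermat.Agent.S18.C.LegendreGalois
import Fermat.Agent.S18.C.LegendreDisc

/-!
# PROJECT H (S18), block C: the higher ramification numbers `i₀(σ)` on the special fibre

HESSE, characteristic `2`: for the cover `k(μ) / k(jH μ)` (`IsHesse ω μ j'`), a valuation `v` of
`k(μ)` trivial on the constants with `v μ < 1` (the place `μ = 0`), and `σ ≠ 1` in the Galois
group: `v (σ μ - μ) = v μ ^ iH (galEquiv σ)`.

LEGENDRE, characteristic `3`: for the cover `k(la) / k(jL la)` (`IsLegendre la j'`), a valuation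
`v` trivial on the constants with `v (la + 1) < 1` (the place `la = -1`), and `σ ≠ 1`:
`v (σ la - la) = v (la + 1) ^ iL (galEquiv σ)`.

With `Hesse.sum_iH = 14`, `Legendre.sum_iL = 7` and Hilbert's different formula
(`Different.Hilbert`, `Different.Action`) this computes the different exponent `d₀ = 14` resp. `7`
of `k[μ]_(μ)` over `k[j]_(j)`.
-/

set_option autoImplicit false

namespace Fermat.Agent.S18.C.SpecialVal

open Fermat.Agent.S18.C

section Generic

variable {M : Type*} [Field M] {Γ₀ : Type*} [LinearOrderedCommGroupWithZero Γ₀]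
  (v : Valuation M Γ₀)

theorem val_add_eq_one {c x : M} (hc : v c = 1) (hx : v x < 1) : v (c + x) = 1 := by
  rw [Valuation.map_add_eq_of_lt_left _ (by rw [hc]; exact hx), hc]

theorem val_sub_eq_one {c x : M} (hc : v c = 1) (hx : v x < 1) : v (c - x) = 1 := by
  rw [sub_eq_add_neg]
  exact val_add_eq_one v hc (by rwa [Valuation.map_neg])

theorem val_sub_eq_one' {c x : M} (hc : v c = 1) (hx : v x < 1) : v (x - c) = 1 := by
  rw [← Valuation.map_neg, neg_sub]
  exact val_sub_eq_one v hc hx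

end Generic

section Hesse

open Hesse HesseGalois

variable {K0 E M : Type*} [Field K0] [Field E] [Field M] [Algebra K0 E] [Algebra E M]
  [Algebra K0 M] [IsScalarTower K0 E M]
  {Γ₀ : Type*} [LinearOrderedCommGroupWithZero Γ₀] (v : Valuation M Γ₀)

/-- HESSE in characteristic `2`: `v (g μ - μ) = v μ ^ iH g` for `g ≠ 1`, for a valuation trivial
on the constants with `v μ < 1`; stated for the Moebius maps -/
theorem val_actH_sub {ω : K0} (hω : ω ^ 2 + ω + 1 = 0) (h3 : (3 : K0) ≠ 0) (h2 : (2 : K0) = 0)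
    (hvK : ∀ c : K0, c ≠ 0 → v (algebraMap K0 M c) = 1) {μ : M} (hμ : v μ < 1)
    {g : Idx} (hg : g ≠ Sum.inl 0) (hb : botH (algebraMap K0 M ω) g μ ≠ 0) :
    v (actH (algebraMap K0 M ω) g μ - μ) = v μ ^ iH g := by
  set ω' := algebraMap K0 M ω with hω'
  have h2' : (2 : M) = 0 := by
    have := congrArg (algebraMap K0 M) h2
    rwa [map_ofNat, map_zero] at this
  have hpow : ∀ a : Fin 3, ω' ^ (a : ℕ) = algebraMap K0 M (ω ^ (a : ℕ)) := fun a => by
    rw [map_pow]
  have hvpow : ∀ a : Fin 3, v (ω' ^ (a : ℕ)) = 1 := fun a => by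
    rw [hpow]; exact hvK _ (HesseDisc.omega_pow_ne_zero hω a)
  rw [actH_sub hb, fixH_eq_of_two_eq_zero h2', map_div₀, map_mul, map_pow]
  have hu : v (uH ω' g μ) = 1 := by
    rcases g with a | ⟨a, c⟩
    · have ha : a ≠ 0 := fun h => hg (by rw [h])
      have : uH ω' (Sum.inl a) μ = algebraMap K0 M (ω ^ (a : ℕ) - 1) := by
        simp only [uH]; rw [map_sub, map_pow, map_one]
      rw [this]
      exact hvK _ (HesseDisc.omega_pow_sub_one_ne_zero hω h3 ha)
    · by_cases hac : a = c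
      · simp only [uH, if_pos hac, Valuation.map_neg, map_one]
      · simp only [uH, if_neg hac]
        obtain ⟨hab, hbc⟩ := third_ne hac
        have hsum : ω ^ (a : ℕ) + ω ^ (c : ℕ) = -ω ^ ((-(a + c) : Fin 3) : ℕ) := by
          linear_combination sum_pow_of_ne hω hab hbc hac
        have hc : v (ω' ^ (a : ℕ) + ω' ^ (c : ℕ)) = 1 := by
          rw [hpow, hpow, ← map_add, hsum]
          exact hvK _ (neg_ne_zero.mpr (HesseDisc.omega_pow_ne_zero hω _))
        exact val_sub_eq_one v hc hμ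
  have hbv : v (botH ω' g μ) = 1 := by
    rcases g with a | ⟨a, c⟩
    · simp
    · rw [botH_inr]
      exact val_sub_eq_one' v (hvpow c) hμ
  rw [hu, hbv, mul_one, div_one]

/-- HESSE in characteristic `2`: `v (σ μ - μ) = v μ ^ iH (galEquiv σ)` for `σ ≠ 1` -/
theorem IsHesse.val_apply_sub {ω : K0} {μ : M} {j' : E} (h : IsHesse ω μ j') (h2 : (2 : K0) = 0)
    (hvK : ∀ c : K0, c ≠ 0 → v (algebraMap K0 M c) = 1) (hμ : v μ < 1)
    {σ : M ≃ₐ[E] M} (hσ : σ ≠ 1) : v (σ μ - μ) = v μ ^ iH (h.galEquiv σ) := by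
  rw [h.apply_mu σ]
  exact val_actH_sub v h.omega h.three h2 hvK hμ
    (fun hg => hσ ((h.galEquiv_eq_inl_zero_iff σ).mp hg)) (h.botH_mu _)

/-- HESSE in characteristic `2`: the sum of the `i₀(σ)`, `σ ≠ 1`, is `14` -/
theorem IsHesse.sum_iH_galEquiv {ω : K0} {μ : M} {j' : E} (h : IsHesse ω μ j')
    [Fintype (M ≃ₐ[E] M)] : ∑ σ : M ≃ₐ[E] M, iH (h.galEquiv σ) = 14 := by
  rw [Equiv.sum_comp h.galEquiv iH, sum_iH]

end Hesse

section Legendre

open Legendre LegendreGalois

variable {K0 E M : Type*} [Field K0] [Field E] [Field M] [Algebra K0 E] [Algebra E M]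
  [Algebra K0 M] [IsScalarTower K0 E M]
  {Γ₀ : Type*} [LinearOrderedCommGroupWithZero Γ₀] (v : Valuation M Γ₀)

/-- LEGENDRE in characteristic `3`: `v (g la - la) = v (la + 1) ^ iL g` for `g ≠ 1`, for a
valuation trivial on the constants with `v (la + 1) < 1`; stated for the Moebius maps -/
theorem val_actL_sub (h3 : (3 : K0) = 0) (h2 : (2 : K0) ≠ 0)
    (hvK : ∀ c : K0, c ≠ 0 → v (algebraMap K0 M c) = 1) {la : M} (ht : v (la + 1) < 1)
    {g : Fin 6} (hg : g ≠ 0) (hb : botL g la ≠ 0) :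
    v (actL g la - la) = v (la + 1) ^ iL g := by
  have h3' : (3 : M) = 0 := by
    have := congrArg (algebraMap K0 M) h3
    rwa [map_ofNat, map_zero] at this
  have hv2 : v (2 : M) = 1 := by
    have := hvK 2 h2
    rwa [map_ofNat] at this
  have hvla : v la = 1 := by
    have : la = (la + 1) - 1 := by ring
    rw [this]; exact val_sub_eq_one' v v.map_one ht
  have hv1la : v (1 - la) = 1 := by
    have : 1 - la = 2 - (la + 1) := by ring
    rw [this]; exact val_sub_eq_one v hv2 ht
  have hvla1 : v (la - 1) = 1 := by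
    rw [← Valuation.map_neg, neg_sub]; exact hv1la
  rw [actL_sub hb, fixL_eq_of_three_eq_zero h3', map_div₀, map_mul, map_pow]
  have hu : v (uL g la) = 1 := by
    fin_cases g
    · exact absurd rfl hg
    · simp [uL]
    · simpa [uL] using hv1la
    · simp [uL]
    · simp [uL]
    · simpa [uL] using hvla
  have hbv : v (botL g la) = 1 := by
    fin_cases g
    · exact absurd rfl hg
    · simp
    · simpa using hvla
    · simpa using hv1la
    · simpa using hvla
    · simpa using hvla1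
  rw [hu, hbv, mul_one, div_one]

/-- LEGENDRE in characteristic `3`: `v (σ la - la) = v (la + 1) ^ iL (galEquiv σ)` for `σ ≠ 1` -/
theorem IsLegendre.val_apply_sub {la : M} {j' : E} (h : IsLegendre (K0 := K0) la j')
    (h3 : (3 : K0) = 0) (hvK : ∀ c : K0, c ≠ 0 → v (algebraMap K0 M c) = 1)
    (ht : v (la + 1) < 1) {σ : M ≃ₐ[E] M} (hσ : σ ≠ 1) :
    v (σ la - la) = v (la + 1) ^ iL (h.galEquiv σ) := by
  rw [h.apply_mu σ]
  exact val_actL_sub v h3 h.two hvK ht
    (fun hg => hσ ((h.galEquiv_eq_zero_iff σ).mp hg)) (h.botL_mu _)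

/-- LEGENDRE in characteristic `3`: the sum of the `i₀(σ)`, `σ ≠ 1`, is `7` -/
theorem IsLegendre.sum_iL_galEquiv {la : M} {j' : E} (h : IsLegendre (K0 := K0) la j')
    [Fintype (M ≃ₐ[E] M)] : ∑ σ : M ≃ₐ[E] M, iL (h.galEquiv σ) = 7 := by
  rw [Equiv.sum_comp h.galEquiv iL, sum_iL]

end Legendre

end Fermat.Agent.S18.C.SpecialVal
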