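import Mathlib
import Fermat.Agent.S18.C.NumbersHesse
import Fermat.Agent.S18.C.NumbersLegendre
import Fermat.Agent.S18.C.SpecialVal
import Fermat.Agent.S18.C.BRingTop
import Fermat.Agent.S18.C.CoverDifferent

/-!
# PROJECT H (S18), block C, slice N4 (part 5): the numbers on the special fibre

`k` a field of characteristic `2` (Hesse) resp. `3` (Legendre), `D₀ = BRing c ⊤ = k[μ]_(μ)`,
`Dj = discRing ⊤ = k[j]_(j)`, `H₀ = c.Gal k`:

* `hesse_intValuation_smul_sub` : for `g ≠ 1`, `ord_μ (g μ - μ) = iH (hesseIdx g)` (the higher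
  ramification numbers of `H₀` at `μ = 0`), in the form `hm` of `CoverDifferent.d0_eq_sum`;
* `hesse_d0` : `Defs.diffExpAt Dj P = 14` for the closed point `P` of `D₀`; more precisely
  `hesse_d0_eq_sum : diffExpAt Dj P = ∑_{g ≠ 1} i₀ g` and `NumbersHesse.sum_i0 = 14`;
* same for the Legendre cover: `iL (legendreIdx g)`, `d₀ = 7`.
-/

set_option autoImplicit false
set_option linter.style.haveILetI false

noncomputable section

namespace Fermat.Agent.S18.C.NumbersTop

open Polynomial IsDedekindDomain HeightOneSpectrum WithZero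
open Fermat.Agent.S18.C.Defs Fermat.Agent.S18.C.SurfaceDefs Fermat.Agent.S18.C.BRingLocal
open Fermat.Agent.S18.C.CoverInst Fermat.Agent.S18.C.BRingTop

section Hesse

open Fermat.Agent.S18.C.Hesse

variable (k : Type*) [Field k] [hesse.Good k] (h2 : (2 : k) = 0) {ω : k}
  (hω : ω ^ 2 + ω + 1 = 0)

include h2 in
omit [hesse.Good k] in
theorem three_ne_zero_of_two : (3 : k) ≠ 0 := by
  have : (3 : k) = 1 := by linear_combination h2
  rw [this]
  exact one_ne_zero

include h2 in
omit [hesse.Good k] in
theorem valuation_two_top : (⊤ : ValuationSubring k).valuation 2 < 1 := by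
  rw [h2, map_zero]
  exact zero_lt_one

include h2 hω in
/-- `H₀` preserves `D₀ = k[μ]_(μ)` in characteristic `2` -/
theorem hesse_isInvariantSubring_top :
    IsInvariantSubring (hesse.Gal k) (BRing hesse (⊤ : ValuationSubring k)) :=
  isInvariantSubring_hesse hω ⊤ (valuation_two_top k h2)

variable [IsInvariantSubring (hesse.Gal k) (BRing hesse (⊤ : ValuationSubring k))]

include h2 in
omit [IsInvariantSubring (hesse.Gal k) (BRing hesse (⊤ : ValuationSubring k))] in
/-- **the higher ramification numbers of the Hesse group at `μ = 0` in characteristic `2`** :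
`v (g μ - μ) = v μ ^ iH (hesseIdx g)` for `g ≠ 1` -/
theorem hesse_vTop_apply_sub (h3 : (3 : k) ≠ 0) (g : hesse.Gal k) (hg : g ≠ 1) :
    vTop hesse k (g (MuLine.mu hesse k) - MuLine.mu hesse k) =
      vTop hesse k (MuLine.mu hesse k) ^ NumbersHesse.i0 hω h3 g :=
  SpecialVal.IsHesse.val_apply_sub (vTop hesse k) (isHesse hω h3) h2
    (fun _ hc => vTop_const hesse k hc) (vTop_mu_lt_one hesse k) hg

include h2 in
/-- the same as `ord_μ (g μ - μ) = i₀ g`, in the form `hm` of `CoverDifferent.d0_eq_sum` -/
theorem hesse_intValuation_smul_sub (h3 : (3 : k) ≠ 0)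
    (P : HeightOneSpectrum (BRing hesse (⊤ : ValuationSubring k))) (g : hesse.Gal k)
    (hg : g ≠ 1) :
    P.intValuation (g • muB hesse (⊤ : ValuationSubring k) - muB hesse (⊤ : ValuationSubring k)) =
      exp (-(NumbersHesse.i0 hω h3 g : ℤ)) := by
  rw [eq_pTop hesse k P]
  exact intValuation_eq_exp_of_vTop hesse k (hesse_vTop_apply_sub k h2 hω h3 g hg)

omit [hesse.Good k] [IsInvariantSubring (hesse.Gal k) (BRing hesse (⊤ : ValuationSubring k))] in
theorem hesse_QK_coeff_zero_ne : (hesse.QK k).coeff 0 ≠ 0 := by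
  rw [hesse_QK_coeff_zero]
  exact neg_ne_zero.mpr one_ne_zero

include h2 hω in
open scoped Classical in
/-- **Hilbert's formula for the Hesse cover in characteristic `2`** :
`d₀ = ∑_{g ≠ 1} i₀ g` at the closed point of `D₀` -/
theorem hesse_d0_eq_sum (h3 : (3 : k) ≠ 0) [Fintype (hesse.Gal k)] :
    letI := CoverDifferent.covTopAlgebra hesse k (hesse_PK_coeff_zero k)
      (hesse_QK_coeff_zero_ne k)
    haveI := CoverDifferent.isDiscreteValuationRing_Dj k
    haveI := CoverDifferent.faithfulSMul_covTop hesse k (hesse_PK_coeff_zero k)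
      (hesse_QK_coeff_zero_ne k)
    ∀ P : HeightOneSpectrum (BRing hesse (⊤ : ValuationSubring k)),
      Fermat.Agent.S18.A.Defs.diffExpAt (discRing (⊤ : ValuationSubring k)) P =
        ∑ g ∈ Finset.univ.erase (1 : hesse.Gal k), NumbersHesse.i0 hω h3 g := by
  haveI := isGalois_hesse hω h3
  intro P
  exact CoverDifferent.d0_eq_sum_canonical hesse k (hesse_PK_coeff_zero k)
    (hesse_QK_coeff_zero_ne k) P (NumbersHesse.i0 hω h3)
    (fun g hg => hesse_intValuation_smul_sub k h2 hω h3 P g hg)

include h2 hω in
/-- **`d₀ = 14` for the Hesse cover in characteristic `2`** -/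
theorem hesse_d0 (h3 : (3 : k) ≠ 0) :
    letI := CoverDifferent.covTopAlgebra hesse k (hesse_PK_coeff_zero k)
      (hesse_QK_coeff_zero_ne k)
    haveI := CoverDifferent.isDiscreteValuationRing_Dj k
    haveI := CoverDifferent.faithfulSMul_covTop hesse k (hesse_PK_coeff_zero k)
      (hesse_QK_coeff_zero_ne k)
    ∀ P : HeightOneSpectrum (BRing hesse (⊤ : ValuationSubring k)),
      Fermat.Agent.S18.A.Defs.diffExpAt (discRing (⊤ : ValuationSubring k)) P = 14 := by
  classical
  haveI : Finite (hesse.Gal k) := Nat.finite_of_card_ne_zero (by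
    rw [card_gal_hesse hω h3]; norm_num)
  letI : Fintype (hesse.Gal k) := Fintype.ofFinite _
  intro P
  rw [hesse_d0_eq_sum k h2 hω h3 P]
  exact NumbersHesse.sum_i0 hω h3

end Hesse

section Legendre

open Fermat.Agent.S18.C.Legendre Fermat.Agent.S18.C.LegendreDisc

variable (k : Type*) [Field k] [legendre.Good k] (h3 : (3 : k) = 0)

include h3 in
omit [legendre.Good k] in
theorem two_ne_zero_of_three : (2 : k) ≠ 0 := by
  have : (2 : k) = -1 := by linear_combination h3
  rw [this]
  exact neg_ne_zero.mpr one_ne_zero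

include h3 in
omit [legendre.Good k] in
theorem valuation_three_top : (⊤ : ValuationSubring k).valuation 3 < 1 := by
  rw [h3, map_zero]
  exact zero_lt_one

include h3 in
/-- `H₀` preserves `D₀ = k[t]_(t)` in characteristic `3` -/
theorem legendre_isInvariantSubring_top :
    IsInvariantSubring (legendre.Gal k) (BRing legendre (⊤ : ValuationSubring k)) :=
  isInvariantSubring_legendre ⊤ (valuation_three_top k h3)

include h3 in
omit [legendre.Good k] in
theorem legendre_PK_coeff_zero_eq : (legendre.PK k).coeff 0 = 0 := by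
  rw [legendre_PK_coeff_zero]
  linear_combination (2304 : k) * h3

include h3 in
omit [legendre.Good k] in
theorem legendre_QK_coeff_zero_ne : (legendre.QK k).coeff 0 ≠ 0 := by
  rw [legendre_QK_coeff_zero]
  have : (4 : k) = 1 := by linear_combination h3
  rw [this]
  exact one_ne_zero

variable [IsInvariantSubring (legendre.Gal k) (BRing legendre (⊤ : ValuationSubring k))]

include h3 in
omit [IsInvariantSubring (legendre.Gal k) (BRing legendre (⊤ : ValuationSubring k))] in
/-- **the higher ramification numbers of the anharmonic group at `t = 0` in characteristic `3`** :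
`v (g t - t) = v t ^ iL (legendreIdx g)` for `g ≠ 1` -/
theorem legendre_vTop_apply_sub (h2 : (2 : k) ≠ 0) (g : legendre.Gal k) (hg : g ≠ 1) :
    vTop legendre k (g (MuLine.mu legendre k) - MuLine.mu legendre k) =
      vTop legendre k (MuLine.mu legendre k) ^ NumbersLegendre.i0 h2 g := by
  have h := SpecialVal.IsLegendre.val_apply_sub (vTop legendre k) (isLegendre h2) h3
    (fun _ hc => vTop_const legendre k hc)
    (by rw [sub_add_cancel]; exact vTop_mu_lt_one legendre k) hg
  have e : g (MuLine.mu legendre k - 1) - (MuLine.mu legendre k - 1) =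
      g (MuLine.mu legendre k) - MuLine.mu legendre k := by
    rw [map_sub, map_one]
    ring
  rw [sub_add_cancel, e] at h
  exact h

include h3 in
/-- the same as `ord_t (g t - t) = i₀ g`, in the form `hm` of `CoverDifferent.d0_eq_sum` -/
theorem legendre_intValuation_smul_sub (h2 : (2 : k) ≠ 0)
    (P : HeightOneSpectrum (BRing legendre (⊤ : ValuationSubring k))) (g : legendre.Gal k)
    (hg : g ≠ 1) :
    P.intValuation (g • muB legendre (⊤ : ValuationSubring k) -
        muB legendre (⊤ : ValuationSubring k)) =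
      exp (-(NumbersLegendre.i0 h2 g : ℤ)) := by
  rw [eq_pTop legendre k P]
  exact intValuation_eq_exp_of_vTop legendre k (legendre_vTop_apply_sub k h3 h2 g hg)

include h3 in
open scoped Classical in
/-- **Hilbert's formula for the Legendre cover in characteristic `3`** :
`d₀ = ∑_{g ≠ 1} i₀ g` at the closed point of `D₀` -/
theorem legendre_d0_eq_sum (h2 : (2 : k) ≠ 0) [Fintype (legendre.Gal k)] :
    letI := CoverDifferent.covTopAlgebra legendre k (legendre_PK_coeff_zero_eq k h3)
      (legendre_QK_coeff_zero_ne k h3)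
    haveI := CoverDifferent.isDiscreteValuationRing_Dj k
    haveI := CoverDifferent.faithfulSMul_covTop legendre k (legendre_PK_coeff_zero_eq k h3)
      (legendre_QK_coeff_zero_ne k h3)
    ∀ P : HeightOneSpectrum (BRing legendre (⊤ : ValuationSubring k)),
      Fermat.Agent.S18.A.Defs.diffExpAt (discRing (⊤ : ValuationSubring k)) P =
        ∑ g ∈ Finset.univ.erase (1 : legendre.Gal k), NumbersLegendre.i0 h2 g := by
  haveI := isGalois_legendre (K := k) h2
  intro P
  exact CoverDifferent.d0_eq_sum_canonical legendre k (legendre_PK_coeff_zero_eq k h3)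
    (legendre_QK_coeff_zero_ne k h3) P (NumbersLegendre.i0 h2)
    (fun g hg => legendre_intValuation_smul_sub k h3 h2 P g hg)

include h3 in
/-- **`d₀ = 7` for the Legendre cover in characteristic `3`** -/
theorem legendre_d0 (h2 : (2 : k) ≠ 0) :
    letI := CoverDifferent.covTopAlgebra legendre k (legendre_PK_coeff_zero_eq k h3)
      (legendre_QK_coeff_zero_ne k h3)
    haveI := CoverDifferent.isDiscreteValuationRing_Dj k
    haveI := CoverDifferent.faithfulSMul_covTop legendre k (legendre_PK_coeff_zero_eq k h3)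
      (legendre_QK_coeff_zero_ne k h3)
    ∀ P : HeightOneSpectrum (BRing legendre (⊤ : ValuationSubring k)),
      Fermat.Agent.S18.A.Defs.diffExpAt (discRing (⊤ : ValuationSubring k)) P = 7 := by
  classical
  haveI : Finite (legendre.Gal k) := Nat.finite_of_card_ne_zero (by
    rw [card_gal_legendre h2]; norm_num)
  letI : Fintype (legendre.Gal k) := Fintype.ofFinite _
  intro P
  rw [legendre_d0_eq_sum k h3 h2 P]
  exact NumbersLegendre.sum_i0 h2

end Legendre

end Fermat.Agent.S18.C.NumbersTop
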