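import Mathlib

/-!
# PROJECT H (S18), block C: combining the special-fibre count with the `φk` bridge (abstract)

`G`, `H` finite groups, `φ : G ≃* H` (`G = c.Gal L`, `H = c.Gal k`, `φ = GalRed.hesseRed` /
`legendreRed`).

* `sum_erase_one_equiv` : `∑_{g ≠ 1} f (φ g) = ∑_{γ ≠ 1} f γ`;
* **`hD_of_special_count`** : from
  (h1) `n * d0 = #H * D + ∑_{γ ≠ 1} i0k γ * stab γ`   [`SpecialCount.special_count`],
  (h2) `phik g = stab (φ g)`                          [`SpecialPointsKModel.kside`],
  (h3) `phik 1 = n`, (h4) `i0k (φ g) = i0 g`          [`GalRed.hesseIdx_hesseRed`]: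
  `Nat.card G * D + ∑_{g ≠ 1} i0 g * phik g = d0 * phik 1`
  (= the hypothesis `hD` of `GenericCount.k3_of_counts` / `Numbers.k3_hesse` verbatim);
* `hD_of_special_count'` : the same with the middle term a `finsum` and `n = Nat.card X`
  (the literal shape of `special_count`).
-/

set_option autoImplicit false

namespace Fermat.Agent.S18.C.SpecialCombine

open Finset

section

variable {G H : Type*} [Group G] [Group H] [Fintype G] [Fintype H] [DecidableEq G] [DecidableEq H]

/-- reindexing a sum over the non-trivial elements along a group isomorphism -/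
theorem sum_erase_one_equiv (φ : G ≃* H) (f : H → ℕ) :
    ∑ g ∈ univ.erase (1 : G), f (φ g) = ∑ γ ∈ univ.erase (1 : H), f γ := by
  refine Finset.sum_bij (fun g _ => φ g) ?_ ?_ ?_ ?_
  · intro g hg
    rw [mem_erase] at hg ⊢
    exact ⟨fun h => hg.1 (φ.map_eq_one_iff.mp h), mem_univ _⟩
  · intro g _ g' _ h
    exact φ.injective h
  · intro γ hγ
    rw [mem_erase] at hγ
    refine ⟨φ.symm γ, ?_, φ.apply_symm_apply γ⟩
    rw [mem_erase]
    refine ⟨fun h => hγ.1 ?_, mem_univ _⟩
    rw [← φ.apply_symm_apply γ, h, map_one]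
  · intro g _
    rfl

/-- **the combination**: the special-fibre count over `H = c.Gal k` (`h1`, the shape of
`SpecialCount.special_count`), transported to `G = c.Gal L` along `φ`, is the hypothesis `hD` of
`GenericCount.k3_of_counts` / `Numbers.k3_hesse`. -/
theorem hD_of_special_count (φ : G ≃* H) (n d0 D : ℕ) (i0 : G → ℕ) (i0k : H → ℕ) (stab : H → ℕ)
    (phik : G → ℕ)
    (h1 : n * d0 = Fintype.card H * D + ∑ γ ∈ univ.erase (1 : H), i0k γ * stab γ)
    (h2 : ∀ g, phik g = stab (φ g)) (h3 : phik 1 = n) (h4 : ∀ g, i0k (φ g) = i0 g) :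
    Nat.card G * D + ∑ g ∈ univ.erase (1 : G), i0 g * phik g = d0 * phik 1 := by
  have hcard : Nat.card G = Fintype.card H := by
    rw [Nat.card_eq_fintype_card]
    exact Fintype.card_congr φ.toEquiv
  have hsum : ∑ g ∈ univ.erase (1 : G), i0 g * phik g =
      ∑ γ ∈ univ.erase (1 : H), i0k γ * stab γ := by
    rw [← sum_erase_one_equiv φ (fun γ => i0k γ * stab γ)]
    refine Finset.sum_congr rfl fun g _ => ?_
    rw [h2 g, h4 g]
  rw [hcard, hsum, ← h1, h3, mul_comm]

/-- the same with the middle sum given as a `finsum` (the literal shape of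
`SpecialCount.special_count`) and the cardinalities as `Nat.card` -/
theorem hD_of_special_count' {Q : Type*} (φ : G ≃* H) (d0 : ℕ) (d : Q → ℕ) (D : ℕ)
    (hD : ∑ᶠ q : Q, d q = D) {X : Type*} (i0 : G → ℕ) (i0k : H → ℕ) (stab : H → ℕ) (phik : G → ℕ)
    (h1 : Nat.card X * d0 = Fintype.card H * ∑ᶠ q : Q, d q +
      ∑ γ ∈ univ.erase (1 : H), i0k γ * stab γ)
    (h2 : ∀ g, phik g = stab (φ g)) (h3 : phik 1 = Nat.card X) (h4 : ∀ g, i0k (φ g) = i0 g) :
    Nat.card G * D + ∑ g ∈ univ.erase (1 : G), i0 g * phik g = d0 * phik 1 := by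
  rw [hD] at h1
  exact hD_of_special_count φ (Nat.card X) d0 D i0 i0k stab phik h1 h2 h3 h4

end

end Fermat.Agent.S18.C.SpecialCombine
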