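import Mathlib
import Fermat.Agent.S18.A.LocalChartExtras
import Fermat.Agent.S18.A.DualChart
import Fermat.Agent.S18.C.DiscRingLocal

/-!
# PROJECT H (S18), block C: the chart `discRing ⊤ = K[j]_(j)` of a function field at `x = 0`

`K` algebraically closed, `F/K` a function field with separating element `x`
(`hx : IsFF K x`, `hsep : Algebra.IsSeparable K⟮x⟯ F`), and a `RatFunc K`-algebra structure on `F`
with `halg : ∀ a, algebraMap (RatFunc K) F a = Chart.evalRat hx.transcendental a` (`X ↦ x`; for the
modular function fields: `ModularInst.algebraMap_Fk` etc.).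

`DjTop K := discRing (⊤ : ValuationSubring K) ⊆ RatFunc K` (the local ring `K[X]_(X)`), and
`ETop K F := integralClosure (DjTop K) F`.

* `mem_discRing_top_iff`, `mem_range_DjTop_iff` : the image of `DjTop K` in `F` is the set of
  `p(x)/q(x)` with `q(0) ≠ 0` (`LocalChartExtras.IsRegularAt K x 0`);
* `isDedekindDomain_ETop`, `moduleFinite_ETop`, `isFractionRing_ETop`, `isTorsionFree_ETop`,
  `faithfulSMul_ETop`, `isSeparable_fractionRing_ETop`;
* **`finsum_diffExpAt_ETop`** : `∑ᶠ Q : HeightOneSpectrum (ETop K F), Defs.diffExpAt (DjTop K) Q =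
  ∑ Q ∈ FibreSep.zeros hx hsep 0, Defs.diffExp hx hsep Q`;
* `exists_equiv_diffExpAt_ETop` : the pointwise form.
-/

set_option autoImplicit false
set_option linter.style.haveILetI false
set_option linter.unusedSectionVars false

namespace Fermat.Agent.S18.C.DiscRingChart

open AlgebraicCurve IsDedekindDomain IntermediateField Polynomial
  Fermat.Agent.S24.FF Fermat.Agent.S18.A Fermat.Agent.S18.A.Chart
  Fermat.Agent.S18.A.LocalChartExtras
  Fermat.Agent.S18.C.Defs Fermat.Agent.S18.C.DiscRingLocal

universe u w

/-- the local ring `K[X]_(X)` of the `j`-line at `j = 0`, inside `RatFunc K` -/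
noncomputable abbrev DjTop (K : Type w) [Field K] : Subring (RatFunc K) := discRing (⊤ : ValuationSubring K)

/-- the integral closure of `K[X]_(X)` in `F` -/
noncomputable abbrev ETop (K : Type w) (F : Type u) [Field K] [Field F] [Algebra (RatFunc K) F] :
    Subalgebra (DjTop K) F := integralClosure (DjTop K) F

section Top

variable {K : Type w} [Field K]

theorem valuation_top_eq_one_iff (c : K) :
    (⊤ : ValuationSubring K).valuation c = 1 ↔ c ≠ 0 := by
  rw [valuation_eq_one_iff_mem]
  constructor
  · exact fun h => h.1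
  · exact fun h => ⟨h, ValuationSubring.mem_top _, ValuationSubring.mem_top _⟩

theorem mem_polyV_top (p : K[X]) : p ∈ polyV (⊤ : ValuationSubring K) :=
  (mem_polyV ⊤).mpr fun _ => ValuationSubring.mem_top _

/-- `discRing ⊤` is the set of `a/s` with `s(0) ≠ 0` -/
theorem mem_discRing_top_iff (f : RatFunc K) :
    f ∈ DjTop K ↔ ∃ a s : K[X], s.eval 0 ≠ 0 ∧
      f * algebraMap K[X] (RatFunc K) s = algebraMap K[X] (RatFunc K) a := by
  rw [mem_discRing]
  constructor
  · rintro ⟨a, s, -, -, hs0, h⟩
    refine ⟨a, s, ?_, h⟩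
    rw [← Polynomial.coeff_zero_eq_eval_zero]
    exact (valuation_top_eq_one_iff _).mp hs0
  · rintro ⟨a, s, hs0, h⟩
    refine ⟨a, s, mem_polyV_top a, mem_polyV_top s, ?_, h⟩
    rw [valuation_top_eq_one_iff, Polynomial.coeff_zero_eq_eval_zero]
    exact hs0

end Top

section Basic

variable {K : Type w} {F : Type u} [Field K] [Field F] [Algebra (RatFunc K) F]

theorem algebraMap_DjTop_apply (d : DjTop K) :
    algebraMap (DjTop K) F d = algebraMap (RatFunc K) F (d : RatFunc K) := rfl

theorem algebraMap_DjTop_injective : Function.Injective (algebraMap (DjTop K) F) := by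
  intro d d' h
  rw [algebraMap_DjTop_apply, algebraMap_DjTop_apply] at h
  exact Subtype.ext ((algebraMap (RatFunc K) F).injective h)

theorem faithfulSMul_ETop : FaithfulSMul (DjTop K) (ETop K F) := by
  rw [faithfulSMul_iff_algebraMap_injective]
  intro d d' h
  apply algebraMap_DjTop_injective (F := F)
  exact congrArg (algebraMap (ETop K F) F) h

theorem isTorsionFree_ETop : Module.IsTorsionFree (DjTop K) (ETop K F) := by
  haveI := faithfulSMul_ETop (K := K) (F := F)
  infer_instance

end Basic

section Chart

variable {K : Type w} {F : Type u} [Field K] [Field F] [Algebra K F] {x : F}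
  [Algebra (RatFunc K) F]

/-- **the image of `discRing ⊤` in `F`** -/
theorem mem_range_DjTop_iff (hx : Transcendental K x)
    (halg : ∀ a : RatFunc K, algebraMap (RatFunc K) F a = evalRat hx a) (g : F) :
    g ∈ (algebraMap (DjTop K) F).range ↔ IsRegularAt K x 0 g := by
  constructor
  · rintro ⟨d, rfl⟩
    obtain ⟨a, s, hs0, h⟩ := (mem_discRing_top_iff (d : RatFunc K)).mp d.2
    refine ⟨a, s, hs0, ?_⟩
    rw [algebraMap_DjTop_apply, halg, ← evalRat_algebraMap hx, ← evalRat_algebraMap hx, ← map_mul,
      h]
  · rintro ⟨p, q, hq, h⟩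
    have hq0 : q ≠ 0 := by
      rintro rfl
      simp at hq
    have hq1 : algebraMap K[X] (RatFunc K) q ≠ 0 := by
      rw [Ne, map_eq_zero_iff _ (IsFractionRing.injective K[X] (RatFunc K))]
      exact hq0
    have hmem : algebraMap K[X] (RatFunc K) p / algebraMap K[X] (RatFunc K) q ∈ DjTop K := by
      rw [mem_discRing_top_iff]
      exact ⟨p, q, hq, div_mul_cancel₀ _ hq1⟩
    refine ⟨⟨_, hmem⟩, ?_⟩
    rw [algebraMap_DjTop_apply, halg]
    change evalRat hx (algebraMap K[X] (RatFunc K) p / algebraMap K[X] (RatFunc K) q) = g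
    rw [map_div₀, evalRat_algebraMap, evalRat_algebraMap]
    have hq2 : aeval x q ≠ 0 := fun h0 =>
      hq0 (transcendental_iff_injective.mp hx (by rw [h0, map_zero]))
    rw [div_eq_iff hq2]
    exact h.symm

variable [IsAlgClosed K]

theorem finiteDimensional_rat (hx : IsFF K x)
    (halg : ∀ a : RatFunc K, algebraMap (RatFunc K) F a = evalRat hx.transcendental a) :
    FiniteDimensional (RatFunc K) F := by
  have hfin : FiniteDimensional K⟮x⟯ F := hx.finite
  have hxx : x ∈ K⟮x⟯ := mem_adjoin_simple_self K x
  refine Module.Finite.of_equiv_equiv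
    (ratEquivAdjoin hx.transcendental hxx (evalRat_X hx.transcendental)).symm (RingEquiv.refl F) ?_
  ext a
  change algebraMap (RatFunc K) F
    ((ratEquivAdjoin hx.transcendental hxx (evalRat_X hx.transcendental)).symm a) = (a : F)
  rw [halg, evalRat_ratEquivAdjoin_symm]

theorem isDedekindDomain_ETop (hx : IsFF K x) (hsep : Algebra.IsSeparable K⟮x⟯ F)
    (halg : ∀ a : RatFunc K, algebraMap (RatFunc K) F a = evalRat hx.transcendental a) :
    IsDedekindDomain (ETop K F) := by
  haveI := (isDiscreteValuationRing_top (K := K)).1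
  haveI := finiteDimensional_rat hx halg
  haveI := DualChart.isSeparable_rat hx.transcendental halg hsep
  exact integralClosure.isDedekindDomain (DjTop K) (RatFunc K) F

theorem moduleFinite_ETop (hx : IsFF K x) (hsep : Algebra.IsSeparable K⟮x⟯ F)
    (halg : ∀ a : RatFunc K, algebraMap (RatFunc K) F a = evalRat hx.transcendental a) :
    Module.Finite (DjTop K) (ETop K F) := by
  haveI := (isDiscreteValuationRing_top (K := K)).1
  haveI := finiteDimensional_rat hx halg
  haveI := DualChart.isSeparable_rat hx.transcendental halg hsep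
  exact IsIntegralClosure.finite (DjTop K) (RatFunc K) F (ETop K F)

theorem isFractionRing_ETop (hx : IsFF K x)
    (halg : ∀ a : RatFunc K, algebraMap (RatFunc K) F a = evalRat hx.transcendental a) :
    IsFractionRing (ETop K F) F := by
  haveI := finiteDimensional_rat hx halg
  exact integralClosure.isFractionRing_of_finite_extension (RatFunc K) F

/-- **the sum of the different exponents of the chart `discRing ⊤ ⊆ integralClosure` is the sum of
`Defs.diffExp` over the places above `x = 0`** -/
theorem finsum_diffExpAt_ETop (hx : IsFF K x) (hsep : Algebra.IsSeparable K⟮x⟯ F)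
    (halg : ∀ a : RatFunc K, algebraMap (RatFunc K) F a = evalRat hx.transcendental a) :
    haveI := isDedekindDomain_ETop hx hsep halg
    haveI := isTorsionFree_ETop (K := K) (F := F)
    ∑ᶠ Q : HeightOneSpectrum (ETop K F), Defs.diffExpAt (DjTop K) Q =
      ∑ Q ∈ FibreSep.zeros hx hsep 0, Defs.diffExp hx hsep Q := by
  haveI := isDedekindDomain_ETop hx hsep halg
  haveI := isTorsionFree_ETop (K := K) (F := F)
  exact finsum_diffExpAt_of_isIntegralClosure (E' := ETop K F) hx hsep 0
    algebraMap_DjTop_injective (mem_range_DjTop_iff hx.transcendental halg)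

/-- pointwise form: the primes of the chart are the places above `x = 0`, with the same different
exponents -/
theorem exists_equiv_diffExpAt_ETop (hx : IsFF K x) (hsep : Algebra.IsSeparable K⟮x⟯ F)
    (halg : ∀ a : RatFunc K, algebraMap (RatFunc K) F a = evalRat hx.transcendental a) :
    haveI := isDedekindDomain_ETop hx hsep halg
    haveI := isTorsionFree_ETop (K := K) (F := F)
    ∃ φ : HeightOneSpectrum (ETop K F) ≃ {Q : Place K F // Q ∈ FibreSep.zeros hx hsep 0},
      ∀ Q' : HeightOneSpectrum (ETop K F),
        Defs.diffExpAt (DjTop K) Q' = Defs.diffExp hx hsep (φ Q') := by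
  haveI := isDedekindDomain_ETop hx hsep halg
  haveI := isTorsionFree_ETop (K := K) (F := F)
  exact exists_equiv_diffExpAt_of_isIntegralClosure (E' := ETop K F) hx hsep 0
    algebraMap_DjTop_injective (mem_range_DjTop_iff hx.transcendental halg)

end Chart

end Fermat.Agent.S18.C.DiscRingChart
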