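import Mathlib
import Fermat.Agent.S18.A.Defs

/-!
# PROJECT H (S18), block C4: the abstract tower count (Dedekind language)

Presentation-independent core of the comparison of different exponents through the auxiliary
Galois cover (lead's C4/C5).  Everything is stated for Dedekind domains `A ⊆ B ⊆ C` (and a second
tower `A ⊆ M ⊆ C`) with `Defs.diffExpAt` as the different exponent.

* `expAt I P`, `emultiplicity_eq_expAt`, `expAt_mul`, `pow_dvd_iff_le_expAt`,
  `expAt_eq_zero_iff`, `expAt_map` (`= e(P/B) * expAt I (P.under B)`);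
* `above p C : Finset (HeightOneSpectrum C)`, `mem_above`, `sum_primesOver_eq`,
  `sum_ramificationIdx_mul_inertiaDeg` (`∑_{P | Q} e f = [C : B]`);
* `diffExpAt_tower` : `d_P(C/A) = e(P/B) * d_{P ∩ B}(B/A) + d_P(C/B)`;
* `sum_diffExpAt_tower` : `∑_{P | p} d_P(C/A) = [C:B] ∑_{Q | p} d_Q(B/A) + ∑_{P | p} d_P(C/B)`
  when all residue degrees of `C/B` above `p` are one;
* `diffExpAt_eq_zero_iff`, `diffExpAt_eq_of_isUnramifiedAt`;
* `inertiaDeg_eq_one_of_forall_exists`;
* `sum_sum_filter_comm` (the double count `∑_P ∑_{g ∈ Stab P} = ∑_g ∑_{P ∈ Fix g}`);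
* `tower_count`, `two_tower_count` :
  `[C:B] ∑_{Q | p} d_Q(B/A) + ∑_{g ∈ T} ∑_{P | p, g fixes P} i_g(P) = [C:M] ∑_{m | p} d_m(M/A)`
  from Hilbert's formula for `C/B` above `p` and unramifiedness of `C/M` above `p`.
-/

set_option autoImplicit false
set_option linter.unusedSectionVars false

open IsDedekindDomain UniqueFactorizationMonoid

namespace Fermat.Agent.S18.C.TowerCount

open Fermat.Agent.S18.A

section Exp

variable {C : Type*} [CommRing C] [IsDedekindDomain C]

/-- exponent of the prime `P` in the ideal `I` -/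
noncomputable def expAt (I : Ideal C) (P : HeightOneSpectrum C) : ℕ :=
  (Associates.mk P.asIdeal).count (Associates.mk I).factors

theorem emultiplicity_eq_expAt {I : Ideal C} (hI : I ≠ ⊥) (P : HeightOneSpectrum C) :
    emultiplicity P.asIdeal I = expAt I P := by
  rw [expAt, Ideal.count_associates_factors_eq hI P.isPrime P.ne_bot,
    emultiplicity_eq_count_normalizedFactors P.irreducible hI, normalize_eq]

theorem expAt_mul {I J : Ideal C} (hI : I ≠ ⊥) (hJ : J ≠ ⊥) (P : HeightOneSpectrum C) :
    expAt (I * J) P = expAt I P + expAt J P := by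
  have h := emultiplicity_mul (a := I) (b := J) P.prime
  rw [emultiplicity_eq_expAt (mul_ne_zero hI hJ), emultiplicity_eq_expAt hI,
    emultiplicity_eq_expAt hJ] at h
  exact_mod_cast h

theorem pow_dvd_iff_le_expAt {I : Ideal C} (hI : I ≠ ⊥) (P : HeightOneSpectrum C) (n : ℕ) :
    P.asIdeal ^ n ∣ I ↔ n ≤ expAt I P := by
  rw [pow_dvd_iff_le_emultiplicity, emultiplicity_eq_expAt hI]
  exact_mod_cast Iff.rfl

theorem expAt_eq_zero_iff {I : Ideal C} (hI : I ≠ ⊥) (P : HeightOneSpectrum C) :
    expAt I P = 0 ↔ ¬ P.asIdeal ∣ I := by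
  have := pow_dvd_iff_le_expAt hI P 1
  rw [pow_one] at this
  rw [this]
  omega

end Exp

section Map

variable {B C : Type*} [CommRing B] [CommRing C] [IsDedekindDomain B] [IsDedekindDomain C]
  [Algebra B C] [Module.IsTorsionFree B C] [Algebra.IsIntegral B C]

/-- exponent of `P` in the extension of an ideal of `B`: ramification index times the exponent of
the prime below. -/
theorem expAt_map {I : Ideal B} (hI : I ≠ ⊥) (P : HeightOneSpectrum C) :
    expAt (I.map (algebraMap B C)) P =
      P.asIdeal.ramificationIdx B * expAt I (P.under B) := by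
  have hover : P.asIdeal.LiesOver (P.under B).asIdeal := ⟨rfl⟩
  have hinj : FaithfulSMul B C := inferInstance
  have h := Ideal.IsDedekindDomain.emultiplicity_map_eq_ramificationIdx'_mul (S := C) hI
    (P.under B).irreducible P.irreducible P.ne_bot
  have hmap : I.map (algebraMap B C) ≠ ⊥ := Ideal.map_ne_bot_of_ne_bot hI
  rw [emultiplicity_eq_expAt hmap, emultiplicity_eq_expAt hI,
    Ideal.ramificationIdx'_eq_ramificationIdx (P.under B).asIdeal P.asIdeal (P.under B).ne_bot] at h
  exact_mod_cast h

end Map

section Above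

variable {A : Type*} [CommRing A] [IsDomain A] (p : Ideal A)
  (C : Type*) [CommRing C] [IsDedekindDomain C] [Algebra A C] [Module.IsTorsionFree A C]
  [Algebra.IsIntegral A C]

theorem finite_above (hp : p.IsMaximal) :
    {P : HeightOneSpectrum C | P.asIdeal.under A = p}.Finite := by
  have hfin := IsDedekindDomain.primesOver_finite p C
  refine Set.Finite.of_finite_image (f := fun P : HeightOneSpectrum C => P.asIdeal)
    (hfin.subset ?_) ?_
  · rintro _ ⟨P, hP, rfl⟩
    exact ⟨P.isPrime, ⟨Eq.symm hP⟩⟩
  · intro P _ P' _ h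
    exact HeightOneSpectrum.ext h

open Classical in
/-- the primes of `C` above the maximal ideal `p` of `A` -/
noncomputable def above : Finset (HeightOneSpectrum C) :=
  if h : p.IsMaximal then (finite_above p C h).toFinset else ∅

variable {p C}

theorem mem_above [hp : p.IsMaximal] {P : HeightOneSpectrum C} :
    P ∈ above p C ↔ P.asIdeal.under A = p := by
  rw [above, dif_pos hp]
  simp

variable (p C)

/-- sums over the `Fintype` `p.primesOver C` are sums over `above p C` -/
theorem sum_primesOver_eq [hp : p.IsMaximal] (hp0 : p ≠ ⊥) [Fintype (p.primesOver C)]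
    (f : Ideal C → ℕ) :
    ∑ q : p.primesOver C, f q.1 = ∑ P ∈ above p C, f P.asIdeal := by
  symm
  refine Finset.sum_bij (fun P hP => ⟨P.asIdeal, P.isPrime, ⟨(mem_above.mp hP).symm⟩⟩)
    (fun _ _ => Finset.mem_univ _) ?_ ?_ (fun _ _ => rfl)
  · intro P _ P' _ h
    exact HeightOneSpectrum.ext (congrArg Subtype.val h)
  · rintro ⟨q, hq, hqp⟩ _
    have hq0 : q ≠ ⊥ := by
      rintro rfl
      apply hp0
      have := hqp.over
      rw [this]
      exact Ideal.under_bot A C
    exact ⟨⟨q, hq, hq0⟩, mem_above.mpr hqp.over.symm, rfl⟩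

end Above

section Sum

variable {B : Type*} [CommRing B] [IsDedekindDomain B]
  (C : Type*) [CommRing C] [IsDedekindDomain C] [Algebra B C] [Module.IsTorsionFree B C]
  [Module.Finite B C]

/-- `∑ e f = n` over the primes above `Q`. -/
theorem sum_ramificationIdx_mul_inertiaDeg (Q : HeightOneSpectrum B) :
    ∑ P ∈ above Q.asIdeal C, P.asIdeal.ramificationIdx B * P.asIdeal.inertiaDeg B =
      Module.finrank B C := by
  have hmax : Q.asIdeal.IsMaximal := Q.isMaximal
  have := Ideal.sum_ramification_inertia_eq_finrank Q.asIdeal C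
  rw [← this]
  exact (sum_primesOver_eq Q.asIdeal C Q.ne_bot
    (fun q => q.ramificationIdx B * q.inertiaDeg B)).symm

end Sum

section Tower

attribute [local instance] FractionRing.liftAlgebra FractionRing.isScalarTower_liftAlgebra

variable (A B : Type*) {C : Type*} [CommRing A] [CommRing B] [CommRing C]
  [Algebra A B] [Algebra B C] [Algebra A C] [IsScalarTower A B C]
  [IsDomain A] [IsIntegrallyClosed A] [IsDedekindDomain B] [IsDedekindDomain C]
  [Module.IsTorsionFree A B] [Module.IsTorsionFree A C] [Module.IsTorsionFree B C]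
  [Module.Finite A B] [Module.Finite A C] [Module.Finite B C]
  [Algebra.IsSeparable (FractionRing A) (FractionRing C)]

theorem diffExpAt_eq_expAt (P : HeightOneSpectrum C) :
    Defs.diffExpAt A P = expAt (differentIdeal A C) P := rfl

/-- **Transitivity of the different, exponent form.** -/
theorem diffExpAt_tower (P : HeightOneSpectrum C) :
    Defs.diffExpAt A P =
      P.asIdeal.ramificationIdx B * Defs.diffExpAt A (P.under B) + Defs.diffExpAt B P := by
  have hsepBC : Algebra.IsSeparable (FractionRing B) (FractionRing C) :=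
    Algebra.isSeparable_tower_top_of_isSeparable (FractionRing A) _ _
  have hsepAB : Algebra.IsSeparable (FractionRing A) (FractionRing B) :=
    Algebra.isSeparable_tower_bot_of_isSeparable _ _ (FractionRing C)
  have h1 : differentIdeal B C ≠ ⊥ := differentIdeal_ne_bot
  have h2 : differentIdeal A B ≠ ⊥ := differentIdeal_ne_bot
  have h3 : (differentIdeal A B).map (algebraMap B C) ≠ ⊥ := Ideal.map_ne_bot_of_ne_bot h2
  rw [diffExpAt_eq_expAt, differentIdeal_eq_differentIdeal_mul_differentIdeal A B C,
    expAt_mul h1 h3, expAt_map h2, add_comm]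
  rfl

end Tower


section SumTower

attribute [local instance] FractionRing.liftAlgebra FractionRing.isScalarTower_liftAlgebra

variable (A B : Type*) {C : Type*} [CommRing A] [CommRing B] [CommRing C]
  [Algebra A B] [Algebra B C] [Algebra A C] [IsScalarTower A B C]
  [IsDomain A] [IsIntegrallyClosed A] [IsDedekindDomain B] [IsDedekindDomain C]
  [Module.IsTorsionFree A B] [Module.IsTorsionFree A C] [Module.IsTorsionFree B C]
  [Module.Finite A B] [Module.Finite A C] [Module.Finite B C]
  [Algebra.IsSeparable (FractionRing A) (FractionRing C)]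

theorem under_mem_above {p : Ideal A} [p.IsMaximal] {P : HeightOneSpectrum C}
    (hP : P ∈ above p C) : P.under B ∈ above p B := by
  rw [mem_above] at hP ⊢
  rw [← hP]
  exact Ideal.under_under (A := A) (B := B) P.asIdeal

open Classical in
theorem filter_under_eq {p : Ideal A} [p.IsMaximal] {Q : HeightOneSpectrum B}
    (hQ : Q ∈ above p B) :
    (above p C).filter (fun P => P.under B = Q) = above Q.asIdeal C := by
  have := Q.isMaximal
  ext P
  rw [Finset.mem_filter, mem_above, mem_above]
  constructor
  · rintro ⟨_, h⟩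
    rw [← h]
    rfl
  · intro h
    refine ⟨?_, HeightOneSpectrum.ext h⟩
    rw [← Ideal.under_under (A := A) (B := B) P.asIdeal, h]
    exact mem_above.mp hQ

/-- **The tower formula summed over the primes above `p`** (all residue degrees of `C/B` above
`p` equal to one). -/
theorem sum_diffExpAt_tower (p : Ideal A) [p.IsMaximal]
    (hf : ∀ P ∈ above p C, P.asIdeal.inertiaDeg B = 1) :
    ∑ P ∈ above p C, Defs.diffExpAt A P =
      Module.finrank B C * ∑ Q ∈ above p B, Defs.diffExpAt A Q +
        ∑ P ∈ above p C, Defs.diffExpAt B P := by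
  classical
  have h1 : ∀ P ∈ above p C, Defs.diffExpAt A P =
      P.asIdeal.ramificationIdx B * Defs.diffExpAt A (P.under B) + Defs.diffExpAt B P :=
    fun P _ => diffExpAt_tower A B P
  rw [Finset.sum_congr rfl h1, Finset.sum_add_distrib]
  congr 1
  rw [← Finset.sum_fiberwise_of_maps_to (g := fun P : HeightOneSpectrum C => P.under B)
    (fun P hP => under_mem_above A B hP), Finset.mul_sum]
  refine Finset.sum_congr rfl fun Q hQ => ?_
  rw [filter_under_eq A B hQ]
  have h2 : ∀ P ∈ above Q.asIdeal C,
      P.asIdeal.ramificationIdx B * Defs.diffExpAt A (P.under B) =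
        (P.asIdeal.ramificationIdx B * P.asIdeal.inertiaDeg B) * Defs.diffExpAt A Q := by
    intro P hP
    have hP' : P ∈ above p C := by
      rw [← filter_under_eq A B hQ] at hP
      exact (Finset.mem_filter.mp hP).1
    have hPQ : P.under B = Q := by
      have := Q.isMaximal
      exact HeightOneSpectrum.ext (mem_above.mp hP)
    rw [hf P hP', mul_one, hPQ]
  rw [Finset.sum_congr rfl h2, ← Finset.sum_mul, sum_ramificationIdx_mul_inertiaDeg]

end SumTower

section Zero

attribute [local instance] FractionRing.liftAlgebra FractionRing.isScalarTower_liftAlgebra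

variable (B : Type*) {C : Type*} [CommRing B] [CommRing C] [Algebra B C]
  [IsDedekindDomain B] [IsDedekindDomain C] [Module.IsTorsionFree B C] [Module.Finite B C]
  [Algebra.IsSeparable (FractionRing B) (FractionRing C)]

/-- the different exponent vanishes exactly at the unramified primes -/
theorem diffExpAt_eq_zero_iff (P : HeightOneSpectrum C) :
    Defs.diffExpAt B P = 0 ↔ Algebra.IsUnramifiedAt B P.asIdeal := by
  have h1 : differentIdeal B C ≠ ⊥ := differentIdeal_ne_bot
  have := P.isPrime
  have h2 : Defs.diffExpAt B P = expAt (differentIdeal B C) P := rfl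
  rw [h2, expAt_eq_zero_iff h1, not_dvd_differentIdeal_iff]

end Zero

section Unramified

attribute [local instance] FractionRing.liftAlgebra FractionRing.isScalarTower_liftAlgebra

variable (A B : Type*) {C : Type*} [CommRing A] [CommRing B] [CommRing C]
  [Algebra A B] [Algebra B C] [Algebra A C] [IsScalarTower A B C]
  [IsDomain A] [IsIntegrallyClosed A] [IsDedekindDomain B] [IsDedekindDomain C]
  [Module.IsTorsionFree A B] [Module.IsTorsionFree A C] [Module.IsTorsionFree B C]
  [Module.Finite A B] [Module.Finite A C] [Module.Finite B C]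
  [Algebra.IsSeparable (FractionRing A) (FractionRing C)]

/-- **Unramified upper step**: the different exponent over `A` is the one of the prime below. -/
theorem diffExpAt_eq_of_isUnramifiedAt (P : HeightOneSpectrum C)
    (h : Algebra.IsUnramifiedAt B P.asIdeal) :
    Defs.diffExpAt A P = Defs.diffExpAt A (P.under B) := by
  have := P.isPrime
  have hsepBC : Algebra.IsSeparable (FractionRing B) (FractionRing C) :=
    Algebra.isSeparable_tower_top_of_isSeparable (FractionRing A) _ _
  rw [diffExpAt_tower A B P, (diffExpAt_eq_zero_iff B P).mpr h,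
    Ideal.ramificationIdx_eq_one_of_isUnramifiedAt, one_mul, add_zero]

end Unramified

section Residue

variable (B : Type*) {C : Type*} [CommRing B] [CommRing C] [Algebra B C]
  [IsDedekindDomain B] [IsDedekindDomain C] [Module.IsTorsionFree B C] [Algebra.IsIntegral B C]

/-- trivial residue field extension (every element of `C` is congruent mod `P` to an element of
`B`) gives inertia degree one -/
theorem inertiaDeg_eq_one_of_forall_exists (P : HeightOneSpectrum C)
    (h : ∀ c : C, ∃ b : B, c - algebraMap B C b ∈ P.asIdeal) :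
    P.asIdeal.inertiaDeg B = 1 := by
  have hover : P.asIdeal.LiesOver (P.under B).asIdeal := ⟨rfl⟩
  have := (P.under B).isMaximal
  have := P.isMaximal
  rw [Ideal.inertiaDeg_eq_of_isMaximal (P.under B).asIdeal P.asIdeal]
  have hsurj : Function.Surjective
      (algebraMap (B ⧸ (P.under B).asIdeal) (C ⧸ P.asIdeal)) := by
    intro x
    obtain ⟨c, rfl⟩ := Ideal.Quotient.mk_surjective x
    obtain ⟨b, hb⟩ := h c
    refine ⟨Ideal.Quotient.mk _ b, ?_⟩
    rw [Ideal.Quotient.algebraMap_mk_of_liesOver, eq_comm, Ideal.Quotient.eq]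
    exact hb
  have hle : Module.finrank (B ⧸ (P.under B).asIdeal) (C ⧸ P.asIdeal) ≤ 1 := by
    have h2 := LinearMap.finrank_le_finrank_of_surjective
      (f := Algebra.linearMap (B ⧸ (P.under B).asIdeal) (C ⧸ P.asIdeal)) hsurj
    rwa [Module.finrank_self] at h2
  have hfin : Module.Finite (B ⧸ (P.under B).asIdeal) (C ⧸ P.asIdeal) :=
    Module.Finite.of_surjective (Algebra.linearMap _ _) hsurj
  have hpos : 0 < Module.finrank (B ⧸ (P.under B).asIdeal) (C ⧸ P.asIdeal) :=
    Module.finrank_pos
  omega

end Residue

section DoubleCount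

variable {H X : Type*}

/-- the double count `∑_P ∑_{g ∈ Stab P} = ∑_g ∑_{P ∈ Fix g}` -/
theorem sum_sum_filter_comm (S : Finset X) (T : Finset H) (fix : H → X → Prop)
    [∀ g P, Decidable (fix g P)] (i : H → X → ℕ) :
    ∑ P ∈ S, ∑ g ∈ T.filter (fun g => fix g P), i g P =
      ∑ g ∈ T, ∑ P ∈ S.filter (fun P => fix g P), i g P := by
  simp_rw [Finset.sum_filter]
  exact Finset.sum_comm

end DoubleCount

section Count

attribute [local instance] FractionRing.liftAlgebra FractionRing.isScalarTower_liftAlgebra

variable (A B : Type*) {C : Type*} [CommRing A] [CommRing B] [CommRing C]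
  [Algebra A B] [Algebra B C] [Algebra A C] [IsScalarTower A B C]
  [IsDomain A] [IsIntegrallyClosed A] [IsDedekindDomain B] [IsDedekindDomain C]
  [Module.IsTorsionFree A B] [Module.IsTorsionFree A C] [Module.IsTorsionFree B C]
  [Module.Finite A B] [Module.Finite A C] [Module.Finite B C]
  [Algebra.IsSeparable (FractionRing A) (FractionRing C)]

/-- **The tower count (abstract form of C4).**  `hHilb` is Hilbert's formula for the upper step
`C/B` (`T` = the non-identity elements of the Galois group, `fix g P` = "`g` fixes `P`"),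
`hd0` computes the different exponents of `C/A` (e.g. through a second, unramified tower). -/
theorem tower_count {H : Type*} (p : Ideal A) [p.IsMaximal]
    (hf : ∀ P ∈ above p C, P.asIdeal.inertiaDeg B = 1)
    (T : Finset H) (fix : H → HeightOneSpectrum C → Prop) [∀ g P, Decidable (fix g P)]
    (i : H → HeightOneSpectrum C → ℕ) (d0 : HeightOneSpectrum C → ℕ)
    (hHilb : ∀ P ∈ above p C, Defs.diffExpAt B P = ∑ g ∈ T.filter (fun g => fix g P), i g P)
    (hd0 : ∀ P ∈ above p C, Defs.diffExpAt A P = d0 P) :
    Module.finrank B C * ∑ Q ∈ above p B, Defs.diffExpAt A Q +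
        ∑ g ∈ T, ∑ P ∈ (above p C).filter (fun P => fix g P), i g P =
      ∑ P ∈ above p C, d0 P := by
  rw [← Finset.sum_congr rfl hd0, sum_diffExpAt_tower A B p hf, Finset.sum_congr rfl hHilb,
    sum_sum_filter_comm]

end Count

section TwoTowers

attribute [local instance] FractionRing.liftAlgebra FractionRing.isScalarTower_liftAlgebra

variable (A B M : Type*) {C : Type*} [CommRing A] [CommRing B] [CommRing M] [CommRing C]
  [Algebra A B] [Algebra B C] [Algebra A C] [IsScalarTower A B C]
  [Algebra A M] [Algebra M C] [IsScalarTower A M C]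
  [IsDomain A] [IsIntegrallyClosed A] [IsDedekindDomain B] [IsDedekindDomain M]
  [IsDedekindDomain C]
  [Module.IsTorsionFree A B] [Module.IsTorsionFree A C] [Module.IsTorsionFree B C]
  [Module.IsTorsionFree A M] [Module.IsTorsionFree M C]
  [Module.Finite A B] [Module.Finite A C] [Module.Finite B C]
  [Module.Finite A M] [Module.Finite M C]
  [Algebra.IsSeparable (FractionRing A) (FractionRing C)]

/-- **The two-tower count**: `C/B` Galois-like with Hilbert's formula `hHilb`, `C/M` unramified
above `p` with trivial residue extensions: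
`[C:B] ∑_{Q | p} d_Q(B/A) + ∑_g ∑_{P ∈ Fix g} i_g(P) = [C:M] ∑_{m | p} d_m(M/A)`. -/
theorem two_tower_count {H : Type*} (p : Ideal A) [p.IsMaximal]
    (hfB : ∀ P ∈ above p C, P.asIdeal.inertiaDeg B = 1)
    (hfM : ∀ P ∈ above p C, P.asIdeal.inertiaDeg M = 1)
    (hunr : ∀ P ∈ above p C, Algebra.IsUnramifiedAt M P.asIdeal)
    (T : Finset H) (fix : H → HeightOneSpectrum C → Prop) [∀ g P, Decidable (fix g P)]
    (i : H → HeightOneSpectrum C → ℕ)
    (hHilb : ∀ P ∈ above p C, Defs.diffExpAt B P = ∑ g ∈ T.filter (fun g => fix g P), i g P) :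
    Module.finrank B C * ∑ Q ∈ above p B, Defs.diffExpAt A Q +
        ∑ g ∈ T, ∑ P ∈ (above p C).filter (fun P => fix g P), i g P =
      Module.finrank M C * ∑ m ∈ above p M, Defs.diffExpAt A m := by
  rw [tower_count A B p hfB T fix i (fun P => Defs.diffExpAt A P) hHilb (fun _ _ => rfl)]
  have h := sum_diffExpAt_tower A M (C := C) p hfM
  rw [h]
  have hsepMC : Algebra.IsSeparable (FractionRing M) (FractionRing C) :=
    Algebra.isSeparable_tower_top_of_isSeparable (FractionRing A) _ _
  have h0 : ∑ P ∈ above p C, Defs.diffExpAt M P = 0 :=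
    Finset.sum_eq_zero fun P hP => (diffExpAt_eq_zero_iff M P).mpr (hunr P hP)
  rw [h0, add_zero]

end TwoTowers

end Fermat.Agent.S18.C.TowerCount
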