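import Mathlib
import Fermat.Agent.S18.Purity.DiscUnit
import Fermat.Agent.S18.C.Specialize
import Fermat.Agent.S18.C.TowerCount

/-!
# PROJECT H (S18), block C8a, part 1: finite étale algebras over a DVR, component by component

`R` a discrete valuation ring, `S` a finite free `R`-algebra with a basis `b` of unit discriminant
(`hd : IsUnit (Algebra.discr R b)`).  `fibreIdeal R S = 𝔪_R S`.

* `mem_fibreIdeal_of_pow_mem` : `𝔪 S` is a radical ideal (`R` any local ring);
* `fibreIdeal_le_of_isMaximal`, `liesOver_of_isMaximal`, `finite_isMaximal`,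
  `exists_not_mem_mul_mem` : for a maximal ideal `x` and `y ∈ x` there is `u ∉ x` with `u y ∈ 𝔪 S`;
* `isDomain_of_maximalIdeal_eq_span` : a noetherian local ring whose maximal ideal is generated by
  a non-zero-divisor is a domain;
* `isReduced`, `algebraMap_notMem_of_mem_minimalPrimes`, `algebraMap_quotient_injective`;
* `isDomain_localization`, `eq_ker_of_mem_minimalPrimes`, `minimalPrimes_eq_of_le` : every maximal
  ideal contains exactly one minimal prime;
* `isDedekindDomain_quotient` : the components `S ⧸ 𝔮` (`𝔮` a minimal prime) are Dedekind domains;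
* `intValuation_uniformizer`, `intValuation_algebraMap` : a uniformiser of `R` is a uniformiser at
  every prime of every component; `ramificationIdx_eq_one`, `exists_mul_eq_map`,
  `diffExpAt_eq_zero` : the components are unramified over `R`.
-/

set_option autoImplicit false
set_option linter.unusedSectionVars false
set_option linter.style.haveILetI false

namespace Fermat.Agent.S18.C.FinEtLocal

open scoped TensorProduct
open IsLocalRing Module IsDedekindDomain HeightOneSpectrum WithZero
open Fermat.Agent.S18.A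

section Radical

variable {R : Type*} [CommRing R] [IsLocalRing R]
variable {S : Type*} [CommRing S] [Algebra R S]
variable {ι : Type*} [Fintype ι] [DecidableEq ι] (b : Basis ι R S)

/-- the special fibre ideal `𝔪 S` -/
abbrev fibreIdeal (R S : Type*) [CommRing R] [IsLocalRing R] [CommRing S] [Algebra R S] : Ideal S :=
  (maximalIdeal R).map (algebraMap R S)

include b in
/-- `1 ⊗ s = 0` in `κ ⊗ S` iff `s ∈ 𝔪 S` -/
theorem one_tmul_eq_zero_iff (s : S) :
    (1 : ResidueField R) ⊗ₜ[R] s = 0 ↔ s ∈ fibreIdeal R S := by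
  constructor
  · intro h
    have h1 := congrArg (Algebra.TensorProduct.basis (ResidueField R) b).repr h
    rw [Algebra.TensorProduct.basis_repr_tmul, map_zero, one_smul] at h1
    have h2 : ∀ i, b.repr s i ∈ maximalIdeal R := by
      intro i
      have := DFunLike.congr_fun h1 i
      rw [Finsupp.mapRange_apply, Finsupp.zero_apply] at this
      exact (IsLocalRing.residue_eq_zero_iff _).mp this
    rw [← b.sum_repr s]
    refine Ideal.sum_mem _ fun i _ => ?_
    rw [Algebra.smul_def]
    exact Ideal.mul_mem_right _ _ (Ideal.mem_map_of_mem _ (h2 i))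
  · intro h
    refine Submodule.span_induction (p := fun s _ => (1 : ResidueField R) ⊗ₜ[R] s = 0)
      ?_ ?_ ?_ ?_ h
    · rintro _ ⟨r, hr, rfl⟩
      rw [Algebra.algebraMap_eq_smul_one, ← TensorProduct.smul_tmul, Algebra.smul_def, mul_one]
      have : algebraMap R (ResidueField R) r = 0 := (IsLocalRing.residue_eq_zero_iff _).mpr hr
      rw [this, TensorProduct.zero_tmul]
    · exact TensorProduct.tmul_zero _ _
    · intro x y _ _ hx hy
      rw [TensorProduct.tmul_add, hx, hy, add_zero]
    · intro a x _ hx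
      have : (1 : ResidueField R) ⊗ₜ[R] (a • x) =
          ((1 : ResidueField R) ⊗ₜ[R] a) * ((1 : ResidueField R) ⊗ₜ[R] x) := by
        rw [Algebra.TensorProduct.tmul_mul_tmul, mul_one, smul_eq_mul]
      rw [this, hx, mul_zero]

include b in
/-- **`𝔪 S` is a radical ideal** when the discriminant is a unit. -/
theorem mem_fibreIdeal_of_pow_mem (hd : IsUnit (Algebra.discr R b)) {s : S} {m : ℕ}
    (hs : s ^ m ∈ fibreIdeal R S) : s ∈ fibreIdeal R S := by
  haveI : Module.Finite (ResidueField R) (ResidueField R ⊗[R] S) :=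
    Module.Finite.of_basis (Algebra.TensorProduct.basis (ResidueField R) b)
  have hdne : Algebra.discr (ResidueField R) (Algebra.TensorProduct.basis (ResidueField R) b) ≠ 0 := by
    rw [Specialize.discr_baseChange]
    exact (hd.map (algebraMap R (ResidueField R))).ne_zero
  haveI : IsReduced (ResidueField R ⊗[R] S) := Purity.isReduced_of_discr_ne_zero _ hdne
  rw [← one_tmul_eq_zero_iff b] at hs ⊢
  have h1 : ((1 : ResidueField R) ⊗ₜ[R] s) ^ m = 0 := by
    rw [Algebra.TensorProduct.tmul_pow, one_pow, hs]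
  exact IsNilpotent.eq_zero ⟨m, h1⟩

end Radical


section Maximal

variable {R : Type*} [CommRing R] [IsLocalRing R]
variable {S : Type*} [CommRing S] [Algebra R S] [Module.Finite R S]

/-- every maximal ideal of a finite algebra over a local ring contains `𝔪 S` -/
theorem fibreIdeal_le_of_isMaximal (x : Ideal S) [hx : x.IsMaximal] : fibreIdeal R S ≤ x := by
  have h1 : (x.comap (algebraMap R S)).IsMaximal :=
    Ideal.isMaximal_comap_of_isIntegral_of_isMaximal (R := R) x
  rw [fibreIdeal, Ideal.map_le_iff_le_comap, IsLocalRing.eq_maximalIdeal h1]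

/-- a maximal ideal of `S` lies over the maximal ideal of `R` -/
theorem liesOver_of_isMaximal (x : Ideal S) [hx : x.IsMaximal] : x.LiesOver (maximalIdeal R) := by
  have h1 : (x.comap (algebraMap R S)).IsMaximal :=
    Ideal.isMaximal_comap_of_isIntegral_of_isMaximal (R := R) x
  exact ⟨(IsLocalRing.eq_maximalIdeal h1).symm⟩

/-- there are finitely many maximal ideals -/
theorem finite_isMaximal (R S : Type*) [CommRing R] [IsLocalRing R] [CommRing S] [Algebra R S]
    [Module.Finite R S] : {x : Ideal S | x.IsMaximal}.Finite := by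
  refine (Algebra.QuasiFinite.finite_primesOver (R := R) (S := S) (maximalIdeal R)).subset ?_
  intro x (hx : x.IsMaximal)
  exact ⟨hx.isPrime, liesOver_of_isMaximal x⟩

variable (R) in
/-- an element lying in all maximal ideals has a power in `𝔪 S` -/
theorem exists_pow_mem_fibreIdeal {w : S} (hw : ∀ x : Ideal S, x.IsMaximal → w ∈ x) :
    ∃ m : ℕ, w ^ m ∈ fibreIdeal R S := by
  letI := Ideal.Quotient.field (maximalIdeal R)
  haveI : Module.Finite (R ⧸ maximalIdeal R) (S ⧸ fibreIdeal R S) :=
    Module.Finite.of_restrictScalars_finite R _ _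
  haveI : IsArtinianRing (S ⧸ fibreIdeal R S) :=
    IsArtinianRing.of_finite (R ⧸ maximalIdeal R) (S ⧸ fibreIdeal R S)
  have h1 : Ideal.Quotient.mk (fibreIdeal R S) w ∈ Ideal.jacobson (⊥ : Ideal (S ⧸ fibreIdeal R S)) := by
    rw [Ideal.jacobson, Ideal.mem_sInf]
    rintro J ⟨-, hJ⟩
    have : (J.comap (Ideal.Quotient.mk (fibreIdeal R S))).IsMaximal :=
      Ideal.comap_isMaximal_of_surjective _ Ideal.Quotient.mk_surjective
    exact hw _ this
  rw [IsArtinianRing.jacobson_eq_radical] at h1
  obtain ⟨m, hm⟩ := h1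
  refine ⟨m, ?_⟩
  rw [← map_pow, Ideal.mem_bot, Ideal.Quotient.eq_zero_iff_mem] at hm
  exact hm

/-- for `x` maximal there is `u ∉ x` lying in all other maximal ideals -/
theorem exists_not_mem_forall_mem (R : Type*) {S : Type*} [CommRing R] [IsLocalRing R] [CommRing S]
    [Algebra R S] [Module.Finite R S] (x : Ideal S) [hx : x.IsMaximal] :
    ∃ u : S, u ∉ x ∧ ∀ x' : Ideal S, x'.IsMaximal → x' ≠ x → u ∈ x' := by
  classical
  set M := (finite_isMaximal R S).toFinset with hM
  by_contra hcon
  push Not at hcon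
  have hle : ∏ x' ∈ M.erase x, x' ≤ x := by
    intro u hu
    by_contra hux
    obtain ⟨x', hx', hne, hu'⟩ := hcon u hux
    refine hu' (Ideal.prod_le_inf hu |> fun h => ?_)
    rw [Submodule.mem_finsetInf] at h
    exact h x' (Finset.mem_erase.mpr ⟨hne, (Set.Finite.mem_toFinset _).mpr hx'⟩)
  obtain ⟨x', hx'M, hx'le⟩ := (Ideal.IsPrime.prod_le hx.isPrime).mp hle
  rw [Finset.mem_erase, Set.Finite.mem_toFinset] at hx'M
  exact hx'M.1 (hx'M.2.eq_of_le hx.ne_top hx'le)

end Maximal

section Unramified

variable {R : Type*} [CommRing R] [IsLocalRing R]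
variable {S : Type*} [CommRing S] [Algebra R S] [Module.Finite R S]
variable {ι : Type*} [Fintype ι] [DecidableEq ι] (b : Basis ι R S)

include b in
/-- **(b)** every element of a maximal ideal `x` is, up to a factor outside `x`, in `𝔪 S` -/
theorem exists_not_mem_mul_mem (hd : IsUnit (Algebra.discr R b)) (x : Ideal S) [hx : x.IsMaximal]
    {y : S} (hy : y ∈ x) : ∃ u : S, u ∉ x ∧ u * y ∈ fibreIdeal R S := by
  obtain ⟨u, hux, hu⟩ := exists_not_mem_forall_mem R x
  refine ⟨u, hux, ?_⟩
  obtain ⟨m, hm⟩ := exists_pow_mem_fibreIdeal R (w := u * y) (fun x' hx' => by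
    by_cases h : x' = x
    · subst h; exact Ideal.mul_mem_left _ _ hy
    · exact Ideal.mul_mem_right _ _ (hu x' hx' h))
  exact mem_fibreIdeal_of_pow_mem b hd hm

end Unramified


section LocalDomain

/-- A noetherian local ring whose maximal ideal is generated by a non-zero-divisor is a domain. -/
theorem isDomain_of_maximalIdeal_eq_span {A : Type*} [CommRing A] [IsLocalRing A]
    [IsNoetherianRing A] {π : A} (hπ : π ∈ nonZeroDivisors A)
    (h : maximalIdeal A = Ideal.span {π}) : IsDomain A := by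
  have hkrull : ⨅ i : ℕ, maximalIdeal A ^ i = ⊥ :=
    Ideal.iInf_pow_eq_bot_of_isLocalRing _ (maximalIdeal.isMaximal A).ne_top
  -- every nonzero element is a unit times a power of `π`
  have key : ∀ a : A, a ≠ 0 → ∃ (n : ℕ) (u : A), IsUnit u ∧ a = π ^ n * u := by
    intro a ha
    have hex : ∃ i : ℕ, a ∉ maximalIdeal A ^ i := by
      by_contra hcon
      push Not at hcon
      apply ha
      have : a ∈ ⨅ i : ℕ, maximalIdeal A ^ i := by
        rw [Ideal.mem_iInf]; exact hcon
      rwa [hkrull, Ideal.mem_bot] at this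
    classical
    set n := Nat.find hex with hn
    have hn1 : a ∉ maximalIdeal A ^ n := Nat.find_spec hex
    have hn0 : n ≠ 0 := by
      intro h0
      rw [h0, pow_zero, Ideal.one_eq_top] at hn1
      exact hn1 Submodule.mem_top
    obtain ⟨m, hm⟩ := Nat.exists_eq_succ_of_ne_zero hn0
    have hm1 : a ∈ maximalIdeal A ^ m := by
      by_contra hcon
      have := Nat.find_min' hex hcon
      omega
    rw [h, Ideal.span_singleton_pow, Ideal.mem_span_singleton] at hm1
    obtain ⟨u, hu⟩ := hm1
    refine ⟨m, u, ?_, hu⟩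
    by_contra hunit
    have hum : u ∈ maximalIdeal A := (IsLocalRing.mem_maximalIdeal u).mpr hunit
    rw [h, Ideal.mem_span_singleton] at hum
    obtain ⟨w, hw⟩ := hum
    apply hn1
    rw [hm, h, Ideal.span_singleton_pow, Ideal.mem_span_singleton]
    exact ⟨w, by rw [hu, hw, pow_succ]; ring⟩
  haveI : NoZeroDivisors A := by
    refine ⟨fun {a b} hab => ?_⟩
    by_contra hcon
    push Not at hcon
    obtain ⟨n, u, hu, rfl⟩ := key a hcon.1
    obtain ⟨m, v, hv, rfl⟩ := key b hcon.2
    have h1 : π ^ (n + m) * (u * v) = 0 := by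
      rw [← hab, pow_add]; ring
    have h2 : π ^ (n + m) = 0 := (hu.mul hv).mul_left_eq_zero.mp h1
    have h3 : π ^ (n + m) ∈ nonZeroDivisors A := pow_mem hπ _
    rw [h2] at h3
    exact zero_notMem_nonZeroDivisors h3
  exact NoZeroDivisors.to_isDomain A

end LocalDomain


section LocalizationSpan

/-- if every element of the prime `x` is, up to a factor outside `x`, a multiple of `t ∈ x`, then
`t` generates the maximal ideal of the localisation at `x` -/
theorem maximalIdeal_localization_eq_span {S : Type*} [CommRing S] (x : Ideal S) [x.IsPrime]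
    {t : S} (ht : t ∈ x) (h : ∀ y ∈ x, ∃ u : S, u ∉ x ∧ u * y ∈ Ideal.span {t}) :
    maximalIdeal (Localization.AtPrime x) =
      Ideal.span {algebraMap S (Localization.AtPrime x) t} := by
  rw [← Localization.AtPrime.map_eq_maximalIdeal]
  apply le_antisymm
  · rw [Ideal.map_le_iff_le_comap]
    intro y hy
    obtain ⟨u, hu, huy⟩ := h y hy
    rw [Ideal.mem_span_singleton] at huy
    obtain ⟨c, hc⟩ := huy
    have hunit : IsUnit (algebraMap S (Localization.AtPrime x) u) :=
      IsLocalization.map_units (Localization.AtPrime x) (⟨u, hu⟩ : x.primeCompl)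
    rw [Ideal.mem_comap, Ideal.mem_span_singleton]
    have h1 : algebraMap S (Localization.AtPrime x) u * algebraMap S (Localization.AtPrime x) y =
        algebraMap S (Localization.AtPrime x) t * algebraMap S (Localization.AtPrime x) c := by
      rw [← map_mul, ← map_mul, hc]
    obtain ⟨v, hv⟩ := hunit.exists_left_inv
    refine ⟨v * algebraMap S (Localization.AtPrime x) c, ?_⟩
    calc algebraMap S (Localization.AtPrime x) y
        = (v * algebraMap S (Localization.AtPrime x) u) * algebraMap S (Localization.AtPrime x) y := by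
          rw [hv, one_mul]
      _ = v * (algebraMap S (Localization.AtPrime x) u * algebraMap S (Localization.AtPrime x) y) := by
          ring
      _ = _ := by rw [h1]; ring
  · rw [Ideal.span_singleton_le_iff_mem]
    exact Ideal.mem_map_of_mem _ ht

end LocalizationSpan

section Component

variable {R : Type*} [CommRing R] [IsDomain R] [IsDiscreteValuationRing R]
variable {S : Type*} [CommRing S] [Algebra R S] [Module.Finite R S]
variable {ι : Type*} [Fintype ι] [DecidableEq ι] (b : Basis ι R S)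

include b in
/-- `S` is reduced (discriminant nonzero over a domain) -/
theorem isReduced (hd : IsUnit (Algebra.discr R b)) : IsReduced S := by
  set K := FractionRing R
  haveI : Module.Finite K (K ⊗[R] S) :=
    Module.Finite.of_basis (Algebra.TensorProduct.basis K b)
  have hdne : Algebra.discr K (Algebra.TensorProduct.basis K b) ≠ 0 := by
    rw [Specialize.discr_baseChange]
    exact (hd.map (algebraMap R K)).ne_zero
  haveI : IsReduced (K ⊗[R] S) := Purity.isReduced_of_discr_ne_zero _ hdne
  refine ⟨fun s ⟨m, hm⟩ => ?_⟩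
  have h1 : ((1 : K) ⊗ₜ[R] s) ^ m = 0 := by
    rw [Algebra.TensorProduct.tmul_pow, one_pow, hm, TensorProduct.tmul_zero]
  have h2 : (1 : K) ⊗ₜ[R] s = 0 := IsNilpotent.eq_zero ⟨m, h1⟩
  have h3 := congrArg (Algebra.TensorProduct.basis K b).repr h2
  rw [Algebra.TensorProduct.basis_repr_tmul, map_zero, one_smul] at h3
  apply b.repr.injective
  rw [map_zero]
  ext i
  have := DFunLike.congr_fun h3 i
  rw [Finsupp.mapRange_apply, Finsupp.zero_apply] at this
  rw [Finsupp.zero_apply]
  exact (IsFractionRing.injective R K) (by rw [this, map_zero])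

include b in
/-- nonzero elements of `R` are non-zero-divisors on `S` -/
theorem algebraMap_mem_nonZeroDivisors {r : R} (hr : r ≠ 0) :
    algebraMap R S r ∈ nonZeroDivisors S := by
  haveI : Module.Free R S := Module.Free.of_basis b
  rw [mem_nonZeroDivisors_iff_right]
  intro s hs
  rw [mul_comm, ← Algebra.smul_def] at hs
  exact (smul_eq_zero.mp hs).resolve_left hr

include b in
/-- minimal primes of `S` do not meet `R ∖ 0` -/
theorem algebraMap_notMem_of_mem_minimalPrimes {𝔮 : Ideal S} (h𝔮 : 𝔮 ∈ minimalPrimes S) {r : R}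
    (hr : r ≠ 0) : algebraMap R S r ∉ 𝔮 := fun hmem =>
  Set.disjoint_left.mp (Ideal.disjoint_nonZeroDivisors_of_mem_minimalPrimes h𝔮) hmem
    (algebraMap_mem_nonZeroDivisors b hr)

include b in
theorem algebraMap_quotient_injective {𝔮 : Ideal S} (h𝔮 : 𝔮 ∈ minimalPrimes S) :
    Function.Injective (algebraMap R (S ⧸ 𝔮)) := by
  rw [injective_iff_map_eq_zero]
  intro r hr
  by_contra hr0
  rw [IsScalarTower.algebraMap_apply R S (S ⧸ 𝔮), Ideal.Quotient.algebraMap_eq,
    Ideal.Quotient.eq_zero_iff_mem] at hr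
  exact algebraMap_notMem_of_mem_minimalPrimes b h𝔮 hr0 hr

end Component


section Component2

variable {R : Type*} [CommRing R] [IsDomain R] [IsDiscreteValuationRing R]
variable {S : Type*} [CommRing S] [Algebra R S] [Module.Finite R S]
variable {ι : Type*} [Fintype ι] [DecidableEq ι] (b : Basis ι R S)

omit [IsDomain R] [IsDiscreteValuationRing R] [Module.Finite R S] in
theorem fibreIdeal_eq_span [IsLocalRing R] {t : R} (ht : maximalIdeal R = Ideal.span {t}) :
    fibreIdeal R S = Ideal.span {algebraMap R S t} := by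
  rw [fibreIdeal, ht, Ideal.map_span, Set.image_singleton]

include b in
/-- version of `exists_not_mem_mul_mem` in a quotient of `S` -/
theorem exists_not_mem_mul_mem_quotient (hd : IsUnit (Algebra.discr R b)) {t : R}
    (ht : maximalIdeal R = Ideal.span {t}) {𝔮 : Ideal S} (P : Ideal (S ⧸ 𝔮)) [hP : P.IsMaximal]
    {y : S ⧸ 𝔮} (hy : y ∈ P) :
    ∃ u : S ⧸ 𝔮, u ∉ P ∧ u * y ∈ Ideal.span {algebraMap R (S ⧸ 𝔮) t} := by
  haveI : (P.comap (Ideal.Quotient.mk 𝔮)).IsMaximal :=
    Ideal.comap_isMaximal_of_surjective _ Ideal.Quotient.mk_surjective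
  obtain ⟨y', rfl⟩ := Ideal.Quotient.mk_surjective y
  obtain ⟨u, hu, huy⟩ := exists_not_mem_mul_mem b hd (P.comap (Ideal.Quotient.mk 𝔮))
    (y := y') hy
  refine ⟨Ideal.Quotient.mk 𝔮 u, hu, ?_⟩
  rw [fibreIdeal_eq_span ht, Ideal.mem_span_singleton] at huy
  obtain ⟨c, hc⟩ := huy
  rw [Ideal.mem_span_singleton]
  refine ⟨Ideal.Quotient.mk 𝔮 c, ?_⟩
  rw [← map_mul, hc, map_mul, IsScalarTower.algebraMap_apply R S (S ⧸ 𝔮),
    Ideal.Quotient.algebraMap_eq]

omit [Module.Finite R S] in
theorem uniformizer_ne_zero {t : R} (ht : maximalIdeal R = Ideal.span {t}) : t ≠ 0 := by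
  rintro rfl
  rw [Ideal.span_singleton_eq_bot.mpr rfl] at ht
  exact IsDiscreteValuationRing.not_a_field R ht

include b in
/-- the localisation of `S` at a maximal ideal is a domain -/
theorem isDomain_localization (hd : IsUnit (Algebra.discr R b)) {t : R}
    (ht : maximalIdeal R = Ideal.span {t}) (x : Ideal S) [hx : x.IsMaximal] :
    IsDomain (Localization.AtPrime x) := by
  haveI : IsNoetherianRing S := IsNoetherianRing.of_finite R S
  have hspan := maximalIdeal_localization_eq_span x (t := algebraMap R S t)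
    (fibreIdeal_le_of_isMaximal (R := R) x (Ideal.mem_map_of_mem _ (by
      rw [ht]; exact Ideal.mem_span_singleton_self t)))
    (fun y hy => by
      obtain ⟨u, hu, huy⟩ := exists_not_mem_mul_mem b hd x hy
      exact ⟨u, hu, by rwa [fibreIdeal_eq_span ht] at huy⟩)
  refine isDomain_of_maximalIdeal_eq_span ?_ hspan
  exact IsLocalization.map_nonZeroDivisors_le x.primeCompl (Localization.AtPrime x)
    (Submonoid.mem_map_of_mem _ (algebraMap_mem_nonZeroDivisors b (uniformizer_ne_zero ht)))

include b in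
/-- a minimal prime contained in the maximal ideal `x` is the kernel of the localisation at `x` -/
theorem eq_ker_of_mem_minimalPrimes (hd : IsUnit (Algebra.discr R b)) {t : R}
    (ht : maximalIdeal R = Ideal.span {t}) (x : Ideal S) [hx : x.IsMaximal] {𝔮 : Ideal S}
    (h𝔮 : 𝔮 ∈ minimalPrimes S) (hle : 𝔮 ≤ x) :
    𝔮 = RingHom.ker (algebraMap S (Localization.AtPrime x)) := by
  haveI := isDomain_localization b hd ht x
  have hprime : (RingHom.ker (algebraMap S (Localization.AtPrime x))).IsPrime :=
    RingHom.ker_isPrime _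
  haveI h𝔮p : 𝔮.IsPrime := h𝔮.1.1
  have hker_le : RingHom.ker (algebraMap S (Localization.AtPrime x)) ≤ 𝔮 := by
    intro s hs
    rw [RingHom.mem_ker, IsLocalization.map_eq_zero_iff x.primeCompl] at hs
    obtain ⟨u, hu⟩ := hs
    have : (u : S) * s ∈ 𝔮 := by rw [hu]; exact 𝔮.zero_mem
    exact (h𝔮p.mem_or_mem this).resolve_left fun h => u.2 (hle h)
  exact le_antisymm (h𝔮.2 ⟨hprime, bot_le⟩ hker_le) hker_le

include b in
/-- **each maximal ideal contains exactly one minimal prime** -/
theorem minimalPrimes_eq_of_le (hd : IsUnit (Algebra.discr R b)) {t : R}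
    (ht : maximalIdeal R = Ideal.span {t}) (x : Ideal S) [hx : x.IsMaximal] {𝔮 𝔮' : Ideal S}
    (h𝔮 : 𝔮 ∈ minimalPrimes S) (h𝔮' : 𝔮' ∈ minimalPrimes S) (hle : 𝔮 ≤ x) (hle' : 𝔮' ≤ x) :
    𝔮 = 𝔮' := by
  rw [eq_ker_of_mem_minimalPrimes b hd ht x h𝔮 hle, eq_ker_of_mem_minimalPrimes b hd ht x h𝔮' hle']

end Component2


section Component3

variable {R : Type*} [CommRing R] [IsDomain R] [IsDiscreteValuationRing R]
variable {S : Type*} [CommRing S] [Algebra R S] [Module.Finite R S]
variable {ι : Type*} [Fintype ι] [DecidableEq ι] (b : Basis ι R S)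

include b in
/-- nonzero primes of a component are maximal -/
theorem isMaximal_of_ne_bot {𝔮 : Ideal S} (h𝔮 : 𝔮 ∈ minimalPrimes S) (P : Ideal (S ⧸ 𝔮))
    [hP : P.IsPrime] (hP0 : P ≠ ⊥) : P.IsMaximal := by
  haveI : 𝔮.IsPrime := h𝔮.1.1
  have h1 : P.comap (algebraMap R (S ⧸ 𝔮)) ≠ ⊥ := fun h => hP0 (Ideal.eq_bot_of_comap_eq_bot h)
  have h2 : (P.comap (algebraMap R (S ⧸ 𝔮))).IsMaximal :=
    Ideal.IsPrime.isMaximal (Ideal.comap_isPrime _ _) h1
  exact Ideal.isMaximal_of_isIntegral_of_isMaximal_comap P h2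

include b in
/-- **the components `S ⧸ 𝔮` are Dedekind domains** -/
theorem isDedekindDomain_quotient (hd : IsUnit (Algebra.discr R b)) {𝔮 : Ideal S}
    (h𝔮 : 𝔮 ∈ minimalPrimes S) : IsDedekindDomain (S ⧸ 𝔮) := by
  haveI : 𝔮.IsPrime := h𝔮.1.1
  haveI : IsNoetherianRing S := IsNoetherianRing.of_finite R S
  obtain ⟨t, ht0⟩ := (IsPrincipalIdealRing.principal (maximalIdeal R)).principal
  have ht : maximalIdeal R = Ideal.span {t} := ht0
  haveI : IsDedekindDomainDvr (S ⧸ 𝔮) :=
    { is_dvr_at_nonzero_prime := fun P hP0 hPp => by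
        haveI := hPp
        haveI hPm : P.IsMaximal := isMaximal_of_ne_bot b h𝔮 P hP0
        have htP : algebraMap R (S ⧸ 𝔮) t ∈ P := by
          haveI : (P.comap (Ideal.Quotient.mk 𝔮)).IsMaximal :=
            Ideal.comap_isMaximal_of_surjective _ Ideal.Quotient.mk_surjective
          have := fibreIdeal_le_of_isMaximal (R := R) (P.comap (Ideal.Quotient.mk 𝔮))
            (Ideal.mem_map_of_mem _ (by rw [ht]; exact Ideal.mem_span_singleton_self t))
          rwa [Ideal.mem_comap, ← Ideal.Quotient.algebraMap_eq,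
            ← IsScalarTower.algebraMap_apply] at this
        have hspan := maximalIdeal_localization_eq_span P htP
          (fun y hy => exists_not_mem_mul_mem_quotient b hd ht P hy)
        have hnf : ¬ IsField (Localization.AtPrime P) :=
          IsLocalization.AtPrime.not_isField (S ⧸ 𝔮) hP0 _
        have hprinc : (maximalIdeal (Localization.AtPrime P)).IsPrincipal := ⟨⟨_, hspan⟩⟩
        exact ((IsDiscreteValuationRing.TFAE (Localization.AtPrime P) hnf).out 4 0).mp hprinc }
  infer_instance

end Component3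


section Component4

variable {R : Type*} [CommRing R] [IsDomain R] [IsDiscreteValuationRing R]
variable {S : Type*} [CommRing S] [Algebra R S] [Module.Finite R S]
variable {ι : Type*} [Fintype ι] [DecidableEq ι] (b : Basis ι R S)

include b in
/-- a uniformiser of `R` is a uniformiser at every prime of every component -/
theorem intValuation_uniformizer (hd : IsUnit (Algebra.discr R b)) {t : R}
    (ht : maximalIdeal R = Ideal.span {t}) {𝔮 : Ideal S}
    [IsDedekindDomain (S ⧸ 𝔮)] (P : HeightOneSpectrum (S ⧸ 𝔮)) :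
    P.intValuation (algebraMap R (S ⧸ 𝔮) t) = exp (-1 : ℤ) := by
  haveI hPm : P.asIdeal.IsMaximal := P.isMaximal
  have htP : algebraMap R (S ⧸ 𝔮) t ∈ P.asIdeal := by
    haveI : (P.asIdeal.comap (Ideal.Quotient.mk 𝔮)).IsMaximal :=
      Ideal.comap_isMaximal_of_surjective _ Ideal.Quotient.mk_surjective
    have := fibreIdeal_le_of_isMaximal (R := R) (P.asIdeal.comap (Ideal.Quotient.mk 𝔮))
      (Ideal.mem_map_of_mem _ (by rw [ht]; exact Ideal.mem_span_singleton_self t))
    rwa [Ideal.mem_comap, ← Ideal.Quotient.algebraMap_eq,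
      ← IsScalarTower.algebraMap_apply] at this
  obtain ⟨π, hπ⟩ := P.intValuation_exists_uniformizer
  have hπP : π ∈ P.asIdeal := by
    rw [← intValuation_lt_one_iff_mem, hπ, ← exp_zero, exp_lt_exp]; norm_num
  obtain ⟨u, hu, huπ⟩ := exists_not_mem_mul_mem_quotient b hd ht P.asIdeal hπP
  rw [Ideal.mem_span_singleton] at huπ
  obtain ⟨c, hc⟩ := huπ
  have h1 : P.intValuation u = 1 := intValuation_eq_one_iff.mpr hu
  have h2 : P.intValuation (algebraMap R (S ⧸ 𝔮) t) * P.intValuation c = exp (-1 : ℤ) := by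
    rw [← map_mul, ← hc, map_mul, h1, one_mul, hπ]
  apply le_antisymm
  · have := (intValuation_le_pow_iff_mem P (algebraMap R (S ⧸ 𝔮) t) 1).mpr (by rwa [pow_one])
    simpa using this
  · rw [← h2]
    exact mul_le_of_le_one_right' (P.intValuation_le_one c)

include b in
/-- valuations on a component restrict to the valuation of `R` -/
theorem intValuation_algebraMap (hd : IsUnit (Algebra.discr R b)) {𝔮 : Ideal S}
    [IsDedekindDomain (S ⧸ 𝔮)] (P : HeightOneSpectrum (S ⧸ 𝔮))
    (r : R) (n : ℕ) (hr : IsDiscreteValuationRing.addVal R r = n) :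
    P.intValuation (algebraMap R (S ⧸ 𝔮) r) = exp (-(n : ℤ)) := by
  obtain ⟨t, htirr⟩ := IsDiscreteValuationRing.exists_irreducible R
  have ht : maximalIdeal R = Ideal.span {t} := htirr.maximalIdeal_eq
  have hr0 : r ≠ 0 := by
    rintro rfl
    rw [IsDiscreteValuationRing.addVal_eq_top_iff.mpr rfl] at hr
    exact ENat.top_ne_natCast n hr
  obtain ⟨m, u, hmu⟩ := IsDiscreteValuationRing.eq_unit_mul_pow_irreducible hr0 htirr
  have hmn : m = n := by
    have := IsDiscreteValuationRing.addVal_def r u htirr m hmu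
    rw [hr] at this
    exact_mod_cast this.symm
  subst hmn
  have hu : P.intValuation (algebraMap R (S ⧸ 𝔮) (u : R)) = 1 := by
    rw [intValuation_eq_one_iff]
    intro hmem
    have hunit : IsUnit (algebraMap R (S ⧸ 𝔮) (u : R)) := u.isUnit.map _
    exact P.isPrime.ne_top (Ideal.eq_top_of_isUnit_mem _ hmem hunit)
  rw [hmu, map_mul, map_mul, hu, one_mul, map_pow, map_pow,
    intValuation_uniformizer b hd ht P, ← exp_nsmul]
  simp

end Component4


section Component5

variable {R : Type*} [CommRing R] [IsDomain R] [IsDiscreteValuationRing R]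
variable {S : Type*} [CommRing S] [Algebra R S] [Module.Finite R S]
variable {ι : Type*} [Fintype ι] [DecidableEq ι] (b : Basis ι R S)

include b in
theorem isTorsionFree_quotient {𝔮 : Ideal S} (h𝔮 : 𝔮 ∈ minimalPrimes S) :
    Module.IsTorsionFree R (S ⧸ 𝔮) := by
  haveI : 𝔮.IsPrime := h𝔮.1.1
  haveI : FaithfulSMul R (S ⧸ 𝔮) :=
    (faithfulSMul_iff_algebraMap_injective R (S ⧸ 𝔮)).mpr (algebraMap_quotient_injective b h𝔮)
  infer_instance

include b in
/-- every prime of a component lies over the maximal ideal of `R` -/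
theorem under_eq_maximalIdeal {𝔮 : Ideal S}
    [IsDedekindDomain (S ⧸ 𝔮)] (P : HeightOneSpectrum (S ⧸ 𝔮)) :
    P.asIdeal.under R = maximalIdeal R := by
  haveI := P.isMaximal
  exact ((liesOver_of_isMaximal (R := R) P.asIdeal).over).symm

include b in
/-- the maximal ideal of `R` generates `P` up to a coprime factor: `𝔪 C = P * Q`, `P + Q = 1` -/
theorem exists_mul_eq_map (hd : IsUnit (Algebra.discr R b)) {𝔮 : Ideal S}
    [IsDedekindDomain (S ⧸ 𝔮)] (P : HeightOneSpectrum (S ⧸ 𝔮)) :
    ∃ Q : Ideal (S ⧸ 𝔮), IsCoprime P.asIdeal Q ∧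
      P.asIdeal * Q = (maximalIdeal R).map (algebraMap R (S ⧸ 𝔮)) := by
  obtain ⟨t, htirr⟩ := IsDiscreteValuationRing.exists_irreducible R
  have ht : maximalIdeal R = Ideal.span {t} := htirr.maximalIdeal_eq
  have hv := intValuation_uniformizer b hd ht P
  have hmap : (maximalIdeal R).map (algebraMap R (S ⧸ 𝔮)) =
      Ideal.span {algebraMap R (S ⧸ 𝔮) t} := by
    rw [ht, Ideal.map_span, Set.image_singleton]
  have h1 : P.asIdeal ∣ (maximalIdeal R).map (algebraMap R (S ⧸ 𝔮)) := by
    rw [hmap, Ideal.dvd_span_singleton, ← intValuation_lt_one_iff_mem, hv, ← exp_zero, exp_lt_exp]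
    norm_num
  obtain ⟨Q, hQ⟩ := h1
  refine ⟨Q, ?_, hQ.symm⟩
  rw [Ideal.isCoprime_iff_sup_eq]
  by_contra hne
  haveI := P.isMaximal
  have hle : Q ≤ P.asIdeal := by
    have h3 : P.asIdeal = P.asIdeal ⊔ Q := P.isMaximal.eq_of_le hne le_sup_left
    rw [h3]
    exact le_sup_right
  have h2 : P.asIdeal ^ 2 ∣ (maximalIdeal R).map (algebraMap R (S ⧸ 𝔮)) := by
    rw [hQ, sq]
    exact mul_dvd_mul_left _ (Ideal.dvd_iff_le.mpr hle)
  rw [hmap, Ideal.dvd_span_singleton, ← intValuation_le_pow_iff_mem, hv, exp_le_exp] at h2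
  norm_num at h2

include b in
/-- every prime of a component has ramification index one over `R` -/
theorem ramificationIdx_eq_one (hd : IsUnit (Algebra.discr R b)) {𝔮 : Ideal S}
    (h𝔮 : 𝔮 ∈ minimalPrimes S) [IsDedekindDomain (S ⧸ 𝔮)] (P : HeightOneSpectrum (S ⧸ 𝔮)) :
    P.asIdeal.ramificationIdx R = 1 := by
  obtain ⟨t, htirr⟩ := IsDiscreteValuationRing.exists_irreducible R
  have ht : maximalIdeal R = Ideal.span {t} := htirr.maximalIdeal_eq
  have hv := intValuation_uniformizer b hd ht P
  haveI := isTorsionFree_quotient b h𝔮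
  haveI := P.isMaximal
  haveI : P.asIdeal.LiesOver (maximalIdeal R) := liesOver_of_isMaximal (R := R) P.asIdeal
  have hp0 : maximalIdeal R ≠ ⊥ := IsDiscreteValuationRing.not_a_field R
  have hmap : (maximalIdeal R).map (algebraMap R (S ⧸ 𝔮)) =
      Ideal.span {algebraMap R (S ⧸ 𝔮) t} := by
    rw [ht, Ideal.map_span, Set.image_singleton]
  rw [← Ideal.ramificationIdx'_eq_ramificationIdx (maximalIdeal R) P.asIdeal hp0]
  apply Ideal.ramificationIdx'_spec
  · rw [hmap, Ideal.span_singleton_le_iff_mem, ← intValuation_le_pow_iff_mem, hv]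
    simp
  · rw [hmap, Ideal.span_singleton_le_iff_mem, ← intValuation_le_pow_iff_mem, hv, exp_le_exp]
    norm_num

section Different

attribute [local instance] FractionRing.liftAlgebra FractionRing.isScalarTower_liftAlgebra

include b in
/-- **the components are unramified over `R`**: the different exponent vanishes -/
theorem diffExpAt_eq_zero (hd : IsUnit (Algebra.discr R b)) {𝔮 : Ideal S}
    [IsDedekindDomain (S ⧸ 𝔮)] [Module.IsTorsionFree R (S ⧸ 𝔮)]
    [Algebra.IsSeparable (FractionRing R) (FractionRing (S ⧸ 𝔮))]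
    (P : HeightOneSpectrum (S ⧸ 𝔮))
    (hres : ∀ c : S ⧸ 𝔮, ∃ r : R, c - algebraMap R (S ⧸ 𝔮) r ∈ P.asIdeal) :
    Defs.diffExpAt R P = 0 := by
  haveI := P.isMaximal
  haveI : P.asIdeal.LiesOver (maximalIdeal R) := liesOver_of_isMaximal (R := R) P.asIdeal
  obtain ⟨Q, hcop, hPQ⟩ := exists_mul_eq_map b hd P
  haveI : Algebra.IsSeparable (R ⧸ maximalIdeal R) ((S ⧸ 𝔮) ⧸ P.asIdeal) := by
    refine ⟨fun x => ?_⟩
    obtain ⟨c, rfl⟩ := Ideal.Quotient.mk_surjective x
    obtain ⟨r, hr⟩ := hres c
    have : Ideal.Quotient.mk P.asIdeal c =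
        algebraMap (R ⧸ maximalIdeal R) ((S ⧸ 𝔮) ⧸ P.asIdeal) (Ideal.Quotient.mk _ r) := by
      rw [Ideal.Quotient.algebraMap_mk_of_liesOver P.asIdeal (maximalIdeal R) r,
        Ideal.Quotient.eq]
      exact hr
    rw [this]
    letI := Ideal.Quotient.field (maximalIdeal R)
    exact isSeparable_algebraMap (F := R ⧸ maximalIdeal R) (K := (S ⧸ 𝔮) ⧸ P.asIdeal) _
  have h1 : ¬ P.asIdeal ∣ differentIdeal R (S ⧸ 𝔮) :=
    not_dvd_differentIdeal_of_isCoprime_of_isSeparable R P.asIdeal Q hcop hPQ
  exact (TowerCount.expAt_eq_zero_iff differentIdeal_ne_bot P).mpr h1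

end Different

end Component5

end Fermat.Agent.S18.C.FinEtLocal
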