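import Mathlib
import Fermat.Agent.S18.C.FinEtLocal
import Fermat.Agent.S18.Different.ActionRam
import Fermat.Agent.S18.C.Invariants

/-!
# PROJECT H (S18), block C8a: the special fibre count (abstract form)

Setting: `Dj ⊆ D0` discrete valuation rings (`D0` finite over `Dj`), `E` a Dedekind domain finite
over `Dj`, `S` a finite free `D0`-algebra with a basis `b` of unit discriminant, which is also an
`E`-algebra (commutative square `Dj → D0 → S`, `Dj → E → S`); a finite group `H` acting on `S` and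
on `D0` compatibly (`hcompat`), faithfully on `D0`, commuting with `E`, with `S^H = E`
(`Algebra.IsInvariant E S H`); the residue field of `Dj` is algebraically closed and
`Frac E / Frac Dj` is separable.  `t` a uniformiser of `D0`, `i0 g = ord_{D0}(t - g t)`.

* `point_identity` : per-point identity on a Dedekind component (two towers + Hilbert's formula);
* `componentAction`, `smul_mk` : the stabiliser of a minimal prime `𝔮` acts on `S ⧸ 𝔮`;
* `exists_invariant_sub_mem` : CRT descent of invariants to a component;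
* `isInvariant_component`, `faithfulSMul_component`, `smulCommClass_component` :
  `IsGaloisGroup (Stab 𝔮) E (S ⧸ 𝔮)`;
* `exists_sub_mem_of_isAlgClosed`, `infinite_quotient_of_isAlgClosed` : trivial residue extensions;
* `below`, `point_identity_S` : `d0 = #Stab_H(x) d_{x ∩ E} + ∑_{g ∈ Stab_H(x), g ≠ 1} i0 g` for every
  maximal ideal `x` of `S`;
* `maxSpecAction`, `smul_eq_iff`, `below_surjective`, `below_eq_iff`;
* **`special_count`** :
  `#maxSpec(S) * d0 = |H| * ∑_Q d_Q(E/Dj) + ∑_{g ≠ 1} i0 g * #{x ∈ maxSpec S | g x ⊆ x}`.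
-/

set_option autoImplicit false
set_option linter.unusedSectionVars false
set_option linter.style.haveILetI false

namespace Fermat.Agent.S18.C.SpecialCount

open IsLocalRing Module IsDedekindDomain HeightOneSpectrum WithZero
open Fermat.Agent.S18.A Fermat.Agent.S18.Different
open scoped Pointwise

attribute [local instance] FractionRing.liftAlgebra FractionRing.isScalarTower_liftAlgebra

section PointIdentity

variable (G Dj D0 E : Type*) {C : Type*} [Group G] [Fintype G]
  [CommRing Dj] [IsDomain Dj] [IsIntegrallyClosed Dj]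
  [CommRing D0] [IsDedekindDomain D0] [CommRing E] [IsDedekindDomain E]
  [CommRing C] [IsDedekindDomain C]
  [Algebra Dj D0] [Algebra D0 C] [Algebra Dj E] [Algebra E C] [Algebra Dj C]
  [IsScalarTower Dj D0 C] [IsScalarTower Dj E C]
  [Module.IsTorsionFree Dj D0] [Module.IsTorsionFree Dj E] [Module.IsTorsionFree Dj C]
  [Module.IsTorsionFree D0 C] [Module.IsTorsionFree E C]
  [Module.Finite Dj D0] [Module.Finite Dj E] [Module.Finite Dj C]
  [Module.Finite D0 C] [Module.Finite E C]
  [Algebra.IsSeparable (FractionRing Dj) (FractionRing C)]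
  [MulSemiringAction G C] [IsGaloisGroup G E C]

open scoped Classical in
/-- **The per-point identity** on a component `C`: the tower `Dj ≤ D0 ≤ C` is unramified at `P`,
the tower `Dj ≤ E ≤ C` is Galois with group `G`:
`d_{P ∩ D0}(D0/Dj) = #Stab_G(P) * d_{P ∩ E}(E/Dj) + ∑_{g ∈ Stab_G(P), g ≠ 1} ord_P (t - g t)`. -/
theorem point_identity (P : HeightOneSpectrum C) [Infinite (E ⧸ P.asIdeal.under E)]
    (hres : ∀ c : C, ∃ e : E, c - algebraMap E C e ∈ P.asIdeal)
    (he0 : P.asIdeal.ramificationIdx D0 = 1) (hd0 : Defs.diffExpAt D0 P = 0)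
    (t : C) (ht : P.intValuation t = exp (-1 : ℤ)) (m : G → ℕ)
    (hm : ∀ g : G, g ≠ 1 → (∀ b ∈ P.asIdeal, g • b ∈ P.asIdeal) →
      P.intValuation (t - g • t) = exp (-(m g : ℤ))) :
    Defs.diffExpAt Dj (P.under D0) =
      (Finset.univ.filter (fun g : G => ∀ b ∈ P.asIdeal, g • b ∈ P.asIdeal)).card *
          Defs.diffExpAt Dj (P.under E) +
        ∑ g ∈ Finset.univ.filter (fun g : G => g ≠ 1 ∧ ∀ b ∈ P.asIdeal, g • b ∈ P.asIdeal),
          m g := by
  haveI : FaithfulSMul E C := inferInstance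
  have h1 := TowerCount.diffExpAt_tower Dj D0 P
  have h2 := TowerCount.diffExpAt_tower Dj E P
  rw [he0, hd0, one_mul, add_zero] at h1
  rw [← h1, h2, ActionRam.ramificationIdx_eq_card_filter G E C P hres,
    Action.diffExpAt_eq_sum G E C P hres t ht m hm]

end PointIdentity


section ComponentAction

variable (H : Type*) {S : Type*} [Group H] [CommRing S] [MulSemiringAction H S] (𝔮 : Ideal S)

/-- the stabiliser of the ideal `𝔮` acts on the quotient `S ⧸ 𝔮` -/
@[reducible] noncomputable def componentAction :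
    MulSemiringAction (MulAction.stabilizer H 𝔮) (S ⧸ 𝔮) :=
  haveI : 𝔮.LiesOver (𝔮.under ℤ) := ⟨rfl⟩
  MulSemiringAction.compHom (S ⧸ 𝔮) (Ideal.Quotient.stabilizerHom 𝔮 (𝔮.under ℤ) H)

attribute [local instance] componentAction

theorem smul_mk (g : MulAction.stabilizer H 𝔮) (s : S) :
    g • (Ideal.Quotient.mk 𝔮 s) = Ideal.Quotient.mk 𝔮 ((g : H) • s) := rfl

variable {H}

theorem smul_mem_of_mem_stabilizer {g : H} (hg : g ∈ MulAction.stabilizer H 𝔮) {s : S}
    (hs : s ∈ 𝔮) : g • s ∈ 𝔮 := by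
  rw [MulAction.mem_stabilizer_iff] at hg
  rw [← hg]
  exact Ideal.smul_mem_pointwise_smul_iff.mpr hs

theorem mem_stabilizer_of_forall [Finite H] {g : H} (hg : ∀ s ∈ 𝔮, g • s ∈ 𝔮) :
    g ∈ MulAction.stabilizer H 𝔮 := by
  rw [MulAction.mem_stabilizer_iff]
  have hle : g • 𝔮 ≤ 𝔮 := by
    intro x hx
    rw [Ideal.mem_pointwise_smul_iff_inv_smul_mem] at hx
    have := hg _ hx
    rwa [smul_inv_smul] at this
  exact smul_eq_of_smul_le hle

variable (H)

/-- the component action commutes with scalars that commute with `H` -/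
theorem smulCommClass_component (E : Type*) [CommRing E] [Algebra E S] [SMulCommClass H E S] :
    SMulCommClass (MulAction.stabilizer H 𝔮) E (S ⧸ 𝔮) := by
  refine ⟨fun g e c => ?_⟩
  obtain ⟨s, rfl⟩ := Ideal.Quotient.mk_surjective c
  have h1 : ∀ (e : E) (s : S), e • (Ideal.Quotient.mk 𝔮 s) = Ideal.Quotient.mk 𝔮 (e • s) :=
    fun e s => (map_smul (Ideal.Quotient.mkₐ E 𝔮) e s).symm
  rw [h1, smul_mk, smul_mk, h1, smul_comm]

end ComponentAction

attribute [local instance] componentAction


section CRT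

/-- **CRT descent of invariants to a component.**  `Min` a finite `H`-stable set of pairwise
comaximal ideals with zero intersection, `q ∈ Min`, `c` invariant modulo `q` under the stabiliser
of `q`: then `c` is congruent modulo `q` to an `H`-invariant element. (No averaging: the order of
`H` need not be invertible.) -/
theorem exists_invariant_sub_mem {H S : Type*} [Group H] [CommRing S] [MulSemiringAction H S]
    (Min : Finset (Ideal S)) (hstable : ∀ (g : H), ∀ I ∈ Min, g • I ∈ Min)
    (hcop : ∀ I ∈ Min, ∀ J ∈ Min, I ≠ J → I ⊔ J = ⊤)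
    (hinf : ∀ s : S, (∀ I ∈ Min, s ∈ I) → s = 0)
    (q : Ideal S) (hq : q ∈ Min) (c : S) (hc : ∀ g : H, g • q = q → g • c - c ∈ q) :
    ∃ s : S, (∀ g : H, g • s = s) ∧ s - c ∈ q := by
  classical
  let r : Ideal S → S := fun I => if h : ∃ g : H, g • q = I then h.choose • c else 0
  have hcop' : Pairwise (Function.onFun IsCoprime fun I : {I // I ∈ Min} => (I : Ideal S)) := by
    intro I J hIJ
    rw [Function.onFun, Ideal.isCoprime_iff_sup_eq]
    exact hcop I I.2 J J.2 (fun h => hIJ (Subtype.ext h))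
  obtain ⟨s, hs⟩ := Ideal.exists_forall_sub_mem_ideal hcop' (fun I => r I)
  have key : ∀ (h : H) (I : Ideal S), I ∈ Min → h • r (h⁻¹ • I) - r I ∈ I := by
    intro h I hI
    by_cases hex : ∃ g : H, g • q = I
    · have hex' : ∃ g : H, g • q = h⁻¹ • I := by
        obtain ⟨g, hg⟩ := hex
        exact ⟨h⁻¹ * g, by rw [mul_smul, hg]⟩
      simp only [r, dif_pos hex, dif_pos hex']
      have hg1s : hex.choose • q = I := hex.choose_spec
      have hg2s : hex'.choose • q = h⁻¹ • I := hex'.choose_spec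
      set g1 := hex.choose
      set g2 := hex'.choose
      have hu : (g1⁻¹ * h * g2) • q = q := by
        rw [mul_smul, mul_smul, hg2s, smul_inv_smul, ← hg1s, inv_smul_smul]
      have h1 := hc _ hu
      have h2 : g1 • ((g1⁻¹ * h * g2) • c - c) ∈ g1 • q :=
        Ideal.smul_mem_pointwise_smul_iff.mpr h1
      rw [hg1s, smul_sub, ← mul_smul, mul_assoc, mul_inv_cancel_left, mul_smul] at h2
      exact h2
    · have hex' : ¬ ∃ g : H, g • q = h⁻¹ • I := by
        rintro ⟨g, hg⟩
        exact hex ⟨h * g, by rw [mul_smul, hg, smul_inv_smul]⟩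
      simp only [r, dif_neg hex, dif_neg hex', smul_zero, sub_zero]
      exact I.zero_mem
  refine ⟨s, fun h => ?_, ?_⟩
  · rw [← sub_eq_zero]
    apply hinf
    intro I hI
    have hI' : h⁻¹ • I ∈ Min := hstable _ I hI
    have h1 : s - r (h⁻¹ • I) ∈ h⁻¹ • I := hs ⟨_, hI'⟩
    have h2 : h • (s - r (h⁻¹ • I)) ∈ I := by
      have := (Ideal.smul_mem_pointwise_smul_iff (a := h)).mpr h1
      rwa [smul_inv_smul] at this
    have h3 : s - r I ∈ I := hs ⟨I, hI⟩
    have : h • s - s = h • (s - r (h⁻¹ • I)) + (h • r (h⁻¹ • I) - r I) - (s - r I) := by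
      rw [smul_sub]; ring
    rw [this]
    exact I.sub_mem (I.add_mem h2 (key h I hI)) h3
  · have h1 : s - r q ∈ q := hs ⟨q, hq⟩
    have hex : ∃ g : H, g • q = q := ⟨1, one_smul _ _⟩
    have h2 : r q - c ∈ q := by
      simp only [r, dif_pos hex]
      exact hc _ hex.choose_spec
    have : s - c = (s - r q) + (r q - c) := by ring
    rw [this]
    exact q.add_mem h1 h2

end CRT


section Galois

variable {H S : Type*} [Group H] [CommRing S] [MulSemiringAction H S]

/-- automorphisms permute the minimal primes -/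
theorem smul_mem_minimalPrimes (g : H) {𝔮 : Ideal S} (h𝔮 : 𝔮 ∈ minimalPrimes S) :
    g • 𝔮 ∈ minimalPrimes S := by
  haveI := h𝔮.1.1
  refine ⟨⟨inferInstance, bot_le⟩, fun P hP hle => ?_⟩
  haveI := hP.1
  have h1 : g⁻¹ • P ≤ 𝔮 := by
    rw [Ideal.pointwise_smul_subset_iff, inv_inv]; exact hle
  have h2 : 𝔮 ≤ g⁻¹ • P := h𝔮.2 ⟨inferInstance, bot_le⟩ h1
  rw [Ideal.pointwise_smul_subset_iff]
  exact h2

variable {D0 : Type*} [CommRing D0] [IsDomain D0] [IsDiscreteValuationRing D0]
  [Algebra D0 S] [Module.Finite D0 S]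
  {ι : Type*} [Fintype ι] [DecidableEq ι] (b : Basis ι D0 S)

include b in
/-- `S^H = E` descends to the components: `(S ⧸ 𝔮)^{Stab 𝔮} = E` -/
theorem isInvariant_component (hd : IsUnit (Algebra.discr D0 b)) {𝔮 : Ideal S}
    (h𝔮 : 𝔮 ∈ minimalPrimes S) (E : Type*) [CommRing E] [Algebra E S]
    [Algebra.IsInvariant E S H] :
    Algebra.IsInvariant E (S ⧸ 𝔮) (MulAction.stabilizer H 𝔮) := by
  classical
  haveI : IsNoetherianRing S := IsNoetherianRing.of_finite D0 S
  haveI : IsReduced S := FinEtLocal.isReduced b hd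
  obtain ⟨t, htirr⟩ := IsDiscreteValuationRing.exists_irreducible D0
  have ht : maximalIdeal D0 = Ideal.span {t} := htirr.maximalIdeal_eq
  have hfin : (minimalPrimes S).Finite := minimalPrimes.finite_of_isNoetherianRing S
  refine ⟨fun c hc => ?_⟩
  obtain ⟨c', rfl⟩ := Ideal.Quotient.mk_surjective c
  have hc' : ∀ g : H, g • 𝔮 = 𝔮 → g • c' - c' ∈ 𝔮 := by
    intro g hg
    have := hc ⟨g, hg⟩
    rw [smul_mk] at this
    rw [← Ideal.Quotient.eq]
    exact this
  obtain ⟨s, hs, hsc⟩ := exists_invariant_sub_mem (H := H) hfin.toFinset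
    (fun g I hI => by
      rw [Set.Finite.mem_toFinset] at hI ⊢
      exact smul_mem_minimalPrimes g hI)
    (fun I hI J hJ hne => by
      rw [Set.Finite.mem_toFinset] at hI hJ
      by_contra hsup
      obtain ⟨x, hx, hle⟩ := Ideal.exists_le_maximal _ hsup
      haveI := hx
      exact hne (FinEtLocal.minimalPrimes_eq_of_le b hd ht x hI hJ
        (le_sup_left.trans hle) (le_sup_right.trans hle)))
    (fun s hs => by
      have h1 : s ∈ sInf (minimalPrimes S) := by
        rw [Ideal.mem_sInf]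
        intro I hI
        exact hs I ((Set.Finite.mem_toFinset _).mpr hI)
      have h2 : sInf (minimalPrimes S) = (⊥ : Ideal S) := by
        have := Ideal.sInf_minimalPrimes (I := (⊥ : Ideal S))
        have h3 : (⊥ : Ideal S).radical = ⊥ := nilradical_eq_zero S
        rw [h3] at this
        exact this
      rw [h2, Ideal.mem_bot] at h1
      exact h1)
    𝔮 ((Set.Finite.mem_toFinset _).mpr h𝔮) c' hc'
  obtain ⟨e, he⟩ := Algebra.IsInvariant.isInvariant (A := E) (G := H) s hs
  refine ⟨e, ?_⟩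
  rw [IsScalarTower.algebraMap_apply E S (S ⧸ 𝔮), he, Ideal.Quotient.algebraMap_eq,
    Ideal.Quotient.eq]
  exact hsc

end Galois


section Galois2

variable {H S : Type*} [Group H] [CommRing S] [MulSemiringAction H S]
variable {D0 : Type*} [CommRing D0] [IsDomain D0] [IsDiscreteValuationRing D0]
  [Algebra D0 S] [Module.Finite D0 S]
  {ι : Type*} [Fintype ι] [DecidableEq ι] (b : Basis ι D0 S)

include b in
/-- the stabiliser of a component acts faithfully on it (because `H` acts faithfully on `D0`) -/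
theorem faithfulSMul_component [MulSemiringAction H D0] [FaithfulSMul H D0]
    (hcompat : ∀ (g : H) (d : D0), g • algebraMap D0 S d = algebraMap D0 S (g • d))
    {𝔮 : Ideal S} (h𝔮 : 𝔮 ∈ minimalPrimes S) :
    FaithfulSMul (MulAction.stabilizer H 𝔮) (S ⧸ 𝔮) := by
  refine ⟨fun {g1 g2} h => ?_⟩
  apply Subtype.ext
  apply eq_of_smul_eq_smul (α := D0)
  intro d
  apply FinEtLocal.algebraMap_quotient_injective b h𝔮
  have := h (Ideal.Quotient.mk 𝔮 (algebraMap D0 S d))
  rw [smul_mk, smul_mk, hcompat, hcompat] at this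
  rw [IsScalarTower.algebraMap_apply D0 S (S ⧸ 𝔮), IsScalarTower.algebraMap_apply D0 S (S ⧸ 𝔮)]
  exact this

variable (Dj : Type*) {E : Type*} [CommRing Dj] [CommRing E] [IsDomain E]
  [Algebra Dj D0] [Algebra Dj E] [Algebra Dj S] [Algebra E S]
  [IsScalarTower Dj D0 S] [IsScalarTower Dj E S] [FaithfulSMul Dj D0] [Algebra.IsIntegral Dj E]

include b Dj in
/-- `E` injects into every component -/
theorem algebraMap_component_injective [Nontrivial Dj] {𝔮 : Ideal S} (h𝔮 : 𝔮 ∈ minimalPrimes S) :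
    Function.Injective (algebraMap E (S ⧸ 𝔮)) := by
  rw [injective_iff_map_eq_zero]
  intro e he
  have hmem : e ∈ 𝔮.comap (algebraMap E S) := by
    rw [Ideal.mem_comap, ← Ideal.Quotient.eq_zero_iff_mem, ← Ideal.Quotient.algebraMap_eq,
      ← IsScalarTower.algebraMap_apply]
    exact he
  have hbot : (𝔮.comap (algebraMap E S)).comap (algebraMap Dj E) = ⊥ := by
    rw [eq_bot_iff]
    intro a ha
    rw [Ideal.mem_comap, Ideal.mem_comap, ← IsScalarTower.algebraMap_apply,
      IsScalarTower.algebraMap_apply Dj D0 S] at ha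
    rw [Ideal.mem_bot]
    by_contra ha0
    have h1 : algebraMap Dj D0 a ≠ 0 := by
      rwa [Ne, FaithfulSMul.algebraMap_eq_zero_iff]
    exact FinEtLocal.algebraMap_notMem_of_mem_minimalPrimes b h𝔮 h1 ha
  have := Ideal.eq_bot_of_comap_eq_bot hbot
  rw [this, Ideal.mem_bot] at hmem
  exact hmem

end Galois2


section Residue

/-- trivial residue field extensions over a local ring with algebraically closed residue field -/
theorem exists_sub_mem_of_isAlgClosed {R T : Type*} [CommRing R] [IsLocalRing R]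
    [IsAlgClosed (ResidueField R)] [CommRing T] [Algebra R T] [Algebra.IsIntegral R T]
    (x : Ideal T) [hx : x.IsMaximal] (s : T) : ∃ a : R, s - algebraMap R T a ∈ x := by
  have h1 : (x.comap (algebraMap R T)).IsMaximal :=
    Ideal.isMaximal_comap_of_isIntegral_of_isMaximal (R := R) x
  haveI : x.LiesOver (maximalIdeal R) := ⟨(IsLocalRing.eq_maximalIdeal h1).symm⟩
  letI := Ideal.Quotient.field (maximalIdeal R)
  letI := Ideal.Quotient.field x
  haveI : IsAlgClosed (R ⧸ maximalIdeal R) := ‹IsAlgClosed (ResidueField R)›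
  have hsurj : Function.Surjective (algebraMap (R ⧸ maximalIdeal R) (T ⧸ x)) :=
    IsAlgClosed.algebraMap_bijective_of_isIntegral.2
  obtain ⟨a', ha'⟩ := hsurj (Ideal.Quotient.mk x s)
  obtain ⟨a, rfl⟩ := Ideal.Quotient.mk_surjective a'
  refine ⟨a, ?_⟩
  rw [Ideal.Quotient.algebraMap_mk_of_liesOver x (maximalIdeal R) a, eq_comm,
    Ideal.Quotient.eq] at ha'
  exact ha'

/-- the residue field of a local ring with algebraically closed residue field is infinite -/
theorem infinite_quotient_of_isAlgClosed {R T : Type*} [CommRing R] [IsLocalRing R]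
    [IsAlgClosed (ResidueField R)] [CommRing T] [Algebra R T] (Q : Ideal T) [Q.IsPrime]
    [hQ : Q.LiesOver (maximalIdeal R)] : Infinite (T ⧸ Q) := by
  haveI : Infinite (R ⧸ maximalIdeal R) := by
    letI := Ideal.Quotient.field (maximalIdeal R)
    haveI : IsAlgClosed (R ⧸ maximalIdeal R) := ‹IsAlgClosed (ResidueField R)›
    exact IsAlgClosed.instInfinite
  haveI : Nontrivial (T ⧸ Q) := Ideal.Quotient.nontrivial_iff.mpr (Ideal.IsPrime.ne_top ‹_›)
  letI := Ideal.Quotient.field (maximalIdeal R)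
  exact Infinite.of_injective _ (algebraMap (R ⧸ maximalIdeal R) (T ⧸ Q)).injective

end Residue


section Main

variable {Dj D0 E S H : Type*}
  [CommRing Dj] [IsDomain Dj] [IsDiscreteValuationRing Dj]
  [CommRing D0] [IsDomain D0] [IsDiscreteValuationRing D0]
  [CommRing E] [IsDedekindDomain E] [CommRing S]
  [Algebra Dj D0] [Algebra Dj E] [Algebra D0 S] [Algebra E S] [Algebra Dj S]
  [IsScalarTower Dj D0 S] [IsScalarTower Dj E S]
  [Module.Finite Dj D0] [FaithfulSMul Dj D0]
  [Module.Finite Dj E] [FaithfulSMul Dj E]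
  [Module.Finite D0 S]
  [Group H] [Fintype H] [MulSemiringAction H S] [MulSemiringAction H D0] [FaithfulSMul H D0]
  [SMulCommClass H E S] [Algebra.IsInvariant E S H]
  [IsAlgClosed (ResidueField Dj)]
  [Algebra.IsSeparable (FractionRing Dj) (FractionRing E)]

variable (Dj D0 E) in
/-- the prime of `E` below a maximal ideal of `S` -/
noncomputable def below (x : Ideal S) [hx : x.IsMaximal] : HeightOneSpectrum E where
  asIdeal := x.comap (algebraMap E S)
  isPrime := Ideal.comap_isPrime _ _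
  ne_bot := by
    intro hbot
    haveI : Module.Finite Dj S := Module.Finite.trans D0 S
    have h1 : (x.comap (algebraMap Dj S)).IsMaximal :=
      Ideal.isMaximal_comap_of_isIntegral_of_isMaximal (R := Dj) x
    have h2 : x.comap (algebraMap Dj S) = maximalIdeal Dj := IsLocalRing.eq_maximalIdeal h1
    have h3 : x.comap (algebraMap Dj S) = ⊥ := by
      rw [IsScalarTower.algebraMap_eq Dj E S, ← Ideal.comap_comap, hbot]
      exact Ideal.comap_bot_of_injective _ (FaithfulSMul.algebraMap_injective Dj E)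
    exact IsDiscreteValuationRing.not_a_field Dj (h2 ▸ h3)

@[simp] theorem below_asIdeal (x : Ideal S) [hx : x.IsMaximal] :
    (below Dj D0 E x).asIdeal = x.comap (algebraMap E S) := rfl

end Main


section Main2

variable {Dj D0 E S H : Type*}
  [CommRing Dj] [IsDomain Dj] [IsDiscreteValuationRing Dj]
  [CommRing D0] [IsDomain D0] [IsDiscreteValuationRing D0]
  [CommRing E] [IsDedekindDomain E] [CommRing S]
  [Algebra Dj D0] [Algebra Dj E] [Algebra D0 S] [Algebra E S] [Algebra Dj S]
  [IsScalarTower Dj D0 S] [IsScalarTower Dj E S]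
  [Module.Finite Dj D0] [FaithfulSMul Dj D0]
  [Module.Finite Dj E] [FaithfulSMul Dj E]
  [Module.Finite D0 S]
  [Group H] [Fintype H] [MulSemiringAction H S] [MulSemiringAction H D0] [FaithfulSMul H D0]
  [SMulCommClass H E S] [Algebra.IsInvariant E S H]
  [IsAlgClosed (ResidueField Dj)]
  [Algebra.IsSeparable (FractionRing Dj) (FractionRing E)]
  {ι : Type*} [Fintype ι] [DecidableEq ι] (b : Basis ι D0 S)

include b in
open scoped Classical in
/-- **The per-point identity on `S`.** -/
theorem point_identity_S (hd : IsUnit (Algebra.discr D0 b))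
    (hcompat : ∀ (g : H) (d : D0), g • algebraMap D0 S d = algebraMap D0 S (g • d))
    {t : D0} (ht : Irreducible t) (i0 : H → ℕ)
    (hi0 : ∀ g : H, g ≠ 1 → IsDiscreteValuationRing.addVal D0 (t - g • t) = i0 g)
    (m0 : HeightOneSpectrum D0) (x : Ideal S) [hx : x.IsMaximal] :
    Defs.diffExpAt Dj m0 =
      (Finset.univ.filter (fun g : H => ∀ s ∈ x, g • s ∈ x)).card *
          Defs.diffExpAt Dj (below Dj D0 E x) +
        ∑ g ∈ Finset.univ.filter (fun g : H => g ≠ 1 ∧ ∀ s ∈ x, g • s ∈ x), i0 g := by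
  obtain ⟨𝔮, h𝔮, h𝔮x⟩ := Ideal.exists_minimalPrimes_le (bot_le : (⊥ : Ideal S) ≤ x)
  haveI : 𝔮.IsPrime := h𝔮.1.1
  haveI : IsDedekindDomain (S ⧸ 𝔮) := FinEtLocal.isDedekindDomain_quotient b hd h𝔮
  haveI : Module.IsTorsionFree D0 (S ⧸ 𝔮) := FinEtLocal.isTorsionFree_quotient b h𝔮
  haveI hEC : FaithfulSMul E (S ⧸ 𝔮) :=
    (faithfulSMul_iff_algebraMap_injective E (S ⧸ 𝔮)).mpr
      (algebraMap_component_injective b Dj h𝔮)
  haveI hDC : FaithfulSMul Dj (S ⧸ 𝔮) := by
    rw [faithfulSMul_iff_algebraMap_injective, IsScalarTower.algebraMap_eq Dj E (S ⧸ 𝔮)]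
    exact (FaithfulSMul.algebraMap_injective E (S ⧸ 𝔮)).comp
      (FaithfulSMul.algebraMap_injective Dj E)
  haveI : Module.Finite Dj S := Module.Finite.trans D0 S
  haveI : Module.Finite E (S ⧸ 𝔮) := Module.Finite.of_restrictScalars_finite Dj E (S ⧸ 𝔮)
  -- the Galois structure of the component
  letI : Fintype (MulAction.stabilizer H 𝔮) := Fintype.ofFinite _
  haveI hGal : IsGaloisGroup (MulAction.stabilizer H 𝔮) E (S ⧸ 𝔮) :=
    ⟨faithfulSMul_component b hcompat h𝔮, smulCommClass_component H 𝔮 E,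
      isInvariant_component b hd h𝔮 E⟩
  -- separability of the fraction fields
  haveI hsepEC : Algebra.IsSeparable (FractionRing E) (FractionRing (S ⧸ 𝔮)) := by
    letI := IsFractionRing.mulSemiringAction (MulAction.stabilizer H 𝔮) (S ⧸ 𝔮)
      (FractionRing (S ⧸ 𝔮))
    haveI : IsGaloisGroup (MulAction.stabilizer H 𝔮) (FractionRing E) (FractionRing (S ⧸ 𝔮)) :=
      inferInstance
    haveI : IsGalois (FractionRing E) (FractionRing (S ⧸ 𝔮)) :=
      IsGaloisGroup.isGalois (MulAction.stabilizer H 𝔮) _ _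
    infer_instance
  haveI hsepC : Algebra.IsSeparable (FractionRing Dj) (FractionRing (S ⧸ 𝔮)) :=
    Algebra.IsSeparable.trans (FractionRing Dj) (FractionRing E) (FractionRing (S ⧸ 𝔮))
  haveI hD0C : FaithfulSMul D0 (S ⧸ 𝔮) :=
    (faithfulSMul_iff_algebraMap_injective D0 (S ⧸ 𝔮)).mpr
      (FinEtLocal.algebraMap_quotient_injective b h𝔮)
  haveI hsepD0C : Algebra.IsSeparable (FractionRing D0) (FractionRing (S ⧸ 𝔮)) :=
    Algebra.isSeparable_tower_top_of_isSeparable (FractionRing Dj) (FractionRing D0)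
      (FractionRing (S ⧸ 𝔮))
  -- the prime of the component
  have htmax : maximalIdeal D0 = Ideal.span {t} := ht.maximalIdeal_eq
  have hcomap : (x.map (Ideal.Quotient.mk 𝔮)).comap (Ideal.Quotient.mk 𝔮) = x := by
    rw [Ideal.comap_map_of_surjective _ Ideal.Quotient.mk_surjective, ← RingHom.ker_eq_comap_bot,
      Ideal.mk_ker, sup_eq_left.mpr h𝔮x]
  have hmem : ∀ s : S, Ideal.Quotient.mk 𝔮 s ∈ x.map (Ideal.Quotient.mk 𝔮) ↔ s ∈ x := fun s => by
    rw [← Ideal.mem_comap, hcomap]
  haveI hPprime : (x.map (Ideal.Quotient.mk 𝔮)).IsPrime :=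
    Ideal.map_isPrime_of_surjective Ideal.Quotient.mk_surjective
      (by rw [Ideal.mk_ker]; exact h𝔮x)
  have htx : algebraMap D0 S t ∈ x :=
    FinEtLocal.fibreIdeal_le_of_isMaximal (R := D0) x
      (Ideal.mem_map_of_mem _ ((IsLocalRing.mem_maximalIdeal t).mpr ht.not_isUnit))
  have hPne : x.map (Ideal.Quotient.mk 𝔮) ≠ ⊥ := by
    intro h
    have h1 : Ideal.Quotient.mk 𝔮 (algebraMap D0 S t) ∈ x.map (Ideal.Quotient.mk 𝔮) :=
      Ideal.mem_map_of_mem _ htx
    rw [h, Ideal.mem_bot, Ideal.Quotient.eq_zero_iff_mem] at h1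
    exact FinEtLocal.algebraMap_notMem_of_mem_minimalPrimes b h𝔮 ht.ne_zero h1
  set P : HeightOneSpectrum (S ⧸ 𝔮) := ⟨x.map (Ideal.Quotient.mk 𝔮), hPprime, hPne⟩ with hP
  have hPas : P.asIdeal = x.map (Ideal.Quotient.mk 𝔮) := rfl
  haveI hPmax : P.asIdeal.IsMaximal := P.isMaximal
  -- residue fields
  haveI hintS : Algebra.IsIntegral Dj S := inferInstance
  have hmkalgDj : ∀ a : Dj, algebraMap Dj (S ⧸ 𝔮) a = Ideal.Quotient.mk 𝔮 (algebraMap Dj S a) :=
    fun a => by rw [IsScalarTower.algebraMap_apply Dj S (S ⧸ 𝔮), Ideal.Quotient.algebraMap_eq]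
  have hresE : ∀ c : S ⧸ 𝔮, ∃ e : E, c - algebraMap E (S ⧸ 𝔮) e ∈ P.asIdeal := by
    intro c
    obtain ⟨s, rfl⟩ := Ideal.Quotient.mk_surjective c
    obtain ⟨a, ha⟩ := exists_sub_mem_of_isAlgClosed (R := Dj) x s
    refine ⟨algebraMap Dj E a, ?_⟩
    rw [← IsScalarTower.algebraMap_apply Dj E (S ⧸ 𝔮), hmkalgDj, ← map_sub, hPas, hmem]
    exact ha
  have hresD0 : ∀ c : S ⧸ 𝔮, ∃ d : D0, c - algebraMap D0 (S ⧸ 𝔮) d ∈ P.asIdeal := by
    intro c
    obtain ⟨s, rfl⟩ := Ideal.Quotient.mk_surjective c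
    obtain ⟨a, ha⟩ := exists_sub_mem_of_isAlgClosed (R := Dj) x s
    refine ⟨algebraMap Dj D0 a, ?_⟩
    rw [← IsScalarTower.algebraMap_apply Dj D0 (S ⧸ 𝔮), hmkalgDj, ← map_sub, hPas, hmem]
    exact ha
  haveI hinf : Infinite (E ⧸ P.asIdeal.under E) := by
    haveI : P.asIdeal.LiesOver (maximalIdeal Dj) :=
      FinEtLocal.liesOver_of_isMaximal (R := Dj) P.asIdeal
    haveI : (P.asIdeal.under E).LiesOver (maximalIdeal Dj) :=
      ⟨by rw [Ideal.under_under]; exact (Ideal.LiesOver.over (p := maximalIdeal Dj) (P := P.asIdeal))⟩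
    haveI : (P.asIdeal.under E).IsPrime := Ideal.IsPrime.under E P.asIdeal
    exact infinite_quotient_of_isAlgClosed (R := Dj) (P.asIdeal.under E)
  -- the uniformiser and the numbers `i0`
  have ht' : P.intValuation (algebraMap D0 (S ⧸ 𝔮) t) = exp (-1 : ℤ) :=
    FinEtLocal.intValuation_uniformizer b hd htmax P
  have hsmul_t : ∀ g : MulAction.stabilizer H 𝔮,
      g • algebraMap D0 (S ⧸ 𝔮) t = algebraMap D0 (S ⧸ 𝔮) ((g : H) • t) := by
    intro g
    rw [IsScalarTower.algebraMap_apply D0 S (S ⧸ 𝔮), Ideal.Quotient.algebraMap_eq, smul_mk,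
      hcompat, IsScalarTower.algebraMap_apply D0 S (S ⧸ 𝔮), Ideal.Quotient.algebraMap_eq]
  have hm : ∀ g : MulAction.stabilizer H 𝔮, g ≠ 1 →
      (∀ c ∈ P.asIdeal, g • c ∈ P.asIdeal) →
      P.intValuation (algebraMap D0 (S ⧸ 𝔮) t - g • algebraMap D0 (S ⧸ 𝔮) t) =
        exp (-((i0 (g : H)) : ℤ)) := by
    intro g hg _
    have hg1 : (g : H) ≠ 1 := fun h => hg (Subtype.ext h)
    rw [hsmul_t, ← map_sub]
    exact FinEtLocal.intValuation_algebraMap b hd P _ _ (hi0 _ hg1)
  have key := point_identity (MulAction.stabilizer H 𝔮) Dj D0 E P hresE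
    (FinEtLocal.ramificationIdx_eq_one b hd h𝔮 P) (FinEtLocal.diffExpAt_eq_zero b hd P hresD0)
    (algebraMap D0 (S ⧸ 𝔮) t) ht' (fun g => i0 (g : H)) hm
  have hunderD0 : P.under D0 = m0 := HeightOneSpectrum.ext (by
    rw [IsLocalRing.eq_maximalIdeal (P.under D0).isMaximal,
      IsLocalRing.eq_maximalIdeal m0.isMaximal])
  have hunderE : P.under E = below Dj D0 E x := HeightOneSpectrum.ext (by
    change P.asIdeal.under E = x.comap (algebraMap E S)
    rw [Ideal.under_def, hPas, IsScalarTower.algebraMap_eq E S (S ⧸ 𝔮), ← Ideal.comap_comap,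
      Ideal.Quotient.algebraMap_eq, hcomap])
  -- stabilisers: component versus `S`
  have hstab : ∀ g : MulAction.stabilizer H 𝔮,
      (∀ c ∈ P.asIdeal, g • c ∈ P.asIdeal) ↔ ∀ s ∈ x, (g : H) • s ∈ x := by
    intro g
    constructor
    · intro h s hs
      have := h (Ideal.Quotient.mk 𝔮 s) ((hmem s).mpr hs)
      rw [smul_mk] at this
      exact (hmem _).mp this
    · intro h c hc
      obtain ⟨s, rfl⟩ := Ideal.Quotient.mk_surjective c
      rw [smul_mk]
      exact (hmem _).mpr (h s ((hmem s).mp hc))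
  have hmemG : ∀ h : H, (∀ s ∈ x, h • s ∈ x) → h ∈ MulAction.stabilizer H 𝔮 := by
    intro h hh
    rw [MulAction.mem_stabilizer_iff]
    refine FinEtLocal.minimalPrimes_eq_of_le b hd htmax x (smul_mem_minimalPrimes h h𝔮) h𝔮 ?_ h𝔮x
    intro y hy
    rw [Ideal.mem_pointwise_smul_iff_inv_smul_mem] at hy
    have := hh _ (h𝔮x hy)
    rwa [smul_inv_smul] at this
  rw [hunderD0, hunderE] at key
  rw [key]
  have hmap1 : (Finset.univ.filter (fun g : MulAction.stabilizer H 𝔮 =>
        ∀ c ∈ P.asIdeal, g • c ∈ P.asIdeal)).map (Function.Embedding.subtype _) =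
      Finset.univ.filter (fun g : H => ∀ s ∈ x, g • s ∈ x) := by
    ext h
    simp only [Finset.mem_map, Finset.mem_filter, Finset.mem_univ, true_and,
      Function.Embedding.coe_subtype]
    constructor
    · rintro ⟨g, hg, rfl⟩
      exact (hstab g).mp hg
    · intro hh
      exact ⟨⟨h, hmemG h hh⟩, (hstab _).mpr hh, rfl⟩
  have hmap2 : (Finset.univ.filter (fun g : MulAction.stabilizer H 𝔮 =>
        g ≠ 1 ∧ ∀ c ∈ P.asIdeal, g • c ∈ P.asIdeal)).map (Function.Embedding.subtype _) =
      Finset.univ.filter (fun g : H => g ≠ 1 ∧ ∀ s ∈ x, g • s ∈ x) := by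
    ext h
    simp only [Finset.mem_map, Finset.mem_filter, Finset.mem_univ, true_and,
      Function.Embedding.coe_subtype]
    constructor
    · rintro ⟨g, ⟨hg1, hg⟩, rfl⟩
      exact ⟨fun h1 => hg1 (Subtype.ext h1), (hstab g).mp hg⟩
    · rintro ⟨hh1, hh⟩
      exact ⟨⟨h, hmemG h hh⟩, ⟨fun h1 => hh1 (congrArg Subtype.val h1), (hstab _).mpr hh⟩, rfl⟩
  rw [← hmap1, ← hmap2, Finset.card_map, Finset.sum_map]
  congr! 3

end Main2


section MaxSpecAction

variable (H : Type*) {S : Type*} [Group H] [CommRing S] [MulSemiringAction H S]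

theorem smul_isMaximal (g : H) (x : Ideal S) [hx : x.IsMaximal] : (g • x).IsMaximal := by
  rw [Ideal.pointwise_smul_def]
  exact (Ideal.isMaximal_map_iff_of_bijective (f := MulSemiringAction.toRingHom H S g)
    (MulSemiringAction.toRingEquiv H S g).bijective).mpr hx

/-- the action of `H` on the maximal spectrum -/
@[reducible] noncomputable def maxSpecAction : MulAction H (MaximalSpectrum S) where
  smul g x := ⟨g • x.asIdeal, smul_isMaximal H g x.asIdeal⟩
  one_smul x := MaximalSpectrum.ext (one_smul H x.asIdeal)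
  mul_smul g h x := MaximalSpectrum.ext (mul_smul g h x.asIdeal)

attribute [local instance] maxSpecAction

theorem smul_asIdeal (g : H) (x : MaximalSpectrum S) : (g • x).asIdeal = g • x.asIdeal := rfl

variable {H}

/-- `g` fixes the point `x` iff it maps the ideal into itself (finite group) -/
theorem smul_eq_iff [Finite H] (g : H) (x : MaximalSpectrum S) :
    g • x = x ↔ ∀ s ∈ x.asIdeal, g • s ∈ x.asIdeal := by
  constructor
  · intro h s hs
    have h1 : g ∈ MulAction.stabilizer H x.asIdeal := by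
      rw [MulAction.mem_stabilizer_iff, ← smul_asIdeal, h]
    exact smul_mem_of_mem_stabilizer x.asIdeal h1 hs
  · intro h
    apply MaximalSpectrum.ext
    rw [smul_asIdeal]
    exact MulAction.mem_stabilizer_iff.mp (mem_stabilizer_of_forall x.asIdeal h)

end MaxSpecAction

attribute [local instance] maxSpecAction


section Final

variable {Dj D0 E S H : Type*}
  [CommRing Dj] [IsDomain Dj] [IsDiscreteValuationRing Dj]
  [CommRing D0] [IsDomain D0] [IsDiscreteValuationRing D0]
  [CommRing E] [IsDedekindDomain E] [CommRing S]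
  [Algebra Dj D0] [Algebra Dj E] [Algebra D0 S] [Algebra E S] [Algebra Dj S]
  [IsScalarTower Dj D0 S] [IsScalarTower Dj E S]
  [Module.Finite Dj D0] [FaithfulSMul Dj D0]
  [Module.Finite Dj E] [FaithfulSMul Dj E]
  [Module.Finite D0 S] [FaithfulSMul E S]
  [Group H] [Fintype H] [MulSemiringAction H S] [MulSemiringAction H D0] [FaithfulSMul H D0]
  [SMulCommClass H E S] [Algebra.IsInvariant E S H]
  [IsAlgClosed (ResidueField Dj)]
  [Algebra.IsSeparable (FractionRing Dj) (FractionRing E)]
  {ι : Type*} [Fintype ι] [DecidableEq ι] (b : Basis ι D0 S)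

variable (Dj D0 E) in
omit [Algebra.IsSeparable (FractionRing Dj) (FractionRing E)] [IsAlgClosed (ResidueField Dj)] in
/-- every prime of `E` lies below a maximal ideal of `S` -/
theorem below_surjective [Algebra.IsIntegral E S] :
    Function.Surjective (fun x : MaximalSpectrum S => below Dj D0 E x.asIdeal) := by
  intro Q
  haveI := Q.isMaximal
  obtain ⟨x, hx, hxQ⟩ := Ideal.exists_ideal_over_maximal_of_isIntegral (S := S) Q.asIdeal (by
    rw [(RingHom.injective_iff_ker_eq_bot _).mp (FaithfulSMul.algebraMap_injective E S)]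
    exact bot_le)
  exact ⟨⟨x, hx⟩, HeightOneSpectrum.ext hxQ⟩

variable (Dj D0 E) in
omit [Algebra.IsSeparable (FractionRing Dj) (FractionRing E)] [IsAlgClosed (ResidueField Dj)]
  [FaithfulSMul H D0] [MulSemiringAction H D0] [FaithfulSMul E S] in
/-- the fibres of `below` are the `H`-orbits -/
theorem below_eq_iff (x x' : MaximalSpectrum S) :
    below Dj D0 E x.asIdeal = below Dj D0 E x'.asIdeal ↔ x' ∈ MulAction.orbit H x := by
  constructor
  · intro h
    have h1 : x.asIdeal.under E = x'.asIdeal.under E := congrArg HeightOneSpectrum.asIdeal h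
    obtain ⟨g, hg⟩ := Algebra.IsInvariant.exists_smul_of_under_eq E S H x.asIdeal x'.asIdeal h1
    exact ⟨g, MaximalSpectrum.ext hg.symm⟩
  · rintro ⟨g, rfl⟩
    apply HeightOneSpectrum.ext
    change x.asIdeal.comap (algebraMap E S) = (g • x.asIdeal).comap (algebraMap E S)
    ext e
    rw [Ideal.mem_comap, Ideal.mem_comap, Ideal.mem_pointwise_smul_iff_inv_smul_mem,
      smul_algebraMap]

include b in
/-- **The special fibre count (C8a).**
`N d0 = |H| ∑_Q d_Q(E/Dj) + ∑_{g ≠ 1} i0(g) #Fix_g(maxSpec S)`. -/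
theorem special_count [DecidableEq H] (hd : IsUnit (Algebra.discr D0 b))
    (hcompat : ∀ (g : H) (d : D0), g • algebraMap D0 S d = algebraMap D0 S (g • d))
    {t : D0} (ht : Irreducible t) (i0 : H → ℕ)
    (hi0 : ∀ g : H, g ≠ 1 → IsDiscreteValuationRing.addVal D0 (t - g • t) = i0 g)
    (m0 : HeightOneSpectrum D0) :
    Nat.card (MaximalSpectrum S) * Defs.diffExpAt Dj m0 =
      Fintype.card H * ∑ᶠ Q : HeightOneSpectrum E, Defs.diffExpAt Dj Q +
        ∑ g ∈ Finset.univ.erase (1 : H), i0 g *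
          Nat.card {x : MaximalSpectrum S // ∀ s ∈ x.asIdeal, g • s ∈ x.asIdeal} := by
  classical
  haveI : Finite (MaximalSpectrum S) := by
    haveI := (FinEtLocal.finite_isMaximal D0 S).to_subtype
    exact Finite.of_injective
      (fun x : MaximalSpectrum S => (⟨x.asIdeal, x.isMaximal⟩ : {x : Ideal S | x.IsMaximal}))
      (fun x y h => MaximalSpectrum.ext (congrArg Subtype.val h))
  letI : Fintype (MaximalSpectrum S) := Fintype.ofFinite _
  haveI : Algebra.IsIntegral E S := Algebra.IsInvariant.isIntegral E S H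
  have hsurj := below_surjective Dj D0 E (S := S)
  haveI : Finite (HeightOneSpectrum E) := Finite.of_surjective _ hsurj
  letI : Fintype (HeightOneSpectrum E) := Fintype.ofFinite _
  have h1 := Invariants.sum_mul_card_eq_sum_mul_card_stabilizer (G := H)
    (fun x : MaximalSpectrum S => below Dj D0 E x.asIdeal) hsurj
    (fun x x' => below_eq_iff Dj D0 E x x') (fun Q => Defs.diffExpAt Dj Q)
  have h2 : ∀ x : MaximalSpectrum S, Defs.diffExpAt Dj m0 =
      (Finset.univ.filter (fun g : H => ∀ s ∈ x.asIdeal, g • s ∈ x.asIdeal)).card *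
          Defs.diffExpAt Dj (below Dj D0 E x.asIdeal) +
        ∑ g ∈ Finset.univ.filter (fun g : H => g ≠ 1 ∧ ∀ s ∈ x.asIdeal, g • s ∈ x.asIdeal),
          i0 g := fun x => by
    have := point_identity_S (Dj := Dj) (E := E) b hd hcompat ht i0 hi0 m0 x.asIdeal
    convert this using 4
  have hstabcard : ∀ x : MaximalSpectrum S,
      (Finset.univ.filter (fun g : H => ∀ s ∈ x.asIdeal, g • s ∈ x.asIdeal)).card =
        Nat.card (MulAction.stabilizer H x) := by
    intro x
    rw [Nat.card_eq_fintype_card, Fintype.card_subtype]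
    congr 1
    ext g
    simp only [Finset.mem_filter, Finset.mem_univ, true_and, MulAction.mem_stabilizer_iff,
      smul_eq_iff]
  have hleft : Nat.card (MaximalSpectrum S) * Defs.diffExpAt Dj m0 =
      ∑ x : MaximalSpectrum S, Defs.diffExpAt Dj m0 := by
    rw [Finset.sum_const, Finset.card_univ, Nat.card_eq_fintype_card, smul_eq_mul]
  rw [hleft, Finset.sum_congr rfl (fun x _ => h2 x), Finset.sum_add_distrib,
    finsum_eq_sum_of_fintype]
  congr 1
  · rw [mul_comm, h1]
    refine Finset.sum_congr rfl fun x _ => ?_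
    rw [hstabcard, mul_comm]
  · simp only [Finset.sum_filter]
    rw [Finset.sum_comm]
    rw [← Finset.sum_erase_add _ _ (Finset.mem_univ (1 : H))]
    have hone : (∑ x : MaximalSpectrum S,
        if (1 : H) ≠ 1 ∧ ∀ s ∈ x.asIdeal, (1 : H) • s ∈ x.asIdeal then i0 1 else 0) = 0 := by
      simp
    rw [hone, add_zero]
    refine Finset.sum_congr rfl fun g hg => ?_
    have hg1 : g ≠ 1 := (Finset.mem_erase.mp hg).1
    simp only [hg1, ne_eq, not_false_eq_true, true_and]
    rw [← Finset.sum_filter, Finset.sum_const, smul_eq_mul, mul_comm, Nat.card_eq_fintype_card,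
      Fintype.card_subtype]

end Final

end Fermat.Agent.S18.C.SpecialCount
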