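import Mathlib
import Fermat.Agent.S18.C.SpecialCount
import Fermat.Agent.S18.C.CoverDifferent
import Fermat.Agent.S18.C.BRingTop
import Fermat.Agent.S18.C.RAlgStructure
import Fermat.Agent.S18.C.SurfaceDefs
import Fermat.Agent.S18.A.DiffLower
import Fermat.Agent.S18.Different.Action
import Fermat.Agent.S18.C.DiscRingChart
import Fermat.Agent.S18.C.ModularInst

/-!
# PROJECT H (S18), block C, slice H-C8b: the special fibre count for a cover (helper27)

Instantiation of `SpecialCount.special_count` (C8a) on the `k`-side of block C.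

`k` an algebraically closed field, `c` a cover `j = P(μ)/Q(μ)` with `P(0) = 0`, `Q(0) ≠ 0` in `k`
(`hP0`, `hQ0` as in `CoverDifferent`), `H₀ = c.Gal k` acting on `D₀` (`IsInvariantSubring`),
`k(μ)/k(j)` Galois, `Fk` a finite separable field extension of the `j`-line `RatFunc k`:

* `Dj := discRing ⊤ = k[j]_(j)`, `D₀ := BRing c ⊤ = k[μ]_(μ)` (`CoverDifferent.covTopAlgebra`),
  `C_k := CInt c Fk ⊤`, the integral closure of `D₀` in `R = Fk ⊗_{k(j)} k(μ)`;
* `E` : ANY integral closure of `Dj` in `Fk` (`[Algebra Dj E] [Algebra E Fk] [IsScalarTower Dj E Fk]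
  [IsIntegralClosure E Dj Fk]`; e.g. `DiscRingChart.ETop k Fk = integralClosure Dj Fk`);
* `toCk : E →+* C_k` (`e ↦ e ⊗ 1`), `toCk_injective`, `toCk_algebraMap` (the commutative square),
  `smul_toCk`, `exists_toCk_eq_of_fixed` (`C_k ^ H₀ = E`: Galois descent `RAlgStructure.fixed_iff`);
* `isDomain_E`, `isDedekindDomain_E`, `isFractionRing_E`, `moduleFinite_E`, `faithfulSMul_E`,
  `isTorsionFree_E`, `isSeparable_fractionRing_E`;
* `addVal_eq_of_intValuation`, `isAlgClosed_of_ringEquiv`, `isAlgClosed_residueField_of_surjective`;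
* **`special_fibre_count_d0`** :
  `#MaxSpec C_k * d₀ = |H₀| * ∑ᶠ_Q d_Q(E/Dj) + ∑_{g ≠ 1} m g * #Fix_g(MaxSpec C_k)`
  for `b` a `D₀`-basis of `C_k` with unit discriminant and `v_μ (g μ - μ) = exp (-(m g))`
  (the hypothesis shape of `CoverDifferent.d0_eq_sum`);
* **`special_fibre_count`** : the same with `d₀ = ∑_{g ≠ 1} m g` (Hilbert's formula);
* **`special_fibre_count_zeros`** : the same with the middle sum
  `∑ Q ∈ FibreSep.zeros hx hsep 0, Defs.diffExp hx hsep Q` (places of `Fk` over `x = 0`);
* **`special_fibre_count_X0`** : the instance `Fk = modularFunctionFieldFullC k N`, `x = jk`.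

A maximal ideal `x` of `C_k` is "fixed by `g`" in the elementwise form `∀ s ∈ x, g • s ∈ x`
(the shape of `SpecialPointsFinal.phik_eq_card_stable`).
-/

set_option autoImplicit false
set_option linter.style.haveILetI false
set_option linter.unusedSectionVars false

noncomputable section

namespace Fermat.Agent.S18.C.SpecialFibre

open Polynomial IsDedekindDomain HeightOneSpectrum TensorProduct WithZero
open Fermat.Agent.S18.C.Defs Fermat.Agent.S18.C.SurfaceDefs Fermat.Agent.S18.C.DiscRingLocal
  Fermat.Agent.S18.C.BRingLocal Fermat.Agent.S18.C.MuLineFinite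

/-! ### two generic lemmas -/

/-- in a discrete valuation ring, `v_P x = exp (-n)` means `addVal x = n` -/
theorem addVal_eq_of_intValuation {R : Type*} [CommRing R] [IsDomain R]
    [IsDiscreteValuationRing R] (P : HeightOneSpectrum R) (x : R) (n : ℕ)
    (h : P.intValuation x = exp (-(n : ℤ))) : IsDiscreteValuationRing.addVal R x = n := by
  obtain ⟨t, htirr⟩ := IsDiscreteValuationRing.exists_irreducible R
  have hx0 : x ≠ 0 := by
    rintro rfl
    rw [map_zero] at h
    exact WithZero.exp_ne_zero h.symm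
  obtain ⟨m, u, hmu⟩ := IsDiscreteValuationRing.eq_unit_mul_pow_irreducible hx0 htirr
  have ht : P.intValuation t = exp (-1 : ℤ) := by
    refine intValuation_singleton P htirr.ne_zero ?_
    rw [IsLocalRing.eq_maximalIdeal P.isMaximal, htirr.maximalIdeal_eq]
  have hu : P.intValuation (u : R) = 1 := by
    rw [intValuation_eq_one_iff, IsLocalRing.eq_maximalIdeal P.isMaximal]
    exact (IsLocalRing.notMem_maximalIdeal).mpr u.isUnit
  rw [hmu, map_mul, map_pow, hu, one_mul, ht, ← exp_nsmul, exp_inj] at h
  have hmn : m = n := by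
    simp at h
    exact_mod_cast h
  rw [IsDiscreteValuationRing.addVal_def x u htirr m hmu, hmn]

/-- algebraic closedness is invariant under ring isomorphisms (any universes) -/
theorem isAlgClosed_of_ringEquiv {k k' : Type*} [Field k] [Field k'] [IsAlgClosed k]
    (e : k ≃+* k') : IsAlgClosed k' := by
  apply IsAlgClosed.of_exists_root
  intro p _ hp
  have hpe : degree (p.map (e.symm : k' →+* k)) ≠ 0 := by
    rw [degree_map]
    exact ne_of_gt (degree_pos_of_irreducible hp)
  obtain ⟨x, hx⟩ := IsAlgClosed.exists_root (p.map (e.symm : k' →+* k)) hpe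
  refine ⟨e x, ?_⟩
  rw [IsRoot, eval_map] at hx
  apply e.symm.injective
  rw [map_zero, ← hx, ← eval₂_id (p := p) (x := e x)]
  have := Polynomial.hom_eval₂ p (RingHom.id k') (e.symm : k' →+* k) (e x)
  rw [RingHom.comp_id] at this
  rw [RingEquiv.coe_toRingHom] at this
  rw [this, RingEquiv.symm_apply_apply]

/-- a local ring with a surjection onto an algebraically closed field has an algebraically closed
residue field -/
theorem isAlgClosed_residueField_of_surjective {R k : Type*} [CommRing R] [IsLocalRing R]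
    [Field k] [IsAlgClosed k] (φ : R →+* k) (hφ : Function.Surjective φ) :
    IsAlgClosed (IsLocalRing.ResidueField R) := by
  have hker : RingHom.ker φ = IsLocalRing.maximalIdeal R :=
    IsLocalRing.eq_maximalIdeal (RingHom.ker_isMaximal_of_surjective φ hφ)
  let e : k ≃+* IsLocalRing.ResidueField R :=
    (RingHom.quotientKerEquivOfSurjective hφ).symm.trans (Ideal.quotEquivOfEq hker)
  exact isAlgClosed_of_ringEquiv e

/-! ### the setting -/

section Setting

variable (c : Cover) (k : Type*) [Field k] [c.Good k]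
variable (Fk : Type*) [Field Fk] [Algebra (RatFunc k) Fk]

/-- the two ways from `k(j)` to `R = Fk ⊗ k(μ)` agree -/
theorem incF_algebraMap (a : RatFunc k) :
    incF c k Fk (algebraMap (RatFunc k) Fk a) =
      algebraMap (MuLine c k) (RAlg c k Fk) (algebraMap (RatFunc k) (MuLine c k) a) := by
  rw [AlgHom.commutes, ← IsScalarTower.algebraMap_apply]

variable (hP0 : (c.PK k).coeff 0 = 0) (hQ0 : (c.QK k).coeff 0 ≠ 0)

/-- the commutative square `Dj → D₀ → R`, `Dj → Fk → R` -/
theorem algebraMap_covTop (f : discRing (⊤ : ValuationSubring k)) :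
    algebraMap (BRing c (⊤ : ValuationSubring k)) (RAlg c k Fk)
        (CoverDifferent.covTop c k hP0 hQ0 f) =
      incF c k Fk (algebraMap (discRing (⊤ : ValuationSubring k)) Fk f) := by
  show algebraMap (MuLine c k) (RAlg c k Fk) (c.covMap k (f : RatFunc k)) =
    incF c k Fk (algebraMap (RatFunc k) Fk (f : RatFunc k))
  rw [incF_algebraMap]
  rfl

include hP0 hQ0 in
/-- `incF` maps elements integral over `Dj` to elements integral over `D₀` -/
theorem isIntegral_incF {x : Fk} (hx : IsIntegral (discRing (⊤ : ValuationSubring k)) x) :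
    IsIntegral (BRing c (⊤ : ValuationSubring k)) (incF c k Fk x) := by
  obtain ⟨p, hp, hpx⟩ := hx
  refine ⟨p.map (CoverDifferent.covTop c k hP0 hQ0), hp.map _, ?_⟩
  rw [Polynomial.eval₂_map]
  have h1 : (algebraMap (BRing c (⊤ : ValuationSubring k)) (RAlg c k Fk)).comp
      (CoverDifferent.covTop c k hP0 hQ0) =
      (incF c k Fk : Fk →+* RAlg c k Fk).comp
        (algebraMap (discRing (⊤ : ValuationSubring k)) Fk) := by
    ext f
    exact algebraMap_covTop c k Fk hP0 hQ0 f
  rw [h1]
  have h2 := Polynomial.hom_eval₂ p (algebraMap (discRing (⊤ : ValuationSubring k)) Fk)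
    (incF c k Fk : Fk →+* RAlg c k Fk) x
  rw [hpx, map_zero] at h2
  exact h2.symm

/-! ### the map `E → C_k` for an integral closure `E` of `Dj` in `Fk` -/

variable {E : Type*} [CommRing E] [Algebra (discRing (⊤ : ValuationSubring k)) E] [Algebra E Fk]
  [IsScalarTower (discRing (⊤ : ValuationSubring k)) E Fk]
  [IsIntegralClosure E (discRing (⊤ : ValuationSubring k)) Fk]

theorem isIntegral_algebraMap_E (e : E) :
    IsIntegral (discRing (⊤ : ValuationSubring k)) (algebraMap E Fk e) :=
  (IsIntegralClosure.isIntegral_iff (A := E)).mpr ⟨e, rfl⟩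

/-- the ring homomorphism `E → C_k`, `e ↦ e ⊗ 1` -/
def toCk : E →+* CInt c Fk (⊤ : ValuationSubring k) :=
  ((incF c k Fk : Fk →+* RAlg c k Fk).comp (algebraMap E Fk)).codRestrict
    (CInt c Fk (⊤ : ValuationSubring k)) fun e =>
      isIntegral_incF c k Fk hP0 hQ0 (isIntegral_algebraMap_E k Fk e)

@[simp] theorem coe_toCk (e : E) :
    ((toCk c k Fk hP0 hQ0 e : CInt c Fk (⊤ : ValuationSubring k)) : RAlg c k Fk) =
      incF c k Fk (algebraMap E Fk e) := rfl

theorem toCk_injective : Function.Injective (toCk c k Fk hP0 hQ0 (E := E)) := by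
  intro e e' h
  have h1 := congrArg Subtype.val h
  rw [coe_toCk, coe_toCk] at h1
  exact IsIntegralClosure.algebraMap_injective E (discRing (⊤ : ValuationSubring k)) Fk
    (RAlgStructure.incF_injective c k Fk h1)

theorem toCk_algebraMap (f : discRing (⊤ : ValuationSubring k)) :
    toCk c k Fk hP0 hQ0 (algebraMap (discRing (⊤ : ValuationSubring k)) E f) =
      algebraMap (BRing c (⊤ : ValuationSubring k)) (CInt c Fk (⊤ : ValuationSubring k))
        (CoverDifferent.covTop c k hP0 hQ0 f) := by
  apply Subtype.ext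
  rw [coe_toCk, ← IsScalarTower.algebraMap_apply (discRing (⊤ : ValuationSubring k)) E Fk]
  exact (algebraMap_covTop c k Fk hP0 hQ0 f).symm

variable [IsInvariantSubring (c.Gal k) (BRing c (⊤ : ValuationSubring k))]

theorem smul_toCk (g : c.Gal k) (e : E) :
    g • toCk c k Fk hP0 hQ0 e = toCk c k Fk hP0 hQ0 e := by
  apply Subtype.ext
  rw [coe_smul_CInt, coe_toCk, smul_incF]

/-- `R = Fk ⊗ k(μ)` is a `Dj`-algebra through `D₀` as well as through `k(j)` -/
theorem isScalarTower_Dj_D0_R :
    letI := CoverDifferent.covTopAlgebra c k hP0 hQ0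
    IsScalarTower (discRing (⊤ : ValuationSubring k)) (BRing c (⊤ : ValuationSubring k))
      (RAlg c k Fk) := by
  letI := CoverDifferent.covTopAlgebra c k hP0 hQ0
  refine IsScalarTower.of_algebraMap_eq fun f => ?_
  show algebraMap (RatFunc k) (RAlg c k Fk) (f : RatFunc k) =
    algebraMap (BRing c (⊤ : ValuationSubring k)) (RAlg c k Fk)
      (CoverDifferent.covTop c k hP0 hQ0 f)
  rw [algebraMap_covTop]
  exact ((incF c k Fk).commutes (f : RatFunc k)).symm

/-- **the invariants of `H₀` on `C_k` are `E`** (Galois descent + integrality) -/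
theorem exists_toCk_eq_of_fixed [IsGalois (RatFunc k) (MuLine c k)]
    [FiniteDimensional (RatFunc k) Fk]
    (hint : letI := CoverDifferent.covTopAlgebra c k hP0 hQ0
      Algebra.IsIntegral (discRing (⊤ : ValuationSubring k)) (BRing c (⊤ : ValuationSubring k)))
    (s : CInt c Fk (⊤ : ValuationSubring k)) (hs : ∀ g : c.Gal k, g • s = s) :
    ∃ e : E, toCk c k Fk hP0 hQ0 e = s := by
  letI := CoverDifferent.covTopAlgebra c k hP0 hQ0
  haveI := isScalarTower_Dj_D0_R c k Fk hP0 hQ0
  obtain ⟨f, hf⟩ := (RAlgStructure.fixed_iff c k Fk (s : RAlg c k Fk)).mp fun g => by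
    rw [← coe_smul_CInt, hs g]
  have h1 : IsIntegral (discRing (⊤ : ValuationSubring k)) (s : RAlg c k Fk) :=
    isIntegral_trans (A := BRing c (⊤ : ValuationSubring k)) _ s.2
  rw [← hf] at h1
  have h2 : IsIntegral (discRing (⊤ : ValuationSubring k)) f :=
    (isIntegral_algHom_iff ((incF c k Fk).restrictScalars (discRing (⊤ : ValuationSubring k)))
      (RAlgStructure.incF_injective c k Fk)).mp h1
  obtain ⟨e, he⟩ := (IsIntegralClosure.isIntegral_iff (A := E)).mp h2
  refine ⟨e, Subtype.ext ?_⟩
  rw [coe_toCk, he, hf]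

end Setting

/-! ### the `E`-side: `E` is a finite separable Dedekind extension of `Dj` -/

section ESide

variable (k : Type*) [Field k]
variable (Fk : Type*) [Field Fk] [Algebra (RatFunc k) Fk] [FiniteDimensional (RatFunc k) Fk]
  [Algebra.IsSeparable (RatFunc k) Fk]
variable (E : Type*) [CommRing E] [Algebra (discRing (⊤ : ValuationSubring k)) E] [Algebra E Fk]
  [IsScalarTower (discRing (⊤ : ValuationSubring k)) E Fk]
  [IsIntegralClosure E (discRing (⊤ : ValuationSubring k)) Fk]

open Fermat.Agent.S18.C.BRingTop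

include k Fk

theorem isDomain_E : IsDomain E :=
  (IsIntegralClosure.algebraMap_injective E (discRing (⊤ : ValuationSubring k)) Fk).isDomain

theorem isDedekindDomain_E : IsDedekindDomain E :=
  haveI := isDomain_E k Fk E
  IsIntegralClosure.isDedekindDomain (discRing (⊤ : ValuationSubring k)) (RatFunc k) Fk E

theorem isFractionRing_E : IsFractionRing E Fk :=
  haveI := isDomain_E k Fk E
  IsIntegralClosure.isFractionRing_of_finite_extension (discRing (⊤ : ValuationSubring k))
    (RatFunc k) Fk E

theorem moduleFinite_E : Module.Finite (discRing (⊤ : ValuationSubring k)) E :=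
  IsIntegralClosure.finite (discRing (⊤ : ValuationSubring k)) (RatFunc k) Fk E

theorem algebraMap_Dj_Fk_injective :
    Function.Injective (algebraMap (discRing (⊤ : ValuationSubring k)) Fk) :=
  (algebraMap (RatFunc k) Fk).injective.comp Subtype.val_injective

theorem faithfulSMul_E : FaithfulSMul (discRing (⊤ : ValuationSubring k)) E := by
  rw [faithfulSMul_iff_algebraMap_injective]
  intro a a' h
  apply algebraMap_Dj_Fk_injective k Fk
  rw [IsScalarTower.algebraMap_apply (discRing (⊤ : ValuationSubring k)) E Fk, h,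
    ← IsScalarTower.algebraMap_apply (discRing (⊤ : ValuationSubring k)) E Fk]

theorem isTorsionFree_E [IsDomain E] :
    Module.IsTorsionFree (discRing (⊤ : ValuationSubring k)) E :=
  haveI := faithfulSMul_E k Fk E
  inferInstance

attribute [local instance] FractionRing.liftAlgebra FractionRing.isScalarTower_liftAlgebra

theorem isSeparable_fractionRing_E [IsDedekindDomain E]
    [Module.IsTorsionFree (discRing (⊤ : ValuationSubring k)) E] :
    Algebra.IsSeparable (FractionRing (discRing (⊤ : ValuationSubring k))) (FractionRing E) := by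
  haveI := isFractionRing_E k Fk E
  haveI := moduleFinite_E k Fk E
  exact Fermat.Agent.S18.A.DiffLower.isSeparable_fractionRing_aux
    (discRing (⊤ : ValuationSubring k)) (RatFunc k) Fk (B := E)

end ESide

/-! ### the count -/

section Count

open Fermat.Agent.S18.A

variable (c : Cover) (k : Type*) [Field k] [IsAlgClosed k] [c.Good k]
variable (Fk : Type*) [Field Fk] [Algebra (RatFunc k) Fk] [FiniteDimensional (RatFunc k) Fk]
  [Algebra.IsSeparable (RatFunc k) Fk]
variable (hP0 : (c.PK k).coeff 0 = 0) (hQ0 : (c.QK k).coeff 0 ≠ 0)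
variable [IsGalois (RatFunc k) (MuLine c k)]
  [IsInvariantSubring (c.Gal k) (BRing c (⊤ : ValuationSubring k))]
  [Fintype (c.Gal k)] [DecidableEq (c.Gal k)]
variable (E : Type*) [CommRing E] [Algebra (discRing (⊤ : ValuationSubring k)) E] [Algebra E Fk]
  [IsScalarTower (discRing (⊤ : ValuationSubring k)) E Fk]
  [IsIntegralClosure E (discRing (⊤ : ValuationSubring k)) Fk]
  [IsDedekindDomain E] [Module.IsTorsionFree (discRing (⊤ : ValuationSubring k)) E]
variable {ι : Type*} [Fintype ι] [DecidableEq ι]
  (b : Module.Basis ι (BRing c (⊤ : ValuationSubring k)) (CInt c Fk (⊤ : ValuationSubring k)))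

open Fermat.Agent.S18.C.BRingTop

include hP0 hQ0 in
/-- **The special fibre count (C8b)**, with the different exponent `d₀` of `D₀ / Dj`. -/
theorem special_fibre_count_d0
    (hd : IsUnit (Algebra.discr (BRing c (⊤ : ValuationSubring k)) b))
    (P : HeightOneSpectrum (BRing c (⊤ : ValuationSubring k))) (m : c.Gal k → ℕ)
    (hm : ∀ g : c.Gal k, g ≠ 1 →
      P.intValuation (g • muB c (⊤ : ValuationSubring k) - muB c (⊤ : ValuationSubring k)) =
        exp (-(m g : ℤ))) :
    letI := CoverDifferent.covTopAlgebra c k hP0 hQ0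
    haveI := CoverDifferent.faithfulSMul_covTop c k hP0 hQ0
    Nat.card (MaximalSpectrum (CInt c Fk (⊤ : ValuationSubring k))) *
        Defs.diffExpAt (discRing (⊤ : ValuationSubring k)) P =
      Fintype.card (c.Gal k) *
          ∑ᶠ Q : HeightOneSpectrum E, Defs.diffExpAt (discRing (⊤ : ValuationSubring k)) Q +
        ∑ g ∈ Finset.univ.erase (1 : c.Gal k), m g *
          Nat.card {x : MaximalSpectrum (CInt c Fk (⊤ : ValuationSubring k)) //
            ∀ s ∈ x.asIdeal, g • s ∈ x.asIdeal} := by
  letI algDjD0 := CoverDifferent.covTopAlgebra c k hP0 hQ0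
  haveI := CoverDifferent.faithfulSMul_covTop c k hP0 hQ0
  letI algECk : Algebra E (CInt c Fk (⊤ : ValuationSubring k)) :=
    (toCk c k Fk hP0 hQ0 (E := E)).toAlgebra
  letI algDjCk : Algebra (discRing (⊤ : ValuationSubring k))
      (CInt c Fk (⊤ : ValuationSubring k)) :=
    ((algebraMap (BRing c (⊤ : ValuationSubring k)) (CInt c Fk (⊤ : ValuationSubring k))).comp
      (CoverDifferent.covTop c k hP0 hQ0)).toAlgebra
  haveI : IsScalarTower (discRing (⊤ : ValuationSubring k)) (BRing c (⊤ : ValuationSubring k))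
      (CInt c Fk (⊤ : ValuationSubring k)) := IsScalarTower.of_algebraMap_eq fun f => rfl
  haveI : IsScalarTower (discRing (⊤ : ValuationSubring k)) E
      (CInt c Fk (⊤ : ValuationSubring k)) :=
    IsScalarTower.of_algebraMap_eq fun f => (toCk_algebraMap c k Fk hP0 hQ0 f).symm
  haveI hGal := CoverDifferent.isGaloisGroup_top c k hP0 hQ0 (fun _ => rfl)
  haveI : Module.Finite (discRing (⊤ : ValuationSubring k)) (BRing c (⊤ : ValuationSubring k)) :=
    Fermat.Agent.S18.Different.Action.moduleFinite (c.Gal k) _ _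
  haveI : FaithfulSMul (c.Gal k) (BRing c (⊤ : ValuationSubring k)) := hGal.faithful
  haveI := moduleFinite_E k Fk E
  haveI := faithfulSMul_E k Fk E
  haveI : Module.Finite (BRing c (⊤ : ValuationSubring k)) (CInt c Fk (⊤ : ValuationSubring k)) :=
    Module.Finite.of_basis b
  haveI : FaithfulSMul E (CInt c Fk (⊤ : ValuationSubring k)) :=
    (faithfulSMul_iff_algebraMap_injective _ _).mpr (toCk_injective c k Fk hP0 hQ0)
  haveI : SMulCommClass (c.Gal k) E (CInt c Fk (⊤ : ValuationSubring k)) :=
    ⟨fun g e s => by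
      rw [Algebra.smul_def, Algebra.smul_def, smul_mul']
      congr 1
      exact smul_toCk c k Fk hP0 hQ0 g e⟩
  haveI : Algebra.IsInvariant E (CInt c Fk (⊤ : ValuationSubring k)) (c.Gal k) :=
    ⟨fun s hs => exists_toCk_eq_of_fixed c k Fk hP0 hQ0
      (Fermat.Agent.S18.Different.Action.isIntegral (c.Gal k) _ _) s hs⟩
  haveI : IsAlgClosed (IsLocalRing.ResidueField (discRing (⊤ : ValuationSubring k))) :=
    isAlgClosed_residueField_of_surjective
      ((⊤ : ValuationSubring k).subtype.comp (evZero (⊤ : ValuationSubring k)))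
      (fun a => by
        obtain ⟨z, hz⟩ := evZero_surjective (⊤ : ValuationSubring k) ⟨a, ValuationSubring.mem_top a⟩
        exact ⟨z, by rw [RingHom.comp_apply, hz]; rfl⟩)
  haveI := isSeparable_fractionRing_E k Fk E
  exact SpecialCount.special_count (Dj := discRing (⊤ : ValuationSubring k)) (E := E) b hd
    (fun g d => SurfaceDefs.smul_algebraMap c Fk (⊤ : ValuationSubring k) g d)
    (irreducible_muB c k) m
    (fun g hg => addVal_eq_of_intValuation P _ (m g) (by
      rw [← hm g hg, ← Valuation.map_neg, neg_sub])) P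

include hP0 hQ0 in
/-- **The special fibre count (C8b)**:
`N * ∑_{g ≠ 1} i₀ g = |H₀| * ∑_Q d_Q(E / Dj) + ∑_{g ≠ 1} i₀ g * #Fix_g(MaxSpec C_k)`. -/
theorem special_fibre_count
    (hd : IsUnit (Algebra.discr (BRing c (⊤ : ValuationSubring k)) b))
    (P : HeightOneSpectrum (BRing c (⊤ : ValuationSubring k))) (m : c.Gal k → ℕ)
    (hm : ∀ g : c.Gal k, g ≠ 1 →
      P.intValuation (g • muB c (⊤ : ValuationSubring k) - muB c (⊤ : ValuationSubring k)) =
        exp (-(m g : ℤ))) :
    Nat.card (MaximalSpectrum (CInt c Fk (⊤ : ValuationSubring k))) *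
        ∑ g ∈ Finset.univ.erase (1 : c.Gal k), m g =
      Fintype.card (c.Gal k) *
          ∑ᶠ Q : HeightOneSpectrum E, Defs.diffExpAt (discRing (⊤ : ValuationSubring k)) Q +
        ∑ g ∈ Finset.univ.erase (1 : c.Gal k), m g *
          Nat.card {x : MaximalSpectrum (CInt c Fk (⊤ : ValuationSubring k)) //
            ∀ s ∈ x.asIdeal, g • s ∈ x.asIdeal} := by
  have h1 := special_fibre_count_d0 c k Fk hP0 hQ0 E b hd P m hm
  have h2 := CoverDifferent.d0_eq_sum_canonical c k hP0 hQ0 P m hm
  rw [← h1]
  congr 1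
  rw [h2]
  refine Finset.sum_congr ?_ fun _ _ => rfl
  ext g
  simp only [Finset.mem_erase, Finset.mem_univ, and_true]

end Count

/-! ### the count in the language of places -/

section Places

open Fermat.Agent.S18.A Fermat.Agent.S24.FF Fermat.Agent.S18.A.Chart
  Fermat.Agent.S18.C.DiscRingChart Fermat.Agent.S18.C.BRingTop IntermediateField

variable (c : Cover) (k : Type*) [Field k] [IsAlgClosed k] [c.Good k]
variable (Fk : Type*) [Field Fk] [Algebra k Fk] [Algebra (RatFunc k) Fk]
variable (hP0 : (c.PK k).coeff 0 = 0) (hQ0 : (c.QK k).coeff 0 ≠ 0)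
variable [IsGalois (RatFunc k) (MuLine c k)]
  [IsInvariantSubring (c.Gal k) (BRing c (⊤ : ValuationSubring k))]
  [Fintype (c.Gal k)] [DecidableEq (c.Gal k)]
variable {ι : Type*} [Fintype ι] [DecidableEq ι]
  (b : Module.Basis ι (BRing c (⊤ : ValuationSubring k)) (CInt c Fk (⊤ : ValuationSubring k)))

include hP0 hQ0 in
/-- **The special fibre count (C8b), place form**: for a function field `Fk / k` with separating
element `x` (the `RatFunc k`-algebra structure sends `X` to `x`),
`N * ∑_{g ≠ 1} i₀ g = |H₀| * ∑_{Q | x = 0} d_Q + ∑_{g ≠ 1} i₀ g * #Fix_g(MaxSpec C_k)`. -/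
theorem special_fibre_count_zeros {x : Fk} (hx : IsFF k x)
    (hsep : Algebra.IsSeparable k⟮x⟯ Fk)
    (halg : ∀ a : RatFunc k, algebraMap (RatFunc k) Fk a = evalRat hx.transcendental a)
    (hd : IsUnit (Algebra.discr (BRing c (⊤ : ValuationSubring k)) b))
    (P : HeightOneSpectrum (BRing c (⊤ : ValuationSubring k))) (m : c.Gal k → ℕ)
    (hm : ∀ g : c.Gal k, g ≠ 1 →
      P.intValuation (g • muB c (⊤ : ValuationSubring k) - muB c (⊤ : ValuationSubring k)) =
        exp (-(m g : ℤ))) :
    Nat.card (MaximalSpectrum (CInt c Fk (⊤ : ValuationSubring k))) *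
        ∑ g ∈ Finset.univ.erase (1 : c.Gal k), m g =
      Fintype.card (c.Gal k) * ∑ Q ∈ FibreSep.zeros hx hsep 0, Defs.diffExp hx hsep Q +
        ∑ g ∈ Finset.univ.erase (1 : c.Gal k), m g *
          Nat.card {x : MaximalSpectrum (CInt c Fk (⊤ : ValuationSubring k)) //
            ∀ s ∈ x.asIdeal, g • s ∈ x.asIdeal} := by
  haveI := finiteDimensional_rat hx halg
  haveI := DualChart.isSeparable_rat hx.transcendental halg hsep
  haveI := isDedekindDomain_ETop hx hsep halg
  haveI := isTorsionFree_ETop (K := k) (F := Fk)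
  rw [← finsum_diffExpAt_ETop hx hsep halg]
  exact special_fibre_count c k Fk hP0 hQ0 (ETop k Fk) b hd P m hm

end Places

/-! ### the modular instance -/

section X0

open Fermat.Agent.S18.A Fermat.Agent.S18.B Fermat.Agent.S18.C.BRingTop IntermediateField
  ModularCurve

variable (c : Cover) (k : Type*) [Field k] [IsAlgClosed k] [c.Good k] (N : ℕ) [NeZero N]
variable (hP0 : (c.PK k).coeff 0 = 0) (hQ0 : (c.QK k).coeff 0 ≠ 0)
variable [IsGalois (RatFunc k) (MuLine c k)]
  [IsInvariantSubring (c.Gal k) (BRing c (⊤ : ValuationSubring k))]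
  [Fintype (c.Gal k)] [DecidableEq (c.Gal k)]
variable {ι : Type*} [Fintype ι] [DecidableEq ι]
  (b : Module.Basis ι (BRing c (⊤ : ValuationSubring k))
    (CInt c ↥(modularFunctionFieldFullC k N) (⊤ : ValuationSubring k)))

include hP0 hQ0 in
/-- **The special fibre count for `X₀(N)` over `k`** (`Fk = modularFunctionFieldFullC k N` with
`ModularInst.algFk`, `x = jk`). -/
theorem special_fibre_count_X0
    (hsep : Algebra.IsSeparable k⟮FkBasics.jk k N⟯ ↥(modularFunctionFieldFullC k N))
    (hd : IsUnit (Algebra.discr (BRing c (⊤ : ValuationSubring k)) b))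
    (P : HeightOneSpectrum (BRing c (⊤ : ValuationSubring k))) (m : c.Gal k → ℕ)
    (hm : ∀ g : c.Gal k, g ≠ 1 →
      P.intValuation (g • muB c (⊤ : ValuationSubring k) - muB c (⊤ : ValuationSubring k)) =
        exp (-(m g : ℤ))) :
    Nat.card (MaximalSpectrum
        (CInt c ↥(modularFunctionFieldFullC k N) (⊤ : ValuationSubring k))) *
        ∑ g ∈ Finset.univ.erase (1 : c.Gal k), m g =
      Fintype.card (c.Gal k) * ∑ Q ∈ FibreSep.zeros (FkBasics.isFF k N) hsep 0,
          Defs.diffExp (FkBasics.isFF k N) hsep Q +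
        ∑ g ∈ Finset.univ.erase (1 : c.Gal k), m g *
          Nat.card {x : MaximalSpectrum
              (CInt c ↥(modularFunctionFieldFullC k N) (⊤ : ValuationSubring k)) //
            ∀ s ∈ x.asIdeal, g • s ∈ x.asIdeal} :=
  special_fibre_count_zeros c k _ hP0 hQ0 b (FkBasics.isFF k N) hsep
    (ModularInst.algebraMap_Fk N k) hd P m hm

end X0

end Fermat.Agent.S18.C.SpecialFibre
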