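/-
PROJECT H (S18), block C, K-SIDE part (B) (helper4): FROM A `KModel` TO THE SPECIAL FIBRE.

Abstract part (`section Abstract`): `f : B →+* D` a ring hom into an integrally closed domain `D`
with fraction field `K`; `C` a finite etale `B`-algebra (`FinEt B C`); `E` a commutative
`K`-algebra; `sp : C →+* E` a ring hom which is semilinear over `f`
(`sp (algebraMap B C x) = algebraMap D E (f x)`) and which sends one finite `B`-basis of `C` to a
`K`-basis of `E`.  Then

* (B1) `sp` takes its values in the integral closure of `D` in `E` (`isIntegral_sp`, `spC`);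
* (B2) `D ⊗[B] C → integralClosure D E`, `d ⊗ x ↦ d • sp x` is bijective (`tensorEquiv`), the
  integral closure is finite etale over `D` (`finEt`), EVERY finite `B`-basis `b` of `C` goes to a
  `D`-basis of the integral closure (`basisD`, `coe_basisD_apply`), with discriminant the image of
  the discriminant (`discr_basisD`), and the rank is preserved (`finrank_eq`).

Concrete part (`section Concrete`): `B = BRing c V`, `C = CInt c F V`, `D = D₀ = BRing c ⊤`
(`k[μ]_(μ)`, a DVR), `K = MuLine c k`, `E = RAlg c k Fk`, so that the integral closure is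
`Ck = CInt c Fk ⊤`; the hypotheses are the fields `redBA`, `sp`, `sp_BA`, `basis_map`, `sp_smul`
of the `KModel` of board #1649.
-/
import Mathlib
import Fermat.Agent.S18.C.IntegralBasis
import Fermat.Agent.S18.C.SurfaceDefs
import Fermat.Agent.S18.C.BRingTop

set_option autoImplicit false
set_option linter.unusedSectionVars false
set_option linter.style.haveILetI false

noncomputable section

namespace Fermat.Agent.S18.C.SpecialIso

open Module TensorProduct
open Fermat.Agent.S18.C.FinEt

/-! ### Abstract part -/

section Abstract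

variable {B D K C E : Type*} [CommRing B] [CommRing D] [Field K] [Algebra D K]
  [CommRing C] [Algebra B C] [CommRing E] [Algebra K E] [Algebra D E] [IsScalarTower D K E]
  (f : B →+* D) (sp : C →+* E)
  (hsp : ∀ x : B, sp (algebraMap B C x) = algebraMap D E (f x))

include hsp in
/-- (B1) `sp` maps elements integral over `B` to elements integral over `D`. -/
theorem isIntegral_sp_of_isIntegral {x : C} (hx : IsIntegral B x) : IsIntegral D (sp x) :=
  IsIntegral.map_of_comp_eq f sp (RingHom.ext fun b => (hsp b).symm) hx

include hsp in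
/-- (B1) if `C` is finite etale over `B`, `sp` takes its values in the integral closure. -/
theorem isIntegral_sp (hS : FinEt B C) (x : C) : IsIntegral D (sp x) := by
  have : Module.Finite B C := hS.finite
  exact isIntegral_sp_of_isIntegral f sp hsp (IsIntegral.of_finite B x)

/-- (B1) `sp` as a ring hom into the integral closure of `D` in `E`. -/
def spC (hS : FinEt B C) : C →+* integralClosure D E :=
  sp.codRestrict (integralClosure D E).toSubring fun x => isIntegral_sp f sp hsp hS x

@[simp]
theorem coe_spC (hS : FinEt B C) (x : C) :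
    ((spC f sp hsp hS x : integralClosure D E) : E) = sp x := rfl

theorem spC_algebraMap (hS : FinEt B C) (x : B) :
    spC f sp hsp hS (algebraMap B C x) = algebraMap D (integralClosure D E) (f x) :=
  Subtype.ext (hsp x)

section Main

variable [IsDomain D] [IsIntegrallyClosed D] [IsFractionRing D K]
variable {ι : Type*} [Fintype ι] [DecidableEq ι] (b : Basis ι B C)
  (hli : LinearIndependent K fun i => sp (b i))
  (hspan : ⊤ ≤ Submodule.span K (Set.range fun i => sp (b i)))

/-- the `K`-basis `sp ∘ b` of `E` -/
def basisK : Basis ι K E := Basis.mk hli hspan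

theorem basisK_apply (i : ι) : basisK sp b hli hspan i = sp (b i) := by
  rw [basisK, Basis.mk_apply]

/-- (B2) the image of a `B`-basis of `C` is a `D`-basis of the integral closure of `D` in `E`. -/
def basisD (hS : FinEt B C) : Basis ι D (integralClosure D E) :=
  IntegralBasis.basisOfMap f sp hsp b (basisK sp b hli hspan) (basisK_apply sp b hli hspan)
    (hS.isUnit_discr b)

theorem coe_basisD_apply (hS : FinEt B C) (i : ι) :
    ((basisD f sp hsp b hli hspan hS i : integralClosure D E) : E) = sp (b i) :=
  IntegralBasis.basisOfMap_apply f sp hsp b (basisK sp b hli hspan) (basisK_apply sp b hli hspan)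
    (hS.isUnit_discr b) i

theorem basisD_apply (hS : FinEt B C) (i : ι) :
    basisD f sp hsp b hli hspan hS i = spC f sp hsp hS (b i) :=
  Subtype.ext (coe_basisD_apply f sp hsp b hli hspan hS i)

theorem discr_basisD (hS : FinEt B C) :
    Algebra.discr D (basisD f sp hsp b hli hspan hS) = f (Algebra.discr B b) :=
  IntegralBasis.discr_basisOfMap f sp hsp b (basisK sp b hli hspan) (basisK_apply sp b hli hspan)
    (hS.isUnit_discr b)

include hsp hli hspan in
/-- (B2) the integral closure of `D` in `E` is finite etale over `D`. -/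
theorem finEt (hS : FinEt B C) : FinEt D (integralClosure D E) :=
  IntegralBasis.finEt_of_map f sp hsp b (basisK sp b hli hspan) (basisK_apply sp b hli hspan)
    (hS.isUnit_discr b)

include hsp hli hspan in
/-- (B2) the rank is preserved. -/
theorem finrank_eq (hS : FinEt B C) :
    Module.finrank D (integralClosure D E) = Module.finrank B C := by
  haveI : Nontrivial B := f.domain_nontrivial
  rw [Module.finrank_eq_card_basis (basisD f sp hsp b hli hspan hS),
    Module.finrank_eq_card_basis b]

include hsp hli hspan in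
/-- every element of the integral closure is a `D`-combination of the `sp (b i)` -/
theorem exists_sum_eq (hS : FinEt B C) (y : integralClosure D E) :
    ∃ r : ι → D, (y : E) = ∑ i, r i • sp (b i) := by
  refine ⟨fun i => (basisD f sp hsp b hli hspan hS).repr y i, ?_⟩
  have h1 := congrArg Subtype.val ((basisD f sp hsp b hli hspan hS).sum_repr y)
  rw [← h1, AddSubmonoidClass.coe_finsetSum]
  refine Finset.sum_congr rfl fun i _ => ?_
  rw [← coe_basisD_apply f sp hsp b hli hspan hS i]
  rfl

/-! #### the tensor form -/

/-- the comparison map `D ⊗[B] C → integralClosure D E`, `d ⊗ x ↦ d • sp x`, as a `D`-algebra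
hom (`D` is a `B`-algebra through `f`). -/
def tensorHom (hS : FinEt B C) :
    letI : Algebra B D := f.toAlgebra
    D ⊗[B] C →ₐ[D] integralClosure D E :=
  letI : Algebra B D := f.toAlgebra
  letI : Algebra B (integralClosure D E) :=
    ((algebraMap D (integralClosure D E)).comp f).toAlgebra
  haveI : IsScalarTower B D (integralClosure D E) := IsScalarTower.of_algebraMap_eq fun _ => rfl
  Algebra.TensorProduct.lift (Algebra.ofId D (integralClosure D E))
    ({ spC f sp hsp hS with commutes' := fun x => spC_algebraMap f sp hsp hS x } :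
      C →ₐ[B] integralClosure D E)
    (fun _ _ => Commute.all _ _)

theorem tensorHom_tmul (hS : FinEt B C) (d : D) (x : C) :
    letI : Algebra B D := f.toAlgebra
    tensorHom f sp hsp hS (d ⊗ₜ[B] x) = d • spC f sp hsp hS x := by
  letI : Algebra B D := f.toAlgebra
  letI : Algebra B (integralClosure D E) :=
    ((algebraMap D (integralClosure D E)).comp f).toAlgebra
  haveI : IsScalarTower B D (integralClosure D E) := IsScalarTower.of_algebraMap_eq fun _ => rfl
  show (Algebra.TensorProduct.lift _ _ _) (d ⊗ₜ[B] x) = _
  rw [Algebra.TensorProduct.lift_tmul, Algebra.ofId_apply, Algebra.smul_def]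
  rfl

include hli hspan in
theorem tensorHom_bijective (hS : FinEt B C) :
    letI : Algebra B D := f.toAlgebra
    Function.Bijective (tensorHom f sp hsp hS) := by
  letI : Algebra B D := f.toAlgebra
  have h : (tensorHom f sp hsp hS).toLinearMap =
      ((Algebra.TensorProduct.basis D b).equiv (basisD f sp hsp b hli hspan hS)
        (Equiv.refl ι)).toLinearMap := by
    refine (Algebra.TensorProduct.basis D b).ext fun i => ?_
    rw [LinearEquiv.coe_coe, Basis.equiv_apply, Equiv.refl_apply, AlgHom.toLinearMap_apply,
      Algebra.TensorProduct.basis_apply, tensorHom_tmul, one_smul, basisD_apply]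
  have h' : ⇑(tensorHom f sp hsp hS) = ⇑((Algebra.TensorProduct.basis D b).equiv
      (basisD f sp hsp b hli hspan hS) (Equiv.refl ι)) := by
    funext y
    exact LinearMap.congr_fun h y
  rw [h']
  exact LinearEquiv.bijective _

/-- (B2), tensor form: `D ⊗[B] C ≃ integralClosure D E`. -/
def tensorEquiv (hS : FinEt B C) :
    letI : Algebra B D := f.toAlgebra
    D ⊗[B] C ≃ₐ[D] integralClosure D E :=
  letI : Algebra B D := f.toAlgebra
  AlgEquiv.ofBijective (tensorHom f sp hsp hS) (tensorHom_bijective f sp hsp b hli hspan hS)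

theorem tensorEquiv_tmul (hS : FinEt B C) (d : D) (x : C) :
    letI : Algebra B D := f.toAlgebra
    tensorEquiv f sp hsp b hli hspan hS (d ⊗ₜ[B] x) = d • spC f sp hsp hS x :=
  tensorHom_tmul f sp hsp hS d x

end Main

end Abstract

/-! ### Concrete part: the special fibre `Ck` of the surface -/

section Concrete

open Fermat.Agent.S18.C.Defs Fermat.Agent.S18.C.SurfaceDefs

variable (c : Cover) {K : Type*} [Field K] [c.Good K] (V : ValuationSubring K)
  (F : Type*) [CommRing F] [Algebra (RatFunc K) F]
  {k : Type*} [Field k] [c.Good k] (Fk : Type*) [CommRing Fk] [Algebra (RatFunc k) Fk]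
  (redBA : BRing c V →+* BRing c (⊤ : ValuationSubring k))
  (sp : CInt c F V →+* RAlg c k Fk)
  (sp_BA : ∀ x : BRing c V, sp (algebraMap (BRing c V) (CInt c F V) x) =
    incMu c k Fk (redBA x : MuLine c k))
  (hS : FinEt (BRing c V) (CInt c F V))

include sp_BA in
/-- `sp_BA` in `algebraMap` form -/
theorem sp_algebraMap (x : BRing c V) :
    sp (algebraMap (BRing c V) (CInt c F V) x) =
      algebraMap (BRing c (⊤ : ValuationSubring k)) (RAlg c k Fk) (redBA x) :=
  sp_BA x

/-- (B1) `sp` maps `C_A` into `C_k`, the integral closure of `D₀ = k[μ]_(μ)` in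
`R_k = F_k ⊗ k(μ)`. -/
def spCk : CInt c F V →+* CInt c Fk (⊤ : ValuationSubring k) :=
  spC redBA sp (sp_algebraMap c V F Fk redBA sp sp_BA) hS

@[simp]
theorem coe_spCk (x : CInt c F V) :
    ((spCk c V F Fk redBA sp sp_BA hS x : CInt c Fk (⊤ : ValuationSubring k)) : RAlg c k Fk) =
      sp x := rfl

theorem spCk_algebraMap (x : BRing c V) :
    spCk c V F Fk redBA sp sp_BA hS (algebraMap (BRing c V) (CInt c F V) x) =
      algebraMap (BRing c (⊤ : ValuationSubring k)) (CInt c Fk (⊤ : ValuationSubring k))
        (redBA x) :=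
  Subtype.ext (sp_BA x)

section Basis

variable {ι : Type*} [Fintype ι] [DecidableEq ι] (b : Basis ι (BRing c V) (CInt c F V))
  (hli : LinearIndependent (MuLine c k) fun i => sp (b i))
  (hspan : ⊤ ≤ Submodule.span (MuLine c k) (Set.range fun i => sp (b i)))

/-- (B2) the image of a `B_A`-basis of `C_A` is a `D₀`-basis of `C_k`. -/
def basisCk : Basis ι (BRing c (⊤ : ValuationSubring k)) (CInt c Fk (⊤ : ValuationSubring k)) :=
  basisD redBA sp (sp_algebraMap c V F Fk redBA sp sp_BA) b hli hspan hS

theorem coe_basisCk_apply (i : ι) :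
    ((basisCk c V F Fk redBA sp sp_BA hS b hli hspan i :
      CInt c Fk (⊤ : ValuationSubring k)) : RAlg c k Fk) = sp (b i) :=
  coe_basisD_apply redBA sp (sp_algebraMap c V F Fk redBA sp sp_BA) b hli hspan hS i

theorem basisCk_apply (i : ι) :
    basisCk c V F Fk redBA sp sp_BA hS b hli hspan i = spCk c V F Fk redBA sp sp_BA hS (b i) :=
  Subtype.ext (coe_basisCk_apply c V F Fk redBA sp sp_BA hS b hli hspan i)

theorem discr_basisCk :
    Algebra.discr (BRing c (⊤ : ValuationSubring k))
      (basisCk c V F Fk redBA sp sp_BA hS b hli hspan) = redBA (Algebra.discr (BRing c V) b) :=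
  discr_basisD redBA sp (sp_algebraMap c V F Fk redBA sp sp_BA) b hli hspan hS

include sp_BA hS hli hspan in
/-- (B2) **`C_k` is finite etale over the DVR `D₀ = k[μ]_(μ)`.** -/
theorem finEt_Ck :
    FinEt (BRing c (⊤ : ValuationSubring k)) (CInt c Fk (⊤ : ValuationSubring k)) :=
  finEt redBA sp (sp_algebraMap c V F Fk redBA sp sp_BA) b hli hspan hS

include sp_BA hS hli hspan in
/-- (B2) the rank of `C_k` over `D₀` is the rank of `C_A` over `B_A`. -/
theorem finrank_Ck :
    Module.finrank (BRing c (⊤ : ValuationSubring k)) (CInt c Fk (⊤ : ValuationSubring k)) =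
      Module.finrank (BRing c V) (CInt c F V) :=
  finrank_eq redBA sp (sp_algebraMap c V F Fk redBA sp sp_BA) b hli hspan hS

/-- (B2), tensor form: `D₀ ⊗[B_A] C_A ≃ C_k`, `d ⊗ x ↦ d • sp x` (`D₀` a `B_A`-algebra through
`redBA`). -/
def tensorEquivCk :
    letI : Algebra (BRing c V) (BRing c (⊤ : ValuationSubring k)) := redBA.toAlgebra
    (BRing c (⊤ : ValuationSubring k)) ⊗[BRing c V] (CInt c F V) ≃ₐ[BRing c (⊤ : ValuationSubring k)]
      CInt c Fk (⊤ : ValuationSubring k) :=
  tensorEquiv redBA sp (sp_algebraMap c V F Fk redBA sp sp_BA) b hli hspan hS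

theorem tensorEquivCk_tmul (d : BRing c (⊤ : ValuationSubring k)) (x : CInt c F V) :
    letI : Algebra (BRing c V) (BRing c (⊤ : ValuationSubring k)) := redBA.toAlgebra
    tensorEquivCk c V F Fk redBA sp sp_BA hS b hli hspan (d ⊗ₜ[BRing c V] x) =
      d • spCk c V F Fk redBA sp sp_BA hS x :=
  tensorEquiv_tmul redBA sp (sp_algebraMap c V F Fk redBA sp sp_BA) b hli hspan hS d x

end Basis

/-! #### from the `basis_map` field of a `KModel` -/

section BasisMap

variable (hbm : ∀ (n : ℕ) (b : Basis (Fin n) (BRing c V) (CInt c F V)),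
  LinearIndependent (MuLine c k) (fun i => sp (b i)) ∧
    ⊤ ≤ Submodule.span (MuLine c k) (Set.range fun i => sp (b i)))

include sp_BA hS hbm in
theorem finEt_Ck_of_basis_map :
    FinEt (BRing c (⊤ : ValuationSubring k)) (CInt c Fk (⊤ : ValuationSubring k)) := by
  obtain ⟨n, b, hb⟩ := hS
  exact finEt_Ck c V F Fk redBA sp sp_BA ⟨n, b, hb⟩ b (hbm n b).1 (hbm n b).2

include sp_BA hS hbm in
theorem finrank_Ck_of_basis_map :
    Module.finrank (BRing c (⊤ : ValuationSubring k)) (CInt c Fk (⊤ : ValuationSubring k)) =
      Module.finrank (BRing c V) (CInt c F V) := by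
  obtain ⟨n, b, hb⟩ := hS
  exact finrank_Ck c V F Fk redBA sp sp_BA ⟨n, b, hb⟩ b (hbm n b).1 (hbm n b).2

end BasisMap

/-! #### equivariance -/

section Equivariance

variable [IsInvariantSubring (c.Gal K) (BRing c V)]
  [IsInvariantSubring (c.Gal k) (BRing c (⊤ : ValuationSubring k))]
  (φ : c.Gal K →* c.Gal k)
  (sp_smul : ∀ (g : c.Gal K) (x : CInt c F V), sp (g • x) = φ g • sp x)

include sp_smul in
/-- `sp : C_A → C_k` is equivariant along `φ : H₀(K) → H₀(k)`. -/
theorem spCk_smul (g : c.Gal K) (x : CInt c F V) :
    spCk c V F Fk redBA sp sp_BA hS (g • x) = φ g • spCk c V F Fk redBA sp sp_BA hS x :=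
  Subtype.ext (sp_smul g x)

end Equivariance

end Concrete

end Fermat.Agent.S18.C.SpecialIso
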