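import Mathlib
import Fermat.Agent.S18.C.SpecialPointsInst
import Fermat.Agent.S18.C.SpecialIso

/-!
# PROJECT H (S18), block C, slice H-C8g (end form): `φk g` from the fields of a `KModel`

`k = κ(A)`, `B_A = BRing c A`, `C_A = CInt c FL A`, `D₀ = BRing c ⊤`, `C_k = CInt c Fk ⊤`,
`R_k = RAlg c k Fk`.  From the fields of the K-side model

* `redBA : B_A →+* D₀` with `hred : epsTop (redBA x) = evClosedB c A x`
  (`SpecialPointsInst.epsTop_redBA_residue` for `GaussA2.redBA`),
* `sp : C_A →+* R_k` with `sp_BA`, `sp_smul` (along `φ : c.Gal L →* c.Gal k`), `basis_map`,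
* `hS : FinEt B_A C_A`,

**`phik_eq_card_stable`** :
`GenericCount.phik A (evClosedB c A) g = #{x : MaximalSpectrum C_k // ∀ y ∈ x, φ g • y ∈ x}`
(the right hand side is the count of `SpecialCount.special_count`), and
`phik_one_eq_card_maxSpec : φk 1 = #MaximalSpectrum C_k`.
-/

set_option autoImplicit false
set_option linter.unusedSectionVars false

noncomputable section

namespace Fermat.Agent.S18.C.SpecialPointsFinal

open Module Fermat.Agent.S18.C.Defs Fermat.Agent.S18.C.SurfaceDefs Fermat.Agent.S18.C.FinEt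
  Fermat.Agent.S18.C.BRingLocal Fermat.Agent.S18.C.GenericCount Fermat.Agent.S18.C.SpecialIso
  Fermat.Agent.S18.C.SpecialPointsInst

variable (c : Cover) {L : Type*} [Field L] [c.Good L] (A : ValuationSubring L)
  [IsAlgClosed (IsLocalRing.ResidueField A)] [c.Good (IsLocalRing.ResidueField A)]
  (FL : Type*) [CommRing FL] [Algebra (RatFunc L) FL]
  (Fk : Type*) [CommRing Fk] [Algebra (RatFunc (IsLocalRing.ResidueField A)) Fk]
  [IsInvariantSubring (c.Gal L) (BRing c A)]
  [IsInvariantSubring (c.Gal (IsLocalRing.ResidueField A))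
    (BRing c (⊤ : ValuationSubring (IsLocalRing.ResidueField A)))]
  (redBA : BRing c A →+* BRing c (⊤ : ValuationSubring (IsLocalRing.ResidueField A)))
  (hred : ∀ x : BRing c A, epsTop c (IsLocalRing.ResidueField A) (redBA x) = evClosedB c A x)
  (sp : CInt c FL A →+* RAlg c (IsLocalRing.ResidueField A) Fk)
  (sp_BA : ∀ x : BRing c A, sp (algebraMap (BRing c A) (CInt c FL A) x) =
    incMu c (IsLocalRing.ResidueField A) Fk (redBA x : MuLine c (IsLocalRing.ResidueField A)))
  (hS : FinEt (BRing c A) (CInt c FL A))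
  (hbm : ∀ (n : ℕ) (b : Basis (Fin n) (BRing c A) (CInt c FL A)),
    LinearIndependent (MuLine c (IsLocalRing.ResidueField A)) (fun i => sp (b i)) ∧
      ⊤ ≤ Submodule.span (MuLine c (IsLocalRing.ResidueField A)) (Set.range fun i => sp (b i)))
  (φ : c.Gal L →* c.Gal (IsLocalRing.ResidueField A))
  (sp_smul : ∀ (g : c.Gal L) (x : CInt c FL A), sp (g • x) = φ g • sp x)

include hred sp_BA hS hbm sp_smul in
/-- **(B3), end form**: `φk g` is the number of maximal ideals of `C_k` stable under `φ g`. -/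
theorem phik_eq_card_stable (g : c.Gal L) :
    phik (C := CInt c FL A) A (evClosedB c A) g =
      Nat.card {x : MaximalSpectrum
          (CInt c Fk (⊤ : ValuationSubring (IsLocalRing.ResidueField A))) //
        ∀ y ∈ x.asIdeal, φ g • y ∈ x.asIdeal} := by
  obtain ⟨n, b, hb⟩ := hS
  exact SpecialPointsInst.phik_eq_card_stable c A FL Fk redBA hred
    (spCk c A FL Fk redBA sp sp_BA ⟨n, b, hb⟩)
    (spCk_algebraMap c A FL Fk redBA sp sp_BA ⟨n, b, hb⟩) b
    (basisCk c A FL Fk redBA sp sp_BA ⟨n, b, hb⟩ b (hbm n b).1 (hbm n b).2)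
    (basisCk_apply c A FL Fk redBA sp sp_BA ⟨n, b, hb⟩ b (hbm n b).1 (hbm n b).2) φ
    (spCk_smul c A FL Fk redBA sp sp_BA ⟨n, b, hb⟩ φ sp_smul) g

include hred sp_BA hS hbm sp_smul in
/-- `φk 1` is the number of maximal ideals of `C_k`. -/
theorem phik_one_eq_card_maxSpec :
    phik (C := CInt c FL A) A (evClosedB c A) (1 : c.Gal L) =
      Nat.card (MaximalSpectrum
        (CInt c Fk (⊤ : ValuationSubring (IsLocalRing.ResidueField A)))) := by
  rw [phik_eq_card_stable c A FL Fk redBA hred sp sp_BA hS hbm φ sp_smul 1, map_one]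
  exact Nat.card_congr (Equiv.subtypeUnivEquiv fun x y hy => by rwa [one_smul])

end Fermat.Agent.S18.C.SpecialPointsFinal
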