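import Mathlib
import Fermat.Agent.S18.C.SpecialPointsFinal
import Fermat.Agent.S18.C.KModel

/-!
# PROJECT H (S18), block C, K-side: the package `KModel.exists_model` ⇒ `φk`

* `epsTop_of_rel` : a reduction `redBA : B_A →+* D₀` which is the coefficientwise reduction on
  presentations `b = a / s` (the first property of `KModel.exists_model`) satisfies
  `epsTop (redBA b) = π (evZeroB c A b)` (the hypothesis `hred` of `SpecialPointsFinal`);
* **`kside`** : in the setting of `KModel.exists_model` with `k = κ(A)`, `π = residue A`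
  (`R : RedDatum A (residue A) r`, `[KModel.JIn R]`, `hsurj`, `hdim`, `hS : FinEt B_A C_A`,
  `φ : c.Gal L →* c.Gal k`, `hφ : ∀ g, KModel.GalData c g (φ g)`):
  `FinEt D₀ C_k ∧ finrank D₀ C_k = finrank B_A C_A ∧
   ∀ g, GenericCount.phik A (evClosedB c A) g = #{x : MaximalSpectrum C_k // φ g stabilises x}`.
-/

set_option autoImplicit false
set_option linter.unusedSectionVars false
set_option linter.style.haveILetI false

noncomputable section

namespace Fermat.Agent.S18.C.SpecialPointsKModel

open Polynomial Module AlgebraicCurve Fermat.Agent.S18.CoreDefs Fermat.Agent.S18.C.Defs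
  Fermat.Agent.S18.C.SurfaceDefs Fermat.Agent.S18.C.FinEt Fermat.Agent.S18.C.BRingLocal
  Fermat.Agent.S18.C.GenericCount Fermat.Agent.S18.C.GaussA Fermat.Agent.S18.C.GaussA2
  Fermat.Agent.S18.C.SpecialPointsInst

/-! ### `hred` from the relation property of `redBA` -/

section Rel

variable {L : Type*} [Field L] {k : Type*} [Field k] {A : ValuationSubring L} (π : A →+* k)
  (c : Cover)

/-- a reduction `redBA : B_A → D₀` which is the coefficientwise reduction on presentations
`b = a / s` commutes with the evaluations at `μ = 0` -/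
theorem epsTop_of_rel (redBA : BRing c A →+* BRing c (⊤ : ValuationSubring k))
    (hrel : ∀ (b : BRing c A) (a s : A[X]), toRat c L (b : MuLine c L) * polyL s = polyL a →
      toRat c k (redBA b : MuLine c k) * polyK π s = polyK π a) (b : BRing c A) :
    epsTop c k (redBA b) = π (evZeroB c A b) := by
  obtain ⟨a, s, hs, h⟩ := exists_rel_of_mem_BRing c b.2
  have h' := hrel b a s h
  have h1 : ((evZeroB c A b : A) : L) * (s.map A.subtype).coeff 0 = (a.map A.subtype).coeff 0 :=
    evZeroB_spec c A b (a.map A.subtype) (s.map A.subtype) h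
  have h2 : ((evZeroB c (⊤ : ValuationSubring k) (redBA b) :
      (⊤ : ValuationSubring k)) : k) * (s.map π).coeff 0 = (a.map π).coeff 0 :=
    evZeroB_spec c (⊤ : ValuationSubring k) (redBA b) (a.map π) (s.map π) h'
  rw [Polynomial.coeff_map, Polynomial.coeff_map] at h1 h2
  have h3 : evZeroB c A b * s.coeff 0 = a.coeff 0 := by
    apply Subtype.ext
    exact h1
  have h4 : π (evZeroB c A b) * π (s.coeff 0) = π (a.coeff 0) := by
    rw [← map_mul, h3]
  have h5 : π (s.coeff 0) ≠ 0 := (hs.map π).ne_zero
  rw [epsTop_apply]
  exact mul_right_cancel₀ h5 (h2.trans h4.symm)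

end Rel

/-! ### the K-side package -/

section Package

variable {L : Type*} [Field L] {FL : Type*} [Field FL] [Algebra L FL]
variable {A : ValuationSubring L}
variable {Fk : Type*} [Field Fk] [Algebra (IsLocalRing.ResidueField A) Fk]
variable [Algebra (RatFunc L) FL] [IsScalarTower L (RatFunc L) FL]
variable [Algebra (RatFunc (IsLocalRing.ResidueField A)) Fk]
  [IsScalarTower (IsLocalRing.ResidueField A) (RatFunc (IsLocalRing.ResidueField A)) Fk]
variable {r : Place L FL → Place (IsLocalRing.ResidueField A) Fk}
variable (R : RedDatum A (IsLocalRing.residue A) r) [hJ : KModel.JIn R]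
variable (c : Cover) [c.Good L] [c.Good (IsLocalRing.ResidueField A)]
variable [IsAlgClosed (IsLocalRing.ResidueField A)]
variable [FiniteDimensional (RatFunc L) FL]
  [Algebra.IsSeparable (RatFunc (IsLocalRing.ResidueField A)) Fk]
variable [IsInvariantSubring (c.Gal L) (BRing c A)]
  [IsInvariantSubring (c.Gal (IsLocalRing.ResidueField A))
    (BRing c (⊤ : ValuationSubring (IsLocalRing.ResidueField A)))]

/-- **the K-side package**: from the reduction datum, `hS : FinEt B_A C_A` and the Moebius data of
`φ : c.Gal L →* c.Gal k`: `C_k` is finite étale over `D₀` of the same rank, and `φk g` is the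
number of maximal ideals of `C_k` stable under `φ g`. -/
theorem kside (hsurj : Function.Surjective R.red)
    (hdim : Module.finrank (RatFunc L) FL ≤
      Module.finrank (RatFunc (IsLocalRing.ResidueField A)) Fk)
    (hS : FinEt (BRing c A) (CInt c FL A))
    (φ : c.Gal L →* c.Gal (IsLocalRing.ResidueField A))
    (hφ : ∀ g : c.Gal L, KModel.GalData (A := A) (π := IsLocalRing.residue A) c g (φ g)) :
    FinEt (BRing c (⊤ : ValuationSubring (IsLocalRing.ResidueField A)))
        (CInt c Fk (⊤ : ValuationSubring (IsLocalRing.ResidueField A))) ∧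
      Module.finrank (BRing c (⊤ : ValuationSubring (IsLocalRing.ResidueField A)))
          (CInt c Fk (⊤ : ValuationSubring (IsLocalRing.ResidueField A))) =
        Module.finrank (BRing c A) (CInt c FL A) ∧
      ∀ g : c.Gal L, phik (C := CInt c FL A) A (evClosedB c A) g =
        Nat.card {x : MaximalSpectrum
            (CInt c Fk (⊤ : ValuationSubring (IsLocalRing.ResidueField A))) //
          ∀ y ∈ x.asIdeal, φ g • y ∈ x.asIdeal} := by
  obtain ⟨redBA, sp, hrel, sp_BA, -, sp_smul, hbm⟩ := KModel.exists_model R c hsurj hdim hS φ hφ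
  have hbm' : ∀ (n : ℕ) (b : Basis (Fin n) (BRing c A) (CInt c FL A)),
      LinearIndependent (MuLine c (IsLocalRing.ResidueField A)) (fun i => sp (b i)) ∧
        ⊤ ≤ Submodule.span (MuLine c (IsLocalRing.ResidueField A))
          (Set.range fun i => sp (b i)) := fun n b => hbm b
  have hred : ∀ x : BRing c A,
      epsTop c (IsLocalRing.ResidueField A) (redBA x) = evClosedB c A x :=
    fun x => epsTop_of_rel (IsLocalRing.residue A) c redBA hrel x
  exact ⟨SpecialIso.finEt_Ck_of_basis_map c A FL Fk redBA sp sp_BA hS hbm',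
    SpecialIso.finrank_Ck_of_basis_map c A FL Fk redBA sp sp_BA hS hbm',
    fun g => SpecialPointsFinal.phik_eq_card_stable c A FL Fk redBA hred sp sp_BA hS hbm' φ
      sp_smul g⟩

end Package

end Fermat.Agent.S18.C.SpecialPointsKModel
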