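import Mathlib
import Fermat.Agent.S18.C.PointwiseUnit
import Fermat.Agent.S18.C.BRingLocal

/-!
# PROJECT H (S18), block C: bridge between `DiscRingLocal.evDiscAt` and `PointwiseUnit.evalAt`

* `coe_evDiscAt_eq_evalAt` : the two evaluation maps of `discRing (A.comap φ)` at a point of the
  open unit disc of `A` agree;
* `dvd_iff` : divisibility by a constant `l ∈ V` in `discRing V` in the shape used by
  `PointwiseUnit`;
* `isUnit_iff_pointwise` / `isUnit_iff_pointwise_B` : the pointwise unit criterion for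
  `discRing (A.comap φ)` and for `BRing c (A.comap φ)` in terms of ring-theoretic divisibility
  and of the localisation-defined evaluation maps `evDiscAt` / `evDiscAtB`.
-/

set_option autoImplicit false
set_option linter.style.haveILetI false

noncomputable section

namespace Fermat.Agent.S18.C.EvalBridge

open Polynomial Fermat.Agent.S18.C.Defs Fermat.Agent.S18.C.SurfaceDefs Fermat.Agent.S18.Purity
open Fermat.Agent.S18.C.DiscRingLocal Fermat.Agent.S18.C.BRingLocal

section Dvd

variable {K : Type*} [Field K] (V : ValuationSubring K)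

/-- the constant `l ∈ V` as an element of `discRing V` -/
def constD (l : V) : discRing V := algebraMap (↥V)[X] (discRing V) (C l)

@[simp] theorem coe_constD (l : V) : ((constD V l : discRing V) : RatFunc K) = RatFunc.C (l : K) := by
  rw [constD, coe_algebraMap, polyIncl_C, RatFunc.algebraMap_C]

/-- divisibility by a constant in `discRing V`, in the shape of `PointwiseUnit` -/
theorem dvd_iff (l : V) (d : discRing V) :
    constD V l ∣ d ↔ ∃ e ∈ discRing V, (d : RatFunc K) = RatFunc.C (l : K) * e := by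
  constructor
  · rintro ⟨e, rfl⟩
    exact ⟨e, e.2, by rw [Subring.coe_mul, coe_constD]⟩
  · rintro ⟨e, he, hde⟩
    refine ⟨⟨e, he⟩, Subtype.ext ?_⟩
    rw [Subring.coe_mul, coe_constD, hde]

/-- a generator of the maximal ideal in the shape of `PointwiseUnit` -/
theorem hmax_of_span {l : V} (hl : IsLocalRing.maximalIdeal ↥V = Ideal.span {l}) :
    ∀ x : K, V.valuation x < 1 → ∃ y ∈ V, x = (l : K) * y := by
  intro x hx
  have hxV : x ∈ V := (V.valuation_le_one_iff x).mp hx.le
  have hmem : (⟨x, hxV⟩ : V) ∈ IsLocalRing.maximalIdeal ↥V := (V.valuation_lt_one_iff _).mpr hx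
  rw [hl, Ideal.mem_span_singleton] at hmem
  obtain ⟨y, hy⟩ := hmem
  exact ⟨y, y.2, congrArg Subtype.val hy⟩

theorem valuation_lt_one_of_span {l : V} (hl : IsLocalRing.maximalIdeal ↥V = Ideal.span {l}) :
    V.valuation (l : K) < 1 := by
  rw [← V.valuation_lt_one_iff, hl]
  exact Ideal.mem_span_singleton_self l

end Dvd

section Bridge

universe u

variable {K E : Type u} [Field K] [Field E] (φ : K →+* E) (A : ValuationSubring E)

/-- **The bridge**: `DiscRingLocal.evDiscAt` and `PointwiseUnit.evalAt` agree. -/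
theorem coe_evDiscAt_eq_evalAt (t : E) (ht : A.valuation t < 1) (z : discRing (A.comap φ)) :
    (evDiscAt φ A t ht z : E) = PointwiseUnit.evalAt φ A t ht z := by
  obtain ⟨a, s, _, hs, hs0, h⟩ := z.2
  have h1 := evDiscAt_spec φ A t ht z a s h
  have h2 := PointwiseUnit.evalAt_spec t ht z h
  have hne : s.eval₂ φ t ≠ 0 := PointwiseUnit.eval₂_ne_zero hs hs0 ht
  exact mul_right_cancel₀ hne (h1.trans h2.symm)

theorem evDiscAt_ne_zero_iff (t : E) (ht : A.valuation t < 1) (z : discRing (A.comap φ)) :
    evDiscAt φ A t ht z ≠ 0 ↔ PointwiseUnit.evalAt φ A t ht z ≠ 0 := by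
  rw [← coe_evDiscAt_eq_evalAt, Ne, Ne, ← ZeroMemClass.coe_eq_zero]

/-- **The pointwise unit criterion** for `discRing (A.comap φ)`, `𝔪_V = (l)`: `d` is a unit iff
`l ∤ d` and `d` vanishes at no point of the open unit disc of `A`. -/
theorem isUnit_iff_pointwise [IsAlgClosed E] {l : ↥(A.comap φ)}
    (hl : IsLocalRing.maximalIdeal ↥(A.comap φ) = Ideal.span {l}) (d : discRing (A.comap φ)) :
    IsUnit d ↔ ¬ constD (A.comap φ) l ∣ d ∧
      ∀ (t : E) (ht : A.valuation t < 1), evDiscAt φ A t ht d ≠ 0 := by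
  rw [PointwiseUnit.isUnit_iff_pointwise (l : K) (valuation_lt_one_of_span _ hl)
    (hmax_of_span _ hl) d, dvd_iff]
  refine and_congr_right fun _ => ?_
  exact forall_congr' fun t => forall_congr' fun ht => (evDiscAt_ne_zero_iff φ A t ht d).symm

variable (c : Cover)

/-- the constant `l ∈ V` as an element of `B_V` -/
def constB {K : Type*} [Field K] (V : ValuationSubring K) (l : V) : BRing c V :=
  algebraMap (↥V)[X] (BRing c V) (C l)

theorem constB_eq {K : Type*} [Field K] (V : ValuationSubring K) (l : V) :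
    constB c V l = toB c V (constD V l) := rfl

/-- evaluation of `B_V`, `V = A.comap φ`, at a point of the open unit disc of `A` -/
def evDiscAtB (t : E) (ht : A.valuation t < 1) : BRing c (A.comap φ) →+* A :=
  (evDiscAt φ A t ht).comp (toB c (A.comap φ)).symm.toRingHom

theorem evDiscAtB_apply (t : E) (ht : A.valuation t < 1) (b : BRing c (A.comap φ)) :
    evDiscAtB φ A c t ht b = evDiscAt φ A t ht ((toB c (A.comap φ)).symm b) := rfl

theorem evDiscAtB_eq_comp (t : E) (ht : A.valuation t < 1) (b : BRing c (A.comap φ)) :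
    evDiscAtB φ A c t ht b =
      evDiscB c A t ht (bMap c φ (A.comap φ) A (DiscRingLocal.mem_comap_iff φ A) b) := by
  rw [evDiscAtB_apply, evDiscAt_apply, evDiscB_apply, bMap_apply, RingEquiv.symm_apply_apply]

/-- `evDiscAtB` through ANY presentation `b * s(μ) = a(μ)` with `a, s ∈ K[X]`. -/
theorem evDiscAtB_spec (t : E) (ht : A.valuation t < 1) (b : BRing c (A.comap φ)) (a s : K[X])
    (h : (b : MuLine c K) * algebraMap K[X] (MuLine c K) s = algebraMap K[X] (MuLine c K) a) :
    (evDiscAtB φ A c t ht b : E) * s.eval₂ φ t = a.eval₂ φ t := by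
  rw [evDiscAtB_apply]
  apply evDiscAt_spec
  rw [coe_toB_symm]
  have := congrArg (MuLine.of c K).symm h
  rwa [map_mul] at this

theorem evDiscAtB_muB (t : E) (ht : A.valuation t < 1) :
    (evDiscAtB φ A c t ht (muB c (A.comap φ)) : E) = t := by
  rw [evDiscAtB_eq_comp, bMap_muB, evDiscB_muB, coe_discPt]

theorem isUnit_evDiscAtB_iff (t : E) (ht : A.valuation t < 1) (b : BRing c (A.comap φ)) :
    IsUnit (evDiscAtB φ A c t ht b) ↔ IsUnit b := by
  rw [evDiscAtB_eq_comp, isUnit_evDiscB_iff, isUnit_bMap_iff]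

/-- **The pointwise unit criterion** for `B_V = BRing c (A.comap φ)`, `𝔪_V = (l)`. -/
theorem isUnit_iff_pointwise_B [IsAlgClosed E] {l : ↥(A.comap φ)}
    (hl : IsLocalRing.maximalIdeal ↥(A.comap φ) = Ideal.span {l}) (b : BRing c (A.comap φ)) :
    IsUnit b ↔ ¬ constB c (A.comap φ) l ∣ b ∧
      ∀ (t : E) (ht : A.valuation t < 1), evDiscAtB φ A c t ht b ≠ 0 := by
  have hb : b = toB c (A.comap φ) ((toB c (A.comap φ)).symm b) :=
    ((toB c (A.comap φ)).apply_symm_apply b).symm
  have h1 : IsUnit b ↔ IsUnit ((toB c (A.comap φ)).symm b) :=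
    ⟨fun h => h.map (toB c (A.comap φ)).symm, fun h => by
      have := h.map (toB c (A.comap φ))
      rwa [RingEquiv.apply_symm_apply] at this⟩
  have h2 : constB c (A.comap φ) l ∣ b ↔ constD (A.comap φ) l ∣ (toB c (A.comap φ)).symm b := by
    rw [constB_eq]
    constructor
    · rintro ⟨e, he⟩
      refine ⟨(toB c (A.comap φ)).symm e, ?_⟩
      rw [he, map_mul, RingEquiv.symm_apply_apply]
    · rintro ⟨e, he⟩
      refine ⟨toB c (A.comap φ) e, ?_⟩
      rw [← map_mul, ← he, RingEquiv.apply_symm_apply]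
  rw [h1, isUnit_iff_pointwise φ A hl, h2]
  rfl

end Bridge

end Fermat.Agent.S18.C.EvalBridge
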