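import Mathlib
import Fermat.Agent.S18.C.GaussRat
import Fermat.Agent.S18.C.EvalBridge

/-!
# PROJECT H (S18), block C, slice (N1) part (1): the Gauss valuation ring of the `μ`-line at `ℓ`
is the localisation of `B_V = BRing c V` at the prime `(ℓ)`
-/

set_option autoImplicit false
set_option linter.unusedSectionVars false
set_option linter.style.haveILetI false

noncomputable section

namespace Fermat.Agent.S18.C.SurfaceALoc

open Polynomial Fermat.Agent.S18.C.Defs Fermat.Agent.S18.C.SurfaceDefs Fermat.Agent.S18.Purity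
open Fermat.Agent.S18.C.DiscRingLocal Fermat.Agent.S18.C.BRingLocal Fermat.Agent.S18.C.GaussRat

/-! ### `V = ℤ_(ℓ)` -/

section ZLoc

variable {ℓ : ℕ} [Fact ℓ.Prime] {V : ValuationSubring ℚ}

theorem valuation_intCast_le_one (n : ℤ) : V.valuation (n : ℚ) ≤ 1 :=
  (V.valuation_le_one_iff _).mpr (intCast_mem V n)

theorem valuation_intCast_eq_one_iff (hV : V.valuation (ℓ : ℚ) < 1) (n : ℤ) :
    V.valuation (n : ℚ) = 1 ↔ ¬ (ℓ : ℤ) ∣ n := by
  constructor
  · rintro h ⟨k, rfl⟩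
    rw [Int.cast_mul, map_mul, Int.cast_natCast] at h
    have hk := valuation_intCast_le_one (V := V) k
    have : V.valuation (ℓ : ℚ) * V.valuation (k : ℚ) < 1 :=
      lt_of_le_of_lt (mul_le_of_le_one_right' hk) hV
    exact this.ne h
  · intro h
    have hp : Prime (ℓ : ℤ) := Nat.prime_iff_prime_int.mp (Fact.out : ℓ.Prime)
    have hco : IsCoprime (ℓ : ℤ) n := (Prime.coprime_iff_not_dvd hp).mpr h
    obtain ⟨u, w, huw⟩ := hco
    by_contra hne
    have hlt : V.valuation (n : ℚ) < 1 := lt_of_le_of_ne (valuation_intCast_le_one n) hne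
    have h1 : V.valuation ((u : ℚ) * (ℓ : ℚ) + (w : ℚ) * (n : ℚ)) < 1 := by
      refine lt_of_le_of_lt (Valuation.map_add _ _ _) (max_lt ?_ ?_)
      · rw [map_mul]
        exact lt_of_le_of_lt (mul_le_of_le_one_left' (valuation_intCast_le_one u)) hV
      · rw [map_mul]
        exact lt_of_le_of_lt (mul_le_of_le_one_left' (valuation_intCast_le_one w)) hlt
    have h2 : ((u : ℚ) * (ℓ : ℚ) + (w : ℚ) * (n : ℚ)) = 1 := by
      have := congrArg (Int.cast (R := ℚ)) huw
      push_cast at this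
      exact this
    rw [h2, map_one] at h1
    exact lt_irrefl _ h1

theorem not_dvd_den_of_mem (hV : V.valuation (ℓ : ℚ) < 1) {x : ℚ} (hx : x ∈ V) :
    ¬ (ℓ : ℤ) ∣ (x.den : ℤ) := by
  intro hden
  have hp : Prime (ℓ : ℤ) := Nat.prime_iff_prime_int.mp (Fact.out : ℓ.Prime)
  have hnum : ¬ (ℓ : ℤ) ∣ x.num := fun hnum =>
    hp.not_isUnit ((Rat.isCoprime_num_den x).isUnit_of_dvd' hnum hden)
  have h1 : V.valuation (x.num : ℚ) = 1 := (valuation_intCast_eq_one_iff hV _).mpr hnum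
  have h2 : V.valuation ((x.den : ℤ) : ℚ) < 1 :=
    lt_of_le_of_ne (valuation_intCast_le_one _)
      (fun h => (valuation_intCast_eq_one_iff hV _).mp h hden)
  have h3 : x * ((x.den : ℤ) : ℚ) = x.num := by
    rw [Int.cast_natCast]; exact Rat.mul_den_eq_num x
  have h4 := congrArg V.valuation h3
  rw [map_mul, h1] at h4
  have h5 : V.valuation x * V.valuation ((x.den : ℤ) : ℚ) < 1 :=
    lt_of_le_of_lt (mul_le_of_le_one_left' ((V.valuation_le_one_iff x).mpr hx)) h2
  exact h5.ne h4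

/-- clearing the denominator of an element of `V = ℤ_(ℓ)` -/
theorem exists_int_mul_eq (hV : V.valuation (ℓ : ℚ) < 1) {x : ℚ} (hx : x ∈ V) :
    ∃ m n : ℤ, ¬ (ℓ : ℤ) ∣ m ∧ (m : ℚ) * x = n :=
  ⟨x.den, x.num, not_dvd_den_of_mem hV hx, by
    rw [Int.cast_natCast]; exact Rat.den_mul_eq_num x⟩

theorem mem_iff_not_dvd_den (hV : V.valuation (ℓ : ℚ) < 1) (x : ℚ) :
    x ∈ V ↔ ¬ (ℓ : ℤ) ∣ (x.den : ℤ) := by
  refine ⟨not_dvd_den_of_mem hV, fun h => ?_⟩
  have h1 : V.valuation ((x.den : ℤ) : ℚ) = 1 := (valuation_intCast_eq_one_iff hV _).mpr h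
  have h3 : x * ((x.den : ℤ) : ℚ) = x.num := by
    rw [Int.cast_natCast]; exact Rat.mul_den_eq_num x
  have h4 := congrArg V.valuation h3
  rw [map_mul, h1, mul_one] at h4
  rw [← V.valuation_le_one_iff, h4]
  exact valuation_intCast_le_one _

end ZLoc

/-! ### The Gauss prime of `V[X]` and integer polynomials -/

section GaussPrime

variable {K : Type*} [Field K] (V : ValuationSubring K)

/-- the Gauss prime `𝔪_V · V[X]` of `V[X]` -/
def gaussPrime : Ideal (↥V)[X] := (IsLocalRing.maximalIdeal ↥V).map (C : ↥V →+* (↥V)[X])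

instance gaussPrime_isPrime : (gaussPrime V).IsPrime :=
  haveI := (IsLocalRing.maximalIdeal.isMaximal ↥V).isPrime
  Ideal.isPrime_map_C_of_isPrime

variable {V}

theorem mem_gaussPrime {p : (↥V)[X]} :
    p ∈ gaussPrime V ↔ ∀ i, p.coeff i ∈ IsLocalRing.maximalIdeal ↥V := Ideal.mem_map_C_iff

theorem gaussPrime_le_closedPoint : gaussPrime V ≤ closedPoint ↥V := fun _ hp =>
  mem_closedPoint.mpr ((IsLocalRing.mem_maximalIdeal _).mp (mem_gaussPrime.mp hp 0))

theorem C_mem_gaussPrime {l : V} : C l ∈ gaussPrime V ↔ l ∈ IsLocalRing.maximalIdeal ↥V := by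
  rw [mem_gaussPrime]
  constructor
  · intro h
    simpa using h 0
  · intro h i
    rw [coeff_C]
    split_ifs
    · exact h
    · exact zero_mem _

end GaussPrime

section IntPoly

variable {ℓ : ℕ} [Fact ℓ.Prime] (V : ValuationSubring ℚ)

/-- integer polynomials as polynomials over `V` -/
def intPoly : ℤ[X] →+* (↥V)[X] := Polynomial.mapRingHom (Int.castRingHom ↥V)

theorem intPoly_coeff (P : ℤ[X]) (i : ℕ) : (intPoly V P).coeff i = ((P.coeff i : ℤ) : ↥V) := by
  simp [intPoly]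

theorem polyIncl_intPoly (P : ℤ[X]) : polyIncl V (intPoly V P) = P.map (Int.castRingHom ℚ) := by
  ext i
  simp [intPoly_coeff]

variable {V}

theorem intCast_mem_maximalIdeal_iff (hV : V.valuation (ℓ : ℚ) < 1) (n : ℤ) :
    ((n : ℤ) : ↥V) ∈ IsLocalRing.maximalIdeal ↥V ↔ (ℓ : ℤ) ∣ n := by
  rw [IsLocalRing.mem_maximalIdeal, mem_nonunits_iff, V.valuation_eq_one_iff,
    ← not_iff_not, not_not]
  have : (((n : ℤ) : ↥V) : ℚ) = (n : ℚ) := by simp
  rw [this]
  exact valuation_intCast_eq_one_iff hV n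

theorem intPoly_mem_gaussPrime_iff (hV : V.valuation (ℓ : ℚ) < 1) (P : ℤ[X]) :
    intPoly V P ∈ gaussPrime V ↔ P.map (Int.castRingHom (ZMod ℓ)) = 0 := by
  rw [mem_gaussPrime, Polynomial.ext_iff]
  refine forall_congr' fun i => ?_
  rw [intPoly_coeff, intCast_mem_maximalIdeal_iff hV, coeff_map, coeff_zero, eq_intCast,
    ZMod.intCast_zmod_eq_zero_iff_dvd]

/-- clearing the denominators of a polynomial over `V = ℤ_(ℓ)` -/
theorem exists_int_mul_poly (hV : V.valuation (ℓ : ℚ) < 1) (a : (↥V)[X]) :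
    ∃ (m : ℤ) (P : ℤ[X]), ¬ (ℓ : ℤ) ∣ m ∧ C ((m : ℤ) : ↥V) * a = intPoly V P := by
  have hp : Prime (ℓ : ℤ) := Nat.prime_iff_prime_int.mp (Fact.out : ℓ.Prime)
  induction a using Polynomial.induction_on' with
  | add a b ha hb =>
    obtain ⟨m, P, hm, hP⟩ := ha
    obtain ⟨m', P', hm', hP'⟩ := hb
    refine ⟨m * m', C m' * P + C m * P', fun h => (hp.dvd_or_dvd h).elim hm hm', ?_⟩
    rw [map_add, map_mul, map_mul, ← hP, ← hP', Int.cast_mul, C_mul]
    have h1 : intPoly V (C m') = C ((m' : ℤ) : ↥V) := by simp [intPoly]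
    have h2 : intPoly V (C m) = C ((m : ℤ) : ↥V) := by simp [intPoly]
    rw [h1, h2]
    ring
  | monomial n x =>
    obtain ⟨m, k, hm, hk⟩ := exists_int_mul_eq hV x.2
    refine ⟨m, monomial n k, hm, ?_⟩
    have h1 : intPoly V (monomial n k) = monomial n ((k : ℤ) : ↥V) := by simp [intPoly]
    rw [h1, C_mul_monomial]
    congr 1
    apply Subtype.ext
    simpa using hk

end IntPoly

/-! ### The identity `MuLine c K → RatFunc K` as a ring homomorphism (generic in `K`, to avoid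
the `ℚ`-algebra diamond when `K = ℚ`) -/

section SymmHom

variable (c : Cover) (K : Type*) [Field K]

/-- the identity `MuLine c K → RatFunc K` as a ring homomorphism -/
def symmHom : MuLine c K →+* RatFunc K :=
  ((MuLine.of c K).symm : MuLine c K →+* RatFunc K)

theorem symmHom_apply (m : MuLine c K) : symmHom c K m = (MuLine.of c K).symm m := rfl

@[simp] theorem symmHom_ofHom (f : RatFunc K) : symmHom c K (ofHom c f) = f := rfl

@[simp] theorem ofHom_symmHom (m : MuLine c K) : ofHom c (symmHom c K m) = m := rfl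

theorem symmHom_injective : Function.Injective (symmHom c K) := (MuLine.of c K).symm.injective

theorem symmHom_algebraMap (p : K[X]) :
    symmHom c K (algebraMap K[X] (MuLine c K) p) = algebraMap K[X] (RatFunc K) p := rfl

theorem ofHom_algebraMap (p : K[X]) :
    ofHom c (algebraMap K[X] (RatFunc K) p) = algebraMap K[X] (MuLine c K) p := rfl

theorem coe_toB_symm' (V : ValuationSubring K) (b : BRing c V) :
    (((toB c V).symm b : discRing V) : RatFunc K) = symmHom c K (b : MuLine c K) :=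
  coe_toB_symm c V b

end SymmHom

/-! ### The Gauss valuation ring of the `μ`-line -/

section Vmu

variable (c : Cover) (ℓ : ℕ) [Fact ℓ.Prime] (N : ℕ) [NeZero N] (V : ValuationSubring ℚ)

/-- **The Gauss valuation ring of the `μ`-line `ℚ(μ)` at `ℓ`** (`GaussRat.Vrat` read on the
`μ`-line through the identity `RatFunc ℚ ≃ MuLine c ℚ`). -/
def Vmu : ValuationSubring (MuLine c ℚ) := (Vrat ℓ N).comap (symmHom c ℚ)

theorem mem_Vmu {m : MuLine c ℚ} : m ∈ Vmu c ℓ N ↔ symmHom c ℚ m ∈ Vrat ℓ N := Iff.rfl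

/-- a polynomial over `V`, evaluated at `μ` -/
def polyMu : (↥V)[X] →+* MuLine c ℚ := (algebraMap ℚ[X] (MuLine c ℚ)).comp (polyIncl V)

theorem polyMu_apply (p : (↥V)[X]) :
    polyMu c V p = algebraMap ℚ[X] (MuLine c ℚ) (polyIncl V p) := rfl

theorem symm_polyMu (p : (↥V)[X]) :
    symmHom c ℚ (polyMu c V p) = algebraMap ℚ[X] (RatFunc ℚ) (polyIncl V p) := rfl

theorem polyMu_injective : Function.Injective (polyMu c V) := fun _ _ h =>
  polyIncl_injective V (IsFractionRing.injective ℚ[X] (MuLine c ℚ) h)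

theorem coe_algebraMap_B (p : (↥V)[X]) :
    ((algebraMap (↥V)[X] (BRing c V) p : BRing c V) : MuLine c ℚ) = polyMu c V p := rfl

theorem symm_polyMu_intPoly (P : ℤ[X]) :
    symmHom c ℚ (polyMu c V (intPoly V P)) = ofZ P := by
  rw [symm_polyMu, polyIncl_intPoly, ofZ]

variable {V}

/-- two polynomials over `V = ℤ_(ℓ)` with a common denominator prime to `ℓ` -/
theorem exists_int_mul_poly₂ (hV : V.valuation (ℓ : ℚ) < 1) (a s : (↥V)[X]) :
    ∃ (m : ℤ) (P Q : ℤ[X]), ¬ (ℓ : ℤ) ∣ m ∧ C ((m : ℤ) : ↥V) * a = intPoly V P ∧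
      C ((m : ℤ) : ↥V) * s = intPoly V Q := by
  have hp : Prime (ℓ : ℤ) := Nat.prime_iff_prime_int.mp (Fact.out : ℓ.Prime)
  obtain ⟨m, P, hm, hP⟩ := exists_int_mul_poly hV a
  obtain ⟨m', Q, hm', hQ⟩ := exists_int_mul_poly hV s
  have h1 : intPoly V (C m') = C ((m' : ℤ) : ↥V) := by simp [intPoly]
  have h2 : intPoly V (C m) = C ((m : ℤ) : ↥V) := by simp [intPoly]
  refine ⟨m * m', C m' * P, C m * Q, fun h => (hp.dvd_or_dvd h).elim hm hm', ?_, ?_⟩
  · rw [map_mul, ← hP, h1, Int.cast_mul, C_mul]; ring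
  · rw [map_mul, ← hQ, h2, Int.cast_mul, C_mul]; ring

theorem C_intCast_notMem_gaussPrime (hV : V.valuation (ℓ : ℚ) < 1) {m : ℤ} (hm : ¬ (ℓ : ℤ) ∣ m) :
    C ((m : ℤ) : ↥V) ∉ gaussPrime V := by
  rw [C_mem_gaussPrime, intCast_mem_maximalIdeal_iff hV]
  exact hm

/-- **Membership in the Gauss valuation ring of the `μ`-line in terms of `V[X]`**: fractions
`a(μ)/s(μ)` with `a, s ∈ V[X]`, `s ∉ 𝔪_V V[X]`. -/
theorem mem_Vmu_iff_poly (hV : V.valuation (ℓ : ℚ) < 1) (m : MuLine c ℚ) :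
    m ∈ Vmu c ℓ N ↔ ∃ a s : (↥V)[X], s ∉ gaussPrime V ∧ m * polyMu c V s = polyMu c V a := by
  rw [mem_Vmu, mem_Vrat_iff]
  constructor
  · rintro ⟨P, Q, hQ, h⟩
    refine ⟨intPoly V P, intPoly V Q, fun hmem => hQ ((intPoly_mem_gaussPrime_iff hV Q).mp hmem),
      symmHom_injective c ℚ ?_⟩
    rw [map_mul, symm_polyMu_intPoly, symm_polyMu_intPoly, h]
  · rintro ⟨a, s, hs, h⟩
    obtain ⟨k, P, Q, hk, hP, hQ⟩ := exists_int_mul_poly₂ ℓ hV a s
    refine ⟨P, Q, fun h0 => ?_, ?_⟩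
    · have hmem : intPoly V Q ∈ gaussPrime V := (intPoly_mem_gaussPrime_iff hV Q).mpr h0
      rw [← hQ] at hmem
      exact ((gaussPrime_isPrime V).mem_or_mem hmem).elim (C_intCast_notMem_gaussPrime ℓ hV hk) hs
    · rw [← symm_polyMu_intPoly c V P, ← symm_polyMu_intPoly c V Q, ← hP, ← hQ, map_mul, map_mul,
        map_mul, map_mul, ← h, map_mul]
      ring

variable (V)

theorem polyMu_mem_Vmu (hV : V.valuation (ℓ : ℚ) < 1) (p : (↥V)[X]) :
    polyMu c V p ∈ Vmu c ℓ N :=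
  (mem_Vmu_iff_poly c ℓ N hV _).mpr ⟨p, 1, (gaussPrime V).primeCompl.one_mem, by simp⟩

theorem inv_polyMu_mem_Vmu (hV : V.valuation (ℓ : ℚ) < 1) {s : (↥V)[X]} (hs : s ∉ gaussPrime V) :
    (polyMu c V s)⁻¹ ∈ Vmu c ℓ N := by
  have hs0 : s ≠ 0 := fun h => hs (h ▸ zero_mem _)
  have hne : polyMu c V s ≠ 0 := fun h => hs0 (polyMu_injective c V (by rw [h, map_zero]))
  exact (mem_Vmu_iff_poly c ℓ N hV _).mpr ⟨1, s, hs, by rw [inv_mul_cancel₀ hne, map_one]⟩

/-- `B_V ⊆` the Gauss valuation ring. -/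
theorem BRing_le_Vmu (hV : V.valuation (ℓ : ℚ) < 1) {m : MuLine c ℚ} (hm : m ∈ BRing c V) :
    m ∈ Vmu c ℓ N := by
  obtain ⟨a, s, hs, h⟩ := exists_presentation V ((toB c V).symm ⟨m, hm⟩)
  rw [coe_toB_symm'] at h
  refine (mem_Vmu_iff_poly c ℓ N hV _).mpr ⟨a, s, fun hmem => ?_, ?_⟩
  · exact (mem_closedPoint.mp (gaussPrime_le_closedPoint hmem)) hs
  · have := congrArg (ofHom c) h
    rwa [map_mul, ofHom_symmHom] at this

end Vmu

/-! ### The algebra structures and the localisation statements -/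

section Loc

variable (c : Cover) (ℓ : ℕ) [Fact ℓ.Prime] (N : ℕ) [NeZero N] (V : ValuationSubring ℚ)
  [hV : Fact (V.valuation (ℓ : ℚ) < 1)]

/-- the inclusion `B_V → Vmu` -/
def inclB : BRing c V →+* Vmu c ℓ N where
  toFun b := ⟨(b : MuLine c ℚ), BRing_le_Vmu c ℓ N V hV.out b.2⟩
  map_one' := rfl
  map_mul' _ _ := rfl
  map_zero' := rfl
  map_add' _ _ := rfl

instance algBVmu : Algebra (BRing c V) (Vmu c ℓ N) := (inclB c ℓ N V).toAlgebra

instance algPolyVmu : Algebra (↥V)[X] (Vmu c ℓ N) :=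
  ((inclB c ℓ N V).comp (algebraMap (↥V)[X] (BRing c V))).toAlgebra

instance : IsScalarTower (↥V)[X] (BRing c V) (Vmu c ℓ N) :=
  IsScalarTower.of_algebraMap_eq fun _ => rfl

instance : IsScalarTower (BRing c V) (Vmu c ℓ N) (MuLine c ℚ) :=
  IsScalarTower.of_algebraMap_eq fun _ => rfl

@[simp] theorem coe_algebraMap_BVmu (b : BRing c V) :
    ((algebraMap (BRing c V) (Vmu c ℓ N) b : Vmu c ℓ N) : MuLine c ℚ) = (b : MuLine c ℚ) := rfl

@[simp] theorem coe_algebraMap_polyVmu (p : (↥V)[X]) :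
    ((algebraMap (↥V)[X] (Vmu c ℓ N) p : Vmu c ℓ N) : MuLine c ℚ) = polyMu c V p := rfl

theorem algebraMap_BVmu_injective : Function.Injective (algebraMap (BRing c V) (Vmu c ℓ N)) :=
  fun _ _ h => Subtype.ext (by
    have h' := congrArg (Subtype.val : ↥(Vmu c ℓ N) → MuLine c ℚ) h
    exact h')

/-- **The Gauss valuation ring of the `μ`-line is the localisation of `V[X]` at the Gauss prime
`𝔪_V V[X]`.** -/
instance instIsLocalizationAtPrimeVmu : IsLocalization.AtPrime (Vmu c ℓ N) (gaussPrime V) := by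
  show IsLocalization (gaussPrime V).primeCompl (Vmu c ℓ N)
  rw [isLocalization_iff]
  refine ⟨?_, ?_, ?_⟩
  · rintro ⟨s, hs⟩
    have hs' : s ∉ gaussPrime V := hs
    have hs0 : s ≠ 0 := fun h => hs' (h ▸ zero_mem _)
    have hne : polyMu c V s ≠ 0 := fun h => hs0 (polyMu_injective c V (by rw [h, map_zero]))
    refine IsUnit.of_mul_eq_one (⟨_, inv_polyMu_mem_Vmu c ℓ N V hV.out hs'⟩ : Vmu c ℓ N) ?_
    apply Subtype.ext
    show polyMu c V s * (polyMu c V s)⁻¹ = 1
    exact mul_inv_cancel₀ hne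
  · intro z
    obtain ⟨a, s, hs, h⟩ := (mem_Vmu_iff_poly c ℓ N hV.out _).mp z.2
    exact ⟨(a, ⟨s, hs⟩), Subtype.ext h⟩
  · intro x y h
    exact ⟨1, by rw [polyMu_injective c V (congrArg Subtype.val h)]⟩

/-- the multiplicative set `B_V ∖ (ℓ)` (image of `V[X] ∖ 𝔪_V V[X]`) -/
def gaussMonoid : Submonoid (BRing c V) :=
  (gaussPrime V).primeCompl.map (algebraMap (↥V)[X] (BRing c V))

/-- **The Gauss valuation ring of the `μ`-line is the localisation of `B_V` at `(ℓ)`.** -/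
instance instIsLocalizationVmu : IsLocalization (gaussMonoid c V) (Vmu c ℓ N) :=
  IsLocalization.isLocalization_of_submonoid_le (BRing c V) (Vmu c ℓ N)
    (closedPoint ↥V).primeCompl (gaussPrime V).primeCompl
    (fun _ hx hmem => hx (gaussPrime_le_closedPoint hmem))

/-- a constant of the maximal ideal of `V` is not a unit of the Gauss valuation ring -/
theorem not_isUnit_constB {l : V} (hl : l ∈ IsLocalRing.maximalIdeal ↥V) :
    ¬ IsUnit (algebraMap (BRing c V) (Vmu c ℓ N) (EvalBridge.constB c V l)) := by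
  have h1 : algebraMap (BRing c V) (Vmu c ℓ N) (EvalBridge.constB c V l) =
      algebraMap (↥V)[X] (Vmu c ℓ N) (C l) := rfl
  rw [h1, IsLocalization.AtPrime.isUnit_to_map_iff (Vmu c ℓ N) (gaussPrime V)]
  exact fun h => h (C_mem_gaussPrime.mpr hl)

end Loc

end Fermat.Agent.S18.C.SurfaceALoc
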