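import Mathlib
import Fermat.Agent.S18.C.SurfaceALoc
import Fermat.Agent.S18.C.DiscSubst

/-!
# PROJECT H (S18), block C, slice (N1) part (2): the cover `j = P(μ)/Q(μ)` maps the Gauss valuation
ring of the `j`-line into the Gauss valuation ring of the `μ`-line

* generic in the field `K` (no `ℚ`-algebra diamond): `ofK`, `phi c K` (the cover as an endomorphism
  of `RatFunc K`), `homZ` (homogenisation over `ℤ`), `phi_mul_ofK`, `map_homZ_ne_zero`;
* **`covMap_mem_Vmu`** : `f ∈ Vrat ℓ N → algebraMap (RatFunc ℚ) (MuLine c ℚ) f ∈ Vmu c ℓ N`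
  for a cover `c` with `[c.Good ℚ] [c.Good (ZMod ℓ)]`;
* `covV : Vrat ℓ N →+* Vmu c ℓ N`, instance `Algebra (Vrat ℓ N) (Vmu c ℓ N)` and the scalar tower.
-/

set_option autoImplicit false
set_option linter.unusedSectionVars false

noncomputable section

namespace Fermat.Agent.S18.C.CovGauss

open Polynomial Fermat.Agent.S18.C.Defs Fermat.Agent.S18.C.SurfaceDefs
open Fermat.Agent.S18.C.BRingLocal Fermat.Agent.S18.C.GaussRat Fermat.Agent.S18.C.SurfaceALoc

/-! ### Homogenisation over `ℤ` -/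

/-- the homogenisation `∑_{i ≤ D} p_i T^i B^(D-i)` over `ℤ` -/
def homZ (T B p : ℤ[X]) (D : ℕ) : ℤ[X] :=
  ∑ i ∈ Finset.range (D + 1), C (p.coeff i) * T ^ i * B ^ (D - i)

theorem map_homZ {K : Type*} [Field K] (T B p : ℤ[X]) (D : ℕ) :
    (homZ T B p D).map (Int.castRingHom K) =
      DiscSubst.hom (T.map (Int.castRingHom K)) (B.map (Int.castRingHom K))
        (p.map (Int.castRingHom K)) D := by
  unfold homZ DiscSubst.hom
  rw [Polynomial.map_sum]
  refine Finset.sum_congr rfl fun i _ => ?_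
  rw [Polynomial.map_mul, Polynomial.map_mul, Polynomial.map_pow, Polynomial.map_pow,
    Polynomial.map_C, coeff_map]

/-! ### The cover as an endomorphism of `RatFunc K` -/

section Generic

variable (c : Cover) (K : Type*) [Field K]

/-- an integer polynomial as a rational function over `K` -/
def ofK (P : ℤ[X]) : RatFunc K := algebraMap K[X] (RatFunc K) (P.map (Int.castRingHom K))

theorem ofZ_eq_ofK (P : ℤ[X]) : ofZ P = ofK ℚ P := rfl

variable [c.Good K]

/-- the cover `j ↦ P(μ)/Q(μ)` as an endomorphism of `RatFunc K` -/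
def phi : RatFunc K →ₐ[K] RatFunc K :=
  ((MuLine.of c K).symm : MuLine c K →ₐ[K] RatFunc K).comp (c.covMap K)

theorem phi_apply (f : RatFunc K) :
    phi c K f = symmHom c K (algebraMap (RatFunc K) (MuLine c K) f) := rfl

theorem QK_ne_zero : c.QK K ≠ 0 := by
  intro h0
  have h1 : c.jOf K = 0 := by rw [Cover.jOf, h0, map_zero, div_zero]
  have h2 : Transcendental K (c.jOf K) := Cover.Good.transc
  rw [h1] at h2
  exact h2 isAlgebraic_zero

theorem phi_X : phi c K RatFunc.X = c.jOf K := by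
  rw [phi_apply, Cover.algebraMap_X]
  rfl

theorem phi_X_mul :
    phi c K RatFunc.X * algebraMap K[X] (RatFunc K) (c.QK K) =
      algebraMap K[X] (RatFunc K) (c.PK K) := by
  have hne : algebraMap K[X] (RatFunc K) (c.QK K) ≠ 0 := fun h =>
    QK_ne_zero c K (IsFractionRing.injective K[X] (RatFunc K) (by rw [h, map_zero]))
  rw [phi_X, Cover.jOf, div_mul_cancel₀ _ hne]

/-- **Substituting the cover in a fraction of integer polynomials.** -/
theorem phi_mul_ofK {f : RatFunc K} {P1 Q1 : ℤ[X]} (h : f * ofK K Q1 = ofK K P1) {D : ℕ}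
    (hP : P1.natDegree ≤ D) (hQ : Q1.natDegree ≤ D) :
    phi c K f * ofK K (homZ c.P c.Q Q1 D) = ofK K (homZ c.P c.Q P1 D) := by
  have hP' : (P1.map (Int.castRingHom K)).natDegree ≤ D := natDegree_map_le.trans hP
  have hQ' : (Q1.map (Int.castRingHom K)).natDegree ≤ D := natDegree_map_le.trans hQ
  have e1 := DiscSubst.map_mul_pow_eq_hom (phi c K) (phi_X_mul c K) hP'
  have e2 := DiscSubst.map_mul_pow_eq_hom (phi c K) (phi_X_mul c K) hQ'
  have e3 : phi c K f * phi c K (ofK K Q1) = phi c K (ofK K P1) := by rw [← map_mul, h]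
  unfold ofK at e3 ⊢
  rw [map_homZ, map_homZ]
  show phi c K f * algebraMap K[X] (RatFunc K)
      (DiscSubst.hom (c.PK K) (c.QK K) (Q1.map (Int.castRingHom K)) D) =
    algebraMap K[X] (RatFunc K) (DiscSubst.hom (c.PK K) (c.QK K) (P1.map (Int.castRingHom K)) D)
  rw [← e1, ← e2, ← e3]
  ring

/-- the homogenisation of a nonzero polynomial along the cover is nonzero -/
theorem map_homZ_ne_zero {Q1 : ℤ[X]} (hQ1 : Q1.map (Int.castRingHom K) ≠ 0) {D : ℕ}
    (hQ : Q1.natDegree ≤ D) : (homZ c.P c.Q Q1 D).map (Int.castRingHom K) ≠ 0 := by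
  have hQ' : (Q1.map (Int.castRingHom K)).natDegree ≤ D := natDegree_map_le.trans hQ
  have e2 := DiscSubst.map_mul_pow_eq_hom (phi c K) (phi_X_mul c K) hQ'
  rw [map_homZ]
  intro h0
  have h0' : DiscSubst.hom (c.PK K) (c.QK K) (Q1.map (Int.castRingHom K)) D = 0 := h0
  rw [h0', map_zero] at e2
  have hinj : Function.Injective (algebraMap K[X] (RatFunc K)) :=
    IsFractionRing.injective K[X] (RatFunc K)
  rcases mul_eq_zero.mp e2 with h | h
  · have h1 : algebraMap K[X] (RatFunc K) (Q1.map (Int.castRingHom K)) = 0 :=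
      (phi c K).toRingHom.injective (by rw [AlgHom.toRingHom_eq_coe, RingHom.coe_coe, h, map_zero])
    exact hQ1 (hinj (by rw [h1, map_zero]))
  · have hne : algebraMap K[X] (RatFunc K) (c.QK K) ≠ 0 := fun h1 =>
      QK_ne_zero c K (hinj (by rw [h1, map_zero]))
    exact pow_ne_zero D hne h

end Generic

/-! ### The Gauss valuation rings -/

section Main

variable (ℓ : ℕ) [Fact ℓ.Prime] (N : ℕ) [NeZero N] (c : Cover) [c.Good ℚ] [c.Good (ZMod ℓ)]

/-- **The cover maps the Gauss valuation ring of the `j`-line into the Gauss valuation ring of the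
`μ`-line.** -/
theorem covMap_mem_Vmu {f : RatFunc ℚ} (hf : f ∈ Vrat ℓ N) :
    algebraMap (RatFunc ℚ) (MuLine c ℚ) f ∈ Vmu c ℓ N := by
  obtain ⟨P1, Q1, hQ1, h⟩ := (mem_Vrat_iff ℓ N f).mp hf
  rw [mem_Vmu, mem_Vrat_iff]
  refine ⟨homZ c.P c.Q P1 (max P1.natDegree Q1.natDegree),
    homZ c.P c.Q Q1 (max P1.natDegree Q1.natDegree),
    map_homZ_ne_zero c (ZMod ℓ) hQ1 (le_max_right _ _), ?_⟩
  exact phi_mul_ofK c ℚ h (le_max_left _ _) (le_max_right _ _)

/-- the same statement on `RatFunc ℚ` (the `μ`-line read as `RatFunc ℚ`) -/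
theorem covMap_mem_Vrat {f : RatFunc ℚ} (hf : f ∈ Vrat ℓ N) :
    symmHom c ℚ (algebraMap (RatFunc ℚ) (MuLine c ℚ) f) ∈ Vrat ℓ N :=
  covMap_mem_Vmu ℓ N c hf

/-- the cover on the Gauss valuation rings -/
def covV : ↥(Vrat ℓ N) →+* ↥(Vmu c ℓ N) where
  toFun x := ⟨algebraMap (RatFunc ℚ) (MuLine c ℚ) (x : RatFunc ℚ), covMap_mem_Vmu ℓ N c x.2⟩
  map_one' := Subtype.ext (map_one _)
  map_mul' _ _ := Subtype.ext (map_mul _ _ _)
  map_zero' := Subtype.ext (map_zero _)
  map_add' _ _ := Subtype.ext (map_add _ _ _)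

@[simp] theorem coe_covV (x : ↥(Vrat ℓ N)) :
    ((covV ℓ N c x : ↥(Vmu c ℓ N)) : MuLine c ℚ) =
      algebraMap (RatFunc ℚ) (MuLine c ℚ) (x : RatFunc ℚ) := rfl

instance algVratVmu : Algebra ↥(Vrat ℓ N) ↥(Vmu c ℓ N) := (covV ℓ N c).toAlgebra

instance : IsScalarTower ↥(Vrat ℓ N) ↥(Vmu c ℓ N) (MuLine c ℚ) :=
  IsScalarTower.of_algebraMap_eq fun _ => rfl

theorem covV_injective : Function.Injective (covV ℓ N c) := fun x y h => by
  have h' := congrArg (Subtype.val : ↥(Vmu c ℓ N) → MuLine c ℚ) h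
  exact Subtype.ext ((algebraMap (RatFunc ℚ) (MuLine c ℚ)).injective h')

end Main

end Fermat.Agent.S18.C.CovGauss
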