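/-
PROJECT H (S18), block C, slice H-C6b part 6 (helper9): THE SEPARABILITY INPUT `hsep` OF `C/GaussDVR`
IS CLOSED (from `B/SeparableFk`, helper10), hence `OwFull` IS FINITE ÉTALE OVER THE GAUSS VALUATION
RING OF THE `j`-LINE, UNCONDITIONALLY (`ℓ ∤ N`).
-/
import Mathlib
import Fermat.Agent.S18.C.GaussRat
import Fermat.Agent.S18.B.SeparableFk

set_option autoImplicit false
set_option linter.unusedSectionVars false

noncomputable section

namespace Fermat.Agent.S18.C.GaussSep

open ModularCurve IntermediateField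
open Fermat.Agent.S28 Fermat.Agent.S28.GaussFull
open Fermat.Agent.S18.C.UnramVal Fermat.Agent.S18.C.GaussDVR Fermat.Agent.S18.C.GaussDVR2
open Fermat.Agent.S18.C.GaussRat Fermat.Agent.S18.B.FkBasics

section Generic

variable {K L : Type*} [Field K] [Field L] [Algebra K L]

/-- separability of `M` over `K(x)` does not depend on where `K(x)` is formed: inside `M` or inside
the ambient field `L`. -/
theorem isSeparable_adjoin_inside (M : IntermediateField K L) (x : ↥M)
    (M' : IntermediateField K L) (hM : M' = M)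
    (hle : IntermediateField.adjoin K {(x : L)} ≤ M') [Algebra.IsSeparable ↥K⟮x⟯ ↥M] :
    letI : Algebra ↥(IntermediateField.adjoin K {(x : L)}) ↥M' :=
      (IntermediateField.inclusion hle).toRingHom.toAlgebra
    Algebra.IsSeparable ↥(IntermediateField.adjoin K {(x : L)}) ↥M' := by
  subst hM
  letI : Algebra ↥(IntermediateField.adjoin K {(x : L)}) ↥M' :=
    (IntermediateField.inclusion hle).toRingHom.toAlgebra
  have h1 : (K⟮x⟯).map M'.val = IntermediateField.adjoin K {(x : L)} := by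
    rw [IntermediateField.adjoin_map, Set.image_singleton]
    rfl
  let i : ↥K⟮x⟯ ≃+* ↥(IntermediateField.adjoin K {(x : L)}) :=
    ((IntermediateField.equivMap K⟮x⟯ M'.val).trans (IntermediateField.equivOfEq h1)).toRingEquiv
  refine Algebra.IsSeparable.of_equiv_equiv i (RingEquiv.refl ↥M') ?_
  ext c
  rfl

end Generic

variable (ℓ : ℕ) [Fact ℓ.Prime] (N : ℕ) [NeZero N]

attribute [local instance] algRes algBelow

/-- **the residue extension of `OwFull` over the Gauss valuation ring of the `j`-line is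
separable**: `𝔽_ℓ(J(q^d) : d ∣ N)` over `𝔽_ℓ(J)`. -/
theorem isSeparable_res (hℓN : ¬ ℓ ∣ N) : Algebra.IsSeparable ↥(kJ ℓ) ↥(resField ℓ N) := by
  haveI := Fermat.Agent.S18.B.SeparableFk.isSeparable_jk (ZMod ℓ) N
  exact isSeparable_adjoin_inside (modularFunctionFieldFullC (ZMod ℓ) N) (jk (ZMod ℓ) N)
    (resField ℓ N) (resField_eq ℓ N hℓN) (kJ_le_resField ℓ N)

/-- **`OwFull` is finite étale over the Gauss valuation ring of `ℚ(j) = ℚ⟮jFull N⟯`.** -/
theorem finEt_Vj (hℓN : ¬ ℓ ∣ N) :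
    Fermat.Agent.S18.C.FinEt.FinEt ↥(Vj ℓ N) ↥(OwFull ℓ N) :=
  GaussDVR2.finEt ℓ N hℓN (isSeparable_res ℓ N hℓN)

/-- **`OwFull` is finite étale over the Gauss valuation ring of the `j`-line `RatFunc ℚ`.** -/
theorem finEt_Vrat (hℓN : ¬ ℓ ∣ N) :
    Fermat.Agent.S18.C.FinEt.FinEt ↥(Vrat ℓ N) ↥(OwFull ℓ N) :=
  finEtRat ℓ N hℓN (isSeparable_res ℓ N hℓN)

/-- the `UnramVal` package over `RatFunc ℚ` together with the unit discriminant of its basis. -/
theorem exists_hypRat_isUnit_discr (hℓN : ¬ ℓ ∣ N) :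
    ∃ (t : Fin (Module.finrank ↥(Ej N) ↥(modularFunctionFieldFull N)) → ↥(OwFull ℓ N))
      (h : Hyp (RatFunc ℚ) (OwFull ℓ N) (red ℓ N) (redVrat ℓ N) t),
      IsUnit (Algebra.discr ↥(Vrat ℓ N) h.basisV) := by
  obtain ⟨t, h⟩ := hypRat ℓ N hℓN
  haveI := isSeparable_res ℓ N hℓN
  exact ⟨t, h, h.isUnit_discr⟩

end Fermat.Agent.S18.C.GaussSep
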