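/-
PROJECT H (S18), block C, slice (S2a) part 1 (helper9): ABSTRACT FORM OF "`ℓ ∤ d`".

`M` a field, `R` a finite free `M`-algebra, `B ≤ W` subrings of `M` with `M = Frac B`,
`W` integrally closed in `M` and "a localisation of `B`" (`hloc`).  If `R` has an `M`-basis `t` of
`W`-integral elements whose trace matrix lies in `W` and has unit determinant there (the base change
of a finite étale algebra over a smaller ring), then for EVERY `B`-basis `b` of the integral closure
of `B` in `R` the discriminant `discr B b` is a unit of `W`.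

Application: `M = ℚ(μ)`, `B = B_Q = ℤ_(ℓ)[μ]_(ℓ,μ)`, `W` = the Gauss valuation ring `ℤ_(ℓ)[μ]_(ℓ)`,
`R = F0 ⊗_{ℚ(j)} ℚ(μ)`, `t` = the lifted residue basis of `OwFull` over the Gauss ring of the `j`-line.
-/
import Mathlib
import Fermat.Agent.S18.C.FinEt

set_option autoImplicit false
set_option linter.unusedSectionVars false

noncomputable section

namespace Fermat.Agent.S18.C.SurfaceAAbs

open Module Polynomial
open scoped Matrix

variable {M R : Type*} [Field M] [CommRing R] [Algebra M R]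

/-- integrality over a smaller subring -/
theorem isIntegral_of_le {B W : Subring M} (hBW : B ≤ W) {x : R} (hx : IsIntegral ↥B x) :
    IsIntegral ↥W x := by
  obtain ⟨p, hp, hpx⟩ := hx
  refine ⟨p.map (Subring.inclusion hBW), hp.map _, ?_⟩
  rw [Polynomial.eval₂_map]
  exact hpx

/-- elements of `W` are integral over `W` inside `R`. -/
theorem isIntegral_smul_of_mem {W : Subring M} {w : M} (hw : w ∈ W) {x : R}
    (hx : IsIntegral ↥W x) : IsIntegral ↥W (w • x) := by
  have h1 : IsIntegral ↥W (algebraMap ↥W R ⟨w, hw⟩) := isIntegral_algebraMap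
  have h2 : w • x = algebraMap ↥W R ⟨w, hw⟩ * x := by
    rw [Algebra.smul_def]
    rfl
  rw [h2]
  exact h1.mul hx

/-- **(T2) in situ**: the coordinates of a `W`-integral element in a `W`-integral basis with unit
discriminant lie in `W`. -/
theorem repr_mem_of_isIntegral (W : Subring M) (hWcl : ∀ m : M, IsIntegral ↥W m → m ∈ W)
    {n : ℕ} (t : Basis (Fin n) M R) (ht : ∀ i, IsIntegral ↥W (t i))
    (GW : Matrix (Fin n) (Fin n) ↥W)
    (hGW : ∀ i j, ((GW i j : ↥W) : M) = Algebra.trace M R (t i * t j))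
    (hdet : IsUnit GW.det) {x : R} (hx : IsIntegral ↥W x) (k : Fin n) : t.repr x k ∈ W := by
  classical
  have hfin : FiniteDimensional M R := Module.Finite.of_basis t
  have hint : ∀ j, IsIntegral ↥W (x * t j) := fun j => hx.mul (ht j)
  have htr : ∀ j, Algebra.trace M R (x * t j) ∈ W := fun j =>
    hWcl _ (Fermat.Agent.S18.C.FinEt.isIntegral_trace_of_isIntegral (hint j))
  set r : Fin n → ↥W := fun j => ⟨Algebra.trace M R (x * t j), htr j⟩ with hr
  set c : Fin n → M := fun i => t.repr x i with hc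
  have hxsum : x = ∑ i, c i • t i := (t.sum_repr x).symm
  have ht' : ∀ j, ((r j : ↥W) : M) = ∑ i, c i * ((GW i j : ↥W) : M) := by
    intro j
    show Algebra.trace M R (x * t j) = _
    conv_lhs => rw [hxsum, Finset.sum_mul, map_sum]
    refine Finset.sum_congr rfl fun i _ => ?_
    rw [smul_mul_assoc, map_smul, smul_eq_mul, hGW]
  have hck : c k = ((∑ j, r j * GW⁻¹ j k : ↥W) : M) := by
    have h1 : ((∑ j, r j * GW⁻¹ j k : ↥W) : M)
        = ∑ i, c i * (((GW * GW⁻¹) i k : ↥W) : M) := by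
      rw [AddSubmonoidClass.coe_finsetSum]
      have h2 : ∀ j, (((r j * GW⁻¹ j k : ↥W)) : M) =
          ∑ i, c i * ((GW i j : ↥W) : M) * ((GW⁻¹ j k : ↥W) : M) := by
        intro j
        rw [Subring.coe_mul, ht', Finset.sum_mul]
      have h3 : ∀ i, c i * (((GW * GW⁻¹) i k : ↥W) : M) =
          ∑ j, c i * ((GW i j : ↥W) : M) * ((GW⁻¹ j k : ↥W) : M) := by
        intro i
        rw [Matrix.mul_apply, AddSubmonoidClass.coe_finsetSum, Finset.mul_sum]
        refine Finset.sum_congr rfl fun j _ => ?_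
        rw [Subring.coe_mul, mul_assoc]
      simp_rw [h2, h3]
      exact Finset.sum_comm
    rw [h1, Matrix.mul_nonsing_inv GW hdet, Finset.sum_eq_single k]
    · simp
    · intro i _ hik
      simp [Matrix.one_apply_ne hik]
    · intro h
      exact absurd (Finset.mem_univ k) h
  show c k ∈ W
  rw [hck]
  exact Subtype.property _

/-- **a `W`-integral element has a `B`-integral multiple** by an element of `B` invertible in `W`
(`W` is a localisation of `B`). -/
theorem exists_smul_isIntegral {B W : Subring M} (hBW : B ≤ W)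
    (hloc : ∀ w ∈ W, ∃ s ∈ B, s ≠ 0 ∧ s⁻¹ ∈ W ∧ s * w ∈ B) {x : R} (hx : IsIntegral ↥W x) :
    ∃ s ∈ B, s ≠ 0 ∧ s⁻¹ ∈ W ∧ IsIntegral ↥B (s • x) := by
  let S : Submonoid ↥B :=
    { carrier := {s | (s : M) ≠ 0 ∧ (s : M)⁻¹ ∈ W}
      one_mem' := ⟨by simp, by simpa using W.one_mem⟩
      mul_mem' := by
        rintro a b ⟨ha0, ha⟩ ⟨hb0, hb⟩
        refine ⟨by simpa using mul_ne_zero ha0 hb0, ?_⟩
        rw [Subring.coe_mul, mul_inv]
        exact W.mul_mem ha hb }
  letI : Algebra ↥B ↥W := (Subring.inclusion hBW).toAlgebra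
  haveI : IsScalarTower ↥B ↥W R := IsScalarTower.of_algebraMap_eq fun _ => rfl
  haveI : IsLocalization S ↥W :=
    { map_units := by
        rintro ⟨s, hs0, hsinv⟩
        exact IsUnit.of_mul_eq_one (⟨(s : M)⁻¹, hsinv⟩ : ↥W)
          (Subtype.ext (mul_inv_cancel₀ hs0))
      surj := by
        intro w
        obtain ⟨s, hsB, hs0, hsinv, hsw⟩ := hloc w w.2
        exact ⟨(⟨s * w, hsw⟩, ⟨⟨s, hsB⟩, hs0, hsinv⟩), Subtype.ext (mul_comm _ _)⟩
      exists_of_eq := by
        intro a b hab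
        refine ⟨1, ?_⟩
        have : a = b := Subtype.ext (congrArg (fun z : ↥W => (z : M)) hab)
        rw [this] }
  obtain ⟨⟨s, hs0, hsinv⟩, hs⟩ :=
    IsIntegral.exists_multiple_integral_of_isLocalization S (Rₘ := ↥W) x hx
  exact ⟨s, s.2, hs0, hsinv, hs⟩

section Main

variable (B W : Subring M) [IsFractionRing ↥B M]
variable {ι : Type*} [Fintype ι] [DecidableEq ι] (b : Basis ι ↥B ↥(integralClosure ↥B R))

/-- the basis vectors as elements of `R` -/
def bR (i : ι) : R := ((b i : ↥(integralClosure ↥B R)) : R)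

theorem coe_eq_sum (y : ↥(integralClosure ↥B R)) :
    (y : R) = ∑ i, ((b.repr y i : ↥B) : M) • bR B b i := by
  conv_lhs => rw [← b.sum_repr y]
  rw [AddSubmonoidClass.coe_finsetSum]
  refine Finset.sum_congr rfl fun i _ => ?_
  rfl

theorem linearIndependent_bR : LinearIndependent M (bR B b) := by
  have h1 : LinearIndependent ↥B (bR B b) := by
    have := b.linearIndependent.map' (integralClosure ↥B R).val.toLinearMap
      (LinearMap.ker_eq_bot.mpr Subtype.val_injective)
    exact this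
  exact h1.localization M (nonZeroDivisors ↥B)

variable {B W}

theorem span_bR_eq_top (hBW : B ≤ W)
    (hloc : ∀ w ∈ W, ∃ s ∈ B, s ≠ 0 ∧ s⁻¹ ∈ W ∧ s * w ∈ B)
    {n : ℕ} (t : Basis (Fin n) M R) (ht : ∀ i, IsIntegral ↥W (t i)) :
    ⊤ ≤ Submodule.span M (Set.range (bR B b)) := by
  rw [← t.span_eq, Submodule.span_le]
  rintro _ ⟨k, rfl⟩
  obtain ⟨s, hsB, hs0, -, hs⟩ := exists_smul_isIntegral hBW hloc (ht k)
  have h1 : s • t k ∈ Submodule.span M (Set.range (bR B b)) := by
    have h2 := coe_eq_sum B b ⟨s • t k, hs⟩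
    rw [show ((⟨s • t k, hs⟩ : ↥(integralClosure ↥B R)) : R) = s • t k from rfl] at h2
    rw [h2]
    exact Submodule.sum_mem _ fun i _ =>
      Submodule.smul_mem _ _ (Submodule.subset_span ⟨i, rfl⟩)
  have h3 : t k = s⁻¹ • (s • t k) := by rw [smul_smul, inv_mul_cancel₀ hs0, one_smul]
  rw [SetLike.mem_coe, h3]
  exact Submodule.smul_mem _ _ h1

/-- the `B`-basis `b` of the integral closure as an `M`-basis of `R` -/
def bM (hBW : B ≤ W) (hloc : ∀ w ∈ W, ∃ s ∈ B, s ≠ 0 ∧ s⁻¹ ∈ W ∧ s * w ∈ B)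
    {n : ℕ} (t : Basis (Fin n) M R) (ht : ∀ i, IsIntegral ↥W (t i)) : Basis ι M R :=
  Basis.mk (linearIndependent_bR B b) (span_bR_eq_top b hBW hloc t ht)

theorem bM_apply (hBW : B ≤ W) (hloc : ∀ w ∈ W, ∃ s ∈ B, s ≠ 0 ∧ s⁻¹ ∈ W ∧ s * w ∈ B)
    {n : ℕ} (t : Basis (Fin n) M R) (ht : ∀ i, IsIntegral ↥W (t i)) (i : ι) :
    bM b hBW hloc t ht i = bR B b i := by
  rw [bM, Basis.mk_apply]

theorem bM_repr_coe (hBW : B ≤ W) (hloc : ∀ w ∈ W, ∃ s ∈ B, s ≠ 0 ∧ s⁻¹ ∈ W ∧ s * w ∈ B)
    {n : ℕ} (t : Basis (Fin n) M R) (ht : ∀ i, IsIntegral ↥W (t i))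
    (y : ↥(integralClosure ↥B R)) (i : ι) :
    (bM b hBW hloc t ht).repr (y : R) i = ((b.repr y i : ↥B) : M) := by
  have h := coe_eq_sum B b y
  have h2 : (y : R) = ∑ j, ((b.repr y j : ↥B) : M) • bM b hBW hloc t ht j := by
    rw [h]
    exact Finset.sum_congr rfl fun j _ => by rw [bM_apply]
  rw [h2, Basis.repr_sum_self]

/-- the trace of an element of the integral closure, computed over `B` or over `M` -/
theorem trace_coe (b : Basis ι ↥B ↥(integralClosure ↥B R)) (hBW : B ≤ W)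
    (hloc : ∀ w ∈ W, ∃ s ∈ B, s ≠ 0 ∧ s⁻¹ ∈ W ∧ s * w ∈ B)
    {n : ℕ} (t : Basis (Fin n) M R) (ht : ∀ i, IsIntegral ↥W (t i))
    (y : ↥(integralClosure ↥B R)) :
    Algebra.trace M R (y : R) = ((Algebra.trace ↥B ↥(integralClosure ↥B R) y : ↥B) : M) := by
  rw [Algebra.trace_eq_matrix_trace (bM b hBW hloc t ht), Algebra.trace_eq_matrix_trace b,
    Matrix.trace, Matrix.trace, AddSubmonoidClass.coe_finsetSum]
  refine Finset.sum_congr rfl fun i _ => ?_
  rw [Matrix.diag_apply, Matrix.diag_apply, Algebra.leftMulMatrix_eq_repr_mul,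
    Algebra.leftMulMatrix_eq_repr_mul, bM_apply]
  exact bM_repr_coe b hBW hloc t ht (y * b i) i

theorem discr_bM (hBW : B ≤ W) (hloc : ∀ w ∈ W, ∃ s ∈ B, s ≠ 0 ∧ s⁻¹ ∈ W ∧ s * w ∈ B)
    {n : ℕ} (t : Basis (Fin n) M R) (ht : ∀ i, IsIntegral ↥W (t i)) :
    Algebra.discr M (bM b hBW hloc t ht) = ((Algebra.discr ↥B b : ↥B) : M) := by
  rw [Algebra.discr_def, Algebra.discr_def]
  have h1 : Algebra.traceMatrix M (bM b hBW hloc t ht) =
      (B.subtype).mapMatrix (Algebra.traceMatrix ↥B b) := by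
    ext i j
    rw [RingHom.mapMatrix_apply, Matrix.map_apply, Algebra.traceMatrix_apply,
      Algebra.traceMatrix_apply, Algebra.traceForm_apply, Algebra.traceForm_apply, bM_apply,
      bM_apply]
    exact trace_coe b hBW hloc t ht (b i * b j)
  rw [h1, ← RingHom.map_det]
  rfl

/-- **Abstract (S2a)**: the discriminant of any `B`-basis of the integral closure of `B` in `R` is
a unit of `W`. -/
theorem exists_inv_discr_mem (hBW : B ≤ W)
    (hloc : ∀ w ∈ W, ∃ s ∈ B, s ≠ 0 ∧ s⁻¹ ∈ W ∧ s * w ∈ B)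
    {n : ℕ} (t : Basis (Fin n) M R) (ht : ∀ i, IsIntegral ↥W (t i))
    (hWcl : ∀ m : M, IsIntegral ↥W m → m ∈ W)
    (GW : Matrix (Fin n) (Fin n) ↥W)
    (hGW : ∀ i j, ((GW i j : ↥W) : M) = Algebra.trace M R (t i * t j))
    (hdet : IsUnit GW.det) :
    ∃ u ∈ W, u * ((Algebra.discr ↥B b : ↥B) : M) = 1 := by
  classical
  set β := bM b hBW hloc t ht with hβ
  let e : ι ≃ Fin n := β.indexEquiv t
  set β' : Basis (Fin n) M R := β.reindex e with hβ'
  -- the two transition matrices have entries in `W`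
  have hP : ∀ k k', t.repr (β' k') k ∈ W := by
    intro k k'
    refine repr_mem_of_isIntegral W hWcl t ht GW hGW hdet ?_ k
    rw [hβ', Basis.reindex_apply, hβ, bM_apply]
    exact isIntegral_of_le hBW (b (e.symm k')).2
  have hP' : ∀ k' k, β'.repr (t k) k' ∈ W := by
    intro k' k
    obtain ⟨s, hsB, hs0, hsinv, hs⟩ := exists_smul_isIntegral hBW hloc (ht k)
    have h3 : t k = s⁻¹ • ((⟨s • t k, hs⟩ : ↥(integralClosure ↥B R)) : R) := by
      show t k = s⁻¹ • (s • t k)
      rw [smul_smul, inv_mul_cancel₀ hs0, one_smul]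
    rw [hβ', Basis.repr_reindex_apply, h3, map_smul, Finsupp.smul_apply, hβ, bM_repr_coe, smul_eq_mul]
    exact W.mul_mem hsinv (hBW (Subtype.property _))
  set PW : Matrix (Fin n) (Fin n) ↥W := fun k k' => ⟨t.repr (β' k') k, hP k k'⟩ with hPW
  set PW' : Matrix (Fin n) (Fin n) ↥W := fun k' k => ⟨β'.repr (t k) k', hP' k' k⟩ with hPW'
  have hPmap : t.toMatrix β' = (W.subtype).mapMatrix PW := by
    ext k k'
    rfl
  have hPmap' : β'.toMatrix t = (W.subtype).mapMatrix PW' := by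
    ext k' k
    rfl
  have hmul : PW * PW' = 1 := by
    have h1 := t.toMatrix_mul_toMatrix_flip β'
    rw [hPmap, hPmap', ← map_mul] at h1
    have hinj : Function.Injective ((W.subtype).mapMatrix (m := Fin n)) := by
      intro X Y hXY
      ext i j
      have := congrFun (congrFun hXY i) j
      simpa using this
    apply hinj
    rw [h1, map_one]
  have hdetP : PW.det * PW'.det = 1 := by rw [← Matrix.det_mul, hmul, Matrix.det_one]
  -- discriminants
  have hdt : Algebra.discr M t = ((GW.det : ↥W) : M) := by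
    rw [Algebra.discr_def]
    have h1 : Algebra.traceMatrix M t = (W.subtype).mapMatrix GW := by
      ext i j
      rw [RingHom.mapMatrix_apply, Matrix.map_apply, Algebra.traceMatrix_apply,
        Algebra.traceForm_apply]
      exact (hGW i j).symm
    rw [h1, ← RingHom.map_det]
    rfl
  have hdβ' : Algebra.discr M β' = ((PW.det ^ 2 * GW.det : ↥W) : M) := by
    rw [Fermat.Agent.S18.C.FinEt.discr_eq_det_sq_mul t β', hdt, hPmap, ← RingHom.map_det]
    rfl
  have hdβ : Algebra.discr M β' = ((Algebra.discr ↥B b : ↥B) : M) := by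
    rw [hβ', Basis.coe_reindex, Algebra.discr_reindex, hβ, discr_bM]
  obtain ⟨v, hv⟩ := hdet.exists_left_inv
  refine ⟨((PW'.det ^ 2 * v : ↥W) : M), Subtype.property _, ?_⟩
  rw [← hdβ, hdβ', ← Subring.coe_mul]
  have : PW'.det ^ 2 * v * (PW.det ^ 2 * GW.det) = 1 := by
    calc PW'.det ^ 2 * v * (PW.det ^ 2 * GW.det)
        = (PW.det * PW'.det) ^ 2 * (v * GW.det) := by ring
      _ = 1 := by rw [hdetP, hv, one_pow, one_mul]
  rw [this]
  rfl

end Main

end Fermat.Agent.S18.C.SurfaceAAbs
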