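import Fermat.Agent.S18.C.SurfaceDefs
import Fermat.Agent.S18.C.BRingLocal
import Fermat.Agent.S18.C.RAlgStructure
import Fermat.Agent.S18.Purity.FreeNormalizationPi

/-!
# PROJECT H (S18), block C: the normalisation `C_V` is free over `B_V`

Integration of `Purity.free_integralClosure_pi` (finite étale version of (P1)) with the
architect's `SurfaceDefs` and the instances of `C/BRingLocal`: for a discrete valuation subring
`V` of a field `K` of characteristic zero and a finite field extension `F` of `K(j)`, the
integral closure `CInt c F V` of `BRing c V = V[μ]_(𝔪_V, μ)` in `RAlg c K F = F ⊗_{K(j)} K(μ)`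
(a finite product of fields) is a free `BRing c V`-module of rank `[F : K(j)]`.

* `free_CInt`, `finrank_CInt`, `finite_CInt`;
* `basisCInt` : a basis indexed by `Fin [F : K(j)]`;
* `discrCInt` : its discriminant, the element `d` of `BRing c V` of the purity argument.
-/

set_option autoImplicit false

noncomputable section

namespace Fermat.Agent.S18.C.SurfaceFree

open Polynomial Fermat.Agent.S18.C.Defs Fermat.Agent.S18.C.SurfaceDefs
  Fermat.Agent.S18.C.BRingLocal Fermat.Agent.S18.Purity

attribute [local instance] Ideal.Quotient.field

variable (c : Cover) {K : Type*} [Field K] [CharZero K] [c.Good K] (V : ValuationSubring K)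
  [IsDiscreteValuationRing ↥V]
variable (F : Type*) [Field F] [Algebra (RatFunc K) F] [FiniteDimensional (RatFunc K) F]

instance instCharZeroMuLine : CharZero (MuLine c K) := inferInstanceAs (CharZero (RatFunc K))

instance instIsIntegralClosureCInt :
    IsIntegralClosure (CInt c F V) (BRing c V) (RAlg c K F) :=
  integralClosure.isIntegralClosure _ _

/-- **The normalisation is free.** `CInt c F V` is a free `BRing c V`-module of rank
`[F : K(j)]`. -/
theorem free_CInt : Module.Free (BRing c V) (CInt c F V) ∧
    Module.finrank (BRing c V) (CInt c F V) = Module.finrank (RatFunc K) F := by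
  have := RAlgStructure.finite_mu c K F
  have := RAlgStructure.isReduced c K F
  have h := free_integralClosure_pi_regularLocal (↥V) (BRing c V) (MuLine c K) (RAlg c K F)
    (CInt c F V) (fun _ => Algebra.IsAlgebraic.isSeparable_of_perfectField)
  rw [RAlgStructure.finrank_mu c K F] at h
  exact h

theorem finrank_CInt :
    Module.finrank (BRing c V) (CInt c F V) = Module.finrank (RatFunc K) F := (free_CInt c V F).2

theorem free_CInt' : Module.Free (BRing c V) (CInt c F V) := (free_CInt c V F).1

theorem finite_CInt : Module.Finite (BRing c V) (CInt c F V) := by
  have := free_CInt' c V F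
  apply Module.finite_of_finrank_pos
  rw [finrank_CInt]
  exact Module.finrank_pos

/-- A basis of the normalisation `CInt c F V` over `BRing c V`, indexed by `Fin [F : K(j)]`. -/
def basisCInt : Module.Basis (Fin (Module.finrank (RatFunc K) F)) (BRing c V) (CInt c F V) :=
  haveI := free_CInt' c V F
  haveI := finite_CInt c V F
  Module.finBasisOfFinrankEq (BRing c V) (CInt c F V) (finrank_CInt c V F)

/-- The discriminant of the normalisation (with respect to `basisCInt`). -/
def discrCInt : BRing c V := Algebra.discr (BRing c V) (basisCInt c V F)

end Fermat.Agent.S18.C.SurfaceFree
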