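/-
PROJECT H (S18), block C, slice (N1) = (S2a) (helper9): `ℓ ∤ d`.

`V = ℤ_(ℓ) ⊆ ℚ` (`GaussZl.Over ℓ V`), `B_Q = BRing c V`, `C_Q = CInt c F0 V` the integral closure of
`B_Q` in `R_Q = F0 ⊗_{ℚ(j)} ℚ(μ)`, `F0 = modularFunctionFieldFull N`, `ℓ ∤ N`.  For EVERY `B_Q`-basis
`b` of `C_Q`, the discriminant `discr B_Q b` is a unit of the Gauss valuation ring `Wmu` of the
`μ`-line, hence is not divisible by `ℓ` in `B_Q` (`not_constB_dvd_discr`, the shape of
`EvalBridge.isUnit_iff_pointwise_B`).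

Input `hcov`: the covering map `ℚ(j) → ℚ(μ)` maps the Gauss valuation ring of the `j`-line into the
Gauss valuation ring of the `μ`-line.
-/
import Mathlib
import Fermat.Agent.S18.C.SurfaceAAbs
import Fermat.Agent.S18.C.GaussZl
import Fermat.Agent.S18.C.GaussSep
import Fermat.Agent.S18.C.SurfaceFree
import Fermat.Agent.S18.C.EvalBridge

set_option autoImplicit false
set_option linter.unusedSectionVars false

attribute [-instance] DivisionRing.toRatAlgebra

noncomputable section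

namespace Fermat.Agent.S18.C.SurfaceA

open Polynomial ModularCurve
open Fermat.Agent.S28 Fermat.Agent.S28.GaussFull
open Fermat.Agent.S18.C.Defs Fermat.Agent.S18.C.SurfaceDefs Fermat.Agent.S18.C.BRingLocal
open Fermat.Agent.S18.C.UnramVal Fermat.Agent.S18.C.GaussDVR Fermat.Agent.S18.C.GaussRat
open Fermat.Agent.S18.C.GaussZl Fermat.Agent.S18.C.ModularInst Fermat.Agent.S18.C.RAlgStructure

variable (ℓ : ℕ) [Fact ℓ.Prime] (N : ℕ) [NeZero N] (c : Cover) [c.Good ℚ]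

attribute [local instance] algRes algBelow

/-- the `μ`-line to `RatFunc ℚ` -/
abbrev unMu : MuLine c ℚ →+* RatFunc ℚ := ((MuLine.of c ℚ).symm : MuLine c ℚ →+* RatFunc ℚ)

/-- **the Gauss valuation ring of the `μ`-line** -/
def Wmu : ValuationSubring (MuLine c ℚ) := (Vrat ℓ N).comap (unMu c)

theorem mem_Wmu {m : MuLine c ℚ} : m ∈ Wmu ℓ N c ↔ (MuLine.of c ℚ).symm m ∈ Vrat ℓ N := Iff.rfl

/-- the hypothesis: the covering map respects the Gauss valuation rings -/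
def Hcov : Prop :=
  ∀ f ∈ Vrat ℓ N, (MuLine.of c ℚ).symm (algebraMap (RatFunc ℚ) (MuLine c ℚ) f) ∈ Vrat ℓ N

variable {ℓ N c}

section

variable {V : ValuationSubring ℚ}

theorem BRing_le_Wmu (hV : Over ℓ V) : BRing c V ≤ (Wmu ℓ N c).toSubring := by
  intro m hm
  rw [mem_BRing] at hm
  exact discRing_le_Vrat N hV hm

theorem ofZ_mem_discRing (P : ℤ[X]) : ofZ P ∈ discRing V :=
  algebraMap_mem_discRing V (map_int_mem_polyV P)

theorem ofZ_ne_zero {Q : ℤ[X]} (hQ : Q.map (Int.castRingHom (ZMod ℓ)) ≠ 0) : ofZ Q ≠ 0 := by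
  intro h
  apply hQ
  have h1 : Q.map (Int.castRingHom ℚ) = 0 := by
    have := (map_eq_zero_iff _ (IsFractionRing.injective ℚ[X] (RatFunc ℚ))).mp h
    exact this
  have h2 : Q = 0 :=
    (Polynomial.map_eq_zero_iff (RingHom.injective_int (Int.castRingHom ℚ))).mp h1
  rw [h2, Polynomial.map_zero]

/-- `Wmu` is a localisation of `B_Q` -/
theorem hloc (w : MuLine c ℚ) (hw : w ∈ (Wmu ℓ N c).toSubring) :
    ∃ s ∈ BRing c V, s ≠ 0 ∧ s⁻¹ ∈ (Wmu ℓ N c).toSubring ∧ s * w ∈ BRing c V := by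
  obtain ⟨P, Q, hQ, h⟩ := (mem_Vrat_iff ℓ N ((MuLine.of c ℚ).symm w)).mp hw
  have hQ0 := ofZ_ne_zero hQ
  refine ⟨MuLine.of c ℚ (ofZ Q), ?_, ?_, ?_, ?_⟩
  · rw [mem_BRing, AlgEquiv.symm_apply_apply]
    exact ofZ_mem_discRing Q
  · exact (map_ne_zero_iff _ (MuLine.of c ℚ).injective).mpr hQ0
  · show (MuLine.of c ℚ).symm ((MuLine.of c ℚ (ofZ Q))⁻¹) ∈ Vrat ℓ N
    rw [map_inv₀, AlgEquiv.symm_apply_apply, mem_Vrat_iff]
    exact ⟨1, Q, hQ, by rw [inv_mul_cancel₀ hQ0, ofZ, Polynomial.map_one, map_one]⟩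
  · rw [mem_BRing, map_mul, AlgEquiv.symm_apply_apply, mul_comm, h]
    exact ofZ_mem_discRing P

end

/-- `Wmu` is integrally closed in the `μ`-line -/
theorem hWcl (m : MuLine c ℚ) (hm : IsIntegral ↥(Wmu ℓ N c).toSubring m) :
    m ∈ (Wmu ℓ N c).toSubring := by
  have h1 : IsIntegral ↥(Wmu ℓ N c) m := hm
  obtain ⟨y, hy⟩ := (IsIntegrallyClosed.isIntegral_iff (R := ↥(Wmu ℓ N c))
    (K := MuLine c ℚ)).mp h1
  rw [← hy]
  exact y.2

section Main

/-- the restriction of the covering map to the Gauss valuation rings -/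
def covW (hcov : Hcov ℓ N c) : ↥(Vrat ℓ N) →+* ↥(Wmu ℓ N c).toSubring :=
  RingHom.codRestrict ((algebraMap (RatFunc ℚ) (MuLine c ℚ)).comp (Vrat ℓ N).subtype)
    (Wmu ℓ N c).toSubring (fun x => hcov x.1 x.2)

theorem coe_covW (hcov : Hcov ℓ N c) (x : ↥(Vrat ℓ N)) :
    ((covW hcov x : ↥(Wmu ℓ N c).toSubring) : MuLine c ℚ) =
      algebraMap (RatFunc ℚ) (MuLine c ℚ) (x : RatFunc ℚ) := rfl

/-- `OwFull → R_Q` -/
def toR : ↥(OwFull ℓ N) →+* RAlg c ℚ ↥(modularFunctionFieldFull N) :=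
  ((incF c ℚ ↥(modularFunctionFieldFull N) : _ →+* _)).comp (OwFull ℓ N).subtype

theorem toR_apply (x : ↥(OwFull ℓ N)) :
    toR (c := c) x = incF c ℚ ↥(modularFunctionFieldFull N) (x : ↥(modularFunctionFieldFull N)) :=
  rfl

theorem toR_algebraMap (r : ↥(Vrat ℓ N)) :
    toR (c := c) (algebraMap ↥(Vrat ℓ N) ↥(OwFull ℓ N) r) =
      algebraMap (MuLine c ℚ) (RAlg c ℚ ↥(modularFunctionFieldFull N))
        (algebraMap (RatFunc ℚ) (MuLine c ℚ) (r : RatFunc ℚ)) := by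
  rw [toR_apply, algebraMap_below_eq, coe_incl,
    ← IsScalarTower.algebraMap_apply (RatFunc ℚ) (MuLine c ℚ)
      (RAlg c ℚ ↥(modularFunctionFieldFull N))]
  exact (incF c ℚ ↥(modularFunctionFieldFull N)).commutes (r : RatFunc ℚ)

/-- **(S2a), unit form**: for every `B_Q`-basis `b` of `C_Q`, the discriminant is a unit of the
Gauss valuation ring of the `μ`-line. -/
theorem exists_inv_discr_mem_Wmu (hℓN : ¬ ℓ ∣ N) (hcov : Hcov ℓ N c)
    {V : ValuationSubring ℚ} (hV : Over ℓ V)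
    {ι : Type*} [Fintype ι] [DecidableEq ι]
    (b : Module.Basis ι ↥(BRing c V) ↥(CInt c ↥(modularFunctionFieldFull N) V)) :
    ∃ u ∈ Wmu ℓ N c, u * ((Algebra.discr ↥(BRing c V) b : ↥(BRing c V)) : MuLine c ℚ) = 1 := by
  classical
  obtain ⟨t₀, h, hu⟩ := GaussSep.exists_hypRat_isUnit_discr ℓ N hℓN
  set n := Module.finrank ↥(Ej N) ↥(modularFunctionFieldFull N) with hn
  -- the `ℚ(μ)`-basis of `R_Q`
  set t : Module.Basis (Fin n) (MuLine c ℚ) (RAlg c ℚ ↥(modularFunctionFieldFull N)) :=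
    muBasis c ℚ ↥(modularFunctionFieldFull N) h.basisE with ht
  have htb : ∀ i, t i = toR (c := c) (h.basisV i) := by
    intro i
    rw [ht, muBasis_apply, h.basisE_apply, h.basisV_apply, toR_apply]
  -- integrality
  have hint : ∀ i, IsIntegral ↥(Wmu ℓ N c).toSubring (t i) := by
    intro i
    have := h.finite
    obtain ⟨p, hp, hpx⟩ := IsIntegral.of_finite ↥(Vrat ℓ N) (h.basisV i)
    refine ⟨p.map (covW hcov), hp.map _, ?_⟩
    rw [Polynomial.eval₂_map, htb]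
    have h1 := Polynomial.hom_eval₂ p (algebraMap ↥(Vrat ℓ N) ↥(OwFull ℓ N)) (toR (c := c))
      (h.basisV i)
    rw [hpx, map_zero] at h1
    rw [h1]
    congr 1
    ext r
    exact (toR_algebraMap r).symm
  -- the trace matrix
  set GW : Matrix (Fin n) (Fin n) ↥(Wmu ℓ N c).toSubring :=
    (covW hcov).mapMatrix (Algebra.traceMatrix ↥(Vrat ℓ N) h.basisV) with hGWdef
  have hGW : ∀ i j, ((GW i j : ↥(Wmu ℓ N c).toSubring) : MuLine c ℚ) =
      Algebra.trace (MuLine c ℚ) (RAlg c ℚ ↥(modularFunctionFieldFull N)) (t i * t j) := by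
    intro i j
    rw [hGWdef, RingHom.mapMatrix_apply, Matrix.map_apply, coe_covW, Algebra.traceMatrix_apply,
      Algebra.traceForm_apply, htb i, htb j, ← map_mul (toR (c := c))]
    exact (trace_map ((algebraMap (RatFunc ℚ) (MuLine c ℚ)).comp (Vrat ℓ N).subtype)
      (toR (c := c)) h.basisV t (fun r => toR_algebraMap r) htb (h.basisV i * h.basisV j)).symm
  have hdet : IsUnit GW.det := by
    rw [hGWdef, ← RingHom.map_det]
    exact hu.map (covW hcov)
  exact SurfaceAAbs.exists_inv_discr_mem b (BRing_le_Wmu hV) (hloc (V := V)) t hint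
    hWcl GW hGW hdet

/-- **(S2a)**: `ℓ` does not divide the discriminant of any `B_Q`-basis of `C_Q` (the shape of
`EvalBridge.isUnit_iff_pointwise_B`). -/
theorem not_constB_dvd_discr (hℓN : ¬ ℓ ∣ N) (hcov : Hcov ℓ N c)
    {V : ValuationSubring ℚ} (hV : Over ℓ V)
    {ι : Type*} [Fintype ι] [DecidableEq ι]
    (b : Module.Basis ι ↥(BRing c V) ↥(CInt c ↥(modularFunctionFieldFull N) V)) :
    ¬ EvalBridge.constB c V (ell hV) ∣ Algebra.discr ↥(BRing c V) b := by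
  rintro ⟨e, he⟩
  obtain ⟨u, hu, hud⟩ := exists_inv_discr_mem_Wmu hℓN hcov hV b
  have he' : ((Algebra.discr ↥(BRing c V) b : ↥(BRing c V)) : MuLine c ℚ) =
      MuLine.of c ℚ (RatFunc.C (ℓ : ℚ)) * (e : MuLine c ℚ) := by
    rw [he, Subring.coe_mul, EvalBridge.constB_eq, coe_toB, EvalBridge.coe_constD, coe_ell]
  set x : RatFunc ℚ := (MuLine.of c ℚ).symm (u * (e : MuLine c ℚ)) with hx
  have hxV : x ∈ Vrat ℓ N :=
    (Wmu ℓ N c).mul_mem _ _ hu (BRing_le_Wmu (N := N) hV e.2)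
  have h1 : (1 : RatFunc ℚ) = RatFunc.C (ℓ : ℚ) * x := by
    have h2 : MuLine.of c ℚ (RatFunc.C (ℓ : ℚ) * x) = 1 := by
      rw [map_mul, hx, AlgEquiv.apply_symm_apply, ← hud, he']
      ring
    have h3 := congrArg (MuLine.of c ℚ).symm h2
    rw [AlgEquiv.symm_apply_apply, map_one] at h3
    exact h3.symm
  rw [Vrat_eq_gaussRing N hV] at hxV
  exact GaussRing.not_C_mul_of_isUnit (valuation_ell_lt_one hV)
    (d := (1 : ↥(GaussRing.gaussRing V))) isUnit_one ⟨x, hxV, h1⟩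

/-- **(S2a)** for the chosen basis `SurfaceFree.basisCInt`: `ℓ ∤ d`. -/
theorem not_constB_dvd_discrCInt (hℓN : ¬ ℓ ∣ N) (hcov : Hcov ℓ N c)
    {V : ValuationSubring ℚ} (hV : Over ℓ V) [IsDiscreteValuationRing ↥V] :
    ¬ EvalBridge.constB c V (ell hV) ∣
      SurfaceFree.discrCInt c V ↥(modularFunctionFieldFull N) :=
  not_constB_dvd_discr hℓN hcov hV (SurfaceFree.basisCInt c V ↥(modularFunctionFieldFull N))

end Main

end Fermat.Agent.S18.C.SurfaceA
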