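/-
PROJECT H (S18), block C, slice (N1) = (S2a), FINAL (helper9): `ℓ ∤ d`, UNCONDITIONAL.

`SurfaceA.Hcov` is discharged by `CovGauss.covMap_mem_Vrat` (helper14) for a cover `c` with
`[c.Good ℚ] [c.Good (ZMod ℓ)]`.  Hence for `V = ℤ_(ℓ) ⊆ ℚ` (`GaussZl.Over ℓ V`, e.g.
`V = A.comap (algebraMap ℚ ℚ̄)` with `A.LiesOverPrime ℓ`: `GaussZl.over_comap`), `ℓ ∤ N`:
the discriminant of EVERY `B_Q`-basis of `C_Q = CInt c F0 V` is not divisible by `ℓ` in
`B_Q = BRing c V` - the first conjunct of `EvalBridge.isUnit_iff_pointwise_B` (with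
`hl := GaussZl.maximalIdeal_eq_span hV`).
-/
import Mathlib
import Fermat.Agent.S18.C.SurfaceA
import Fermat.Agent.S18.C.CovGauss

set_option autoImplicit false
set_option linter.unusedSectionVars false

noncomputable section

namespace Fermat.Agent.S18.C.SurfaceAFinal

open ModularCurve
open Fermat.Agent.S18.C.Defs Fermat.Agent.S18.C.SurfaceDefs Fermat.Agent.S18.C.GaussZl
open Fermat.Agent.S18.C.SurfaceA

variable {ℓ : ℕ} [Fact ℓ.Prime] {N : ℕ} [NeZero N] {c : Cover} [c.Good ℚ] [c.Good (ZMod ℓ)]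
  {V : ValuationSubring ℚ}

/-- **`Hcov`**: the covering map respects the Gauss valuation rings. -/
theorem hcov : Hcov ℓ N c := fun _ hf => CovGauss.covMap_mem_Vrat ℓ N c hf

/-- **(S2a)**: the discriminant of every `B_Q`-basis of `C_Q` is a unit of the Gauss valuation ring
of the `μ`-line. -/
theorem exists_inv_discr_mem_Wmu (hℓN : ¬ ℓ ∣ N) (hV : Over ℓ V)
    {ι : Type*} [Fintype ι] [DecidableEq ι]
    (b : Module.Basis ι ↥(BRing c V) ↥(CInt c ↥(modularFunctionFieldFull N) V)) :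
    ∃ u ∈ Wmu ℓ N c, u * ((Algebra.discr ↥(BRing c V) b : ↥(BRing c V)) : MuLine c ℚ) = 1 :=
  SurfaceA.exists_inv_discr_mem_Wmu hℓN hcov hV b

/-- **(S2a)**: `ℓ ∤ discr b` for every `B_Q`-basis `b` of `C_Q`. -/
theorem not_constB_dvd_discr (hℓN : ¬ ℓ ∣ N) (hV : Over ℓ V)
    {ι : Type*} [Fintype ι] [DecidableEq ι]
    (b : Module.Basis ι ↥(BRing c V) ↥(CInt c ↥(modularFunctionFieldFull N) V)) :
    ¬ EvalBridge.constB c V (ell hV) ∣ Algebra.discr ↥(BRing c V) b :=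
  SurfaceA.not_constB_dvd_discr hℓN hcov hV b

/-- **(S2a)** for the chosen basis: `ℓ ∤ discrCInt`. -/
theorem not_constB_dvd_discrCInt (hℓN : ¬ ℓ ∣ N) (hV : Over ℓ V)
    [IsDiscreteValuationRing ↥V] :
    ¬ EvalBridge.constB c V (ell hV) ∣
      SurfaceFree.discrCInt c V ↥(modularFunctionFieldFull N) :=
  SurfaceA.not_constB_dvd_discrCInt hℓN hcov hV

/-- **(S2a)** for `V = A ∩ ℚ`, `A` a valuation ring of `ℚ̄` over `ℓ`, any generator `l` of the
maximal ideal given as `ell`. -/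
theorem not_constB_dvd_discrCInt_comap (hℓN : ¬ ℓ ∣ N)
    (A : ValuationSubring (AlgebraicClosure ℚ)) (hA : A.LiesOverPrime ℓ)
    [IsDiscreteValuationRing ↥(A.comap (algebraMap ℚ (AlgebraicClosure ℚ)))] :
    ¬ EvalBridge.constB c (A.comap (algebraMap ℚ (AlgebraicClosure ℚ)))
        (ell (over_comap ℓ A hA)) ∣
      SurfaceFree.discrCInt c (A.comap (algebraMap ℚ (AlgebraicClosure ℚ)))
        ↥(modularFunctionFieldFull N) :=
  not_constB_dvd_discrCInt hℓN (over_comap ℓ A hA)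

end Fermat.Agent.S18.C.SurfaceAFinal
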