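/-
PROJECT H (S18), block C, slice (Σ2): BASE CHANGE OF THE NORMALISATION `C_Q ⟶ C_A` (helper7).

General form (`K → L` fields of characteristic zero, `V = A ∩ K` a DVR, `F0 / K(j)` finite,
`e : F0 → F'` a form map carrying a `K(j)`-basis to an `L(j)`-basis): if the discriminant
`SurfaceFree.discrCInt c V F0` of the normalisation `C_V = CInt c F0 V` is a unit of `B_V`, then

* `basisCA`  : the images `compR (basisCInt i)` form a `B_A`-basis of `C_A = CInt c F' A`;
* `discr_basisCA` : its discriminant is `bMap (discrCInt)`;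
* `finEt_CA` : `FinEt (BRing c A) (CInt c F' A)`;
* `finrank_CA`.

Instantiated for `ℚ → ℚ̄`, `F0 = modularFunctionFieldFull N`, `F' = modularFunctionFieldBar N`
(`basisCABar`, `finEt_CABar`, `finrank_CABar = dedekindPsi N`).
-/
import Mathlib
import Fermat.Agent.S18.C.SurfaceFree
import Fermat.Agent.S18.C.BaseChangeR
import Fermat.Agent.S18.C.IntegralBasisFrac

set_option autoImplicit false
set_option linter.unusedSectionVars false
set_option linter.style.haveILetI false

noncomputable section

namespace Fermat.Agent.S18.C.SurfaceCA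

open Module Polynomial TensorProduct
open Fermat.Agent.S18.C.Defs Fermat.Agent.S18.C.SurfaceDefs Fermat.Agent.S18.C.BRingLocal
  Fermat.Agent.S18.C.RAlgStructure Fermat.Agent.S18.C.BaseChangeR Fermat.Agent.S18.C.FinEt

/-! ### the two `ratMap`s agree -/

section RatMap

variable (K L : Type*) [Field K] [Field L] [Algebra K L]

theorem ratMap_eq : BaseChangeR.ratMap K L = DiscRingLocal.ratMap (algebraMap K L) := by
  refine ratFunc_ringHom_ext K (fun a => ?_) ?_
  · rw [BaseChangeR.ratMap_C, DiscRingLocal.ratMap_C]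
  · rw [BaseChangeR.ratMap_X, DiscRingLocal.ratMap_X]

variable (c : Cover) (V : ValuationSubring K) (A : ValuationSubring L)
  (h : ∀ x, x ∈ V ↔ algebraMap K L x ∈ A)

/-- `bMap` is the restriction of `muMap`. -/
theorem coe_bMap_eq_muMap (r : BRing c V) :
    ((bMap c (algebraMap K L) V A h r : BRing c A) : MuLine c L) =
      muMap c K L (r : MuLine c K) := by
  rw [coe_bMap, ← ratMap_eq]
  rfl

end RatMap

/-! ### the general base change -/

section General

variable (c : Cover) (K L : Type*) [Field K] [Field L] [Algebra K L] [CharZero K]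
  [c.Good K] [c.Good L]
  (V : ValuationSubring K) [IsDiscreteValuationRing ↥V] (A : ValuationSubring L)
  (h : ∀ x, x ∈ V ↔ algebraMap K L x ∈ A)
  {F0 F' : Type*} [Field F0] [Field F'] [Algebra (RatFunc K) F0]
  [FiniteDimensional (RatFunc K) F0] [Algebra (RatFunc L) F'] (e : F0 →+* F')
  (he : ∀ a : RatFunc K, e (algebraMap (RatFunc K) F0 a) = algebraMap (RatFunc L) F' (ratMap K L a))
  {ι : Type*} (b : Basis ι (RatFunc K) F0) (b' : Basis ι (RatFunc L) F')
  (hb : ∀ i, b' i = e (b i))

local notation "n₀" => Module.finrank (RatFunc K) F0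

/-- The comparison map restricted to the normalisation `C_V`. -/
def psi : CInt c F0 V →+* RAlg c L F' :=
  (compR c K L e he).comp (CInt c F0 V).val.toRingHom

theorem psi_apply (x : CInt c F0 V) : psi c K L V e he x = compR c K L e he (x : RAlg c K F0) := rfl

/-- Compatibility of `psi` with `bMap`. -/
theorem psi_algebraMap (r : BRing c V) :
    psi c K L V e he (algebraMap (BRing c V) (CInt c F0 V) r) =
      algebraMap (BRing c A) (RAlg c L F') (bMap c (algebraMap K L) V A h r) := by
  rw [psi_apply]
  show compR c K L e he (incMu c K F0 (r : MuLine c K)) =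
    incMu c L F' ((bMap c (algebraMap K L) V A h r : BRing c A) : MuLine c L)
  rw [compR_incMu, coe_bMap_eq_muMap]

/-- `basisCInt` as a `K(μ)`-basis of `R_K = F0 ⊗ K(μ)`. -/
def basisRK : Basis (Fin n₀) (MuLine c K) (RAlg c K F0) :=
  haveI := RAlgStructure.finite_mu c K F0
  haveI : Algebra.IsIntegral (MuLine c K) (RAlg c K F0) := Algebra.IsIntegral.of_finite _ _
  IntegralBasis.basisFrac (K := MuLine c K) (SurfaceFree.basisCInt c V F0)

theorem basisRK_apply (i : Fin n₀) :
    basisRK c K V (F0 := F0) i = ((SurfaceFree.basisCInt c V F0 i : CInt c F0 V) : RAlg c K F0) := by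
  haveI := RAlgStructure.finite_mu c K F0
  haveI : Algebra.IsIntegral (MuLine c K) (RAlg c K F0) := Algebra.IsIntegral.of_finite _ _
  exact IntegralBasis.basisFrac_apply (K := MuLine c K) (SurfaceFree.basisCInt c V F0) i

include hb in
/-- The images of `basisCInt` form an `L(μ)`-basis of `R_L = F' ⊗ L(μ)`. -/
theorem exists_basisRL :
    ∃ bL : Basis (Fin n₀) (MuLine c L) (RAlg c L F'),
      ∀ i, bL i = psi c K L V e he (SurfaceFree.basisCInt c V F0 i) := by
  letI := muAlgebra c K F0
  letI := muAlgebra c L F'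
  letI := algMuMu c K L
  let E := baseChangeEquiv c K L e he b b' hb
  refine ⟨(Algebra.TensorProduct.basis (MuLine c L) (basisRK c K V (F0 := F0))).map
    E.toLinearEquiv, fun i => ?_⟩
  rw [Basis.map_apply, Algebra.TensorProduct.basis_apply]
  show E ((1 : MuLine c L) ⊗ₜ[MuLine c K] basisRK c K V (F0 := F0) i) = _
  rw [baseChangeEquiv_tmul, map_one, one_mul, basisRK_apply, psi_apply]

/-- The `L(μ)`-basis of `R_L` given by the images of `basisCInt`. -/
def basisRL : Basis (Fin n₀) (MuLine c L) (RAlg c L F') :=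
  (exists_basisRL c K L V e he b b' hb).choose

theorem basisRL_apply (i : Fin n₀) :
    basisRL c K L V e he b b' hb i = psi c K L V e he (SurfaceFree.basisCInt c V F0 i) :=
  (exists_basisRL c K L V e he b b' hb).choose_spec i

variable (hd : IsUnit (SurfaceFree.discrCInt c V F0))

/-- **The `B_A`-basis of `C_A`**: the images of the `B_V`-basis of `C_V`. -/
def basisCA : Basis (Fin n₀) (BRing c A) (CInt c F' A) :=
  IntegralBasis.basisOfMap (bMap c (algebraMap K L) V A h) (psi c K L V e he)
    (psi_algebraMap c K L V A h e he) (SurfaceFree.basisCInt c V F0)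
    (basisRL c K L V e he b b' hb) (basisRL_apply c K L V e he b b' hb) hd

theorem coe_basisCA (i : Fin n₀) :
    ((basisCA c K L V A h e he b b' hb hd i : CInt c F' A) : RAlg c L F') =
      compR c K L e he ((SurfaceFree.basisCInt c V F0 i : CInt c F0 V) : RAlg c K F0) :=
  IntegralBasis.basisOfMap_apply _ _ _ _ _ _ hd i

theorem discr_basisCA :
    Algebra.discr (BRing c A) (basisCA c K L V A h e he b b' hb hd) =
      bMap c (algebraMap K L) V A h (SurfaceFree.discrCInt c V F0) :=
  IntegralBasis.discr_basisOfMap _ _ _ _ _ _ hd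

include h he hb hd in
/-- **(Σ2) `C_A` is finite étale over `B_A`.** -/
theorem finEt_CA : FinEt (BRing c A) (CInt c F' A) :=
  IntegralBasis.finEt_of_map (bMap c (algebraMap K L) V A h) (psi c K L V e he)
    (psi_algebraMap c K L V A h e he) (SurfaceFree.basisCInt c V F0)
    (basisRL c K L V e he b b' hb) (basisRL_apply c K L V e he b b' hb) hd

include h he hb hd in
theorem finrank_CA : Module.finrank (BRing c A) (CInt c F' A) = n₀ := by
  rw [Module.finrank_eq_card_basis (basisCA c K L V A h e he b b' hb hd), Fintype.card_fin]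

end General

/-! ### the instance `ℚ → ℚ̄`, `F0 = modularFunctionFieldFull N`, `F_L = modularFunctionFieldBar N` -/

section Bar

open ModularCurve ModularCurve.IgusaScheme

local notation "Kb" => AlgebraicClosure ℚ

variable (N : ℕ) [NeZero N]

instance instFiniteDimensionalFull :
    FiniteDimensional (RatFunc ℚ) ↥(modularFunctionFieldFull N) := (finrank_ratFunc_full N).1

instance instFiniteDimensionalBar :
    FiniteDimensional (RatFunc Kb) ↥(modularFunctionFieldBar N) := (finrank_ratFunc_bar N).1

/-- the degree `[F0 : ℚ(j)]` (`= dedekindPsi N`, see `finrank_full_eq`). -/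
abbrev nQ : ℕ := Module.finrank (RatFunc ℚ) ↥(modularFunctionFieldFull N)

variable (c : Cover) [c.Good ℚ] [c.Good Kb] (A : ValuationSubring Kb)

/-- `V = A ∩ ℚ`. -/
abbrev VQ : ValuationSubring ℚ := A.comap (algebraMap ℚ Kb)

theorem mem_VQ (x : ℚ) : x ∈ VQ A ↔ algebraMap ℚ Kb x ∈ A := ValuationSubring.mem_comap

variable [IsDiscreteValuationRing ↥(VQ A)]
  (hd : IsUnit (SurfaceFree.discrCInt c (VQ A) ↥(modularFunctionFieldFull N)))

/-- **The `B_A`-basis of `C_A = CInt c F_L A`**: the images under `compRBar` of the `B_Q`-basis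
`basisCInt` of `C_Q`. -/
def basisCABar : Basis (Fin (nQ N)) (BRing c A) (CInt c ↥(modularFunctionFieldBar N) A) :=
  basisCA c ℚ Kb (VQ A) A (mem_VQ A) (Forms.embBar N) (embBar_algebraMap_ratFunc N)
    (Module.finBasis (RatFunc ℚ) ↥(modularFunctionFieldFull N))
    (exists_basis_bar N (Module.finBasis (RatFunc ℚ) ↥(modularFunctionFieldFull N))).choose
    (exists_basis_bar N (Module.finBasis (RatFunc ℚ) ↥(modularFunctionFieldFull N))).choose_spec hd

theorem coe_basisCABar (i : Fin (nQ N)) :
    ((basisCABar N c A hd i : CInt c ↥(modularFunctionFieldBar N) A) :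
        RAlg c Kb ↥(modularFunctionFieldBar N)) =
      compRBar N c ((SurfaceFree.basisCInt c (VQ A) ↥(modularFunctionFieldFull N) i :
        CInt c ↥(modularFunctionFieldFull N) (VQ A)) : RAlg c ℚ ↥(modularFunctionFieldFull N)) :=
  coe_basisCA c ℚ Kb (VQ A) A (mem_VQ A) (Forms.embBar N) (embBar_algebraMap_ratFunc N) _ _ _ hd i

theorem discr_basisCABar :
    Algebra.discr (BRing c A) (basisCABar N c A hd) =
      bMap c (algebraMap ℚ Kb) (VQ A) A (mem_VQ A)
        (SurfaceFree.discrCInt c (VQ A) ↥(modularFunctionFieldFull N)) :=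
  discr_basisCA c ℚ Kb (VQ A) A (mem_VQ A) (Forms.embBar N) (embBar_algebraMap_ratFunc N) _ _ _ hd

include hd in
/-- **(Σ2)** `FinEt (BRing c A) (CInt c F_L A)` from the unit discriminant over `ℤ_(ℓ)`. -/
theorem finEt_CABar : FinEt (BRing c A) (CInt c ↥(modularFunctionFieldBar N) A) :=
  finEt_CA c ℚ Kb (VQ A) A (mem_VQ A) (Forms.embBar N) (embBar_algebraMap_ratFunc N)
    (Module.finBasis (RatFunc ℚ) ↥(modularFunctionFieldFull N))
    (exists_basis_bar N (Module.finBasis (RatFunc ℚ) ↥(modularFunctionFieldFull N))).choose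
    (exists_basis_bar N (Module.finBasis (RatFunc ℚ) ↥(modularFunctionFieldFull N))).choose_spec hd

include hd in
theorem finrank_CABar :
    Module.finrank (BRing c A) (CInt c ↥(modularFunctionFieldBar N) A) = dedekindPsi N := by
  rw [finrank_CA c ℚ Kb (VQ A) A (mem_VQ A) (Forms.embBar N) (embBar_algebraMap_ratFunc N)
    (Module.finBasis (RatFunc ℚ) ↥(modularFunctionFieldFull N))
    (exists_basis_bar N (Module.finBasis (RatFunc ℚ) ↥(modularFunctionFieldFull N))).choose
    (exists_basis_bar N (Module.finBasis (RatFunc ℚ) ↥(modularFunctionFieldFull N))).choose_spec hd]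
  exact (finrank_ratFunc_full N).2

theorem finrank_full_eq : nQ N = dedekindPsi N := (finrank_ratFunc_full N).2

end Bar

end Fermat.Agent.S18.C.SurfaceCA
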