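import Fermat.Agent.S18.C.EvalBridge
import Fermat.Agent.S18.C.SurfaceCA
import Fermat.Agent.S18.C.SurfaceAFinal
import Fermat.Agent.S18.C.CoverInst

/-!
# PROJECT H (S18), block C (helper17): the arithmetic surface is finite étale

`A` a valuation ring of `ℚ̄` over `ℓ`, `ℓ ∤ N`, `c` a cover with good reduction at `ℓ`
(`[c.Good ℚ] [c.Good ℚ̄] [c.Good (ZMod ℓ)]`), `F_L = modularFunctionFieldBar N`.
The integral closure `C_A = CInt c F_L A` of `B_A = BRing c A = A[μ]_(𝔪_A, μ)` in
`F_L ⊗_{ℚ̄(j)} ℚ̄(μ)` is finite free of rank `ψ(N)` over `B_A` with unit discriminant (`hS`), as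
soon as the discriminant `d` of the `ℚ`-level model does not vanish on the open unit disc:

* `isUnit_discrCInt`  : `IsUnit d` from (S2a) (`SurfaceAFinal`, unconditional) and (S2b) (hypothesis
                         `hb`: `d(t) ≠ 0` for all `|t| < 1`), by the pointwise unit criterion;
* `finEt_of_pointwise`, `finrank_of_pointwise` : `hS` and the rank, by base change
                         (`SurfaceCA`, purity step (P1) is inside `SurfaceFree`).
-/

set_option autoImplicit false

noncomputable section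

namespace Fermat.Agent.S18.C.Surface

open ModularCurve
open Fermat.Agent.S18.C.Defs Fermat.Agent.S18.C.SurfaceDefs Fermat.Agent.S18.C.SurfaceFree
open Fermat.Agent.S18.C.EvalBridge Fermat.Agent.S18.C.FinEt Fermat.Agent.S18.C.SurfaceCA
open Fermat.Agent.S18.C

local notation "Kb" => AlgebraicClosure ℚ

variable {ℓ : ℕ} [Fact ℓ.Prime] (N : ℕ) [NeZero N] (c : Cover) [c.Good ℚ] [c.Good Kb]
  [c.Good (ZMod ℓ)] (A : ValuationSubring Kb)

/-- The hypothesis (S2b): the discriminant of the `ℚ`-level model vanishes nowhere on the open unit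
disc of `A`. -/
def PointwiseNonvanishing [IsDiscreteValuationRing ↥(VQ A)] : Prop :=
  ∀ (t : Kb) (ht : A.valuation t < 1), evDiscAtB (algebraMap ℚ Kb) A c t ht
    (discrCInt c (VQ A) ↥(modularFunctionFieldFull N)) ≠ 0

/-- `V = A ∩ ℚ = ℤ_(ℓ)` is a discrete valuation ring. -/
theorem isDiscreteValuationRing_VQ (hA : A.LiesOverPrime ℓ) :
    IsDiscreteValuationRing ↥(VQ A) :=
  GaussZl.isDiscreteValuationRing (GaussZl.over_comap ℓ A hA)

/-- **(Σ1)** the discriminant of the `ℚ`-level model is a unit of `B_Q`. -/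
theorem isUnit_discrCInt (hℓN : ¬ ℓ ∣ N) (hA : A.LiesOverPrime ℓ)
    [IsDiscreteValuationRing ↥(VQ A)] (hb : PointwiseNonvanishing N c A) :
    IsUnit (discrCInt c (VQ A) ↥(modularFunctionFieldFull N)) :=
  (isUnit_iff_pointwise_B (algebraMap ℚ Kb) A c
    (GaussZl.maximalIdeal_eq_span (GaussZl.over_comap ℓ A hA)) _).mpr
    ⟨SurfaceAFinal.not_constB_dvd_discrCInt_comap hℓN A hA, hb⟩

/-- **`hS`: the arithmetic surface `C_A / B_A` is finite étale.** -/
theorem finEt_of_pointwise (hℓN : ¬ ℓ ∣ N) (hA : A.LiesOverPrime ℓ)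
    [IsDiscreteValuationRing ↥(VQ A)] (hb : PointwiseNonvanishing N c A) :
    FinEt (BRing c A) (CInt c ↥(modularFunctionFieldBar N) A) :=
  finEt_CABar N c A (isUnit_discrCInt N c A hℓN hA hb)

/-- the rank of the arithmetic surface is `ψ(N)` -/
theorem finrank_of_pointwise (hℓN : ¬ ℓ ∣ N) (hA : A.LiesOverPrime ℓ)
    [IsDiscreteValuationRing ↥(VQ A)] (hb : PointwiseNonvanishing N c A) :
    Module.finrank (BRing c A) (CInt c ↥(modularFunctionFieldBar N) A) = dedekindPsi N :=
  finrank_CABar N c A (isUnit_discrCInt N c A hℓN hA hb)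

/-- the basis of `C_A` obtained from the `ℚ`-level basis, with unit discriminant -/
theorem isUnit_discr_basisCABar (hℓN : ¬ ℓ ∣ N) (hA : A.LiesOverPrime ℓ)
    [IsDiscreteValuationRing ↥(VQ A)] (hb : PointwiseNonvanishing N c A) :
    IsUnit (Algebra.discr (BRing c A)
      (basisCABar N c A (isUnit_discrCInt N c A hℓN hA hb))) :=
  (finEt_of_pointwise N c A hℓN hA hb).isUnit_discr _

end Fermat.Agent.S18.C.Surface
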