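import Mathlib
import Fermat.Agent.S18.C.FinalPrep
import Fermat.Agent.S18.C.GenericK3Final
import Fermat.Agent.S18.C.Surface
import Fermat.Agent.S18.C.SpecialFibre
import Fermat.Agent.S18.C.SpecialCombine
import Fermat.Agent.S18.C.NumbersTop
import Fermat.Agent.S18.C.GalRed
import Fermat.Agent.S18.C.GalDataInst
import Fermat.Agent.S18.C.SpecialPointsKModel
import Fermat.Agent.S18.C.KModelX0

/-!
# PROJECT H (S18), block C, slice H-C10 (helper4): contract K3 for `ℓ = 2` (Hesse cover)

* `k3_hesse_of_kside` : the inequality of `Wire.K3 N A` for a valuation ring `A` of `ℚ̄` over `2`,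
  from (S2b) `hb : Surface.PointwiseNonvanishing N hesse A` and ONE K-side hypothesis `hK` = the
  conclusion of `SpecialPointsKModel.kside` for `φ = GalRed.hesseRed` (no reduction datum, no
  `ReductionInputsModL` in the statement);
* `k3_hesse` : the same with `hK` discharged from `h : ReductionInputsModL A N`
  (`KModelX0` + `GalDataInst` + `SpecialPointsKModel.kside`).

Chain: `Surface` (basis of `C_A` with unit discriminant) → `hK` (`C_k` finite étale over `D₀`,
`φk g = #Fix_{φ g}(maxSpec C_k)`) → `SpecialFibre.special_fibre_count_X0` with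
`m = NumbersHesse.i0` over `k` (`NumbersTop`), `∑ m = 14` → `SpecialCombine.hD_of_special_count`
along `hesseRed` → `GenericK3Final.hesse_k3_modular`.
-/

set_option autoImplicit false
set_option synthInstance.maxHeartbeats 400000
set_option linter.unusedSectionVars false
set_option linter.style.haveILetI false

noncomputable section

namespace Fermat.Agent.S18.C.FinalHesse

open AlgebraicCurve ModularCurve IntermediateField IsDedekindDomain
open Fermat.Agent.S18.A Fermat.Agent.S18.B Fermat.Agent.S24.FF
open Fermat.Agent.S18.C.Defs Fermat.Agent.S18.C.SurfaceDefs Fermat.Agent.S18.C.FinEt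
open Fermat.Agent.S18.C.CoverInst Fermat.Agent.S18.C.GenericCount Fermat.Agent.S18.C.BRingLocal
open Fermat.Agent.S18.C.Hesse Fermat.Agent.S18.C.GalRed
open Fermat.Agent.S24.DegreeAlg (jgen)

local notation "Kb" => AlgebraicClosure ℚ

attribute [local instance 2000] Fermat.Agent.S18.C.KModelX0.algkFk

variable (N : ℕ) [NeZero N] (A : ValuationSubring (AlgebraicClosure ℚ))

section OfKside

variable [IsAlgClosed (IsLocalRing.ResidueField A)] [hesse.Good (IsLocalRing.ResidueField A)]
  [IsInvariantSubring (hesse.Gal Kb) (BRing hesse A)]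
  [IsInvariantSubring (hesse.Gal (IsLocalRing.ResidueField A))
    (BRing hesse (⊤ : ValuationSubring (IsLocalRing.ResidueField A)))]
  [IsDiscreteValuationRing ↥(SurfaceCA.VQ A)] [hesse.Good (ZMod 2)]

set_option maxHeartbeats 3200000 in
/-- **Contract K3 for `ℓ = 2` from the K-side package** (`hK` = the conclusion of
`SpecialPointsKModel.kside` for `φ = hesseRed`, first and third conjunct). -/
theorem k3_hesse_of_kside (hℓN : ¬ 2 ∣ N) (hA : A.LiesOverPrime 2)
    (hb : Surface.PointwiseNonvanishing N hesse A)
    {ωS : A} (hωS : ωS ^ 2 + ωS + 1 = 0) (h3 : (3 : Kb) ≠ 0)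
    (h3' : (3 : IsLocalRing.ResidueField A) ≠ 0)
    (hK : FinEt (BRing hesse (⊤ : ValuationSubring (IsLocalRing.ResidueField A)))
        (CInt hesse ↥(modularFunctionFieldFullC (IsLocalRing.ResidueField A) N)
          (⊤ : ValuationSubring (IsLocalRing.ResidueField A))) ∧
      ∀ g : hesse.Gal Kb,
        phik (C := CInt hesse ↥(modularFunctionFieldBar N) A) A (evClosedB hesse A) g =
          Nat.card {x : MaximalSpectrum
              (CInt hesse ↥(modularFunctionFieldFullC (IsLocalRing.ResidueField A) N)
                (⊤ : ValuationSubring (IsLocalRing.ResidueField A))) //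
            ∀ y ∈ x.asIdeal,
              (hesseRed A.subtype A.subtype_injective (IsLocalRing.residue A) hωS h3 h3') g • y ∈
                x.asIdeal})
    (hsep : Algebra.IsSeparable
      (IsLocalRing.ResidueField A)⟮FkBasics.jk (IsLocalRing.ResidueField A) N⟯
      ↥(modularFunctionFieldFullC (IsLocalRing.ResidueField A) N)) :
    ((Module.finrank Kb⟮jgen N⟯ ↥(modularFunctionFieldBar N) : ℤ)
        - ((FibreSep.zeros (Instances.isFF_jgen N) (Instances.isSeparable_jgen N) 0).card : ℤ))
      + ((Module.finrank Kb⟮jgen N⟯ ↥(modularFunctionFieldBar N) : ℤ)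
        - ((FibreSep.zeros (Instances.isFF_jgen N) (Instances.isSeparable_jgen N) 1728).card : ℤ))
    ≤ ∑ Q ∈ FibreSep.zeros (FkBasics.isFF (IsLocalRing.ResidueField A) N) hsep 0,
        (Defs.diffExp (FkBasics.isFF (IsLocalRing.ResidueField A) N) hsep Q : ℤ) := by
  classical
  obtain ⟨hFinEt, hphik⟩ := hK
  obtain ⟨n', b', hd'⟩ := hFinEt
  -- the constants
  have h2v : A.valuation (2 : Kb) < 1 := by
    simpa using FinalPrep.valuation_natCast_lt_one hA
  have hω : ((ωS : A) : Kb) ^ 2 + ((ωS : A) : Kb) + 1 = 0 := by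
    have := congrArg (A.subtype) hωS
    simpa using this
  have h2k : (2 : IsLocalRing.ResidueField A) = 0 := by
    simpa using Fermat.Agent.S18.ResidueBasics.residue_natCast_eq_zero A hA
  have hωk : (IsLocalRing.residue A ωS) ^ 2 + IsLocalRing.residue A ωS + 1 = 0 := by
    rw [← map_pow, ← map_add, ← map_one (IsLocalRing.residue A), ← map_add, hωS, map_zero]
  -- the groups
  haveI := isGalois_hesse hωk h3'
  haveI : Finite (hesse.Gal (IsLocalRing.ResidueField A)) :=
    Nat.finite_of_card_ne_zero (by rw [card_gal_hesse hωk h3']; norm_num)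
  letI : Fintype (hesse.Gal (IsLocalRing.ResidueField A)) := Fintype.ofFinite _
  haveI : Finite (hesse.Gal Kb) :=
    Nat.finite_of_card_ne_zero (by rw [card_gal_hesse hω h3]; norm_num)
  letI : Fintype (hesse.Gal Kb) := Fintype.ofFinite _
  -- the surface
  have hd := Surface.isUnit_discrCInt N hesse A hℓN hA hb
  have hbu := Surface.isUnit_discr_basisCABar N hesse A hℓN hA hb
  -- the special fibre count
  have hcount := SpecialFibre.special_fibre_count_X0 hesse (IsLocalRing.ResidueField A) N
    (hesse_PK_coeff_zero (IsLocalRing.ResidueField A))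
    (NumbersTop.hesse_QK_coeff_zero_ne (IsLocalRing.ResidueField A)) b' hsep hd'
    (BRingTop.pTop hesse (IsLocalRing.ResidueField A)) (NumbersHesse.i0 hωk h3')
    (fun g hg => NumbersTop.hesse_intValuation_smul_sub (IsLocalRing.ResidueField A) h2k hωk h3'
      _ g hg)
  rw [NumbersHesse.sum_i0 hωk h3'] at hcount
  -- `φk 1 = #maxSpec`
  have hone : phik (C := CInt hesse ↥(modularFunctionFieldBar N) A) A (evClosedB hesse A)
      (1 : hesse.Gal Kb) = Nat.card (MaximalSpectrum
        (CInt hesse ↥(modularFunctionFieldFullC (IsLocalRing.ResidueField A) N)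
          (⊤ : ValuationSubring (IsLocalRing.ResidueField A)))) := by
    rw [hphik 1, map_one]
    refine Nat.card_congr (Equiv.subtypeUnivEquiv fun x y hy => ?_)
    rw [one_smul]
    exact hy
  -- the combination
  have hD := SpecialCombine.hD_of_special_count
    (hesseRed A.subtype A.subtype_injective (IsLocalRing.residue A) hωS h3 h3')
    (Nat.card (MaximalSpectrum
      (CInt hesse ↥(modularFunctionFieldFullC (IsLocalRing.ResidueField A) N)
        (⊤ : ValuationSubring (IsLocalRing.ResidueField A))))) 14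
    (∑ Q ∈ FibreSep.zeros (FkBasics.isFF (IsLocalRing.ResidueField A) N) hsep 0,
      Defs.diffExp (FkBasics.isFF (IsLocalRing.ResidueField A) N) hsep Q)
    (fun g => iH (hesseIdx hω h3 g)) (NumbersHesse.i0 hωk h3')
    (fun γ => Nat.card {x : MaximalSpectrum
        (CInt hesse ↥(modularFunctionFieldFullC (IsLocalRing.ResidueField A) N)
          (⊤ : ValuationSubring (IsLocalRing.ResidueField A))) //
      ∀ y ∈ x.asIdeal, γ • y ∈ x.asIdeal})
    (fun g => phik (C := CInt hesse ↥(modularFunctionFieldBar N) A) A (evClosedB hesse A) g)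
    hcount hphik hone
    (fun g => congrArg iH (hesseIdx_hesseRed A.subtype A.subtype_injective
      (IsLocalRing.residue A) hωS h3 h3' hω hωk g))
  rw [card_gal_hesse hω h3,
    GenericK3.phik_one_evClosedB hesse A (SurfaceCA.basisCABar N hesse A hd) hbu] at hD
  have hn : Fintype.card (Fin (SurfaceCA.nQ N)) =
      Module.finrank Kb⟮jgen N⟯ ↥(modularFunctionFieldBar N) := by
    rw [Fintype.card_fin, SurfaceCA.finrank_full_eq, FinalPrep.finrank_jgen]
  have hfin := GenericK3Final.hesse_k3_modular N A (SurfaceCA.basisCABar N hesse A hd) h2v hω h3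
    hbu hn _ hD
  rw [hfin, Nat.cast_sum]

end OfKside

/-! ### the K-side from the reduction inputs -/

section FromH

open Fermat.Agent.S18.GaussFromHBar

variable [IsDiscreteValuationRing ↥(SurfaceCA.VQ A)]

/-- **Contract K3 for `ℓ = 2`**: from (S2b) for the Hesse cover. -/
theorem k3_hesse (hℓN : ¬ 2 ∣ N) (hA : A.LiesOverPrime 2) (h : ReductionInputsModL A N)
    (hb : Surface.PointwiseNonvanishing N hesse A) : Fermat.Agent.S18.Wire.K3 N A := by
  intro _ hsep _
  have h3 : (3 : Kb) ≠ 0 := three_ne_zero
  have h2k : (2 : IsLocalRing.ResidueField A) = 0 := by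
    simpa using Fermat.Agent.S18.ResidueBasics.residue_natCast_eq_zero A hA
  have h3' : (3 : IsLocalRing.ResidueField A) ≠ 0 :=
    NumbersTop.three_ne_zero_of_two (IsLocalRing.ResidueField A) h2k
  haveI : hesse.Good (IsLocalRing.ResidueField A) :=
    hesse_good_of_two_eq_zero (IsLocalRing.ResidueField A) h2k
  haveI : hesse.Good (ZMod 2) := hesse_good_of_two_eq_zero (ZMod 2) (by decide)
  have h2v : A.valuation (2 : Kb) < 1 := by
    simpa using FinalPrep.valuation_natCast_lt_one hA
  obtain ⟨ω, hω⟩ := NumbersHesse.exists_omega Kb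
  have hωS : (⟨ω, NumbersHesse.omega_mem A hω⟩ : A) ^ 2 + ⟨ω, NumbersHesse.omega_mem A hω⟩ + 1 = 0 :=
    Subtype.ext (by push_cast; exact hω)
  have hωk : (IsLocalRing.residue A ⟨ω, NumbersHesse.omega_mem A hω⟩) ^ 2 +
      IsLocalRing.residue A ⟨ω, NumbersHesse.omega_mem A hω⟩ + 1 = 0 := by
    rw [← map_pow, ← map_add, ← map_one (IsLocalRing.residue A), ← map_add, hωS, map_zero]
  haveI := isInvariantSubring_hesse hω A h2v
  haveI := NumbersTop.hesse_isInvariantSubring_top (IsLocalRing.ResidueField A) h2k hωk
  haveI := KModelX0.finiteDimensional_FL N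
  haveI := KModelX0.isSeparable_Fk A N
  have hS := Surface.finEt_of_pointwise N hesse A hℓN hA hb
  have hk := SpecialPointsKModel.kside (redDatumModL h) hesse (red_surjective h)
    (KModelX0.finrank_le hA hℓN) hS
    (hesseRed A.subtype A.subtype_injective (IsLocalRing.residue A) hωS h3 h3').toMonoidHom
    (GalDataInst.galData_hesseRed A (IsLocalRing.residue A) hωS h3 h3')
  exact k3_hesse_of_kside N A hℓN hA hb hωS h3 h3' ⟨hk.1, hk.2.2⟩ hsep

end FromH

end Fermat.Agent.S18.C.FinalHesse
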