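import Mathlib
import Fermat.Agent.S18.C.FinalPrep
import Fermat.Agent.S18.C.GenericK3Final
import Fermat.Agent.S18.C.Surface
import Fermat.Agent.S18.C.SpecialFibre
import Fermat.Agent.S18.C.SpecialCombine
import Fermat.Agent.S18.C.NumbersTop
import Fermat.Agent.S18.C.GalRed
import Fermat.Agent.S18.C.GalDataInst
import Fermat.Agent.S18.C.SpecialPointsKModel
import Fermat.Agent.S18.C.KModelX0

/-!
# PROJECT H (S18), block C, slice H-C10 (helper4): contract K3 for `ℓ = 3` (Legendre cover)

* `k3_legendre_of_kside` : the inequality of `Wire.K3 N A` for a valuation ring `A` of `ℚ̄` over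
  `3`, from (S2b) `hb : Surface.PointwiseNonvanishing N legendre A` and ONE K-side hypothesis `hK` =
  the conclusion of `SpecialPointsKModel.kside` for `φ = GalRed.legendreRed` (no reduction datum,
  no `ReductionInputsModL` in the statement);
* `k3_legendre` : the same with `hK` discharged from `h : ReductionInputsModL A N`.

Same chain as `C/FinalHesse.lean`, with `#H₀ = 6`, `d₀ = 7`, `i₀ = iL ∘ legendreIdx`.
-/

set_option autoImplicit false
set_option synthInstance.maxHeartbeats 400000
set_option linter.unusedSectionVars false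
set_option linter.style.haveILetI false

noncomputable section

namespace Fermat.Agent.S18.C.FinalLegendre

open AlgebraicCurve ModularCurve IntermediateField IsDedekindDomain
open Fermat.Agent.S18.A Fermat.Agent.S18.B Fermat.Agent.S24.FF
open Fermat.Agent.S18.C.Defs Fermat.Agent.S18.C.SurfaceDefs Fermat.Agent.S18.C.FinEt
open Fermat.Agent.S18.C.CoverInst Fermat.Agent.S18.C.GenericCount Fermat.Agent.S18.C.BRingLocal
open Fermat.Agent.S18.C.Legendre Fermat.Agent.S18.C.GalRed
open Fermat.Agent.S24.DegreeAlg (jgen)

local notation "Kb" => AlgebraicClosure ℚ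

attribute [local instance 2000] Fermat.Agent.S18.C.KModelX0.algkFk

variable (N : ℕ) [NeZero N] (A : ValuationSubring (AlgebraicClosure ℚ))

section OfKside

variable [IsAlgClosed (IsLocalRing.ResidueField A)] [legendre.Good (IsLocalRing.ResidueField A)]
  [IsInvariantSubring (legendre.Gal Kb) (BRing legendre A)]
  [IsInvariantSubring (legendre.Gal (IsLocalRing.ResidueField A))
    (BRing legendre (⊤ : ValuationSubring (IsLocalRing.ResidueField A)))]
  [IsDiscreteValuationRing ↥(SurfaceCA.VQ A)] [legendre.Good (ZMod 3)]

set_option maxHeartbeats 3200000 in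
/-- **Contract K3 for `ℓ = 3` from the K-side package** (`hK` = the conclusion of
`SpecialPointsKModel.kside` for `φ = legendreRed`, first and third conjunct). -/
theorem k3_legendre_of_kside (hℓN : ¬ 3 ∣ N) (hA : A.LiesOverPrime 3)
    (hb : Surface.PointwiseNonvanishing N legendre A)
    (h2 : (2 : Kb) ≠ 0) (h2' : (2 : IsLocalRing.ResidueField A) ≠ 0)
    (hK : FinEt (BRing legendre (⊤ : ValuationSubring (IsLocalRing.ResidueField A)))
        (CInt legendre ↥(modularFunctionFieldFullC (IsLocalRing.ResidueField A) N)
          (⊤ : ValuationSubring (IsLocalRing.ResidueField A))) ∧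
      ∀ g : legendre.Gal Kb,
        phik (C := CInt legendre ↥(modularFunctionFieldBar N) A) A (evClosedB legendre A) g =
          Nat.card {x : MaximalSpectrum
              (CInt legendre ↥(modularFunctionFieldFullC (IsLocalRing.ResidueField A) N)
                (⊤ : ValuationSubring (IsLocalRing.ResidueField A))) //
            ∀ y ∈ x.asIdeal,
              (legendreRed A.subtype A.subtype_injective (IsLocalRing.residue A) h2 h2') g • y ∈
                x.asIdeal})
    (hsep : Algebra.IsSeparable
      (IsLocalRing.ResidueField A)⟮FkBasics.jk (IsLocalRing.ResidueField A) N⟯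
      ↥(modularFunctionFieldFullC (IsLocalRing.ResidueField A) N)) :
    ((Module.finrank Kb⟮jgen N⟯ ↥(modularFunctionFieldBar N) : ℤ)
        - ((FibreSep.zeros (Instances.isFF_jgen N) (Instances.isSeparable_jgen N) 0).card : ℤ))
      + ((Module.finrank Kb⟮jgen N⟯ ↥(modularFunctionFieldBar N) : ℤ)
        - ((FibreSep.zeros (Instances.isFF_jgen N) (Instances.isSeparable_jgen N) 1728).card : ℤ))
    ≤ ∑ Q ∈ FibreSep.zeros (FkBasics.isFF (IsLocalRing.ResidueField A) N) hsep 0,
        (Defs.diffExp (FkBasics.isFF (IsLocalRing.ResidueField A) N) hsep Q : ℤ) := by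
  classical
  obtain ⟨hFinEt, hphik⟩ := hK
  obtain ⟨n', b', hd'⟩ := hFinEt
  -- the constants
  have h3v : A.valuation (3 : Kb) < 1 := by
    simpa using FinalPrep.valuation_natCast_lt_one hA
  have h3k : (3 : IsLocalRing.ResidueField A) = 0 := by
    simpa using Fermat.Agent.S18.ResidueBasics.residue_natCast_eq_zero A hA
  -- the groups
  haveI := isGalois_legendre h2'
  haveI : Finite (legendre.Gal (IsLocalRing.ResidueField A)) :=
    Nat.finite_of_card_ne_zero (by rw [card_gal_legendre h2']; norm_num)
  letI : Fintype (legendre.Gal (IsLocalRing.ResidueField A)) := Fintype.ofFinite _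
  haveI : Finite (legendre.Gal Kb) :=
    Nat.finite_of_card_ne_zero (by rw [card_gal_legendre h2]; norm_num)
  letI : Fintype (legendre.Gal Kb) := Fintype.ofFinite _
  -- the surface
  have hd := Surface.isUnit_discrCInt N legendre A hℓN hA hb
  have hbu := Surface.isUnit_discr_basisCABar N legendre A hℓN hA hb
  -- the special fibre count
  have hcount := SpecialFibre.special_fibre_count_X0 legendre (IsLocalRing.ResidueField A) N
    (NumbersTop.legendre_PK_coeff_zero_eq (IsLocalRing.ResidueField A) h3k)
    (NumbersTop.legendre_QK_coeff_zero_ne (IsLocalRing.ResidueField A) h3k) b' hsep hd'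
    (BRingTop.pTop legendre (IsLocalRing.ResidueField A)) (NumbersLegendre.i0 h2')
    (fun g hg => NumbersTop.legendre_intValuation_smul_sub (IsLocalRing.ResidueField A) h3k h2'
      _ g hg)
  rw [NumbersLegendre.sum_i0 h2'] at hcount
  -- `φk 1 = #maxSpec`
  have hone : phik (C := CInt legendre ↥(modularFunctionFieldBar N) A) A (evClosedB legendre A)
      (1 : legendre.Gal Kb) = Nat.card (MaximalSpectrum
        (CInt legendre ↥(modularFunctionFieldFullC (IsLocalRing.ResidueField A) N)
          (⊤ : ValuationSubring (IsLocalRing.ResidueField A)))) := by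
    rw [hphik 1, map_one]
    refine Nat.card_congr (Equiv.subtypeUnivEquiv fun x y hy => ?_)
    rw [one_smul]
    exact hy
  -- the combination
  have hD := SpecialCombine.hD_of_special_count
    (legendreRed A.subtype A.subtype_injective (IsLocalRing.residue A) h2 h2')
    (Nat.card (MaximalSpectrum
      (CInt legendre ↥(modularFunctionFieldFullC (IsLocalRing.ResidueField A) N)
        (⊤ : ValuationSubring (IsLocalRing.ResidueField A))))) 7
    (∑ Q ∈ FibreSep.zeros (FkBasics.isFF (IsLocalRing.ResidueField A) N) hsep 0,
      Defs.diffExp (FkBasics.isFF (IsLocalRing.ResidueField A) N) hsep Q)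
    (fun g => iL (legendreIdx h2 g)) (NumbersLegendre.i0 h2')
    (fun γ => Nat.card {x : MaximalSpectrum
        (CInt legendre ↥(modularFunctionFieldFullC (IsLocalRing.ResidueField A) N)
          (⊤ : ValuationSubring (IsLocalRing.ResidueField A))) //
      ∀ y ∈ x.asIdeal, γ • y ∈ x.asIdeal})
    (fun g => phik (C := CInt legendre ↥(modularFunctionFieldBar N) A) A (evClosedB legendre A) g)
    hcount hphik hone
    (fun g => congrArg iL (legendreIdx_legendreRed A.subtype A.subtype_injective
      (IsLocalRing.residue A) h2 h2' g))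
  rw [card_gal_legendre h2,
    GenericK3.phik_one_evClosedB legendre A (SurfaceCA.basisCABar N legendre A hd) hbu] at hD
  have hn : Fintype.card (Fin (SurfaceCA.nQ N)) =
      Module.finrank Kb⟮jgen N⟯ ↥(modularFunctionFieldBar N) := by
    rw [Fintype.card_fin, SurfaceCA.finrank_full_eq, FinalPrep.finrank_jgen]
  have hfin := GenericK3Final.legendre_k3_modular N A (SurfaceCA.basisCABar N legendre A hd) h3v
    h2 hbu hn _ hD
  rw [hfin, Nat.cast_sum]

end OfKside

/-! ### the K-side from the reduction inputs -/

section FromH

open Fermat.Agent.S18.GaussFromHBar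

variable [IsDiscreteValuationRing ↥(SurfaceCA.VQ A)]

/-- **Contract K3 for `ℓ = 3`**: from (S2b) for the Legendre cover. -/
theorem k3_legendre (hℓN : ¬ 3 ∣ N) (hA : A.LiesOverPrime 3) (h : ReductionInputsModL A N)
    (hb : Surface.PointwiseNonvanishing N legendre A) : Fermat.Agent.S18.Wire.K3 N A := by
  intro _ hsep _
  have h2 : (2 : Kb) ≠ 0 := two_ne_zero
  have h3k : (3 : IsLocalRing.ResidueField A) = 0 := by
    simpa using Fermat.Agent.S18.ResidueBasics.residue_natCast_eq_zero A hA
  have h2' : (2 : IsLocalRing.ResidueField A) ≠ 0 :=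
    NumbersTop.two_ne_zero_of_three (IsLocalRing.ResidueField A) h3k
  haveI : legendre.Good (IsLocalRing.ResidueField A) :=
    legendre_good_of_three_eq_zero (IsLocalRing.ResidueField A) h3k
  haveI : legendre.Good (ZMod 3) := legendre_good_of_three_eq_zero (ZMod 3) (by decide)
  have h3v : A.valuation (3 : Kb) < 1 := by
    simpa using FinalPrep.valuation_natCast_lt_one hA
  haveI := isInvariantSubring_legendre A h3v
  haveI := NumbersTop.legendre_isInvariantSubring_top (IsLocalRing.ResidueField A) h3k
  haveI := KModelX0.finiteDimensional_FL N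
  haveI := KModelX0.isSeparable_Fk A N
  have hS := Surface.finEt_of_pointwise N legendre A hℓN hA hb
  have hk := SpecialPointsKModel.kside (redDatumModL h) legendre (red_surjective h)
    (KModelX0.finrank_le hA hℓN) hS
    (legendreRed A.subtype A.subtype_injective (IsLocalRing.residue A) h2 h2').toMonoidHom
    (GalDataInst.galData_legendreRed A (IsLocalRing.residue A) h2 h2')
  exact k3_legendre_of_kside N A hℓN hA hb h2 h2' ⟨hk.1, hk.2.2⟩ hsep

end FromH

end Fermat.Agent.S18.C.FinalLegendre
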