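import Mathlib

/-!
# S18, block C1 (core): tame inertia in residue characteristic zero

`B` a Dedekind domain, `G` a group acting on `B` by ring automorphisms, `P` a nonzero prime of `B`.
For `σ` in the inertia group `P.inertia G` (trivial action on `B ⧸ P`) and a fixed `π ∈ P \ P ^ 2`
we have `σ • π ≡ π * d mod P ^ 2` with `d` unique modulo `P`; `σ ↦ d mod P` is a monoid
homomorphism `tameChar : P.inertia G →* B ⧸ P`.  If `B ⧸ P` has characteristic zero and `G` is
finite and acts faithfully, `tameChar` is injective, hence the inertia group is cyclic.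

Also: the elementary lemma on subgroups of a finite cyclic group used in Abhyankar's lemma.
-/

set_option autoImplicit false

namespace Fermat.Agent.S18.C.TameInertia

open Ideal

section Basic

variable {B : Type*} [CommRing B] {G : Type*} [Group G] [MulSemiringAction G B] (P : Ideal B)

/-- Ring automorphisms fix natural numbers. -/
theorem smul_natCast_eq (σ : G) (m : ℕ) : σ • (m : B) = (m : B) :=
  map_natCast (MulSemiringAction.toRingHom G B σ) m

/-- Inertia elements preserve `P`. -/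
theorem smul_mem_of_mem_inertia {σ : G} (hσ : σ ∈ P.inertia G) {x : B} (hx : x ∈ P) :
    σ • x ∈ P := by
  have h1 : σ • x - x ∈ P := hσ x
  have h2 : σ • x = (σ • x - x) + x := by ring
  rw [h2]
  exact P.add_mem h1 hx

/-- Inertia elements preserve every power of `P`. -/
theorem smul_mem_pow_of_mem_inertia {σ : G} (hσ : σ ∈ P.inertia G) (i : ℕ) {x : B}
    (hx : x ∈ P ^ i) : σ • x ∈ P ^ i := by
  induction i generalizing x with
  | zero => simp
  | succ i ih =>
    rw [pow_succ] at hx ⊢
    refine Submodule.mul_induction_on hx ?_ ?_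
    · intro y hy z hz
      rw [smul_mul']
      exact Ideal.mul_mem_mul (ih hy) (smul_mem_of_mem_inertia P hσ hz)
    · intro y z hy hz
      rw [smul_add]
      exact Ideal.add_mem _ hy hz

/-- If `σ` is in the inertia group and moves elements of `P` only by `P ^ 2`, then it moves
elements of `P ^ i` only by `P ^ (i + 1)`. -/
theorem smul_sub_mem_pow_succ {σ : G} (hσ : σ ∈ P.inertia G)
    (h1 : ∀ x ∈ P, σ • x - x ∈ P ^ 2) (i : ℕ) {x : B} (hx : x ∈ P ^ i) :
    σ • x - x ∈ P ^ (i + 1) := by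
  induction i generalizing x with
  | zero =>
    rw [zero_add, pow_one]
    exact hσ x
  | succ i ih =>
    rw [pow_succ] at hx
    refine Submodule.mul_induction_on hx ?_ ?_
    · intro y hy z hz
      have e : σ • (y * z) - y * z = (σ • y - y) * σ • z + y * (σ • z - z) := by
        rw [smul_mul']; ring
      rw [e]
      refine Ideal.add_mem _ ?_ ?_
      · have h3 : (σ • y - y) * σ • z ∈ P ^ (i + 1) * P :=
          Ideal.mul_mem_mul (ih hy) (smul_mem_of_mem_inertia P hσ hz)
        rwa [← pow_succ] at h3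
      · have h3 : y * (σ • z - z) ∈ P ^ i * P ^ 2 := Ideal.mul_mem_mul hy (h1 z hz)
        rwa [← pow_add] at h3
    · intro y z hy hz
      have e : σ • (y + z) - (y + z) = (σ • y - y) + (σ • z - z) := by
        rw [smul_add]; ring
      rw [e]
      exact Ideal.add_mem _ hy hz

/-- Iterating: `σ ^ m • x - x ≡ m (σ • x - x)` modulo `P ^ (i + 1)` when `σ • x - x ∈ P ^ i`. -/
theorem pow_smul_sub_mem {σ : G} (hσ : σ ∈ P.inertia G)
    (h1 : ∀ x ∈ P, σ • x - x ∈ P ^ 2) (i : ℕ) {x : B} (hx : σ • x - x ∈ P ^ i) (m : ℕ) :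
    (σ ^ m) • x - x - (m : B) * (σ • x - x) ∈ P ^ (i + 1) := by
  induction m with
  | zero => simp
  | succ m ih =>
    set y := σ • x - x with hy
    have e : (σ ^ (m + 1)) • x - x - ((m + 1 : ℕ) : B) * y
        = σ • ((σ ^ m) • x - x - (m : B) * y) + (m : B) * (σ • y - y) := by
      rw [pow_succ', mul_smul, smul_sub, smul_sub, smul_mul', smul_natCast_eq]
      push_cast
      ring
    rw [e]
    refine Ideal.add_mem _ (smul_mem_pow_of_mem_inertia P hσ _ ih) ?_
    exact Ideal.mul_mem_left _ _ (smul_sub_mem_pow_succ P hσ h1 i hx)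

end Basic

section Char

variable {B : Type*} [CommRing B] [IsDedekindDomain B] {G : Type*} [Group G]
  [MulSemiringAction G B] (P : Ideal B) [P.IsPrime]

/-- Existence of the coefficient `d` with `σ • π ≡ π * d mod P ^ 2`. -/
theorem exists_coeff (hP : P ≠ ⊥) {π : B} (hπ : π ∈ P) (hπ2 : π ∉ P ^ 2) {x : B} (hx : x ∈ P) :
    ∃ d : B, x - π * d ∈ P ^ 2 := by
  have h1 : π ∈ P ^ 1 := by simpa using hπ
  have h2 : x ∈ P ^ 1 := by simpa using hx
  obtain ⟨d, e, he, hde⟩ := Ideal.exists_mul_add_mem_pow_succ hP π x h1 hπ2 h2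
  refine ⟨d, ?_⟩
  rw [← hde]
  simpa using he

/-- Uniqueness of the coefficient modulo `P`. -/
theorem coeff_unique (hP : P ≠ ⊥) {π : B} (hπ2 : π ∉ P ^ 2) {x d d' : B}
    (h : x - π * d ∈ P ^ 2) (h' : x - π * d' ∈ P ^ 2) : d - d' ∈ P := by
  have h3 : π * (d - d') ∈ P ^ (1 + 1) := by
    have h4 := Ideal.sub_mem _ h' h
    have e : x - π * d' - (x - π * d) = π * (d - d') := by ring
    rw [e] at h4
    exact h4
  exact Ideal.mem_prime_of_mul_mem_pow hP hπ2 h3

variable (G) in
/-- The tame character `P.inertia G →* B ⧸ P` attached to a uniformiser `π ∈ P \ P ^ 2`. -/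
noncomputable def tameChar (hP : P ≠ ⊥) {π : B} (hπ : π ∈ P) (hπ2 : π ∉ P ^ 2) :
    P.inertia G →* B ⧸ P where
  toFun σ := Ideal.Quotient.mk P
    (exists_coeff P hP hπ hπ2 (smul_mem_of_mem_inertia P σ.2 hπ)).choose
  map_one' := by
    have h := (exists_coeff P hP hπ hπ2
      (smul_mem_of_mem_inertia P (1 : P.inertia G).2 hπ)).choose_spec
    have h1 : ((1 : P.inertia G) : G) • π - π * 1 ∈ P ^ 2 := by simp
    have h2 := coeff_unique P hP hπ2 h h1
    rw [← map_one (Ideal.Quotient.mk P)]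
    exact Ideal.Quotient.eq.mpr h2
  map_mul' σ τ := by
    set dσ := (exists_coeff P hP hπ hπ2 (smul_mem_of_mem_inertia P σ.2 hπ)).choose with hdσ
    set dτ := (exists_coeff P hP hπ hπ2 (smul_mem_of_mem_inertia P τ.2 hπ)).choose with hdτ
    have hσ := (exists_coeff P hP hπ hπ2 (smul_mem_of_mem_inertia P σ.2 hπ)).choose_spec
    have hτ := (exists_coeff P hP hπ hπ2 (smul_mem_of_mem_inertia P τ.2 hπ)).choose_spec
    have hστ := (exists_coeff P hP hπ hπ2 (smul_mem_of_mem_inertia P (σ * τ).2 hπ)).choose_spec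
    rw [← hdσ] at hσ
    rw [← hdτ] at hτ
    have key : ((σ * τ : P.inertia G) : G) • π - π * (dσ * dτ) ∈ P ^ 2 := by
      have e : ((σ * τ : P.inertia G) : G) • π - π * (dσ * dτ)
          = (σ : G) • ((τ : G) • π - π * dτ) + ((σ : G) • π - π * dσ) * ((σ : G) • dτ)
            + π * dσ * ((σ : G) • dτ - dτ) := by
        rw [Subgroup.coe_mul, mul_smul, smul_sub, smul_mul']
        ring
      rw [e]
      refine Ideal.add_mem _ (Ideal.add_mem _ ?_ ?_) ?_
      · exact smul_mem_pow_of_mem_inertia P σ.2 2 hτ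
      · exact Ideal.mul_mem_right _ _ hσ
      · have h5 : π * dσ * ((σ : G) • dτ - dτ) ∈ P * P :=
          Ideal.mul_mem_mul (Ideal.mul_mem_right _ _ hπ) (σ.2 dτ)
        rwa [← pow_two] at h5
    have h2 := coeff_unique P hP hπ2 hστ key
    rw [← map_mul (Ideal.Quotient.mk P)]
    exact Ideal.Quotient.eq.mpr h2

/-- Characterisation of the tame character. -/
theorem tameChar_eq (hP : P ≠ ⊥) {π : B} (hπ : π ∈ P) (hπ2 : π ∉ P ^ 2) (σ : P.inertia G) {d : B}
    (h : (σ : G) • π - π * d ∈ P ^ 2) : tameChar G P hP hπ hπ2 σ = Ideal.Quotient.mk P d := by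
  have hc := (exists_coeff P hP hπ hπ2 (smul_mem_of_mem_inertia P σ.2 hπ)).choose_spec
  exact Ideal.Quotient.eq.mpr (coeff_unique P hP hπ2 hc h)

theorem smul_sub_mul_tameChar_mem (hP : P ≠ ⊥) {π : B} (hπ : π ∈ P) (hπ2 : π ∉ P ^ 2)
    (σ : P.inertia G) {d : B} (hd : tameChar G P hP hπ hπ2 σ = Ideal.Quotient.mk P d) :
    (σ : G) • π - π * d ∈ P ^ 2 := by
  have hc := (exists_coeff P hP hπ hπ2 (smul_mem_of_mem_inertia P σ.2 hπ)).choose_spec
  set c := (exists_coeff P hP hπ hπ2 (smul_mem_of_mem_inertia P σ.2 hπ)).choose with hcdef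
  have h1 : c - d ∈ P := Ideal.Quotient.eq.mp hd
  have e : (σ : G) • π - π * d = ((σ : G) • π - π * c) + π * (c - d) := by ring
  rw [e]
  refine Ideal.add_mem _ hc ?_
  have h5 : π * (c - d) ∈ P * P := Ideal.mul_mem_mul hπ h1
  rwa [← pow_two] at h5

/-- **Wild inertia is trivial in residue characteristic zero**: an element of finite order of the
inertia group with trivial tame character acts trivially. -/
theorem smul_eq_of_tameChar_eq_one [CharZero (B ⧸ P)] (hP : P ≠ ⊥) {π : B} (hπ : π ∈ P)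
    (hπ2 : π ∉ P ^ 2) (σ : P.inertia G) {n : ℕ} (hn : n ≠ 0) (hσn : σ ^ n = 1)
    (h1 : tameChar G P hP hπ hπ2 σ = 1) (x : B) : (σ : G) • x = x := by
  by_contra hne
  have hσ := σ.2
  -- `σ` moves `π` by `P ^ 2`
  have hπσ : (σ : G) • π - π ∈ P ^ 2 := by
    have := smul_sub_mul_tameChar_mem P hP hπ hπ2 σ (d := 1) (by rw [h1, map_one])
    simpa using this
  -- hence it moves `P` by `P ^ 2`
  have hP2 : ∀ z ∈ P, (σ : G) • z - z ∈ P ^ 2 := by
    intro z hz
    obtain ⟨d, hd⟩ := exists_coeff P hP hπ hπ2 hz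
    have e : (σ : G) • z - z = (σ : G) • (z - π * d) - (z - π * d)
        + ((σ : G) • π - π) * ((σ : G) • d) + π * ((σ : G) • d - d) := by
      rw [smul_sub, smul_mul']
      ring
    rw [e]
    refine Ideal.add_mem _ (Ideal.add_mem _ (Ideal.sub_mem _ ?_ hd) ?_) ?_
    · exact smul_mem_pow_of_mem_inertia P hσ 2 hd
    · exact Ideal.mul_mem_right _ _ hπσ
    · have h5 : π * ((σ : G) • d - d) ∈ P * P := Ideal.mul_mem_mul hπ (hσ d)
      rwa [← pow_two] at h5
  set y := (σ : G) • x - x with hy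
  have hy0 : y ≠ 0 := fun h => hne (sub_eq_zero.mp h)
  -- Krull intersection
  have hPtop : P ≠ ⊤ := Ideal.IsPrime.ne_top inferInstance
  have hinf : ⨅ i : ℕ, P ^ i = ⊥ := Ideal.iInf_pow_eq_bot_of_isDomain P hPtop
  have hex : ∃ j : ℕ, y ∉ P ^ j := by
    by_contra hcon
    simp only [not_exists, not_not] at hcon
    apply hy0
    have : y ∈ ⨅ i : ℕ, P ^ i := by
      rw [Ideal.mem_iInf]
      exact hcon
    rw [hinf] at this
    exact this
  classical
  set j := Nat.find hex with hj
  have hjspec : y ∉ P ^ j := Nat.find_spec hex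
  have hj0 : j ≠ 0 := by
    intro h0
    rw [h0] at hjspec
    exact hjspec (by simp)
  obtain ⟨i, hi⟩ := Nat.exists_eq_succ_of_ne_zero hj0
  have hyi : y ∈ P ^ i := by
    by_contra hcon
    have := Nat.find_min' hex hcon
    omega
  rw [hi] at hjspec
  -- iterate
  have hiter := pow_smul_sub_mem P hσ hP2 i hyi n
  have hσn' : ((σ : G) ^ n) = 1 := by
    have := congrArg (Subtype.val) hσn
    simpa using this
  rw [hσn', one_smul, sub_self, zero_sub, neg_mem_iff] at hiter
  have hmem : y * (n : B) ∈ P ^ (i + 1) := by rwa [mul_comm]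
  have hnP : (n : B) ∈ P := Ideal.mem_prime_of_mul_mem_pow hP hjspec hmem
  have : ((n : B ⧸ P)) = 0 := by
    have := Ideal.Quotient.eq_zero_iff_mem.mpr hnP
    simpa using this
  exact hn (by exact_mod_cast this)

/-- The tame character is injective in residue characteristic zero (finite group). -/
theorem tameChar_injective [Finite G] [FaithfulSMul G B] [CharZero (B ⧸ P)] (hP : P ≠ ⊥) {π : B}
    (hπ : π ∈ P) (hπ2 : π ∉ P ^ 2) : Function.Injective (tameChar G P hP hπ hπ2) := by
  rw [injective_iff_map_eq_one]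
  intro σ h1
  have hn : Nat.card (P.inertia G) ≠ 0 := Nat.card_pos.ne'
  have hσn : σ ^ Nat.card (P.inertia G) = 1 := pow_card_eq_one'
  have hfix := smul_eq_of_tameChar_eq_one P hP hπ hπ2 σ hn hσn h1
  apply Subtype.ext
  apply FaithfulSMul.eq_of_smul_eq_smul (α := B)
  intro x
  rw [hfix x, Subgroup.coe_one, one_smul]

/-- Existence of a uniformiser. -/
theorem exists_uniformizer (hP : P ≠ ⊥) : ∃ π : B, π ∈ P ∧ π ∉ P ^ 2 := by
  have hlt : P ^ (1 + 1) < P ^ 1 := Ideal.pow_succ_lt_pow hP 1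
  obtain ⟨π, h1, h2⟩ := SetLike.exists_of_lt hlt
  exact ⟨π, by simpa using h1, h2⟩

/-- **Inertia groups are cyclic in residue characteristic zero.** -/
theorem isCyclic_inertia [Finite G] [FaithfulSMul G B] [CharZero (B ⧸ P)] (hP : P ≠ ⊥) :
    IsCyclic (P.inertia G) := by
  obtain ⟨π, hπ, hπ2⟩ := exists_uniformizer P hP
  exact isCyclic_of_injective_ringHom (tameChar G P hP hπ hπ2) (tameChar_injective P hP hπ hπ2)

end Char

section Cyclic

variable {C : Type*} [Group C] [Finite C] [IsCyclic C]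

/-- In a finite cyclic group a subgroup is the set of solutions of `x ^ |H| = 1`. -/
theorem mem_iff_pow_card_eq_one (H : Subgroup C) (x : C) : x ∈ H ↔ x ^ Nat.card H = 1 := by
  classical
  constructor
  · intro hx
    have := pow_card_eq_one' (G := H) (x := ⟨x, hx⟩)
    exact congrArg Subtype.val this
  · intro hx
    let _ : Fintype C := Fintype.ofFinite C
    -- the set of solutions has at most `|H|` elements and contains `H`
    have hpos : 0 < Nat.card H := Nat.card_pos
    have hle := IsCyclic.card_pow_eq_one_le (α := C) hpos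
    set S : Finset C := Finset.univ.filter fun a : C => a ^ Nat.card H = 1 with hS
    have hsub : (H : Set C) ⊆ (S : Set C) := by
      intro a ha
      have := pow_card_eq_one' (G := H) (x := ⟨a, ha⟩)
      have h2 : a ^ Nat.card H = 1 := congrArg Subtype.val this
      rw [hS]
      exact Finset.mem_coe.mpr (Finset.mem_filter.mpr ⟨Finset.mem_univ _, h2⟩)
    have hHfin : (H : Set C).Finite := Set.toFinite _
    have hcardH : hHfin.toFinset.card = Nat.card H := by
      rw [← Set.ncard_eq_toFinset_card _ hHfin]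
      exact (Nat.card_coe_set_eq _).symm ▸ rfl
    have hsub' : hHfin.toFinset ⊆ S := by
      intro a ha
      exact hsub (hHfin.mem_toFinset.mp ha)
    have heq : hHfin.toFinset = S := by
      apply Finset.eq_of_subset_of_card_le hsub'
      rw [hcardH]
      exact hle
    have hxS : x ∈ S := by
      rw [hS]
      exact Finset.mem_filter.mpr ⟨Finset.mem_univ _, hx⟩
    rw [← heq] at hxS
    exact hHfin.mem_toFinset.mp hxS

/-- Subgroups of a finite cyclic group: `|H₁ ⊓ H₂| = gcd (|H₁|, |H₂|)`. -/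
theorem card_inf_eq_gcd (H₁ H₂ : Subgroup C) :
    Nat.card (H₁ ⊓ H₂ : Subgroup C) = Nat.gcd (Nat.card H₁) (Nat.card H₂) := by
  classical
  apply Nat.dvd_antisymm
  · exact Nat.dvd_gcd (Subgroup.card_dvd_of_le inf_le_left) (Subgroup.card_dvd_of_le inf_le_right)
  · -- a generator of the subgroup of order gcd lies in both
    set d := Nat.gcd (Nat.card H₁) (Nat.card H₂) with hd
    have hd1 : d ∣ Nat.card H₁ := Nat.gcd_dvd_left _ _
    have hdC : d ∣ Nat.card C := hd1.trans (Subgroup.card_subgroup_dvd_card H₁)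
    obtain ⟨g, hg⟩ := IsCyclic.exists_generator (α := C)
    obtain ⟨m, hm⟩ := hdC
    -- `z = g ^ m` has order `d`
    set z := g ^ m with hz
    have hordg : orderOf g = Nat.card C := orderOf_eq_card_of_forall_mem_zpowers hg
    have hCpos : 0 < Nat.card C := Nat.card_pos
    have hdpos : 0 < d := Nat.pos_of_ne_zero (by
      intro h0
      rw [h0, zero_mul] at hm
      omega)
    have hmpos : 0 < m := Nat.pos_of_ne_zero (by
      intro h0
      rw [h0, mul_zero] at hm
      omega)
    have hordz : orderOf z = d := by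
      rw [hz, orderOf_pow' g hmpos.ne', hordg, hm, Nat.gcd_mul_left_left,
        Nat.mul_div_cancel _ hmpos]
    have hz1 : z ∈ H₁ := by
      rw [mem_iff_pow_card_eq_one]
      obtain ⟨c, hc⟩ := hd1
      rw [hc, pow_mul, ← hordz, pow_orderOf_eq_one, one_pow]
    have hz2 : z ∈ H₂ := by
      rw [mem_iff_pow_card_eq_one]
      obtain ⟨c, hc⟩ := Nat.gcd_dvd_right (Nat.card H₁) (Nat.card H₂)
      rw [hc, ← hd, pow_mul, ← hordz, pow_orderOf_eq_one, one_pow]
    have hzmem : z ∈ (H₁ ⊓ H₂ : Subgroup C) := ⟨hz1, hz2⟩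
    rw [← hordz]
    have := orderOf_dvd_natCard (G := (H₁ ⊓ H₂ : Subgroup C)) ⟨z, hzmem⟩
    rwa [Subgroup.orderOf_mk] at this

/-- The two relative indices over the intersection are coprime. -/
theorem coprime_div_card_inf (H₁ H₂ : Subgroup C) :
    Nat.Coprime (Nat.card H₁ / Nat.card (H₁ ⊓ H₂ : Subgroup C))
      (Nat.card H₂ / Nat.card (H₁ ⊓ H₂ : Subgroup C)) := by
  rw [card_inf_eq_gcd]
  have hpos : 0 < Nat.gcd (Nat.card H₁) (Nat.card H₂) :=
    Nat.gcd_pos_of_pos_left _ Nat.card_pos
  exact Nat.coprime_div_gcd_div_gcd hpos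

end Cyclic

end Fermat.Agent.S18.C.TameInertia
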