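import Mathlib
import Fermat.Agent.S18.C.TameInertia

/-!
# S18, block C1 (core, part 2): values of invariant elements at a tamely ramified prime

`B` a Dedekind domain, `G` a finite group acting on `B`, `P` a nonzero prime of `B` with residue
characteristic zero.

* `smul_sub_mul_pow_mem`: an inertia element `σ` acts on `P ^ k / P ^ (k + 1)` through the `k`-th
  power of its tame character.
* `pow_eq_one_of_smul_eq`: if `σ` in the inertia group fixes `b ∈ P ^ k \ P ^ (k + 1)` then
  `σ ^ k = 1`.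
* `exists_invariant`: for a subgroup `H` there is an `H`-invariant element whose `P`-adic valuation
  is exactly the order of `H ∩ stabilizer P` (the `H`-norm of a well chosen uniformiser).
* `orderOf_dvd_log`: the fraction field version of the second item.
* `exists_coprime_invariants`: the group theoretic heart of Abhyankar's lemma.
-/

set_option autoImplicit false

namespace Fermat.Agent.S18.C.TameValue

open Ideal IsDedekindDomain WithZero Fermat.Agent.S18.C.TameInertia
open scoped Pointwise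

section Act

variable {B : Type*} [CommRing B] [IsDedekindDomain B] {G : Type*} [Group G]
  [MulSemiringAction G B] (P : Ideal B) [P.IsPrime]

/-- If `σ • π ≡ π * d` modulo `P ^ 2` for a uniformiser `π`, the same congruence holds for every
element of `P`. -/
theorem smul_sub_mul_mem_sq (hP : P ≠ ⊥) {π : B} (hπ : π ∈ P) (hπ2 : π ∉ P ^ 2) {σ : G}
    (hσ : σ ∈ P.inertia G) {d : B} (hd : σ • π - π * d ∈ P ^ 2) {z : B} (hz : z ∈ P) :
    σ • z - z * d ∈ P ^ 2 := by
  obtain ⟨c, hc⟩ := exists_coeff P hP hπ hπ2 hz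
  have e : σ • z - z * d = σ • (z - π * c) - (z - π * c) * d + (σ • π - π * d) * σ • c
      + π * d * (σ • c - c) := by
    rw [smul_sub, smul_mul']
    ring
  rw [e]
  refine Ideal.add_mem _ (Ideal.add_mem _ (Ideal.sub_mem _ ?_ ?_) ?_) ?_
  · exact smul_mem_pow_of_mem_inertia P hσ 2 hc
  · exact Ideal.mul_mem_right _ _ hc
  · exact Ideal.mul_mem_right _ _ hd
  · have h5 : π * d * (σ • c - c) ∈ P * P :=
      Ideal.mul_mem_mul (Ideal.mul_mem_right _ _ hπ) (hσ c)
    rwa [← pow_two] at h5

/-- An inertia element acts on `P ^ k / P ^ (k + 1)` through the `k`-th power of its tame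
character. -/
theorem smul_sub_mul_pow_mem (hP : P ≠ ⊥) {π : B} (hπ : π ∈ P) (hπ2 : π ∉ P ^ 2) {σ : G}
    (hσ : σ ∈ P.inertia G) {d : B} (hd : σ • π - π * d ∈ P ^ 2) (k : ℕ) {b : B}
    (hb : b ∈ P ^ k) : σ • b - b * d ^ k ∈ P ^ (k + 1) := by
  induction k generalizing b with
  | zero =>
    have := hσ b
    simpa using this
  | succ k ih =>
    rw [pow_succ] at hb
    refine Submodule.mul_induction_on hb ?_ ?_
    · intro y hy z hz
      have e : σ • (y * z) - y * z * d ^ (k + 1)
          = (σ • y - y * d ^ k) * σ • z + y * d ^ k * (σ • z - z * d) := by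
        rw [smul_mul']
        ring
      rw [e]
      refine Ideal.add_mem _ ?_ ?_
      · have h3 : (σ • y - y * d ^ k) * σ • z ∈ P ^ (k + 1) * P :=
          Ideal.mul_mem_mul (ih hy) (smul_mem_of_mem_inertia P hσ hz)
        rwa [← pow_succ] at h3
      · have h3 : y * d ^ k * (σ • z - z * d) ∈ P ^ k * P ^ 2 :=
          Ideal.mul_mem_mul (Ideal.mul_mem_right _ _ hy)
            (smul_sub_mul_mem_sq P hP hπ hπ2 hσ hd hz)
        rwa [← pow_add] at h3
    · intro y z hy hz
      have e : σ • (y + z) - (y + z) * d ^ (k + 1)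
          = (σ • y - y * d ^ (k + 1)) + (σ • z - z * d ^ (k + 1)) := by
        rw [smul_add]
        ring
      rw [e]
      exact Ideal.add_mem _ hy hz

/-- **Tame ramification and invariants**: if an inertia element `σ` fixes an element of exact
`P`-adic order `k`, then `σ ^ k = 1`. -/
theorem pow_eq_one_of_smul_eq [Finite G] [FaithfulSMul G B] [CharZero (B ⧸ P)] (hP : P ≠ ⊥)
    {σ : G} (hσ : σ ∈ P.inertia G) {k : ℕ} {b : B} (hb : b ∈ P ^ k) (hb' : b ∉ P ^ (k + 1))
    (hfix : σ • b = b) : σ ^ k = 1 := by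
  obtain ⟨π, hπ, hπ2⟩ := exists_uniformizer P hP
  obtain ⟨d, hd⟩ := Ideal.Quotient.mk_surjective (tameChar G P hP hπ hπ2 ⟨σ, hσ⟩)
  have hd' : σ • π - π * d ∈ P ^ 2 :=
    smul_sub_mul_tameChar_mem P hP hπ hπ2 ⟨σ, hσ⟩ hd.symm
  have h1 := smul_sub_mul_pow_mem P hP hπ hπ2 hσ hd' k hb
  rw [hfix] at h1
  have h2 : b * (1 - d ^ k) ∈ P ^ (k + 1) := by
    have e : b * (1 - d ^ k) = b - b * d ^ k := by ring
    rw [e]
    exact h1
  have h3 : 1 - d ^ k ∈ P := Ideal.mem_prime_of_mul_mem_pow hP hb' h2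
  have h4 : tameChar G P hP hπ hπ2 ((⟨σ, hσ⟩ : P.inertia G) ^ k) = 1 := by
    rw [map_pow, ← hd, ← map_pow, ← map_one (Ideal.Quotient.mk P)]
    symm
    exact Ideal.Quotient.eq.mpr h3
  have h5 : (⟨σ, hσ⟩ : P.inertia G) ^ k = 1 :=
    tameChar_injective P hP hπ hπ2 (h4.trans (map_one _).symm)
  have h6 := congrArg Subtype.val h5
  simpa using h6

end Act

section Val

variable {B : Type*} [CommRing B] [IsDedekindDomain B] (v : HeightOneSpectrum B)

/-- exact order in terms of the integral adic valuation -/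
theorem intValuation_eq_exp_neg_iff (b : B) (k : ℕ) :
    v.intValuation b = exp (-(k : ℤ)) ↔ b ∈ v.asIdeal ^ k ∧ b ∉ v.asIdeal ^ (k + 1) := by
  rw [← v.intValuation_le_pow_iff_mem, ← v.intValuation_le_pow_iff_mem]
  constructor
  · intro h
    rw [h]
    refine ⟨le_rfl, ?_⟩
    rw [exp_le_exp]
    push_cast
    omega
  · rintro ⟨h1, h2⟩
    have h0 : v.intValuation b ≠ 0 := by
      intro h0
      rw [h0] at h2
      exact h2 zero_le
    rw [← exp_log h0] at h1 h2 ⊢
    rw [exp_le_exp] at h1 h2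
    rw [exp_inj]
    push_cast at h2
    omega

/-- every nonzero element has an exact order -/
theorem exists_intValuation_eq {b : B} (hb : b ≠ 0) :
    ∃ k : ℕ, v.intValuation b = exp (-(k : ℤ)) :=
  ⟨_, v.intValuation_eq_exp_neg_multiplicity hb⟩

end Val

section Norm

variable {B : Type*} [CommRing B] [IsDedekindDomain B] {G : Type*} [Group G] [Finite G]
  [MulSemiringAction G B] (v : HeightOneSpectrum B)

/-- A uniformiser at `v` which is a unit at all the other conjugates of `v`. -/
theorem exists_good_uniformizer :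
    ∃ π : B, π ∈ v.asIdeal ∧ π ∉ v.asIdeal ^ 2 ∧
      ∀ τ : G, τ • v.asIdeal ≠ v.asIdeal → π ∉ τ • v.asIdeal := by
  classical
  by_contra hcon
  push Not at hcon
  have : Fintype G := Fintype.ofFinite G
  set P := v.asIdeal with hPdef
  let f : Option G → Ideal B := fun o => match o with
    | none => P ^ 2
    | some τ => τ • P
  let s : Finset (Option G) := Finset.univ.filter fun o => ∀ τ, o = some τ → τ • P ≠ P
  have hsub : ((P : Set B) ⊆ ⋃ i ∈ (↑s : Set (Option G)), f i) := by
    intro π hπ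
    rw [Set.mem_iUnion₂]
    by_cases h2 : π ∈ P ^ 2
    · exact ⟨none, by simp [s], h2⟩
    · obtain ⟨τ, hτ, hmem⟩ := hcon π hπ h2
      refine ⟨some τ, ?_, hmem⟩
      refine Finset.mem_coe.mpr (Finset.mem_filter.mpr ⟨Finset.mem_univ _, ?_⟩)
      intro τ' hτ'
      rw [Option.some.injEq] at hτ'
      rw [← hτ']
      exact hτ
  have hprime : ∀ i ∈ s, i ≠ none → i ≠ none → (f i).IsPrime := by
    intro i _ hi _
    cases i with
    | none => exact absurd rfl hi
    | some τ => exact Ideal.IsPrime.smul τ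
  obtain ⟨i, his, hle⟩ := (Ideal.subset_union_prime none none hprime).mp hsub
  cases i with
  | none =>
    have hlt : P ^ (1 + 1) < P ^ 1 := Ideal.pow_succ_lt_pow v.ne_bot 1
    rw [pow_one] at hlt
    exact absurd hle (not_le_of_gt hlt)
  | some τ =>
    have hne : τ • P ≠ P := by
      have := (Finset.mem_filter.mp his).2
      exact this τ rfl
    have hmax : P.IsMaximal := v.isPrime.isMaximal v.ne_bot
    have htop : τ • P ≠ ⊤ := (Ideal.IsPrime.smul τ).ne_top
    exact hne (hmax.eq_of_le htop hle).symm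

/-- The `H`-norm of a good uniformiser: an `H`-invariant element whose valuation is the order of
the decomposition group of `v` in `H`. -/
theorem exists_invariant (H : Subgroup G) :
    ∃ b : B, (∀ σ ∈ H, σ • b = b) ∧
      v.intValuation b =
        exp (-(Nat.card ((MulAction.stabilizer G v.asIdeal).subgroupOf H) : ℤ)) := by
  classical
  have : Fintype H := Fintype.ofFinite H
  obtain ⟨π, hπ, hπ2, hπ3⟩ := exists_good_uniformizer (G := G) v
  refine ⟨∏ σ : H, (σ : G) • π, ?_, ?_⟩
  · intro τ hτ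
    rw [Finset.smul_prod']
    refine Fintype.prod_equiv (Equiv.mulLeft (⟨τ, hτ⟩ : H)) _ _ ?_
    intro σ
    rw [Equiv.coe_mulLeft, Subgroup.coe_mul, mul_smul]
  · rw [map_prod]
    have hval : ∀ σ : H, v.intValuation ((σ : G) • π) =
        if σ ∈ (MulAction.stabilizer G v.asIdeal).subgroupOf H then exp (-1 : ℤ) else 1 := by
      intro σ
      split_ifs with hσ
      · rw [Subgroup.mem_subgroupOf, MulAction.mem_stabilizer_iff] at hσ
        have h1 : (exp (-1 : ℤ) : ℤᵐ⁰) = exp (-((1 : ℕ) : ℤ)) := by norm_num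
        rw [h1, intValuation_eq_exp_neg_iff]
        constructor
        · rw [pow_one]
          have := Ideal.smul_mem_pointwise_smul (σ : G) π v.asIdeal hπ
          rwa [hσ] at this
        · intro hmem
          apply hπ2
          have h2 : ((σ : G) • v.asIdeal) ^ 2 = (σ : G) • (v.asIdeal ^ 2) :=
            (smul_pow' (σ : G) v.asIdeal 2).symm
          have h3 : (σ : G) • π ∈ ((σ : G) • v.asIdeal) ^ 2 := by rw [hσ]; exact hmem
          rw [h2, Ideal.smul_mem_pointwise_smul_iff] at h3
          exact h3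
      · rw [Subgroup.mem_subgroupOf, MulAction.mem_stabilizer_iff] at hσ
        rw [HeightOneSpectrum.intValuation_eq_one_iff]
        have hne : ((σ : G)⁻¹) • v.asIdeal ≠ v.asIdeal := by
          intro h
          apply hσ
          calc (σ : G) • v.asIdeal = (σ : G) • ((σ : G)⁻¹ • v.asIdeal) := by rw [h]
            _ = v.asIdeal := smul_inv_smul _ _
        have := hπ3 _ hne
        rwa [Ideal.mem_inv_pointwise_smul_iff] at this
    rw [Finset.prod_congr rfl fun σ _ => hval σ, Finset.prod_ite, Finset.prod_const_one, mul_one,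
      Finset.prod_const, ← exp_nsmul, Nat.card_eq_fintype_card, Fintype.card_subtype]
    simp

end Norm

section Card

variable {G : Type*} [Group G]

theorem card_subgroupOf_eq_card_inf (H K : Subgroup G) :
    Nat.card (H.subgroupOf K) = Nat.card ↥(H ⊓ K) := by
  rw [← Subgroup.inf_subgroupOf_right H K]
  exact Nat.card_congr (Subgroup.subgroupOfEquivOfLe (inf_le_right : H ⊓ K ≤ K)).toEquiv

theorem card_subgroupOf_comm (H K : Subgroup G) :
    Nat.card (H.subgroupOf K) = Nat.card (K.subgroupOf H) := by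
  rw [card_subgroupOf_eq_card_inf, card_subgroupOf_eq_card_inf, inf_comm]

end Card

section Frac

variable {B : Type*} [CommRing B] [IsDedekindDomain B] {N : Type*} [Field N] [Algebra B N]
  [IsFractionRing B N] {G : Type*} [Group G] [Finite G] [MulSemiringAction G B]
  [FaithfulSMul G B] [MulSemiringAction G N]

/-- **Tame ramification and invariants**, fraction field version: the order of an inertia element
fixing `y` divides the valuation of `y`. -/
theorem orderOf_dvd_log
    (hcompat : ∀ (σ : G) (b : B), algebraMap B N (σ • b) = σ • algebraMap B N b)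
    (hden : ∀ y : N, ∃ a : B, a ≠ 0 ∧ (∀ σ : G, σ • a = a) ∧
      ∃ b : B, algebraMap B N b = algebraMap B N a * y)
    (v : HeightOneSpectrum B) [CharZero (B ⧸ v.asIdeal)]
    {σ : G} (hσ : σ ∈ v.asIdeal.inertia G) {y : N} (hy : y ≠ 0) (hfix : σ • y = y) :
    (orderOf σ : ℤ) ∣ log (v.valuation N y) := by
  obtain ⟨a, ha0, haG, b, hb⟩ := hden y
  have hinj := IsFractionRing.injective B N
  have ha0' : algebraMap B N a ≠ 0 := (map_ne_zero_iff _ hinj).mpr ha0
  have hb0 : b ≠ 0 := by
    intro h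
    rw [h, map_zero] at hb
    exact (mul_ne_zero ha0' hy) hb.symm
  have hbfix : σ • b = b := hinj (by rw [hcompat, hb, smul_mul', ← hcompat, haG, hfix])
  obtain ⟨ka, hka⟩ := exists_intValuation_eq v ha0
  obtain ⟨kb, hkb⟩ := exists_intValuation_eq v hb0
  have h1 := pow_eq_one_of_smul_eq v.asIdeal v.ne_bot hσ
    ((intValuation_eq_exp_neg_iff v a ka).mp hka).1 ((intValuation_eq_exp_neg_iff v a ka).mp hka).2
    (haG σ)
  have h2 := pow_eq_one_of_smul_eq v.asIdeal v.ne_bot hσ
    ((intValuation_eq_exp_neg_iff v b kb).mp hkb).1 ((intValuation_eq_exp_neg_iff v b kb).mp hkb).2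
    hbfix
  have d1 : orderOf σ ∣ ka := orderOf_dvd_of_pow_eq_one h1
  have d2 : orderOf σ ∣ kb := orderOf_dvd_of_pow_eq_one h2
  have hval : v.valuation N y = exp (-(kb : ℤ) - (-(ka : ℤ))) := by
    have h3 : v.valuation N (algebraMap B N b) =
        v.valuation N (algebraMap B N a) * v.valuation N y := by rw [hb, map_mul]
    rw [HeightOneSpectrum.valuation_of_algebraMap, HeightOneSpectrum.valuation_of_algebraMap,
      hka, hkb] at h3
    rw [exp_sub, h3, mul_div_cancel_left₀ _ exp_ne_zero]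
  rw [hval, log_exp]
  exact dvd_sub (dvd_neg.mpr (Int.natCast_dvd_natCast.mpr d2))
    (dvd_neg.mpr (Int.natCast_dvd_natCast.mpr d1))

/-- **Group theoretic heart of Abhyankar's lemma.**  Assume that the decomposition group of `v`
equals its inertia group (algebraically closed residue field) and residue characteristic zero.
For subgroups `H₁ H₂` there are an `H₁`-invariant `b₁` and an `H₂`-invariant `b₂` such that an
integral combination of their valuations generates the value group of the invariants of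
`H₁ ⊓ H₂`. -/
theorem exists_coprime_invariants
    (hcompat : ∀ (σ : G) (b : B), algebraMap B N (σ • b) = σ • algebraMap B N b)
    (hden : ∀ y : N, ∃ a : B, a ≠ 0 ∧ (∀ σ : G, σ • a = a) ∧
      ∃ b : B, algebraMap B N b = algebraMap B N a * y)
    (v : HeightOneSpectrum B) [CharZero (B ⧸ v.asIdeal)]
    (hDI : MulAction.stabilizer G v.asIdeal ≤ v.asIdeal.inertia G) (H₁ H₂ : Subgroup G) :
    ∃ (b₁ b₂ : B) (u₁ u₂ : ℤ) (h : ℕ), 0 < h ∧ b₁ ≠ 0 ∧ b₂ ≠ 0 ∧
      (∀ σ ∈ H₁, σ • b₁ = b₁) ∧ (∀ σ ∈ H₂, σ • b₂ = b₂) ∧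
      u₁ * log (v.intValuation b₁) + u₂ * log (v.intValuation b₂) = -(h : ℤ) ∧
      ∀ y : N, y ≠ 0 → (∀ σ ∈ H₁ ⊓ H₂, σ • y = y) → (h : ℤ) ∣ log (v.valuation N y) := by
  have hIeq : MulAction.stabilizer G v.asIdeal = v.asIdeal.inertia G :=
    le_antisymm hDI (Ideal.inertia_le_stabilizer _)
  have hcyc : IsCyclic (v.asIdeal.inertia G) := isCyclic_inertia v.asIdeal v.ne_bot
  set K₁ : Subgroup (v.asIdeal.inertia G) := H₁.subgroupOf (v.asIdeal.inertia G) with hK₁
  set K₂ : Subgroup (v.asIdeal.inertia G) := H₂.subgroupOf (v.asIdeal.inertia G) with hK₂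
  have hcop := coprime_div_card_inf K₁ K₂
  set a := Nat.card K₁ with ha
  set b := Nat.card K₂ with hb
  set h := Nat.card ↥(K₁ ⊓ K₂) with hh
  have hpos : 0 < h := Nat.card_pos
  have hda : h ∣ a := Subgroup.card_dvd_of_le inf_le_left
  have hdb : h ∣ b := Subgroup.card_dvd_of_le inf_le_right
  obtain ⟨b₁, hb₁, hv₁⟩ := exists_invariant (G := G) v H₁
  obtain ⟨b₂, hb₂, hv₂⟩ := exists_invariant (G := G) v H₂
  rw [hIeq, card_subgroupOf_comm] at hv₁ hv₂
  have hb₁0 : b₁ ≠ 0 := by
    intro h0
    rw [h0, map_zero] at hv₁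
    exact exp_ne_zero hv₁.symm
  have hb₂0 : b₂ ≠ 0 := by
    intro h0
    rw [h0, map_zero] at hv₂
    exact exp_ne_zero hv₂.symm
  refine ⟨b₁, b₂, Nat.gcdA (a / h) (b / h), Nat.gcdB (a / h) (b / h), h, hpos, hb₁0, hb₂0,
    hb₁, hb₂, ?_, ?_⟩
  · rw [hv₁, hv₂, log_exp, log_exp]
    have hbez := Nat.gcd_eq_gcd_ab (a / h) (b / h)
    rw [Nat.Coprime.gcd_eq_one hcop] at hbez
    obtain ⟨a', ha'⟩ := hda
    obtain ⟨b', hb'⟩ := hdb
    have e1 : a / h = a' := by rw [ha', Nat.mul_div_cancel_left _ hpos]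
    have e2 : b / h = b' := by rw [hb', Nat.mul_div_cancel_left _ hpos]
    rw [e1, e2] at hbez ⊢
    have e3 : ((Nat.card K₁ : ℕ) : ℤ) = (h : ℤ) * a' := by rw [← ha, ha']; push_cast; ring
    have e4 : ((Nat.card K₂ : ℕ) : ℤ) = (h : ℤ) * b' := by rw [← hb, hb']; push_cast; ring
    rw [e3, e4]
    push_cast at hbez
    linear_combination (h : ℤ) * hbez
  · intro y hy hyfix
    have hcyc' : IsCyclic ↥(K₁ ⊓ K₂) := Subgroup.isCyclic _
    obtain ⟨g, hg⟩ := IsCyclic.exists_generator (α := ↥(K₁ ⊓ K₂))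
    have hord : orderOf g = h := orderOf_eq_card_of_forall_mem_zpowers hg
    have hord' : orderOf (((g : v.asIdeal.inertia G) : G)) = h := by
      rw [Subgroup.orderOf_coe, Subgroup.orderOf_coe, hord]
    have hgI : ((g : v.asIdeal.inertia G) : G) ∈ v.asIdeal.inertia G := (g : v.asIdeal.inertia G).2
    have hg12 : ((g : v.asIdeal.inertia G) : G) ∈ H₁ ⊓ H₂ := by
      have := g.2
      rw [Subgroup.mem_inf] at this ⊢
      exact ⟨Subgroup.mem_subgroupOf.mp this.1, Subgroup.mem_subgroupOf.mp this.2⟩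
    have := orderOf_dvd_log hcompat hden v hgI hy (hyfix _ hg12)
    rwa [hord'] at this

end Frac

end Fermat.Agent.S18.C.TameValue
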