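import Mathlib
import Fermat.Agent.S24.Fibre
import Fermat.Agent.S18.C.TameValue

/-!
# S18, block C1: Abhyankar's lemma for function fields over an algebraically closed field of
characteristic zero, in the prelude `Place` language

`L` algebraically closed of characteristic zero, `K'` a function field over `L` (`IsFF L x`),
`F M : IntermediateField L K'` both containing `x`, with `F ⊔ M = ⊤`.  Then at every place `P'` of
`K'` there are `f ∈ F`, `m ∈ M` with `ord_{P'} (f * m) = 1` (`abhyankar_uniformizer`): the value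
group of the compositum is the sum of the value groups.  Corollaries: `abhyankar_coprime` (numbers
`nF`, `nM` dividing all orders of elements of `F`, resp. `M`, at `P'` are coprime) and
`abhyankar_unramified` (if moreover `ord t = e1 * nF = e2 * nM` with `e1 ∣ e2` then `nM = 1`), the
shape used by block C.

Proof: pass to the normal closure `N` of `K'` over `L(x)`, `G = Gal(N / L(x))`, `B` the integral
closure of `L[x]` in `N`, `Q` a prime of `B` above `P'` (Chevalley's extension theorem).  The inertia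
group of `Q` is cyclic and equals the decomposition group; `TameValue.exists_coprime_invariants`
gives invariants of `Gal(N / F)` and `Gal(N / M)` whose valuations generate the value group of the
invariants of `Gal(N / K')`.
-/

set_option autoImplicit false

namespace Fermat.Agent.S18.C.Abhyankar

open AlgebraicCurve IsDedekindDomain WithZero IntermediateField
  Fermat.Agent.S24.PlacePrime Fermat.Agent.S24.FF Fermat.Agent.S24.Ord Fermat.Agent.S24.Fibre
open scoped IntermediateField.algebraAdjoinAdjoin Pointwise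

section Chevalley

variable {K' N : Type*} [Field K'] [Field N] [Algebra K' N]

/-- **Chevalley's extension theorem** for valuation subrings, along a field extension. -/
theorem exists_valuationSubring_comap_eq (A : ValuationSubring K') :
    ∃ O : ValuationSubring N, O.comap (algebraMap K' N) = A := by
  let f : A →+* N := (algebraMap K' N).comp A.subtype
  obtain ⟨O, h, hloc⟩ := IsLocalRing.exists_factor_valuationRing f
  refine ⟨O, ?_⟩
  ext y
  rw [ValuationSubring.mem_comap]
  constructor
  · intro hy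
    by_contra hyA
    have hy0 : y ≠ 0 := fun h0 => hyA (h0 ▸ A.zero_mem)
    have hinv : y⁻¹ ∈ A := (A.mem_or_inv_mem y).resolve_left hyA
    have hunit : IsUnit ((f.codRestrict O.toSubring h) ⟨y⁻¹, hinv⟩) := by
      refine IsUnit.of_mul_eq_one (⟨algebraMap K' N y, hy⟩ : O) ?_
      apply Subtype.ext
      show algebraMap K' N y⁻¹ * algebraMap K' N y = 1
      rw [← map_mul, inv_mul_cancel₀ hy0, map_one]
    have hu : IsUnit (⟨y⁻¹, hinv⟩ : A) := hloc.map_nonunit _ hunit
    obtain ⟨u, hu⟩ := hu
    apply hyA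
    have h3 : ((u : A) : K') * (((u⁻¹ : Aˣ) : A) : K') = 1 := by
      rw [← MulMemClass.coe_mul, Units.mul_inv]
      rfl
    have h4 : ((u : A) : K') = y⁻¹ := by rw [hu]
    rw [h4] at h3
    have h5 : (((u⁻¹ : Aˣ) : A) : K') = y := ((inv_mul_eq_one₀ hy0).mp h3).symm
    rw [← h5]
    exact SetLike.coe_mem _
  · intro hy
    exact h ⟨y, hy⟩

end Chevalley

section Prime

variable {F : Type*} [Field F] {B : Type*} [CommRing B] [IsDedekindDomain B] [Algebra B F]
  [IsFractionRing B F]

/-- Every valuation subring `O ≠ ⊤` containing a Dedekind domain `B` with fraction field `F` is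
the valuation ring of a nonzero prime of `B`. -/
theorem exists_prime_of_valuationSubring (O : ValuationSubring F) (hO : O ≠ ⊤)
    (hB : ∀ b : B, algebraMap B F b ∈ O) :
    ∃ P : HeightOneSpectrum B, (P.valuation F).valuationSubring = O := by
  let φ : B →+* O := (algebraMap B F).codRestrict O.toSubring hB
  have hφ : ∀ b : B, ((φ b : O) : F) = algebraMap B F b := fun _ => rfl
  let P₀ : Ideal B := (IsLocalRing.maximalIdeal O).comap φ
  have hP₀prime : P₀.IsPrime := Ideal.comap_isPrime φ _
  have hP₀ne : P₀ ≠ ⊥ := by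
    intro hbot
    apply hO
    refine SetLike.ext fun f => ⟨fun _ => ValuationSubring.mem_top f, fun _ => ?_⟩
    obtain ⟨b, s, hs, rfl⟩ := IsFractionRing.div_surjective (A := B) f
    have hs0 : (s : B) ≠ 0 := nonZeroDivisors.ne_zero hs
    have hsn : (s : B) ∉ P₀ := by
      rw [hbot, Ideal.mem_bot]
      exact hs0
    have hunit : IsUnit (φ (s : B)) := by
      by_contra hnu
      exact hsn (by
        show φ (s : B) ∈ IsLocalRing.maximalIdeal O
        rwa [IsLocalRing.mem_maximalIdeal, mem_nonunits_iff])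
    obtain ⟨u, hu⟩ := hunit
    have hinv : (algebraMap B F (s : B))⁻¹ = ((u⁻¹ : Oˣ) : O) := by
      rw [← hφ, ← hu]
      have h3 : ((u : O) : F) * (((u⁻¹ : Oˣ) : O) : F) = 1 := by
        rw [← MulMemClass.coe_mul, Units.mul_inv]
        rfl
      exact inv_eq_of_mul_eq_one_right h3
    rw [div_eq_mul_inv, hinv]
    exact O.mul_mem _ _ (hB b) (SetLike.coe_mem _)
  let P : HeightOneSpectrum B := ⟨P₀, hP₀prime, hP₀ne⟩
  refine ⟨P, ?_⟩
  have : Ring.KrullDimLE 1 ((P.valuation F).valuationSubring) := by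
    rw [← P.valuationSubringAtPrime_eq_valuationSubring]
    infer_instance
  refine ValuationSubring.eq_of_le_of_ne_top _ ?_ hO
  intro f hf
  obtain ⟨n, d, hnd⟩ := P.exists_primeCompl_mul_eq_of_integer f hf
  have hdn : (d : B) ∉ P₀ := d.2
  have hunit : IsUnit (φ (d : B)) := by
    by_contra hnu
    exact hdn (by
      show φ (d : B) ∈ IsLocalRing.maximalIdeal O
      rwa [IsLocalRing.mem_maximalIdeal, mem_nonunits_iff])
  obtain ⟨u, hu⟩ := hunit
  have h3 : ((u : O) : F) * (((u⁻¹ : Oˣ) : O) : F) = 1 := by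
    rw [← MulMemClass.coe_mul, Units.mul_inv]
    rfl
  have hfeq : f = algebraMap B F n * (((u⁻¹ : Oˣ) : O) : F) := by
    rw [← hnd, ← hφ (d : B), ← hu, mul_assoc, h3, mul_one]
  rw [hfeq]
  exact O.mul_mem _ _ (hB n) (SetLike.coe_mem _)

end Prime

section Integral

variable {F : Type*} [Field F]

open Polynomial in
/-- Valuation subrings are integrally closed. -/
theorem mem_of_isIntegral {R : Type*} [CommRing R] [Algebra R F] (O : ValuationSubring F)
    (hR : ∀ r : R, algebraMap R F r ∈ O) {f : F} (hf : IsIntegral R f) : f ∈ O := by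
  rw [← O.valuation_le_one_iff]
  have hR' : ∀ r : R, O.valuation (algebraMap R F r) ≤ 1 := fun r =>
    (O.valuation_le_one_iff _).mpr (hR r)
  by_contra hlt
  rw [not_le] at hlt
  obtain ⟨p, hmonic, h0⟩ := hf
  set n := p.natDegree with hn
  rw [← aeval_def, hmonic.as_sum, map_add, map_pow, aeval_X, map_sum] at h0
  have h1 : f ^ n = -∑ i ∈ Finset.range n, aeval f (C (p.coeff i) * X ^ i) :=
    eq_neg_of_add_eq_zero_left h0
  have hfn : O.valuation (f ^ n) ≠ 0 := by
    rw [map_pow]
    exact pow_ne_zero _ (ne_of_gt (lt_trans zero_lt_one hlt))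
  have h2 : O.valuation (∑ i ∈ Finset.range n, aeval f (C (p.coeff i) * X ^ i)) <
      O.valuation (f ^ n) := by
    refine Valuation.map_sum_lt _ hfn fun i hi => ?_
    rw [Finset.mem_range] at hi
    rw [map_mul, aeval_C, map_pow, aeval_X, map_mul, map_pow, map_pow]
    calc O.valuation (algebraMap R F (p.coeff i)) * O.valuation f ^ i
        ≤ 1 * O.valuation f ^ i := by
          gcongr
          exact hR' _
      _ = O.valuation f ^ i := one_mul _
      _ < O.valuation f ^ n := pow_lt_pow_right₀ hlt hi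
  rw [h1, Valuation.map_neg] at h2
  exact lt_irrefl _ h2

/-- `K[x] ⊆ O` as soon as `K ⊆ O` and `x ∈ O`. -/
theorem adjoin_mem {K : Type*} [Field K] [Algebra K F] (O : ValuationSubring F)
    (hK : ∀ c : K, algebraMap K F c ∈ O) {x : F} (hx : x ∈ O)
    (a : Algebra.adjoin K ({x} : Set F)) : (a : F) ∈ O := by
  refine Algebra.adjoin_induction (p := fun z _ => z ∈ O) ?_ ?_ ?_ ?_ a.2
  · intro z hz
    rw [Set.mem_singleton_iff] at hz
    rw [hz]
    exact hx
  · intro c
    exact hK c
  · intro y z _ _ hy hz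
    exact O.add_mem _ _ hy hz
  · intro y z _ _ hy hz
    exact O.mul_mem _ _ hy hz

end Integral

section FFext

universe u w

variable {L : Type w} {K' N : Type u} [Field L] [Field K'] [Algebra L K'] [Field N] [Algebra K' N]
  [Algebra L N] [IsScalarTower L K' N]

/-- A finite extension of a function field is a function field (same transcendental element). -/
theorem isFF_algebraMap [FiniteDimensional K' N] {x : K'} (hx : IsFF L x) {xN : N}
    (hxN : algebraMap K' N x = xN) : IsFF L xN := by
  have hfin := hx.finite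
  refine ⟨?_, ?_⟩
  · rw [← hxN]
    exact (transcendental_algebraMap_iff (algebraMap K' N).injective).mpr hx.transcendental
  have h1 : Algebra.IsAlgebraic (Algebra.adjoin L {x}) K' :=
    Algebra.IsAlgebraic.trans (Algebra.adjoin L {x}) L⟮x⟯ K'
  have h2 : Algebra.IsAlgebraic (Algebra.adjoin L {x}) N :=
    Algebra.IsAlgebraic.trans (Algebra.adjoin L {x}) K' N
  let ιA : K' →ₐ[L] N := IsScalarTower.toAlgHom L K' N
  have hmem : ∀ a : Algebra.adjoin L {x}, ιA (a : K') ∈ Algebra.adjoin L {xN} := by
    intro a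
    have h3 : (Algebra.adjoin L {x}).map ιA = Algebra.adjoin L {xN} := by
      rw [AlgHom.map_adjoin, Set.image_singleton, ← hxN]
      rfl
    rw [← h3]
    exact ⟨a, a.2, rfl⟩
  let φ : Algebra.adjoin L {x} →+* Algebra.adjoin L {xN} :=
    ((ιA : K' →+* N).comp (Algebra.adjoin L {x}).subtype).codRestrict
      (Algebra.adjoin L {xN}).toSubring hmem
  have hφinj : Function.Injective φ := by
    intro a b hab
    have := congrArg Subtype.val hab
    exact Subtype.ext ((algebraMap K' N).injective this)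
  have h3 : Algebra.IsAlgebraic (Algebra.adjoin L {xN}) N :=
    Algebra.IsAlgebraic.ringHom_of_comp_eq (f := φ) (g := RingHom.id N) hφinj
      Function.surjective_id (by ext a; rfl)
  have h4 : Algebra.IsAlgebraic L⟮xN⟯ N :=
    Algebra.IsAlgebraic.extendScalars (R := Algebra.adjoin L {xN}) (S := L⟮xN⟯) (A := N)
      (IsFractionRing.injective (Algebra.adjoin L {xN}) L⟮xN⟯)
  have h5 : Algebra.EssFiniteType L K' := hx.essFiniteType
  have h6 : Algebra.EssFiniteType L N := Algebra.EssFiniteType.comp L K' N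
  have h7 : Algebra.EssFiniteType L⟮xN⟯ N := Algebra.EssFiniteType.of_comp L L⟮xN⟯ N
  exact Algebra.finite_of_essFiniteType_of_isAlgebraic

end FFext

section Variant

variable {B : Type*} [CommRing B] [IsDedekindDomain B] {N : Type*} [Field N] [Algebra B N]
  [IsFractionRing B N] {G : Type*} [Group G] [Finite G] [MulSemiringAction G B]
  [FaithfulSMul G B] [MulSemiringAction G N]

/-- `TameValue.exists_coprime_invariants` with the hypothesis "decomposition group = inertia group"
spelled out elementwise. -/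
theorem exists_coprime_invariants'
    (hcompat : ∀ (σ : G) (b : B), algebraMap B N (σ • b) = σ • algebraMap B N b)
    (hden : ∀ y : N, ∃ a : B, a ≠ 0 ∧ (∀ σ : G, σ • a = a) ∧
      ∃ b : B, algebraMap B N b = algebraMap B N a * y)
    (v : HeightOneSpectrum B) [CharZero (B ⧸ v.asIdeal)]
    (hDI : ∀ σ : G, (∀ b ∈ v.asIdeal, σ • b ∈ v.asIdeal) → σ ∈ v.asIdeal.inertia G)
    (H₁ H₂ : Subgroup G) :
    ∃ (b₁ b₂ : B) (u₁ u₂ : ℤ) (h : ℕ), 0 < h ∧ b₁ ≠ 0 ∧ b₂ ≠ 0 ∧
      (∀ σ ∈ H₁, σ • b₁ = b₁) ∧ (∀ σ ∈ H₂, σ • b₂ = b₂) ∧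
      u₁ * log (v.intValuation b₁) + u₂ * log (v.intValuation b₂) = -(h : ℤ) ∧
      ∀ y : N, y ≠ 0 → (∀ σ ∈ H₁ ⊓ H₂, σ • y = y) → (h : ℤ) ∣ log (v.valuation N y) :=
  TameValue.exists_coprime_invariants hcompat hden v (fun σ hσ => hDI σ (fun b hb => by
    rw [MulAction.mem_stabilizer_iff] at hσ
    have := Ideal.smul_mem_pointwise_smul σ b v.asIdeal hb
    rwa [hσ] at this)) H₁ H₂

end Variant

section Action

universe u w

variable {L : Type w} {N : Type u} [Field L] [Field N] [Algebra L N]
  {G : Type*} [Group G] [MulSemiringAction G N] [SMulCommClass G L N]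

theorem smul_algebraMap_eq' (σ : G) (c : L) :
    σ • algebraMap L N c = algebraMap L N c := by
  rw [Algebra.algebraMap_eq_smul_one, smul_comm, smul_one]

/-- A group fixing `L` and `xN` fixes `L[xN]`. -/
theorem smul_polyRing_eq {xN : N} (hGx : ∀ σ : G, σ • xN = xN) (σ : G) (a : polyRing L xN) :
    σ • (a : N) = a := by
  refine Algebra.adjoin_induction (p := fun z _ => σ • z = z) ?_ ?_ ?_ ?_ a.2
  · intro z hz
    rw [Set.mem_singleton_iff] at hz
    rw [hz]
    exact hGx σ
  · intro c
    exact smul_algebraMap_eq' σ c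
  · intro y z _ _ hy hz
    rw [smul_add, hy, hz]
  · intro y z _ _ hy hz
    rw [smul_mul', hy, hz]

theorem smulCommClass_polyRing {xN : N} (hGx : ∀ σ : G, σ • xN = xN) :
    SMulCommClass G (polyRing L xN) N :=
  ⟨fun σ a y => by
    rw [Algebra.smul_def, Algebra.smul_def, smul_mul']
    congr 1
    exact smul_polyRing_eq hGx σ a⟩

end Action

section Core

universe u w

variable {L : Type w} {K' N : Type u} [Field L] [IsAlgClosed L] [CharZero L] [Field K']
  [Algebra L K'] [Field N] [Algebra L N] [Algebra K' N] [IsScalarTower L K' N]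
  {G : Type*} [Group G] [Finite G] [MulSemiringAction G N] [FaithfulSMul G N]
  [SMulCommClass G L N]

/-- **Abhyankar's lemma, core form.**  `N ⊇ K'` a function field over `L` on which the finite
group `G` acts faithfully, fixing `L` and `x`; `F M` subfields of `K'` with `F M = K'` which are
"closed" for the Galois correspondence.  Then at every place `P'` of `K'` (with `x` regular) some
product `f * m`, `f ∈ F`, `m ∈ M`, is a uniformiser. -/
theorem abhyankar_core {x : K'} {xN : N} (hxx : algebraMap K' N x = xN) (hxN : IsFF L xN)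
    (hGx : ∀ σ : G, σ • xN = xN)
    (F M : IntermediateField L K') (hFM : F ⊔ M = ⊤)
    (hF : ∀ y : N, (∀ σ : G, (∀ f ∈ F, σ • algebraMap K' N f = algebraMap K' N f) → σ • y = y) →
      ∃ f ∈ F, algebraMap K' N f = y)
    (hM : ∀ y : N, (∀ σ : G, (∀ m ∈ M, σ • algebraMap K' N m = algebraMap K' N m) → σ • y = y) →
      ∃ m ∈ M, algebraMap K' N m = y)
    (P' : Place L K') (hreg : P'.adicValuation x ≤ 1) :
    ∃ (f : F) (m : M), f ≠ 0 ∧ m ≠ 0 ∧ P'.ord ((f : K') * (m : K')) = 1 := by
  classical
  have hDed := isDedekind hxN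
  have hFr := isFractionRing hxN
  have hcomm : SMulCommClass G (polyRing L xN) N := smulCommClass_polyRing hGx
  -- faithful action on the integral closure
  have hfaith : FaithfulSMul G (intRing L xN) := ⟨fun {σ τ} h => by
    apply FaithfulSMul.eq_of_smul_eq_smul (α := N)
    intro y
    obtain ⟨b, s, -, rfl⟩ := IsFractionRing.div_surjective (A := intRing L xN) y
    have hb := congrArg (algebraMap (intRing L xN) N) (h b)
    have hs := congrArg (algebraMap (intRing L xN) N) (h (s : intRing L xN))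
    rw [smul_div₀', smul_div₀']
    exact congrArg₂ (· / ·) hb hs⟩
  have hcompat : ∀ (σ : G) (b : intRing L xN),
      algebraMap (intRing L xN) N (σ • b) = σ • algebraMap (intRing L xN) N b := fun _ _ => rfl
  -- invariant denominators
  have hfinN := hxN.finite
  have halgN : Algebra.IsAlgebraic (polyRing L xN) N :=
    Algebra.IsAlgebraic.trans (polyRing L xN) L⟮xN⟯ N
  have hden : ∀ y : N, ∃ a : intRing L xN, a ≠ 0 ∧ (∀ σ : G, σ • a = a) ∧
      ∃ b : intRing L xN, algebraMap (intRing L xN) N b = algebraMap (intRing L xN) N a * y := by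
    intro y
    obtain ⟨a, ha0, hint⟩ :=
      (Algebra.IsAlgebraic.isAlgebraic (R := polyRing L xN) y).exists_integral_multiple
    refine ⟨algebraMap (polyRing L xN) (intRing L xN) a, ?_, ?_, ⟨a • y, hint⟩, ?_⟩
    · intro h0
      apply ha0
      have := congrArg (algebraMap (intRing L xN) N) h0
      rw [map_zero] at this
      exact Subtype.ext this
    · intro σ
      apply Subtype.ext
      exact smul_polyRing_eq hGx σ a
    · show a • y = (a : N) * y
      rw [Algebra.smul_def]
      rfl
  -- a valuation ring of `N` above `P'`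
  obtain ⟨O, hO⟩ := exists_valuationSubring_comap_eq (N := N) P'.toValuationSubring
  have hOmem : ∀ y : K', algebraMap K' N y ∈ O ↔ y ∈ P'.toValuationSubring := by
    intro y
    rw [← hO, ValuationSubring.mem_comap]
  have hOtop : O ≠ ⊤ := by
    intro htop
    apply P'.ne_top'
    refine SetLike.ext fun y => ⟨fun _ => ValuationSubring.mem_top y, fun _ => ?_⟩
    rw [← hOmem, htop]
    exact ValuationSubring.mem_top _
  have hLO : ∀ c : L, algebraMap L N c ∈ O := by
    intro c
    rw [IsScalarTower.algebraMap_apply L K' N, hOmem]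
    exact P'.algebraMap_mem' c
  have hxO : xN ∈ O := by
    rw [← hxx, hOmem, S24.Ord.mem_iff]
    exact hreg
  have hBO : ∀ b : intRing L xN, algebraMap (intRing L xN) N b ∈ O := by
    intro b
    exact mem_of_isIntegral (R := polyRing L xN) O (fun a => adjoin_mem O hLO hxO a) b.2
  obtain ⟨Q, hQ⟩ := exists_prime_of_valuationSubring O hOtop hBO
  set w : Place L N := placeOfPrime Q with hw
  have hwO : w.toValuationSubring = O := hQ
  -- residue characteristic zero
  have hchar : CharZero (intRing L xN ⧸ Q.asIdeal) := by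
    have : Nontrivial (intRing L xN ⧸ Q.asIdeal) :=
      Ideal.Quotient.nontrivial_iff.mpr Q.isPrime.ne_top
    exact charZero_of_injective_algebraMap
      (algebraMap L (intRing L xN ⧸ Q.asIdeal)).injective
  -- residue field `L`: decomposition group = inertia group
  have hres : ∀ b : intRing L xN, ∃ c : L, b - algebraMap L (intRing L xN) c ∈ Q.asIdeal := by
    intro b
    have hb : w.adicValuation (algebraMap (intRing L xN) N b) ≤ 1 := by
      rw [adicValuation_placeOfPrime]
      exact Q.valuation_le_one b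
    obtain ⟨c, hc⟩ := exists_sub_lt_one hxN w hb
    refine ⟨c, ?_⟩
    rw [adicValuation_placeOfPrime] at hc
    have h2 : algebraMap (intRing L xN) N b - algebraMap L N c =
        algebraMap (intRing L xN) N (b - algebraMap L (intRing L xN) c) := by
      rw [map_sub]
      rfl
    rw [h2, HeightOneSpectrum.valuation_lt_one_iff_mem] at hc
    exact hc
  have hDI : ∀ σ : G, (∀ b ∈ Q.asIdeal, σ • b ∈ Q.asIdeal) → σ ∈ Q.asIdeal.inertia G := by
    intro σ hσ b
    obtain ⟨c, hc⟩ := hres b
    have h1 : σ • (b - algebraMap L (intRing L xN) c) ∈ Q.asIdeal := hσ _ hc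
    have h2 : σ • algebraMap L (intRing L xN) c = algebraMap L (intRing L xN) c := by
      apply Subtype.ext
      exact smul_algebraMap_eq' σ c
    have e : σ • b - b = σ • (b - algebraMap L (intRing L xN) c)
        - (b - algebraMap L (intRing L xN) c) := by
      rw [smul_sub, h2]
      ring
    show σ • b - b ∈ Q.asIdeal
    rw [e]
    exact Ideal.sub_mem _ h1 hc
  -- the group theoretic heart
  obtain ⟨b₁, b₂, u₁, u₂, h, hpos, hb₁0, hb₂0, hb₁, hb₂, hcomb, hdiv⟩ :=
    exists_coprime_invariants' (N := N) hcompat hden Q hDI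
      (fixingSubgroup G (algebraMap K' N '' (F : Set K')))
      (fixingSubgroup G (algebraMap K' N '' (M : Set K')))
  -- descend `b₁`, `b₂` to `F`, `M`
  obtain ⟨f₁, hf₁F, hf₁⟩ := hF (algebraMap (intRing L xN) N b₁) (fun σ hσ => by
    have hσ' : σ ∈ fixingSubgroup G (algebraMap K' N '' (F : Set K')) := by
      rw [mem_fixingSubgroup_iff]
      rintro _ ⟨f, hf, rfl⟩
      exact hσ f hf
    rw [← hcompat, hb₁ σ hσ'])
  obtain ⟨m₁, hm₁M, hm₁⟩ := hM (algebraMap (intRing L xN) N b₂) (fun σ hσ => by
    have hσ' : σ ∈ fixingSubgroup G (algebraMap K' N '' (M : Set K')) := by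
      rw [mem_fixingSubgroup_iff]
      rintro _ ⟨f, hf, rfl⟩
      exact hσ f hf
    rw [← hcompat, hb₂ σ hσ'])
  have hinjB := IsFractionRing.injective (intRing L xN) N
  have hb₁N : algebraMap (intRing L xN) N b₁ ≠ 0 := (map_ne_zero_iff _ hinjB).mpr hb₁0
  have hb₂N : algebraMap (intRing L xN) N b₂ ≠ 0 := (map_ne_zero_iff _ hinjB).mpr hb₂0
  have hf₁0 : f₁ ≠ 0 := by
    intro h0
    rw [h0, map_zero] at hf₁
    exact hb₁N hf₁.symm
  have hm₁0 : m₁ ≠ 0 := by
    intro h0
    rw [h0, map_zero] at hm₁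
    exact hb₂N hm₁.symm
  -- `ord_w` on `K'` is a multiple of `ord_{P'}`
  obtain ⟨ϖ, hϖ⟩ := IsDiscreteValuationRing.exists_irreducible P'.toValuationSubring
  have hϖ0 : (ϖ : K') ≠ 0 := by
    intro h0
    exact hϖ.ne_zero (Subtype.ext h0)
  set c := w.ord (algebraMap K' N (ϖ : K')) with hc
  have hmemw : ∀ z : P'.toValuationSubring,
      0 ≤ w.ord (algebraMap K' N (z : K')) := by
    intro z
    rcases eq_or_ne (z : K') 0 with h0 | h0
    · rw [h0, map_zero, Place.ord_zero]
    · have hz0 : algebraMap K' N (z : K') ≠ 0 := (map_ne_zero_iff _ (algebraMap K' N).injective).mpr h0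
      rw [ord_nonneg_iff w hz0, ← S24.Ord.mem_iff, hwO, hOmem]
      exact z.2
  have hunit : ∀ u : P'.toValuationSubringˣ,
      w.ord (algebraMap K' N ((u : P'.toValuationSubring) : K')) = 0 := by
    intro u
    have h1 := hmemw (u : P'.toValuationSubring)
    have h2 := hmemw ((u⁻¹ : P'.toValuationSubringˣ) : P'.toValuationSubring)
    have h3 : (((u⁻¹ : P'.toValuationSubringˣ) : P'.toValuationSubring) : K') =
        ((u : P'.toValuationSubring) : K')⁻¹ := by
      have h4 : ((u : P'.toValuationSubring) : K') *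
          (((u⁻¹ : P'.toValuationSubringˣ) : P'.toValuationSubring) : K') = 1 := by
        rw [← MulMemClass.coe_mul, Units.mul_inv]
        rfl
      exact (inv_eq_of_mul_eq_one_right h4).symm
    rw [h3, map_inv₀, Place.ord_inv] at h2
    omega
  have hrel : ∀ y : K', y ≠ 0 → w.ord (algebraMap K' N y) = P'.ord y * c := by
    intro y hy
    obtain ⟨u, hu⟩ := P'.exists_unit_mul_zpow hy hϖ
    have hu0 : algebraMap K' N ((u : P'.toValuationSubring) : K') ≠ 0 := by
      rw [map_ne_zero_iff _ (algebraMap K' N).injective]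
      intro h0
      exact u.ne_zero (Subtype.ext h0)
    have hϖN : algebraMap K' N (ϖ : K') ≠ 0 :=
      (map_ne_zero_iff _ (algebraMap K' N).injective).mpr hϖ0
    conv_lhs => rw [hu]
    rw [map_mul, map_zpow₀, w.ord_mul hu0 (zpow_ne_zero _ hϖN), hunit u, zero_add, w.ord_zpow]
  have hc0 : 0 ≤ c := hmemw ϖ
  -- every element of `K'` is fixed by `H₁ ⊓ H₂`
  have hfixK : ∀ σ ∈ fixingSubgroup G (algebraMap K' N '' (F : Set K')) ⊓
      fixingSubgroup G (algebraMap K' N '' (M : Set K')),
      ∀ y : K', σ • algebraMap K' N y = algebraMap K' N y := by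
    intro σ hσ
    rw [Subgroup.mem_inf, mem_fixingSubgroup_iff, mem_fixingSubgroup_iff] at hσ
    let S : IntermediateField L K' :=
      { carrier := {y | σ • algebraMap K' N y = algebraMap K' N y}
        mul_mem' := fun {a b} ha hb => by
          show σ • algebraMap K' N (a * b) = algebraMap K' N (a * b)
          rw [map_mul, smul_mul', ha, hb]
        one_mem' := by
          show σ • algebraMap K' N 1 = algebraMap K' N 1
          rw [map_one, smul_one]
        add_mem' := fun {a b} ha hb => by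
          show σ • algebraMap K' N (a + b) = algebraMap K' N (a + b)
          rw [map_add, smul_add, ha, hb]
        zero_mem' := by
          show σ • algebraMap K' N 0 = algebraMap K' N 0
          rw [map_zero, smul_zero]
        algebraMap_mem' := fun c => by
          show σ • algebraMap K' N (algebraMap L K' c) = algebraMap K' N (algebraMap L K' c)
          rw [← IsScalarTower.algebraMap_apply L K' N]
          exact smul_algebraMap_eq' σ c
        inv_mem' := fun a ha => by
          show σ • algebraMap K' N a⁻¹ = algebraMap K' N a⁻¹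
          rw [map_inv₀, smul_inv'', ha] }
    have hFS : F ≤ S := fun f hf => hσ.1 _ ⟨f, hf, rfl⟩
    have hMS : M ≤ S := fun m hm => hσ.2 _ ⟨m, hm, rfl⟩
    have htop : (⊤ : IntermediateField L K') ≤ S := hFM ▸ sup_le hFS hMS
    intro y
    exact htop (IntermediateField.mem_top)
  -- `h` divides `c`
  have hϖN : algebraMap K' N (ϖ : K') ≠ 0 :=
    (map_ne_zero_iff _ (algebraMap K' N).injective).mpr hϖ0
  have hdvd : (h : ℤ) ∣ c := by
    have h1 := hdiv (algebraMap K' N (ϖ : K')) hϖN (fun σ hσ => hfixK σ hσ _)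
    rw [hc, hw, placeOfPrime_ord]
    exact (dvd_neg).mpr h1
  -- the element
  refine ⟨(⟨f₁, hf₁F⟩ : F) ^ u₁, (⟨m₁, hm₁M⟩ : M) ^ u₂, ?_, ?_, ?_⟩
  · apply zpow_ne_zero
    intro h0
    exact hf₁0 (congrArg Subtype.val h0)
  · apply zpow_ne_zero
    intro h0
    exact hm₁0 (congrArg Subtype.val h0)
  · have e1 : (((⟨f₁, hf₁F⟩ : F) ^ u₁ : F) : K') = f₁ ^ u₁ := map_zpow₀ F.val _ _
    have e2 : (((⟨m₁, hm₁M⟩ : M) ^ u₂ : M) : K') = m₁ ^ u₂ := map_zpow₀ M.val _ _
    rw [e1, e2]
    have hfm0 : f₁ ^ u₁ * m₁ ^ u₂ ≠ 0 := mul_ne_zero (zpow_ne_zero _ hf₁0) (zpow_ne_zero _ hm₁0)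
    have h1 := hrel _ hfm0
    have h2 : w.ord (algebraMap K' N (f₁ ^ u₁ * m₁ ^ u₂)) = (h : ℤ) := by
      rw [map_mul, map_zpow₀, map_zpow₀, hf₁, hm₁,
        w.ord_mul (zpow_ne_zero _ hb₁N) (zpow_ne_zero _ hb₂N), w.ord_zpow, w.ord_zpow, hw,
        placeOfPrime_ord, placeOfPrime_ord, HeightOneSpectrum.valuation_of_algebraMap,
        HeightOneSpectrum.valuation_of_algebraMap]
      linarith
    rw [h2] at h1
    obtain ⟨t, ht⟩ := hdvd
    have hh0 : (h : ℤ) ≠ 0 := by exact_mod_cast hpos.ne'
    have hpt : t * P'.ord (f₁ ^ u₁ * m₁ ^ u₂) = 1 := by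
      have h3 : (h : ℤ) * (t * P'.ord (f₁ ^ u₁ * m₁ ^ u₂)) = (h : ℤ) * 1 := by
        rw [mul_one]
        conv_rhs => rw [h1, ht]
        ring
      exact mul_left_cancel₀ hh0 h3
    have ht0 : 0 ≤ t := by
      by_contra hneg
      rw [not_le] at hneg
      have : c < 0 := by
        rw [ht]
        exact mul_neg_of_pos_of_neg (by exact_mod_cast hpos) hneg
      omega
    have ht1 : t = 1 := Int.eq_one_of_mul_eq_one_right ht0 hpt
    rw [ht1, one_mul] at hpt
    exact hpt

end Core

section Galois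

universe u w

variable {L : Type w} {K' N : Type u} [Field L] [Field K']
  [Algebra L K'] [Field N] [Algebra L N] [Algebra K' N] [IsScalarTower L K' N]

omit [Algebra L N] [IsScalarTower L K' N] in
/-- Galois correspondence in the shape used by `abhyankar_core`: an element of `N` fixed by
everything that fixes `F ⊇ L(x)` lies in `F`. -/
theorem exists_mem_of_fixed {x : K'} [FiniteDimensional L⟮x⟯ N] [IsGalois L⟮x⟯ N]
    (F : IntermediateField L K') (hxF : x ∈ F) (y : N)
    (hy : ∀ σ : N ≃ₐ[L⟮x⟯] N, (∀ f ∈ F, σ • algebraMap K' N f = algebraMap K' N f) → σ • y = y) :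
    ∃ f ∈ F, algebraMap K' N f = y := by
  have hEF : L⟮x⟯ ≤ F := adjoin_simple_le_iff.mpr hxF
  let F' : IntermediateField L⟮x⟯ N :=
    Subfield.toIntermediateField (F.toSubfield.map (algebraMap K' N))
      (fun e => ⟨(e : K'), hEF e.2, rfl⟩)
  have hmemF' : ∀ z : N, z ∈ F' ↔ ∃ f ∈ F, algebraMap K' N f = z := fun z => Iff.rfl
  have h1 := IsGalois.fixedField_fixingSubgroup F'
  have h2 : y ∈ IntermediateField.fixedField (F'.fixingSubgroup) := by
    rw [IntermediateField.mem_fixedField_iff]
    intro σ hσ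
    apply hy σ
    intro f hf
    exact (IntermediateField.mem_fixingSubgroup_iff F' σ).mp hσ _ ((hmemF' _).mpr ⟨f, hf, rfl⟩)
  rw [h1] at h2
  exact (hmemF' y).mp h2

variable [IsAlgClosed L] [CharZero L]

/-- **Abhyankar's lemma** given a finite Galois extension `N` of `L(x)` containing `K'`
(`N` is an `L(x)`-algebra through `K'`). -/
theorem abhyankar_of_isGalois {x : K'} (hx : IsFF L x) [FiniteDimensional L⟮x⟯ N]
    [IsGalois L⟮x⟯ N] (F M : IntermediateField L K') (hxF : x ∈ F) (hxM : x ∈ M)
    (hFM : F ⊔ M = ⊤) (P' : Place L K') (hreg : P'.adicValuation x ≤ 1) :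
    ∃ (f : F) (m : M), f ≠ 0 ∧ m ≠ 0 ∧ P'.ord ((f : K') * (m : K')) = 1 := by
  have hfinK : FiniteDimensional K' N := FiniteDimensional.right L⟮x⟯ K' N
  obtain ⟨xN, hxx⟩ : ∃ y : N, algebraMap K' N x = y := ⟨_, rfl⟩
  have hxN : IsFF L xN := isFF_algebraMap hx hxx
  have hcomm : SMulCommClass (N ≃ₐ[L⟮x⟯] N) L N := ⟨fun σ c y => by
    show σ (c • y) = c • σ y
    rw [← algebraMap_smul L⟮x⟯ c y, map_smul, algebraMap_smul]⟩
  have hGx : ∀ σ : N ≃ₐ[L⟮x⟯] N, σ • xN = xN := by
    intro σ
    have h1 : xN = algebraMap L⟮x⟯ N (AdjoinSimple.gen L x) := by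
      rw [← hxx]
      rfl
    rw [h1]
    exact σ.commutes _
  exact abhyankar_core (G := N ≃ₐ[L⟮x⟯] N) hxx hxN hGx F M hFM
    (fun y hy => exists_mem_of_fixed F hxF y hy) (fun y hy => exists_mem_of_fixed M hxM y hy)
    P' hreg

end Galois

section Final

universe u w

variable {L : Type w} {K' : Type u} [Field L] [IsAlgClosed L] [CharZero L] [Field K']
  [Algebra L K']

/-- **Abhyankar's lemma** at a place where `x` is regular. -/
theorem abhyankar_uniformizer_of_regular {x : K'} (hx : IsFF L x)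
    (F M : IntermediateField L K') (hxF : x ∈ F) (hxM : x ∈ M) (hFM : F ⊔ M = ⊤)
    (P' : Place L K') (hreg : P'.adicValuation x ≤ 1) :
    ∃ (f : F) (m : M), f ≠ 0 ∧ m ≠ 0 ∧ P'.ord ((f : K') * (m : K')) = 1 := by
  have hfin := hx.finite
  have i3 : IsScalarTower L K' (normalClosure L⟮x⟯ K' (AlgebraicClosure K')) := by
    refine IsScalarTower.of_algebraMap_eq (fun c => ?_)
    apply Subtype.ext
    rfl
  have hch : CharZero L⟮x⟯ := charZero_of_injective_algebraMap (algebraMap L L⟮x⟯).injective
  have h0 : Algebra.IsAlgebraic L⟮x⟯ K' := inferInstance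
  have htf : Module.IsTorsionFree L⟮x⟯ (AlgebraicClosure K') :=
    DivisionSemiring.to_moduleIsTorsionFree
  have hcl : IsAlgClosure L⟮x⟯ (AlgebraicClosure K') :=
    ⟨(inferInstance : IsAlgClosed (AlgebraicClosure K')),
      Algebra.IsAlgebraic.trans L⟮x⟯ K' (AlgebraicClosure K')⟩
  have hn : Normal L⟮x⟯ (AlgebraicClosure K') := IsAlgClosure.normal _ _
  have hn' : Normal L⟮x⟯ (normalClosure L⟮x⟯ K' (AlgebraicClosure K')) := inferInstance
  have hfd : FiniteDimensional L⟮x⟯ (normalClosure L⟮x⟯ K' (AlgebraicClosure K')) :=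
    inferInstance
  have hgal : IsGalois L⟮x⟯ (normalClosure L⟮x⟯ K' (AlgebraicClosure K')) := ⟨⟩
  exact @abhyankar_of_isGalois L K' (normalClosure L⟮x⟯ K' (AlgebraicClosure K')) _ _ _ _ _ _ i3
    _ _ x hx hfd hgal F M hxF hxM hFM P' hreg

/-- **Abhyankar's lemma (A1)**: `L` algebraically closed of characteristic zero, `K'` a function
field over `L`, `F M` intermediate fields containing `x` with `F M = K'`.  At every place `P'` of
`K'` some product `f * m` with `f ∈ F`, `m ∈ M` is a uniformiser: the value group of the compositum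
is the sum of the value groups. -/
theorem abhyankar_uniformizer {x : K'} (hx : IsFF L x)
    (F M : IntermediateField L K') (hxF : x ∈ F) (hxM : x ∈ M) (hFM : F ⊔ M = ⊤)
    (P' : Place L K') :
    ∃ (f : F) (m : M), f ≠ 0 ∧ m ≠ 0 ∧ P'.ord ((f : K') * (m : K')) = 1 := by
  by_cases hreg : P'.adicValuation x ≤ 1
  · exact abhyankar_uniformizer_of_regular hx F M hxF hxM hFM P' hreg
  · have hreg' : P'.adicValuation x⁻¹ ≤ 1 := by
      rw [map_inv₀]
      exact inv_le_one_of_one_le₀ (le_of_lt (not_le.mp hreg))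
    exact abhyankar_uniformizer_of_regular hx.inv F M (F.inv_mem hxF) (M.inv_mem hxM) hFM P' hreg'

/-- Coprimality form: if `nF` divides the order of every element of `F` and `nM` that of every
element of `M`, then `nF` and `nM` are coprime. -/
theorem abhyankar_coprime {x : K'} (hx : IsFF L x)
    (F M : IntermediateField L K') (hxF : x ∈ F) (hxM : x ∈ M) (hFM : F ⊔ M = ⊤)
    (P' : Place L K') {nF nM : ℕ}
    (hF : ∀ f : F, f ≠ 0 → (nF : ℤ) ∣ P'.ord (f : K'))
    (hM : ∀ m : M, m ≠ 0 → (nM : ℤ) ∣ P'.ord (m : K')) : Nat.Coprime nF nM := by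
  obtain ⟨f, m, hf, hm, hfm⟩ := abhyankar_uniformizer hx F M hxF hxM hFM P'
  have hf' : (f : K') ≠ 0 := fun h => hf (Subtype.ext h)
  have hm' : (m : K') ≠ 0 := fun h => hm (Subtype.ext h)
  rw [P'.ord_mul hf' hm'] at hfm
  have h1 : ((Nat.gcd nF nM : ℕ) : ℤ) ∣ 1 := by
    rw [← hfm]
    exact dvd_add ((Int.natCast_dvd_natCast.mpr (Nat.gcd_dvd_left nF nM)).trans (hF f hf))
      ((Int.natCast_dvd_natCast.mpr (Nat.gcd_dvd_right nF nM)).trans (hM m hm))
  have h2 : Nat.gcd nF nM ∣ 1 := by exact_mod_cast h1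
  exact Nat.dvd_one.mp h2

/-- **Abhyankar's lemma (A2)**, the shape used by block C: `t ∈ K'` has order `e1 * nF = e2 * nM`
at `P'`, where `nF` (resp. `nM`) divides the order of every element of `F` (resp. `M`) — so `nF`,
`nM` are multiples of the ramification indices of `P'` over `F`, `M` and `e1`, `e2` are the orders
of `t` below.  If `e1 ∣ e2` then `nM = 1`: `P'` is unramified over `M`. -/
theorem abhyankar_unramified {x : K'} (hx : IsFF L x)
    (F M : IntermediateField L K') (hxF : x ∈ F) (hxM : x ∈ M) (hFM : F ⊔ M = ⊤)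
    (P' : Place L K') {t : K'} {nF nM e1 e2 : ℕ} (he1 : 0 < e1)
    (ht1 : P'.ord t = (e1 : ℤ) * nF) (ht2 : P'.ord t = (e2 : ℤ) * nM)
    (hF : ∀ f : F, f ≠ 0 → (nF : ℤ) ∣ P'.ord (f : K'))
    (hM : ∀ m : M, m ≠ 0 → (nM : ℤ) ∣ P'.ord (m : K'))
    (hdvd : e1 ∣ e2) : nM = 1 := by
  have hcop := abhyankar_coprime hx F M hxF hxM hFM P' hF hM
  obtain ⟨k, hk⟩ := hdvd
  have h1 : e1 * nF = e2 * nM := by
    have : (e1 : ℤ) * nF = (e2 : ℤ) * nM := ht1.symm.trans ht2
    exact_mod_cast this
  have h2 : nF = k * nM := by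
    have h3 : e1 * nF = e1 * (k * nM) := by rw [h1, hk]; ring
    exact Nat.eq_of_mul_eq_mul_left he1 h3
  have h4 : nM ∣ Nat.gcd nF nM := Nat.dvd_gcd (h2 ▸ Dvd.intro_left k rfl) dvd_rfl
  rw [hcop] at h4
  exact Nat.dvd_one.mp h4

end Final

end Fermat.Agent.S18.C.Abhyankar
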