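/-
PROJECT H (S18), block C, slice H-C7d (helper3): places of a compositum `Φ = F · L(μ)` over the open
disc are unramified over `L(μ)` (Place language, Abhyankar's lemma as a hypothesis).

Setting: `L` a field (algebraically closed of characteristic zero in the application), `Φ` a field
over `L`, `F` a field over `L` with `[Algebra F Φ]` (the function field of the curve, `x = xF` the
`j`-function), `μ : Φ` transcendental with `x · Q(μ) = P(μ)` in `Φ` (the cover `j = P(μ)/Q(μ)`),
`c : L` a point of the `μ`-line with `Q(c) ≠ 0` and `a = P(c)/Q(c)` its image on the `j`-line.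

* `ord_aeval`            : at a zero `P'` of `μ - c`, `ord q(μ) = rootMultiplicity c q * ord (μ - c)`;
* `ord_dvd_of_mem_adjoin`: `ord (μ - c) ∣ ord m` for every `m ∈ L(μ)`;
* `AbhyankarAt P' F₀ M₀` : the conclusion (A2) of Abhyankar's lemma at the place `P'` (producer:
                           `C/Abhyankar.lean`, helper16);
* `ord_sub_eq_one`       : if `e_v ∣ E a` for the places `v` of `F` over `a` and
                           `E a ∣ ord_c (P - a Q)`, then `ord_{P'} (μ - c) = 1`;
* `card_zeros_eq_finrank`: hence the fibre of `μ` over `c` has exactly `[Φ : L(μ)]` points.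
-/
import Mathlib
import Fermat.Prelude.Def_AlgebraicCurve_DivisorPushPull
import Fermat.Agent.S18.A.FibreSep

set_option autoImplicit false
set_option linter.unusedSectionVars false

namespace Fermat.Agent.S18.C.UnramDisc

open AlgebraicCurve IntermediateField Polynomial Fermat.Agent.S24.FF Fermat.Agent.S24.Ord

universe u w

variable {L : Type w} {Φ : Type u} [Field L] [Field Φ] [Algebra L Φ]

/-! ### orders of polynomial values at a zero of `μ - c` -/

section Local

variable (P' : Place L Φ) {μ : Φ} {c : L}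

theorem sub_ne_zero_of_ord_pos (h : 0 < P'.ord (μ - algebraMap L Φ c)) :
    μ - algebraMap L Φ c ≠ 0 := by
  intro h0
  rw [h0, Place.ord_zero] at h
  exact lt_irrefl _ h

theorem adicValuation_sub_lt_one (h : 0 < P'.ord (μ - algebraMap L Φ c)) :
    P'.adicValuation (μ - algebraMap L Φ c) < 1 :=
  (ord_pos_iff P' (sub_ne_zero_of_ord_pos P' h)).mp h

theorem adicValuation_le_one_of_ord_pos (h : 0 < P'.ord (μ - algebraMap L Φ c)) :
    P'.adicValuation μ ≤ 1 := by
  have h1 : μ = (μ - algebraMap L Φ c) + algebraMap L Φ c := by ring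
  rw [h1]
  exact Valuation.map_add_le _ (adicValuation_sub_lt_one P' h).le
    ((mem_iff P' _).mp (P'.algebraMap_mem' c))

/-- polynomials in `μ` are regular where `μ` is -/
theorem adicValuation_aeval_le_one (hμ : P'.adicValuation μ ≤ 1) (q : L[X]) :
    P'.adicValuation (aeval μ q) ≤ 1 := by
  have hmem : aeval μ q ∈ Algebra.adjoin L {μ} := by
    rw [Algebra.adjoin_singleton_eq_range_aeval]
    exact ⟨q, rfl⟩
  exact adicValuation_adjoin_le_one P' hμ ⟨_, hmem⟩

/-- `q(μ)` is a unit at a zero of `μ - c` if `q(c) ≠ 0`. -/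
theorem adicValuation_aeval_eq_one (h : 0 < P'.ord (μ - algebraMap L Φ c)) (q : L[X])
    (hq : q.eval c ≠ 0) : P'.adicValuation (aeval μ q) = 1 := by
  obtain ⟨r, hr⟩ := Polynomial.X_sub_C_dvd_sub_C_eval (a := c) (p := q)
  have hq' : q = C (q.eval c) + (X - C c) * r := by
    rw [← hr]; ring
  have h1 : aeval μ q = algebraMap L Φ (q.eval c) + (μ - algebraMap L Φ c) * aeval μ r := by
    conv_lhs => rw [hq']
    simp [aeval_C]
  have h2 : P'.adicValuation ((μ - algebraMap L Φ c) * aeval μ r) < 1 := by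
    rw [map_mul]
    calc P'.adicValuation (μ - algebraMap L Φ c) * P'.adicValuation (aeval μ r)
        ≤ P'.adicValuation (μ - algebraMap L Φ c) * 1 := by
          gcongr
          exact adicValuation_aeval_le_one P' (adicValuation_le_one_of_ord_pos P' h) r
      _ = P'.adicValuation (μ - algebraMap L Φ c) := mul_one _
      _ < 1 := adicValuation_sub_lt_one P' h
  have h3 : P'.adicValuation (algebraMap L Φ (q.eval c)) = 1 := adicValuation_algebraMap P' hq
  rw [h1, add_comm]
  rw [Valuation.map_add_eq_of_lt_right _ (by rw [h3]; exact h2), h3]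

theorem aeval_ne_zero_of_eval_ne_zero (h : 0 < P'.ord (μ - algebraMap L Φ c)) (q : L[X])
    (hq : q.eval c ≠ 0) : aeval μ q ≠ 0 := by
  intro h0
  have := adicValuation_aeval_eq_one P' h q hq
  rw [h0, map_zero] at this
  exact zero_ne_one this

theorem ord_aeval_eq_zero (h : 0 < P'.ord (μ - algebraMap L Φ c)) (q : L[X])
    (hq : q.eval c ≠ 0) : P'.ord (aeval μ q) = 0 := by
  rw [ord_eq, adicValuation_aeval_eq_one P' h q hq, WithZero.log_one, neg_zero]

/-- **`ord q(μ) = rootMultiplicity c q · ord (μ - c)`** at a zero of `μ - c`. -/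
theorem ord_aeval (h : 0 < P'.ord (μ - algebraMap L Φ c)) (q : L[X]) (hq : q ≠ 0) :
    P'.ord (aeval μ q) = (q.rootMultiplicity c : ℤ) * P'.ord (μ - algebraMap L Φ c) := by
  obtain ⟨r, hr, hnd⟩ := Polynomial.exists_eq_pow_rootMultiplicity_mul_and_not_dvd q hq c
  have hrc : r.eval c ≠ 0 := by
    intro h0
    exact hnd (Polynomial.dvd_iff_isRoot.mpr h0)
  have h1 : aeval μ q = (μ - algebraMap L Φ c) ^ (q.rootMultiplicity c) * aeval μ r := by
    conv_lhs => rw [hr]
    simp [aeval_C]
  rw [h1, Place.ord_mul _ (pow_ne_zero _ (sub_ne_zero_of_ord_pos P' h))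
    (aeval_ne_zero_of_eval_ne_zero P' h r hrc), ord_aeval_eq_zero P' h r hrc, add_zero,
    ← zpow_natCast, Place.ord_zpow]

/-- The orders of the nonzero elements of `L(μ)` are multiples of `ord (μ - c)`. -/
theorem ord_dvd_of_mem_adjoin (h : 0 < P'.ord (μ - algebraMap L Φ c)) {m : Φ}
    (hm : m ∈ L⟮μ⟯) (hm0 : m ≠ 0) : P'.ord (μ - algebraMap L Φ c) ∣ P'.ord m := by
  obtain ⟨p, q, rfl⟩ := (IntermediateField.mem_adjoin_simple_iff L m).mp hm
  have hp0 : aeval μ p ≠ 0 := fun h0 => hm0 (by rw [h0, zero_div])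
  have hq0 : aeval μ q ≠ 0 := fun h0 => hm0 (by rw [h0, div_zero])
  have hp : p ≠ 0 := fun h0 => hp0 (by rw [h0, map_zero])
  have hq : q ≠ 0 := fun h0 => hq0 (by rw [h0, map_zero])
  rw [div_eq_mul_inv, Place.ord_mul _ hp0 (inv_ne_zero hq0), Place.ord_inv,
    ord_aeval P' h p hp, ord_aeval P' h q hq]
  exact ⟨(p.rootMultiplicity c : ℤ) - (q.rootMultiplicity c : ℤ), by ring⟩

end Local

/-! ### a divisibility criterion for root multiplicities -/

/-- If `p = k · A ^ n` with `k(c) ≠ 0`, then `n` divides the multiplicity of `c` as a root of `p`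
(`P = 27 (μ (μ³ + 8))³`, `P - 1728 Q = 27 (μ⁶ - 20 μ³ - 8)²` for the Hesse cover). -/
theorem dvd_rootMultiplicity_of_eq_mul_pow {p k A : L[X]} {n : ℕ} (c : L) (hp : p ≠ 0)
    (h : p = k * A ^ n) (hk : k.eval c ≠ 0) : n ∣ p.rootMultiplicity c := by
  classical
  subst h
  rw [← Polynomial.count_roots, Polynomial.roots_mul hp, Polynomial.roots_pow,
    Multiset.count_add, Multiset.count_nsmul, Polynomial.count_roots,
    Polynomial.rootMultiplicity_eq_zero (fun hroot => hk hroot), zero_add]
  exact dvd_mul_right _ _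

/-! ### Abhyankar's lemma as a hypothesis, and the unramifiedness over the disc -/

/-- The conclusion (A2) of **Abhyankar's lemma** at the place `P'` of `Φ = F₀ · M₀`. -/
def AbhyankarAt (P' : Place L Φ) (F₀ M₀ : IntermediateField L Φ) : Prop :=
  ∀ (t : Φ) (nF nM e₁ e₂ : ℕ), 0 < nF → 0 < nM → 0 < e₁ → 0 < e₂ →
    P'.ord t = (e₁ : ℤ) * nF → P'.ord t = (e₂ : ℤ) * nM →
    (∀ f : F₀, (f : Φ) ≠ 0 → (nF : ℤ) ∣ P'.ord (f : Φ)) →
    (∀ m : M₀, (m : Φ) ≠ 0 → (nM : ℤ) ∣ P'.ord (m : Φ)) → e₁ ∣ e₂ → nM = 1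

section Main

variable {F : Type*} [Field F] [Algebra L F] [Algebra F Φ] [IsScalarTower L F Φ]
  [Algebra.IsIntegral F Φ]

/-- the image of `F` in `Φ` as an intermediate field -/
noncomputable def imageF (L : Type w) {Φ : Type u} [Field L] [Field Φ] [Algebra L Φ]
    (F : Type*) [Field F] [Algebra L F] [Algebra F Φ] [IsScalarTower L F Φ] :
    IntermediateField L Φ :=
  (IsScalarTower.toAlgHom L F Φ).fieldRange

theorem mem_imageF {y : Φ} : y ∈ imageF L F ↔ ∃ f : F, algebraMap F Φ f = y := Iff.rfl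

/-- **Unramified over the disc, local form.** -/
theorem ord_sub_eq_one (xF : F) {μ : Φ} (hμ : Transcendental L μ) (P Q : L[X])
    (hrel : algebraMap F Φ xF * aeval μ Q = aeval μ P) (c : L) (hQc : Q.eval c ≠ 0)
    (hPQ : P - C (P.eval c / Q.eval c) * Q ≠ 0)
    (P' : Place L Φ) (hpos : 0 < P'.ord (μ - algebraMap L Φ c))
    (hAb : AbhyankarAt P' (imageF L F) L⟮μ⟯)
    (hdvd : (P'.restrict F).ord (xF - algebraMap L F (P.eval c / Q.eval c)) ∣
      ((P - C (P.eval c / Q.eval c) * Q).rootMultiplicity c : ℤ)) :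
    P'.ord (μ - algebraMap L Φ c) = 1 := by
  set a : L := P.eval c / Q.eval c with ha
  set R : L[X] := P - C a * Q with hR
  have hRc : R.eval c = 0 := by
    rw [hR, eval_sub, eval_mul, eval_C, ha, div_mul_cancel₀ _ hQc, sub_self]
  have he2 : 0 < R.rootMultiplicity c := (Polynomial.rootMultiplicity_pos hPQ).mpr hRc
  -- `t = x - a`
  set t : Φ := algebraMap F Φ (xF - algebraMap L F a) with ht
  have hQμ : aeval μ Q ≠ 0 := aeval_ne_zero_of_eval_ne_zero P' hpos Q hQc
  have hRμ : aeval μ R ≠ 0 := by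
    intro h0
    exact hPQ ((transcendental_iff_injective.mp hμ) (by rw [h0, map_zero]))
  have htQ : t * aeval μ Q = aeval μ R := by
    rw [ht, hR, map_sub, sub_mul, hrel, map_sub, map_mul, aeval_C,
      ← IsScalarTower.algebraMap_apply]
  have ht0 : t ≠ 0 := by
    intro h0
    rw [h0, zero_mul] at htQ
    exact hRμ htQ.symm
  have hordt : P'.ord t = (R.rootMultiplicity c : ℤ) * P'.ord (μ - algebraMap L Φ c) := by
    have h1 := congrArg P'.ord htQ
    rw [Place.ord_mul _ ht0 hQμ, ord_aeval_eq_zero P' hpos Q hQc, add_zero,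
      ord_aeval P' hpos R hPQ] at h1
    exact h1
  have hordt' : P'.ord t = (Place.ramificationIndex (F := F) P' : ℤ) *
      (P'.restrict F).ord (xF - algebraMap L F a) := P'.ord_restrict _
  have hnF : 0 < Place.ramificationIndex (F := F) P' := P'.ramificationIndex_pos
  have htpos : 0 < P'.ord t := by
    rw [hordt]
    exact mul_pos (by exact_mod_cast he2) hpos
  have he1 : 0 < (P'.restrict F).ord (xF - algebraMap L F a) := by
    rw [hordt'] at htpos
    exact (mul_pos_iff_of_pos_left (by exact_mod_cast hnF)).mp htpos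
  -- natural-number versions
  obtain ⟨nM, hnM⟩ := Int.eq_ofNat_of_zero_le hpos.le
  obtain ⟨e₁, he₁⟩ := Int.eq_ofNat_of_zero_le he1.le
  have hnM0 : 0 < nM := by omega
  have he₁0 : 0 < e₁ := by omega
  have key := hAb t (Place.ramificationIndex (F := F) P') nM e₁ (R.rootMultiplicity c) hnF hnM0
    he₁0 he2 (by rw [hordt', he₁]; ring) (by rw [hordt, hnM]) ?_ ?_ ?_
  · rw [hnM, key]; rfl
  · rintro ⟨f, hf⟩ hf0
    obtain ⟨g, rfl⟩ := mem_imageF.mp hf
    have hg0 : g ≠ 0 := by
      rintro rfl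
      exact hf0 (map_zero _)
    exact P'.ramificationIndex_dvd_ord hg0
  · rintro ⟨m, hm⟩ hm0
    rw [← hnM]
    exact ord_dvd_of_mem_adjoin P' hpos hm hm0
  · rw [he₁] at hdvd
    exact_mod_cast hdvd

/-- **Unramified over the disc**: with ramification data `E : L → ℕ` (`e_v ∣ E a` for the places
`v` of `F` over `a`, and `E a ∣ ord_c (P - a Q)` on the `μ`-line), every zero of `μ - c` in `Φ` is
simple. -/
theorem ord_sub_eq_one_of_ramification (xF : F) {μ : Φ} (hμ : Transcendental L μ) (P Q : L[X])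
    (hrel : algebraMap F Φ xF * aeval μ Q = aeval μ P) (c : L) (hQc : Q.eval c ≠ 0)
    (hPQ : P - C (P.eval c / Q.eval c) * Q ≠ 0)
    (E : L → ℕ)
    (hF : ∀ (a : L) (v : Place L F), 0 < v.ord (xF - algebraMap L F a) →
      v.ord (xF - algebraMap L F a) ∣ (E a : ℤ))
    (hM : E (P.eval c / Q.eval c) ∣ (P - C (P.eval c / Q.eval c) * Q).rootMultiplicity c)
    (P' : Place L Φ) (hpos : 0 < P'.ord (μ - algebraMap L Φ c))
    (hAb : AbhyankarAt P' (imageF L F) L⟮μ⟯) :
    P'.ord (μ - algebraMap L Φ c) = 1 := by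
  refine ord_sub_eq_one xF hμ P Q hrel c hQc hPQ P' hpos hAb ?_
  set a : L := P.eval c / Q.eval c with ha
  set R : L[X] := P - C a * Q with hR
  -- positivity of the order on `F`, as in `ord_sub_eq_one`
  have hRc : R.eval c = 0 := by
    rw [hR, eval_sub, eval_mul, eval_C, ha, div_mul_cancel₀ _ hQc, sub_self]
  have he2 : 0 < R.rootMultiplicity c := (Polynomial.rootMultiplicity_pos hPQ).mpr hRc
  have hQμ : aeval μ Q ≠ 0 := aeval_ne_zero_of_eval_ne_zero P' hpos Q hQc
  have hRμ : aeval μ R ≠ 0 := by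
    intro h0
    exact hPQ ((transcendental_iff_injective.mp hμ) (by rw [h0, map_zero]))
  have htQ : algebraMap F Φ (xF - algebraMap L F a) * aeval μ Q = aeval μ R := by
    rw [hR, map_sub, sub_mul, hrel, map_sub, map_mul, aeval_C, ← IsScalarTower.algebraMap_apply]
  have ht0 : algebraMap F Φ (xF - algebraMap L F a) ≠ 0 := by
    intro h0
    rw [h0, zero_mul] at htQ
    exact hRμ htQ.symm
  have hordt : P'.ord (algebraMap F Φ (xF - algebraMap L F a)) =
      (R.rootMultiplicity c : ℤ) * P'.ord (μ - algebraMap L Φ c) := by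
    have h1 := congrArg P'.ord htQ
    rw [Place.ord_mul _ ht0 hQμ, ord_aeval_eq_zero P' hpos Q hQc, add_zero,
      ord_aeval P' hpos R hPQ] at h1
    exact h1
  have hnF : 0 < Place.ramificationIndex (F := F) P' := P'.ramificationIndex_pos
  have he1 : 0 < (P'.restrict F).ord (xF - algebraMap L F a) := by
    have htpos : 0 < P'.ord (algebraMap F Φ (xF - algebraMap L F a)) := by
      rw [hordt]
      exact mul_pos (by exact_mod_cast he2) hpos
    rw [P'.ord_restrict] at htpos
    exact (mul_pos_iff_of_pos_left (by exact_mod_cast hnF)).mp htpos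
  exact (hF a _ he1).trans (by exact_mod_cast hM)

omit [Algebra.IsIntegral F Φ] in
/-- `P - a Q ≠ 0` because `x` is not constant. -/
theorem sub_C_mul_ne_zero {xF : F} (hxF : Transcendental L xF) {μ : Φ} (hμ : Transcendental L μ)
    (P Q : L[X]) (hrel : algebraMap F Φ xF * aeval μ Q = aeval μ P) (hQ : Q ≠ 0) (a : L) :
    P - C a * Q ≠ 0 := by
  intro h0
  have hQμ : aeval μ Q ≠ 0 := fun h => hQ ((transcendental_iff_injective.mp hμ) (by rw [h, map_zero]))
  have h1 : aeval μ P = algebraMap L Φ a * aeval μ Q := by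
    have := congrArg (aeval μ) (sub_eq_zero.mp h0)
    rwa [map_mul, aeval_C] at this
  rw [h1] at hrel
  have h2 : algebraMap F Φ xF = algebraMap L Φ a := mul_right_cancel₀ hQμ hrel
  rw [IsScalarTower.algebraMap_apply L F Φ] at h2
  have h3 : xF = algebraMap L F a := (algebraMap F Φ).injective h2
  exact hxF (h3 ▸ isAlgebraic_algebraMap a)

/-- **Unramified over the disc, three branch values** `0`, `1728` (and `∞`, excluded by
`Q(c) ≠ 0`): the shape of `C/S24Ram.lean` on the `F`-side and of the Hesse / Legendre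
factorisations on the `μ`-side. -/
theorem ord_sub_eq_one_of_three_branch {xF : F} (hxF : Transcendental L xF) {μ : Φ}
    (hμ : Transcendental L μ) (P Q : L[X])
    (hrel : algebraMap F Φ xF * aeval μ Q = aeval μ P) (c : L) (hQc : Q.eval c ≠ 0)
    (h0 : ∀ v : Place L F, 0 < v.ord (xF - algebraMap L F 0) →
      v.ord (xF - algebraMap L F 0) ∣ 3)
    (h1728 : ∀ v : Place L F, 0 < v.ord (xF - algebraMap L F 1728) →
      v.ord (xF - algebraMap L F 1728) ∣ 2)
    (hgen : ∀ a : L, a ≠ 0 → a ≠ 1728 → ∀ v : Place L F,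
      0 < v.ord (xF - algebraMap L F a) → v.ord (xF - algebraMap L F a) = 1)
    (m0 : P.eval c = 0 → 3 ∣ P.rootMultiplicity c)
    (m1728 : P.eval c = 1728 * Q.eval c → 2 ∣ (P - C 1728 * Q).rootMultiplicity c)
    (P' : Place L Φ) (hpos : 0 < P'.ord (μ - algebraMap L Φ c))
    (hAb : AbhyankarAt P' (imageF L F) L⟮μ⟯) :
    P'.ord (μ - algebraMap L Φ c) = 1 := by
  classical
  have hQ : Q ≠ 0 := by
    rintro rfl
    simp at hQc
  refine ord_sub_eq_one_of_ramification xF hμ P Q hrel c hQc
    (sub_C_mul_ne_zero hxF hμ P Q hrel hQ _)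
    (fun a => if a = 0 then 3 else if a = 1728 then 2 else 1) ?_ ?_ P' hpos hAb
  · intro a v hv
    by_cases ha0 : a = 0
    · subst ha0
      simpa using h0 v hv
    · by_cases ha1 : a = 1728
      · subst ha1
        simpa [ha0] using h1728 v hv
      · simp only [ha0, ha1, if_false]
        rw [hgen a ha0 ha1 v hv]
        simp
  · by_cases ha0 : P.eval c / Q.eval c = 0
    · have hP0 : P.eval c = 0 := by
        rcases div_eq_zero_iff.mp ha0 with h | h
        · exact h
        · exact absurd h hQc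
      rw [ha0, if_pos rfl, map_zero, zero_mul, sub_zero]
      exact m0 hP0
    · by_cases ha1 : P.eval c / Q.eval c = 1728
      · have hP1 : P.eval c = 1728 * Q.eval c := by
          rw [← ha1, div_mul_cancel₀ _ hQc]
        rw [ha1, if_neg (by rw [← ha1]; exact ha0), if_pos rfl]
        have := m1728 hP1
        simpa using this
      · rw [if_neg ha0, if_neg ha1]
        exact one_dvd _

end Main

/-! ### the count of the fibre -/

section Count

variable [IsAlgClosed L] {μ : Φ}

/-- If every zero of `μ - c` is simple, the fibre of `μ` over `c` has `[Φ : L(μ)]` points. -/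
theorem card_zeros_eq_finrank (hμ : IsFF L μ) (hsep : Algebra.IsSeparable L⟮μ⟯ Φ) (c : L)
    (h1 : ∀ P' : Place L Φ, 0 < P'.ord (μ - algebraMap L Φ c) →
      P'.ord (μ - algebraMap L Φ c) = 1) :
    (Fermat.Agent.S18.A.FibreSep.zeros hμ hsep c).card = Module.finrank L⟮μ⟯ Φ := by
  have hsum := Fermat.Agent.S18.A.FibreSep.sum_zeros hμ hsep c
  have h2 : ∑ v ∈ Fermat.Agent.S18.A.FibreSep.zeros hμ hsep c,
      v.ord (μ - algebraMap L Φ c) =
      ∑ _v ∈ Fermat.Agent.S18.A.FibreSep.zeros hμ hsep c, (1 : ℤ) := by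
    refine Finset.sum_congr rfl fun v hv => ?_
    exact h1 v ((Fermat.Agent.S18.A.FibreSep.mem_zeros_iff_ord_pos hμ hsep c v).mp hv)
  rw [h2, Finset.sum_const, nsmul_eq_mul, mul_one] at hsum
  exact_mod_cast hsum

/-- **The fibre over a point of the disc has `[Φ : L(μ)]` points** (three-branch form). -/
theorem card_zeros_eq_finrank_of_three_branch {F : Type*} [Field F] [Algebra L F] [Algebra F Φ]
    [IsScalarTower L F Φ] [Algebra.IsIntegral F Φ] {xF : F} (hxF : Transcendental L xF)
    (hμ : IsFF L μ) (hsep : Algebra.IsSeparable L⟮μ⟯ Φ) (P Q : L[X])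
    (hrel : algebraMap F Φ xF * aeval μ Q = aeval μ P) (c : L) (hQc : Q.eval c ≠ 0)
    (h0 : ∀ v : Place L F, 0 < v.ord (xF - algebraMap L F 0) →
      v.ord (xF - algebraMap L F 0) ∣ 3)
    (h1728 : ∀ v : Place L F, 0 < v.ord (xF - algebraMap L F 1728) →
      v.ord (xF - algebraMap L F 1728) ∣ 2)
    (hgen : ∀ a : L, a ≠ 0 → a ≠ 1728 → ∀ v : Place L F,
      0 < v.ord (xF - algebraMap L F a) → v.ord (xF - algebraMap L F a) = 1)
    (m0 : P.eval c = 0 → 3 ∣ P.rootMultiplicity c)
    (m1728 : P.eval c = 1728 * Q.eval c → 2 ∣ (P - C 1728 * Q).rootMultiplicity c)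
    (hAb : ∀ P' : Place L Φ, 0 < P'.ord (μ - algebraMap L Φ c) →
      AbhyankarAt P' (imageF L F) L⟮μ⟯) :
    (Fermat.Agent.S18.A.FibreSep.zeros hμ hsep c).card = Module.finrank L⟮μ⟯ Φ :=
  card_zeros_eq_finrank hμ hsep c fun P' hpos =>
    ord_sub_eq_one_of_three_branch hxF hμ.transcendental P Q hrel c hQc h0 h1728 hgen m0 m1728
      P' hpos (hAb P' hpos)

/-- characteristic zero: `Φ / L(μ)` is separable -/
theorem isSeparable_of_charZero [CharZero L] (hμ : IsFF L μ) : Algebra.IsSeparable L⟮μ⟯ Φ := by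
  have := hμ.finite
  infer_instance

end Count

end Fermat.Agent.S18.C.UnramDisc
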