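/-
PROJECT H (S18), block C (helper3): Abhyankar's lemma, PLACE-LANGUAGE reductions.

`UnramDisc.AbhyankarAt P' F₀ M₀` (the shape (A2) consumed by `C/UnramDisc.lean`) follows from
* (A1) a uniformiser of `P'` of the form `f · m`, `f ∈ F₀`, `m ∈ M₀`            (`abhyankarAt_of_exists`);
* coprimality of the two ramification indices of `P'` over `F₀` and over `M₀`  (`abhyankarAt_of_coprime`).
-/
import Mathlib
import Fermat.Agent.S18.C.UnramDisc

set_option autoImplicit false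

namespace Fermat.Agent.S18.C.AbhyankarPlace

open AlgebraicCurve IntermediateField Fermat.Agent.S18.C.UnramDisc

universe u w

variable {L : Type w} {Φ : Type u} [Field L] [Field Φ] [Algebra L Φ]

/-- (A1) ⇒ (A2): if some `f · m` with `f ∈ F₀`, `m ∈ M₀` is a uniformiser at `P'`, then Abhyankar's
conclusion holds at `P'`. -/
theorem abhyankarAt_of_exists (P' : Place L Φ) (F₀ M₀ : IntermediateField L Φ)
    (h : ∃ f : F₀, ∃ m : M₀, (f : Φ) ≠ 0 ∧ (m : Φ) ≠ 0 ∧ P'.ord ((f : Φ) * (m : Φ)) = 1) :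
    AbhyankarAt P' F₀ M₀ := by
  obtain ⟨f, m, hf, hm, hfm⟩ := h
  intro t nF nM e₁ e₂ hnF hnM he₁ he₂ h1 h2 hF hM hdvd
  obtain ⟨a, ha⟩ := hF f hf
  obtain ⟨b, hb⟩ := hM m hm
  rw [Place.ord_mul _ hf hm, ha, hb] at hfm
  obtain ⟨k, rfl⟩ := hdvd
  -- `e₁ nF = e₁ k nM`, so `nF = k nM`
  have h3 : (nF : ℤ) = (k : ℤ) * nM := by
    have h4 : (e₁ : ℤ) * nF = (e₁ : ℤ) * ((k : ℤ) * nM) := by
      rw [← h1, h2]; push_cast; ring
    exact mul_left_cancel₀ (by exact_mod_cast he₁.ne') h4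
  -- `1 = nM (k a + b)`
  have h5 : (nM : ℤ) * ((k : ℤ) * a + b) = 1 := by
    rw [h3] at hfm
    linarith [hfm]
  have h6 : (nM : ℤ) ∣ 1 := ⟨_, h5.symm⟩
  have h7 : (nM : ℤ) = 1 := by
    have := Int.eq_one_or_neg_one_of_mul_eq_one' h5
    omega
  exact_mod_cast h7

section Coprime

variable (F₀ M₀ : IntermediateField L Φ) [Algebra.IsIntegral F₀ Φ] [Algebra.IsIntegral M₀ Φ]

/-- coprime ramification indices ⇒ (A1) ⇒ (A2) -/
theorem abhyankarAt_of_coprime (P' : Place L Φ)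
    (h : Nat.Coprime (Place.ramificationIndex (F := F₀) P')
      (Place.ramificationIndex (F := M₀) P')) :
    AbhyankarAt P' F₀ M₀ := by
  refine abhyankarAt_of_exists P' F₀ M₀ ?_
  obtain ⟨f, hf0, hf⟩ := P'.exists_ord_eq_ramificationIndex (F := F₀)
  obtain ⟨m, hm0, hm⟩ := P'.exists_ord_eq_ramificationIndex (F := M₀)
  set eF := Place.ramificationIndex (F := F₀) P' with heF
  set eM := Place.ramificationIndex (F := M₀) P' with heM
  -- Bezout
  have hb : (eF : ℤ) * Nat.gcdA eF eM + (eM : ℤ) * Nat.gcdB eF eM = 1 := by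
    have := Nat.gcd_eq_gcd_ab eF eM
    rw [h.gcd_eq_one] at this
    exact_mod_cast this.symm
  have hf' : (f : Φ) ≠ 0 := by
    intro h0; exact hf0 (by exact_mod_cast h0)
  have hm' : (m : Φ) ≠ 0 := by
    intro h0; exact hm0 (by exact_mod_cast h0)
  have hcf : ((f ^ Nat.gcdA eF eM : F₀) : Φ) = (f : Φ) ^ Nat.gcdA eF eM := by
    rfl
  have hcm : ((m ^ Nat.gcdB eF eM : M₀) : Φ) = (m : Φ) ^ Nat.gcdB eF eM := by
    rfl
  refine ⟨f ^ Nat.gcdA eF eM, m ^ Nat.gcdB eF eM, ?_, ?_, ?_⟩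
  · rw [hcf]
    exact zpow_ne_zero _ hf'
  · rw [hcm]
    exact zpow_ne_zero _ hm'
  · rw [hcf, hcm, Place.ord_mul _ (zpow_ne_zero _ hf') (zpow_ne_zero _ hm'), Place.ord_zpow,
      Place.ord_zpow]
    have hf2 : P'.ord (f : Φ) = eF := hf
    have hm2 : P'.ord (m : Φ) = eM := hm
    rw [hf2, hm2]
    linarith [hb]

end Coprime

end Fermat.Agent.S18.C.AbhyankarPlace
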