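/-
PROJECT H (S18), block C (helper16): `UnramDisc.AbhyankarAt` is a THEOREM.

Glue between `C/Abhyankar.lean` (`abhyankar_uniformizer`, (A1)) and the hypothesis `hAb` of
`C/UnramDisc.lean` / `C/UnramDiscX0.lean` via `C/AbhyankarPlace.abhyankarAt_of_exists`.

* `abhyankarAt`        : `L` algebraically closed of characteristic zero, `Φ` a function field over
                         `L` (`IsFF L x`), `F₀ M₀ : IntermediateField L Φ` containing `x` with
                         `F₀ ⊔ M₀ = ⊤`: `AbhyankarAt P' F₀ M₀` at every place `P'`.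
* `abhyankarAt_imageF` : the shape consumed by `UnramDisc`: `F₀ = imageF L F` (image of a field `F`
                         with `[Algebra F Φ]`), `M₀ = L⟮μ⟯`, `x = xF` with `xF * Q(μ) = P(μ)`.
-/
import Mathlib
import Fermat.Agent.S18.C.Abhyankar
import Fermat.Agent.S18.C.AbhyankarPlace

set_option autoImplicit false

namespace Fermat.Agent.S18.C.AbhyankarAt

open AlgebraicCurve IntermediateField Polynomial Fermat.Agent.S24.FF
  Fermat.Agent.S18.C.UnramDisc

universe u w

variable {L : Type w} {Φ : Type u} [Field L] [IsAlgClosed L] [CharZero L] [Field Φ] [Algebra L Φ]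

/-- **Abhyankar's lemma in the shape (A2)** consumed by `C/UnramDisc.lean`. -/
theorem abhyankarAt {x : Φ} (hx : IsFF L x) (F₀ M₀ : IntermediateField L Φ) (hxF : x ∈ F₀)
    (hxM : x ∈ M₀) (hFM : F₀ ⊔ M₀ = ⊤) (P' : Place L Φ) : AbhyankarAt P' F₀ M₀ := by
  refine AbhyankarPlace.abhyankarAt_of_exists P' F₀ M₀ ?_
  obtain ⟨f, m, hf, hm, h⟩ := Abhyankar.abhyankar_uniformizer hx F₀ M₀ hxF hxM hFM P'
  exact ⟨f, m, fun h0 => hf (Subtype.ext h0), fun h0 => hm (Subtype.ext h0), h⟩

/-- The instance used by `UnramDisc`: `F₀` the image of a field `F` (e.g. `F_L`) in `Φ`,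
`M₀ = L(μ)`, and `x = xF` (e.g. `j`) is a rational function `P(μ) / Q(μ)` of `μ`. -/
theorem abhyankarAt_imageF {F : Type*} [Field F] [Algebra L F] [Algebra F Φ]
    [IsScalarTower L F Φ] {μ : Φ} (hμ : IsFF L μ) {xF : F} (hxF : Transcendental L xF)
    (P Q : L[X]) (hrel : algebraMap F Φ xF * aeval μ Q = aeval μ P) (hQ : Q ≠ 0)
    (hgen : imageF L F ⊔ L⟮μ⟯ = ⊤) (P' : Place L Φ) :
    AbhyankarAt P' (imageF L F) L⟮μ⟯ := by
  have hxtr : Transcendental L (algebraMap F Φ xF) :=
    (transcendental_algebraMap_iff (algebraMap F Φ).injective).mpr hxF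
  have hx : IsFF L (algebraMap F Φ xF) := hμ.of_transcendental hxtr
  have hQμ : aeval μ Q ≠ 0 := by
    intro h0
    exact hQ ((transcendental_iff_injective.mp hμ.transcendental) (by rw [h0, map_zero]))
  have hmemA : ∀ p : L[X], aeval μ p ∈ L⟮μ⟯ := fun p =>
    IntermediateField.algebra_adjoin_le_adjoin L _ (Polynomial.aeval_mem_adjoin_singleton L μ)
  have hxM : algebraMap F Φ xF ∈ L⟮μ⟯ := by
    have e : algebraMap F Φ xF = aeval μ P / aeval μ Q := by
      rw [eq_div_iff hQμ, hrel]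
    rw [e]
    exact div_mem (hmemA P) (hmemA Q)
  have hxF' : algebraMap F Φ xF ∈ imageF L F := ⟨xF, rfl⟩
  exact abhyankarAt hx (imageF L F) L⟮μ⟯ hxF' hxM hgen P'

end Fermat.Agent.S18.C.AbhyankarAt
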