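import Mathlib
import Fermat.Agent.S18.C.RAlgStructure

/-!
# PROJECT H (S18), block C, slice H-C7e (E3): the field factors of `R = F ⊗_{K(j)} K(μ)`

In characteristic zero `R` is reduced and artinian, hence the product of the fields
`Φ_I = R ⧸ I`, `I` running over the (finitely many) maximal ideals.  Each `Φ_I` is a finite
separable extension of `K(μ)`, generated over `K(μ)` by the image of `F`, and
`∑_I [Φ_I : K(μ)] = [F : K(j)]`.
-/

set_option autoImplicit false
set_option linter.style.haveILetI false

noncomputable section

namespace Fermat.Agent.S18.C.RAlgFactors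

open Polynomial TensorProduct Fermat.Agent.S18.C.Defs Fermat.Agent.S18.C.RAlgStructure

variable (c : Cover) (K : Type*) [Field K] [c.Good K]
variable (F : Type*) [Field F] [Algebra (RatFunc K) F]

/-- the factor of `R` at a maximal ideal -/
abbrev Factor (I : MaximalSpectrum (RAlg c K F)) : Type _ := RAlg c K F ⧸ I.asIdeal

/-- the factors are fields (use with `letI`) -/
@[reducible] def factorField (I : MaximalSpectrum (RAlg c K F)) : Field (Factor c K F I) :=
  haveI := I.isMaximal
  Ideal.Quotient.field I.asIdeal

/-- the projection `R → Φ_I` -/
def proj (I : MaximalSpectrum (RAlg c K F)) : RAlg c K F →+* Factor c K F I :=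
  Ideal.Quotient.mk I.asIdeal

theorem proj_surjective (I : MaximalSpectrum (RAlg c K F)) :
    Function.Surjective (proj c K F I) := Ideal.Quotient.mk_surjective

/-- the `K(μ)`-algebra structure of a factor (use with `letI`; it is the quotient algebra
structure for `muAlgebra`) -/
@[reducible] def factorAlgebra (I : MaximalSpectrum (RAlg c K F)) :
    Algebra (MuLine c K) (Factor c K F I) :=
  letI := muAlgebra c K F
  inferInstance

theorem factorAlgebra_algebraMap (I : MaximalSpectrum (RAlg c K F)) (m : MuLine c K) :
    letI := factorAlgebra c K F I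
    algebraMap (MuLine c K) (Factor c K F I) m = proj c K F I (incMu c K F m) := rfl

theorem mu_smul_proj (I : MaximalSpectrum (RAlg c K F)) (m : MuLine c K) (x : RAlg c K F) :
    letI := factorAlgebra c K F I
    letI := muAlgebra c K F
    m • proj c K F I x = proj c K F I (m • x) := rfl

/-- every factor is generated over `K(μ)` by the image of `F` -/
theorem adjoin_range_incF_eq_top (I : MaximalSpectrum (RAlg c K F)) :
    letI := factorAlgebra c K F I
    Algebra.adjoin (MuLine c K) (Set.range fun f : F => proj c K F I (incF c K F f)) = ⊤ := by
  letI := factorAlgebra c K F I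
  letI := muAlgebra c K F
  rw [eq_top_iff]
  rintro y -
  obtain ⟨x, rfl⟩ := proj_surjective c K F I y
  induction x using TensorProduct.induction_on with
  | zero => rw [map_zero]; exact Subalgebra.zero_mem _
  | tmul f m =>
    have h : (f ⊗ₜ[RatFunc K] m : RAlg c K F) = m • incF c K F f := by
      rw [incF_apply, mu_smul_tmul, mul_one]
    rw [h, ← mu_smul_proj]
    exact Subalgebra.smul_mem _ (Algebra.subset_adjoin (Set.mem_range_self f)) m
  | add x y hx hy => rw [map_add]; exact Subalgebra.add_mem _ hx hy

variable [FiniteDimensional (RatFunc K) F]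

theorem factor_finite (I : MaximalSpectrum (RAlg c K F)) :
    letI := factorAlgebra c K F I
    Module.Finite (MuLine c K) (Factor c K F I) := by
  letI := muAlgebra c K F
  haveI := finite_mu c K F
  exact Module.Finite.quotient (MuLine c K) _

theorem factor_isSeparable [CharZero K] (I : MaximalSpectrum (RAlg c K F)) :
    letI := factorField c K F I
    letI := factorAlgebra c K F I
    Algebra.IsSeparable (MuLine c K) (Factor c K F I) := by
  letI := factorField c K F I
  letI := factorAlgebra c K F I
  haveI := factor_finite c K F I
  haveI : CharZero (MuLine c K) := inferInstanceAs (CharZero (RatFunc K))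
  exact Algebra.IsAlgebraic.isSeparable_of_perfectField

/-- `R` is the product of its factors, `K(μ)`-linearly -/
def equivPi [CharZero K] :
    letI := muAlgebra c K F
    RAlg c K F ≃ₗ[MuLine c K] ∀ I : MaximalSpectrum (RAlg c K F), Factor c K F I :=
  letI := muAlgebra c K F
  haveI := isReduced c K F
  haveI := isArtinianRing c K F
  (IsArtinianRing.equivPi (RAlg c K F)).toLinearEquiv.restrictScalars (MuLine c K)

theorem equivPi_apply [CharZero K] (x : RAlg c K F) (I : MaximalSpectrum (RAlg c K F)) :
    equivPi c K F x I = proj c K F I x := rfl

/-- the ring isomorphism `R ≃ ∏ Φ_I` -/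
def ringEquivPi [CharZero K] :
    RAlg c K F ≃+* ∀ I : MaximalSpectrum (RAlg c K F), Factor c K F I :=
  haveI := isReduced c K F
  haveI := isArtinianRing c K F
  (IsArtinianRing.equivPi (RAlg c K F)).toRingEquiv

theorem ringEquivPi_apply [CharZero K] (x : RAlg c K F) (I : MaximalSpectrum (RAlg c K F)) :
    ringEquivPi c K F x I = proj c K F I x := rfl

/-- the degrees of the factors add up to `[F : K(j)]` -/
theorem sum_finrank [CharZero K] [Fintype (MaximalSpectrum (RAlg c K F))] :
    letI := fun I => factorAlgebra c K F I
    ∑ I : MaximalSpectrum (RAlg c K F), Module.finrank (MuLine c K) (Factor c K F I) =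
      Module.finrank (RatFunc K) F := by
  letI := fun I => factorAlgebra c K F I
  letI := muAlgebra c K F
  haveI := fun I => factor_finite c K F I
  rw [← finrank_mu c K F, LinearEquiv.finrank_eq (equivPi c K F), Module.finrank_pi_fintype]

/-- a `Fintype` structure on the set of factors -/
@[reducible] def fintypeMaximalSpectrum : Fintype (MaximalSpectrum (RAlg c K F)) :=
  @Fintype.ofFinite _ (finite_maximalSpectrum c K F)

end Fermat.Agent.S18.C.RAlgFactors
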