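/-
PROJECT H (S18), block C (helper16): the generation hypothesis `hgen` of
`C/AbhyankarAt.abhyankarAt_imageF` for the field factors of `R = F ⊗_{K(j)} K(μ)`.

* `imageF_sup_adjoin_eq_top`        : generic: `Mu = L(μ₀)`, `Φ` generated over `Mu` by the image of
                                      `F`  ⟹  `imageF L F ⊔ L⟮μ⟯ = ⊤`;
* `subfield_eq_top`                 : instance-free form on `RAlgFactors.Factor c K F I`;
* `imageF_sup_eq_top_of_surjective` : for any field `Φ` with a surjection `π : R → Φ` compatible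
                                      with the algebra structures (`Φ = Φ_I`, `π = proj`);
* `abhyankarAt_of_surjective`       : hence `UnramDisc.AbhyankarAt P' (imageF K F) K⟮μ⟯` at every
                                      place of such a `Φ` (one call for `C/UnramFactors`).
-/
import Mathlib
import Fermat.Agent.S18.C.AbhyankarAt
import Fermat.Agent.S18.C.RAlgFactors

set_option autoImplicit false
set_option linter.style.haveILetI false

namespace Fermat.Agent.S18.C.AbhyankarGen

open IntermediateField Polynomial TensorProduct Fermat.Agent.S18.C.UnramDisc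

section Generic

variable {L Mu F Φ : Type*} [Field L] [Field Mu] [Field F] [Field Φ] [Algebra L Mu] [Algebra L F]
  [Algebra L Φ] [Algebra Mu Φ] [Algebra F Φ] [IsScalarTower L Mu Φ] [IsScalarTower L F Φ]

/-- If `Mu = L(μ₀)` and `Φ` is generated over `Mu` by the image of `F`, then `Φ` is the compositum
of the image of `F` and `L(μ)`, `μ` the image of `μ₀`. -/
theorem imageF_sup_adjoin_eq_top (μ₀ : Mu) (hMu : L⟮μ₀⟯ = ⊤)
    (hadj : Algebra.adjoin Mu (Set.range (algebraMap F Φ)) = ⊤) :
    imageF L F ⊔ L⟮algebraMap Mu Φ μ₀⟯ = ⊤ := by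
  set S : IntermediateField L Φ := imageF L F ⊔ L⟮algebraMap Mu Φ μ₀⟯ with hS
  -- the image of `Mu` lies in `L(μ)`
  have hMuS : ∀ m : Mu, algebraMap Mu Φ m ∈ S := by
    intro m
    have hm : m ∈ L⟮μ₀⟯ := by rw [hMu]; exact IntermediateField.mem_top
    have h1 : (L⟮μ₀⟯).map (IsScalarTower.toAlgHom L Mu Φ) = L⟮algebraMap Mu Φ μ₀⟯ := by
      rw [IntermediateField.adjoin_map, Set.image_singleton]
      rfl
    have h2 : algebraMap Mu Φ m ∈ (L⟮μ₀⟯).map (IsScalarTower.toAlgHom L Mu Φ) :=
      ⟨m, hm, rfl⟩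
    rw [h1] at h2
    exact (le_sup_right : L⟮algebraMap Mu Φ μ₀⟯ ≤ S) h2
  have hFS : ∀ f : F, algebraMap F Φ f ∈ S := fun f =>
    (le_sup_left : imageF L F ≤ S) ⟨f, rfl⟩
  -- `S` as a `Mu`-subalgebra
  let T : Subalgebra Mu Φ :=
    { S.toSubalgebra.toSubsemiring with
      algebraMap_mem' := hMuS }
  have hT : Algebra.adjoin Mu (Set.range (algebraMap F Φ)) ≤ T :=
    Algebra.adjoin_le (by rintro _ ⟨f, rfl⟩; exact hFS f)
  rw [hadj] at hT
  rw [eq_top_iff]
  intro y _
  exact hT (Algebra.mem_top : y ∈ (⊤ : Subalgebra Mu Φ))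

end Generic

section Factor

open Fermat.Agent.S18.C.Defs Fermat.Agent.S18.C.RAlgStructure Fermat.Agent.S18.C.RAlgFactors

variable (c : Cover) (K : Type*) [Field K] [c.Good K] (F : Type*) [Field F]
  [Algebra (RatFunc K) F]

/-- A subfield of a field factor `Φ_I` of `R = F ⊗_{K(j)} K(μ)` containing the images of `F` and of
`K(μ)` is everything (instance-free form of `RAlgFactors.adjoin_range_incF_eq_top`). -/
theorem subfield_eq_top (I : MaximalSpectrum (RAlg c K F)) :
    letI := factorField c K F I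
    ∀ S : Subfield (Factor c K F I), (∀ f : F, proj c K F I (incF c K F f) ∈ S) →
      (∀ m : MuLine c K, proj c K F I (incMu c K F m) ∈ S) → S = ⊤ := by
  letI := factorField c K F I
  letI := factorAlgebra c K F I
  intro S hF hM
  let T : Subalgebra (MuLine c K) (Factor c K F I) :=
    { S.toSubring.toSubsemiring with
      algebraMap_mem' := fun m => by
        rw [factorAlgebra_algebraMap]
        exact hM m }
  have hT : Algebra.adjoin (MuLine c K)
      (Set.range fun f : F => proj c K F I (incF c K F f)) ≤ T :=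
    Algebra.adjoin_le (by rintro _ ⟨f, rfl⟩; exact hF f)
  rw [adjoin_range_incF_eq_top] at hT
  rw [eq_top_iff]
  intro y _
  exact hT (Algebra.mem_top : y ∈ (⊤ : Subalgebra (MuLine c K) (Factor c K F I)))

omit [c.Good K] in
/-- `K(μ) = K⟮μ⟯`. -/
theorem adjoin_mu_eq_top : K⟮MuLine.mu c K⟯ = ⊤ :=
  RatFunc.adjoin_X (K := K)

/-- **`hgen` for a quotient field of `R = F ⊗_{K(j)} K(μ)`** (e.g. a field factor `Φ_I` with
`π = proj`), for ANY compatible algebra structures on the target: `Φ` is the compositum of the image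
of `F` and of `K(μ)`. -/
theorem imageF_sup_eq_top_of_surjective {Φ : Type*} [Field Φ] [Algebra K Φ] [Algebra K F]
    [Algebra F Φ] [Algebra (MuLine c K) Φ] [IsScalarTower K (MuLine c K) Φ] [IsScalarTower K F Φ]
    (π : RAlg c K F →+* Φ) (hπ : Function.Surjective π)
    (hF : ∀ f : F, π (incF c K F f) = algebraMap F Φ f)
    (hM : ∀ m : MuLine c K, π (incMu c K F m) = algebraMap (MuLine c K) Φ m) :
    imageF K F ⊔ K⟮algebraMap (MuLine c K) Φ (MuLine.mu c K)⟯ = ⊤ := by
  refine imageF_sup_adjoin_eq_top (MuLine.mu c K) (adjoin_mu_eq_top c K) ?_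
  rw [eq_top_iff]
  rintro y -
  obtain ⟨x, rfl⟩ := hπ y
  induction x using TensorProduct.induction_on with
  | zero => rw [map_zero]; exact Subalgebra.zero_mem _
  | tmul f m =>
    have h : (f ⊗ₜ[RatFunc K] m : RAlg c K F) = incMu c K F m * incF c K F f := by
      rw [incF_apply, incMu_apply, Algebra.TensorProduct.tmul_mul_tmul, one_mul, mul_one]
    rw [h, map_mul, hM, hF, ← Algebra.smul_def]
    exact Subalgebra.smul_mem _ (Algebra.subset_adjoin (Set.mem_range_self f)) m
  | add x y hx hy => rw [map_add]; exact Subalgebra.add_mem _ hx hy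

/-- **Abhyankar's lemma on a quotient field of `R = F ⊗_{K(j)} K(μ)`** (one call for
`C/UnramFactors`): `K` algebraically closed of characteristic zero, `Φ` a field quotient of `R`
with compatible algebra structures, `μ` the image of the coordinate of the `μ`-line. -/
theorem abhyankarAt_of_surjective [IsAlgClosed K] [CharZero K] {Φ : Type*} [Field Φ]
    [Algebra K Φ] [Algebra K F] [Algebra F Φ] [Algebra (MuLine c K) Φ]
    [IsScalarTower K (MuLine c K) Φ] [IsScalarTower K F Φ]
    (π : RAlg c K F →+* Φ) (hπ : Function.Surjective π)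
    (hF : ∀ f : F, π (incF c K F f) = algebraMap F Φ f)
    (hM : ∀ m : MuLine c K, π (incMu c K F m) = algebraMap (MuLine c K) Φ m)
    (hμ : Fermat.Agent.S24.FF.IsFF K (algebraMap (MuLine c K) Φ (MuLine.mu c K)))
    {xF : F} (hxF : Transcendental K xF) (P Q : K[X])
    (hrel : algebraMap F Φ xF * aeval (algebraMap (MuLine c K) Φ (MuLine.mu c K)) Q =
      aeval (algebraMap (MuLine c K) Φ (MuLine.mu c K)) P) (hQ : Q ≠ 0)
    (P' : AlgebraicCurve.Place K Φ) :
    AbhyankarAt P' (imageF K F) K⟮algebraMap (MuLine c K) Φ (MuLine.mu c K)⟯ :=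
  AbhyankarAt.abhyankarAt_imageF hμ hxF P Q hrel hQ
    (imageF_sup_eq_top_of_surjective c K F π hπ hF hM) P'

end Factor

end Fermat.Agent.S18.C.AbhyankarGen
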