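import Fermat.Agent.S18.C.PointsDisc
import Fermat.Agent.S18.C.Specialize

/-!
# PROJECT H (S18), block C, slice H-C7k (part 2): points of a generating subring

Continuation of `C/PointsDisc.lean`.  `K` algebraically closed, `M ∋ μ` a function field over `K`,
`D = fracRing K μ a = K[μ]_(μ - a)`, `R` a commutative `M`-algebra which is (through a ring
isomorphism `e`, compatible with `M`) a finite product of function fields `Φ i` over `M`.

* `sum_finrank_le_card_algHom` : if every place of every `Φ i` over `μ = a` is unramified over the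
  `μ`-line, and `γ : C → R` is a ring homomorphism from an integral `B`-algebra `C`
  (`β : B → D`), whose image generates the normalisation of `D` in `R` as a `D`-module up to
  denominators invertible at `a` (`hgen`), then `C` has at least `∑ i, [Φ i : K(μ)]`
  `B`-algebra homomorphisms to `K` (`K` a `B`-algebra through `evFrac ∘ β`).
* `finrank_le_card_algHom` : the same in characteristic zero with `K(μ) = M` : the bound is
  `Module.finrank M R`.
* `exists_place_over`, `isSeparable_of_adjoin_eq_top`, `isFF_algebraMap`,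
  `finrank_adjoin_algebraMap`, `finite_algHom` : the small facts needed to apply them.
-/

set_option autoImplicit false
set_option linter.unusedSectionVars false

namespace Fermat.Agent.S18.C.PointsDisc2

open AlgebraicCurve IntermediateField Polynomial
  Fermat.Agent.S24.FF Fermat.Agent.S24.Ord Fermat.Agent.S24.Fibre
  Fermat.Agent.S18.C.PlacePoints Fermat.Agent.S18.C.PlaceEval Fermat.Agent.S18.A
  Fermat.Agent.S18.C.PointsDisc

universe u w

/-! ### small facts -/

section Small

variable {K : Type w} {F : Type u} [Field K] [Field F] [Algebra K F]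

/-- there is a place over every value `x = a` -/
theorem exists_place_over [IsAlgClosed K] {x : F} (hx : IsFF K x) (hsep : Algebra.IsSeparable K⟮x⟯ F) (a : K) :
    ∃ v : Place K F, v.adicValuation (x - algebraMap K F a) < 1 := by
  by_contra h
  have h0 : FibreSep.zeros hx hsep a = ∅ := by
    rw [Finset.eq_empty_iff_forall_notMem]
    intro v hv
    exact h ⟨v, (FibreSep.mem_zeros hx hsep a v).mp hv⟩
  have h1 := FibreSep.sum_zeros hx hsep a
  rw [h0, Finset.sum_empty] at h1
  have := hx.finite
  have hpos : 0 < Module.finrank K⟮x⟯ F := Module.finrank_pos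
  omega

/-- if `K(x) = F` then `F` is (trivially) separable over `K(x)` -/
theorem isSeparable_of_adjoin_eq_top {x : F} (htop : K⟮x⟯ = ⊤) : Algebra.IsSeparable K⟮x⟯ F :=
  ⟨fun m => by
    have hm : m ∈ K⟮x⟯ := htop ▸ IntermediateField.mem_top
    exact isSeparable_algebraMap (⟨m, hm⟩ : K⟮x⟯)⟩

variable {M : Type u} [Field M] [Algebra K M] {μ : M}
variable (Φ : Type u) [Field Φ] [Algebra K Φ] [Algebra M Φ] [IsScalarTower K M Φ]

theorem algebraMap_mem_adjoin (htop : K⟮μ⟯ = ⊤) (m : M) :
    algebraMap M Φ m ∈ K⟮algebraMap M Φ μ⟯ := by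
  have hm : m ∈ K⟮μ⟯ := htop ▸ IntermediateField.mem_top
  have h : (IsScalarTower.toAlgHom K M Φ) m ∈ (K⟮μ⟯).map (IsScalarTower.toAlgHom K M Φ) :=
    (IntermediateField.mem_map _).mpr ⟨m, hm, rfl⟩
  rw [IntermediateField.adjoin_map, Set.image_singleton] at h
  exact h

theorem exists_algebraMap_eq_of_mem_adjoin {y : Φ} (hy : y ∈ K⟮algebraMap M Φ μ⟯) :
    ∃ m : M, algebraMap M Φ m = y := by
  have h : y ∈ (K⟮μ⟯).map (IsScalarTower.toAlgHom K M Φ) := by
    rw [IntermediateField.adjoin_map, Set.image_singleton]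
    exact hy
  obtain ⟨m, -, rfl⟩ := (IntermediateField.mem_map _).mp h
  exact ⟨m, rfl⟩

/-- `M = K(μ)` is isomorphic to `K(μ') ⊆ Φ`, `μ'` the image of `μ` -/
noncomputable def adjoinEquiv (htop : K⟮μ⟯ = ⊤) : M ≃+* K⟮algebraMap M Φ μ⟯ :=
  RingEquiv.ofBijective
    ((algebraMap M Φ).codRestrict K⟮algebraMap M Φ μ⟯ (algebraMap_mem_adjoin Φ htop))
    ⟨RingHom.injective _, fun y => by
      obtain ⟨m, hm⟩ := exists_algebraMap_eq_of_mem_adjoin Φ y.2
      exact ⟨m, Subtype.ext hm⟩⟩

theorem adjoinEquiv_comp (htop : K⟮μ⟯ = ⊤) :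
    (algebraMap K⟮algebraMap M Φ μ⟯ Φ).comp (adjoinEquiv Φ htop : M →+* K⟮algebraMap M Φ μ⟯) =
      ((RingEquiv.refl Φ : Φ ≃+* Φ) : Φ →+* Φ).comp (algebraMap M Φ) :=
  RingHom.ext fun _ => rfl

/-- `[Φ : K(μ')] = [Φ : M]` if `M = K(μ)` -/
theorem finrank_adjoin_algebraMap (htop : K⟮μ⟯ = ⊤) :
    Module.finrank K⟮algebraMap M Φ μ⟯ Φ = Module.finrank M Φ :=
  (Algebra.finrank_eq_of_equiv_equiv (adjoinEquiv Φ htop) (RingEquiv.refl Φ)
    (adjoinEquiv_comp Φ htop)).symm

theorem isFF_algebraMap (hμ : IsFF K μ) (htop : K⟮μ⟯ = ⊤) [Module.Finite M Φ] :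
    IsFF K (algebraMap M Φ μ) where
  transcendental :=
    (transcendental_algebraMap_iff (algebraMap M Φ).injective).mpr hμ.transcendental
  finite := Module.Finite.of_equiv_equiv (adjoinEquiv Φ htop) (RingEquiv.refl Φ)
    (adjoinEquiv_comp Φ htop)

/-- in characteristic zero every function field is separable over `K(x)` -/
theorem isSeparable_of_charZero [CharZero K] {x : F} (hx : IsFF K x) :
    Algebra.IsSeparable K⟮x⟯ F := by
  have := hx.finite
  have : CharZero K⟮x⟯ := charZero_of_injective_algebraMap (algebraMap K K⟮x⟯).injective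
  exact Algebra.IsAlgebraic.isSeparable_of_perfectField

end Small

section Finite

variable {B C : Type*} [CommRing B] [CommRing C] [Algebra B C] [Module.Finite B C]
variable (E : Type*) [Field E] [Algebra B E]

/-- a finite algebra has finitely many points in a field -/
theorem finite_algHom : Finite (C →ₐ[B] E) := by
  have hfin : Finite ((TensorProduct B E C) →ₐ[E] E) :=
    (linearIndependent_algHom_toLinearMap E (TensorProduct B E C) E).finite
  exact Finite.of_equiv _ (Specialize.pointEquiv (B := B) (C := C) E).symm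

end Finite

/-! ### the main statement -/

section Generated

variable {K : Type w} [Field K] [IsAlgClosed K] {M : Type u} [Field M] [Algebra K M] {μ : M}
variable {ι : Type*} [Fintype ι] {Φ : ι → Type u} [∀ i, Field (Φ i)] [∀ i, Algebra K (Φ i)]
  [∀ i, Algebra M (Φ i)] [∀ i, IsScalarTower K M (Φ i)]
variable {R : Type*} [CommRing R] [Algebra M R] (e : R ≃+* ∀ i, Φ i)
  (he : ∀ m : M, e (algebraMap M R m) = algebraMap M (∀ i, Φ i) m)
variable (a : K)

include he in
omit [IsAlgClosed K] [Fintype ι] [∀ i, IsScalarTower K M (Φ i)] in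
theorem comp_algebraMap_eq :
    (e : R →+* ∀ i, Φ i).comp (algebraMap (fracRing K μ a) R) =
      algebraMap (fracRing K μ a) (∀ i, Φ i) :=
  RingHom.ext fun d => he (d : M)

include he in
omit [IsAlgClosed K] [Fintype ι] [∀ i, IsScalarTower K M (Φ i)] in
/-- `e` preserves integrality over `fracRing K μ a` -/
theorem isIntegral_equiv {x : R} (hx : IsIntegral (fracRing K μ a) x) :
    IsIntegral (fracRing K μ a) (e x) := by
  obtain ⟨p, hp, h0⟩ := hx
  refine ⟨p, hp, ?_⟩
  rw [← comp_algebraMap_eq e he a]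
  have := hom_eval₂ p (algebraMap (fracRing K μ a) R) (e : R →+* ∀ i, Φ i) x
  rw [h0, map_zero] at this
  exact this.symm

include he in
omit [IsAlgClosed K] [Fintype ι] [∀ i, IsScalarTower K M (Φ i)] in
theorem isIntegral_equiv_symm {y : ∀ i, Φ i} (hy : IsIntegral (fracRing K μ a) y) :
    IsIntegral (fracRing K μ a) (e.symm y) := by
  obtain ⟨p, hp, h0⟩ := hy
  refine ⟨p, hp, ?_⟩
  apply e.injective
  rw [map_zero]
  have := hom_eval₂ p (algebraMap (fracRing K μ a) R) (e : R →+* ∀ i, Φ i) (e.symm y)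
  rw [comp_algebraMap_eq e he a] at this
  rw [RingEquiv.coe_toRingHom] at this
  rw [this, e.apply_symm_apply]
  exact h0

variable {B C : Type*} [CommRing B] [CommRing C] [Algebra B C]
  (β : B →+* fracRing K μ a) (γ : C →+* R)
  (hγ : ∀ b, γ (algebraMap B C b) = algebraMap M R (β b : M))

include hγ in
/-- the image of an integral `B`-algebra is integral over `fracRing K μ a` -/
theorem isIntegral_gamma [Algebra.IsIntegral B C] (c : C) :
    IsIntegral (fracRing K μ a) (γ c) := by
  obtain ⟨p, hp, h0⟩ := Algebra.IsIntegral.isIntegral (R := B) c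
  refine ⟨p.map β, hp.map β, ?_⟩
  rw [eval₂_map]
  have hcomp : (algebraMap (fracRing K μ a) R).comp β = γ.comp (algebraMap B C) :=
    RingHom.ext fun b => (hγ b).symm
  rw [hcomp, ← hom_eval₂, h0, map_zero]

/-- `γ` followed by `e`, into the normalisation of `fracRing K μ a` in the product -/
noncomputable def liftClosure (hγint : ∀ c, IsIntegral (fracRing K μ a) (γ c)) :
    C →+* integralClosure (fracRing K μ a) (∀ i, Φ i) :=
  ((e : R →+* ∀ i, Φ i).comp γ).codRestrict (integralClosure (fracRing K μ a) (∀ i, Φ i))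
    fun c => isIntegral_equiv e he a (hγint c)

theorem coe_liftClosure (hγint : ∀ c, IsIntegral (fracRing K μ a) (γ c)) (c : C) :
    (liftClosure e he a γ hγint c : ∀ i, Φ i) = e (γ c) := rfl

include hγ in
theorem liftClosure_algebraMap (hγint : ∀ c, IsIntegral (fracRing K μ a) (γ c)) (b : B) :
    liftClosure e he a γ hγint (algebraMap B C b) =
      algebraMap (fracRing K μ a) (integralClosure (fracRing K μ a) (∀ i, Φ i)) (β b) := by
  apply Subtype.ext
  rw [coe_liftClosure, hγ, he]
  rfl

variable (hμ : IsFF K μ) (w : Place K M) (hw : w.adicValuation (μ - algebraMap K M a) < 1)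
variable [Algebra B K] (hβ : ∀ b, algebraMap B K b = evFrac hμ a w hw (β b))

/-- a point of the normalisation over `evFrac` restricts to a `B`-point of `C` -/
noncomputable def restrictPt (hγint : ∀ c, IsIntegral (fracRing K μ a) (γ c))
    (ψ : {ψ : integralClosure (fracRing K μ a) (∀ i, Φ i) →+* K //
      ∀ d : fracRing K μ a, ψ (algebraMap (fracRing K μ a) _ d) = evFrac hμ a w hw d}) :
    C →ₐ[B] K :=
  { ψ.1.comp (liftClosure e he a γ hγint) with
    commutes' := fun b => by
      show ψ.1 (liftClosure e he a γ hγint (algebraMap B C b)) = algebraMap B K b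
      rw [liftClosure_algebraMap e he a β γ hγ hγint, ψ.2, hβ] }

theorem restrictPt_apply (hγint : ∀ c, IsIntegral (fracRing K μ a) (γ c))
    (ψ : {ψ : integralClosure (fracRing K μ a) (∀ i, Φ i) →+* K //
      ∀ d : fracRing K μ a, ψ (algebraMap (fracRing K μ a) _ d) = evFrac hμ a w hw d}) (c : C) :
    restrictPt e he a β γ hγ hμ w hw hβ hγint ψ c = ψ.1 (liftClosure e he a γ hγint c) := rfl

/-- **separation**: if the image of `γ` generates the normalisation of `fracRing K μ a` in `R`
(up to denominators invertible at `a`), a point of the normalisation is determined by its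
restriction to `C`. -/
theorem restrictPt_injective (hγint : ∀ c, IsIntegral (fracRing K μ a) (γ c))
    (hgen : ∀ x : R, IsIntegral (fracRing K μ a) x → ∃ s : fracRing K μ a,
      evFrac hμ a w hw s ≠ 0 ∧ s • x ∈ Submodule.span (fracRing K μ a) (Set.range γ)) :
    Function.Injective (restrictPt e he a β γ hγ hμ w hw hβ hγint) := by
  intro ψ ψ' h
  apply Subtype.ext
  apply RingHom.ext
  have key : ∀ z ∈ Submodule.span (fracRing K μ a) (Set.range γ),
      ∃ hz : IsIntegral (fracRing K μ a) (e z),
        ψ.1 ⟨e z, hz⟩ = ψ'.1 ⟨e z, hz⟩ := by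
    intro z hz
    induction hz using Submodule.span_induction with
    | mem z hz =>
      obtain ⟨c, rfl⟩ := hz
      refine ⟨isIntegral_equiv e he a (hγint c), ?_⟩
      have := DFunLike.congr_fun h c
      rw [restrictPt_apply, restrictPt_apply] at this
      exact this
    | zero =>
      have hz0 : IsIntegral (fracRing K μ a) (e 0) := by rw [map_zero]; exact isIntegral_zero
      refine ⟨hz0, ?_⟩
      have h0 : (⟨e 0, hz0⟩ : integralClosure (fracRing K μ a) (∀ i, Φ i)) = 0 :=
        Subtype.ext (map_zero e)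
      rw [h0, map_zero, map_zero]
    | add z1 z2 _ _ h1 h2 =>
      obtain ⟨hz1, e1⟩ := h1
      obtain ⟨hz2, e2⟩ := h2
      have hz12 : IsIntegral (fracRing K μ a) (e (z1 + z2)) := by
        rw [map_add]; exact hz1.add hz2
      refine ⟨hz12, ?_⟩
      have h0 : (⟨e (z1 + z2), hz12⟩ : integralClosure (fracRing K μ a) (∀ i, Φ i)) =
          ⟨e z1, hz1⟩ + ⟨e z2, hz2⟩ := Subtype.ext (map_add e z1 z2)
      rw [h0, map_add, map_add, e1, e2]
    | smul d z _ hz =>
      obtain ⟨hz1, e1⟩ := hz
      have hd : e (d • z) = algebraMap (fracRing K μ a) (∀ i, Φ i) d * e z := by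
        rw [Algebra.smul_def, map_mul]
        congr 1
        exact he d
      have hz' : IsIntegral (fracRing K μ a) (e (d • z)) := by
        rw [hd]; exact isIntegral_algebraMap.mul hz1
      refine ⟨hz', ?_⟩
      have h0 : (⟨e (d • z), hz'⟩ : integralClosure (fracRing K μ a) (∀ i, Φ i)) =
          algebraMap (fracRing K μ a) _ d * ⟨e z, hz1⟩ := Subtype.ext hd
      rw [h0, map_mul, map_mul, ψ.2, ψ'.2, e1]
  rintro ⟨y0, hy0⟩
  obtain ⟨s, hs, hmem⟩ := hgen (e.symm y0) (isIntegral_equiv_symm e he a hy0)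
  obtain ⟨hz, heq⟩ := key _ hmem
  have hsy : (⟨e (s • e.symm y0), hz⟩ : integralClosure (fracRing K μ a) (∀ i, Φ i)) =
      algebraMap (fracRing K μ a) _ s * ⟨y0, hy0⟩ := by
    apply Subtype.ext
    show e (s • e.symm y0) = algebraMap (fracRing K μ a) (∀ i, Φ i) s * y0
    rw [Algebra.smul_def, map_mul, e.apply_symm_apply]
    congr 1
    exact he s
  rw [hsy, map_mul, map_mul, ψ.2, ψ'.2] at heq
  exact mul_left_cancel₀ hs heq

include he hγ hβ in
/-- **(H-C7k, main statement)** unramified places over `μ = a` give `∑ i, [Φ i : K(μ)]` distinct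
`B`-points of any integral `B`-algebra `C` generating the normalisation of `K[μ]_(μ - a)`. -/
theorem sum_finrank_le_card_algHom
    (hx : ∀ i, IsFF K (algebraMap M (Φ i) μ))
    (hsep : ∀ i, Algebra.IsSeparable K⟮algebraMap M (Φ i) μ⟯ (Φ i))
    (hU : ∀ i (v : Place K (Φ i)),
      0 < v.ord (algebraMap M (Φ i) μ - algebraMap K (Φ i) a) →
      v.ord (algebraMap M (Φ i) μ - algebraMap K (Φ i) a) = 1)
    [Algebra.IsIntegral B C] [Finite (C →ₐ[B] K)]
    (hgen : ∀ x : R, IsIntegral (fracRing K μ a) x → ∃ s : fracRing K μ a,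
      evFrac hμ a w hw s ≠ 0 ∧ s • x ∈ Submodule.span (fracRing K μ a) (Set.range γ)) :
    ∑ i, Module.finrank K⟮algebraMap M (Φ i) μ⟯ (Φ i) ≤ Nat.card (C →ₐ[B] K) := by
  have hγint := isIntegral_gamma a β γ hγ
  have hinj := restrictPt_injective e he a β γ hγ hμ w hw hβ hγint hgen
  have : Finite {ψ : integralClosure (fracRing K μ a) (∀ i, Φ i) →+* K //
      ∀ d : fracRing K μ a, ψ (algebraMap (fracRing K μ a) _ d) = evFrac hμ a w hw d} :=
    Finite.of_injective _ hinj
  exact (finrank_le_card_points_closure hμ a w hw hx hsep hU).trans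
    (Nat.card_le_card_of_injective _ hinj)

end Generated

/-! ### characteristic zero, `M = K(μ)` -/

section CharZero

variable {K : Type w} [Field K] [IsAlgClosed K] {M : Type u} [Field M] [Algebra K M] {μ : M}
variable {ι : Type*} [Fintype ι] {Φ : ι → Type u} [∀ i, Field (Φ i)] [∀ i, Algebra K (Φ i)]
  [∀ i, Algebra M (Φ i)] [∀ i, IsScalarTower K M (Φ i)] [∀ i, Module.Finite M (Φ i)]
variable {R : Type*} [CommRing R] [Algebra M R] (e : R ≃+* ∀ i, Φ i)
  (he : ∀ m : M, e (algebraMap M R m) = algebraMap M (∀ i, Φ i) m)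

/-- `e` as an `M`-linear equivalence -/
noncomputable def linEquiv : R ≃ₗ[M] ∀ i, Φ i :=
  { e with
    map_smul' := fun m x => by
      show e (m • x) = m • e x
      rw [Algebra.smul_def, Algebra.smul_def, map_mul, he] }

include he in
theorem finrank_eq_sum : Module.finrank M R = ∑ i, Module.finrank M (Φ i) := by
  rw [LinearEquiv.finrank_eq (linEquiv e he), Module.finrank_pi_fintype]

include he in
/-- **(H-C7k, characteristic zero form)**: `[R : M]` distinct `B`-points of `C`. -/
theorem finrank_le_card_algHom [CharZero K] (hμ : IsFF K μ) (htop : K⟮μ⟯ = ⊤) (a : K)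
    (w : Place K M) (hw : w.adicValuation (μ - algebraMap K M a) < 1)
    (hU : ∀ i (v : Place K (Φ i)),
      0 < v.ord (algebraMap M (Φ i) μ - algebraMap K (Φ i) a) →
      v.ord (algebraMap M (Φ i) μ - algebraMap K (Φ i) a) = 1)
    {B C : Type*} [CommRing B] [CommRing C] [Algebra B C] [Module.Finite B C] [Algebra B K]
    (β : B →+* fracRing K μ a) (hβ : ∀ b, algebraMap B K b = evFrac hμ a w hw (β b))
    (γ : C →+* R) (hγ : ∀ b, γ (algebraMap B C b) = algebraMap M R (β b : M))
    (hgen : ∀ x : R, IsIntegral (fracRing K μ a) x → ∃ s : fracRing K μ a,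
      evFrac hμ a w hw s ≠ 0 ∧ s • x ∈ Submodule.span (fracRing K μ a) (Set.range γ)) :
    Module.finrank M R ≤ Nat.card (C →ₐ[B] K) := by
  have hx : ∀ i, IsFF K (algebraMap M (Φ i) μ) := fun i => isFF_algebraMap (Φ i) hμ htop
  have hsep : ∀ i, Algebra.IsSeparable K⟮algebraMap M (Φ i) μ⟯ (Φ i) := fun i =>
    isSeparable_of_charZero (hx i)
  have hfin : Finite (C →ₐ[B] K) := finite_algHom K
  rw [finrank_eq_sum e he,
    ← Finset.sum_congr rfl fun i _ => finrank_adjoin_algebraMap (Φ i) htop]
  exact sum_finrank_le_card_algHom e he a β γ hγ hμ w hw hβ hx hsep hU hgen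

end CharZero

end Fermat.Agent.S18.C.PointsDisc2
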