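import Mathlib
import Fermat.Agent.S18.C.FinEt

/-!
# PROJECT H (S18), block C, step (S2b): abstract core

`B → C` a finite free algebra with basis `b`, `E` an algebraically closed field.

* `card_algHom_le` : `C` has at most `rank` points in `E` (for any `B`-algebra structure on `E`);
* `discr_ne_zero_of_le_card_algHom` : if it has at least `rank` points, the discriminant does not
  vanish in `E` (T3 of `C/FinEt.lean` with an inequality);
* the **transfer of points**: rings `D → CD`, ring homs `β : B → D`, `κ : C → CD` over `β`, an
  evaluation `evD : D → E`; if `CD` is generated by `κ(C)` over `D` up to denominators which do not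
  vanish under `evD`, then distinct points of `CD` over `evD` restrict to distinct points of `C`
  over `evD ∘ β` (`restrictPt_injective`), hence
  `discr_ne_zero_of_points` : `rank ≤ #{points of CD over evD}` implies `evD (β (discr b)) ≠ 0`.
-/

set_option autoImplicit false
set_option linter.style.haveILetI false

noncomputable section

namespace Fermat.Agent.S18.C.SurfaceBAbs

open TensorProduct Module

section Card

variable {E S : Type*} [Field E] [CommRing S] [Algebra E S] [FiniteDimensional E S]

theorem finite_algHom : Finite (S →ₐ[E] E) :=
  (linearIndependent_algHom_toLinearMap E S E).finite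

/-- A finite-dimensional algebra over a field has at most `dim` points. -/
theorem card_algHom_le_finrank : Nat.card (S →ₐ[E] E) ≤ finrank E S := by
  classical
  have hfin : Finite (S →ₐ[E] E) := finite_algHom
  have : Fintype (S →ₐ[E] E) := Fintype.ofFinite _
  have hli := linearIndependent_algHom_toLinearMap E S E
  have h := hli.fintype_card_le_finrank
  rw [Nat.card_eq_fintype_card]
  calc Fintype.card (S →ₐ[E] E) ≤ finrank E (S →ₗ[E] E) := h
    _ = finrank E S := Subspace.dual_finrank_eq

end Card

section Points

variable {B C : Type*} [CommRing B] [CommRing C] [Algebra B C]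
variable (E : Type*) [Field E] [Algebra B E]
variable {ι : Type*} [Fintype ι] [DecidableEq ι] (b : Basis ι B C)

include b in
omit [DecidableEq ι] in
theorem finite_algHom_of_basis : Finite (C →ₐ[B] E) := by
  have hfinE : Module.Finite E (E ⊗[B] C) :=
    Module.Finite.of_basis (Algebra.TensorProduct.basis E b)
  have : Finite ((E ⊗[B] C) →ₐ[E] E) := finite_algHom
  exact Finite.of_equiv _ (Specialize.pointEquiv (C := C) E).symm

include b in
omit [DecidableEq ι] in
/-- A finite free algebra of rank `n` has at most `n` points in a field. -/
theorem card_algHom_le : Nat.card (C →ₐ[B] E) ≤ Fintype.card ι := by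
  have hfinE : Module.Finite E (E ⊗[B] C) :=
    Module.Finite.of_basis (Algebra.TensorProduct.basis E b)
  have hrank : finrank E (E ⊗[B] C) = Fintype.card ι :=
    finrank_eq_card_basis (Algebra.TensorProduct.basis E b)
  rw [Nat.card_congr (Specialize.pointEquiv (C := C) E), ← hrank]
  exact card_algHom_le_finrank

/-- (T3) with an inequality: at least `rank` points force a nonvanishing discriminant. -/
theorem discr_ne_zero_of_le_card_algHom [IsAlgClosed E]
    (h : Fintype.card ι ≤ Nat.card (C →ₐ[B] E)) :
    algebraMap B E (Algebra.discr B b) ≠ 0 :=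
  FinEt.discr_ne_zero_of_card_algHom E b (le_antisymm (card_algHom_le E b) h)

end Points

section Transfer

variable {B C D CD E : Type*} [CommRing B] [CommRing C] [Algebra B C] [CommRing D] [CommRing CD]
  [Algebra D CD] [Field E]
variable (β : B →+* D) (κ : C →+* CD) (evD : D →+* E)

/-- the points of `CD` over the evaluation `evD` of `D` -/
def PtsOver : Type _ := {ψ : CD →+* E // ∀ d : D, ψ (algebraMap D CD d) = evD d}

/-- `E` as a `B`-algebra through `evD ∘ β` -/
@[reducible] def algE : Algebra B E := (evD.comp β).toAlgebra

theorem algebraMap_algE (x : B) :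
    letI := algE β evD
    algebraMap B E x = evD (β x) := rfl

variable {β κ} in
/-- restriction of a point of `CD` to `C` -/
def restrictPt (hκ : ∀ x : B, κ (algebraMap B C x) = algebraMap D CD (β x))
    (ψ : PtsOver (CD := CD) evD) :
    letI := algE β evD
    C →ₐ[B] E :=
  letI := algE β evD
  { (ψ.1.comp κ) with
    commutes' := fun x => by
      show ψ.1 (κ (algebraMap B C x)) = evD (β x)
      rw [hκ, ψ.2] }

variable {β κ} in
theorem restrictPt_apply (hκ : ∀ x : B, κ (algebraMap B C x) = algebraMap D CD (β x))
    (ψ : PtsOver (CD := CD) evD) (x : C) :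
    letI := algE β evD
    restrictPt evD hκ ψ x = ψ.1 (κ x) := rfl

variable {β κ} in
/-- **Transfer of points.** If `CD` is generated by `κ(C)` over `D` up to denominators which do
not vanish under `evD`, the restriction of points is injective. -/
theorem restrictPt_injective (hκ : ∀ x : B, κ (algebraMap B C x) = algebraMap D CD (β x))
    (hgen : ∀ x : CD, ∃ s : D, evD s ≠ 0 ∧
      algebraMap D CD s * x ∈ Submodule.span D (Set.range κ)) :
    letI := algE β evD
    Function.Injective (restrictPt (C := C) evD hκ) := by
  letI := algE β evD
  intro ψ ψ' h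
  apply Subtype.ext
  apply RingHom.ext
  intro x
  obtain ⟨s, hs, hx⟩ := hgen x
  have hagree : ∀ y ∈ Submodule.span D (Set.range κ), ψ.1 y = ψ'.1 y := by
    intro y hy
    induction hy using Submodule.span_induction with
    | mem y hy =>
      obtain ⟨z, rfl⟩ := hy
      have := congrArg (fun f : C →ₐ[B] E => f z) h
      simpa [restrictPt_apply] using this
    | zero => rw [map_zero, map_zero]
    | add y z _ _ hy hz => rw [map_add, map_add, hy, hz]
    | smul d y _ hy =>
      rw [Algebra.smul_def, map_mul, map_mul, ψ.2, ψ'.2, hy]
  have h1 := hagree _ hx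
  rw [map_mul, map_mul, ψ.2, ψ'.2] at h1
  exact mul_left_cancel₀ hs h1

variable {ι : Type*} [Fintype ι] [DecidableEq ι] (b : Basis ι B C)

variable {β κ} in
/-- **(S2b), abstract form.** `rank ≤ #{points of CD over evD}` implies that the discriminant of
`C` over `B` does not vanish under `evD ∘ β`. -/
theorem discr_ne_zero_of_points [IsAlgClosed E]
    (hκ : ∀ x : B, κ (algebraMap B C x) = algebraMap D CD (β x))
    (hgen : ∀ x : CD, ∃ s : D, evD s ≠ 0 ∧
      algebraMap D CD s * x ∈ Submodule.span D (Set.range κ))
    (hcard : Fintype.card ι ≤ Nat.card (PtsOver (CD := CD) evD)) :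
    evD (β (Algebra.discr B b)) ≠ 0 := by
  letI := algE β evD
  have hfin : Finite (C →ₐ[B] E) := finite_algHom_of_basis E b
  have hle : Nat.card (PtsOver (CD := CD) evD) ≤ Nat.card (C →ₐ[B] E) :=
    Nat.card_le_card_of_injective _ (restrictPt_injective evD hκ hgen)
  exact discr_ne_zero_of_le_card_algHom E b (hcard.trans hle)

end Transfer

end Fermat.Agent.S18.C.SurfaceBAbs
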