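import Mathlib
import Fermat.Agent.S18.C.SurfaceBAbs
import Fermat.Agent.S18.C.SurfaceFree
import Fermat.Agent.S18.C.BaseChangeR
import Fermat.Agent.S18.C.EvalBridge

/-!
# PROJECT H (S18), block C, step (S2b): the discriminant of `C_Q` vanishes at no point of the disc

`A` a valuation subring of `ℚ̄`, `V = A ∩ ℚ`, `B_Q = BRing c V`, `C_Q = CInt c F0 V` with its basis
`SurfaceFree.basisCInt` and discriminant `d = SurfaceFree.discrCInt c V F0 ∈ B_Q`.  For a point `t`
of the open unit disc of `A`:

`evDiscAtB φ A c t ht d ≠ 0`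

as soon as, for SOME subring `D ⊇ B_A` of `ℚ̄(μ)` with an evaluation `evD : D → ℚ̄` extending
`μ ↦ t` (in the application `D = ℚ̄[μ]_(μ - t)`),

* (points, `C/PointsDisc`) the integral closure of `D` in `R_L = F_L ⊗ ℚ̄(μ)` has at least
  `[R_L : ℚ̄(μ)]` points over `evD`;
* (normal base change, `C/NormalLink`) the integral closure of `D` in `R_L` is generated by the
  image of `C_Q` over `D`, up to denominators not vanishing at `t`.
-/

set_option autoImplicit false
set_option linter.style.haveILetI false

noncomputable section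

namespace Fermat.Agent.S18.C.SurfaceBHyp

open Polynomial TensorProduct ModularCurve
open Fermat.Agent.S18.C.Defs Fermat.Agent.S18.C.SurfaceDefs Fermat.Agent.S18.C.BRingLocal
open Fermat.Agent.S18.C.DiscRingLocal Fermat.Agent.S18.C.EvalBridge
open Fermat.Agent.S18.C.SurfaceFree Fermat.Agent.S18.C.BaseChangeR

local notation "Kb" => AlgebraicClosure ℚ

/-! ### the two coefficient extensions `ℚ(μ) → ℚ̄(μ)` agree -/

section RatMap

variable {K L : Type*} [Field K] [Field L] [Algebra K L]

theorem ratMap_eq : DiscRingLocal.ratMap (algebraMap K L) = BaseChangeR.ratMap K L := by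
  apply BaseChangeR.ratFunc_ringHom_ext
  · intro a
    rw [DiscRingLocal.ratMap_C, BaseChangeR.ratMap_C]
  · rw [DiscRingLocal.ratMap_X, BaseChangeR.ratMap_X]

variable (c : Cover) (V₁ : ValuationSubring K) (V₂ : ValuationSubring L)
  (h : ∀ x, x ∈ V₁ ↔ algebraMap K L x ∈ V₂)

theorem coe_bMap_eq_muMap (b : BRing c V₁) :
    ((bMap c (algebraMap K L) V₁ V₂ h b : BRing c V₂) : MuLine c L) =
      muMap c K L (b : MuLine c K) := by
  rw [coe_bMap, ratMap_eq]
  conv_rhs => rw [← (MuLine.of c K).apply_symm_apply (b : MuLine c K), muMap_of]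

end RatMap

section Main

variable (N : ℕ) [NeZero N] (c : Cover) [c.Good ℚ] [c.Good Kb] (A : ValuationSubring Kb)

set_option quotPrecheck false in
local notation "φ" => algebraMap ℚ Kb
set_option quotPrecheck false in
local notation "V" => ValuationSubring.comap A (algebraMap ℚ Kb)
set_option quotPrecheck false in
local notation "F0" => ↥(modularFunctionFieldFull N)
set_option quotPrecheck false in
local notation "FL" => ↥(modularFunctionFieldBar N)
set_option quotPrecheck false in
local notation "RQ" => RAlg c ℚ ↥(modularFunctionFieldFull N)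
set_option quotPrecheck false in
local notation "RL" => RAlg c Kb ↥(modularFunctionFieldBar N)

/-- `compRBar` is compatible with the structure maps `B_Q → R_Q`, `B_A → R_L`. -/
theorem compRBar_algebraMap (b : BRing c V) :
    compRBar N c (algebraMap (BRing c V) RQ b) =
      algebraMap (BRing c A) RL (bMap c φ V A (DiscRingLocal.mem_comap_iff φ A) b) := by
  show compRBar N c (algebraMap (MuLine c ℚ) RQ (b : MuLine c ℚ)) =
    algebraMap (MuLine c Kb) RL ((bMap c φ V A (DiscRingLocal.mem_comap_iff φ A) b : BRing c A) :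
      MuLine c Kb)
  rw [coe_bMap_eq_muMap]
  exact compR_incMu c ℚ Kb (Forms.embBar N) (embBar_algebraMap_ratFunc N) (b : MuLine c ℚ)

/-- the image of `C_Q` in `R_L` is integral over `B_A`. -/
theorem isIntegral_compRBar {x : RQ} (hx : IsIntegral (BRing c V) x) :
    IsIntegral (BRing c A) (compRBar N c x) :=
  hx.map_of_comp_eq (bMap c φ V A (DiscRingLocal.mem_comap_iff φ A)) (compRBar N c)
    (by
      ext b
      exact (compRBar_algebraMap N c A b).symm)

variable (D : Subring (MuLine c Kb)) (hBD : BRing c A ≤ D)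

include hBD in
theorem isIntegral_compRBar_D {x : RQ} (hx : IsIntegral (BRing c V) x) :
    IsIntegral D (compRBar N c x) :=
  (isIntegral_compRBar N c A hx).map_of_comp_eq (Subring.inclusion hBD) (RingHom.id RL)
    (by ext b; rfl)

/-- `C_Q → ` the integral closure of `D` in `R_L`. -/
def kappa : CInt c F0 V →+* integralClosure D RL :=
  ((compRBar N c).comp (CInt c F0 V).val.toRingHom).codRestrict (integralClosure D RL)
    fun x => isIntegral_compRBar_D N c A D hBD x.2

theorem coe_kappa (x : CInt c F0 V) :
    ((kappa N c A D hBD x : integralClosure D RL) : RL) = compRBar N c (x : RQ) := rfl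

/-- `B_Q → D` -/
def beta : BRing c V →+* D :=
  (Subring.inclusion hBD).comp (bMap c φ V A (DiscRingLocal.mem_comap_iff φ A))

omit [c.Good ℚ] [c.Good Kb] in
theorem coe_beta (b : BRing c V) :
    ((beta c A D hBD b : D) : MuLine c Kb) =
      ((bMap c φ V A (DiscRingLocal.mem_comap_iff φ A) b : BRing c A) : MuLine c Kb) := rfl

theorem kappa_algebraMap (b : BRing c V) :
    kappa N c A D hBD (algebraMap (BRing c V) (CInt c F0 V) b) =
      algebraMap D (integralClosure D RL) (beta c A D hBD b) := by
  apply Subtype.ext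
  rw [coe_kappa]
  show compRBar N c (algebraMap (BRing c V) RQ b) = _
  rw [compRBar_algebraMap]
  rfl

variable [IsDiscreteValuationRing ↥(A.comap (algebraMap ℚ Kb))]

instance instFiniteDimensionalF0 : FiniteDimensional (RatFunc ℚ) F0 := (finrank_ratFunc_full N).1

instance instFiniteDimensionalFL : FiniteDimensional (RatFunc Kb) FL := (finrank_ratFunc_bar N).1

omit [c.Good ℚ] in
theorem finrank_RL_eq :
    Module.finrank (MuLine c Kb) RL = Module.finrank (RatFunc ℚ) F0 := by
  rw [show Module.finrank (MuLine c Kb) RL = Module.finrank (RatFunc Kb) FL from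
    RAlgStructure.finrank_mu c Kb FL, (finrank_ratFunc_bar N).2, (finrank_ratFunc_full N).2]

/-- **(S2b), hypotheses-first.** -/
theorem evDiscAtB_discrCInt_ne_zero (t : Kb) (ht : A.valuation t < 1)
    (evD : D →+* Kb)
    (hev : ∀ b : BRing c A, evD (Subring.inclusion hBD b) = (evDiscB c A t ht b : Kb))
    (hgen : ∀ x : integralClosure D RL, ∃ s : D, evD s ≠ 0 ∧
      algebraMap D (integralClosure D RL) s * x ∈
        Submodule.span D (Set.range (kappa N c A D hBD)))
    (hpts : Module.finrank (MuLine c Kb) RL ≤
      Nat.card (SurfaceBAbs.PtsOver (CD := integralClosure D RL) evD)) :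
    evDiscAtB φ A c t ht (discrCInt c V F0) ≠ 0 := by
  classical
  have hcard : Fintype.card (Fin (Module.finrank (RatFunc ℚ) F0)) ≤
      Nat.card (SurfaceBAbs.PtsOver (CD := integralClosure D RL) evD) := by
    rw [Fintype.card_fin, ← finrank_RL_eq N c]
    exact hpts
  have key := SurfaceBAbs.discr_ne_zero_of_points (β := beta c A D hBD)
    (κ := kappa N c A D hBD) evD (basisCInt c V F0) (kappa_algebraMap N c A D hBD) hgen hcard
  intro h0
  apply key
  show evD (Subring.inclusion hBD (bMap c φ V A (DiscRingLocal.mem_comap_iff φ A)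
    (discrCInt c V F0))) = 0
  rw [hev, ← evDiscAtB_eq_comp, h0]
  rfl

end Main

end Fermat.Agent.S18.C.SurfaceBHyp
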