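import Mathlib
import Fermat.Agent.S18.C.SurfaceBHyp
import Fermat.Agent.S18.C.PointsDisc2
import Fermat.Agent.S18.C.RAlgFactors
import Fermat.Agent.S18.C.AbhyankarGen
import Fermat.Agent.S18.C.CoverInst

/-!
# PROJECT H (S18), block C, step (S2b): assembly

`A` a valuation subring of `ℚ̄`, `V = A ∩ ℚ` (a discrete valuation ring), `B_Q = BRing c V`,
`C_Q = CInt c F0 V`, `d = SurfaceFree.discrCInt c V F0 ∈ B_Q`.  For every `t` in the open unit
disc of `A`:  `evDiscAtB φ A c t ht d ≠ 0`  (the second conjunct of
`EvalBridge.isUnit_iff_pointwise_B` for `b := d`), from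

* `hU`   : unramifiedness of the places of the field factors of `R_L = F_L ⊗ ℚ̄(μ)` over `μ = t`
           (`C/UnramFactors`, in the shape consumed by `PointsDisc2.finrank_le_card_algHom`);
* `hgen` : normal base change: the normalisation of `ℚ̄[μ]_(μ - t)` in `R_L` is generated by the
           image of `C_Q` (`C/NormalLink`), in the shape of `PointsDisc2`; `hgen_of_link` converts
           the explicit list form of `C/NormalLink` (iii) into it.
-/

set_option autoImplicit false
set_option linter.style.haveILetI false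
set_option linter.unusedSectionVars false
set_option synthInstance.maxHeartbeats 400000

noncomputable section

namespace Fermat.Agent.S18.C.SurfaceB

open Polynomial TensorProduct ModularCurve AlgebraicCurve IntermediateField
open Fermat.Agent.S24.FF
open Fermat.Agent.S18.C.Defs Fermat.Agent.S18.C.SurfaceDefs Fermat.Agent.S18.C.BRingLocal
open Fermat.Agent.S18.C.DiscRingLocal Fermat.Agent.S18.C.EvalBridge
open Fermat.Agent.S18.C.SurfaceFree Fermat.Agent.S18.C.BaseChangeR
open Fermat.Agent.S18.C.RAlgStructure Fermat.Agent.S18.C.RAlgFactors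
open Fermat.Agent.S18.C.PointsDisc Fermat.Agent.S18.C.PointsDisc2

local notation "Kb" => AlgebraicClosure ℚ

/-! ### `μ` on the `μ`-line -/

section MuLine

variable (c : Cover) (K : Type*) [Field K]

theorem finite_of_adjoin_eq_top {F : Type*} [Field F] [Algebra K F] {x : F} (htop : K⟮x⟯ = ⊤) :
    FiniteDimensional K⟮x⟯ F := by
  refine ⟨⟨{1}, ?_⟩⟩
  rw [eq_top_iff]
  intro y _
  have hy : y ∈ K⟮x⟯ := htop ▸ IntermediateField.mem_top
  rw [Finset.coe_singleton, Submodule.mem_span_singleton]
  refine ⟨⟨y, hy⟩, ?_⟩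
  rw [Algebra.smul_def, mul_one]
  rfl

theorem isFF_mu : IsFF K (MuLine.mu c K) :=
  ⟨CoverInst.transcendental_mu (K := K) c, finite_of_adjoin_eq_top K (CoverInst.adjoin_mu (K := K) c)⟩

theorem aeval_mu (p : K[X]) :
    aeval (MuLine.mu c K) p = MuLine.of c K (algebraMap K[X] (RatFunc K) p) := by
  rw [← RatFunc.aeval_X_left_eq_algebraMap]
  exact Polynomial.aeval_algHom_apply (MuLine.of c K : RatFunc K →ₐ[K] MuLine c K) RatFunc.X p

theorem aeval_mu' (p : K[X]) :
    aeval (MuLine.mu c K) p = algebraMap K[X] (MuLine c K) p := aeval_mu c K p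

end MuLine

/-! ### `B_A ⊆ ℚ̄[μ]_(μ - t)` and the two evaluations agree -/

section BA

variable (c : Cover) {K : Type} [Field K] [IsAlgClosed K] (A : ValuationSubring K) (t : K)
  (ht : A.valuation t < 1)

include ht in
/-- `B_A = A[μ]_(𝔪_A, μ) ⊆ K[μ]_(μ - t)` for `t` in the open unit disc of `A`. -/
theorem BRing_le_fracRing : BRing c A ≤ fracRing K (MuLine.mu c K) t := by
  intro m hm
  rw [mem_BRing] at hm
  obtain ⟨a, s, hs, h⟩ := exists_presentation A ⟨_, hm⟩
  refine ⟨polyIncl A a, polyIncl A s, ?_, ?_⟩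
  · rw [← coe_eval_discPt A t ht]
    have hu := (isUnit_eval_iff A s (discPt_mem A t ht)).mpr hs
    intro h0
    have h0' : s.eval (discPt A t ht) = 0 := Subtype.ext h0
    rw [h0'] at hu
    exact not_isUnit_zero hu
  · rw [aeval_mu, aeval_mu]
    have := congrArg (MuLine.of c K) h
    rwa [map_mul, AlgEquiv.apply_symm_apply] at this

/-- `evFrac` restricted to `B_A` is `evDiscB`. -/
theorem evFrac_inclusion (w : Place K (MuLine c K))
    (hw : w.adicValuation (MuLine.mu c K - algebraMap K (MuLine c K) t) < 1)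
    (b : BRing c A) :
    evFrac (isFF_mu c K) t w hw (Subring.inclusion (BRing_le_fracRing c A t ht) b) =
      (evDiscB c A t ht b : K) := by
  obtain ⟨a, s, hs, h⟩ := exists_presentation A ((toB c A).symm b)
  rw [coe_toB_symm] at h
  have hst : (polyIncl A s).eval t ≠ 0 := by
    rw [← coe_eval_discPt A t ht]
    have hu := (isUnit_eval_iff A s (discPt_mem A t ht)).mpr hs
    intro h0
    have h0' : s.eval (discPt A t ht) = 0 := Subtype.ext h0
    rw [h0'] at hu
    exact not_isUnit_zero hu
  have hb : ((Subring.inclusion (BRing_le_fracRing c A t ht) b : fracRing K (MuLine.mu c K) t) :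
      MuLine c K) * aeval (MuLine.mu c K) (polyIncl A s) =
      aeval (MuLine.mu c K) (polyIncl A a) := by
    rw [aeval_mu, aeval_mu]
    have := congrArg (MuLine.of c K) h
    rwa [map_mul, AlgEquiv.apply_symm_apply] at this
  rw [evFrac_spec (isFF_mu c K) t w hw _ hst hb, div_eq_iff hst]
  have hb' : (b : MuLine c K) * algebraMap K[X] (MuLine c K) (polyIncl A s) =
      algebraMap K[X] (MuLine c K) (polyIncl A a) := by
    rw [← aeval_mu', ← aeval_mu']
    exact hb
  exact (evDiscB_spec c A t ht b _ _ hb').symm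

end BA

/-! ### the assembly -/

section Main

variable (N : ℕ) [NeZero N] (c : Cover) [c.Good ℚ] [c.Good Kb] (A : ValuationSubring Kb)
  [IsDiscreteValuationRing ↥(A.comap (algebraMap ℚ Kb))]

set_option quotPrecheck false in
local notation "φ" => algebraMap ℚ Kb
set_option quotPrecheck false in
local notation "V" => ValuationSubring.comap A (algebraMap ℚ Kb)
set_option quotPrecheck false in
local notation "F0" => ↥(modularFunctionFieldFull N)
set_option quotPrecheck false in
local notation "FL" => ↥(modularFunctionFieldBar N)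
set_option quotPrecheck false in
local notation "RQ" => RAlg c ℚ ↥(modularFunctionFieldFull N)
set_option quotPrecheck false in
local notation "RL" => RAlg c Kb ↥(modularFunctionFieldBar N)
set_option quotPrecheck false in
local notation "μL" => MuLine.mu c Kb

variable (t : Kb) (ht : A.valuation t < 1)

/-- `β : B_Q → ℚ̄[μ]_(μ - t)` -/
def betaFrac : BRing c V →+* fracRing Kb μL t :=
  SurfaceBHyp.beta c A (fracRing Kb μL t) (BRing_le_fracRing c A t ht)

/-- `γ : C_Q → R_L` -/
def gammaR : CInt c F0 V →+* RL := (compRBar N c).comp (CInt c F0 V).val.toRingHom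

theorem gammaR_apply (x : CInt c F0 V) : gammaR N c A x = compRBar N c (x : RQ) := rfl

/-- `ℚ̄` as a `B_Q`-algebra through the evaluation at `μ = t`. -/
@[reducible] def algEv : Algebra (BRing c V) Kb :=
  (A.subtype.comp (evDiscAtB φ A c t ht)).toAlgebra

theorem algebraMap_algEv (b : BRing c V) :
    letI := algEv c A t ht
    algebraMap (BRing c V) Kb b = (evDiscAtB φ A c t ht b : Kb) := rfl

theorem gammaR_algebraMap (b : BRing c V) :
    letI := muAlgebra c Kb FL
    gammaR N c A (algebraMap (BRing c V) (CInt c F0 V) b) =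
      algebraMap (MuLine c Kb) RL ((betaFrac c A t ht b : fracRing Kb μL t) : MuLine c Kb) := by
  letI := muAlgebra c Kb FL
  rw [gammaR_apply]
  show compRBar N c (algebraMap (BRing c V) RQ b) = _
  rw [SurfaceBHyp.compRBar_algebraMap]
  rfl

/-- the generation hypothesis of `PointsDisc2` from the explicit list form of `C/NormalLink`
(iii): `q(μ) * x = ∑ compRBar (c_i) * a_i` with `q(t) ≠ 0`, `c_i ∈ C_Q`, `a_i ∈ ℚ̄`. -/
theorem hgen_of_link
    (hlink : letI := muAlgebra c Kb FL
      ∀ x : RL, IsIntegral (fracRing Kb μL t) x → ∃ q : Kb[X], q.eval t ≠ 0 ∧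
        ∃ l : List (CInt c F0 V × Kb),
          algebraMap (MuLine c Kb) RL (aeval μL q) * x =
            (l.map fun p => compRBar N c (p.1 : RQ) *
              algebraMap (MuLine c Kb) RL (algebraMap Kb (MuLine c Kb) p.2)).sum) :
    letI := muAlgebra c Kb FL
    ∀ (w : Place Kb (MuLine c Kb))
      (hw : w.adicValuation (μL - algebraMap Kb (MuLine c Kb) t) < 1) (x : RL),
      IsIntegral (fracRing Kb μL t) x → ∃ s : fracRing Kb μL t,
        evFrac (isFF_mu c Kb) t w hw s ≠ 0 ∧
          s • x ∈ Submodule.span (fracRing Kb μL t) (Set.range (gammaR N c A)) := by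
  letI := muAlgebra c Kb FL
  intro w hw x hx
  obtain ⟨q, hq, l, hl⟩ := hlink x hx
  refine ⟨⟨aeval μL q, aeval_mem_fracRing q⟩, ?_, ?_⟩
  · rw [evFrac_aeval]
    exact hq
  · have hsx : (⟨aeval μL q, aeval_mem_fracRing q⟩ : fracRing Kb μL t) • x =
        algebraMap (MuLine c Kb) RL (aeval μL q) * x := by
      rw [Algebra.smul_def]
      rfl
    rw [hsx, hl]
    refine list_sum_mem ?_
    intro y hy
    obtain ⟨p, -, rfl⟩ := List.mem_map.mp hy
    have hterm : compRBar N c (p.1 : RQ) *
        algebraMap (MuLine c Kb) RL (algebraMap Kb (MuLine c Kb) p.2) =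
        (⟨algebraMap Kb (MuLine c Kb) p.2, algebraMap_mem_fracRing p.2⟩ : fracRing Kb μL t) •
          gammaR N c A p.1 := by
      rw [Algebra.smul_def, mul_comm]
      rfl
    rw [hterm]
    exact Submodule.smul_mem _ _ (Submodule.subset_span (Set.mem_range_self p.1))

/-- **(S2b), assembly**: the discriminant of `C_Q` over `B_Q` does not vanish at the point `t` of
the open unit disc, given unramifiedness `hU` of the factors of `R_L` over `μ = t` and the normal
base change `hgen`. -/
theorem evDiscAtB_discrCInt_ne_zero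
    [instK : ∀ I : MaximalSpectrum RL, Algebra Kb (Factor c Kb FL I)]
    (htower : ∀ I : MaximalSpectrum RL,
      @IsScalarTower Kb (MuLine c Kb) (Factor c Kb FL I) Algebra.toSMul
        (factorAlgebra c Kb FL I).toSMul (instK I).toSMul)
    (hU : ∀ (I : MaximalSpectrum RL),
      letI := factorField c Kb FL I
      letI := factorAlgebra c Kb FL I
      ∀ v : Place Kb (Factor c Kb FL I),
      0 < v.ord (algebraMap (MuLine c Kb) (Factor c Kb FL I) μL -
        algebraMap Kb (Factor c Kb FL I) t) →
      v.ord (algebraMap (MuLine c Kb) (Factor c Kb FL I) μL -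
        algebraMap Kb (Factor c Kb FL I) t) = 1)
    (hgen : letI := muAlgebra c Kb FL
      ∀ (w : Place Kb (MuLine c Kb))
        (hw : w.adicValuation (μL - algebraMap Kb (MuLine c Kb) t) < 1) (x : RL),
        IsIntegral (fracRing Kb μL t) x → ∃ s : fracRing Kb μL t,
          evFrac (isFF_mu c Kb) t w hw s ≠ 0 ∧
            s • x ∈ Submodule.span (fracRing Kb μL t) (Set.range (gammaR N c A))) :
    evDiscAtB φ A c t ht (discrCInt c V F0) ≠ 0 := by
  classical
  letI := fun I => factorField c Kb FL I
  letI := fun I => factorAlgebra c Kb FL I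
  letI := muAlgebra c Kb FL
  letI := fintypeMaximalSpectrum c Kb FL
  haveI : ∀ I : MaximalSpectrum RL, @IsScalarTower Kb (MuLine c Kb) (Factor c Kb FL I)
      Algebra.toSMul (factorAlgebra c Kb FL I).toSMul (instK I).toSMul := htower
  haveI : ∀ I : MaximalSpectrum RL, Module.Finite (MuLine c Kb) (Factor c Kb FL I) :=
    fun I => factor_finite c Kb FL I
  haveI := finite_CInt c V F0
  letI := algEv c A t ht
  have hmu := isFF_mu c Kb
  have htop : Kb⟮μL⟯ = ⊤ := AbhyankarGen.adjoin_mu_eq_top c Kb
  obtain ⟨w, hw⟩ := exists_place_over hmu (isSeparable_of_adjoin_eq_top htop) t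
  have hβ : ∀ b : BRing c V,
      algebraMap (BRing c V) Kb b = evFrac hmu t w hw (betaFrac c A t ht b) := by
    intro b
    rw [algebraMap_algEv, evDiscAtB_eq_comp]
    exact (evFrac_inclusion c A t ht w hw _).symm
  have hcount : Module.finrank (MuLine c Kb) RL ≤ Nat.card (CInt c F0 V →ₐ[BRing c V] Kb) :=
    finrank_le_card_algHom (ringEquivPi c Kb FL) (fun m => rfl) hmu htop t w hw hU
      (betaFrac c A t ht) hβ (gammaR N c A) (gammaR_algebraMap N c A t ht) (hgen w hw)
  have hcard : Fintype.card (Fin (Module.finrank (RatFunc ℚ) F0)) ≤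
      Nat.card (CInt c F0 V →ₐ[BRing c V] Kb) := by
    rw [Fintype.card_fin, ← SurfaceBHyp.finrank_RL_eq N c]
    exact hcount
  have key := SurfaceBAbs.discr_ne_zero_of_le_card_algHom Kb (basisCInt c V F0) hcard
  intro h0
  apply key
  show ((evDiscAtB φ A c t ht (discrCInt c V F0) : A) : Kb) = 0
  rw [h0]
  rfl

/-- **(S2b)** for all points of the open unit disc at once: the second conjunct of
`EvalBridge.isUnit_iff_pointwise_B` for `b := discrCInt c V F0`. -/
theorem forall_evDiscAtB_discrCInt_ne_zero
    [instK : ∀ I : MaximalSpectrum RL, Algebra Kb (Factor c Kb FL I)]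
    (htower : ∀ I : MaximalSpectrum RL,
      @IsScalarTower Kb (MuLine c Kb) (Factor c Kb FL I) Algebra.toSMul
        (factorAlgebra c Kb FL I).toSMul (instK I).toSMul)
    (hU : ∀ (t : Kb), A.valuation t < 1 → ∀ (I : MaximalSpectrum RL),
      letI := factorField c Kb FL I
      letI := factorAlgebra c Kb FL I
      ∀ v : Place Kb (Factor c Kb FL I),
      0 < v.ord (algebraMap (MuLine c Kb) (Factor c Kb FL I) μL -
        algebraMap Kb (Factor c Kb FL I) t) →
      v.ord (algebraMap (MuLine c Kb) (Factor c Kb FL I) μL -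
        algebraMap Kb (Factor c Kb FL I) t) = 1)
    (hlink : letI := muAlgebra c Kb FL
      ∀ (t : Kb), A.valuation t < 1 → ∀ x : RL, IsIntegral (fracRing Kb μL t) x →
        ∃ q : Kb[X], q.eval t ≠ 0 ∧ ∃ l : List (CInt c F0 V × Kb),
          algebraMap (MuLine c Kb) RL (aeval μL q) * x =
            (l.map fun p => compRBar N c (p.1 : RQ) *
              algebraMap (MuLine c Kb) RL (algebraMap Kb (MuLine c Kb) p.2)).sum) :
    ∀ (t : Kb) (ht : A.valuation t < 1), evDiscAtB φ A c t ht (discrCInt c V F0) ≠ 0 :=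
  fun t ht => evDiscAtB_discrCInt_ne_zero N c A t ht htower (hU t ht)
    (hgen_of_link N c A t (hlink t ht))

end Main

end Fermat.Agent.S18.C.SurfaceB
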