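import Mathlib

/-!
# PROJECT H (S18), block C, step (S2b-1): `K0(X) ⊗[K0] L ≃ L(X)` for `L / K0` algebraic

Mathlib-only, and INSTANCE-ROBUST: `K0 → L` fields, `A` ANY fraction field of `K0[X]`
(`RatFunc K0`, `MuLine c K0`, ...) with ANY `K0`-algebra structure (so that for `K0 = ℚ` the
instance `DivisionRing.toRatAlgebra` found by instance search is allowed), `B` ANY fraction field of
`L[X]`, `φ : A →+* B` ANY ring homomorphism extending the coefficients
(`hφ : φ (algebraMap p) = algebraMap (p.map (algebraMap K0 L))`; e.g. `BaseChangeR.ratMap K0 L` with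
`BaseChangeR.ratMap_algebraMap`, `BaseChangeR.muMap`, `DiscRingLocal.ratMap`).

* `sum_eq_zero_imp` : constants which are linearly independent over `K0` stay linearly independent
  over `K0(X)`;
* `injective_of_tmul`, `surjective_of_tmul`, `bijective_of_tmul` : ANY ring homomorphism
  `Θ : A ⊗[K0] L →+* B` with `Θ (f ⊗ₜ a) = φ f * algebraMap L[X] B (C a)` is injective, and
  bijective if `L / K0` is algebraic;
* `ratTensorHom φ hφ : A ⊗[K0] L →+* B`, `ratTensorHom_tmul` (needs `IsScalarTower K0 K0[X] A`);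
* `ratTensorEquiv φ hφ : A ⊗[K0] L ≃+* B`, `ratTensorEquiv_tmul`;
* `ratTensorEquivLeft halg : A ⊗[K0] L ≃ₐ[A] B` for any algebra structure `[Algebra A B]` extending
  the coefficients, `ratTensorEquivLeft_tmul`;
* `isAlgebraic_algebraicClosure_rat` : the instance for `ℚ → ℚ̄`.
-/

set_option autoImplicit false

noncomputable section

namespace Fermat.Agent.S18.C.RatFuncTensor

open Polynomial TensorProduct

variable {K0 L A B : Type*} [Field K0] [Field L] [Field A] [Field B] [Algebra K0 L]
  [Algebra K0[X] A] [IsFractionRing K0[X] A] [Algebra L[X] B] [IsFractionRing L[X] B]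

section Generic

variable (φ : A →+* B)
  (hφ : ∀ p : K0[X], φ (algebraMap K0[X] A p) = algebraMap L[X] B (p.map (algebraMap K0 L)))

include hφ

/-- Constants which are linearly independent over `K0` stay linearly independent over `K0(X)`. -/
theorem sum_eq_zero_imp {ι : Type*} (b : ι → L) (hb : LinearIndependent K0 b) (s : Finset ι)
    (f : ι → A) (h : ∑ i ∈ s, φ (f i) * algebraMap L[X] B (C (b i)) = 0) : ∀ i ∈ s, f i = 0 := by
  classical
  obtain ⟨d, hd⟩ := IsLocalization.exist_integer_multiples (nonZeroDivisors K0[X]) s f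
  choose! p hp using hd
  have hd0 : algebraMap K0[X] A (d : K0[X]) ≠ 0 :=
    (map_ne_zero_iff _ (IsFractionRing.injective K0[X] A)).mpr (nonZeroDivisors.ne_zero d.2)
  have hp' : ∀ i ∈ s, algebraMap K0[X] A (p i) = algebraMap K0[X] A (d : K0[X]) * f i := by
    intro i hi
    rw [hp i hi, Algebra.smul_def]
  -- the polynomial identity
  have hpoly : ∑ i ∈ s, (p i).map (algebraMap K0 L) * C (b i) = 0 := by
    apply IsFractionRing.injective L[X] B
    rw [map_sum, map_zero]
    have h1 : ∑ i ∈ s, φ (algebraMap K0[X] A (d : K0[X])) *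
        (φ (f i) * algebraMap L[X] B (C (b i))) = 0 := by
      rw [← Finset.mul_sum, h, mul_zero]
    rw [← h1]
    refine Finset.sum_congr rfl fun i hi => ?_
    rw [map_mul, ← hφ, hp' i hi, map_mul, mul_assoc]
  -- coefficientwise
  have hcoeff : ∀ i ∈ s, p i = 0 := by
    intro i hi
    ext n
    have hn := congrArg (fun q : L[X] => q.coeff n) hpoly
    simp only [Polynomial.finsetSum_coeff, Polynomial.coeff_mul_C, Polynomial.coeff_map,
      Polynomial.coeff_zero] at hn
    have hn' : ∑ j ∈ s, (p j).coeff n • b j = 0 := by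
      rw [← hn]
      refine Finset.sum_congr rfl fun j _ => ?_
      rw [Algebra.smul_def]
    rw [Polynomial.coeff_zero]
    exact linearIndependent_iff'.mp hb s (fun j => (p j).coeff n) hn' i hi
  intro i hi
  have h2 := hp' i hi
  rw [hcoeff i hi, map_zero] at h2
  exact (mul_eq_zero.mp h2.symm).resolve_left hd0

variable [Algebra K0 A] (Θ : A ⊗[K0] L →+* B)
  (hΘ : ∀ (f : A) (a : L), Θ (f ⊗ₜ[K0] a) = φ f * algebraMap L[X] B (C a))

include hΘ

/-- `K0(X) ⊗[K0] L → L(X)` is injective. -/
theorem injective_of_tmul : Function.Injective Θ := by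
  classical
  rw [injective_iff_map_eq_zero]
  intro z hz
  let bL := Module.Basis.ofVectorSpace K0 L
  let e := TensorProduct.equivFinsuppOfBasisRight (M := A) bL
  have hz' : z = (e z).sum fun i m => m ⊗ₜ[K0] bL i := by
    rw [← TensorProduct.equivFinsuppOfBasisRight_symm_apply, LinearEquiv.symm_apply_apply]
  have h0 : ∀ i ∈ (e z).support, (e z) i = 0 := by
    apply sum_eq_zero_imp φ hφ bL bL.linearIndependent
    rw [hz', Finsupp.sum, map_sum] at hz
    rw [← hz]
    exact Finset.sum_congr rfl fun i _ => (hΘ _ _).symm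
  have h1 : e z = 0 := by
    ext i
    by_cases hi : i ∈ (e z).support
    · exact h0 i hi
    · exact Finsupp.notMem_support_iff.mp hi
  exact e.map_eq_zero_iff.mp h1

omit [IsFractionRing K0[X] A] [IsFractionRing L[X] B] in
/-- polynomials over `L` are in the image of `K0(X) ⊗[K0] L → L(X)` -/
theorem exists_eq_algebraMap (p : L[X]) : ∃ t, Θ t = algebraMap L[X] B p := by
  induction p using Polynomial.induction_on' with
  | add p q hp hq =>
    obtain ⟨t, ht⟩ := hp
    obtain ⟨u, hu⟩ := hq
    exact ⟨t + u, by rw [map_add, ht, hu, map_add]⟩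
  | monomial n a =>
    refine ⟨algebraMap K0[X] A (X ^ n) ⊗ₜ[K0] a, ?_⟩
    rw [hΘ, hφ, Polynomial.map_pow, Polynomial.map_X, ← map_mul,
      ← Polynomial.C_mul_X_pow_eq_monomial, mul_comm]

/-- `K0(X) ⊗[K0] L → L(X)` is surjective if `L / K0` is algebraic. -/
theorem surjective_of_tmul [Algebra.IsAlgebraic K0 L] : Function.Surjective Θ := by
  have hinj := injective_of_tmul φ hφ Θ hΘ
  have : IsDomain (A ⊗[K0] L) := hinj.isDomain Θ
  have hfield : IsField (A ⊗[K0] L) :=
    isField_of_isIntegral_of_isField' (R := A) (Field.toIsField _)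
  intro g
  obtain ⟨pn, pd, hpd, rfl⟩ := IsFractionRing.div_surjective L[X] g
  obtain ⟨tp, htp⟩ := exists_eq_algebraMap φ hφ Θ hΘ pn
  obtain ⟨tq, htq⟩ := exists_eq_algebraMap φ hφ Θ hΘ pd
  have hq0 : algebraMap L[X] B pd ≠ 0 :=
    (map_ne_zero_iff _ (IsFractionRing.injective L[X] B)).mpr (nonZeroDivisors.ne_zero hpd)
  have htq0 : tq ≠ 0 := by
    rintro rfl
    rw [map_zero] at htq
    exact hq0 htq.symm
  obtain ⟨u, hu⟩ := hfield.mul_inv_cancel htq0
  refine ⟨tp * u, ?_⟩
  have hΘu : Θ u = (algebraMap L[X] B pd)⁻¹ := by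
    apply eq_inv_of_mul_eq_one_right
    rw [← htq, ← map_mul, hu, map_one]
  rw [map_mul, htp, hΘu, ← div_eq_mul_inv]

/-- **`K0(X) ⊗[K0] L → L(X)` is bijective for `L / K0` algebraic.** -/
theorem bijective_of_tmul [Algebra.IsAlgebraic K0 L] : Function.Bijective Θ :=
  ⟨injective_of_tmul φ hφ Θ hΘ, surjective_of_tmul φ hφ Θ hΘ⟩

end Generic

section Canonical

variable [Algebra K0 A] [IsScalarTower K0 K0[X] A] (φ : A →+* B)
  (hφ : ∀ p : K0[X], φ (algebraMap K0[X] A p) = algebraMap L[X] B (p.map (algebraMap K0 L)))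

/-- the `K0`-algebra structure on `B` through `K0 → L → L[X] → B` -/
@[reducible] def algConst (K0 L B : Type*) [Field K0] [Field L] [Field B] [Algebra K0 L]
    [Algebra L[X] B] : Algebra K0 B :=
  ((algebraMap L[X] B).comp ((C : L →+* L[X]).comp (algebraMap K0 L))).toAlgebra

/-- the natural map `K0(X) ⊗[K0] L → L(X)`, `f ⊗ a ↦ φ f * a` -/
def ratTensorHom : A ⊗[K0] L →+* B :=
  letI : Algebra K0 B := algConst K0 L B
  (Algebra.TensorProduct.productMap
    ({ φ with
        commutes' := fun r => by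
          show φ (algebraMap K0 A r) = algebraMap L[X] B (C (algebraMap K0 L r))
          rw [IsScalarTower.algebraMap_apply K0 K0[X] A, hφ, Polynomial.algebraMap_apply,
            Polynomial.map_C, Algebra.algebraMap_self, RingHom.id_apply] } : A →ₐ[K0] B)
    ({ (algebraMap L[X] B).comp (C : L →+* L[X]) with
        commutes' := fun _ => rfl } : L →ₐ[K0] B)).toRingHom

omit [IsFractionRing K0[X] A] [IsFractionRing L[X] B] in
theorem ratTensorHom_tmul (f : A) (a : L) :
    ratTensorHom φ hφ (f ⊗ₜ[K0] a) = φ f * algebraMap L[X] B (C a) := by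
  let _ : Algebra K0 B := algConst K0 L B
  exact Algebra.TensorProduct.productMap_apply_tmul _ _ f a

theorem ratTensorHom_bijective [Algebra.IsAlgebraic K0 L] :
    Function.Bijective (ratTensorHom φ hφ) :=
  bijective_of_tmul φ hφ (ratTensorHom φ hφ) (ratTensorHom_tmul φ hφ)

variable [Algebra.IsAlgebraic K0 L]

/-- **`K0(X) ⊗[K0] L ≃ L(X)`** for `L / K0` algebraic. -/
def ratTensorEquiv : A ⊗[K0] L ≃+* B :=
  RingEquiv.ofBijective (ratTensorHom φ hφ) (ratTensorHom_bijective φ hφ)

@[simp]
theorem ratTensorEquiv_tmul (f : A) (a : L) :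
    ratTensorEquiv φ hφ (f ⊗ₜ[K0] a) = φ f * algebraMap L[X] B (C a) :=
  ratTensorHom_tmul φ hφ f a

theorem ratTensorEquiv_tmul_one (f : A) : ratTensorEquiv φ hφ (f ⊗ₜ[K0] (1 : L)) = φ f := by
  rw [ratTensorEquiv_tmul, map_one, map_one, mul_one]

theorem ratTensorEquiv_one_tmul (a : L) :
    ratTensorEquiv φ hφ ((1 : A) ⊗ₜ[K0] a) = algebraMap L[X] B (C a) := by
  rw [ratTensorEquiv_tmul, map_one, one_mul]

end Canonical

section Left

variable [Algebra K0 A] [IsScalarTower K0 K0[X] A] [Algebra.IsAlgebraic K0 L] [Algebra A B]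
  (halg : ∀ p : K0[X], algebraMap A B (algebraMap K0[X] A p) =
    algebraMap L[X] B (p.map (algebraMap K0 L)))

/-- **`K0(X) ⊗[K0] L ≃ L(X)` as `K0(X)`-algebras**, for ANY `K0(X)`-algebra structure on `L(X)`
extending the coefficients. -/
def ratTensorEquivLeft : A ⊗[K0] L ≃ₐ[A] B :=
  AlgEquiv.ofRingEquiv (f := ratTensorEquiv (algebraMap A B) halg) (by
    intro r
    rw [Algebra.TensorProduct.algebraMap_apply, Algebra.algebraMap_self, RingHom.id_apply]
    exact ratTensorEquiv_tmul_one _ halg r)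

@[simp]
theorem ratTensorEquivLeft_tmul (f : A) (a : L) :
    ratTensorEquivLeft halg (f ⊗ₜ[K0] a) = algebraMap A B f * algebraMap L[X] B (C a) :=
  ratTensorEquiv_tmul _ halg f a

end Left

/-! ### the instance `ℚ → ℚ̄` -/

/-- `ℚ̄ / ℚ` is algebraic (for the `ℚ`-algebra structure found by instance search, which is
`DivisionRing.toRatAlgebra`, not `AlgebraicClosure.instAlgebra`) -/
theorem isAlgebraic_algebraicClosure_rat : Algebra.IsAlgebraic ℚ (AlgebraicClosure ℚ) :=
  AlgebraicClosure.isAlgebraic ℚ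

end Fermat.Agent.S18.C.RatFuncTensor
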