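import Fermat.Agent.S18.C.NormalLink
import Fermat.Agent.S18.C.RatFuncTensor

/-!
# PROJECT H (S18), block C, (S2b-2) closed: `NormalLink` without hypothesis (helper13)

`RatFuncTensor.bijective_of_tmul` (helper21, (S2b-1)) discharges the hypothesis `RatTensorBij` of
`C/NormalLink.lean`:

* `ratTensorBij c K L : RatTensorBij c K L` for `L / K` algebraic;
* `theta_bijectiveBar`, `exists_list_of_isIntegral_polyBar'`,
  `exists_list_of_isIntegral_fracRingBar'`, `ringHom_ext_fracRingBar'` : the `ℚ → ℚ̄` statements of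
  `NormalLink` with no hypothesis left.
-/

set_option autoImplicit false
set_option linter.unusedSectionVars false

noncomputable section

namespace Fermat.Agent.S18.C.NormalLink

open Polynomial TensorProduct
open Fermat.Agent.S18.C.Defs Fermat.Agent.S18.C.SurfaceDefs Fermat.Agent.S18.C.BaseChangeR
  Fermat.Agent.S18.C.PointsDisc

section Generic

variable (c : Cover) (K L : Type*) [Field K] [Field L] [Algebra K L]

theorem muMap_algebraMap_poly (p : K[X]) :
    muMap c K L (algebraMap K[X] (MuLine c K) p) =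
      algebraMap L[X] (MuLine c L) (p.map (algebraMap K L)) := by
  have h : algebraMap K[X] (MuLine c K) p = MuLine.of c K (algebraMap K[X] (RatFunc K) p) := rfl
  rw [h, muMap_of, ratMap_algebraMap]
  rfl

/-- **(S2b-1) in `μ`-line form**: `K(μ) ⊗[K] L → L(μ)` is bijective for `L / K` algebraic. -/
theorem ratTensorBij [Algebra.IsAlgebraic K L] : RatTensorBij c K L := by
  refine RatFuncTensor.bijective_of_tmul (A := MuLine c K) (B := MuLine c L) (muMap c K L)
    (muMap_algebraMap_poly c K L)
    (tensorHom (muMap c K L) (muMap_algebraMap_const c K L)) (fun f a => ?_)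
  rw [tensorHom_tmul, ← Polynomial.algebraMap_eq,
    ← IsScalarTower.algebraMap_apply L L[X] (MuLine c L)]

end Generic

section Instances

open ModularCurve ModularCurve.IgusaScheme

local notation "Kb" => AlgebraicClosure ℚ

variable (N : ℕ) [NeZero N] (c : Cover) [c.Good ℚ] [c.Good Kb] (V : ValuationSubring ℚ)

theorem ratTensorBijBar : RatTensorBij c ℚ Kb :=
  haveI := RatFuncTensor.isAlgebraic_algebraicClosure_rat
  ratTensorBij c ℚ Kb

/-- **(T)** `Θ : R_ℚ ⊗[ℚ] ℚ̄ → R_L`, `r ⊗ a ↦ compRBar r * a` is bijective. -/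
theorem theta_bijectiveBar :
    letI := algKR0 c ℚ ↥(modularFunctionFieldFull N)
    Function.Bijective
      (theta c ℚ Kb (Forms.embBar N) (embBar_algebraMap_ratFunc N)) :=
  haveI := (finrank_ratFunc_full N).1
  theta_bijective c ℚ Kb (Forms.embBar N) (embBar_algebraMap_ratFunc N)
    (Module.finBasis (RatFunc ℚ) ↥(modularFunctionFieldFull N))
    (exists_basis_bar N (Module.finBasis (RatFunc ℚ) ↥(modularFunctionFieldFull N))).choose
    (exists_basis_bar N (Module.finBasis (RatFunc ℚ) ↥(modularFunctionFieldFull N))).choose_spec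
    (ratTensorBijBar c)

/-- **(ii)**: every element of `R_L` integral over `ℚ̄[μ]` is a `ℚ̄`-combination of images of
elements of `C_ℚ = CInt c F0 V`. -/
theorem exists_list_of_isIntegral_polyBar'
    {x : RAlg c Kb ↥(modularFunctionFieldBar N)}
    (hx : (polyR c Kb (F' := ↥(modularFunctionFieldBar N))).IsIntegralElem x) :
    ∃ l : List (CInt c ↥(modularFunctionFieldFull N) V × Kb),
      x = (l.map fun p => compRBar N c (p.1 : RAlg c ℚ ↥(modularFunctionFieldFull N)) *
        constR c Kb p.2).sum :=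
  exists_list_of_isIntegral_polyBar N c V (ratTensorBijBar c) hx

/-- **(iii)**: every element of `R_L` integral over `D = ℚ̄[μ]_(μ - t)` is, up to a denominator
`q(μ)` with `q(t) ≠ 0`, a `ℚ̄`-combination of images of elements of `C_ℚ`. -/
theorem exists_list_of_isIntegral_fracRingBar' (t : Kb)
    {x : RAlg c Kb ↥(modularFunctionFieldBar N)}
    (hx : IsIntegral (fracRing Kb (MuLine.mu c Kb) t) x) :
    ∃ q : Kb[X], q.eval t ≠ 0 ∧ ∃ l : List (CInt c ↥(modularFunctionFieldFull N) V × Kb),
      algebraMap (MuLine c Kb) (RAlg c Kb ↥(modularFunctionFieldBar N))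
          (Polynomial.aeval (MuLine.mu c Kb) q) * x =
        (l.map fun p => compRBar N c (p.1 : RAlg c ℚ ↥(modularFunctionFieldFull N)) *
          constR c Kb p.2).sum :=
  exists_list_of_isIntegral_fracRingBar N c V (ratTensorBijBar c) t hx

/-- **(iv)**: a point of the normalisation `C_D` of `D = ℚ̄[μ]_(μ - t)` in `R_L` is determined by
its values on `D` and on the image of `C_ℚ`. -/
theorem ringHom_ext_fracRingBar' (t : Kb)
    (hC : ∀ cc : CInt c ↥(modularFunctionFieldFull N) V,
      IsIntegral (fracRing Kb (MuLine.mu c Kb) t)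
        (compRBar N c (cc : RAlg c ℚ ↥(modularFunctionFieldFull N))))
    {E : Type*} [CommRing E] [IsDomain E]
    (ψ ψ' : integralClosure (fracRing Kb (MuLine.mu c Kb) t)
      (RAlg c Kb ↥(modularFunctionFieldBar N)) →+* E)
    (h1 : ∀ d : fracRing Kb (MuLine.mu c Kb) t, ψ (algebraMap _ _ d) = ψ' (algebraMap _ _ d))
    (h2 : ∀ cc : CInt c ↥(modularFunctionFieldFull N) V,
      ψ ⟨compRBar N c (cc : RAlg c ℚ ↥(modularFunctionFieldFull N)), hC cc⟩ =
        ψ' ⟨compRBar N c (cc : RAlg c ℚ ↥(modularFunctionFieldFull N)), hC cc⟩)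
    (h0 : ∀ q : Kb[X], q.eval t ≠ 0 →
      ψ (algebraMap _ _ (⟨Polynomial.aeval (MuLine.mu c Kb) q, aeval_mem_fracRing q⟩ :
        fracRing Kb (MuLine.mu c Kb) t)) ≠ 0) : ψ = ψ' :=
  ringHom_ext_fracRingBar N c V (ratTensorBijBar c) t hC ψ ψ' h1 h2 h0

end Instances

end Fermat.Agent.S18.C.NormalLink
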