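import Fermat.Agent.S18.C.SurfaceBHyp
import Fermat.Agent.S18.C.NormalLinkBar

/-!
# PROJECT H (S18), block C, (S2b): the hypothesis `hgen` of `SurfaceBHyp` (helper13)

For `D = ℚ̄[μ]_(μ - t) = PointsDisc.fracRing ℚ̄ μ t` the normalisation of `D` in `R_L` is generated
over `D`, up to denominators not vanishing at `t`, by the image of `C_ℚ`:

* `hgen_fracRing` : the hypothesis `hgen` of `SurfaceBHyp.evDiscAtB_discrCInt_ne_zero`, verbatim;
* `hgen_fracRing_smul` : the same in the shape of `PointsDisc2.finrank_le_card_algHom`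
  (`s • x ∈ span D (range γ)` for `x : R_L` integral over `D`).
-/

set_option autoImplicit false
set_option linter.unusedSectionVars false

noncomputable section

namespace Fermat.Agent.S18.C.SurfaceBGen

open Polynomial TensorProduct ModularCurve
open Fermat.Agent.S18.C.Defs Fermat.Agent.S18.C.SurfaceDefs Fermat.Agent.S18.C.BaseChangeR
  Fermat.Agent.S18.C.PointsDisc Fermat.Agent.S18.C.SurfaceBHyp Fermat.Agent.S18.C.NormalLink

local notation "Kb" => AlgebraicClosure ℚ

variable (N : ℕ) [NeZero N] (c : Cover) [c.Good ℚ] [c.Good Kb] (A : ValuationSubring Kb)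
  (t : Kb)

/-- the constants of `ℚ̄` in `D` -/
def constD (a : Kb) : fracRing Kb (MuLine.mu c Kb) t :=
  ⟨algebraMap Kb (MuLine c Kb) a, algebraMap_mem_fracRing a⟩

/-- the denominators `q(μ)`, `q(t) ≠ 0`, in `D` -/
def denD (q : Kb[X]) : fracRing Kb (MuLine.mu c Kb) t :=
  ⟨Polynomial.aeval (MuLine.mu c Kb) q, aeval_mem_fracRing q⟩

/-- **The hypothesis `hgen` of `SurfaceBHyp.evDiscAtB_discrCInt_ne_zero`** for
`D = ℚ̄[μ]_(μ - t)`: only the non-vanishing of `evD` on the denominators is needed. -/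
theorem hgen_fracRing (hBD : BRing c A ≤ fracRing Kb (MuLine.mu c Kb) t)
    (evD : fracRing Kb (MuLine.mu c Kb) t →+* Kb)
    (hevq : ∀ q : Kb[X], q.eval t ≠ 0 → evD (denD c t q) ≠ 0) :
    ∀ x : integralClosure (fracRing Kb (MuLine.mu c Kb) t)
        (RAlg c Kb ↥(modularFunctionFieldBar N)),
      ∃ s : fracRing Kb (MuLine.mu c Kb) t, evD s ≠ 0 ∧
        algebraMap (fracRing Kb (MuLine.mu c Kb) t)
          (integralClosure (fracRing Kb (MuLine.mu c Kb) t)
            (RAlg c Kb ↥(modularFunctionFieldBar N))) s * x ∈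
        Submodule.span (fracRing Kb (MuLine.mu c Kb) t)
          (Set.range (kappa N c A (fracRing Kb (MuLine.mu c Kb) t) hBD)) := by
  intro x
  obtain ⟨q, hq, l, hl⟩ := exists_list_of_isIntegral_fracRingBar' N c
    (A.comap (algebraMap ℚ Kb)) t x.2
  refine ⟨denD c t q, hevq q hq, ?_⟩
  have hy : (l.map fun p => constD c t p.2 •
      kappa N c A (fracRing Kb (MuLine.mu c Kb) t) hBD p.1).sum ∈
      Submodule.span (fracRing Kb (MuLine.mu c Kb) t)
        (Set.range (kappa N c A (fracRing Kb (MuLine.mu c Kb) t) hBD)) := by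
    refine list_sum_mem fun y hy => ?_
    obtain ⟨p, -, rfl⟩ := List.mem_map.mp hy
    exact Submodule.smul_mem _ _ (Submodule.subset_span ⟨p.1, rfl⟩)
  have heq : algebraMap (fracRing Kb (MuLine.mu c Kb) t)
      (integralClosure (fracRing Kb (MuLine.mu c Kb) t)
        (RAlg c Kb ↥(modularFunctionFieldBar N))) (denD c t q) * x =
      (l.map fun p => constD c t p.2 •
        kappa N c A (fracRing Kb (MuLine.mu c Kb) t) hBD p.1).sum := by
    apply Subtype.ext
    have hval : ∀ z : integralClosure (fracRing Kb (MuLine.mu c Kb) t)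
        (RAlg c Kb ↥(modularFunctionFieldBar N)),
        (z : RAlg c Kb ↥(modularFunctionFieldBar N)) =
          (integralClosure (fracRing Kb (MuLine.mu c Kb) t)
            (RAlg c Kb ↥(modularFunctionFieldBar N))).val z := fun _ => rfl
    rw [hval, hval, map_mul, map_list_sum, List.map_map]
    refine Eq.trans hl ?_
    congr 1
    refine List.map_congr_left fun p _ => ?_
    show _ = ((constD c t p.2 • kappa N c A (fracRing Kb (MuLine.mu c Kb) t) hBD p.1 :
      integralClosure (fracRing Kb (MuLine.mu c Kb) t)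
        (RAlg c Kb ↥(modularFunctionFieldBar N))) : RAlg c Kb ↥(modularFunctionFieldBar N))
    rw [Algebra.smul_def, mul_comm]
    rfl
  rw [heq]
  exact hy

/-- The same in the shape of `PointsDisc2.finrank_le_card_algHom`: for `x : R_L` integral over
`D`, `s • x` lies in the `D`-span of the image of `C_ℚ` (`γ = compRBar ∘ coe`). -/
theorem hgen_fracRing_smul
    (evD : fracRing Kb (MuLine.mu c Kb) t →+* Kb)
    (hevq : ∀ q : Kb[X], q.eval t ≠ 0 → evD (denD c t q) ≠ 0)
    (x : RAlg c Kb ↥(modularFunctionFieldBar N))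
    (hx : IsIntegral (fracRing Kb (MuLine.mu c Kb) t) x) :
    ∃ s : fracRing Kb (MuLine.mu c Kb) t, evD s ≠ 0 ∧
      s • x ∈ Submodule.span (fracRing Kb (MuLine.mu c Kb) t)
        (Set.range ((compRBar N c).comp
          (CInt c ↥(modularFunctionFieldFull N) (A.comap (algebraMap ℚ Kb))).val.toRingHom)) := by
  obtain ⟨q, hq, l, hl⟩ := exists_list_of_isIntegral_fracRingBar' N c
    (A.comap (algebraMap ℚ Kb)) t hx
  refine ⟨denD c t q, hevq q hq, ?_⟩
  have hsm : denD c t q • x =
      algebraMap (MuLine c Kb) (RAlg c Kb ↥(modularFunctionFieldBar N))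
        (Polynomial.aeval (MuLine.mu c Kb) q) * x := by
    rw [Algebra.smul_def]
    rfl
  rw [hsm, hl]
  refine list_sum_mem fun y hy => ?_
  obtain ⟨p, -, rfl⟩ := List.mem_map.mp hy
  have : compRBar N c (p.1 : RAlg c ℚ ↥(modularFunctionFieldFull N)) * constR c Kb p.2 =
      constD c t p.2 • ((compRBar N c).comp
        (CInt c ↥(modularFunctionFieldFull N) (A.comap (algebraMap ℚ Kb))).val.toRingHom) p.1 := by
    rw [Algebra.smul_def, mul_comm]
    rfl
  rw [this]
  exact Submodule.smul_mem _ _ (Submodule.subset_span ⟨p.1, rfl⟩)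

end Fermat.Agent.S18.C.SurfaceBGen
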