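/-
PROJECT H (S18), block C (helper3): the hypothesis `hQc : Q.eval μ~ ≠ 0` of
`C/UnramDisc.lean` / `C/UnramDiscFinal.lean` at the points `μ~` of the open unit disc
(`A.valuation μ~ < 1`) for the two covers `hesse`, `legendre` of `C/CoverInst.lean`.

A polynomial `s ∈ A[X]` whose constant coefficient is a unit of `A` is a unit of `A` at every point
of the open disc; `hesse.QK` has constant coefficient `-1` and `legendre.QK` has constant
coefficient `4 = 1 + 3`, a unit as soon as `3 ∈ 𝔪_A`.
-/
import Mathlib
import Fermat.Agent.S18.C.CoverInst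

set_option autoImplicit false

namespace Fermat.Agent.S18.C.UnramDenom

open Polynomial Fermat.Agent.S18.C.Defs Fermat.Agent.S18.C.CoverInst

variable {K : Type*} [Field K] (A : ValuationSubring K)

theorem eval_mem {s : K[X]} (hs : s ∈ polyV A) {x : K} (hx : x ∈ A) : s.eval x ∈ A := by
  rw [eval_eq_sum_range]
  refine Subring.sum_mem _ fun n _ => ?_
  exact A.mul_mem _ _ ((mem_polyV _).mp hs n) (A.toSubring.pow_mem hx n)

/-- a polynomial over `A` with unit constant coefficient has unit values on the open unit disc -/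
theorem valuation_eval_eq_one {s : K[X]} (hs : s ∈ polyV A)
    (hs0 : A.valuation (s.coeff 0) = 1) {x : K} (hx : A.valuation x < 1) :
    A.valuation (s.eval x) = 1 := by
  have hdiv : s.divX ∈ polyV A := by
    rw [mem_polyV]
    intro n
    rw [coeff_divX]
    exact (mem_polyV _).mp hs (n + 1)
  have hxA : x ∈ A := (A.valuation_le_one_iff x).mp hx.le
  have h1 : A.valuation (s.divX.eval x) ≤ 1 :=
    (A.valuation_le_one_iff _).mpr (eval_mem A hdiv hxA)
  have h2 : s.eval x = s.coeff 0 + x * s.divX.eval x := by
    conv_lhs => rw [← divX_mul_X_add s]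
    rw [eval_add, eval_mul, eval_X, eval_C]
    ring
  have h3 : A.valuation (x * s.divX.eval x) < A.valuation (s.coeff 0) := by
    rw [hs0, map_mul]
    calc A.valuation x * A.valuation (s.divX.eval x) ≤ A.valuation x * 1 :=
          mul_le_mul_right h1 _
      _ < 1 := by rwa [mul_one]
  rw [h2, Valuation.map_add_eq_of_lt_left _ h3, hs0]

theorem eval_ne_zero {s : K[X]} (hs : s ∈ polyV A)
    (hs0 : A.valuation (s.coeff 0) = 1) {x : K} (hx : A.valuation x < 1) : s.eval x ≠ 0 := by
  intro h
  have := valuation_eval_eq_one A hs hs0 hx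
  rw [h, map_zero] at this
  exact zero_ne_one this

theorem QK_mem_polyV (c : Cover) : c.QK K ∈ polyV A :=
  DiscSubst.map_int_mem_polyV A c.Q

theorem PK_mem_polyV (c : Cover) : c.PK K ∈ polyV A :=
  DiscSubst.map_int_mem_polyV A c.P

/-- general form: the denominator of a cover whose constant coefficient is a unit of `A` does not
vanish on the open unit disc -/
theorem QK_eval_ne_zero (c : Cover) (h0 : A.valuation ((c.QK K).coeff 0) = 1) {x : K}
    (hx : A.valuation x < 1) : (c.QK K).eval x ≠ 0 :=
  eval_ne_zero A (QK_mem_polyV A c) h0 hx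

theorem valuation_hesse_QK_coeff_zero : A.valuation ((hesse.QK K).coeff 0) = 1 := by
  rw [hesse_QK_coeff_zero, Valuation.map_neg, map_one]

theorem valuation_legendre_QK_coeff_zero (h3 : A.valuation 3 < 1) :
    A.valuation ((legendre.QK K).coeff 0) = 1 := by
  rw [legendre_QK_coeff_zero]
  have h4 : (4 : K) = 1 + 3 := by norm_num
  have h1 : A.valuation (3 : K) < A.valuation (1 : K) := by rwa [map_one]
  rw [h4, Valuation.map_add_eq_of_lt_left _ h1, map_one]

/-- **Hesse**: `Q(μ~) ≠ 0` on the open unit disc (any valuation subring). -/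
theorem hesse_QK_eval_ne_zero {x : K} (hx : A.valuation x < 1) : (hesse.QK K).eval x ≠ 0 :=
  QK_eval_ne_zero A hesse (valuation_hesse_QK_coeff_zero A) hx

/-- the value is even a unit of `A` -/
theorem valuation_hesse_QK_eval {x : K} (hx : A.valuation x < 1) :
    A.valuation ((hesse.QK K).eval x) = 1 :=
  valuation_eval_eq_one A (QK_mem_polyV A hesse) (valuation_hesse_QK_coeff_zero A) hx

/-- **Legendre** (recentred): `Q(μ~) ≠ 0` on the open unit disc when `3 ∈ 𝔪_A`. -/
theorem legendre_QK_eval_ne_zero (h3 : A.valuation 3 < 1) {x : K} (hx : A.valuation x < 1) :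
    (legendre.QK K).eval x ≠ 0 :=
  QK_eval_ne_zero A legendre (valuation_legendre_QK_coeff_zero A h3) hx

theorem valuation_legendre_QK_eval (h3 : A.valuation 3 < 1) {x : K} (hx : A.valuation x < 1) :
    A.valuation ((legendre.QK K).eval x) = 1 :=
  valuation_eval_eq_one A (QK_mem_polyV A legendre) (valuation_legendre_QK_coeff_zero A h3) hx

end Fermat.Agent.S18.C.UnramDenom
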