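/-
PROJECT H (S18), block C, slice H-C7d part 2 (helper3): `C/UnramDisc` instantiated at
`F = F_L = modularFunctionFieldBar N`, `x = jgen N`, with the ramification data of `C/S24Ram`.

For a field `Φ` over `Kb = ℚ̄` with `[Algebra F_L Φ]` (a field factor of `F_L ⊗ Kb(μ)`), `μ : Φ` with
`jgen · Q(μ) = P(μ)`, a point `c` of the `μ`-line with `Q(c) ≠ 0`, the `μ`-side multiplicities
`3 ∣ ord_c P`, `2 ∣ ord_c (P - 1728 Q)` and Abhyankar's lemma at the places over `c`:
every place of `Φ` over `μ = c` is unramified over `Kb(μ)` and there are `[Φ : Kb(μ)]` of them.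
-/
import Mathlib
import Fermat.Agent.S18.C.UnramDisc
import Fermat.Agent.S18.C.S24Ram
import Fermat.Agent.S18.A.Instances

set_option autoImplicit false

namespace Fermat.Agent.S18.C.UnramDiscX0

open AlgebraicCurve IntermediateField Polynomial ModularCurve
  Fermat.Agent.S24.FF Fermat.Agent.S24.Ord Fermat.Agent.S24.DegreeAlg
  Fermat.Agent.S18.C.UnramDisc Fermat.Agent.S18.A.Instances

local notation "Kb" => AlgebraicClosure ℚ

variable (N : ℕ) [NeZero N]

/-- `0 < ord` gives membership in the nonunits (the hypothesis shape of `C/S24Ram`). -/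
theorem mem_nonunits_of_ord_pos (a : Kb) (v : Place Kb ↥(modularFunctionFieldBar N))
    (hv : 0 < v.ord (jgen N - algebraMap Kb _ a)) :
    jgen N - algebraMap Kb _ a ∈ v.toValuationSubring.nonunits := by
  rw [Fermat.Agent.S18.A.FibreSep.mem_nonunits_iff]
  exact (ord_pos_iff v (S24Ram.jgen_sub_ne_zero N a)).mp hv

theorem ord_dvd_three (v : Place Kb ↥(modularFunctionFieldBar N))
    (hv : 0 < v.ord (jgen N - algebraMap Kb _ 0)) :
    v.ord (jgen N - algebraMap Kb _ 0) ∣ 3 :=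
  S24Ram.ord_jgen_dvd N v (mem_nonunits_of_ord_pos N 0 v hv)

theorem ord_dvd_two (v : Place Kb ↥(modularFunctionFieldBar N))
    (hv : 0 < v.ord (jgen N - algebraMap Kb _ 1728)) :
    v.ord (jgen N - algebraMap Kb _ 1728) ∣ 2 :=
  S24Ram.ord_jgen_sub_1728_dvd N v (mem_nonunits_of_ord_pos N 1728 v hv)

theorem ord_eq_one (a : Kb) (h0 : a ≠ 0) (h1728 : a ≠ 1728)
    (v : Place Kb ↥(modularFunctionFieldBar N))
    (hv : 0 < v.ord (jgen N - algebraMap Kb _ a)) :
    v.ord (jgen N - algebraMap Kb _ a) = 1 :=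
  S24Ram.ord_jgen_sub_eq_one N a h1728 h0 v (mem_nonunits_of_ord_pos N a v hv)

variable {Φ : Type*} [Field Φ] [Algebra Kb Φ] [Algebra ↥(modularFunctionFieldBar N) Φ]
  [IsScalarTower Kb ↥(modularFunctionFieldBar N) Φ]
  [Algebra.IsIntegral ↥(modularFunctionFieldBar N) Φ]

/-- **Every place of `Φ` over a point `c` of the disc is unramified over `Kb(μ)`.** -/
theorem ord_sub_eq_one {μ : Φ} (hμ : Transcendental Kb μ) (P Q : Kb[X])
    (hrel : algebraMap ↥(modularFunctionFieldBar N) Φ (jgen N) * aeval μ Q = aeval μ P)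
    (c : Kb) (hQc : Q.eval c ≠ 0)
    (m0 : P.eval c = 0 → 3 ∣ P.rootMultiplicity c)
    (m1728 : P.eval c = 1728 * Q.eval c → 2 ∣ (P - C 1728 * Q).rootMultiplicity c)
    (P' : Place Kb Φ) (hpos : 0 < P'.ord (μ - algebraMap Kb Φ c))
    (hAb : AbhyankarAt P' (imageF Kb ↥(modularFunctionFieldBar N)) Kb⟮μ⟯) :
    P'.ord (μ - algebraMap Kb Φ c) = 1 :=
  ord_sub_eq_one_of_three_branch (isFF_jgen N).transcendental hμ P Q hrel c hQc
    (ord_dvd_three N) (ord_dvd_two N) (fun a h0 h1728 v hv => ord_eq_one N a h0 h1728 v hv)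
    m0 m1728 P' hpos hAb

/-- **The fibre of `μ` over a point `c` of the disc has `[Φ : Kb(μ)]` points.** -/
theorem card_zeros_eq_finrank {μ : Φ} (hμ : IsFF Kb μ) (P Q : Kb[X])
    (hrel : algebraMap ↥(modularFunctionFieldBar N) Φ (jgen N) * aeval μ Q = aeval μ P)
    (c : Kb) (hQc : Q.eval c ≠ 0)
    (m0 : P.eval c = 0 → 3 ∣ P.rootMultiplicity c)
    (m1728 : P.eval c = 1728 * Q.eval c → 2 ∣ (P - C 1728 * Q).rootMultiplicity c)
    (hAb : ∀ P' : Place Kb Φ, 0 < P'.ord (μ - algebraMap Kb Φ c) →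
      AbhyankarAt P' (imageF Kb ↥(modularFunctionFieldBar N)) Kb⟮μ⟯) :
    (Fermat.Agent.S18.A.FibreSep.zeros hμ (isSeparable_of_charZero hμ) c).card =
      Module.finrank Kb⟮μ⟯ Φ :=
  card_zeros_eq_finrank_of_three_branch (isFF_jgen N).transcendental hμ
    (isSeparable_of_charZero hμ) P Q hrel c hQc
    (ord_dvd_three N) (ord_dvd_two N) (fun a h0 h1728 v hv => ord_eq_one N a h0 h1728 v hv)
    m0 m1728 hAb

end Fermat.Agent.S18.C.UnramDiscX0
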