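/-
PROJECT H (S18), block C (helper3): `C/UnramDiscX0` WITHOUT the Abhyankar hypothesis.

With `C/AbhyankarAt.lean` (helper16: `UnramDisc.AbhyankarAt` is a theorem) the unramifiedness
statements over the disc have no Abhyankar hypothesis any more; the only structural input left is
`hsup : imageF Kb F_L ⊔ Kb⟮μ⟯ = ⊤` (the field factor `Φ` is generated by the images of `F_L` and
`Kb(μ)`).

For a field `Φ` over `Kb = ℚ̄` with `[Algebra F_L Φ]`, `F_L = modularFunctionFieldBar N`, `μ : Φ`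
with `IsFF Kb μ`, `jgen · Q(μ) = P(μ)`, `Φ = F_L · Kb(μ)`, a point `c` of the `μ`-line with
`Q(c) ≠ 0` and the `μ`-side multiplicities `3 ∣ ord_c P`, `2 ∣ ord_c (P - 1728 Q)`:

* `abhyankarAt`           : `AbhyankarAt P' (imageF Kb F_L) Kb⟮μ⟯` at every place `P'` of `Φ`;
* `ord_sub_eq_one`        : every place of `Φ` over `μ = c` is unramified over `Kb(μ)`;
* `card_zeros_eq_finrank` : there are exactly `[Φ : Kb(μ)]` of them.
-/
import Mathlib
import Fermat.Agent.S18.C.AbhyankarAt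
import Fermat.Agent.S18.C.UnramDiscX0

set_option autoImplicit false

namespace Fermat.Agent.S18.C.UnramDiscFinal

open AlgebraicCurve IntermediateField Polynomial ModularCurve
  Fermat.Agent.S24.FF Fermat.Agent.S24.Ord Fermat.Agent.S24.DegreeAlg
  Fermat.Agent.S18.C.UnramDisc Fermat.Agent.S18.A.Instances

local notation "Kb" => AlgebraicClosure ℚ

variable (N : ℕ) [NeZero N]

variable {Φ : Type*} [Field Φ] [Algebra Kb Φ] [Algebra ↥(modularFunctionFieldBar N) Φ]
  [IsScalarTower Kb ↥(modularFunctionFieldBar N) Φ]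
  [Algebra.IsIntegral ↥(modularFunctionFieldBar N) Φ]

omit [Algebra.IsIntegral ↥(modularFunctionFieldBar N) Φ] in
/-- Abhyankar's conclusion at every place of a field `Φ = F_L · Kb(μ)` with `j · Q(μ) = P(μ)`. -/
theorem abhyankarAt {μ : Φ} (hμ : IsFF Kb μ) (P Q : Kb[X])
    (hrel : algebraMap ↥(modularFunctionFieldBar N) Φ (jgen N) * aeval μ Q = aeval μ P)
    (hQ : Q ≠ 0)
    (hsup : imageF Kb ↥(modularFunctionFieldBar N) ⊔ Kb⟮μ⟯ = ⊤) (P' : Place Kb Φ) :
    AbhyankarAt P' (imageF Kb ↥(modularFunctionFieldBar N)) Kb⟮μ⟯ :=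
  AbhyankarAt.abhyankarAt_imageF hμ (isFF_jgen N).transcendental P Q hrel hQ hsup P'

/-- **Every place of `Φ = F_L · Kb(μ)` over a point `c` of the disc is unramified over `Kb(μ)`**
(no Abhyankar hypothesis). -/
theorem ord_sub_eq_one {μ : Φ} (hμ : IsFF Kb μ) (P Q : Kb[X])
    (hrel : algebraMap ↥(modularFunctionFieldBar N) Φ (jgen N) * aeval μ Q = aeval μ P)
    (hsup : imageF Kb ↥(modularFunctionFieldBar N) ⊔ Kb⟮μ⟯ = ⊤)
    (c : Kb) (hQc : Q.eval c ≠ 0)
    (m0 : P.eval c = 0 → 3 ∣ P.rootMultiplicity c)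
    (m1728 : P.eval c = 1728 * Q.eval c → 2 ∣ (P - C 1728 * Q).rootMultiplicity c)
    (P' : Place Kb Φ) (hpos : 0 < P'.ord (μ - algebraMap Kb Φ c)) :
    P'.ord (μ - algebraMap Kb Φ c) = 1 := by
  have hQ : Q ≠ 0 := by
    rintro rfl
    simp at hQc
  exact UnramDiscX0.ord_sub_eq_one N hμ.transcendental P Q hrel c hQc m0 m1728 P' hpos
    (abhyankarAt N hμ P Q hrel hQ hsup P')

/-- **The fibre of `μ` over a point `c` of the disc has `[Φ : Kb(μ)]` points**
(no Abhyankar hypothesis). -/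
theorem card_zeros_eq_finrank {μ : Φ} (hμ : IsFF Kb μ) (P Q : Kb[X])
    (hrel : algebraMap ↥(modularFunctionFieldBar N) Φ (jgen N) * aeval μ Q = aeval μ P)
    (hsup : imageF Kb ↥(modularFunctionFieldBar N) ⊔ Kb⟮μ⟯ = ⊤)
    (c : Kb) (hQc : Q.eval c ≠ 0)
    (m0 : P.eval c = 0 → 3 ∣ P.rootMultiplicity c)
    (m1728 : P.eval c = 1728 * Q.eval c → 2 ∣ (P - C 1728 * Q).rootMultiplicity c) :
    (Fermat.Agent.S18.A.FibreSep.zeros hμ (isSeparable_of_charZero hμ) c).card =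
      Module.finrank Kb⟮μ⟯ Φ := by
  have hQ : Q ≠ 0 := by
    rintro rfl
    simp at hQc
  exact UnramDiscX0.card_zeros_eq_finrank N hμ P Q hrel c hQc m0 m1728
    (fun P' _ => abhyankarAt N hμ P Q hrel hQ hsup P')

end Fermat.Agent.S18.C.UnramDiscFinal
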