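/-
PROJECT H (S18), block C (helper3): the `μ`-side multiplicities `m0`, `m1728` of
`C/UnramDisc.lean` / `C/UnramDiscFinal.lean` for the two covers `hesse`, `legendre` of
`C/CoverInst.lean`.

* Hesse    : `P = 27 X³ (X³+8)³ = 27 (X (X³+8))³`, `P - 1728 Q = 27 (X⁶ - 20 X³ - 8)²`;
* Legendre : `P = 256 (X²-3X+3)³`, `P - 1728 Q = 64 (X (X-3) (2X-3))²`  (recentred `t = λ + 1`).

Hence `3 ∣ ord_c P` and `2 ∣ ord_c (P - 1728 Q)` at EVERY point `c` (no hypothesis on `c`).
-/
import Mathlib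
import Fermat.Agent.S18.C.CoverInst
import Fermat.Agent.S18.C.UnramDisc

set_option autoImplicit false

namespace Fermat.Agent.S18.C.UnramMult

open Polynomial Fermat.Agent.S18.C.Defs Fermat.Agent.S18.C.CoverInst
  Fermat.Agent.S18.C.UnramDisc

variable (K : Type*) [Field K]

/-! ### polynomial identities -/

theorem hesse_PK_eq : hesse.PK K = C 27 * (X * (X ^ 3 + 8)) ^ 3 := by
  rw [hesse_PK, HesseDisc.polyP]
  simp only [map_ofNat]
  ring

theorem hesse_sub_eq :
    hesse.PK K - C 1728 * hesse.QK K = C 27 * (X ^ 6 - 20 * X ^ 3 - 8) ^ 2 := by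
  rw [hesse_PK, hesse_QK, HesseDisc.polyP, HesseDisc.polyQ]
  simp only [map_ofNat]
  ring

theorem legendre_PK_eq : legendre.PK K = C 256 * (X ^ 2 - 3 * X + 3) ^ 3 := by
  rw [legendre_PK, LegendreDisc.polyPT]
  simp only [map_ofNat]

theorem legendre_sub_eq :
    legendre.PK K - C 1728 * legendre.QK K = C 64 * (X * (X - 3) * (2 * X - 3)) ^ 2 := by
  rw [legendre_PK, legendre_QK, LegendreDisc.polyPT, LegendreDisc.polyQT]
  simp only [map_ofNat]
  ring

/-! ### nonvanishing -/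

variable {K}

theorem twentyseven_ne_zero (h3 : (3 : K) ≠ 0) : (27 : K) ≠ 0 := by
  have : (27 : K) = 3 ^ 3 := by norm_num
  rw [this]
  exact pow_ne_zero _ h3

theorem twofiftysix_ne_zero (h2 : (2 : K) ≠ 0) : (256 : K) ≠ 0 := by
  have : (256 : K) = 2 ^ 8 := by norm_num
  rw [this]
  exact pow_ne_zero _ h2

theorem sixtyfour_ne_zero (h2 : (2 : K) ≠ 0) : (64 : K) ≠ 0 := by
  have : (64 : K) = 2 ^ 6 := by norm_num
  rw [this]
  exact pow_ne_zero _ h2

/-- a general form: `p = C a * A ^ n`, `a ≠ 0` ⇒ `n ∣ ord_c p` (also for `p = 0`) -/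
theorem dvd_rootMultiplicity_of_eq_C_mul_pow {p A : K[X]} {a : K} {n : ℕ} (c : K)
    (h : p = C a * A ^ n) (ha : a ≠ 0) : n ∣ p.rootMultiplicity c := by
  by_cases hp : p = 0
  · rw [hp, rootMultiplicity_zero]
    exact dvd_zero n
  · exact dvd_rootMultiplicity_of_eq_mul_pow c hp h (by rwa [eval_C])

/-! ### the multiplicities -/

/-- Hesse: `3 ∣ ord_c P` at every point `c`. -/
theorem hesse_three_dvd (h3 : (3 : K) ≠ 0) (c : K) : 3 ∣ (hesse.PK K).rootMultiplicity c :=
  dvd_rootMultiplicity_of_eq_C_mul_pow c (hesse_PK_eq K) (twentyseven_ne_zero h3)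

/-- Hesse: `2 ∣ ord_c (P - 1728 Q)` at every point `c`. -/
theorem hesse_two_dvd (h3 : (3 : K) ≠ 0) (c : K) :
    2 ∣ (hesse.PK K - C 1728 * hesse.QK K).rootMultiplicity c :=
  dvd_rootMultiplicity_of_eq_C_mul_pow c (hesse_sub_eq K) (twentyseven_ne_zero h3)

/-- Legendre: `3 ∣ ord_c P` at every point `c`. -/
theorem legendre_three_dvd (h2 : (2 : K) ≠ 0) (c : K) :
    3 ∣ (legendre.PK K).rootMultiplicity c :=
  dvd_rootMultiplicity_of_eq_C_mul_pow c (legendre_PK_eq K) (twofiftysix_ne_zero h2)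

/-- Legendre: `2 ∣ ord_c (P - 1728 Q)` at every point `c`. -/
theorem legendre_two_dvd (h2 : (2 : K) ≠ 0) (c : K) :
    2 ∣ (legendre.PK K - C 1728 * legendre.QK K).rootMultiplicity c :=
  dvd_rootMultiplicity_of_eq_C_mul_pow c (legendre_sub_eq K) (sixtyfour_ne_zero h2)

/-! ### the exact shapes `m0`, `m1728` of `UnramDisc` (characteristic zero) -/

section CharZero

variable [CharZero K]

theorem hesse_m0 (c : K) : (hesse.PK K).eval c = 0 → 3 ∣ (hesse.PK K).rootMultiplicity c :=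
  fun _ => hesse_three_dvd (by norm_num) c

theorem hesse_m1728 (c : K) : (hesse.PK K).eval c = 1728 * (hesse.QK K).eval c →
    2 ∣ (hesse.PK K - C 1728 * hesse.QK K).rootMultiplicity c :=
  fun _ => hesse_two_dvd (by norm_num) c

theorem legendre_m0 (c : K) :
    (legendre.PK K).eval c = 0 → 3 ∣ (legendre.PK K).rootMultiplicity c :=
  fun _ => legendre_three_dvd (by norm_num) c

theorem legendre_m1728 (c : K) : (legendre.PK K).eval c = 1728 * (legendre.QK K).eval c →
    2 ∣ (legendre.PK K - C 1728 * legendre.QK K).rootMultiplicity c :=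
  fun _ => legendre_two_dvd (by norm_num) c

end CharZero

end Fermat.Agent.S18.C.UnramMult
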