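import Fermat.Agent.S18.C.RAlgFactors
import Fermat.Agent.S18.C.MuLineFinite
import Fermat.Agent.S18.C.CoverInst
import Fermat.Agent.S18.C.UnramDiscFinal
import Fermat.Agent.S18.C.AbhyankarGen
import Fermat.Agent.S18.C.UnramMult
import Fermat.Agent.S18.C.UnramDenom
import Fermat.Agent.S18.C.BaseChangeR

/-!
# PROJECT H (S18), block C, slice H-C7u: the places of the field factors of `R_L` over the disc

For every field factor `Φ = R_L ⧸ I` of `R_L = F_L ⊗_{ℚ̄(j)} ℚ̄(μ)` (`c` the Hesse or the recentred
Legendre cover) and every point `c₀` of the `μ`-line with `Q(c₀) ≠ 0`: every place of `Φ` over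
`μ = c₀` is unramified over `ℚ̄(μ)` (hypothesis (U) of `C/PointsDisc`).
-/

set_option autoImplicit false
set_option linter.unusedSectionVars false
set_option linter.style.haveILetI false

noncomputable section

namespace Fermat.Agent.S18.C.UnramFactors

open Polynomial TensorProduct IntermediateField AlgebraicCurve
open Fermat.Agent.S18.C.Defs Fermat.Agent.S18.C.RAlgStructure Fermat.Agent.S18.C.RAlgFactors

/-! ### the structures on a factor -/

section Factor

universe u

variable (c : Cover) (K : Type u) [Field K] [c.Good K]
variable (F : Type u) [Field F] [Algebra (RatFunc K) F] [Algebra K F] [IsScalarTower K (RatFunc K) F]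
variable (I : MaximalSpectrum (RAlg c K F))

/-- the embedding `K(μ) → Φ_I` -/
def muToFactor : MuLine c K →+* Factor c K F I :=
  (proj c K F I).comp (incMu c K F : MuLine c K →+* RAlg c K F)

/-- the embedding `F → Φ_I` -/
def fToFactor : F →+* Factor c K F I :=
  (proj c K F I).comp (incF c K F : F →+* RAlg c K F)

/-- the coordinate `μ` in the factor -/
def muF : Factor c K F I := muToFactor c K F I (MuLine.mu c K)

theorem muToFactor_algebraMap (r : RatFunc K) :
    muToFactor c K F I (algebraMap (RatFunc K) (MuLine c K) r) =
      fToFactor c K F I (algebraMap (RatFunc K) F r) := by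
  unfold muToFactor fToFactor
  simp only [RingHom.comp_apply]
  congr 1
  show incMu c K F (algebraMap (RatFunc K) (MuLine c K) r) = incF c K F (algebraMap (RatFunc K) F r)
  rw [AlgHom.commutes, AlgHom.commutes]

theorem muToFactor_const (a : K) :
    muToFactor c K F I (algebraMap K (MuLine c K) a) = fToFactor c K F I (algebraMap K F a) := by
  rw [IsScalarTower.algebraMap_apply K (RatFunc K) (MuLine c K),
    IsScalarTower.algebraMap_apply K (RatFunc K) F, muToFactor_algebraMap]

theorem algebraMap_F_factor (f : F) :
    algebraMap F (Factor c K F I) f = fToFactor c K F I f := rfl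

theorem algebraMap_K_factor (a : K) :
    algebraMap K (Factor c K F I) a = muToFactor c K F I (algebraMap K (MuLine c K) a) := by
  rw [muToFactor_const, ← algebraMap_F_factor, ← IsScalarTower.algebraMap_apply]

theorem QK_ne_zero : c.QK K ≠ 0 := by
  intro h0
  apply Cover.Good.transc (c := c) (K := K)
  have : c.jOf K = 0 := by
    unfold Cover.jOf
    rw [h0, map_zero, div_zero]
  rw [this]
  exact isAlgebraic_zero

theorem aeval_muF (p : K[X]) :
    aeval (muF c K F I) p = muToFactor c K F I (CoverInst.polyToMu c p) := by
  have h : ((aeval (muF c K F I) : K[X] →ₐ[K] Factor c K F I) : K[X] →+* Factor c K F I) =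
      (muToFactor c K F I).comp (CoverInst.polyToMu c) := by
    apply Polynomial.ringHom_ext
    · intro a
      simp only [RingHom.coe_coe, aeval_C, RingHom.comp_apply, CoverInst.polyToMu_C]
      exact algebraMap_K_factor c K F I a
    · simp only [RingHom.coe_coe, aeval_X, RingHom.comp_apply, CoverInst.polyToMu_X]
      rfl
  exact congrArg (fun f : K[X] →+* Factor c K F I => f p) h

theorem muToFactor_injective : Function.Injective (muToFactor c K F I) := by
  haveI : Nontrivial (Factor c K F I) :=
    Ideal.Quotient.nontrivial_iff.mpr I.isMaximal.ne_top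
  exact (muToFactor c K F I).injective

theorem fToFactor_injective : Function.Injective (fToFactor c K F I) := by
  haveI : Nontrivial (Factor c K F I) :=
    Ideal.Quotient.nontrivial_iff.mpr I.isMaximal.ne_top
  exact (fToFactor c K F I).injective

/-- `μ` is transcendental over `K` in every factor -/
theorem transcendental_muF : Transcendental K (muF c K F I) := by
  rw [transcendental_iff]
  intro p hp
  rw [aeval_muF] at hp
  have h1 : CoverInst.polyToMu c p = 0 := by
    apply muToFactor_injective c K F I
    rw [hp, map_zero]
  rw [CoverInst.polyToMu_apply] at h1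
  have h2 : algebraMap K[X] (RatFunc K) p = 0 := by
    have := congrArg (MuLine.of c K).symm h1
    rwa [AlgEquiv.symm_apply_apply, map_zero] at this
  exact (map_eq_zero_iff _ (IsFractionRing.injective K[X] (RatFunc K))).mp h2

/-- the relation `j · Q(μ) = P(μ)` in every factor -/
theorem hrel :
    algebraMap F (Factor c K F I) (algebraMap (RatFunc K) F RatFunc.X) *
        aeval (muF c K F I) (c.QK K) = aeval (muF c K F I) (c.PK K) := by
  rw [algebraMap_F_factor]
  rw [aeval_muF, aeval_muF, ← muToFactor_algebraMap, Cover.algebraMap_X, ← map_mul]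
  congr 1
  unfold MuLine.j
  rw [CoverInst.polyToMu_apply, CoverInst.polyToMu_apply, ← map_mul,
    CoverInst.jOf_mul c K (QK_ne_zero c K)]

theorem isFF_mu : Fermat.Agent.S24.FF.IsFF K (MuLine.mu c K) := by
  refine ⟨CoverInst.transcendental_mu c, ?_⟩
  have htop := CoverInst.adjoin_mu (K := K) c
  have h1 : Module.finrank (⊤ : IntermediateField K (MuLine c K)) (MuLine c K) = 1 :=
    IntermediateField.finrank_top
  have h2 : FiniteDimensional (⊤ : IntermediateField K (MuLine c K)) (MuLine c K) :=
    Module.finite_of_finrank_pos (by rw [h1]; exact one_pos)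
  rw [htop]
  exact h2

variable [FiniteDimensional (RatFunc K) F]

theorem isScalarTower_K_mu :
    letI := factorAlgebra c K F I
    IsScalarTower K (MuLine c K) (Factor c K F I) := by
  letI := factorAlgebra c K F I
  exact IsScalarTower.of_algebraMap_eq (fun a => algebraMap_K_factor c K F I a)

/-- every factor is a function field over `K` with separating coordinate `μ` -/
theorem isFF_muF :
    letI := factorField c K F I
    Fermat.Agent.S24.FF.IsFF K (muF c K F I) := by
  letI := factorField c K F I
  letI := factorAlgebra c K F I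
  haveI := isScalarTower_K_mu c K F I
  haveI := factor_finite c K F I
  exact Fermat.Agent.S18.C.Abhyankar.isFF_algebraMap (isFF_mu c K) rfl

theorem isIntegral_F :
    letI := factorField c K F I
    Algebra.IsIntegral F (Factor c K F I) := by
  letI := factorField c K F I
  haveI := MuLineFinite.finiteDimensional_muLine c K
  haveI : Module.Finite F (RAlg c K F) := Module.Finite.base_change (RatFunc K) F (MuLine c K)
  haveI : Module.Finite F (Factor c K F I) := Module.Finite.quotient F _
  exact Algebra.IsIntegral.of_finite F _

end Factor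

/-! ### the modular instance: `K = ℚ̄`, `F = F_L` -/

section Modular

open ModularCurve

local notation "Kb" => AlgebraicClosure ℚ

variable (N : ℕ) [NeZero N] (c : Cover) [c.Good Kb]
variable (I : MaximalSpectrum (RAlg c Kb ↥(modularFunctionFieldBar N)))

/-- **(U), general cover**: every place of a field factor `Φ_I` of `R_L = F_L ⊗ ℚ̄(μ)` over a point
`t` of the `μ`-line with `Q(t) ≠ 0` and the two multiplicity conditions is unramified over
`ℚ̄(μ)`. -/
theorem ord_sub_eq_one_of_mult (t : Kb) (hQc : (c.QK Kb).eval t ≠ 0)
    (m0 : (c.PK Kb).eval t = 0 → 3 ∣ (c.PK Kb).rootMultiplicity t)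
    (m1728 : (c.PK Kb).eval t = 1728 * (c.QK Kb).eval t →
      2 ∣ (c.PK Kb - C 1728 * c.QK Kb).rootMultiplicity t) :
    letI := factorField c Kb ↥(modularFunctionFieldBar N) I
    letI := factorAlgebra c Kb ↥(modularFunctionFieldBar N) I
    ∀ v : Place Kb (Factor c Kb ↥(modularFunctionFieldBar N) I),
      0 < v.ord (algebraMap (MuLine c Kb) (Factor c Kb ↥(modularFunctionFieldBar N) I)
          (MuLine.mu c Kb) - algebraMap Kb (Factor c Kb ↥(modularFunctionFieldBar N) I) t) →
      v.ord (algebraMap (MuLine c Kb) (Factor c Kb ↥(modularFunctionFieldBar N) I)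
          (MuLine.mu c Kb) - algebraMap Kb (Factor c Kb ↥(modularFunctionFieldBar N) I) t) = 1 := by
  letI := factorField c Kb ↥(modularFunctionFieldBar N) I
  letI := factorAlgebra c Kb ↥(modularFunctionFieldBar N) I
  haveI : FiniteDimensional (RatFunc Kb) ↥(modularFunctionFieldBar N) :=
    (BaseChangeR.finrank_ratFunc_bar N).1
  haveI := isIntegral_F c Kb ↥(modularFunctionFieldBar N) I
  haveI := isScalarTower_K_mu c Kb ↥(modularFunctionFieldBar N) I
  intro v hpos
  have hμ := isFF_muF c Kb ↥(modularFunctionFieldBar N) I
  have hrel0 := hrel c Kb ↥(modularFunctionFieldBar N) I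
  rw [ModularInst.algebraMap_FL_X] at hrel0
  have hsup := AbhyankarGen.imageF_sup_eq_top_of_surjective c Kb ↥(modularFunctionFieldBar N)
    (proj c Kb ↥(modularFunctionFieldBar N) I) (proj_surjective c Kb _ I) (fun _ => rfl)
    (fun m => (factorAlgebra_algebraMap c Kb _ I m).symm)
  exact UnramDiscFinal.ord_sub_eq_one N hμ (c.PK Kb) (c.QK Kb) hrel0 hsup t hQc m0 m1728 v hpos

/-- **(U) for the Hesse cover** (`ℓ = 2`): over every point `t` of the open unit disc of ANY
valuation subring `A` of `ℚ̄`, all places of all field factors of `R_L` are unramified over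
`ℚ̄(μ)`. -/
theorem hesse_ord_sub_eq_one (A : ValuationSubring Kb)
    (I : MaximalSpectrum (RAlg CoverInst.hesse Kb ↥(modularFunctionFieldBar N)))
    (t : Kb) (ht : A.valuation t < 1) :
    letI := factorField CoverInst.hesse Kb ↥(modularFunctionFieldBar N) I
    letI := factorAlgebra CoverInst.hesse Kb ↥(modularFunctionFieldBar N) I
    ∀ v : Place Kb (Factor CoverInst.hesse Kb ↥(modularFunctionFieldBar N) I),
      0 < v.ord (algebraMap (MuLine CoverInst.hesse Kb)
          (Factor CoverInst.hesse Kb ↥(modularFunctionFieldBar N) I)
          (MuLine.mu CoverInst.hesse Kb) -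
            algebraMap Kb (Factor CoverInst.hesse Kb ↥(modularFunctionFieldBar N) I) t) →
      v.ord (algebraMap (MuLine CoverInst.hesse Kb)
          (Factor CoverInst.hesse Kb ↥(modularFunctionFieldBar N) I)
          (MuLine.mu CoverInst.hesse Kb) -
            algebraMap Kb (Factor CoverInst.hesse Kb ↥(modularFunctionFieldBar N) I) t) = 1 :=
  ord_sub_eq_one_of_mult N CoverInst.hesse I t (UnramDenom.hesse_QK_eval_ne_zero A ht)
    (UnramMult.hesse_m0 t) (UnramMult.hesse_m1728 t)

/-- **(U) for the (recentred) Legendre cover** (`ℓ = 3`): over every point `t` of the open unit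
disc of a valuation subring `A` of `ℚ̄` with `3 ∈ 𝔪_A`, all places of all field factors of `R_L`
are unramified over `ℚ̄(μ)`. -/
theorem legendre_ord_sub_eq_one (A : ValuationSubring Kb) (h3 : A.valuation 3 < 1)
    (I : MaximalSpectrum (RAlg CoverInst.legendre Kb ↥(modularFunctionFieldBar N)))
    (t : Kb) (ht : A.valuation t < 1) :
    letI := factorField CoverInst.legendre Kb ↥(modularFunctionFieldBar N) I
    letI := factorAlgebra CoverInst.legendre Kb ↥(modularFunctionFieldBar N) I
    ∀ v : Place Kb (Factor CoverInst.legendre Kb ↥(modularFunctionFieldBar N) I),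
      0 < v.ord (algebraMap (MuLine CoverInst.legendre Kb)
          (Factor CoverInst.legendre Kb ↥(modularFunctionFieldBar N) I)
          (MuLine.mu CoverInst.legendre Kb) -
            algebraMap Kb (Factor CoverInst.legendre Kb ↥(modularFunctionFieldBar N) I) t) →
      v.ord (algebraMap (MuLine CoverInst.legendre Kb)
          (Factor CoverInst.legendre Kb ↥(modularFunctionFieldBar N) I)
          (MuLine.mu CoverInst.legendre Kb) -
            algebraMap Kb (Factor CoverInst.legendre Kb ↥(modularFunctionFieldBar N) I) t) = 1 :=
  ord_sub_eq_one_of_mult N CoverInst.legendre I t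
    (UnramDenom.legendre_QK_eval_ne_zero A h3 ht)
    (UnramMult.legendre_m0 t) (UnramMult.legendre_m1728 t)

end Modular

end Fermat.Agent.S18.C.UnramFactors
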