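import Mathlib
import Fermat.Agent.S18.C.SurfaceB
import Fermat.Agent.S18.C.SurfaceBGen
import Fermat.Agent.S18.C.UnramFactors

/-!
# PROJECT H (S18), block C, step (S2b): hypothesis-free form

For `A` a valuation subring of `ℚ̄` with `V = A ∩ ℚ` a discrete valuation ring and every point `t`
of the open unit disc of `A`, the discriminant `d = discrCInt c V F0` of the normalisation `C_Q` of
`B_Q = V[μ]_(𝔪_V, μ)` in `R_Q = F0 ⊗ ℚ(μ)` does not vanish at `t`:

* `evDiscAtB_discrCInt_ne_zero_of_unram` : any cover `c`, with (U) as a hypothesis;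
* `hesse_evDiscAtB_discrCInt_ne_zero` : the Hesse cover (any `A`);
* `legendre_evDiscAtB_discrCInt_ne_zero` : the Legendre cover (`3 ∈ 𝔪_A`).

These are the second conjunct of `EvalBridge.isUnit_iff_pointwise_B` for `b := d`.
-/

set_option autoImplicit false
set_option linter.style.haveILetI false
set_option linter.unusedSectionVars false
set_option synthInstance.maxHeartbeats 400000

noncomputable section

namespace Fermat.Agent.S18.C.SurfaceBFinal

open Polynomial TensorProduct ModularCurve AlgebraicCurve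
open Fermat.Agent.S18.C.Defs Fermat.Agent.S18.C.SurfaceDefs Fermat.Agent.S18.C.BRingLocal
open Fermat.Agent.S18.C.EvalBridge Fermat.Agent.S18.C.SurfaceFree
open Fermat.Agent.S18.C.RAlgStructure Fermat.Agent.S18.C.RAlgFactors
open Fermat.Agent.S18.C.PointsDisc

local notation "Kb" => AlgebraicClosure ℚ

variable (N : ℕ) [NeZero N] (c : Cover) [c.Good ℚ] [c.Good Kb] (A : ValuationSubring Kb)
  [IsDiscreteValuationRing ↥(A.comap (algebraMap ℚ Kb))]

/-- **(S2b)** for a general cover, with the unramifiedness (U) of the factors of `R_L` over the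
points of the open unit disc as the only hypothesis. -/
theorem evDiscAtB_discrCInt_ne_zero_of_unram
    (hU : ∀ (t : Kb), A.valuation t < 1 →
      ∀ (I : MaximalSpectrum (RAlg c Kb ↥(modularFunctionFieldBar N))),
      letI := factorField c Kb ↥(modularFunctionFieldBar N) I
      letI := factorAlgebra c Kb ↥(modularFunctionFieldBar N) I
      ∀ v : Place Kb (Factor c Kb ↥(modularFunctionFieldBar N) I),
      0 < v.ord (algebraMap (MuLine c Kb) (Factor c Kb ↥(modularFunctionFieldBar N) I)
          (MuLine.mu c Kb) - algebraMap Kb (Factor c Kb ↥(modularFunctionFieldBar N) I) t) →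
      v.ord (algebraMap (MuLine c Kb) (Factor c Kb ↥(modularFunctionFieldBar N) I)
          (MuLine.mu c Kb) - algebraMap Kb (Factor c Kb ↥(modularFunctionFieldBar N) I) t) = 1)
    (t : Kb) (ht : A.valuation t < 1) :
    evDiscAtB (algebraMap ℚ Kb) A c t ht
      (discrCInt c (A.comap (algebraMap ℚ Kb)) ↥(modularFunctionFieldFull N)) ≠ 0 := by
  haveI : FiniteDimensional (RatFunc Kb) ↥(modularFunctionFieldBar N) :=
    (BaseChangeR.finrank_ratFunc_bar N).1
  refine SurfaceB.evDiscAtB_discrCInt_ne_zero N c A t ht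
    (fun I => UnramFactors.isScalarTower_K_mu c Kb ↥(modularFunctionFieldBar N) I) (hU t ht) ?_
  intro w hw x hx
  refine SurfaceBGen.hgen_fracRing_smul N c A t _ ?_ x hx
  intro q hq
  rw [show SurfaceBGen.denD c t q =
    (⟨aeval (MuLine.mu c Kb) q, aeval_mem_fracRing q⟩ : fracRing Kb (MuLine.mu c Kb) t) from rfl,
    evFrac_aeval]
  exact hq

omit [c.Good ℚ] [c.Good Kb] in
/-- **(S2b) for the Hesse cover** (used with `ℓ = 2`). -/
theorem hesse_evDiscAtB_discrCInt_ne_zero [CoverInst.hesse.Good ℚ] [CoverInst.hesse.Good Kb]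
    (t : Kb) (ht : A.valuation t < 1) :
    evDiscAtB (algebraMap ℚ Kb) A CoverInst.hesse t ht
      (discrCInt CoverInst.hesse (A.comap (algebraMap ℚ Kb)) ↥(modularFunctionFieldFull N)) ≠ 0 :=
  evDiscAtB_discrCInt_ne_zero_of_unram N CoverInst.hesse A
    (fun t ht I => UnramFactors.hesse_ord_sub_eq_one N A I t ht) t ht

omit [c.Good ℚ] [c.Good Kb] in
/-- **(S2b) for the (recentred) Legendre cover** (used with `ℓ = 3`). -/
theorem legendre_evDiscAtB_discrCInt_ne_zero [CoverInst.legendre.Good ℚ]
    [CoverInst.legendre.Good Kb] (h3 : A.valuation 3 < 1)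
    (t : Kb) (ht : A.valuation t < 1) :
    evDiscAtB (algebraMap ℚ Kb) A CoverInst.legendre t ht
      (discrCInt CoverInst.legendre (A.comap (algebraMap ℚ Kb))
        ↥(modularFunctionFieldFull N)) ≠ 0 :=
  evDiscAtB_discrCInt_ne_zero_of_unram N CoverInst.legendre A
    (fun t ht I => UnramFactors.legendre_ord_sub_eq_one N A h3 I t ht) t ht

end Fermat.Agent.S18.C.SurfaceBFinal
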