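import Mathlib
import Fermat.Agent.S18.C.FinalHesse
import Fermat.Agent.S18.C.FinalLegendre
import Fermat.Agent.S18.C.SurfaceBFinal

/-!
# PROJECT H (S18), block C, slice H-C10 (helper4): CONTRACT K3

`k3 : Wire.K3 N A` for every valuation ring `A` of `ℚ̄` over a prime `ℓ ∤ N` with reduction inputs
`h : ReductionInputsModL A N`: if `1728 ≠ 0` in the residue field there is nothing to prove;
otherwise `ℓ = 2` (Hesse cover, `C/FinalHesse.lean`) or `ℓ = 3` (Legendre cover,
`C/FinalLegendre.lean`), the hypothesis (S2b) being `C/SurfaceBFinal.lean`.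
-/

set_option autoImplicit false
set_option synthInstance.maxHeartbeats 400000

namespace Fermat.Agent.S18.C.Final

open ModularCurve
open Fermat.Agent.S18.C.CoverInst

local notation "Kb" => AlgebraicClosure ℚ

/-- **Contract K3** (block C): the lower bound for the different of the supersingular fibre
in residue characteristic `2` and `3`. -/
theorem k3 (N : ℕ) [NeZero N] {ℓ : ℕ} [Fact ℓ.Prime] (hℓN : ¬ ℓ ∣ N)
    (A : ValuationSubring (AlgebraicClosure ℚ)) (hA : A.LiesOverPrime ℓ)
    (h : ReductionInputsModL A N) : Fermat.Agent.S18.Wire.K3 N A := by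
  by_cases h1728 : (1728 : IsLocalRing.ResidueField A) = 0
  · have := Surface.isDiscreteValuationRing_VQ A hA
    rcases FinalPrep.ell_eq_two_or_three hA h1728 with rfl | rfl
    · exact FinalHesse.k3_hesse N A hℓN hA h
        (fun t ht => SurfaceBFinal.hesse_evDiscAtB_discrCInt_ne_zero N A t ht)
    · have h3v : A.valuation (3 : Kb) < 1 := by
        simpa using FinalPrep.valuation_natCast_lt_one hA
      exact FinalLegendre.k3_legendre N A hℓN hA h
        (fun t ht => SurfaceBFinal.legendre_evDiscAtB_discrCInt_ne_zero N A h3v t ht)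
  · exact Fermat.Agent.S18.Wire.k3_of_ne N A h1728

end Fermat.Agent.S18.C.Final
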