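/-
PROJECT H (S18), block C, slice H-C6a (helper13): THE SMALL DVR.

`A` a valuation subring of `ℚ̄` lying over the rational prime `ℓ`, `I_A := A.inertiaSubgroupIn ℚ`.

* `K0 A` : the inertia field of `A`, i.e. the fixed field of `I_A` inside `ℚ̄`;
* `W A := A ∩ K0 A` : a valuation subring of `K0 A`;
* `isDiscreteValuationRing_W` : `W A` is a discrete valuation ring, `irreducible_natCast` : with
  uniformiser `ℓ`, `maximalIdeal_W_eq` : `𝔪_W = (ℓ)`;
* `toA A : W A →+* A` the inclusion, a local homomorphism (`isLocalHom_toA`), with algebra and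
  scalar tower instances `W A → A → ℚ̄`, `W A → K0 A → ℚ̄`, `W A → A → k`;
* `exists_residue_toA_eq` : the residue map `W A → k = A / 𝔪_A` is SURJECTIVE (every element of `k`
  is a simple root mod `𝔪_A` of a monic integer polynomial; inertia acts trivially on `k`, so the
  lifted root is inertia-invariant), hence `residueFieldEquiv A hA : ResidueField (W A) ≃+* k`;
* `isGalois_K0`, `isAlgebraic_K0` : `ℚ̄ / K0 A` is algebraic and Galois.
-/
import Fermat.Agent.S13.Local.Ram
import Fermat.Agent.S05.Local
import Fermat.Agent.S18.ResidueBasics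

set_option autoImplicit false

noncomputable section

namespace Fermat.Agent.S18.C.SmallDVR

open IsLocalRing Polynomial

local notation "Qbar" => AlgebraicClosure ℚ

variable (A : ValuationSubring Qbar)

/-- The inertia field of `A`: the fixed field of the inertia group of `A` over `ℚ`. -/
def K0 : IntermediateField ℚ Qbar := IntermediateField.fixedField (A.inertiaSubgroupIn ℚ)

theorem mem_K0_iff {x : Qbar} : x ∈ K0 A ↔ ∀ σ ∈ A.inertiaSubgroupIn ℚ, σ x = x :=
  IntermediateField.mem_fixedField_iff _ _

/-- `W := A ∩ K0`, a valuation subring of the inertia field. -/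
def W : ValuationSubring (K0 A) := A.comap (algebraMap (K0 A) Qbar)

theorem mem_W_iff {x : K0 A} : x ∈ W A ↔ (x : Qbar) ∈ A := Iff.rfl

theorem coe_mem (x : W A) : (((x : K0 A) : Qbar)) ∈ A := (mem_W_iff A).mp x.2

theorem coe_fixed (x : K0 A) {σ : Qbar ≃ₐ[ℚ] Qbar} (hσ : σ ∈ A.inertiaSubgroupIn ℚ) :
    σ (x : Qbar) = x := (mem_K0_iff A).mp x.2 σ hσ

/-- The inclusion `W → A`. -/
def toA : W A →+* A :=
  (algebraMap (K0 A) Qbar).restrict (W A) A (fun _ hx => hx)

@[simp] theorem coe_toA (x : W A) : ((toA A x : A) : Qbar) = ((x : K0 A) : Qbar) := rfl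

theorem toA_injective : Function.Injective (toA A) := by
  intro x y h
  have h1 : ((toA A x : A) : Qbar) = ((toA A y : A) : Qbar) := by rw [h]
  rw [coe_toA, coe_toA] at h1
  exact Subtype.ext (Subtype.ext h1)

instance algebraWA : Algebra (W A) A := (toA A).toAlgebra

instance algebraWQbar : Algebra (W A) Qbar :=
  ((algebraMap (K0 A) Qbar).comp (W A).subtype).toAlgebra

instance algebraWk : Algebra (W A) (ResidueField A) :=
  ((residue A).comp (toA A)).toAlgebra

theorem algebraMap_W_A (x : W A) : algebraMap (W A) A x = toA A x := rfl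

theorem algebraMap_W_Qbar (x : W A) : algebraMap (W A) Qbar x = ((x : K0 A) : Qbar) := rfl

theorem algebraMap_W_k (x : W A) :
    algebraMap (W A) (ResidueField A) x = residue A (toA A x) := rfl

instance isScalarTower_W_A_Qbar : IsScalarTower (W A) A Qbar :=
  IsScalarTower.of_algebraMap_eq (fun _ => rfl)

instance isScalarTower_W_K0_Qbar : IsScalarTower (W A) (K0 A) Qbar :=
  IsScalarTower.of_algebraMap_eq (fun _ => rfl)

instance isScalarTower_W_A_k : IsScalarTower (W A) A (ResidueField A) :=
  IsScalarTower.of_algebraMap_eq (fun _ => rfl)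

/-- `ℚ̄ / K0` is Galois. -/
theorem isGalois_K0 : IsGalois (K0 A) Qbar :=
  haveI : IsGalois ℚ Qbar := ⟨⟩
  IsGalois.tower_top_of_isGalois ℚ (K0 A) Qbar

theorem isAlgebraic_K0 : Algebra.IsAlgebraic (K0 A) Qbar :=
  Algebra.IsAlgebraic.tower_top (K := ℚ) (K0 A)

/-! ### Units of `W` -/

theorem isUnit_iff_valuation (x : W A) :
    IsUnit x ↔ A.valuation ((x : K0 A) : Qbar) = 1 := by
  constructor
  · intro h
    have h1 : IsUnit (toA A x) := h.map (toA A)
    exact (A.valuation_eq_one_iff _).mp h1
  · intro h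
    have hx0 : ((x : K0 A) : Qbar) ≠ 0 := by
      intro h0
      rw [h0, map_zero] at h
      exact zero_ne_one h
    have hx0' : (x : K0 A) ≠ 0 := fun h0 => hx0 (by rw [h0]; rfl)
    have hinv : (x : K0 A)⁻¹ ∈ W A := by
      rw [mem_W_iff, ← A.valuation_le_one_iff]
      push_cast
      rw [map_inv₀, h, inv_one]
    refine isUnit_iff_exists_inv.mpr ⟨⟨(x : K0 A)⁻¹, hinv⟩, ?_⟩
    apply Subtype.ext
    show (x : K0 A) * (x : K0 A)⁻¹ = 1
    exact mul_inv_cancel₀ hx0'

instance isLocalHom_toA : IsLocalHom (toA A) where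
  map_nonunit x hx := (isUnit_iff_valuation A x).mpr ((A.valuation_eq_one_iff _).mp hx)

/-! ### `W` is a discrete valuation ring with uniformiser `ℓ` -/

section DVR

variable {A} {ℓ : ℕ} [hℓ : Fact ℓ.Prime] (hA : A.LiesOverPrime ℓ)

include hA

omit hℓ in
theorem valuation_ell_lt_one : A.valuation ((ℓ : ℕ) : Qbar) < 1 :=
  Fermat.Agent.S13.Local.Ram.valuation_natCast_lt_one hA

omit hA in
theorem valuation_ell_pos : 0 < A.valuation ((ℓ : ℕ) : Qbar) :=
  zero_lt_iff.mpr (Fermat.Agent.S13.Local.Ram.valuation_natCast_ne_zero hℓ.out A)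

/-- Every nonzero element of `W` has the valuation of a power `ℓ ^ n`, `n : ℕ`. -/
theorem exists_valuation_eq_pow (x : W A) (hx : x ≠ 0) :
    ∃ n : ℕ, A.valuation ((x : K0 A) : Qbar) = A.valuation ((ℓ : ℕ) : Qbar) ^ n := by
  have hx0 : ((x : K0 A) : Qbar) ≠ 0 := by
    intro h0
    apply hx
    apply Subtype.ext
    apply Subtype.ext
    exact h0
  obtain ⟨n, hn⟩ := Fermat.Agent.S13.Local.Ram.exists_zpow_valuation_eq ℓ hA hx0
    (fun σ hσ => coe_fixed A (x : K0 A) hσ)
  have hle : A.valuation ((x : K0 A) : Qbar) ≤ 1 := (A.valuation_le_one_iff _).mpr (coe_mem A x)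
  have hn0 : 0 ≤ n := by
    by_contra hneg
    rw [not_le] at hneg
    have := one_lt_zpow_of_neg₀ (valuation_ell_pos (A := A) (ℓ := ℓ)) (valuation_ell_lt_one hA) hneg
    rw [← hn] at this
    exact absurd hle (not_le.mpr this)
  obtain ⟨m, rfl⟩ := Int.eq_ofNat_of_zero_le hn0
  exact ⟨m, by rw [hn, zpow_natCast]⟩

omit hA in
theorem coe_natCast_W (n : ℕ) : ((((n : W A) : K0 A)) : Qbar) = (n : Qbar) := by
  push_cast
  rfl

/-- Every nonzero element of `W` is a unit times a power of `ℓ`. -/
theorem exists_unit_mul_pow (x : W A) (hx : x ≠ 0) :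
    ∃ (n : ℕ) (u : (W A)ˣ), x = u * ((ℓ : ℕ) : W A) ^ n := by
  obtain ⟨n, hn⟩ := exists_valuation_eq_pow hA x hx
  have hl0 : ((ℓ : ℕ) : K0 A) ≠ 0 := by
    exact_mod_cast hℓ.out.ne_zero
  have hvl0 : A.valuation ((ℓ : ℕ) : Qbar) ≠ 0 := (valuation_ell_pos (A := A) (ℓ := ℓ)).ne'
  set y : K0 A := (x : K0 A) * (((ℓ : ℕ) : K0 A) ^ n)⁻¹ with hy
  have hyv : A.valuation ((y : K0 A) : Qbar) = 1 := by
    rw [hy]
    push_cast
    rw [map_mul, map_inv₀, map_pow, hn]
    exact mul_inv_cancel₀ (pow_ne_zero _ hvl0)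
  have hyW : y ∈ W A := by
    rw [mem_W_iff, ← A.valuation_le_one_iff, hyv]
  have hyu : IsUnit (⟨y, hyW⟩ : W A) := (isUnit_iff_valuation A _).mpr hyv
  refine ⟨n, hyu.unit, ?_⟩
  apply Subtype.ext
  show (x : K0 A) = y * ((((ℓ : ℕ) : W A) ^ n : W A) : K0 A)
  push_cast
  rw [hy, mul_assoc, inv_mul_cancel₀ (pow_ne_zero _ hl0), mul_one]

omit hℓ in
theorem not_isUnit_natCast : ¬ IsUnit (((ℓ : ℕ) : W A)) := by
  rw [isUnit_iff_valuation, coe_natCast_W]
  exact (valuation_ell_lt_one hA).ne

/-- `ℓ` is irreducible in `W`. -/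
theorem irreducible_natCast : Irreducible (((ℓ : ℕ) : W A)) := by
  refine ⟨not_isUnit_natCast hA, fun a b hab => ?_⟩
  have hl0 : ((ℓ : ℕ) : W A) ≠ 0 := by
    intro h0
    apply not_isUnit_natCast hA
    rw [h0] at hab
    exfalso
    have := congrArg (fun z : W A => (((z : K0 A)) : Qbar)) h0
    simp only [coe_natCast_W] at this
    have h2 : ((ℓ : ℕ) : Qbar) ≠ 0 := by exact_mod_cast hℓ.out.ne_zero
    exact h2 (by simpa using this)
  have ha0 : a ≠ 0 := by
    rintro rfl
    rw [zero_mul] at hab
    exact hl0 hab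
  have hb0 : b ≠ 0 := by
    rintro rfl
    rw [mul_zero] at hab
    exact hl0 hab
  obtain ⟨m, hm⟩ := exists_valuation_eq_pow hA a ha0
  obtain ⟨m', hm'⟩ := exists_valuation_eq_pow hA b hb0
  have hv : A.valuation ((ℓ : ℕ) : Qbar) ^ (1 : ℤ)
      = A.valuation ((ℓ : ℕ) : Qbar) ^ ((m + m' : ℕ) : ℤ) := by
    rw [zpow_one, zpow_natCast, pow_add, ← hm, ← hm', ← map_mul, ← coe_natCast_W (A := A), hab]
    push_cast
    rfl
  have hinj := (zpow_right_strictAnti₀ (valuation_ell_pos (A := A) (ℓ := ℓ))
    (valuation_ell_lt_one hA)).injective hv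
  have hmm : m + m' = 1 := by exact_mod_cast hinj.symm
  rcases Nat.eq_zero_or_pos m with h0 | hpos
  · left
    rw [isUnit_iff_valuation, hm, h0, pow_zero]
  · right
    have : m' = 0 := by omega
    rw [isUnit_iff_valuation, hm', this, pow_zero]

/-- **`W = A ∩ K0` is a discrete valuation ring.** -/
theorem isDiscreteValuationRing_W : IsDiscreteValuationRing (W A) := by
  refine IsDiscreteValuationRing.ofHasUnitMulPowIrreducibleFactorization
    ⟨((ℓ : ℕ) : W A), irreducible_natCast hA, fun {x} hx => ?_⟩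
  obtain ⟨n, u, hu⟩ := exists_unit_mul_pow hA x hx
  refine ⟨n, ?_⟩
  rw [hu, mul_comm]
  exact associated_mul_unit_right _ _ u.isUnit

theorem maximalIdeal_W_eq :
    maximalIdeal (W A) = Ideal.span {((ℓ : ℕ) : W A)} :=
  haveI := isDiscreteValuationRing_W hA
  (irreducible_natCast hA).maximalIdeal_eq

end DVR

/-! ### The residue field of `W` is all of `k = A / 𝔪_A` -/

section Roots

variable {K : Type*} [Field K] [IsAlgClosed K] (B : ValuationSubring K)

/-- A root `c` of the reduction of a monic `p ∈ B[X]` (`B` a valuation subring of an algebraically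
closed field) lifts to a root of `p` in `B`. -/
theorem exists_root_residue_eq :
    ∀ (n : ℕ) (p : B[X]), p.natDegree = n → p.Monic → ∀ c : ResidueField B,
      (p.map (residue B)).eval c = 0 → ∃ a : B, p.eval a = 0 ∧ residue B a = c := by
  intro n
  induction n with
  | zero =>
    intro p hn hp c hc
    exfalso
    have h1 : p = 1 := by
      have := Polynomial.eq_C_of_natDegree_eq_zero hn
      rw [this]
      have hl : p.leadingCoeff = 1 := hp
      rw [Polynomial.leadingCoeff, hn] at hl
      rw [hl, map_one]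
    rw [h1, Polynomial.map_one, eval_one] at hc
    exact one_ne_zero hc
  | succ n ih =>
    intro p hn hp c hc
    have hdeg : p.degree ≠ 0 := by
      rw [Polynomial.degree_eq_natDegree hp.ne_zero, hn]
      exact_mod_cast Nat.succ_ne_zero n
    obtain ⟨a₁, ha₁⟩ := Fermat.Agent.S18.ResidueBasics.exists_root_of_monic B hp hdeg
    by_cases hres : residue B a₁ = c
    · exact ⟨a₁, ha₁, hres⟩
    · have hfac : (X - C a₁) * (p /ₘ (X - C a₁)) = p :=
        Polynomial.mul_divByMonic_eq_iff_isRoot.mpr ha₁
      set p₁ := p /ₘ (X - C a₁) with hp₁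
      have hp₁m : p₁.Monic := by
        have hXm : (X - C a₁).Monic := monic_X_sub_C a₁
        exact hXm.of_mul_monic_left (by rw [hfac]; exact hp)
      have hp₁d : p₁.natDegree = n := by
        have h1 := congrArg Polynomial.natDegree hfac
        rw [(monic_X_sub_C a₁).natDegree_mul hp₁m, natDegree_X_sub_C, hn] at h1
        omega
      have hc₁ : (p₁.map (residue B)).eval c = 0 := by
        have h2 := congrArg (fun q : B[X] => (q.map (residue B)).eval c) hfac
        simp only [Polynomial.map_mul, Polynomial.map_sub, Polynomial.map_X, Polynomial.map_C,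
          eval_mul, eval_sub, eval_X, eval_C] at h2
        rw [hc] at h2
        rcases mul_eq_zero.mp h2 with h3 | h3
        · exact absurd (sub_eq_zero.mp h3).symm hres
        · exact h3
      obtain ⟨a, ha, hac⟩ := ih p₁ hp₁d hp₁m c hc₁
      refine ⟨a, ?_, hac⟩
      rw [← hfac, eval_mul, ha, mul_zero]

end Roots

section Residue

variable {A} {ℓ : ℕ} [hℓ : Fact ℓ.Prime] (hA : A.LiesOverPrime ℓ)

include hA

/-- Every element of the residue field `k` of `A` is a SIMPLE root of the reduction of a monic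
integer polynomial. -/
theorem exists_monic_int_simple_root (c : ResidueField A) :
    ∃ f : ℤ[X], f.Monic ∧ eval₂ (Int.castRingHom (ResidueField A)) c f = 0 ∧
      eval₂ (Int.castRingHom (ResidueField A)) c (derivative f) ≠ 0 := by
  have : CharP (ResidueField A) ℓ := Fermat.Agent.S18.ResidueBasics.charP_residueField A hA
  let φ : ZMod ℓ →+* ResidueField A := ZMod.castHom (dvd_refl ℓ) (ResidueField A)
  let _ : Algebra (ZMod ℓ) (ResidueField A) := φ.toAlgebra
  have hφ : φ.comp (Int.castRingHom (ZMod ℓ)) = Int.castRingHom (ResidueField A) :=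
    RingHom.ext_int _ _
  -- `c` is algebraic over the prime field
  have halg : IsAlgebraic (ZMod ℓ) c := by
    obtain ⟨a, rfl⟩ := residue_surjective (R := A) c
    have h1 : IsAlgebraic ℤ ((a : A) : Qbar) :=
      (IsFractionRing.isAlgebraic_iff ℤ ℚ Qbar).mpr (Algebra.IsAlgebraic.isAlgebraic _)
    obtain ⟨P, hP0, hP⟩ := h1
    have hP' : aeval ((a : A) : Qbar) P.primPart = 0 := aeval_primPart_eq_zero hP0 hP
    have hprim : P.primPart.IsPrimitive := isPrimitive_primPart P
    refine ⟨P.primPart.map (Int.castRingHom (ZMod ℓ)), ?_, ?_⟩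
    · intro h0
      have hdvd : C (ℓ : ℤ) ∣ P.primPart := by
        rw [C_dvd_iff_dvd_coeff]
        intro i
        have := congrArg (fun q : (ZMod ℓ)[X] => q.coeff i) h0
        simp only [coeff_map, coeff_zero, eq_intCast] at this
        exact (ZMod.intCast_zmod_eq_zero_iff_dvd _ _).mp this
      have hu := hprim _ hdvd
      have h2 := Int.isUnit_iff.mp hu
      have hp2 := hℓ.out.two_le
      omega
    · rw [aeval_def, eval₂_map]
      show eval₂ (φ.comp (Int.castRingHom (ZMod ℓ))) (residue A a) P.primPart = 0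
      rw [hφ]
      have h3 : eval₂ (Int.castRingHom A) a P.primPart = 0 := by
        apply Subtype.ext
        have h4 : ((eval₂ (Int.castRingHom A) a P.primPart : A) : Qbar)
            = aeval ((a : A) : Qbar) P.primPart := by
          rw [aeval_def, ← A.subtype_apply, hom_eval₂]
          congr 1
        rw [h4, hP']
        rfl
      have h5 := congrArg (residue A) h3
      rw [hom_eval₂, map_zero] at h5
      rw [← h5]
      congr 1
  have hint : IsIntegral (ZMod ℓ) c := halg.isIntegral
  set g := minpoly (ZMod ℓ) c with hg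
  have hgm : g.Monic := minpoly.monic hint
  have hgs : g.Separable := PerfectField.separable_of_irreducible (minpoly.irreducible hint)
  have hgc : aeval c g = 0 := minpoly.aeval _ _
  have hgd : aeval c (derivative g) ≠ 0 := hgs.aeval_derivative_ne_zero hgc
  obtain ⟨f, hfg, -, hfm⟩ := Polynomial.lifts_and_degree_eq_and_monic
    ((Polynomial.mem_lifts g).mpr
      (Polynomial.map_surjective (Int.castRingHom (ZMod ℓ)) (ZMod.intCast_surjective) g)) hgm
  refine ⟨f, hfm, ?_, ?_⟩
  · rw [← hφ, ← eval₂_map, hfg]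
    exact hgc
  · rw [← hφ, ← eval₂_map, ← derivative_map, hfg]
    exact hgd

/-- **The residue map `W → k = A / 𝔪_A` is surjective.** -/
theorem exists_residue_toA_eq (c : ResidueField A) :
    ∃ w : W A, residue A (toA A w) = c := by
  obtain ⟨f, hfm, hfc, hfd⟩ := exists_monic_int_simple_root hA c
  set p : A[X] := f.map (Int.castRingHom A) with hp
  have hpm : p.Monic := hfm.map _
  have hres : (Int.castRingHom (ResidueField A)) = (residue A).comp (Int.castRingHom A) :=
    RingHom.ext_int _ _
  have hpc : (p.map (residue A)).eval c = 0 := by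
    rw [hp, Polynomial.map_map, ← hres, eval_map]
    exact hfc
  obtain ⟨α, hα, hαc⟩ := exists_root_residue_eq A _ p rfl hpm c hpc
  -- the derivative of `p` at `α` is a unit
  have hder : p.derivative.eval α ∉ maximalIdeal A := by
    rw [← residue_eq_zero_iff]
    have h1 : residue A (p.derivative.eval α) = eval₂ (Int.castRingHom (ResidueField A)) c
        (derivative f) := by
      rw [hp, derivative_map, eval_map, hom_eval₂, hαc, ← hres]
    rw [h1]
    exact hfd
  -- `α` is fixed by inertia
  have hfix : ∀ σ ∈ A.inertiaSubgroupIn ℚ, σ (α : Qbar) = α := by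
    intro σ hσ
    have hσα : σ (α : Qbar) ∈ A := Fermat.Agent.S05.Local.apply_mem_of_mem_inertia ℚ hσ α.2
    set β : A := ⟨σ (α : Qbar), hσα⟩ with hβ
    have hδ : β - α ∈ maximalIdeal A := by
      rw [← ValuationSubring.coe_mem_nonunits_iff]
      exact Fermat.Agent.S05.Local.apply_sub_mem_nonunits_of_mem_inertia ℚ hσ α.2
    have hβroot : p.eval β = 0 := by
      apply Subtype.ext
      have h1 : ∀ b : A, ((p.eval b : A) : Qbar) = aeval (b : Qbar) f := by
        intro b
        rw [hp, eval_map, aeval_def, ← A.subtype_apply, hom_eval₂]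
        congr 1
      rw [h1]
      show aeval (σ (α : Qbar)) f = ((0 : A) : Qbar)
      have h2 : aeval (σ (α : Qbar)) f = σ (aeval (α : Qbar) f) := by
        rw [aeval_def, aeval_def]
        have h3 := hom_eval₂ f (algebraMap ℤ Qbar) (σ : Qbar →+* Qbar) (α : Qbar)
        rw [show ((σ : Qbar →+* Qbar).comp (algebraMap ℤ Qbar)) = algebraMap ℤ Qbar from
          RingHom.ext_int _ _] at h3
        exact h3.symm
      rw [h2, ← h1 α, hα]
      simp
    obtain ⟨k, hk⟩ := Polynomial.binomExpansion p α (β - α)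
    rw [add_sub_cancel, hβroot, hα, zero_add] at hk
    by_contra hne
    have hδ0 : β - α ≠ 0 := by
      intro h0
      apply hne
      exact congrArg Subtype.val (sub_eq_zero.mp h0)
    have h2 : p.derivative.eval α = -(k * (β - α)) := by
      have h3 : (β - α) * (p.derivative.eval α + k * (β - α)) = 0 := by
        rw [hk]; ring
      rcases mul_eq_zero.mp h3 with h4 | h4
      · exact absurd h4 hδ0
      · exact eq_neg_of_add_eq_zero_left h4
    apply hder
    rw [h2]
    exact neg_mem (Ideal.mul_mem_left _ _ hδ)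
  refine ⟨⟨⟨(α : Qbar), (mem_K0_iff A).mpr hfix⟩, α.2⟩, ?_⟩
  rw [← hαc]
  rfl

theorem residue_comp_toA_surjective :
    Function.Surjective ((residue A).comp (toA A)) := fun c => exists_residue_toA_eq hA c

theorem residueFieldMap_bijective :
    Function.Bijective (ResidueField.map (toA A)) := by
  refine ⟨(ResidueField.map (toA A)).injective, fun c => ?_⟩
  obtain ⟨w, hw⟩ := exists_residue_toA_eq hA c
  exact ⟨residue (W A) w, by rw [ResidueField.map_residue, hw]⟩

/-- The residue field of the small DVR `W` IS the residue field `k` of `A`. -/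
def residueFieldEquiv : ResidueField (W A) ≃+* ResidueField A :=
  RingEquiv.ofBijective (ResidueField.map (toA A)) (residueFieldMap_bijective hA)

omit hA in
@[simp] theorem residueFieldEquiv_residue (hA : A.LiesOverPrime ℓ) (w : W A) :
    residueFieldEquiv hA (residue (W A) w) = residue A (toA A w) :=
  ResidueField.map_residue _ _

end Residue

/-! ### Further glue -/

instance faithfulSMul_W_A : FaithfulSMul (W A) A :=
  (faithfulSMul_iff_algebraMap_injective _ _).mpr (toA_injective A)

instance faithfulSMul_W_Qbar : FaithfulSMul (W A) Qbar :=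
  (faithfulSMul_iff_algebraMap_injective _ _).mpr (fun x y h => by
    apply toA_injective A
    apply Subtype.ext
    exact h)

theorem algebraMap_W_Qbar_mem (x : W A) : algebraMap (W A) Qbar x ∈ A := coe_mem A x

/-- An element of `W` is in the maximal ideal iff its image in `A` is. -/
theorem mem_maximalIdeal_iff (x : W A) : x ∈ maximalIdeal (W A) ↔ toA A x ∈ maximalIdeal A := by
  rw [mem_maximalIdeal, mem_maximalIdeal, mem_nonunits_iff, mem_nonunits_iff, not_iff_not]
  exact ⟨fun h => h.map _, fun h => isUnit_of_map_unit (toA A) x h⟩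

theorem ker_algebraMap_W_k :
    RingHom.ker (algebraMap (W A) (ResidueField A)) = maximalIdeal (W A) := by
  ext x
  rw [RingHom.mem_ker, algebraMap_W_k, residue_eq_zero_iff, mem_maximalIdeal_iff]

theorem algebraMap_W_k_surjective {ℓ : ℕ} [Fact ℓ.Prime] (hA : A.LiesOverPrime ℓ) :
    Function.Surjective (algebraMap (W A) (ResidueField A)) :=
  fun c => exists_residue_toA_eq hA c

theorem ker_algebraMap_W_k_eq_span {ℓ : ℕ} [Fact ℓ.Prime] (hA : A.LiesOverPrime ℓ) :
    RingHom.ker (algebraMap (W A) (ResidueField A)) = Ideal.span {((ℓ : ℕ) : W A)} := by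
  rw [ker_algebraMap_W_k, maximalIdeal_W_eq hA]

/-- `K0` is the fraction field of `W` (Mathlib instance for valuation subrings, restated). -/
theorem isFractionRing_W_K0 : IsFractionRing (W A) (K0 A) := inferInstance

theorem charZero_K0 : CharZero (K0 A) := inferInstance

theorem isIntegrallyClosed_W : IsIntegrallyClosed (W A) := inferInstance

end Fermat.Agent.S18.C.SmallDVR

end
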