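/-
PROJECT H (S18), block C, support for (S2b-2) NormalLink (iii) (helper7): CLEARING DENOMINATORS
IN AN INTEGRAL EQUATION.

`φ : P →+* M` a ring hom (`P = L[X]`, `M = L(μ)`), `R` an `M`-algebra, `D` a subring of `M` all of
whose elements are fractions `φ p / φ q` with `q` in a submonoid `Mq` of `P`
(`D = L[μ]_(μ - t)`, `Mq = {q | q(t) ≠ 0}`).  If `x : R` is integral over `D`, there is `q ∈ Mq`
such that `φ q • x` is integral over (the image of) `P`.

* `exists_common_denominator` : finitely many elements of `D` have a common denominator in `Mq`;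
* `exists_mul_isIntegralElem` : the statement above, `RingHom.IsIntegralElem` form;
* `exists_mul_of_isIntegral`  : the same, followed by ANY consequence `Pred` of integrality over
  `P` (the shape of NormalLink (ii) ⟹ (iii)).
-/
import Mathlib

set_option autoImplicit false

namespace Fermat.Agent.S18.C.ClearDenominators

open Polynomial

variable {P M R : Type*} [CommRing P] [CommRing M] [CommRing R] [Algebra M R]
  (φ : P →+* M) (D : Subring M) (Mq : Submonoid P)

/-- a common denominator for the coefficients of a polynomial over `D` -/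
theorem exists_common_denominator (hD : ∀ d ∈ D, ∃ q ∈ Mq, ∃ p : P, d * φ q = φ p)
    (f : M[X]) (hf : ∀ i, f.coeff i ∈ D) :
    ∃ q ∈ Mq, ∀ i, ∃ r : P, f.coeff i * φ q = φ r := by
  classical
  choose q_ hq_ p_ h_ using fun i => hD (f.coeff i) (hf i)
  set n := f.natDegree with hn
  refine ⟨∏ i ∈ Finset.range (n + 1), q_ i, Submonoid.prod_mem _ fun i _ => hq_ i, fun i => ?_⟩
  by_cases hi : i ∈ Finset.range (n + 1)
  · refine ⟨p_ i * ∏ j ∈ (Finset.range (n + 1)).erase i, q_ j, ?_⟩
    rw [← Finset.mul_prod_erase _ _ hi, map_mul, ← mul_assoc, h_ i, map_mul]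
  · refine ⟨0, ?_⟩
    have : f.coeff i = 0 := by
      apply coeff_eq_zero_of_natDegree_lt
      rw [Finset.mem_range, not_lt] at hi
      omega
    rw [this, zero_mul, map_zero]

/-- **Clearing denominators**: if `x` is integral over `D ⊆ Mq⁻¹ φ(P)`, then `φ q • x` is integral
over `P` for some `q ∈ Mq`. -/
theorem exists_mul_isIntegralElem (hD : ∀ d ∈ D, ∃ q ∈ Mq, ∃ p : P, d * φ q = φ p)
    (x : R) (hx : IsIntegral D x) :
    ∃ q ∈ Mq, ((algebraMap M R).comp φ).IsIntegralElem (algebraMap M R (φ q) * x) := by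
  obtain ⟨f, hf, hfx⟩ := hx
  set fM : M[X] := f.map D.subtype with hfM
  have hfMmonic : fM.Monic := hf.map _
  have hfMx : eval₂ (algebraMap M R) x fM = 0 := by
    rw [hfM, eval₂_map]
    exact hfx
  have hcoeff : ∀ i, fM.coeff i ∈ D := fun i => by
    rw [hfM, coeff_map]
    exact (f.coeff i).2
  obtain ⟨q, hq, hr⟩ := exists_common_denominator φ D Mq hD fM hcoeff
  refine ⟨q, hq, ?_⟩
  set g : M[X] := scaleRoots fM (φ q) with hg
  have hgmonic : g.Monic := (monic_scaleRoots_iff _).mpr hfMmonic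
  have hglift : g ∈ lifts φ := by
    rw [lifts_iff_coeff_lifts]
    intro i
    rw [hg, coeff_scaleRoots]
    rcases lt_trichotomy i fM.natDegree with hi | hi | hi
    · obtain ⟨r, hr⟩ := hr i
      obtain ⟨k, hk⟩ : ∃ k, fM.natDegree - i = k + 1 := ⟨fM.natDegree - i - 1, by omega⟩
      refine ⟨r * q ^ k, ?_⟩
      rw [hk, pow_succ', ← mul_assoc, hr, map_mul, map_pow]
    · refine ⟨1, ?_⟩
      rw [hi, Nat.sub_self, pow_zero, mul_one, map_one]
      exact hfMmonic.coeff_natDegree.symm
    · refine ⟨0, ?_⟩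
      rw [coeff_eq_zero_of_natDegree_lt hi, zero_mul, map_zero]
  obtain ⟨G, hGmap, -, hGmonic⟩ := lifts_and_natDegree_eq_and_monic hglift hgmonic
  refine ⟨G, hGmonic, ?_⟩
  rw [← eval₂_map, hGmap, hg]
  exact scaleRoots_eval₂_eq_zero (algebraMap M R) hfMx

/-- The shape of NormalLink (ii) ⟹ (iii): any consequence `Pred` of integrality over `P` holds
for a multiple `φ q • x`, `q ∈ Mq`, of an element `x` integral over `D`. -/
theorem exists_mul_of_isIntegral (hD : ∀ d ∈ D, ∃ q ∈ Mq, ∃ p : P, d * φ q = φ p)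
    {Pred : R → Prop}
    (hii : ∀ y : R, ((algebraMap M R).comp φ).IsIntegralElem y → Pred y)
    (x : R) (hx : IsIntegral D x) :
    ∃ q ∈ Mq, Pred (algebraMap M R (φ q) * x) := by
  obtain ⟨q, hq, hint⟩ := exists_mul_isIntegralElem φ D Mq hD x hx
  exact ⟨q, hq, hii _ hint⟩

/-! ### the case `P = K[X]`, `φ = aeval μ`, `Mq = {q | q(a) ≠ 0}` (the shape of
`PointsDisc.mem_fracRing`) -/

section Aeval

variable {K M' R' : Type*} [Field K] [CommRing M'] [Algebra K M'] [CommRing R'] [Algebra M' R']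

/-- the polynomials not vanishing at `a` -/
def evalNeZero (a : K) : Submonoid K[X] where
  carrier := {q | q.eval a ≠ 0}
  mul_mem' := by
    intro q q' hq hq'
    show (q * q').eval a ≠ 0
    rw [eval_mul]
    exact mul_ne_zero hq hq'
  one_mem' := by
    show (1 : K[X]).eval a ≠ 0
    rw [eval_one]
    exact one_ne_zero

theorem mem_evalNeZero {a : K} {q : K[X]} : q ∈ evalNeZero a ↔ q.eval a ≠ 0 := Iff.rfl

/-- **Clearing denominators for `D ⊆ K[μ]_(μ - a)`** (hypothesis `hD` = `PointsDisc.mem_fracRing`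
for `D = fracRing K μ a`): if `x` is integral over `D`, then `q(μ) • x` is integral over `K[X]`
(through `aeval μ`) for some `q` with `q(a) ≠ 0`. -/
theorem exists_aeval_mul_isIntegralElem (μ : M') (a : K) (D : Subring M')
    (hD : ∀ d ∈ D, ∃ p q : K[X], q.eval a ≠ 0 ∧ d * aeval μ q = aeval μ p)
    (x : R') (hx : IsIntegral D x) :
    ∃ q : K[X], q.eval a ≠ 0 ∧
      ((algebraMap M' R').comp (aeval μ : K[X] →ₐ[K] M').toRingHom).IsIntegralElem
        (algebraMap M' R' (aeval μ q) * x) := by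
  obtain ⟨q, hq, h⟩ := exists_mul_isIntegralElem (aeval μ : K[X] →ₐ[K] M').toRingHom D
    (evalNeZero a) (fun d hd => by
      obtain ⟨p, q, hq, h⟩ := hD d hd
      exact ⟨q, hq, p, h⟩) x hx
  exact ⟨q, hq, h⟩

/-- The same followed by any consequence `Pred` of integrality over `K[X]`. -/
theorem exists_aeval_mul_of_isIntegral (μ : M') (a : K) (D : Subring M')
    (hD : ∀ d ∈ D, ∃ p q : K[X], q.eval a ≠ 0 ∧ d * aeval μ q = aeval μ p)
    {Pred : R' → Prop}
    (hii : ∀ y : R',
      ((algebraMap M' R').comp (aeval μ : K[X] →ₐ[K] M').toRingHom).IsIntegralElem y → Pred y)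
    (x : R') (hx : IsIntegral D x) :
    ∃ q : K[X], q.eval a ≠ 0 ∧ Pred (algebraMap M' R' (aeval μ q) * x) := by
  obtain ⟨q, hq, h⟩ := exists_aeval_mul_isIntegralElem μ a D hD x hx
  exact ⟨q, hq, hii _ h⟩

end Aeval

end Fermat.Agent.S18.C.ClearDenominators
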