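import Mathlib
import Fermat.Agent.S18.C.DiscRingChart

/-!
# PROJECT H (S18), block C: two more instances for the chart `discRing ⊤ ⊆ integralClosure`

In the setting of `C/DiscRingChart` (`DjTop K = discRing ⊤ = K[X]_(X)`, `ETop K F` its integral
closure in `F`):

* `residueEquiv K : IsLocalRing.ResidueField (DjTop K) ≃+* K`, `isAlgClosed_residueField_DjTop`;
* `isSeparable_fractionRing_ETop` : `Algebra.IsSeparable (FractionRing (DjTop K))
  (FractionRing (ETop K F))` for Mathlib's local instance `FractionRing.liftAlgebra`
  (the hypothesis of `SpecialCount.special_count`, `TowerCount`, Mathlib's `Different` file).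
-/

set_option autoImplicit false
set_option linter.style.haveILetI false
set_option linter.unusedSectionVars false

namespace Fermat.Agent.S18.C.DiscRingChartInst

open AlgebraicCurve IsDedekindDomain IntermediateField Polynomial
  Fermat.Agent.S24.FF Fermat.Agent.S18.A Fermat.Agent.S18.A.Chart
  Fermat.Agent.S18.C.Defs Fermat.Agent.S18.C.DiscRingLocal Fermat.Agent.S18.C.DiscRingChart

universe u w

section Residue

variable (K : Type w) [Field K]

/-- evaluation at `X = 0`: `K[X]_(X) → K` -/
noncomputable def evTop : DjTop K →+* K :=
  (⊤ : ValuationSubring K).subtype.comp (evZero (⊤ : ValuationSubring K))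

theorem evTop_surjective : Function.Surjective (evTop K) := by
  intro a
  obtain ⟨z, hz⟩ := evZero_surjective (⊤ : ValuationSubring K) ⟨a, ValuationSubring.mem_top a⟩
  exact ⟨z, by rw [evTop, RingHom.comp_apply, hz]; rfl⟩

theorem ker_evTop : RingHom.ker (evTop K) = IsLocalRing.maximalIdeal (DjTop K) := by
  have h0 : IsLocalRing.maximalIdeal ↥(⊤ : ValuationSubring K) = ⊥ :=
    (IsLocalRing.isField_iff_maximalIdeal_eq).mp isField_top
  ext z
  rw [RingHom.mem_ker, mem_maximalIdeal_iff, evClosed_apply, IsLocalRing.residue_eq_zero_iff, h0,
    Ideal.mem_bot, evTop, RingHom.comp_apply]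
  constructor
  · intro h
    exact Subtype.ext h
  · intro h
    rw [h]
    rfl

/-- the residue field of `K[X]_(X)` is `K` -/
noncomputable def residueEquiv : IsLocalRing.ResidueField (DjTop K) ≃+* K :=
  (Ideal.quotEquivOfEq (ker_evTop K).symm).trans
    (RingHom.quotientKerEquivOfSurjective (evTop_surjective K))

theorem residueEquiv_residue (z : DjTop K) :
    residueEquiv K (IsLocalRing.residue (DjTop K) z) = evTop K z := rfl

theorem isAlgClosed_residueField_DjTop [IsAlgClosed K] :
    IsAlgClosed (IsLocalRing.ResidueField (DjTop K)) :=
  IsAlgClosed.of_ringEquiv (k := K) _ (residueEquiv K).symm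

end Residue

section Separable

attribute [local instance] FractionRing.liftAlgebra FractionRing.isScalarTower_liftAlgebra

variable {K : Type w} {F : Type u} [Field K] [Field F] [Algebra K F] {x : F}
  [Algebra (RatFunc K) F] [IsAlgClosed K]

/-- separability in the `FractionRing` form -/
theorem isSeparable_fractionRing_ETop (hx : IsFF K x) (hsep : Algebra.IsSeparable K⟮x⟯ F)
    (halg : ∀ a : RatFunc K, algebraMap (RatFunc K) F a = evalRat hx.transcendental a) :
    haveI := faithfulSMul_ETop (K := K) (F := F)
    Algebra.IsSeparable (FractionRing (DjTop K)) (FractionRing (ETop K F)) := by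
  haveI := faithfulSMul_ETop (K := K) (F := F)
  haveI := (isDiscreteValuationRing_top (K := K)).1
  haveI := finiteDimensional_rat hx halg
  haveI := DualChart.isSeparable_rat hx.transcendental halg hsep
  haveI := isDedekindDomain_ETop hx hsep halg
  haveI := moduleFinite_ETop hx hsep halg
  haveI := isFractionRing_ETop hx halg
  haveI := isTorsionFree_ETop (K := K) (F := F)
  exact DiffLower.isSeparable_fractionRing_aux (DjTop K) (RatFunc K) F

end Separable

end Fermat.Agent.S18.C.DiscRingChartInst
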