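import Mathlib
import Fermat.Agent.S18.C.GaussRing

/-!
# PROJECT H (S18), block C: the covering map `K(j) → K(μ)` and the Gauss valuation rings

`K` a field, `V` a valuation subring with residue field `κ`, `c` a cover (integer polynomials
`P, Q`) which is good over `K` and over `κ`.  Then `j = P(μ)/Q(μ)` lies in the Gauss valuation ring
of the `μ`-line, its reduction is `P̄(μ̄)/Q̄(μ̄)` (`redG_jOf`), and the covering map
`K(j) → K(μ)` pulls the Gauss ring of the `μ`-line back to the Gauss ring of the `j`-line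
(`covMap_mem_gaussRing_iff`): instance of `GaussRing.map_mem_gaussRing_iff`.
-/

set_option autoImplicit false

noncomputable section

namespace Fermat.Agent.S18.C.GaussCover

open Polynomial Fermat.Agent.S18.C.Defs Fermat.Agent.S18.C.GaussRing

variable (c : Cover) {K : Type*} [Field K] (V : ValuationSubring K)

/-- an integer polynomial, as an element of `V[X]` -/
def intPoly (p : ℤ[X]) : V[X] := p.map (Int.castRingHom V)

theorem coe_polyEquiv_intPoly (p : ℤ[X]) :
    ((polyEquiv V (intPoly V p) : polyV V) : K[X]) = p.map (Int.castRingHom K) := by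
  rw [coe_polyEquiv, intPoly, Polynomial.map_map,
    RingHom.ext_int (V.subtype.comp (Int.castRingHom V)) (Int.castRingHom K)]

theorem map_int_mem_polyV (p : ℤ[X]) : p.map (Int.castRingHom K) ∈ polyV V := by
  rw [← coe_polyEquiv_intPoly V p]
  exact (polyEquiv V (intPoly V p)).2

theorem redPoly_map_int (p : ℤ[X]) :
    redPoly V ⟨p.map (Int.castRingHom K), map_int_mem_polyV V p⟩ =
      p.map (Int.castRingHom (kappa V)) := by
  have h : (⟨p.map (Int.castRingHom K), map_int_mem_polyV V p⟩ : polyV V) =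
      polyEquiv V (intPoly V p) := Subtype.ext (coe_polyEquiv_intPoly V p).symm
  rw [h, redPoly_polyEquiv, intPoly, Polynomial.map_map,
    RingHom.ext_int ((IsLocalRing.residue V).comp (Int.castRingHom V))
      (Int.castRingHom (kappa V))]

theorem PK_mem_polyV : c.PK K ∈ polyV V := map_int_mem_polyV V c.P

theorem QK_mem_polyV : c.QK K ∈ polyV V := map_int_mem_polyV V c.Q

theorem redPoly_PK : redPoly V ⟨c.PK K, PK_mem_polyV c V⟩ = c.PK (kappa V) :=
  redPoly_map_int V c.P

theorem redPoly_QK : redPoly V ⟨c.QK K, QK_mem_polyV c V⟩ = c.QK (kappa V) :=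
  redPoly_map_int V c.Q

/-- a good cover has nonzero denominator -/
theorem QK_ne_zero (F : Type*) [Field F] [c.Good F] : c.QK F ≠ 0 := by
  intro h
  have htr : Transcendental F (c.jOf F) := Cover.Good.transc
  apply htr
  rw [Cover.jOf, h, map_zero, div_zero]
  exact isAlgebraic_zero

variable [c.Good (kappa V)]

theorem isPrim_QK : IsPrim V (c.QK K) := by
  rw [isPrim_iff (QK_mem_polyV c V), redPoly_QK]
  exact QK_ne_zero c (kappa V)

omit [c.Good (kappa V)] in
theorem jOf_mul_QK (h : c.QK K ≠ 0) :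
    c.jOf K * algebraMap K[X] (RatFunc K) (c.QK K) = algebraMap K[X] (RatFunc K) (c.PK K) := by
  rw [Cover.jOf, div_mul_cancel₀ _ (algebraMap_poly_ne_zero h)]

/-- `j = P(μ)/Q(μ)` lies in the Gauss valuation ring of the `μ`-line -/
theorem jOf_mem_gaussRing : c.jOf K ∈ gaussRing V :=
  ⟨c.PK K, c.QK K, PK_mem_polyV c V, isPrim_QK c V, jOf_mul_QK c (isPrim_QK c V).ne_zero⟩

/-- **the reduction of `j = P(μ)/Q(μ)` is `P̄(μ̄)/Q̄(μ̄)`** -/
theorem redG_jOf : redG ⟨c.jOf K, jOf_mem_gaussRing c V⟩ = c.jOf (kappa V) := by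
  rw [redG_eq _ (PK_mem_polyV c V) (isPrim_QK c V) (jOf_mul_QK c (isPrim_QK c V).ne_zero)]
  unfold redR
  rw [redPoly_PK, redPoly_QK, Cover.jOf]

variable [c.Good K]

/-- the covering map as an endomorphism of `RatFunc K`, `X ↦ P(X)/Q(X)` -/
def covSubst : RatFunc K →ₐ[K] RatFunc K :=
  ((MuLine.of c K).symm : MuLine c K →ₐ[K] RatFunc K).comp (c.covMap K)

theorem covSubst_apply (f : RatFunc K) :
    covSubst c f = (MuLine.of c K).symm (algebraMap (RatFunc K) (MuLine c K) f) := rfl

theorem covSubst_X : covSubst c (RatFunc.X : RatFunc K) = c.jOf K := by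
  rw [covSubst_apply, Cover.algebraMap_X, MuLine.j, AlgEquiv.symm_apply_apply]

/-- **the covering map respects the Gauss valuation rings**: `f(P(μ)/Q(μ))` lies in the Gauss
ring of the `μ`-line iff `f` lies in the Gauss ring of the `j`-line. -/
theorem covMap_mem_gaussRing_iff (f : RatFunc K) :
    (MuLine.of c K).symm (algebraMap (RatFunc K) (MuLine c K) f) ∈ gaussRing V ↔
      f ∈ gaussRing V := by
  have hX : covSubst c (RatFunc.X : RatFunc K) ∈ gaussRing V := by
    rw [covSubst_X]
    exact jOf_mem_gaussRing c V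
  have htr : Transcendental (kappa V) (redG ⟨covSubst c (RatFunc.X : RatFunc K), hX⟩) := by
    have h : (⟨covSubst c (RatFunc.X : RatFunc K), hX⟩ : gaussRing V) =
        ⟨c.jOf K, jOf_mem_gaussRing c V⟩ := Subtype.ext (covSubst_X c)
    rw [h, redG_jOf]
    exact Cover.Good.transc
  exact map_mem_gaussRing_iff (covSubst c) hX htr f

theorem covMap_mem_gaussRing {f : RatFunc K} (hf : f ∈ gaussRing V) :
    (MuLine.of c K).symm (algebraMap (RatFunc K) (MuLine c K) f) ∈ gaussRing V :=
  (covMap_mem_gaussRing_iff c V f).mpr hf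

end Fermat.Agent.S18.C.GaussCover
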