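/-
PROJECT H (S18), block C, slice H-C6b part 5 (helper9): THE DEGREE OF THE REDUCED IGUSA FIELD OVER
`𝔽_ℓ(J)`, IN THE FORM CONSUMED BY `C/Forms` (input `hle`).

`finrank_fullC_zmod_eq` : `[𝔽_ℓ(J(q^d) : d ∣ N) : 𝔽_ℓ(J)] = ψ(N)` for `ℓ ∤ N`, where `𝔽_ℓ(J)` is the
intermediate field `(ZMod ℓ)⟮jk (ZMod ℓ) N⟯` of `modularFunctionFieldFullC (ZMod ℓ) N` (the form
used by `B/FkBasics`, `C/Forms`, `Final`).  This is `GaussDVR.finrank_res_eq` transported along
`GaussDVR.resField_eq`.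
-/
import Mathlib
import Fermat.Agent.S18.C.GaussDVR
import Fermat.Agent.S18.B.FkBasics

set_option autoImplicit false
set_option linter.unusedSectionVars false

noncomputable section

namespace Fermat.Agent.S18.C.GaussHle

open ModularCurve IntermediateField
open Fermat.Agent.S18.C.GaussDVR Fermat.Agent.S18.B.FkBasics

section Generic

variable {K L : Type*} [Field K] [Field L] [Algebra K L]

/-- the degree of `M` over `K(x)` does not depend on where `K(x)` is formed: inside `M` or inside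
the ambient field `L`. -/
theorem finrank_adjoin_inside (M : IntermediateField K L) (x : ↥M)
    (M' : IntermediateField K L) (hM : M' = M)
    (hle : IntermediateField.adjoin K {(x : L)} ≤ M') :
    letI : Algebra ↥(IntermediateField.adjoin K {(x : L)}) ↥M' :=
      (IntermediateField.inclusion hle).toRingHom.toAlgebra
    Module.finrank ↥(IntermediateField.adjoin K {(x : L)}) ↥M' = Module.finrank ↥K⟮x⟯ ↥M := by
  subst hM
  letI : Algebra ↥(IntermediateField.adjoin K {(x : L)}) ↥M' :=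
    (IntermediateField.inclusion hle).toRingHom.toAlgebra
  have h1 : (K⟮x⟯).map M'.val = IntermediateField.adjoin K {(x : L)} := by
    rw [IntermediateField.adjoin_map, Set.image_singleton]
    rfl
  let i : ↥K⟮x⟯ ≃+* ↥(IntermediateField.adjoin K {(x : L)}) :=
    ((IntermediateField.equivMap K⟮x⟯ M'.val).trans (IntermediateField.equivOfEq h1)).toRingEquiv
  symm
  refine Algebra.finrank_eq_of_equiv_equiv i (RingEquiv.refl ↥M') ?_
  ext c
  rfl

end Generic

variable (ℓ : ℕ) [Fact ℓ.Prime] (N : ℕ) [NeZero N]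

/-- **`[𝔽_ℓ(J(q^d) : d ∣ N) : 𝔽_ℓ(J)] = ψ(N)`** for `ℓ ∤ N`, in the `FkBasics` presentation. -/
theorem finrank_fullC_zmod_eq (hℓN : ¬ ℓ ∣ N) :
    Module.finrank ↥(ZMod ℓ)⟮jk (ZMod ℓ) N⟯ ↥(modularFunctionFieldFullC (ZMod ℓ) N) =
      dedekindPsi N := by
  have h := finrank_adjoin_inside (modularFunctionFieldFullC (ZMod ℓ) N) (jk (ZMod ℓ) N)
    (resField ℓ N) (resField_eq ℓ N hℓN) (kJ_le_resField ℓ N)
  rw [← h]
  exact finrank_res_eq ℓ N hℓN

/-- the input `hle` of `C/Forms` (section `AlgClosed`) for `k0 = ZMod ℓ`. -/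
theorem finrank_fullC_zmod_le (hℓN : ¬ ℓ ∣ N) :
    Module.finrank ↥(ZMod ℓ)⟮jk (ZMod ℓ) N⟯ ↥(modularFunctionFieldFullC (ZMod ℓ) N) ≤
      dedekindPsi N :=
  (finrank_fullC_zmod_eq ℓ N hℓN).le

end Fermat.Agent.S18.C.GaussHle
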