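/-
PROJECT H (S18), block C: FINITE ETALE + INTEGRAL CLOSURE UNDER BASE CHANGE (helper7).

Abstract lemma for `C/Surface.lean` (and for every later `B' ⊗[B] C = integral closure` step):

* `R₁ → R₂` a ring hom, `R₂` an integrally closed domain with fraction field `K₂`;
* `C₁` a finite etale `R₁`-algebra (`FinEt R₁ C₁`: finite free with unit discriminant);
* `E₂` a commutative `K₂`-algebra and `ι : C₁ →ₐ[R₁] E₂` such that the induced map
  `K₂ ⊗[R₁] C₁ → E₂` is bijective (`E₂` is the generic fibre of the base change).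

Then `R₂ ⊗[R₁] C₁ → E₂`, `r ⊗ x ↦ r • ι x`, is injective with range the integral closure of
`R₂` in `E₂`; hence `integralClosure R₂ E₂ ≃ₐ[R₂] R₂ ⊗[R₁] C₁` is finite etale over `R₂`, an
`R₁`-basis of `C₁` goes to an `R₂`-basis of the integral closure, and the discriminant is the
image of the discriminant.
-/
import Mathlib
import Fermat.Agent.S18.C.FinEt

set_option autoImplicit false
set_option linter.unusedSectionVars false

noncomputable section

namespace Fermat.Agent.S18.C.IntClosureBaseChange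

open Module TensorProduct
open Fermat.Agent.S18.C.FinEt

variable {R₁ C₁ : Type*} (R₂ K₂ : Type*) {E₂ : Type*}
  [CommRing R₁] [CommRing R₂] [Algebra R₁ R₂]
  [Field K₂] [Algebra R₂ K₂] [Algebra R₁ K₂] [IsScalarTower R₁ R₂ K₂]
  [CommRing C₁] [Algebra R₁ C₁]
  [CommRing E₂] [Algebra K₂ E₂] [Algebra R₂ E₂] [IsScalarTower R₂ K₂ E₂]
  [Algebra R₁ E₂] [IsScalarTower R₁ K₂ E₂]

include K₂ in
/-- The tower `R₁ → R₂ → E₂` follows from the towers through `K₂`. -/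
theorem isScalarTower_base : IsScalarTower R₁ R₂ E₂ :=
  IsScalarTower.of_algebraMap_eq fun x => by
    rw [IsScalarTower.algebraMap_apply R₁ K₂ E₂, IsScalarTower.algebraMap_apply R₁ R₂ K₂,
      ← IsScalarTower.algebraMap_apply R₂ K₂ E₂]

/-- The generic fibre map `K₂ ⊗[R₁] C₁ → E₂`, `k ⊗ x ↦ k • ι x`. -/
def genMap (ι : C₁ →ₐ[R₁] E₂) : K₂ ⊗[R₁] C₁ →ₐ[K₂] E₂ :=
  Algebra.TensorProduct.lift (Algebra.ofId K₂ E₂) ι (fun _ _ => Commute.all _ _)

theorem genMap_tmul (ι : C₁ →ₐ[R₁] E₂) (k : K₂) (x : C₁) :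
    genMap K₂ ι (k ⊗ₜ[R₁] x) = k • ι x := by
  rw [genMap, Algebra.TensorProduct.lift_tmul, Algebra.ofId_apply, Algebra.smul_def]

/-- The comparison map `R₂ ⊗[R₁] C₁ → E₂`, `r ⊗ x ↦ r • ι x`. -/
def comp (ι : C₁ →ₐ[R₁] E₂) : R₂ ⊗[R₁] C₁ →ₐ[R₂] E₂ :=
  haveI : IsScalarTower R₁ R₂ E₂ := isScalarTower_base R₂ K₂
  Algebra.TensorProduct.lift (Algebra.ofId R₂ E₂) ι (fun _ _ => Commute.all _ _)

theorem comp_tmul (ι : C₁ →ₐ[R₁] E₂) (r : R₂) (x : C₁) :
    comp R₂ K₂ ι (r ⊗ₜ[R₁] x) = r • ι x := by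
  have : IsScalarTower R₁ R₂ E₂ := isScalarTower_base R₂ K₂
  rw [comp, Algebra.TensorProduct.lift_tmul, Algebra.ofId_apply, Algebra.smul_def]

theorem comp_one_tmul (ι : C₁ →ₐ[R₁] E₂) (x : C₁) :
    comp R₂ K₂ ι ((1 : R₂) ⊗ₜ[R₁] x) = ι x := by
  rw [comp_tmul, one_smul]

/-- The generic fibre of the comparison map is the generic fibre map, through
`K₂ ⊗[R₂] (R₂ ⊗[R₁] C₁) = K₂ ⊗[R₁] C₁`. -/
theorem lift_comp_eq (ι : C₁ →ₐ[R₁] E₂) (y : K₂ ⊗[R₂] (R₂ ⊗[R₁] C₁)) :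
    (Algebra.TensorProduct.lift (Algebra.ofId K₂ E₂) (comp R₂ K₂ ι)
      (fun _ _ => Commute.all _ _) : K₂ ⊗[R₂] (R₂ ⊗[R₁] C₁) →ₐ[K₂] E₂) y =
      genMap K₂ ι (Algebra.TensorProduct.cancelBaseChange R₁ R₂ K₂ K₂ C₁ y) := by
  induction y using TensorProduct.induction_on with
  | zero => simp
  | add y z hy hz => rw [map_add, map_add, map_add, hy, hz]
  | tmul k t =>
    induction t using TensorProduct.induction_on with
    | zero => simp
    | add t u ht hu =>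
      rw [TensorProduct.tmul_add, map_add, map_add, map_add, ht, hu]
    | tmul r x =>
      rw [Algebra.TensorProduct.lift_tmul, Algebra.TensorProduct.cancelBaseChange_tmul,
        genMap_tmul, comp_tmul, Algebra.ofId_apply, ← Algebra.smul_def, smul_assoc]
      exact smul_comm k r (ι x)

theorem bijective_lift_comp (ι : C₁ →ₐ[R₁] E₂) (hbij : Function.Bijective (genMap K₂ ι)) :
    Function.Bijective (Algebra.TensorProduct.lift (Algebra.ofId K₂ E₂) (comp R₂ K₂ ι)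
      (fun _ _ => Commute.all _ _) : K₂ ⊗[R₂] (R₂ ⊗[R₁] C₁) →ₐ[K₂] E₂) := by
  have h : ⇑(Algebra.TensorProduct.lift (Algebra.ofId K₂ E₂) (comp R₂ K₂ ι)
      (fun _ _ => Commute.all _ _) : K₂ ⊗[R₂] (R₂ ⊗[R₁] C₁) →ₐ[K₂] E₂) =
      genMap K₂ ι ∘ Algebra.TensorProduct.cancelBaseChange R₁ R₂ K₂ K₂ C₁ := by
    funext y
    exact lift_comp_eq R₂ K₂ ι y
  rw [h]
  exact hbij.comp (Algebra.TensorProduct.cancelBaseChange R₁ R₂ K₂ K₂ C₁).bijective

/-- If `ι` sends an `R₁`-basis of `C₁` to a `K₂`-basis of `E₂`, the generic fibre map is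
bijective. -/
theorem genMap_bijective_of_basis {κ : Type*} (ι : C₁ →ₐ[R₁] E₂) (b : Basis κ R₁ C₁)
    (b' : Basis κ K₂ E₂) (hb : ∀ i, b' i = ι (b i)) : Function.Bijective (genMap K₂ ι) := by
  have h : (genMap K₂ ι).toLinearMap =
      ((Algebra.TensorProduct.basis K₂ b).equiv b' (Equiv.refl κ)).toLinearMap := by
    refine (Algebra.TensorProduct.basis K₂ b).ext fun i => ?_
    rw [LinearEquiv.coe_coe, Basis.equiv_apply, Equiv.refl_apply, AlgHom.toLinearMap_apply,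
      Algebra.TensorProduct.basis_apply, genMap_tmul, one_smul, hb]
  have h' : ⇑(genMap K₂ ι) = ⇑((Algebra.TensorProduct.basis K₂ b).equiv b' (Equiv.refl κ)) := by
    funext y
    exact LinearMap.congr_fun h y
  rw [h']
  exact LinearEquiv.bijective _

section Main

variable [IsDomain R₂] [IsIntegrallyClosed R₂] [IsFractionRing R₂ K₂]

/-- The comparison map is injective (`C₁` free, `R₂ ⊆ K₂`). -/
theorem comp_injective (h : FinEt R₁ C₁) (ι : C₁ →ₐ[R₁] E₂)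
    (hbij : Function.Bijective (genMap K₂ ι)) : Function.Injective (comp R₂ K₂ ι) := by
  have hT : FinEt R₂ (R₂ ⊗[R₁] C₁) := h.baseChange R₂
  have : Module.Free R₂ (R₂ ⊗[R₁] C₁) := hT.free
  have hinc : Function.Injective
      (Algebra.TensorProduct.includeRight : R₂ ⊗[R₁] C₁ →ₐ[R₂] K₂ ⊗[R₂] (R₂ ⊗[R₁] C₁)) :=
    Algebra.TensorProduct.includeRight_injective (IsFractionRing.injective R₂ K₂)
  intro t u htu
  apply hinc
  apply (bijective_lift_comp R₂ K₂ ι hbij).1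
  rw [Algebra.TensorProduct.includeRight_apply, Algebra.TensorProduct.includeRight_apply,
    Algebra.TensorProduct.lift_tmul, Algebra.TensorProduct.lift_tmul, map_one, one_mul, one_mul]
  exact htu

/-- The image of the comparison map is integral over `R₂`. -/
theorem isIntegral_comp (h : FinEt R₁ C₁) (ι : C₁ →ₐ[R₁] E₂) (t : R₂ ⊗[R₁] C₁) :
    IsIntegral R₂ (comp R₂ K₂ ι t) := by
  have hT : FinEt R₂ (R₂ ⊗[R₁] C₁) := h.baseChange R₂
  have : Module.Finite R₂ (R₂ ⊗[R₁] C₁) := hT.finite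
  exact (IsIntegral.of_finite R₂ t).map (comp R₂ K₂ ι)

/-- **Every element of `E₂` integral over `R₂` comes from `R₂ ⊗[R₁] C₁`.** -/
theorem exists_of_isIntegral (h : FinEt R₁ C₁) (ι : C₁ →ₐ[R₁] E₂)
    (hbij : Function.Bijective (genMap K₂ ι)) {x : E₂} (hx : IsIntegral R₂ x) :
    ∃ t : R₂ ⊗[R₁] C₁, comp R₂ K₂ ι t = x :=
  (h.baseChange R₂).mem_range_of_isIntegral_of_bijective K₂ (comp R₂ K₂ ι)
    (bijective_lift_comp R₂ K₂ ι hbij) hx

theorem isIntegral_iff (h : FinEt R₁ C₁) (ι : C₁ →ₐ[R₁] E₂)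
    (hbij : Function.Bijective (genMap K₂ ι)) (x : E₂) :
    IsIntegral R₂ x ↔ ∃ t : R₂ ⊗[R₁] C₁, comp R₂ K₂ ι t = x := by
  refine ⟨exists_of_isIntegral R₂ K₂ h ι hbij, ?_⟩
  rintro ⟨t, rfl⟩
  exact isIntegral_comp R₂ K₂ h ι t

/-- The range of the comparison map is the integral closure. -/
theorem range_comp (h : FinEt R₁ C₁) (ι : C₁ →ₐ[R₁] E₂)
    (hbij : Function.Bijective (genMap K₂ ι)) :
    (comp R₂ K₂ ι).range = integralClosure R₂ E₂ := by
  ext x
  rw [AlgHom.mem_range, mem_integralClosure_iff, isIntegral_iff R₂ K₂ h ι hbij]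

/-- **`R₂ ⊗[R₁] C₁` is the integral closure of `R₂` in `E₂`.** -/
def equiv (h : FinEt R₁ C₁) (ι : C₁ →ₐ[R₁] E₂) (hbij : Function.Bijective (genMap K₂ ι)) :
    R₂ ⊗[R₁] C₁ ≃ₐ[R₂] integralClosure R₂ E₂ :=
  AlgEquiv.ofBijective
    ((comp R₂ K₂ ι).codRestrict (integralClosure R₂ E₂) (isIntegral_comp R₂ K₂ h ι))
    ⟨fun t u htu => comp_injective R₂ K₂ h ι hbij (congrArg Subtype.val htu),
     fun x => by
      obtain ⟨t, ht⟩ := exists_of_isIntegral R₂ K₂ h ι hbij x.2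
      exact ⟨t, Subtype.ext ht⟩⟩

@[simp]
theorem coe_equiv (h : FinEt R₁ C₁) (ι : C₁ →ₐ[R₁] E₂) (hbij : Function.Bijective (genMap K₂ ι))
    (t : R₂ ⊗[R₁] C₁) : ((equiv R₂ K₂ h ι hbij t : integralClosure R₂ E₂) : E₂) =
      comp R₂ K₂ ι t := rfl

theorem coe_equiv_tmul (h : FinEt R₁ C₁) (ι : C₁ →ₐ[R₁] E₂)
    (hbij : Function.Bijective (genMap K₂ ι)) (r : R₂) (x : C₁) :
    ((equiv R₂ K₂ h ι hbij (r ⊗ₜ[R₁] x) : integralClosure R₂ E₂) : E₂) = r • ι x := by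
  rw [coe_equiv, comp_tmul]

/-- **The integral closure of `R₂` in `E₂` is finite etale over `R₂`.** -/
theorem finEt_integralClosure (h : FinEt R₁ C₁) (ι : C₁ →ₐ[R₁] E₂)
    (hbij : Function.Bijective (genMap K₂ ι)) : FinEt R₂ (integralClosure R₂ E₂) :=
  (h.baseChange R₂).of_algEquiv (equiv R₂ K₂ h ι hbij)

/-- An `R₁`-basis of `C₁` gives an `R₂`-basis of the integral closure. -/
def basis {κ : Type*} (h : FinEt R₁ C₁) (ι : C₁ →ₐ[R₁] E₂)
    (hbij : Function.Bijective (genMap K₂ ι)) (b : Basis κ R₁ C₁) :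
    Basis κ R₂ (integralClosure R₂ E₂) :=
  (Algebra.TensorProduct.basis R₂ b).map (equiv R₂ K₂ h ι hbij).toLinearEquiv

theorem coe_basis_apply {κ : Type*} (h : FinEt R₁ C₁) (ι : C₁ →ₐ[R₁] E₂)
    (hbij : Function.Bijective (genMap K₂ ι)) (b : Basis κ R₁ C₁) (i : κ) :
    ((basis R₂ K₂ h ι hbij b i : integralClosure R₂ E₂) : E₂) = ι (b i) := by
  rw [basis, Basis.map_apply, Algebra.TensorProduct.basis_apply]
  show ((equiv R₂ K₂ h ι hbij ((1 : R₂) ⊗ₜ[R₁] b i) : integralClosure R₂ E₂) : E₂) = _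
  rw [coe_equiv, comp_one_tmul]

/-- The discriminant of the transported basis is the image of the discriminant. -/
theorem discr_basis {κ : Type*} [Fintype κ] [DecidableEq κ] (h : FinEt R₁ C₁) (ι : C₁ →ₐ[R₁] E₂)
    (hbij : Function.Bijective (genMap K₂ ι)) (b : Basis κ R₁ C₁) :
    Algebra.discr R₂ (basis R₂ K₂ h ι hbij b) = algebraMap R₁ R₂ (Algebra.discr R₁ b) := by
  have h1 : (basis R₂ K₂ h ι hbij b : κ → integralClosure R₂ E₂) =
      (equiv R₂ K₂ h ι hbij) ∘ (Algebra.TensorProduct.basis R₂ b) := by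
    funext i
    rw [basis, Basis.map_apply]
    rfl
  rw [h1, ← Algebra.discr_eq_discr_of_algEquiv (Algebra.TensorProduct.basis R₂ b)
    (equiv R₂ K₂ h ι hbij), Specialize.discr_baseChange]

/-- The rank is preserved. -/
theorem finrank_integralClosure [Nontrivial R₁] (h : FinEt R₁ C₁) (ι : C₁ →ₐ[R₁] E₂)
    (hbij : Function.Bijective (genMap K₂ ι)) :
    Module.finrank R₂ (integralClosure R₂ E₂) = Module.finrank R₁ C₁ := by
  obtain ⟨n, b, hb⟩ := h
  rw [Module.finrank_eq_card_basis (basis R₂ K₂ ⟨n, b, hb⟩ ι hbij b),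
    Module.finrank_eq_card_basis b]

/-- Membership in the integral closure: `R₂`-combinations of the image of a basis. -/
theorem isIntegral_iff_exists_sum {κ : Type*} [Fintype κ] (h : FinEt R₁ C₁) (ι : C₁ →ₐ[R₁] E₂)
    (hbij : Function.Bijective (genMap K₂ ι)) (b : Basis κ R₁ C₁) (x : E₂) :
    IsIntegral R₂ x ↔ ∃ r : κ → R₂, x = ∑ i, r i • ι (b i) := by
  constructor
  · intro hx
    set y : integralClosure R₂ E₂ := ⟨x, hx⟩ with hy
    refine ⟨fun i => (basis R₂ K₂ h ι hbij b).repr y i, ?_⟩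
    have h1 := congrArg (Subtype.val) ((basis R₂ K₂ h ι hbij b).sum_repr y)
    rw [hy] at h1
    simp only at h1
    rw [← h1, AddSubmonoidClass.coe_finsetSum]
    refine Finset.sum_congr rfl fun i _ => ?_
    rw [← coe_basis_apply R₂ K₂ h ι hbij b i]
    rfl
  · rintro ⟨r, rfl⟩
    refine IsIntegral.sum _ fun i _ => ?_
    rw [← comp_tmul R₂ K₂ ι (r i) (b i)]
    exact isIntegral_comp R₂ K₂ h ι _

end Main

end Fermat.Agent.S18.C.IntClosureBaseChange
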