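/-
PROJECT H (S18), block C: PRODUCING THE GENERIC-FIBRE BIJECTION `hbij` of
`C/IntClosureBaseChange.lean` (helper7).

* `genMap_bijective_of_linearEquiv` : any `K₂`-linear equivalence `K₂ ⊗[R₁] C₁ ≃ E₂` which is
  `k ⊗ x ↦ k • ι x` on pure tensors proves `Function.Bijective (genMap K₂ ι)`.
* (G1) `genMap_bijective_integralClosure` : for a domain `R₁` with fraction field `K₁` and a
  commutative `K₁`-algebra `E₁` algebraic over `K₁`, the integral closure `C₁` of `R₁` in `E₁`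
  is a lattice: `K₁ ⊗[R₁] C₁ → E₁` is bijective (no freeness needed).
* (G2) `genMap_bijective_trans` : transitivity along `R₁ → K₁ → K₂`: from `K₁ ⊗[R₁] C₁ = E₁` and
  `K₂ ⊗[K₁] E₁ = E₂` conclude `K₂ ⊗[R₁] C₁ = E₂`.
* `genMap_bijective_integralClosure_trans` : (G1) + (G2): the shape used in `C/Surface.lean`
  (`R₁ = B_Q`, `K₁ = ℚ(μ)`, `E₁ = R_Q`, `K₂ = ℚ̄(μ)`, `E₂ = R_L`).
-/
import Mathlib
import Fermat.Agent.S18.C.IntClosureBaseChange

set_option autoImplicit false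
set_option linter.unusedSectionVars false

noncomputable section

namespace Fermat.Agent.S18.C.IntClosureGeneric

open Module TensorProduct
open Fermat.Agent.S18.C.IntClosureBaseChange

section LinearEquiv

variable {R₁ C₁ K₂ E₂ : Type*} [CommRing R₁] [Field K₂] [Algebra R₁ K₂] [CommRing C₁]
  [Algebra R₁ C₁] [CommRing E₂] [Algebra K₂ E₂] [Algebra R₁ E₂] [IsScalarTower R₁ K₂ E₂]

/-- Two `K₂`-linear maps out of `K₂ ⊗[R₁] C₁` agreeing on pure tensors agree. -/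
theorem genMap_eq_of_tmul (ι : C₁ →ₐ[R₁] E₂) (e : K₂ ⊗[R₁] C₁ →ₗ[K₂] E₂)
    (he : ∀ (k : K₂) (x : C₁), e (k ⊗ₜ[R₁] x) = k • ι x) (y : K₂ ⊗[R₁] C₁) :
    genMap K₂ ι y = e y := by
  induction y using TensorProduct.induction_on with
  | zero => simp
  | add y z hy hz => rw [map_add, map_add, hy, hz]
  | tmul k x => rw [genMap_tmul, he]

/-- Any linear equivalence which is `k ⊗ x ↦ k • ι x` on pure tensors shows that the generic
fibre map is bijective. -/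
theorem genMap_bijective_of_linearEquiv (ι : C₁ →ₐ[R₁] E₂) (e : K₂ ⊗[R₁] C₁ ≃ₗ[K₂] E₂)
    (he : ∀ (k : K₂) (x : C₁), e (k ⊗ₜ[R₁] x) = k • ι x) :
    Function.Bijective (genMap K₂ ι) := by
  have h : ⇑(genMap K₂ ι) = ⇑e := by
    funext y
    exact genMap_eq_of_tmul ι e.toLinearMap he y
  rw [h]
  exact e.bijective

/-- Same with a bijective linear map. -/
theorem genMap_bijective_of_linearMap (ι : C₁ →ₐ[R₁] E₂) (e : K₂ ⊗[R₁] C₁ →ₗ[K₂] E₂)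
    (hbij : Function.Bijective e)
    (he : ∀ (k : K₂) (x : C₁), e (k ⊗ₜ[R₁] x) = k • ι x) :
    Function.Bijective (genMap K₂ ι) := by
  have h : ⇑(genMap K₂ ι) = ⇑e := by
    funext y
    exact genMap_eq_of_tmul ι e he y
  rw [h]
  exact hbij

end LinearEquiv

/-! ### (G1) the integral closure is a lattice -/

section Lattice

variable (R₁ K₁ E₁ : Type*) [CommRing R₁] [IsDomain R₁] [Field K₁] [Algebra R₁ K₁]
  [IsFractionRing R₁ K₁] [CommRing E₁] [Algebra K₁ E₁] [Algebra R₁ E₁] [IsScalarTower R₁ K₁ E₁]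

include K₁ in
/-- Scalar multiplication by a nonzero element of `R₁` is bijective on a `K₁`-module. -/
theorem smul_bijective {r : R₁} (hr : r ≠ 0) : Function.Bijective fun x : E₁ => r • x := by
  have hk : algebraMap R₁ K₁ r ≠ 0 := by
    rwa [Ne, IsFractionRing.to_map_eq_zero_iff]
  constructor
  · intro x y hxy
    have h1 : (algebraMap R₁ K₁ r)⁻¹ • (r • x) = (algebraMap R₁ K₁ r)⁻¹ • (r • y) :=
      congrArg _ hxy
    rwa [← algebraMap_smul K₁ r x, ← algebraMap_smul K₁ r y, smul_smul, smul_smul,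
      inv_mul_cancel₀ hk, one_smul, one_smul] at h1
  · intro y
    refine ⟨(algebraMap R₁ K₁ r)⁻¹ • y, ?_⟩
    show r • ((algebraMap R₁ K₁ r)⁻¹ • y) = y
    rw [← algebraMap_smul K₁ r, smul_smul, mul_inv_cancel₀ hk, one_smul]

variable [Algebra.IsAlgebraic K₁ E₁]

include K₁ in
/-- The inclusion of the integral closure is a localisation of modules at `R₁ ∖ {0}`. -/
theorem isLocalizedModule_integralClosure :
    IsLocalizedModule (nonZeroDivisors R₁) (integralClosure R₁ E₁).val.toLinearMap where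
  map_units s := by
    rw [Module.End.isUnit_iff]
    exact smul_bijective R₁ K₁ E₁ (nonZeroDivisors.ne_zero s.2)
  surj y := by
    have hy : IsAlgebraic R₁ y :=
      (IsFractionRing.isAlgebraic_iff R₁ K₁ E₁).mpr (Algebra.IsAlgebraic.isAlgebraic y)
    obtain ⟨r, hr, hint⟩ := hy.exists_integral_multiple
    exact ⟨(⟨r • y, hint⟩, ⟨r, mem_nonZeroDivisors_of_ne_zero hr⟩), rfl⟩
  exists_of_eq {x₁ x₂} h := by
    refine ⟨1, ?_⟩
    rw [one_smul, one_smul]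
    exact Subtype.ext h

/-- **(G1)** The integral closure of `R₁` in an algebraic `K₁`-algebra is a lattice:
`K₁ ⊗[R₁] C₁ → E₁` is bijective. -/
theorem genMap_bijective_integralClosure :
    Function.Bijective (genMap K₁ (integralClosure R₁ E₁).val) := by
  have := isLocalizedModule_integralClosure R₁ K₁ E₁
  have hbc : IsBaseChange K₁ (integralClosure R₁ E₁).val.toLinearMap :=
    IsLocalizedModule.isBaseChange (nonZeroDivisors R₁) K₁ _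
  refine genMap_bijective_of_linearEquiv _ hbc.equiv fun k x => ?_
  rw [IsBaseChange.equiv_tmul]
  rfl

end Lattice

/-! ### (G2) transitivity -/

section Trans

variable {R₁ C₁ : Type*} (K₁ K₂ : Type*) {E₁ E₂ : Type*}
  [CommRing R₁] [Field K₁] [Field K₂] [Algebra R₁ K₁] [Algebra K₁ K₂] [Algebra R₁ K₂]
  [IsScalarTower R₁ K₁ K₂]
  [CommRing C₁] [Algebra R₁ C₁]
  [CommRing E₁] [Algebra K₁ E₁] [Algebra R₁ E₁] [IsScalarTower R₁ K₁ E₁]
  [CommRing E₂] [Algebra K₂ E₂] [Algebra K₁ E₂] [IsScalarTower K₁ K₂ E₂]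
  [Algebra R₁ E₂] [IsScalarTower R₁ K₁ E₂] [IsScalarTower R₁ K₂ E₂]

/-- **(G2)** Transitivity of generic fibres along `R₁ → K₁ → K₂`. -/
theorem genMap_bijective_trans (ι₁ : C₁ →ₐ[R₁] E₁) (hb₁ : Function.Bijective (genMap K₁ ι₁))
    (φ : E₁ →ₐ[K₁] E₂) (hb₂ : Function.Bijective (genMap K₂ φ)) :
    Function.Bijective (genMap K₂ ((φ.restrictScalars R₁).comp ι₁)) := by
  -- `K₂ ⊗[R₁] C₁ ≃ K₂ ⊗[K₁] (K₁ ⊗[R₁] C₁) ≃ K₂ ⊗[K₁] E₁ ≃ E₂`
  let e₁ : K₁ ⊗[R₁] C₁ ≃ₐ[K₁] E₁ := AlgEquiv.ofBijective (genMap K₁ ι₁) hb₁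
  let e₂ : K₂ ⊗[K₁] E₁ ≃ₐ[K₂] E₂ := AlgEquiv.ofBijective (genMap K₂ φ) hb₂
  let e₀ : K₂ ⊗[K₁] (K₁ ⊗[R₁] C₁) ≃ₐ[K₂] K₂ ⊗[R₁] C₁ :=
    Algebra.TensorProduct.cancelBaseChange R₁ K₁ K₂ K₂ C₁
  let e₃ : K₂ ⊗[K₁] (K₁ ⊗[R₁] C₁) ≃ₐ[K₂] K₂ ⊗[K₁] E₁ :=
    Algebra.TensorProduct.congr AlgEquiv.refl e₁
  let e : K₂ ⊗[R₁] C₁ ≃ₐ[K₂] E₂ := (e₀.symm.trans e₃).trans e₂
  refine genMap_bijective_of_linearEquiv _ e.toLinearEquiv fun k x => ?_
  show e₂ (e₃ (e₀.symm (k ⊗ₜ[R₁] x))) = _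
  have h0 : e₀.symm (k ⊗ₜ[R₁] x) = k ⊗ₜ[K₁] ((1 : K₁) ⊗ₜ[R₁] x) :=
    Algebra.TensorProduct.cancelBaseChange_symm_tmul R₁ K₁ K₂ K₂ C₁ k x
  rw [h0]
  have h3 : e₃ (k ⊗ₜ[K₁] ((1 : K₁) ⊗ₜ[R₁] x)) = k ⊗ₜ[K₁] ι₁ x := by
    show Algebra.TensorProduct.congr AlgEquiv.refl e₁ (k ⊗ₜ[K₁] ((1 : K₁) ⊗ₜ[R₁] x)) = _
    rw [Algebra.TensorProduct.congr_apply, Algebra.TensorProduct.map_tmul]
    show k ⊗ₜ[K₁] genMap K₁ ι₁ ((1 : K₁) ⊗ₜ[R₁] x) = _
    rw [genMap_tmul, one_smul]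
  rw [h3]
  show genMap K₂ φ (k ⊗ₜ[K₁] ι₁ x) = _
  rw [genMap_tmul]
  rfl

end Trans

/-! ### (G1) + (G2) -/

section Both

variable (R₁ K₁ K₂ : Type*) {E₁ E₂ : Type*}
  [CommRing R₁] [IsDomain R₁] [Field K₁] [Algebra R₁ K₁] [IsFractionRing R₁ K₁]
  [Field K₂] [Algebra K₁ K₂] [Algebra R₁ K₂] [IsScalarTower R₁ K₁ K₂]
  [CommRing E₁] [Algebra K₁ E₁] [Algebra R₁ E₁] [IsScalarTower R₁ K₁ E₁]
  [Algebra.IsAlgebraic K₁ E₁]
  [CommRing E₂] [Algebra K₂ E₂] [Algebra K₁ E₂] [IsScalarTower K₁ K₂ E₂]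
  [Algebra R₁ E₂] [IsScalarTower R₁ K₁ E₂] [IsScalarTower R₁ K₂ E₂]

/-- **The shape used for the arithmetic surface**: `C₁` the integral closure of `R₁` in `E₁`,
`φ : E₁ → E₂` with `K₂ ⊗[K₁] E₁ = E₂`; then `K₂ ⊗[R₁] C₁ = E₂` through `φ`. -/
theorem genMap_bijective_integralClosure_trans (φ : E₁ →ₐ[K₁] E₂)
    (hb₂ : Function.Bijective (genMap K₂ φ)) :
    Function.Bijective
      (genMap K₂ ((φ.restrictScalars R₁).comp (integralClosure R₁ E₁).val)) :=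
  genMap_bijective_trans K₁ K₂ _ (genMap_bijective_integralClosure R₁ K₁ E₁) φ hb₂

end Both

end Fermat.Agent.S18.C.IntClosureGeneric
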