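import Mathlib
import Fermat.Agent.S18.C.KModelX0
import Fermat.Agent.S18.C.SpecialPointsKModel
import Fermat.Agent.S18.C.GalDataInst
import Fermat.Agent.S18.C.NumbersHesse

/-!
# PROJECT H (S18), block C, K-side: the package `kside` for the Hesse and the Legendre cover

Frozen S18 setting (`L = ℚ̄`, `k = κ(A)`, `FL`, `Fk` the modular function fields,
`R = redDatumModL h`).  For `c = hesse` (`ℓ = 2`) and `c = legendre` (`ℓ = 3`):

* `hessePhi`, `legendrePhi` : the reduction `c.Gal ℚ̄ ≃* c.Gal k` of the group of the cover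
  (`GalRed.hesseRed / legendreRed` along `A ⊆ ℚ̄`, `A → k`), with the index compatibilities
  `hesseIdx_hessePhi`, `legendreIdx_legendrePhi`;
* **`kside_hesse`, `kside_legendre`** : from `hS : FinEt B_A C_A` alone, the conclusion of
  `SpecialPointsKModel.kside` (`FinEt D₀ C_k`, equality of ranks,
  `φk g = #{x : MaximalSpectrum C_k // φ g stabilises x}`).
-/

set_option autoImplicit false
set_option linter.unusedSectionVars false
set_option linter.style.haveILetI false

noncomputable section

namespace Fermat.Agent.S18.C.KSideCovers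

open Polynomial Module AlgebraicCurve ModularCurve Fermat.Agent.S18.CoreDefs
  Fermat.Agent.S18.C.Defs Fermat.Agent.S18.C.SurfaceDefs Fermat.Agent.S18.C.FinEt
  Fermat.Agent.S18.C.BRingLocal Fermat.Agent.S18.C.GenericCount Fermat.Agent.S18.C.CoverInst
  Fermat.Agent.S18.C.GalRed Fermat.Agent.S18.GaussFromHBar

local notation "Kb" => AlgebraicClosure ℚ

set_option synthInstance.maxHeartbeats 400000

attribute [local instance 2000] Fermat.Agent.S18.C.KModelX0.algkFk

variable (A : ValuationSubring (AlgebraicClosure ℚ))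

/-! ### residue characteristic -/

/-- `(2 : κ(A)) = 0` when `|2| < 1` -/
theorem two_eq_zero (h2 : A.valuation 2 < 1) : (2 : IsLocalRing.ResidueField A) = 0 := by
  have hmem : (2 : Kb) ∈ A := (A.valuation_le_one_iff 2).mp h2.le
  have h1 : IsLocalRing.residue A (⟨2, hmem⟩ : A) = 0 := by
    rw [IsLocalRing.residue_eq_zero_iff, IsLocalRing.mem_maximalIdeal, mem_nonunits_iff]
    intro hu
    have := (A.valuation_eq_one_iff ⟨2, hmem⟩).mp hu
    exact absurd this h2.ne
  have h3 : (⟨2, hmem⟩ : A) = 2 := Subtype.ext rfl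
  rw [h3, map_ofNat] at h1
  exact h1

/-- `(3 : κ(A)) = 0` when `|3| < 1` -/
theorem three_eq_zero (h3 : A.valuation 3 < 1) : (3 : IsLocalRing.ResidueField A) = 0 := by
  have hmem : (3 : Kb) ∈ A := (A.valuation_le_one_iff 3).mp h3.le
  have h1 : IsLocalRing.residue A (⟨3, hmem⟩ : A) = 0 := by
    rw [IsLocalRing.residue_eq_zero_iff, IsLocalRing.mem_maximalIdeal, mem_nonunits_iff]
    intro hu
    have := (A.valuation_eq_one_iff ⟨3, hmem⟩).mp hu
    exact absurd this h3.ne
  have h4 : (⟨3, hmem⟩ : A) = 3 := Subtype.ext rfl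
  rw [h4, map_ofNat] at h1
  exact h1

/-! ### Hesse -/

section Hesse

variable {A} {ω : Kb} (hω : ω ^ 2 + ω + 1 = 0)

/-- the primitive cube root of unity `ω`, as an element of `A` -/
def omegaA : A := ⟨ω, NumbersHesse.omega_mem A hω⟩

theorem coe_omegaA : ((omegaA hω : A) : Kb) = ω := rfl

theorem omegaA_spec : (omegaA (A := A) hω) ^ 2 + omegaA hω + 1 = 0 :=
  Subtype.ext (by
    show ((omegaA (A := A) hω : A) : Kb) ^ 2 + ((omegaA (A := A) hω : A) : Kb) + 1 = 0
    rw [coe_omegaA]; exact hω)

/-- the reduction `ω̄ ∈ κ(A)` of `ω` -/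
def omegaK : IsLocalRing.ResidueField A := IsLocalRing.residue A (omegaA hω)

theorem omegaK_spec : (omegaK (A := A) hω) ^ 2 + omegaK hω + 1 = 0 := by
  unfold omegaK
  rw [← map_pow, ← map_add, ← map_one (IsLocalRing.residue A), ← map_add, omegaA_spec, map_zero]

variable [hesse.Good (IsLocalRing.ResidueField A)]
  (h3 : (3 : Kb) ≠ 0) (h3' : (3 : IsLocalRing.ResidueField A) ≠ 0)

/-- **the reduction of the group of the Hesse cover** `hesse.Gal ℚ̄ ≃* hesse.Gal κ(A)` -/
def hessePhi : hesse.Gal Kb ≃* hesse.Gal (IsLocalRing.ResidueField A) :=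
  hesseRed A.subtype A.subtype_injective (IsLocalRing.residue A) (omegaA_spec hω) h3 h3'

/-- the reduction preserves the index -/
theorem hesseIdx_hessePhi (g : hesse.Gal Kb) :
    hesseIdx (omegaK_spec (A := A) hω) h3' (hessePhi hω h3 h3' g) = hesseIdx hω h3 g :=
  hesseIdx_hesseRed A.subtype A.subtype_injective (IsLocalRing.residue A) (omegaA_spec hω) h3 h3'
    hω (omegaK_spec hω) g

theorem hessePhi_eq_one_iff (g : hesse.Gal Kb) : hessePhi (A := A) hω h3 h3' g = 1 ↔ g = 1 :=
  (hessePhi hω h3 h3').map_eq_one_iff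

variable {N : ℕ} [NeZero N] (h : ReductionInputsModL A N) {ℓ : ℕ} [Fact ℓ.Prime]
  (hA : A.LiesOverPrime ℓ) (hℓN : ¬ ℓ ∣ N)
  [IsInvariantSubring (hesse.Gal Kb) (BRing hesse A)]
  [IsInvariantSubring (hesse.Gal (IsLocalRing.ResidueField A))
    (BRing hesse (⊤ : ValuationSubring (IsLocalRing.ResidueField A)))]

include h hA hℓN in
/-- **the K-side package for the Hesse cover** -/
theorem kside_hesse (hS : FinEt (BRing hesse A) (CInt hesse ↥(modularFunctionFieldBar N) A)) :
    FinEt (BRing hesse (⊤ : ValuationSubring (IsLocalRing.ResidueField A)))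
        (CInt hesse ↥(modularFunctionFieldFullC (IsLocalRing.ResidueField A) N)
          (⊤ : ValuationSubring (IsLocalRing.ResidueField A))) ∧
      Module.finrank (BRing hesse (⊤ : ValuationSubring (IsLocalRing.ResidueField A)))
          (CInt hesse ↥(modularFunctionFieldFullC (IsLocalRing.ResidueField A) N)
            (⊤ : ValuationSubring (IsLocalRing.ResidueField A))) =
        Module.finrank (BRing hesse A) (CInt hesse ↥(modularFunctionFieldBar N) A) ∧
      ∀ g : hesse.Gal Kb,
        phik (C := CInt hesse ↥(modularFunctionFieldBar N) A) A (evClosedB hesse A) g =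
          Nat.card {x : MaximalSpectrum
              (CInt hesse ↥(modularFunctionFieldFullC (IsLocalRing.ResidueField A) N)
                (⊤ : ValuationSubring (IsLocalRing.ResidueField A))) //
            ∀ y ∈ x.asIdeal, hessePhi hω h3 h3' g • y ∈ x.asIdeal} := by
  haveI := KModelX0.finiteDimensional_FL N
  haveI := KModelX0.isSeparable_Fk A N
  haveI := Fermat.Agent.S18.ResidueBasics.isAlgClosed_residueField A
  exact SpecialPointsKModel.kside (redDatumModL h) hesse (red_surjective h)
    (KModelX0.finrank_le hA hℓN) hS (hessePhi hω h3 h3').toMonoidHom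
    (GalDataInst.galData_hesseRed A (IsLocalRing.residue A) (omegaA_spec hω) h3 h3')

include hω h3 h3' h hA hℓN in
/-- `φk 1` is the number of maximal ideals of `C_k` (Hesse) -/
theorem phik_one_hesse (hS : FinEt (BRing hesse A) (CInt hesse ↥(modularFunctionFieldBar N) A)) :
    phik (C := CInt hesse ↥(modularFunctionFieldBar N) A) A (evClosedB hesse A)
        (1 : hesse.Gal Kb) =
      Nat.card (MaximalSpectrum
        (CInt hesse ↥(modularFunctionFieldFullC (IsLocalRing.ResidueField A) N)
          (⊤ : ValuationSubring (IsLocalRing.ResidueField A)))) := by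
  have h1 := (kside_hesse hω h3 h3' h hA hℓN hS).2.2 1
  have h2 : hessePhi (A := A) hω h3 h3' 1 = 1 := map_one _
  rw [h2] at h1
  refine h1.trans (Nat.card_congr (Equiv.subtypeUnivEquiv fun x y hy => ?_))
  rw [one_smul]
  exact hy

end Hesse

/-! ### Legendre -/

section Legendre

variable {A} [legendre.Good (IsLocalRing.ResidueField A)]
  (h2 : (2 : Kb) ≠ 0) (h2' : (2 : IsLocalRing.ResidueField A) ≠ 0)

/-- **the reduction of the group of the Legendre cover** `legendre.Gal ℚ̄ ≃* legendre.Gal κ(A)` -/
def legendrePhi : legendre.Gal Kb ≃* legendre.Gal (IsLocalRing.ResidueField A) :=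
  legendreRed A.subtype A.subtype_injective (IsLocalRing.residue A) h2 h2'

/-- the reduction preserves the index -/
theorem legendreIdx_legendrePhi (g : legendre.Gal Kb) :
    legendreIdx h2' (legendrePhi (A := A) h2 h2' g) = legendreIdx h2 g :=
  legendreIdx_legendreRed A.subtype A.subtype_injective (IsLocalRing.residue A) h2 h2' g

theorem legendrePhi_eq_one_iff (g : legendre.Gal Kb) :
    legendrePhi (A := A) h2 h2' g = 1 ↔ g = 1 :=
  (legendrePhi h2 h2').map_eq_one_iff

variable {N : ℕ} [NeZero N] (h : ReductionInputsModL A N) {ℓ : ℕ} [Fact ℓ.Prime]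
  (hA : A.LiesOverPrime ℓ) (hℓN : ¬ ℓ ∣ N)
  [IsInvariantSubring (legendre.Gal Kb) (BRing legendre A)]
  [IsInvariantSubring (legendre.Gal (IsLocalRing.ResidueField A))
    (BRing legendre (⊤ : ValuationSubring (IsLocalRing.ResidueField A)))]

include h hA hℓN in
/-- **the K-side package for the Legendre cover** -/
theorem kside_legendre
    (hS : FinEt (BRing legendre A) (CInt legendre ↥(modularFunctionFieldBar N) A)) :
    FinEt (BRing legendre (⊤ : ValuationSubring (IsLocalRing.ResidueField A)))
        (CInt legendre ↥(modularFunctionFieldFullC (IsLocalRing.ResidueField A) N)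
          (⊤ : ValuationSubring (IsLocalRing.ResidueField A))) ∧
      Module.finrank (BRing legendre (⊤ : ValuationSubring (IsLocalRing.ResidueField A)))
          (CInt legendre ↥(modularFunctionFieldFullC (IsLocalRing.ResidueField A) N)
            (⊤ : ValuationSubring (IsLocalRing.ResidueField A))) =
        Module.finrank (BRing legendre A) (CInt legendre ↥(modularFunctionFieldBar N) A) ∧
      ∀ g : legendre.Gal Kb,
        phik (C := CInt legendre ↥(modularFunctionFieldBar N) A) A (evClosedB legendre A) g =
          Nat.card {x : MaximalSpectrum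
              (CInt legendre ↥(modularFunctionFieldFullC (IsLocalRing.ResidueField A) N)
                (⊤ : ValuationSubring (IsLocalRing.ResidueField A))) //
            ∀ y ∈ x.asIdeal, legendrePhi h2 h2' g • y ∈ x.asIdeal} := by
  haveI := KModelX0.finiteDimensional_FL N
  haveI := KModelX0.isSeparable_Fk A N
  haveI := Fermat.Agent.S18.ResidueBasics.isAlgClosed_residueField A
  exact SpecialPointsKModel.kside (redDatumModL h) legendre (red_surjective h)
    (KModelX0.finrank_le hA hℓN) hS (legendrePhi h2 h2').toMonoidHom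
    (GalDataInst.galData_legendreRed A (IsLocalRing.residue A) h2 h2')

include h2 h2' h hA hℓN in
/-- `φk 1` is the number of maximal ideals of `C_k` (Legendre) -/
theorem phik_one_legendre
    (hS : FinEt (BRing legendre A) (CInt legendre ↥(modularFunctionFieldBar N) A)) :
    phik (C := CInt legendre ↥(modularFunctionFieldBar N) A) A (evClosedB legendre A)
        (1 : legendre.Gal Kb) =
      Nat.card (MaximalSpectrum
        (CInt legendre ↥(modularFunctionFieldFullC (IsLocalRing.ResidueField A) N)
          (⊤ : ValuationSubring (IsLocalRing.ResidueField A)))) := by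
  have h1 := (kside_legendre h2 h2' h hA hℓN hS).2.2 1
  have h3 : legendrePhi (A := A) h2 h2' 1 = 1 := map_one _
  rw [h3] at h1
  refine h1.trans (Nat.card_congr (Equiv.subtypeUnivEquiv fun x y hy => ?_))
  rw [one_smul]
  exact hy

end Legendre

end Fermat.Agent.S18.C.KSideCovers
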