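/-
PROJECT H (S18), block C, slice H-C2 part (T2'): NORMAL BASE CHANGE along a Galois extension of
the ground field.

`K0` a field, `L/K0` a (possibly infinite) Galois extension, `R0 → Q0` commutative `K0`-algebras
with `R0` integrally closed in `Q0` (no domain / field hypothesis: `Q0` may be a product of
fields).  Then `R0 ⊗[K0] L` is integrally closed in `Q0 ⊗[K0] L`:

* `exists_of_isIntegral` : every element of `Q0 ⊗[K0] L` integral over `R0` comes from
  `R0 ⊗[K0] L`.

Proof: Galois averaging.  Write `x = ∑ q_i ⊗ e_i` with `e` a basis of a finite Galois subfield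
`K1`; with `e*` the trace-dual basis, `∑_σ (1 ⊗ σ)(x (1 ⊗ e*_j)) = q_j ⊗ 1` is integral over `R0`.
-/
import Mathlib

set_option autoImplicit false
set_option linter.unusedSectionVars false

namespace Fermat.Agent.S18.C.NormalBaseChange

open scoped TensorProduct

variable {K0 L R0 Q0 : Type*} [Field K0] [Field L] [Algebra K0 L]
  [CommRing R0] [CommRing Q0] [Algebra K0 R0] [Algebra K0 Q0] [Algebra R0 Q0]
  [IsScalarTower K0 R0 Q0]

/-- the automorphism `1 ⊗ σ` of `Q0 ⊗ L`, as an `R0`-algebra automorphism -/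
noncomputable def tw (σ : L ≃ₐ[K0] L) : Q0 ⊗[K0] L ≃ₐ[R0] Q0 ⊗[K0] L :=
  Algebra.TensorProduct.congr (AlgEquiv.refl : Q0 ≃ₐ[R0] Q0) σ

@[simp]
theorem tw_tmul (σ : L ≃ₐ[K0] L) (q : Q0) (l : L) :
    tw (R0 := R0) σ (q ⊗ₜ[K0] l) = q ⊗ₜ[K0] σ l := by
  simp [tw]

theorem isIntegral_one_tmul [Algebra.IsAlgebraic K0 L] (l : L) :
    IsIntegral R0 ((1 : Q0) ⊗ₜ[K0] l) := by
  have h1 : IsIntegral K0 l := (Algebra.IsAlgebraic.isAlgebraic l).isIntegral
  have h2 : IsIntegral K0 ((1 : Q0) ⊗ₜ[K0] l) :=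
    h1.map (Algebra.TensorProduct.includeRight : L →ₐ[K0] Q0 ⊗[K0] L)
  exact h2.tower_top

/-- **Galois averaging.**  If `x = ∑ q i ⊗ e i` with `e` a basis of a finite Galois subextension
is integral over `R0`, each `q j ⊗ 1` is integral over `R0`. -/
theorem isIntegral_coeff_tmul_one [IsGalois K0 L] (K1 : IntermediateField K0 L)
    [FiniteDimensional K0 K1] [IsGalois K0 K1] {n : ℕ} (e : Module.Basis (Fin n) K0 K1)
    (q : Fin n → Q0) (hx : IsIntegral R0 (∑ i, q i ⊗ₜ[K0] ((e i : K1) : L))) (j : Fin n) :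
    IsIntegral R0 (q j ⊗ₜ[K0] (1 : L)) := by
  classical
  set e' := (Algebra.traceForm K0 K1).dualBasis (traceForm_nondegenerate K0 K1) e with he'
  have hdual : ∀ i, Algebra.trace K0 K1 (e i * e' j) = if i = j then 1 else 0 := by
    intro i
    have := LinearMap.BilinForm.apply_dualBasis_left (traceForm_nondegenerate K0 K1) e j i
    rw [Algebra.traceForm_apply] at this
    rw [mul_comm]
    exact this
  set x : Q0 ⊗[K0] L := ∑ i, q i ⊗ₜ[K0] ((e i : K1) : L) with hxdef
  set y : Q0 ⊗[K0] L := x * ((1 : Q0) ⊗ₜ[K0] ((e' j : K1) : L)) with hy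
  have hyint : IsIntegral R0 y := hx.mul (isIntegral_one_tmul _)
  have hyexp : y = ∑ i, q i ⊗ₜ[K0] (((e i * e' j : K1)) : L) := by
    rw [hy, hxdef, Finset.sum_mul]
    refine Finset.sum_congr rfl fun i _ => ?_
    rw [Algebra.TensorProduct.tmul_mul_tmul, mul_one]
    rfl
  have hz : ∑ σ : K1 ≃ₐ[K0] K1, tw (R0 := R0) (σ.liftNormal L) y = q j ⊗ₜ[K0] (1 : L) := by
    have h1 : ∀ σ : K1 ≃ₐ[K0] K1, tw (R0 := R0) (σ.liftNormal L) y
        = ∑ i, q i ⊗ₜ[K0] ((σ (e i * e' j) : K1) : L) := by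
      intro σ
      rw [hyexp, map_sum]
      refine Finset.sum_congr rfl fun i _ => ?_
      rw [tw_tmul]
      congr 1
      exact AlgEquiv.liftNormal_commutes σ L (e i * e' j)
    simp_rw [h1]
    rw [Finset.sum_comm]
    have h2 : ∀ i, ∑ σ : K1 ≃ₐ[K0] K1, q i ⊗ₜ[K0] ((σ (e i * e' j) : K1) : L)
        = q i ⊗ₜ[K0] (algebraMap K0 L (if i = j then 1 else 0)) := by
      intro i
      rw [← TensorProduct.tmul_sum]
      congr 1
      have h3 := trace_eq_sum_automorphisms (K := K0) (L := K1) (e i * e' j)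
      rw [hdual i] at h3
      have h4 : (∑ σ : K1 ≃ₐ[K0] K1, ((σ (e i * e' j) : K1) : L))
          = ((∑ σ : K1 ≃ₐ[K0] K1, σ (e i * e' j) : K1) : L) := by
        push_cast
        rfl
      rw [h4, ← h3]
      rfl
    simp_rw [h2]
    rw [Finset.sum_eq_single j]
    · simp
    · intro i _ hij
      simp [hij]
    · intro h; exact absurd (Finset.mem_univ j) h
  rw [← hz]
  exact IsIntegral.sum _ fun σ _ => hyint.map (tw (R0 := R0) (σ.liftNormal L))

/-- Every element of `Q0 ⊗[K0] L` is `∑ q i ⊗ e i` for a basis `e` of a finite Galois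
subextension. -/
theorem exists_rep [IsGalois K0 L] (x : Q0 ⊗[K0] L) :
    ∃ (K1 : IntermediateField K0 L) (_ : FiniteDimensional K0 K1) (_ : IsGalois K0 K1) (n : ℕ)
      (e : Module.Basis (Fin n) K0 K1) (q : Fin n → Q0),
      x = ∑ i, q i ⊗ₜ[K0] ((e i : K1) : L) := by
  classical
  obtain ⟨S, hS⟩ := TensorProduct.exists_finset x
  let s : Set L := ↑(S.image Prod.snd)
  have hsfin : Finite s := Finset.finite_toSet _ |>.to_subtype
  let K1g := FiniteGaloisIntermediateField.adjoin K0 s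
  let K1 : IntermediateField K0 L := K1g.toIntermediateField
  have hfd : FiniteDimensional K0 K1 := K1g.finiteDimensional
  have hgal : IsGalois K0 K1 := K1g.isGalois
  have hmem : ∀ p ∈ S, p.2 ∈ K1 := fun p hp =>
    FiniteGaloisIntermediateField.subset_adjoin K0 s
      (Finset.mem_coe.mpr (Finset.mem_image_of_mem Prod.snd hp))
  let e := Module.finBasis K0 K1
  let c : L → Fin (Module.finrank K0 K1) → K0 := fun l i =>
    if h : l ∈ K1 then e.repr ⟨l, h⟩ i else 0
  have hc : ∀ p ∈ S, p.2 = ∑ i, c p.2 i • ((e i : K1) : L) := by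
    intro p hp
    have h1 : (⟨p.2, hmem p hp⟩ : K1) = ∑ i, e.repr ⟨p.2, hmem p hp⟩ i • e i :=
      (e.sum_repr _).symm
    have h2 : p.2 = ∑ i, (e.repr ⟨p.2, hmem p hp⟩ i) • ((e i : K1) : L) := by
      have h := congrArg (fun z : K1 => (z : L)) h1
      simp only at h
      refine h.trans ?_
      push_cast
      rfl
    calc p.2 = ∑ i, (e.repr ⟨p.2, hmem p hp⟩ i) • ((e i : K1) : L) := h2
      _ = ∑ i, c p.2 i • ((e i : K1) : L) := by
        refine Finset.sum_congr rfl fun i _ => ?_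
        simp only [c, dif_pos (hmem p hp)]
  refine ⟨K1, hfd, hgal, _, e, fun i => ∑ p ∈ S, c p.2 i • p.1, ?_⟩
  rw [hS]
  have h3 : ∀ p ∈ S, p.1 ⊗ₜ[K0] p.2 = ∑ i, (c p.2 i • p.1) ⊗ₜ[K0] ((e i : K1) : L) := by
    intro p hp
    conv_lhs => rw [hc p hp, TensorProduct.tmul_sum]
    refine Finset.sum_congr rfl fun i _ => ?_
    rw [TensorProduct.tmul_smul, TensorProduct.smul_tmul']
  rw [Finset.sum_congr rfl h3, Finset.sum_comm]
  refine Finset.sum_congr rfl fun i _ => ?_
  rw [TensorProduct.sum_tmul]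

/-- (T2') **Normal base change.**  If every element of `Q0` integral over `R0` comes from `R0`,
then every element of `Q0 ⊗[K0] L` integral over `R0` comes from `R0 ⊗[K0] L`
(`L/K0` Galois, possibly infinite). -/
theorem exists_of_isIntegral [IsGalois K0 L]
    (hcl : ∀ q : Q0, IsIntegral R0 q → ∃ r : R0, algebraMap R0 Q0 r = q)
    (x : Q0 ⊗[K0] L) (hx : IsIntegral R0 x) :
    ∃ y : R0 ⊗[K0] L,
      Algebra.TensorProduct.map (IsScalarTower.toAlgHom K0 R0 Q0) (AlgHom.id K0 L) y = x := by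
  classical
  obtain ⟨K1, hfd, hgal, n, e, q, rfl⟩ := exists_rep (K0 := K0) (L := L) (Q0 := Q0) x
  have hinj : Function.Injective
      (Algebra.TensorProduct.includeLeft : Q0 →ₐ[R0] Q0 ⊗[K0] L) :=
    Algebra.TensorProduct.includeLeft_injective (S := R0)
      (FaithfulSMul.algebraMap_injective K0 L)
  have hq : ∀ j, ∃ r : R0, algebraMap R0 Q0 r = q j := by
    intro j
    have h1 := isIntegral_coeff_tmul_one (R0 := R0) K1 e q hx j
    have h2 : IsIntegral R0
        ((Algebra.TensorProduct.includeLeft : Q0 →ₐ[R0] Q0 ⊗[K0] L) (q j)) := h1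
    exact hcl (q j) ((isIntegral_algHom_iff _ hinj).mp h2)
  choose r hr using hq
  refine ⟨∑ i, r i ⊗ₜ[K0] ((e i : K1) : L), ?_⟩
  rw [map_sum]
  refine Finset.sum_congr rfl fun i _ => ?_
  rw [Algebra.TensorProduct.map_tmul, ← hr i]
  rfl

/-- `R0 ⊗[K0] L` is integral over `R0` when `L/K0` is algebraic. -/
theorem isIntegral_tensor [Algebra.IsAlgebraic K0 L] (y : R0 ⊗[K0] L) : IsIntegral R0 y := by
  induction y using TensorProduct.induction_on with
  | zero => exact isIntegral_zero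
  | tmul r l =>
    have h1 : IsIntegral R0 ((1 : R0) ⊗ₜ[K0] l) := isIntegral_one_tmul (Q0 := R0) l
    have h2 : r ⊗ₜ[K0] l = r • ((1 : R0) ⊗ₜ[K0] l) := by
      rw [TensorProduct.smul_tmul', smul_eq_mul, mul_one]
    rw [h2]
    exact h1.smul r
  | add a b ha hb => exact ha.add hb

/-- (T2'), variant with integrality over `R0 ⊗[K0] L` (through the canonical ring hom). -/
theorem exists_of_isIntegralElem [IsGalois K0 L]
    (hcl : ∀ q : Q0, IsIntegral R0 q → ∃ r : R0, algebraMap R0 Q0 r = q)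
    (x : Q0 ⊗[K0] L)
    (hx : (Algebra.TensorProduct.map (IsScalarTower.toAlgHom K0 R0 Q0)
      (AlgHom.id K0 L)).toRingHom.IsIntegralElem x) :
    ∃ y : R0 ⊗[K0] L,
      Algebra.TensorProduct.map (IsScalarTower.toAlgHom K0 R0 Q0) (AlgHom.id K0 L) y = x := by
  refine exists_of_isIntegral hcl x ?_
  set φ : R0 ⊗[K0] L →+* Q0 ⊗[K0] L :=
    (Algebra.TensorProduct.map (IsScalarTower.toAlgHom K0 R0 Q0) (AlgHom.id K0 L)).toRingHom
    with hφ
  -- transitivity of integrality through the ring hom `φ`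
  have hcomp : (algebraMap R0 (Q0 ⊗[K0] L)) = φ.comp (algebraMap R0 (R0 ⊗[K0] L)) := by
    ext r
    simp [hφ, Algebra.TensorProduct.algebraMap_apply]
  let _ : Algebra (R0 ⊗[K0] L) (Q0 ⊗[K0] L) := φ.toAlgebra
  have : IsScalarTower R0 (R0 ⊗[K0] L) (Q0 ⊗[K0] L) :=
    IsScalarTower.of_algebraMap_eq fun r => by rw [hcomp]; rfl
  have : Algebra.IsIntegral R0 (R0 ⊗[K0] L) := ⟨isIntegral_tensor⟩
  exact isIntegral_trans x hx

/-- The instance needed for `L = ℚ̄` over `ℚ`. -/
theorem isGalois_algebraicClosure_rat : IsGalois ℚ (AlgebraicClosure ℚ) :=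
  haveI : IsAlgClosure ℚ (AlgebraicClosure ℚ) := AlgebraicClosure.instIsAlgClosure ℚ
  IsAlgClosure.isGalois ℚ (AlgebraicClosure ℚ)

end Fermat.Agent.S18.C.NormalBaseChange
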