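import Fermat.Agent.S18.C.PlaceEval

/-!
# PROJECT H (S18), block C, slice H-C7k: unramified places give distinct points

`K` algebraically closed, `F/K` a function field with a separating element `x` (`hx`, `hsep`),
`a : K`.

* `regAt K x a : Subalgebra K F` : the functions regular at every place of `F` over `x = a`
  (`intRing_le_regAt` : it contains the chart `intRing K x`; `isIntegral_mem_regAt` : it is
  integrally closed in `F`);
* `ptOf hx a v hv : regAt K x a →ₐ[K] K` : the point defined by a place `v` over `x = a`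
  (`ptOf_eq_iff`, `ptOf_x`, `ptOf_injective`);
* `card_zeros_le_card_points` : for a finite family of function fields `Φ i` and a ring `C` with
  ring homomorphisms `ρ i : C → Φ i` into `regAt`, whose images contain the charts componentwise
  (`hint`), the points `ptOf v ∘ ρ i` (`v` a place of `Φ i` over `a`) are pairwise distinct; hence
  `∑ i, #(places of Φ i over a) ≤ #{ψ : C →+* K | p ψ}` for every predicate `p` they satisfy;
* `finrank_le_card_points` : if moreover all these places are unramified over `x = a`, the number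
  of points is at least `∑ i, [Φ i : K(x i)]`.
* `fracRing K μ a : Subring M` : the local ring `K[μ]_(μ - a)` inside a function field `M ∋ μ`
  (`mem_fracRing`: `d * q(μ) = p(μ)` with `q(a) ≠ 0`), with its point
  `evFrac hμ a w hw : fracRing K μ a →+* K` (`evFrac_spec` : `p(a)/q(a)`, whatever the place `w`);
* `finrank_le_card_points_closure` : for function fields `Φ i` over `M`, if every place of every
  `Φ i` over `μ = a` is unramified over the `μ`-line then the normalisation
  `integralClosure (fracRing K μ a) (∀ i, Φ i)` has at least `∑ i, [Φ i : K(μ)]` ring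
  homomorphisms to `K` extending `evFrac`.
-/

set_option autoImplicit false

namespace Fermat.Agent.S18.C.PointsDisc

open AlgebraicCurve IntermediateField
  Fermat.Agent.S24.FF Fermat.Agent.S24.Ord Fermat.Agent.S24.Fibre
  Fermat.Agent.S18.C.PlacePoints Fermat.Agent.S18.C.PlaceEval Fermat.Agent.S18.A

universe u w

section Single

variable {K : Type w} {F : Type u} [Field K] [Field F] [Algebra K F]

/-- the functions regular at every place over `x = a` -/
def regAt (K : Type w) {F : Type u} [Field K] [Field F] [Algebra K F] (x : F) (a : K) :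
    Subalgebra K F where
  carrier := {f | ∀ v : Place K F, v.adicValuation (x - algebraMap K F a) < 1 →
    v.adicValuation f ≤ 1}
  mul_mem' := fun {f g} hf hg v hv => by
    rw [map_mul]
    exact mul_le_one' (hf v hv) (hg v hv)
  one_mem' := fun v _ => by rw [map_one]
  add_mem' := fun {f g} hf hg v hv => Valuation.map_add_le _ (hf v hv) (hg v hv)
  zero_mem' := fun v _ => by rw [map_zero]; exact zero_le_one
  algebraMap_mem' := fun c v _ => (mem_iff v _).mp (v.algebraMap_mem' c)

variable {x : F} {a : K}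

theorem mem_regAt {f : F} : f ∈ regAt K x a ↔
    ∀ v : Place K F, v.adicValuation (x - algebraMap K F a) < 1 → v.adicValuation f ≤ 1 :=
  Iff.rfl

theorem x_mem_regAt : x ∈ regAt K x a := fun v hv =>
  adicValuation_le_one_of_sub_lt_one v a hv

/-- `regAt` is integrally closed in `F` -/
theorem isIntegral_mem_regAt {R : Type*} [CommRing R] [Algebra R F]
    (hR : ∀ r : R, algebraMap R F r ∈ regAt K x a) {f : F} (hf : IsIntegral R f) :
    f ∈ regAt K x a := fun v hv =>
  adicValuation_le_one_of_isIntegral v (fun r => hR r v hv) hf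

theorem intRing_le_regAt (b : intRing K x) : (b : F) ∈ regAt K x a := fun v hv =>
  (mem_iff v _).mp ((forall_mem_iff v).mpr (adicValuation_le_one_of_sub_lt_one v a hv) b)

variable [IsAlgClosed K]

/-- the inclusion of `regAt` in the valuation ring of a place over `a` -/
noncomputable def toPlace (a : K) (v : Place K F)
    (hv : v.adicValuation (x - algebraMap K F a) < 1) :
    regAt K x a →ₐ[K] v.toValuationSubring where
  toFun f := ⟨f, (mem_iff v _).mpr (f.2 v hv)⟩
  map_one' := rfl
  map_mul' _ _ := rfl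
  map_zero' := rfl
  map_add' _ _ := rfl
  commutes' _ := rfl

/-- the point of `regAt K x a` defined by a place over `x = a` -/
noncomputable def ptOf (hx : IsFF K x) (a : K) (v : Place K F)
    (hv : v.adicValuation (x - algebraMap K F a) < 1) : regAt K x a →ₐ[K] K :=
  (evalAt hx v).comp (toPlace a v hv)

theorem ptOf_eq_iff (hx : IsFF K x) (v : Place K F)
    (hv : v.adicValuation (x - algebraMap K F a) < 1) (f : regAt K x a) (c : K) :
    ptOf hx a v hv f = c ↔ v.adicValuation ((f : F) - algebraMap K F c) < 1 := by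
  rw [ptOf, AlgHom.comp_apply, evalAt_eq_iff]
  rfl

theorem ptOf_x (hx : IsFF K x) (v : Place K F)
    (hv : v.adicValuation (x - algebraMap K F a) < 1) :
    ptOf hx a v hv ⟨x, x_mem_regAt⟩ = a :=
  (ptOf_eq_iff hx v hv _ a).mpr hv

/-- distinct places over `a` give distinct points (already on the chart `intRing K x`) -/
theorem eq_of_ptOf_eq (hx : IsFF K x) (hsep : Algebra.IsSeparable K⟮x⟯ F) {v v' : Place K F}
    (hv : v.adicValuation (x - algebraMap K F a) < 1)
    (hv' : v'.adicValuation (x - algebraMap K F a) < 1)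
    (h : ∀ b : intRing K x, ptOf hx a v hv ⟨b, intRing_le_regAt b⟩ =
      ptOf hx a v' hv' ⟨b, intRing_le_regAt b⟩) : v = v' := by
  haveI := Defs.isDedekind hx hsep
  haveI := Defs.isFractionRing hx
  have hvx := (forall_mem_iff (K := K) (x := x) v).mpr (adicValuation_le_one_of_sub_lt_one v a hv)
  have hvx' := (forall_mem_iff (K := K) (x := x) v').mpr
    (adicValuation_le_one_of_sub_lt_one v' a hv')
  have hpt : pointOfPlace hx v hvx = pointOfPlace hx v' hvx' := by
    ext b
    exact h b
  rw [← placeOfPoint_pointOfPlace hx v hvx, ← placeOfPoint_pointOfPlace hx v' hvx', hpt]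

theorem ptOf_injective (hx : IsFF K x) (hsep : Algebra.IsSeparable K⟮x⟯ F) {v v' : Place K F}
    (hv : v.adicValuation (x - algebraMap K F a) < 1)
    (hv' : v'.adicValuation (x - algebraMap K F a) < 1)
    (h : ptOf hx a v hv = ptOf hx a v' hv') : v = v' :=
  eq_of_ptOf_eq hx hsep hv hv' fun b => by rw [h]

/-- if all places over `a` are unramified, their number is the degree -/
theorem card_zeros_eq_finrank (hx : IsFF K x) (hsep : Algebra.IsSeparable K⟮x⟯ F) (a : K)
    (hU : ∀ v : Place K F, 0 < v.ord (x - algebraMap K F a) → v.ord (x - algebraMap K F a) = 1) :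
    (FibreSep.zeros hx hsep a).card = Module.finrank K⟮x⟯ F := by
  have h := FibreSep.sum_zeros hx hsep a
  rw [Finset.sum_congr rfl fun v hv =>
    hU v ((FibreSep.mem_zeros_iff_ord_pos hx hsep a v).mp hv)] at h
  rw [Finset.sum_const, nsmul_eq_mul, mul_one] at h
  exact_mod_cast h

end Single

section Family

variable {K : Type w} [Field K] [IsAlgClosed K]
variable {ι : Type*} [Fintype ι] {Φ : ι → Type u} [∀ i, Field (Φ i)] [∀ i, Algebra K (Φ i)]
variable {x : ∀ i, Φ i} (hx : ∀ i, IsFF K (x i))
  (hsep : ∀ i, Algebra.IsSeparable K⟮x i⟯ (Φ i)) (a : K)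
variable {C : Type*} [CommRing C] (ρ : ∀ i, C →+* Φ i)
  (hreg : ∀ i c, ρ i c ∈ regAt K (x i) a)

/-- the point of `C` attached to a place of the `i`-th factor over `a` -/
noncomputable def ptC (i : ι) (v : Place K (Φ i))
    (hv : v.adicValuation (x i - algebraMap K (Φ i) a) < 1) : C →+* K :=
  ((ptOf (hx i) a v hv : regAt K (x i) a →ₐ[K] K) : regAt K (x i) a →+* K).comp
    ((ρ i).codRestrict (regAt K (x i) a) (hreg i))

theorem ptC_apply (i : ι) (v : Place K (Φ i))
    (hv : v.adicValuation (x i - algebraMap K (Φ i) a) < 1) (c : C) :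
    ptC hx a ρ hreg i v hv c = ptOf (hx i) a v hv ⟨ρ i c, hreg i c⟩ := rfl

theorem ptC_eq_iff (i : ι) (v : Place K (Φ i))
    (hv : v.adicValuation (x i - algebraMap K (Φ i) a) < 1) (c : C) (b : K) :
    ptC hx a ρ hreg i v hv c = b ↔ v.adicValuation (ρ i c - algebraMap K (Φ i) b) < 1 := by
  rw [ptC_apply, ptOf_eq_iff]

variable (hint : ∀ i (b : intRing K (x i)), ∃ c : C, ρ i c = b ∧ ∀ j, j ≠ i → ρ j c = 0)

include hsep hint in
/-- the points attached to distinct places (of the same or of different factors) are distinct -/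
theorem ptC_injective {i j : ι} {v : Place K (Φ i)} {v' : Place K (Φ j)}
    (hv : v.adicValuation (x i - algebraMap K (Φ i) a) < 1)
    (hv' : v'.adicValuation (x j - algebraMap K (Φ j) a) < 1)
    (h : ptC hx a ρ hreg i v hv = ptC hx a ρ hreg j v' hv') :
    (⟨i, v⟩ : Σ i, Place K (Φ i)) = ⟨j, v'⟩ := by
  by_cases hij : i = j
  · subst hij
    congr 1
    refine eq_of_ptOf_eq (hx i) (hsep i) hv hv' fun b => ?_
    obtain ⟨c, hc, -⟩ := hint i b
    have h2 := RingHom.congr_fun h c
    rw [ptC_apply, ptC_apply] at h2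
    have e : (⟨ρ i c, hreg i c⟩ : regAt K (x i) a) = ⟨b, intRing_le_regAt b⟩ := Subtype.ext hc
    rwa [e] at h2
  · exfalso
    obtain ⟨c, hc, hc'⟩ := hint i 1
    have h2 := RingHom.congr_fun h c
    have h1 : ptC hx a ρ hreg i v hv c = 1 := by
      rw [ptC_eq_iff, hc]
      simp
    have h0 : ptC hx a ρ hreg j v' hv' c = 0 := by
      rw [ptC_eq_iff, hc' j (Ne.symm hij)]
      simp
    rw [h1, h0] at h2
    exact one_ne_zero h2

include hsep hint in
/-- **lower bound for the number of points**: the places of the factors over `a` inject into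
the points of `C` (satisfying any predicate `p` which holds for the points `ptC`). -/
theorem card_zeros_le_card_points (p : (C →+* K) → Prop) [Finite {ψ : C →+* K // p ψ}]
    (hp : ∀ i (v : Place K (Φ i)) (hv : v.adicValuation (x i - algebraMap K (Φ i) a) < 1),
      p (ptC hx a ρ hreg i v hv)) :
    ∑ i, (FibreSep.zeros (hx i) (hsep i) a).card ≤ Nat.card {ψ : C →+* K // p ψ} := by
  classical
  have hmem : ∀ i (v : {v // v ∈ FibreSep.zeros (hx i) (hsep i) a}),
      (v : Place K (Φ i)).adicValuation (x i - algebraMap K (Φ i) a) < 1 := fun i v =>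
    (FibreSep.mem_zeros (hx i) (hsep i) a v).mp v.2
  let f : (Σ i, {v // v ∈ FibreSep.zeros (hx i) (hsep i) a}) → {ψ : C →+* K // p ψ} :=
    fun iv => ⟨ptC hx a ρ hreg iv.1 iv.2 (hmem iv.1 iv.2), hp iv.1 iv.2 (hmem iv.1 iv.2)⟩
  have hf : Function.Injective f := by
    rintro ⟨i, v⟩ ⟨j, v'⟩ h
    have h1 := ptC_injective hx hsep a ρ hreg hint (hmem i v) (hmem j v')
      (congrArg Subtype.val h)
    obtain ⟨rfl, h2⟩ := Sigma.mk.inj_iff.mp h1
    have h3 : (v : Place K (Φ i)) = v' := eq_of_heq h2
    exact congrArg _ (Subtype.ext h3)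
  have := Nat.card_le_card_of_injective f hf
  rwa [Nat.card_eq_fintype_card, Fintype.card_sigma,
    Finset.sum_congr rfl fun i _ => Fintype.card_coe _] at this

include hsep hint in
/-- **unramified places give the full number of points** -/
theorem finrank_le_card_points (p : (C →+* K) → Prop) [Finite {ψ : C →+* K // p ψ}]
    (hp : ∀ i (v : Place K (Φ i)) (hv : v.adicValuation (x i - algebraMap K (Φ i) a) < 1),
      p (ptC hx a ρ hreg i v hv))
    (hU : ∀ i (v : Place K (Φ i)), 0 < v.ord (x i - algebraMap K (Φ i) a) →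
      v.ord (x i - algebraMap K (Φ i) a) = 1) :
    ∑ i, Module.finrank K⟮x i⟯ (Φ i) ≤ Nat.card {ψ : C →+* K // p ψ} := by
  rw [← Finset.sum_congr rfl fun i _ => card_zeros_eq_finrank (hx i) (hsep i) a (hU i)]
  exact card_zeros_le_card_points hx hsep a ρ hreg hint p hp

end Family

/-! ### the local ring of the line at `a` and its normalisation in a product of function fields -/

section Frac

open Polynomial

variable {K : Type w} {F : Type u} [Field K] [Field F] [Algebra K F]

/-- `p(x)` is regular at the places over `x = a` -/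
theorem aeval_mem_regAt {x : F} {a : K} (p : K[X]) : aeval x p ∈ regAt K x a := fun v hv =>
  adicValuation_adjoin_le_one v (adicValuation_le_one_of_sub_lt_one v a hv)
    ⟨aeval x p, aeval_mem_adjoin_singleton K x⟩

/-- `q(x)` is a unit at the places over `x = a` if `q(a) ≠ 0` -/
theorem adicValuation_aeval_eq_one_of_eval_ne_zero {x : F} {a : K} (v : Place K F)
    (hv : v.adicValuation (x - algebraMap K F a) < 1) {q : K[X]} (hq : q.eval a ≠ 0) :
    v.adicValuation (aeval x q) = 1 := by
  have h1 : q = C (q.eval a) + (X - C a) * (q /ₘ (X - C a)) := by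
    conv_lhs => rw [← modByMonic_add_div q (X - C a), modByMonic_X_sub_C_eq_C_eval]
  have h2 : aeval x q = algebraMap K F (q.eval a) +
      (x - algebraMap K F a) * aeval x (q /ₘ (X - C a)) := by
    conv_lhs => rw [h1]
    simp
  have h3 : v.adicValuation ((x - algebraMap K F a) * aeval x (q /ₘ (X - C a))) <
      v.adicValuation (algebraMap K F (q.eval a)) := by
    rw [adicValuation_algebraMap v hq, map_mul]
    calc v.adicValuation (x - algebraMap K F a) * v.adicValuation (aeval x (q /ₘ (X - C a)))
        ≤ v.adicValuation (x - algebraMap K F a) * 1 :=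
          mul_le_mul_right (aeval_mem_regAt _ v hv) _
      _ < 1 := by rwa [mul_one]
  rw [h2, Valuation.map_add_eq_of_lt_left _ h3, adicValuation_algebraMap v hq]

/-- a fraction `p(x) / q(x)` with `q(a) ≠ 0` is regular at the places over `x = a` -/
theorem mem_regAt_of_mul_aeval_eq {x : F} {a : K} {d : F} {p q : K[X]} (hq : q.eval a ≠ 0)
    (h : d * aeval x q = aeval x p) : d ∈ regAt K x a := fun v hv => by
  have h1 := adicValuation_aeval_eq_one_of_eval_ne_zero v hv hq
  have h2 : v.adicValuation d = v.adicValuation (aeval x p) := by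
    rw [← h, map_mul, h1, mul_one]
  rw [h2]
  exact aeval_mem_regAt p v hv

/-- `K[μ]_(μ - a)`: the fractions `p(μ) / q(μ)` with `q(a) ≠ 0`, as a subring of `M` -/
def fracRing (K : Type w) {M : Type u} [Field K] [Field M] [Algebra K M] (μ : M) (a : K) :
    Subring M where
  carrier := {d | ∃ p q : K[X], q.eval a ≠ 0 ∧ d * aeval μ q = aeval μ p}
  mul_mem' := by
    rintro d d' ⟨p, q, hq, h⟩ ⟨p', q', hq', h'⟩
    refine ⟨p * p', q * q', by rw [eval_mul]; exact mul_ne_zero hq hq', ?_⟩
    rw [map_mul, map_mul, ← h, ← h']; ring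
  one_mem' := ⟨1, 1, by simp, by simp⟩
  add_mem' := by
    rintro d d' ⟨p, q, hq, h⟩ ⟨p', q', hq', h'⟩
    refine ⟨p * q' + p' * q, q * q', by rw [eval_mul]; exact mul_ne_zero hq hq', ?_⟩
    rw [map_add, map_mul, map_mul, map_mul, ← h, ← h']; ring
  zero_mem' := ⟨0, 1, by simp, by simp⟩
  neg_mem' := by
    rintro d ⟨p, q, hq, h⟩
    exact ⟨-p, q, hq, by rw [map_neg, ← h]; ring⟩

variable {M : Type u} [Field M] [Algebra K M] {μ : M} {a : K}

theorem mem_fracRing {d : M} : d ∈ fracRing K μ a ↔
    ∃ p q : K[X], q.eval a ≠ 0 ∧ d * aeval μ q = aeval μ p := Iff.rfl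

theorem aeval_mem_fracRing (p : K[X]) : aeval μ p ∈ fracRing K μ a :=
  ⟨p, 1, by simp, by simp⟩

theorem algebraMap_mem_fracRing (c : K) : algebraMap K M c ∈ fracRing K μ a :=
  ⟨C c, 1, by simp, by simp⟩

theorem mu_mem_fracRing : μ ∈ fracRing K μ a := ⟨X, 1, by simp, by simp⟩

theorem fracRing_le_regAt {d : M} (hd : d ∈ fracRing K μ a) : d ∈ regAt K μ a := by
  obtain ⟨p, q, hq, h⟩ := hd
  exact mem_regAt_of_mul_aeval_eq hq h

/-- the image of `fracRing` in an extension `Φ` of `M` is regular over `a` -/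
theorem algebraMap_fracRing_mem_regAt {Φ : Type u} [Field Φ] [Algebra K Φ] [Algebra M Φ]
    [IsScalarTower K M Φ] {d : M} (hd : d ∈ fracRing K μ a) :
    algebraMap M Φ d ∈ regAt K (algebraMap M Φ μ) a := by
  obtain ⟨p, q, hq, h⟩ := hd
  refine mem_regAt_of_mul_aeval_eq (p := p) hq ?_
  rw [aeval_algebraMap_apply, aeval_algebraMap_apply, ← map_mul, h]

/-- the value of a fraction `p(x)/q(x)` at a place over `x = a` is `p(a)/q(a)` -/
theorem adicValuation_sub_lt_one_of_frac {x : F} {a : K} (v : Place K F)
    (hv : v.adicValuation (x - algebraMap K F a) < 1) {d : F} {p q : K[X]} (hq : q.eval a ≠ 0)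
    (h : d * aeval x q = aeval x p) :
    v.adicValuation (d - algebraMap K F (p.eval a / q.eval a)) < 1 := by
  set c : K := p.eval a / q.eval a with hc
  have hroot : (p - C c * q).IsRoot a := by
    rw [IsRoot.def, eval_sub, eval_mul, eval_C, hc, div_mul_cancel₀ _ hq, sub_self]
  obtain ⟨N', hN'⟩ := dvd_iff_isRoot.mpr hroot
  have h1 : (d - algebraMap K F c) * aeval x q =
      (x - algebraMap K F a) * aeval x N' := by
    have : aeval x (p - C c * q) = aeval x ((X - C a) * N') := by rw [hN']
    simp only [map_sub, map_mul, aeval_C, aeval_X] at this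
    rw [sub_mul, h, this]
  have h2 := adicValuation_aeval_eq_one_of_eval_ne_zero v hv hq
  have h3 : v.adicValuation (d - algebraMap K F c) =
      v.adicValuation ((x - algebraMap K F a) * aeval x N') := by
    rw [← h1, map_mul, h2, mul_one]
  rw [h3, map_mul]
  calc v.adicValuation (x - algebraMap K F a) * v.adicValuation (aeval x N')
      ≤ v.adicValuation (x - algebraMap K F a) * 1 :=
        mul_le_mul_right (aeval_mem_regAt _ v hv) _
    _ < 1 := by rwa [mul_one]

end Frac

section Closure

open Polynomial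

variable {K : Type w} [Field K] [IsAlgClosed K]
variable {M : Type u} [Field M] [Algebra K M] {μ : M}

/-- evaluation at `a` on `fracRing K μ a`, through a place `w` of `M` over `a` -/
noncomputable def evFrac (hμ : IsFF K μ) (a : K) (w : Place K M)
    (hw : w.adicValuation (μ - algebraMap K M a) < 1) : fracRing K μ a →+* K :=
  ((ptOf hμ a w hw : regAt K μ a →ₐ[K] K) : regAt K μ a →+* K).comp
    ((fracRing K μ a).subtype.codRestrict (regAt K μ a) fun d => fracRing_le_regAt d.2)

variable (hμ : IsFF K μ) (a : K) (w : Place K M)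
  (hw : w.adicValuation (μ - algebraMap K M a) < 1)

theorem evFrac_eq_iff (d : fracRing K μ a) (c : K) :
    evFrac hμ a w hw d = c ↔ w.adicValuation ((d : M) - algebraMap K M c) < 1 := by
  rw [evFrac, RingHom.comp_apply]
  exact ptOf_eq_iff hμ w hw _ c

/-- `evFrac` is evaluation at `a`: it does not depend on the place `w` -/
theorem evFrac_spec (d : fracRing K μ a) {p q : K[X]} (hq : q.eval a ≠ 0)
    (h : (d : M) * aeval μ q = aeval μ p) : evFrac hμ a w hw d = p.eval a / q.eval a :=
  (evFrac_eq_iff hμ a w hw d _).mpr (adicValuation_sub_lt_one_of_frac w hw hq h)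

theorem evFrac_aeval (p : K[X]) :
    evFrac hμ a w hw ⟨aeval μ p, aeval_mem_fracRing p⟩ = p.eval a := by
  rw [evFrac_spec hμ a w hw _ (p := p) (q := 1) (by simp) (by simp)]
  simp

variable {ι : Type*} [Fintype ι] {Φ : ι → Type u} [∀ i, Field (Φ i)] [∀ i, Algebra K (Φ i)]
  [∀ i, Algebra M (Φ i)] [∀ i, IsScalarTower K M (Φ i)]

omit [IsAlgClosed K] [Fintype ι] in
/-- elements of the chart `intRing K x` of a factor are integral over `fracRing K μ a` -/
theorem isIntegral_fracRing_of_mem_intRing (i : ι) (b : intRing K (algebraMap M (Φ i) μ)) :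
    IsIntegral (fracRing K μ a) (b : Φ i) := by
  obtain ⟨p, hp, h0⟩ := b.2
  have hlift : p.map (algebraMap (polyRing K (algebraMap M (Φ i) μ)) (Φ i)) ∈
      lifts (algebraMap (fracRing K μ a) (Φ i)) := by
    rw [lifts_iff_coeff_lifts]
    intro n
    rw [coeff_map]
    obtain ⟨y, hy⟩ := p.coeff n
    have hy' : y ∈ (aeval (R := K) (algebraMap M (Φ i) μ)).range := by
      rw [← Algebra.adjoin_singleton_eq_range_aeval]
      exact hy
    obtain ⟨r, rfl⟩ := hy'
    refine ⟨⟨aeval μ r, aeval_mem_fracRing r⟩, ?_⟩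
    show algebraMap M (Φ i) (aeval μ r) = aeval (algebraMap M (Φ i) μ) r
    rw [aeval_algebraMap_apply]
  obtain ⟨q, hq, -, hqm⟩ := lifts_and_natDegree_eq_and_monic hlift (hp.map _)
  refine ⟨q, hqm, ?_⟩
  rw [← eval_map, hq, eval_map]
  exact h0

/-- the `i`-th coordinate on the normalisation of `fracRing K μ a` in `∏ i, Φ i` -/
noncomputable def coordHom (a : K) (i : ι) :
    integralClosure (fracRing K μ a) (∀ i, Φ i) →+* Φ i :=
  (Pi.evalRingHom Φ i).comp
    (integralClosure (fracRing K μ a) (∀ i, Φ i)).val.toRingHom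

omit [IsAlgClosed K] [Fintype ι] in
theorem coordHom_apply (i : ι) (c : integralClosure (fracRing K μ a) (∀ i, Φ i)) :
    coordHom (μ := μ) (Φ := Φ) a i c = (c : ∀ i, Φ i) i := rfl

omit [IsAlgClosed K] [Fintype ι] in
theorem coordHom_algebraMap (i : ι) (d : fracRing K μ a) :
    coordHom (μ := μ) (Φ := Φ) a i
      (algebraMap (fracRing K μ a) (integralClosure (fracRing K μ a) (∀ i, Φ i)) d) =
      algebraMap M (Φ i) (d : M) := rfl

omit [IsAlgClosed K] [Fintype ι] in
theorem isIntegral_coord (i : ι) (c : integralClosure (fracRing K μ a) (∀ i, Φ i)) :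
    IsIntegral (fracRing K μ a) ((c : ∀ i, Φ i) i) := by
  obtain ⟨p, hp, h0⟩ := c.2
  refine ⟨p, hp, ?_⟩
  have := congrArg (Pi.evalRingHom Φ i) h0
  rw [hom_eval₂, map_zero] at this
  exact this

omit [IsAlgClosed K] [Fintype ι] in
theorem coordHom_mem_regAt (i : ι) (c : integralClosure (fracRing K μ a) (∀ i, Φ i)) :
    coordHom (μ := μ) (Φ := Φ) a i c ∈ regAt K (algebraMap M (Φ i) μ) a := by
  rw [coordHom_apply]
  intro v hv
  have hR : ∀ r : fracRing K μ a,
      v.adicValuation (algebraMap (fracRing K μ a) (Φ i) r) ≤ 1 := fun r =>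
    algebraMap_fracRing_mem_regAt (Φ := Φ i) r.2 v hv
  exact adicValuation_le_one_of_isIntegral v hR (isIntegral_coord a i c)

omit [IsAlgClosed K] [Fintype ι] in
/-- every element of a chart, placed in its factor, lies in the normalisation -/
theorem exists_coordHom_eq [DecidableEq ι] (i : ι) (b : intRing K (algebraMap M (Φ i) μ)) :
    ∃ c : integralClosure (fracRing K μ a) (∀ i, Φ i),
      coordHom (μ := μ) (Φ := Φ) a i c = b ∧ ∀ j, j ≠ i → coordHom (μ := μ) (Φ := Φ) a j c = 0 := by
  obtain ⟨q, hq, h0⟩ := isIntegral_fracRing_of_mem_intRing a i b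
  have hint : IsIntegral (fracRing K μ a) (Pi.single i (b : Φ i) : ∀ i, Φ i) := by
    refine ⟨X * q, monic_X.mul hq, ?_⟩
    rw [eval₂_mul, eval₂_X]
    funext j
    rw [Pi.mul_apply, Pi.zero_apply]
    by_cases hj : j = i
    · subst hj
      rw [Pi.single_eq_same]
      have h1 : (Pi.evalRingHom Φ j) (eval₂ (algebraMap (fracRing K μ a) (∀ i, Φ i))
          (Pi.single j (b : Φ j)) q) = 0 := by
        rw [hom_eval₂]
        show eval₂ (algebraMap (fracRing K μ a) (Φ j)) (Pi.single j (b : Φ j) j) q = 0
        rw [Pi.single_eq_same]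
        exact h0
      rw [show eval₂ (algebraMap (fracRing K μ a) (∀ i, Φ i)) (Pi.single j (b : Φ j)) q j = 0
        from h1, mul_zero]
    · rw [Pi.single_eq_of_ne hj, zero_mul]
  refine ⟨⟨_, hint⟩, ?_, ?_⟩
  · rw [coordHom_apply]
    exact Pi.single_eq_same i _
  · intro j hj
    rw [coordHom_apply]
    exact Pi.single_eq_of_ne hj _

/-- **(H-C7k)** Let `D = K[μ]_(μ - a)` and let `C` be the normalisation of `D` in a finite product
`∏ i, Φ i` of function fields over `M ∋ μ`.  If every place of every `Φ i` over `μ = a` is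
unramified over the `μ`-line, then `C` has at least `∑ i, [Φ i : K(μ)]` points over the point
`μ = a` of `D`. -/
theorem finrank_le_card_points_closure
    (hx : ∀ i, IsFF K (algebraMap M (Φ i) μ))
    (hsep : ∀ i, Algebra.IsSeparable K⟮algebraMap M (Φ i) μ⟯ (Φ i))
    [Finite {ψ : integralClosure (fracRing K μ a) (∀ i, Φ i) →+* K //
      ∀ d : fracRing K μ a, ψ (algebraMap (fracRing K μ a) _ d) = evFrac hμ a w hw d}]
    (hU : ∀ i (v : Place K (Φ i)),
      0 < v.ord (algebraMap M (Φ i) μ - algebraMap K (Φ i) a) →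
      v.ord (algebraMap M (Φ i) μ - algebraMap K (Φ i) a) = 1) :
    ∑ i, Module.finrank K⟮algebraMap M (Φ i) μ⟯ (Φ i) ≤
      Nat.card {ψ : integralClosure (fracRing K μ a) (∀ i, Φ i) →+* K //
        ∀ d : fracRing K μ a, ψ (algebraMap (fracRing K μ a) _ d) = evFrac hμ a w hw d} := by
  classical
  refine finrank_le_card_points hx hsep a (coordHom (μ := μ) (Φ := Φ) a)
    (coordHom_mem_regAt a) (exists_coordHom_eq a) _ ?_ hU
  intro i v hv d
  rw [ptC_eq_iff, coordHom_algebraMap]
  obtain ⟨p, q, hq, h⟩ := d.2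
  rw [evFrac_spec hμ a w hw d hq h]
  refine adicValuation_sub_lt_one_of_frac v hv (p := p) hq ?_
  rw [aeval_algebraMap_apply, aeval_algebraMap_apply, ← map_mul, h]

end Closure

end Fermat.Agent.S18.C.PointsDisc
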