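import Fermat.Agent.S18.C.BaseChangeR
import Fermat.Agent.S18.C.NormalBaseChange
import Fermat.Agent.S18.C.SurfaceDefs
import Fermat.Agent.S18.C.PointsDisc

/-!
# PROJECT H (S18), block C, (S2b-2): the normal link `C_ℚ ⟶ C_D` (helper13)

* `tensorHom f hf : A ⊗[K] L →+* C`, `a ⊗ l ↦ f a * algebraMap L C l`;
* `exists_mul_isIntegralElem` : clearing denominators in an integral equation (by hand, no
  `IsLocalization` instance needed);
* `tensorHom_bijective_of_basis` : bijectivity passes from the base `M0 ⊗ L → ML` to free modules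
  with compatible bases;
* `exists_finset_of_isIntegralElem` : normal base change (helper2's `NormalBaseChange`) in the
  form "integral over the big ring ⟹ `L`-combination of integral elements of the small ring";
* the cover instances: `theta_bijective`, `exists_list_of_isIntegral_poly` (ii),
  `exists_list_of_isIntegral` (iii), `ringHom_ext_of_integral` (iv), and the same for
  `PointsDisc.fracRing`.
-/

set_option autoImplicit false
set_option linter.unusedSectionVars false
set_option linter.style.haveILetI false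

noncomputable section

namespace Fermat.Agent.S18.C.NormalLink

open Polynomial TensorProduct

/-! ### `tensorHom` -/

section TensorHom

variable {K L A C : Type*} [CommRing K] [CommRing L] [Algebra K L] [CommRing A] [CommRing C]
  [Algebra K A] [Algebra L C]
  (f : A →+* C) (hf : ∀ a : K, f (algebraMap K A a) = algebraMap L C (algebraMap K L a))

/-- `C` as a `K`-algebra through `L` (NOT an instance) -/
@[reducible] def algKC (K L C : Type*) [CommRing K] [CommRing L] [Algebra K L] [CommRing C]
    [Algebra L C] : Algebra K C :=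
  ((algebraMap L C).comp (algebraMap K L)).toAlgebra

/-- `a ⊗ l ↦ f a * l` -/
def tensorHom : A ⊗[K] L →+* C :=
  letI := algKC K L C
  (Algebra.TensorProduct.productMap
    ({ toRingHom := f, commutes' := hf } : A →ₐ[K] C)
    ({ toRingHom := algebraMap L C, commutes' := fun _ => rfl } : L →ₐ[K] C)).toRingHom

@[simp]
theorem tensorHom_tmul (a : A) (l : L) :
    tensorHom f hf (a ⊗ₜ[K] l) = f a * algebraMap L C l := by
  letI := algKC K L C
  show (Algebra.TensorProduct.productMap
    ({ toRingHom := f, commutes' := hf } : A →ₐ[K] C)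
    ({ toRingHom := algebraMap L C, commutes' := fun _ => rfl } : L →ₐ[K] C)) (a ⊗ₜ[K] l) = _
  rw [Algebra.TensorProduct.productMap_apply_tmul]
  rfl

/-- an additive equivalence with the same values on pure tensors gives bijectivity -/
theorem bijective_of_addEquiv (e : A ⊗[K] L ≃+ C)
    (he : ∀ a l, e (a ⊗ₜ[K] l) = f a * algebraMap L C l) :
    Function.Bijective (tensorHom f hf) := by
  have h : ⇑(tensorHom f hf) = ⇑e := by
    funext x
    induction x using TensorProduct.induction_on with
    | zero => rw [map_zero, map_zero]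
    | tmul a l => rw [tensorHom_tmul, he]
    | add x y hx hy => rw [map_add, map_add, hx, hy]
  rw [h]
  exact e.bijective

end TensorHom

/-! ### Clearing denominators in an integral equation -/

section Scale

variable {D A S : Type*} [CommRing D] [CommRing A] [CommRing S]

/-- If every element of `D` becomes an element of `A` after multiplication by an element of the
multiplicative set `M ⊆ A`, an element integral over `D` becomes integral over `A` after
multiplication by an element of `M`. -/
theorem exists_mul_isIntegralElem (fD : D →+* S) (fA : A →+* S) (M : Submonoid A)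
    (hDA : ∀ d : D, ∃ m ∈ M, ∃ a : A, fA m * fD d = fA a)
    {x : S} (hx : fD.IsIntegralElem x) : ∃ m ∈ M, fA.IsIntegralElem (fA m * x) := by
  classical
  obtain ⟨p, hp, hpx⟩ := hx
  set n := p.natDegree with hn
  choose m hmM a ha using hDA
  set mm : A := ∏ i ∈ Finset.range n, m (p.coeff i) with hmm
  have hmmM : mm ∈ M := Submonoid.prod_mem _ fun i _ => hmM _
  set b : ℕ → A := fun i => a (p.coeff i) * ∏ j ∈ (Finset.range n).erase i, m (p.coeff j) with hb
  have hbi : ∀ i ∈ Finset.range n, fA mm * fD (p.coeff i) = fA (b i) := by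
    intro i hi
    rw [hb, hmm, ← Finset.mul_prod_erase _ _ hi, map_mul, map_mul, mul_right_comm, ha]
  refine ⟨mm, hmmM, ?_⟩
  set q : A[X] := X ^ n + ∑ i ∈ Finset.range n, C (b i * mm ^ (n - 1 - i)) * X ^ i with hq
  have hdeg : (∑ i ∈ Finset.range n, C (b i * mm ^ (n - 1 - i)) * X ^ i : A[X]).degree < n := by
    refine lt_of_le_of_lt (degree_sum_le _ _) ?_
    refine (Finset.sup_lt_iff (WithBot.bot_lt_coe n)).2 ?_
    intro i hi
    refine lt_of_le_of_lt (degree_C_mul_X_pow_le _ _) ?_
    exact WithBot.coe_lt_coe.mpr (Finset.mem_range.mp hi)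
  refine ⟨q, monic_X_pow_add hdeg, ?_⟩
  have hpsum : eval₂ fD x p = x ^ n + ∑ i ∈ Finset.range n, fD (p.coeff i) * x ^ i := by
    conv_lhs => rw [hp.as_sum]
    rw [eval₂_add, eval₂_pow, eval₂_X, eval₂_finsetSum]
    congr 1
    refine Finset.sum_congr rfl fun i _ => ?_
    rw [eval₂_mul, eval₂_C, eval₂_pow, eval₂_X]
  have hqsum : eval₂ fA (fA mm * x) q = fA mm ^ n * eval₂ fD x p := by
    rw [hq, eval₂_add, eval₂_pow, eval₂_X, eval₂_finsetSum, hpsum, mul_add, mul_pow,
      Finset.mul_sum]
    congr 1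
    refine Finset.sum_congr rfl fun i hi => ?_
    have hi' : i < n := Finset.mem_range.mp hi
    rw [eval₂_mul, eval₂_C, eval₂_pow, eval₂_X, map_mul, map_pow, ← hbi i hi, mul_pow]
    have hexp : n = (n - 1 - i) + i + 1 := by omega
    conv_rhs => rw [hexp, pow_succ, pow_add]
    ring
  rw [hqsum, hpx, mul_zero]

end Scale

/-! ### Bijectivity of `tensorHom` for free modules with compatible bases -/

section Basis

variable {K L M0 ML Q0 QL : Type*} [CommRing K] [CommRing L] [Algebra K L]
  [CommRing M0] [CommRing ML] [Algebra K M0] [Algebra L ML]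
  (μ : M0 →+* ML) (hμ : ∀ a : K, μ (algebraMap K M0 a) = algebraMap L ML (algebraMap K L a))
  [CommRing Q0] [CommRing QL] [Algebra M0 Q0] [Algebra ML QL] [Algebra K Q0]
  [IsScalarTower K M0 Q0] [Algebra L QL] [IsScalarTower L ML QL]
  (θ : Q0 →+* QL) (hθμ : ∀ m : M0, θ (algebraMap M0 Q0 m) = algebraMap ML QL (μ m))
  (hθ : ∀ a : K, θ (algebraMap K Q0 a) = algebraMap L QL (algebraMap K L a))
  {ι : Type*} [Fintype ι] (β : Module.Basis ι M0 Q0) (β' : Module.Basis ι ML QL)
  (hβ : ∀ i, β' i = θ (β i))

/-- the `i`-th coordinate embedding `M0 ⊗ L → Q0 ⊗ L`, `m ⊗ a ↦ (m • β i) ⊗ a` -/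
def coordEmb (i : ι) : M0 ⊗[K] L →ₗ[K] Q0 ⊗[K] L :=
  TensorProduct.map
    (((LinearMap.toSpanSingleton M0 Q0 (β i)).restrictScalars K) : M0 →ₗ[K] Q0) LinearMap.id

theorem coordEmb_tmul (i : ι) (m : M0) (a : L) :
    coordEmb (K := K) (L := L) β i (m ⊗ₜ[K] a) = (m • β i) ⊗ₜ[K] a := by
  rw [coordEmb, TensorProduct.map_tmul]
  rfl

include hθμ hβ in
theorem tensorHom_coordEmb (i : ι) (w : M0 ⊗[K] L) :
    tensorHom θ hθ (coordEmb (K := K) (L := L) β i w) = tensorHom μ hμ w • β' i := by
  induction w using TensorProduct.induction_on with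
  | zero => rw [map_zero, map_zero, map_zero, zero_smul]
  | tmul m a =>
    rw [coordEmb_tmul, tensorHom_tmul, tensorHom_tmul, Algebra.smul_def, map_mul, hθμ,
      ← hβ, IsScalarTower.algebraMap_apply L ML QL, Algebra.smul_def, map_mul]
    ring
  | add x y hx hy => rw [map_add, map_add, hx, hy, map_add, add_smul]

theorem exists_coordEmb (z : Q0 ⊗[K] L) :
    ∃ w : ι → M0 ⊗[K] L, z = ∑ i, coordEmb (K := K) (L := L) β i (w i) := by
  induction z using TensorProduct.induction_on with
  | zero => exact ⟨fun _ => 0, by simp⟩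
  | tmul q a =>
    refine ⟨fun i => β.repr q i ⊗ₜ[K] a, ?_⟩
    simp_rw [coordEmb_tmul]
    rw [← TensorProduct.sum_tmul, β.sum_repr]
  | add x y hx hy =>
    obtain ⟨wx, rfl⟩ := hx
    obtain ⟨wy, rfl⟩ := hy
    refine ⟨fun i => wx i + wy i, ?_⟩
    simp_rw [map_add]
    rw [Finset.sum_add_distrib]

include hθμ hβ in
/-- **Bijectivity passes to free modules with compatible bases.** -/
theorem tensorHom_bijective_of_basis (hψ : Function.Bijective (tensorHom μ hμ)) :
    Function.Bijective (tensorHom θ hθ) := by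
  constructor
  · rw [injective_iff_map_eq_zero]
    intro z hz
    obtain ⟨w, rfl⟩ := exists_coordEmb (K := K) (L := L) β z
    rw [map_sum] at hz
    simp_rw [tensorHom_coordEmb μ hμ θ hθμ hθ β β' hβ] at hz
    have h0 := Fintype.linearIndependent_iff.mp β'.linearIndependent _ hz
    have hw : ∀ i, w i = 0 := fun i => by
      apply hψ.1
      rw [h0 i, map_zero]
    simp [hw]
  · intro x
    choose w hw using fun i => hψ.2 (β'.repr x i)
    refine ⟨∑ i, coordEmb (K := K) (L := L) β i (w i), ?_⟩
    rw [map_sum]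
    simp_rw [tensorHom_coordEmb μ hμ θ hθμ hθ β β' hβ, hw]
    exact β'.sum_repr x

end Basis

/-! ### Normal base change: integral elements are combinations of integral elements -/

section Normal

variable {K L Q0 QL : Type*} [Field K] [Field L] [Algebra K L] [IsGalois K L]
  [CommRing Q0] [CommRing QL] [Algebra K Q0] [Algebra L QL]
  (θ : Q0 →+* QL) (hθ : ∀ a : K, θ (algebraMap K Q0 a) = algebraMap L QL (algebraMap K L a))

/-- **Normal base change.**  `Θ : Q0 ⊗[K] L → QL` bijective, `R0 ⊆ Q0` a `K`-subalgebra which is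
integrally closed in `Q0`, `P → QL` a ring all of whose elements come from `R0 ⊗[K] L`.  Then every
element of `QL` integral over `P` is an `L`-combination of images of elements of `R0`. -/
theorem exists_finset_of_isIntegralElem (hΘ : Function.Bijective (tensorHom θ hθ))
    (R0 : Subalgebra K Q0) (hcl : ∀ q : Q0, IsIntegral R0 q → q ∈ R0)
    {P : Type*} [CommRing P] (fP : P →+* QL)
    (hP : ∀ p : P, ∃ y : R0 ⊗[K] L,
      tensorHom θ hθ (Algebra.TensorProduct.map (IsScalarTower.toAlgHom K R0 Q0)
        (AlgHom.id K L) y) = fP p)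
    {x : QL} (hx : fP.IsIntegralElem x) :
    ∃ S : Finset (R0 × L), x = ∑ p ∈ S, θ (p.1 : Q0) * algebraMap L QL p.2 := by
  classical
  set φ : R0 ⊗[K] L →+* Q0 ⊗[K] L :=
    (Algebra.TensorProduct.map (IsScalarTower.toAlgHom K R0 Q0) (AlgHom.id K L)).toRingHom
    with hφ
  obtain ⟨p, hp, hpx⟩ := hx
  have hlift : p.map fP ∈ Polynomial.lifts ((tensorHom θ hθ).comp φ) := by
    rw [Polynomial.lifts_iff_coeff_lifts]
    intro n
    rw [Polynomial.coeff_map]
    obtain ⟨y, hy⟩ := hP (p.coeff n)
    exact ⟨y, hy⟩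
  obtain ⟨q, hq, -, hqm⟩ := Polynomial.lifts_and_natDegree_eq_and_monic hlift (hp.map _)
  obtain ⟨x', rfl⟩ := hΘ.2 x
  have hx' : φ.IsIntegralElem x' := by
    refine ⟨q, hqm, hΘ.1 ?_⟩
    rw [map_zero, Polynomial.hom_eval₂, Polynomial.eval₂_eq_eval_map, hq,
      ← Polynomial.eval₂_eq_eval_map]
    exact hpx
  obtain ⟨y, hy⟩ := NormalBaseChange.exists_of_isIntegralElem
    (fun q hq => ⟨⟨q, hcl q hq⟩, rfl⟩) x' hx'
  obtain ⟨S, hS⟩ := TensorProduct.exists_finset y
  refine ⟨S, ?_⟩
  rw [← hy, hS, map_sum, map_sum]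
  refine Finset.sum_congr rfl fun p _ => ?_
  rw [Algebra.TensorProduct.map_tmul, tensorHom_tmul]
  rfl

end Normal

/-! ### The cover instances -/

section Cover

open Fermat.Agent.S18.C.Defs Fermat.Agent.S18.C.SurfaceDefs Fermat.Agent.S18.C.BaseChangeR
  Fermat.Agent.S18.C.RAlgStructure

variable (c : Cover) (K L : Type*) [Field K] [Field L] [Algebra K L] [c.Good K] [c.Good L]
variable {F0 F' : Type*} [Field F0] [Field F'] [Algebra (RatFunc K) F0]
  [Algebra (RatFunc L) F'] (e : F0 →+* F')
  (he : ∀ a : RatFunc K, e (algebraMap (RatFunc K) F0 a) = algebraMap (RatFunc L) F' (ratMap K L a))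

/-- `RAlg c K F0` as a `K`-algebra through the `μ`-line (NOT an instance) -/
@[reducible] def algKR0 (F0 : Type*) [Field F0] [Algebra (RatFunc K) F0] :
    Algebra K (RAlg c K F0) := algKC K (MuLine c K) (RAlg c K F0)

theorem isScalarTower_KR0 :
    letI := algKR0 c K F0
    IsScalarTower K (MuLine c K) (RAlg c K F0) :=
  letI := algKR0 c K F0
  IsScalarTower.of_algebraMap_eq fun _ => rfl

/-- the constants of `L` in `RAlg c L F'` -/
def constR : L →+* RAlg c L F' :=
  (algebraMap (MuLine c L) (RAlg c L F')).comp (algebraMap L (MuLine c L))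

theorem constR_apply (a : L) :
    constR c L (F' := F') a =
      algebraMap (MuLine c L) (RAlg c L F') (algebraMap L (MuLine c L) a) := rfl

theorem compR_algebraMap_mu (m : MuLine c K) :
    compR c K L e he (algebraMap (MuLine c K) (RAlg c K F0) m) =
      algebraMap (MuLine c L) (RAlg c L F') (muMap c K L m) :=
  compR_incMu c K L e he m

theorem compR_algebraMap_const (a : K) :
    letI := algKR0 c K F0
    letI := algKR0 c L F'
    compR c K L e he (algebraMap K (RAlg c K F0) a) =
      algebraMap L (RAlg c L F') (algebraMap K L a) := by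
  letI := algKR0 c K F0
  letI := algKR0 c L F'
  show compR c K L e he (algebraMap (MuLine c K) (RAlg c K F0) (algebraMap K (MuLine c K) a)) =
    algebraMap (MuLine c L) (RAlg c L F') (algebraMap L (MuLine c L) (algebraMap K L a))
  rw [compR_algebraMap_mu, muMap_algebraMap_const]

/-- **`Θ : R_K ⊗[K] L → R_L`**, `r ⊗ a ↦ compR r * a`. -/
def theta :
    letI := algKR0 c K F0
    RAlg c K F0 ⊗[K] L →+* RAlg c L F' :=
  letI := algKR0 c K F0
  letI := algKR0 c L F'
  tensorHom (compR c K L e he) (compR_algebraMap_const c K L e he)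

theorem theta_tmul (r : RAlg c K F0) (a : L) :
    letI := algKR0 c K F0
    theta c K L e he (r ⊗ₜ[K] a) = compR c K L e he r * constR c L (F' := F') a := by
  letI := algKR0 c K F0
  letI := algKR0 c L F'
  rw [theta, tensorHom_tmul]
  rfl

/-- the hypothesis (S2b-1) in `μ`-line form: `K(μ) ⊗[K] L → L(μ)` is bijective -/
def RatTensorBij : Prop :=
  Function.Bijective (tensorHom (muMap c K L) (muMap_algebraMap_const c K L))

variable {ι : Type*} [Fintype ι] (b : Module.Basis ι (RatFunc K) F0)
  (b' : Module.Basis ι (RatFunc L) F') (hb : ∀ i, b' i = e (b i))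

include hb in
/-- **(T)** `Θ` is bijective. -/
theorem theta_bijective (hrat : RatTensorBij c K L) :
    letI := algKR0 c K F0
    Function.Bijective (theta c K L e he) := by
  letI := algKR0 c K F0
  letI := algKR0 c L F'
  haveI := isScalarTower_KR0 c K (F0 := F0)
  haveI := isScalarTower_KR0 c L (F0 := F')
  refine tensorHom_bijective_of_basis (muMap c K L) (muMap_algebraMap_const c K L)
    (compR c K L e he) (compR_algebraMap_mu c K L e he) (compR_algebraMap_const c K L e he)
    (muBasis c K F0 b) (muBasis c L F' b') (fun i => ?_) hrat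
  rw [muBasis_apply, muBasis_apply, compR_incF, hb]

/-! #### the `K`-subalgebra `R0 = C_V ⊗ ℚ` -/

variable (V : ValuationSubring K)

/-- the nonzero natural numbers of a ring, as a multiplicative set -/
def natSubmonoid (R : Type*) [CommRing R] : Submonoid R where
  carrier := {a | ∃ n : ℕ, n ≠ 0 ∧ a = (n : R)}
  one_mem' := ⟨1, one_ne_zero, by simp⟩
  mul_mem' := by
    rintro _ _ ⟨n, hn, rfl⟩ ⟨m, hm, rfl⟩
    exact ⟨n * m, mul_ne_zero hn hm, by push_cast; rfl⟩

omit [c.Good K] in
theorem const_mem_BRing {a : K} (ha : a ∈ V) : algebraMap K (MuLine c K) a ∈ BRing c V := by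
  rw [mem_BRing]
  have h : (MuLine.of c K).symm (algebraMap K (MuLine c K) a) =
      algebraMap K[X] (RatFunc K) (Polynomial.C a) := by
    rw [AlgEquiv.commutes]
    rfl
  rw [h]
  exact algebraMap_mem_discRing V ((mem_polyV V).mpr fun i => by
    rw [Polynomial.coeff_C]
    split_ifs
    · exact ha
    · exact V.zero_mem)

theorem isIntegral_natCast_mul (n : ℕ) {q : RAlg c K F0} (hq : IsIntegral (BRing c V) q) :
    IsIntegral (BRing c V) ((n : RAlg c K F0) * q) := by
  have h : IsIntegral (BRing c V) (n : RAlg c K F0) := by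
    rw [← map_natCast (algebraMap (BRing c V) (RAlg c K F0)) n]
    exact isIntegral_algebraMap
  exact h.mul hq

variable (hK : ∀ a : K, ∃ n : ℕ, n ≠ 0 ∧ (n : K) * a ∈ V)

/-- `R0 = {q | n q ∈ C_V for some n ≠ 0}`: the `K`-subalgebra of `R_K` generated by `C_V`. -/
def R0 :
    letI := algKR0 c K F0
    Subalgebra K (RAlg c K F0) :=
  letI := algKR0 c K F0
  { carrier := {q | ∃ n : ℕ, n ≠ 0 ∧ IsIntegral (BRing c V) ((n : RAlg c K F0) * q)}
    mul_mem' := by
      rintro q q' ⟨n, hn, h⟩ ⟨n', hn', h'⟩
      refine ⟨n * n', mul_ne_zero hn hn', ?_⟩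
      have : ((n * n' : ℕ) : RAlg c K F0) * (q * q') =
          ((n : RAlg c K F0) * q) * ((n' : RAlg c K F0) * q') := by push_cast; ring
      rw [this]
      exact h.mul h'
    one_mem' := ⟨1, one_ne_zero, by simpa using isIntegral_one⟩
    add_mem' := by
      rintro q q' ⟨n, hn, h⟩ ⟨n', hn', h'⟩
      refine ⟨n * n', mul_ne_zero hn hn', ?_⟩
      have : ((n * n' : ℕ) : RAlg c K F0) * (q + q') =
          (n' : RAlg c K F0) * ((n : RAlg c K F0) * q) +
            (n : RAlg c K F0) * ((n' : RAlg c K F0) * q') := by push_cast; ring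
      rw [this]
      exact (isIntegral_natCast_mul c K V n' h).add (isIntegral_natCast_mul c K V n h')
    zero_mem' := ⟨1, one_ne_zero, by simpa using isIntegral_zero⟩
    algebraMap_mem' := by
      intro a
      obtain ⟨n, hn, hna⟩ := hK a
      refine ⟨n, hn, ?_⟩
      have h1 : (n : RAlg c K F0) * algebraMap K (RAlg c K F0) a =
          algebraMap (BRing c V) (RAlg c K F0)
            ⟨algebraMap K (MuLine c K) ((n : K) * a), const_mem_BRing c K V hna⟩ := by
        show _ = algebraMap (MuLine c K) (RAlg c K F0) (algebraMap K (MuLine c K) ((n : K) * a))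
        rw [map_mul, map_mul, map_natCast, map_natCast]
        rfl
      rw [h1]
      exact isIntegral_algebraMap }

theorem mem_R0 {q : RAlg c K F0} :
    letI := algKR0 c K F0
    q ∈ R0 c K V hK (F0 := F0) ↔
      ∃ n : ℕ, n ≠ 0 ∧ IsIntegral (BRing c V) ((n : RAlg c K F0) * q) := Iff.rfl

theorem mem_R0_of_isIntegral {q : RAlg c K F0} (hq : IsIntegral (BRing c V) q) :
    letI := algKR0 c K F0
    q ∈ R0 c K V hK (F0 := F0) :=
  ⟨1, one_ne_zero, by simpa using hq⟩

/-- `R0` is integrally closed in `R_K`. -/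
theorem R0_closed :
    letI := algKR0 c K F0
    ∀ q : RAlg c K F0, IsIntegral (R0 c K V hK (F0 := F0)) q → q ∈ R0 c K V hK (F0 := F0) := by
  letI := algKR0 c K F0
  intro q hq
  obtain ⟨m, ⟨n, hn, rfl⟩, hint⟩ := exists_mul_isIntegralElem
    (algebraMap (R0 c K V hK (F0 := F0)) (RAlg c K F0))
    (algebraMap (CInt c F0 V) (RAlg c K F0)) (natSubmonoid (CInt c F0 V))
    (fun d => by
      obtain ⟨n, hn, h⟩ := d.2
      refine ⟨(n : CInt c F0 V), ⟨n, hn, rfl⟩, ⟨_, h⟩, ?_⟩
      rw [map_natCast]
      rfl) hq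
  refine ⟨n, hn, ?_⟩
  rw [map_natCast] at hint
  have h2 : IsIntegral (CInt c F0 V) ((n : RAlg c K F0) * q) := hint
  haveI : Algebra.IsIntegral (BRing c V) (CInt c F0 V) :=
    inferInstanceAs (Algebra.IsIntegral (BRing c V)
      (integralClosure (BRing c V) (RAlg c K F0)))
  exact isIntegral_trans _ h2

/-! #### (ii) integral over `L[μ]` ⟹ `L`-combination of `compR (C_V)` -/

/-- the polynomial ring `L[X] → R_L` -/
def polyR : L[X] →+* RAlg c L F' :=
  (algebraMap (MuLine c L) (RAlg c L F')).comp (algebraMap L[X] (MuLine c L))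

omit [c.Good L] in
theorem algebraMap_X_mu : algebraMap L[X] (MuLine c L) Polynomial.X = MuLine.mu c L := by
  show algebraMap L[X] (RatFunc L) Polynomial.X = _
  rw [RatFunc.algebraMap_X]
  rfl

omit [c.Good L] in
theorem aeval_mu (q : L[X]) :
    Polynomial.aeval (MuLine.mu c L) q = algebraMap L[X] (MuLine c L) q := by
  have h : (Polynomial.aeval (MuLine.mu c L) : L[X] →ₐ[L] MuLine c L) =
      IsScalarTower.toAlgHom L L[X] (MuLine c L) :=
    Polynomial.algHom_ext (by
      rw [Polynomial.aeval_X, IsScalarTower.coe_toAlgHom', algebraMap_X_mu])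
  rw [h]
  rfl

omit [c.Good K] [c.Good L] in
theorem muMap_mu : muMap c K L (MuLine.mu c K) = MuLine.mu c L := by
  rw [MuLine.mu, muMap_of, ratMap_X]
  rfl

omit [c.Good L] in
theorem algebraMap_monomial (k : ℕ) (a : L) :
    algebraMap L[X] (MuLine c L) (Polynomial.monomial k a) =
      algebraMap L (MuLine c L) a * MuLine.mu c L ^ k := by
  rw [← Polynomial.C_mul_X_pow_eq_monomial, map_mul, map_pow, algebraMap_X_mu,
    ← Polynomial.algebraMap_eq, ← IsScalarTower.algebraMap_apply L L[X] (MuLine c L)]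

theorem exists_tensor_polyR (p : L[X]) :
    letI := algKR0 c K F0
    ∃ y : R0 c K V hK (F0 := F0) ⊗[K] L,
      theta c K L e he
        (Algebra.TensorProduct.map
          (IsScalarTower.toAlgHom K (R0 c K V hK (F0 := F0)) (RAlg c K F0))
          (AlgHom.id K L) y) = polyR c L (F' := F') p := by
  letI := algKR0 c K F0
  induction p using Polynomial.induction_on' with
  | add p q hp hq =>
    obtain ⟨y, hy⟩ := hp
    obtain ⟨z, hz⟩ := hq
    exact ⟨y + z, by rw [map_add, map_add, hy, hz, map_add]⟩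
  | monomial k a =>
    have hmu : algebraMap (MuLine c K) (RAlg c K F0) (MuLine.mu c K) ∈
        R0 c K V hK (F0 := F0) :=
      mem_R0_of_isIntegral c K V hK
        (isIntegral_algebraMap (R := BRing c V) (x := ⟨MuLine.mu c K, mu_mem_BRing c V⟩))
    refine ⟨(⟨_, pow_mem hmu k⟩ : R0 c K V hK (F0 := F0)) ⊗ₜ[K] a, ?_⟩
    rw [Algebra.TensorProduct.map_tmul, theta_tmul]
    show compR c K L e he (algebraMap (MuLine c K) (RAlg c K F0) (MuLine.mu c K) ^ k) *
      constR c L a = polyR c L (Polynomial.monomial k a)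
    rw [map_pow, compR_algebraMap_mu, muMap_mu, polyR, RingHom.comp_apply, algebraMap_monomial,
      map_mul, map_pow, mul_comm]
    rfl

include hb hK in
/-- **(ii)** Every element of `R_L` integral over `L[μ]` is an `L`-combination of images of
elements of `C_V`. -/
theorem exists_list_of_isIntegral_poly [CharZero L] [IsGalois K L] (hrat : RatTensorBij c K L)
    {x : RAlg c L F'} (hx : (polyR c L (F' := F')).IsIntegralElem x) :
    ∃ l : List (CInt c F0 V × L),
      x = (l.map fun p => compR c K L e he (p.1 : RAlg c K F0) * constR c L p.2).sum := by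
  classical
  letI := algKR0 c K F0
  letI := algKR0 c L F'
  obtain ⟨S, hS⟩ := exists_finset_of_isIntegralElem (compR c K L e he)
    (compR_algebraMap_const c K L e he) (theta_bijective c K L e he b b' hb hrat)
    (R0 c K V hK) (R0_closed c K V hK) (polyR c L) (exists_tensor_polyR c K L e he V hK) hx
  choose n hn hint using fun r : R0 c K V hK (F0 := F0) => r.2
  let g : R0 c K V hK (F0 := F0) × L → CInt c F0 V × L := fun p =>
    (⟨(n p.1 : RAlg c K F0) * p.1, hint p.1⟩, p.2 * ((n p.1 : ℕ) : L)⁻¹)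
  refine ⟨S.toList.map g, ?_⟩
  rw [List.map_map, hS, ← Finset.sum_map_toList]
  congr 1
  refine List.map_congr_left fun p _ => ?_
  show compR c K L e he (p.1 : RAlg c K F0) * constR c L p.2 =
    compR c K L e he ((n p.1 : RAlg c K F0) * p.1) * constR c L (p.2 * ((n p.1 : ℕ) : L)⁻¹)
  have hcast : ((n p.1 : ℕ) : RAlg c L F') * constR c L (((n p.1 : ℕ) : L)⁻¹) = 1 := by
    rw [← map_natCast (constR c L (F' := F')) (n p.1), ← map_mul,
      mul_inv_cancel₀ (Nat.cast_ne_zero.mpr (hn p.1)), map_one]
  rw [map_mul, map_mul, map_natCast]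
  linear_combination (-(compR c K L e he (p.1 : RAlg c K F0) * constR c L p.2)) * hcast

/-! #### (iii) integral over a local ring `D` of the `μ`-line -/

variable (D : Subring (MuLine c L)) (Mq : Submonoid L[X])
  (hD : ∀ d ∈ D, ∃ q ∈ Mq, ∃ p : L[X],
    d * Polynomial.aeval (MuLine.mu c L) q = Polynomial.aeval (MuLine.mu c L) p)

include hb hK hD in
/-- **(iii)** Every element of `R_L` integral over `D` becomes, after multiplication by a
denominator `q(μ)`, `q ∈ Mq`, an `L`-combination of images of elements of `C_V`. -/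
theorem exists_list_of_isIntegral [CharZero L] [IsGalois K L] (hrat : RatTensorBij c K L)
    {x : RAlg c L F'} (hx : IsIntegral D x) :
    ∃ q ∈ Mq, ∃ l : List (CInt c F0 V × L),
      algebraMap (MuLine c L) (RAlg c L F') (Polynomial.aeval (MuLine.mu c L) q) * x =
        (l.map fun p => compR c K L e he (p.1 : RAlg c K F0) * constR c L p.2).sum := by
  obtain ⟨q, hq, hint⟩ := exists_mul_isIntegralElem (algebraMap D (RAlg c L F'))
    (polyR c L (F' := F')) Mq (fun d => by
      obtain ⟨q, hq, p, h⟩ := hD d d.2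
      refine ⟨q, hq, p, ?_⟩
      show polyR c L q * algebraMap (MuLine c L) (RAlg c L F') (d : MuLine c L) = polyR c L p
      rw [polyR, RingHom.comp_apply, RingHom.comp_apply, ← aeval_mu, ← aeval_mu, ← map_mul,
        mul_comm, h]) hx
  obtain ⟨l, hl⟩ := exists_list_of_isIntegral_poly c K L e he b b' hb V hK hrat hint
  refine ⟨q, hq, l, ?_⟩
  rw [← hl, polyR, RingHom.comp_apply, aeval_mu]

/-! #### (iv) uniqueness of points -/

include hb hK hD in
/-- **(iv)** Two ring homomorphisms out of the normalisation of `D` in `R_L` into a domain which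
agree on `D` and on the image of `C_V`, and do not kill the denominators, are equal. -/
theorem ringHom_ext_of_integral [CharZero L] [IsGalois K L] (hrat : RatTensorBij c K L)
    (hMD : ∀ q ∈ Mq, Polynomial.aeval (MuLine.mu c L) q ∈ D)
    (hLD : ∀ a : L, algebraMap L (MuLine c L) a ∈ D)
    (hC : ∀ cc : CInt c F0 V, IsIntegral D (compR c K L e he (cc : RAlg c K F0)))
    {E : Type*} [CommRing E] [IsDomain E]
    (ψ ψ' : integralClosure D (RAlg c L F') →+* E)
    (h1 : ∀ d : D, ψ (algebraMap D _ d) = ψ' (algebraMap D _ d))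
    (h2 : ∀ cc : CInt c F0 V,
      ψ ⟨compR c K L e he (cc : RAlg c K F0), hC cc⟩ =
        ψ' ⟨compR c K L e he (cc : RAlg c K F0), hC cc⟩)
    (h0 : ∀ q (hq : q ∈ Mq),
      ψ (algebraMap D _ ⟨Polynomial.aeval (MuLine.mu c L) q, hMD q hq⟩) ≠ 0) : ψ = ψ' := by
  ext x
  obtain ⟨q, hq, l, hl⟩ :=
    exists_list_of_isIntegral c K L e he b b' hb V hK D Mq hD hrat x.2
  have hCD : algebraMap D (integralClosure D (RAlg c L F'))
        ⟨Polynomial.aeval (MuLine.mu c L) q, hMD q hq⟩ * x =
      (l.map fun p => (⟨compR c K L e he (p.1 : RAlg c K F0), hC p.1⟩ :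
          integralClosure D (RAlg c L F')) *
        algebraMap D (integralClosure D (RAlg c L F'))
          ⟨algebraMap L (MuLine c L) p.2, hLD p.2⟩).sum := by
    apply Subtype.ext
    have hval : ∀ z : integralClosure D (RAlg c L F'),
        ((z : integralClosure D (RAlg c L F')) : RAlg c L F') =
          (integralClosure D (RAlg c L F')).val z := fun _ => rfl
    rw [hval, hval, map_mul, map_list_sum, List.map_map]
    exact hl
  have e1 := congrArg ψ hCD
  have e2 := congrArg ψ' hCD
  rw [map_mul, map_list_sum, List.map_map] at e1 e2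
  have hlist : List.map (⇑ψ ∘ fun p : CInt c F0 V × L =>
        (⟨compR c K L e he (p.1 : RAlg c K F0), hC p.1⟩ :
          integralClosure D (RAlg c L F')) *
        algebraMap D (integralClosure D (RAlg c L F'))
          ⟨algebraMap L (MuLine c L) p.2, hLD p.2⟩) l =
      List.map (⇑ψ' ∘ fun p : CInt c F0 V × L =>
        (⟨compR c K L e he (p.1 : RAlg c K F0), hC p.1⟩ :
          integralClosure D (RAlg c L F')) *
        algebraMap D (integralClosure D (RAlg c L F'))
          ⟨algebraMap L (MuLine c L) p.2, hLD p.2⟩) l := by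
    refine List.map_congr_left fun p _ => ?_
    simp only [Function.comp_apply, map_mul, h1, h2]
  rw [hlist, ← e2, h1] at e1
  have h0' := h0 q hq
  rw [h1] at h0'
  exact mul_left_cancel₀ h0' e1

end Cover

/-! ### The local ring `fracRing` of helper5's `PointsDisc` -/

section FracRing

open Fermat.Agent.S18.C.Defs Fermat.Agent.S18.C.SurfaceDefs Fermat.Agent.S18.C.BaseChangeR
  Fermat.Agent.S18.C.PointsDisc

variable {L : Type*} [Field L]

/-- the polynomials not vanishing at `t` -/
def evalNeZero (t : L) : Submonoid L[X] where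
  carrier := {q | q.eval t ≠ 0}
  one_mem' := by simp
  mul_mem' := by
    intro a b ha hb
    show (a * b).eval t ≠ 0
    rw [Polynomial.eval_mul]
    exact mul_ne_zero ha hb

theorem mem_evalNeZero {t : L} {q : L[X]} : q ∈ evalNeZero t ↔ q.eval t ≠ 0 := Iff.rfl

variable (c : Cover) (t : L)

theorem fracRing_hD : ∀ d ∈ fracRing L (MuLine.mu c L) t, ∃ q ∈ evalNeZero t, ∃ p : L[X],
    d * Polynomial.aeval (MuLine.mu c L) q = Polynomial.aeval (MuLine.mu c L) p := by
  rintro d ⟨p, q, hq, h⟩
  exact ⟨q, hq, p, h⟩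

theorem fracRing_hMD : ∀ q ∈ evalNeZero t,
    Polynomial.aeval (MuLine.mu c L) q ∈ fracRing L (MuLine.mu c L) t :=
  fun q _ => aeval_mem_fracRing q

theorem fracRing_hLD : ∀ a : L, algebraMap L (MuLine c L) a ∈ fracRing L (MuLine.mu c L) t :=
  fun a => algebraMap_mem_fracRing a

end FracRing

/-! ### `ℚ → ℚ̄`: the instances for `compRBar` -/

section Instances

open ModularCurve ModularCurve.IgusaScheme
open Fermat.Agent.S18.C.Defs Fermat.Agent.S18.C.SurfaceDefs Fermat.Agent.S18.C.BaseChangeR
  Fermat.Agent.S18.C.PointsDisc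

local notation "Kb" => AlgebraicClosure ℚ

variable (N : ℕ) [NeZero N] (c : Cover) [c.Good ℚ] [c.Good Kb] (V : ValuationSubring ℚ)

/-- every rational number has a natural multiple in `V` -/
theorem hK_rat : ∀ a : ℚ, ∃ n : ℕ, n ≠ 0 ∧ (n : ℚ) * a ∈ V := fun a =>
  ⟨a.den, a.den_nz, by
    rw [mul_comm, Rat.mul_den_eq_num]
    exact intCast_mem V a.num⟩

/-- (S2b-1) from an additive equivalence with the right values on pure tensors (the shape of
`RatFuncTensor.ratTensorEquiv`). -/
theorem ratTensorBij_of_addEquiv {K L : Type*} [Field K] [Field L] [Algebra K L] (c : Cover)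
    (e : MuLine c K ⊗[K] L ≃+ MuLine c L)
    (he : ∀ m l, e (m ⊗ₜ[K] l) = muMap c K L m * algebraMap L (MuLine c L) l) :
    RatTensorBij c K L :=
  bijective_of_addEquiv (muMap c K L) (muMap_algebraMap_const c K L) e he

/-- **(ii)** for `ℚ → ℚ̄`. -/
theorem exists_list_of_isIntegral_polyBar (hrat : RatTensorBij c ℚ Kb)
    {x : RAlg c Kb ↥(modularFunctionFieldBar N)}
    (hx : (polyR c Kb (F' := ↥(modularFunctionFieldBar N))).IsIntegralElem x) :
    ∃ l : List (CInt c ↥(modularFunctionFieldFull N) V × Kb),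
      x = (l.map fun p => compRBar N c (p.1 : RAlg c ℚ ↥(modularFunctionFieldFull N)) *
        constR c Kb p.2).sum := by
  haveI := (finrank_ratFunc_full N).1
  haveI := NormalBaseChange.isGalois_algebraicClosure_rat
  exact exists_list_of_isIntegral_poly c ℚ Kb (Forms.embBar N) (embBar_algebraMap_ratFunc N)
    (Module.finBasis (RatFunc ℚ) ↥(modularFunctionFieldFull N))
    (exists_basis_bar N (Module.finBasis (RatFunc ℚ) ↥(modularFunctionFieldFull N))).choose
    (exists_basis_bar N (Module.finBasis (RatFunc ℚ) ↥(modularFunctionFieldFull N))).choose_spec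
    V (hK_rat V) hrat hx

/-- **(iii)** for `ℚ → ℚ̄` and `D = ℚ̄[μ]_(μ - t)`. -/
theorem exists_list_of_isIntegral_fracRingBar (hrat : RatTensorBij c ℚ Kb) (t : Kb)
    {x : RAlg c Kb ↥(modularFunctionFieldBar N)}
    (hx : IsIntegral (fracRing Kb (MuLine.mu c Kb) t) x) :
    ∃ q : Kb[X], q.eval t ≠ 0 ∧ ∃ l : List (CInt c ↥(modularFunctionFieldFull N) V × Kb),
      algebraMap (MuLine c Kb) (RAlg c Kb ↥(modularFunctionFieldBar N))
          (Polynomial.aeval (MuLine.mu c Kb) q) * x =
        (l.map fun p => compRBar N c (p.1 : RAlg c ℚ ↥(modularFunctionFieldFull N)) *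
          constR c Kb p.2).sum := by
  haveI := (finrank_ratFunc_full N).1
  haveI := NormalBaseChange.isGalois_algebraicClosure_rat
  obtain ⟨q, hq, l, hl⟩ := exists_list_of_isIntegral c ℚ Kb (Forms.embBar N)
    (embBar_algebraMap_ratFunc N)
    (Module.finBasis (RatFunc ℚ) ↥(modularFunctionFieldFull N))
    (exists_basis_bar N (Module.finBasis (RatFunc ℚ) ↥(modularFunctionFieldFull N))).choose
    (exists_basis_bar N (Module.finBasis (RatFunc ℚ) ↥(modularFunctionFieldFull N))).choose_spec
    V (hK_rat V) (fracRing Kb (MuLine.mu c Kb) t) (evalNeZero t) (fracRing_hD c t) hrat hx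
  exact ⟨q, hq, l, hl⟩

/-- **(iv)** for `ℚ → ℚ̄` and `D = ℚ̄[μ]_(μ - t)`: a point of the normalisation `C_D` of `D` in
`R_L` is determined by its values on `D` and on the image of `C_ℚ`. -/
theorem ringHom_ext_fracRingBar (hrat : RatTensorBij c ℚ Kb) (t : Kb)
    (hC : ∀ cc : CInt c ↥(modularFunctionFieldFull N) V,
      IsIntegral (fracRing Kb (MuLine.mu c Kb) t)
        (compRBar N c (cc : RAlg c ℚ ↥(modularFunctionFieldFull N))))
    {E : Type*} [CommRing E] [IsDomain E]
    (ψ ψ' : integralClosure (fracRing Kb (MuLine.mu c Kb) t)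
      (RAlg c Kb ↥(modularFunctionFieldBar N)) →+* E)
    (h1 : ∀ d : fracRing Kb (MuLine.mu c Kb) t, ψ (algebraMap _ _ d) = ψ' (algebraMap _ _ d))
    (h2 : ∀ cc : CInt c ↥(modularFunctionFieldFull N) V,
      ψ ⟨compRBar N c (cc : RAlg c ℚ ↥(modularFunctionFieldFull N)), hC cc⟩ =
        ψ' ⟨compRBar N c (cc : RAlg c ℚ ↥(modularFunctionFieldFull N)), hC cc⟩)
    (h0 : ∀ q : Kb[X], q.eval t ≠ 0 →
      ψ (algebraMap _ _ (⟨Polynomial.aeval (MuLine.mu c Kb) q, aeval_mem_fracRing q⟩ :
        fracRing Kb (MuLine.mu c Kb) t)) ≠ 0) : ψ = ψ' := by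
  haveI := (finrank_ratFunc_full N).1
  haveI := NormalBaseChange.isGalois_algebraicClosure_rat
  exact ringHom_ext_of_integral c ℚ Kb (Forms.embBar N) (embBar_algebraMap_ratFunc N)
    (Module.finBasis (RatFunc ℚ) ↥(modularFunctionFieldFull N))
    (exists_basis_bar N (Module.finBasis (RatFunc ℚ) ↥(modularFunctionFieldFull N))).choose
    (exists_basis_bar N (Module.finBasis (RatFunc ℚ) ↥(modularFunctionFieldFull N))).choose_spec
    V (hK_rat V) (fracRing Kb (MuLine.mu c Kb) t) (evalNeZero t) (fracRing_hD c t) hrat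
    (fracRing_hMD c t) (fracRing_hLD c t) hC ψ ψ' h1 h2 (fun q hq => h0 q hq)

end Instances

end Fermat.Agent.S18.C.NormalLink
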