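import Mathlib
import Fermat.Agent.S18.C.NumbersHesse
import Fermat.Agent.S18.C.NumbersLegendre

/-!
# PROJECT H (S18), block C, slice N4: the numerology of contract K3, assembled

For `c = hesse` (`ℓ = 2`) and `c = legendre` (`ℓ = 3`), `K` algebraically closed with a valuation
subring `A` over `ℓ` whose residue field is algebraically closed, `F` a `K(j)`-algebra,
`B = BRing c A`, `C = CInt c F A` with a `B`-basis `b` of unit discriminant (from
`FinEt.isUnit_discr`): `GenericCount.k3_of_counts` with ALL its numerical inputs discharged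
(`NumbersHesse`, `NumbersLegendre`).  The only remaining hypothesis is the special-fibre identity

  `#H₀ * D + ∑_{g ≠ 1} i₀ g * φk g = d₀ * φk 1`,   `d₀ = 14` resp. `7`,
  `i₀ g = iH (hesseIdx g)` resp. `iL (legendreIdx g)`,

and the conclusion is `D + #(pts over M₀ / H₀) + #(pts over M₁₇₂₈ / H₀) = 2 φk 1`.
-/

set_option autoImplicit false

namespace Fermat.Agent.S18.C.Numbers

open Fermat.Agent.S18.C.Defs Fermat.Agent.S18.C.SurfaceDefs Fermat.Agent.S18.C.BRingLocal
open Fermat.Agent.S18.C.GenericCount Fermat.Agent.S18.C.CoverInst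

/-- **K3 for the Hesse cover at `ℓ = 2`**, all numerical inputs discharged -/
theorem k3_hesse {K : Type*} [Field K] [hesse.Good K] [IsAlgClosed K] (A : ValuationSubring K)
    [IsAlgClosed (IsLocalRing.ResidueField A)]
    [IsInvariantSubring (hesse.Gal K) (BRing hesse A)]
    {ω : K} (hω : ω ^ 2 + ω + 1 = 0) (h2 : A.valuation 2 < 1) (h2ne : (2 : K) ≠ 0)
    {s : K} (hs : s ^ 2 = 3) (h3 : (3 : K) ≠ 0)
    (F : Type*) [CommRing F] [Algebra (RatFunc K) F]
    {ι : Type*} [Fintype ι] [DecidableEq ι]
    (b : Module.Basis ι (BRing hesse A) (CInt hesse F A))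
    (hd : IsUnit (Algebra.discr (BRing hesse A) b))
    [Fintype (hesse.Gal K)] [DecidableEq (hesse.Gal K)] (D : ℕ)
    (hD : Nat.card (hesse.Gal K) * D + ∑ g ∈ Finset.univ.erase (1 : hesse.Gal K),
      NumbersHesse.i0 hω h3 g * phik (C := CInt hesse F A) A (evClosedB hesse A) g =
        14 * phik (C := CInt hesse F A) A (evClosedB hesse A) (1 : hesse.Gal K)) :
    D + Nat.card (Quotient (MulAction.orbitRel (hesse.Gal K)
          (ptsOver (C := CInt hesse F A) (smul_algebraMap hesse F A)
            (NumbersHesse.M0 A hω h2)))) +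
        Nat.card (Quotient (MulAction.orbitRel (hesse.Gal K)
          (ptsOver (C := CInt hesse F A) (smul_algebraMap hesse F A)
            (NumbersHesse.M1728 A hω h2)))) =
      2 * phik (C := CInt hesse F A) A (evClosedB hesse A) (1 : hesse.Gal K) := by
  have := NumbersHesse.finite_M0 A hω h2 h2ne
  have := NumbersHesse.finite_M1728 A hω h2 h2ne hs
  exact k3_of_counts A b (smul_algebraMap hesse F A) (NumbersHesse.M0 A hω h2)
    (NumbersHesse.M1728 A hω h2) (evClosedB hesse A) (NumbersHesse.isGoodSet_M0 A hω h2 b hd)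
    (NumbersHesse.isGoodSet_M1728 A hω h2 b hd) (NumbersHesse.i0 hω h3)
    (fun g hg => NumbersHesse.card_fixedBy_add A hω h2 h2ne hs h3 g hg) D 14 hD
    (NumbersHesse.card_add_card_add A hω h2 h2ne hs h3)

/-- **K3 for the Legendre cover at `ℓ = 3`**, all numerical inputs discharged -/
theorem k3_legendre {K : Type*} [Field K] [legendre.Good K] [IsAlgClosed K]
    (A : ValuationSubring K) [IsAlgClosed (IsLocalRing.ResidueField A)]
    [IsInvariantSubring (legendre.Gal K) (BRing legendre A)]
    (h3 : A.valuation 3 < 1) (h3ne : (3 : K) ≠ 0) {ω : K} (hω : ω ^ 2 + ω + 1 = 0)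
    (h2 : (2 : K) ≠ 0)
    (F : Type*) [CommRing F] [Algebra (RatFunc K) F]
    {ι : Type*} [Fintype ι] [DecidableEq ι]
    (b : Module.Basis ι (BRing legendre A) (CInt legendre F A))
    (hd : IsUnit (Algebra.discr (BRing legendre A) b))
    [Fintype (legendre.Gal K)] [DecidableEq (legendre.Gal K)] (D : ℕ)
    (hD : Nat.card (legendre.Gal K) * D + ∑ g ∈ Finset.univ.erase (1 : legendre.Gal K),
      NumbersLegendre.i0 h2 g * phik (C := CInt legendre F A) A (evClosedB legendre A) g =
        7 * phik (C := CInt legendre F A) A (evClosedB legendre A) (1 : legendre.Gal K)) :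
    D + Nat.card (Quotient (MulAction.orbitRel (legendre.Gal K)
          (ptsOver (C := CInt legendre F A) (smul_algebraMap legendre F A)
            (NumbersLegendre.M0 A h3)))) +
        Nat.card (Quotient (MulAction.orbitRel (legendre.Gal K)
          (ptsOver (C := CInt legendre F A) (smul_algebraMap legendre F A)
            (NumbersLegendre.M1728 A h3)))) =
      2 * phik (C := CInt legendre F A) A (evClosedB legendre A) (1 : legendre.Gal K) := by
  have := NumbersLegendre.finite_M0 A h3 h3ne hω
  have := NumbersLegendre.finite_M1728 A h3 h3ne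
  exact k3_of_counts A b (smul_algebraMap legendre F A) (NumbersLegendre.M0 A h3)
    (NumbersLegendre.M1728 A h3) (evClosedB legendre A) (NumbersLegendre.isGoodSet_M0 A h3 b hd)
    (NumbersLegendre.isGoodSet_M1728 A h3 b hd) (NumbersLegendre.i0 h2)
    (fun g hg => NumbersLegendre.card_fixedBy_add A h3 h3ne hω h2 g hg) D 7 hD
    (NumbersLegendre.card_add_card_add A h3 h3ne hω h2)

end Fermat.Agent.S18.C.Numbers
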