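import Mathlib
import Fermat.Agent.S18.C.NumbersTop

/-!
# PROJECT H (S18), block C, slice N4 (part 7): the numbers `i₀` in `addVal` form

`SpecialCount.special_count` consumes the higher ramification numbers as
`IsDiscreteValuationRing.addVal D₀ (t - g • t) = i₀ g`.  This file converts the `intValuation` form of
`NumbersTop` (`P.intValuation (g • μ - μ) = exp (-(i₀ g))`) into that form:

* `addVal_eq_of_intValuation` : in a discrete valuation ring, `P.intValuation r = exp (-n)` implies
  `addVal R r = n`;
* `hesse_addVal`, `legendre_addVal` : `addVal D₀ (μ - g • μ) = i₀ g` for `g ≠ 1`, `D₀ = BRing c ⊤`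
  in characteristic `2` resp. `3`.
-/

set_option autoImplicit false

noncomputable section

namespace Fermat.Agent.S18.C.NumbersAddVal

open IsDedekindDomain HeightOneSpectrum WithZero
open Fermat.Agent.S18.C.Defs Fermat.Agent.S18.C.SurfaceDefs Fermat.Agent.S18.C.BRingLocal
open Fermat.Agent.S18.C.CoverInst Fermat.Agent.S18.C.BRingTop

/-- in a discrete valuation ring the `P`-adic valuation determines the additive valuation -/
theorem addVal_eq_of_intValuation {R : Type*} [CommRing R] [IsDomain R]
    [IsDiscreteValuationRing R] (P : HeightOneSpectrum R) {r : R} {n : ℕ}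
    (h : P.intValuation r = exp (-(n : ℤ))) : IsDiscreteValuationRing.addVal R r = n := by
  have hr : r ≠ 0 := by
    rintro rfl
    rw [map_zero] at h
    exact WithZero.exp_ne_zero.symm h
  obtain ⟨ϖ, hϖ⟩ := IsDiscreteValuationRing.exists_irreducible R
  obtain ⟨m, u, hu⟩ := IsDiscreteValuationRing.eq_unit_mul_pow_irreducible hr hϖ
  have hP : P.asIdeal = Ideal.span {ϖ} := by
    rw [IsLocalRing.eq_maximalIdeal P.isMaximal, hϖ.maximalIdeal_eq]
  have hϖv : P.intValuation ϖ = exp (-1 : ℤ) := intValuation_singleton P hϖ.ne_zero hP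
  have huv : P.intValuation (u : R) = 1 := by
    rw [intValuation_eq_one_iff, IsLocalRing.eq_maximalIdeal P.isMaximal]
    exact IsLocalRing.notMem_maximalIdeal.mpr u.isUnit
  have hm : m = n := by
    rw [hu, map_mul, map_pow, huv, one_mul, hϖv, ← exp_nsmul] at h
    have h' := WithZero.exp_injective h
    simp only [smul_neg, nsmul_eq_mul, mul_one, neg_inj] at h'
    exact_mod_cast h'
  rw [hu, ← hm]
  exact IsDiscreteValuationRing.addVal_def' u hϖ m

section Hesse

variable (k : Type*) [Field k] [hesse.Good k] (h2 : (2 : k) = 0) {ω : k}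
  (hω : ω ^ 2 + ω + 1 = 0)
  [IsInvariantSubring (hesse.Gal k) (BRing hesse (⊤ : ValuationSubring k))]

include h2 in
/-- the input `hi0` of `SpecialCount.special_count` for the Hesse cover in characteristic `2` -/
theorem hesse_addVal (h3 : (3 : k) ≠ 0) (g : hesse.Gal k) (hg : g ≠ 1) :
    IsDiscreteValuationRing.addVal (BRing hesse (⊤ : ValuationSubring k))
      (muB hesse (⊤ : ValuationSubring k) - g • muB hesse (⊤ : ValuationSubring k)) =
      NumbersHesse.i0 hω h3 g := by
  apply addVal_eq_of_intValuation (pTop hesse k)
  rw [← NumbersTop.hesse_intValuation_smul_sub k h2 hω h3 (pTop hesse k) g hg,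
    ← Valuation.map_neg, neg_sub]

end Hesse

section Legendre

variable (k : Type*) [Field k] [legendre.Good k] (h3 : (3 : k) = 0)
  [IsInvariantSubring (legendre.Gal k) (BRing legendre (⊤ : ValuationSubring k))]

include h3 in
/-- the input `hi0` of `SpecialCount.special_count` for the Legendre cover in characteristic `3` -/
theorem legendre_addVal (h2 : (2 : k) ≠ 0) (g : legendre.Gal k) (hg : g ≠ 1) :
    IsDiscreteValuationRing.addVal (BRing legendre (⊤ : ValuationSubring k))
      (muB legendre (⊤ : ValuationSubring k) - g • muB legendre (⊤ : ValuationSubring k)) =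
      NumbersLegendre.i0 h2 g := by
  apply addVal_eq_of_intValuation (pTop legendre k)
  rw [← NumbersTop.legendre_intValuation_smul_sub k h3 h2 (pTop legendre k) g hg,
    ← Valuation.map_neg, neg_sub]

end Legendre

end Fermat.Agent.S18.C.NumbersAddVal
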