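import Mathlib
import Fermat.Agent.S24.Ord

/-!
# PROJECT H (S18), block C service file: `ord` of polynomial and rational expressions in `y` at a
place centred at `y = c`

`v : Place K F` (prelude language, any field `K`), `y : F`, `c : K` with `v (y - c) < 1`.

* `adicValuation_aeval_le_one`;
* `adicValuation_aeval_eq_one_of_eval_ne_zero`, `ord_aeval_eq_zero_of_eval_ne_zero` :
  `p(c) ≠ 0 → v(p(y)) = 1`;
* **`ord_aeval`** : `ord_v p(y) = rootMultiplicity c p * ord_v (y - c)`;
* `ord_aeval_div_aeval`;
* **`dvd_ord_of_mem_adjoin`** : `ord_v (y - c) ∣ ord_v m` for every `m ∈ K⟮y⟯`, `m ≠ 0`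
  (the divisibility hypothesis of Abhyankar's lemma on the rational side);
* `ord_sub_eq_one_of_adjoin_eq_top` : `y - c` is a uniformiser of `K(y)` at `y = c`.
-/

set_option autoImplicit false

namespace Fermat.Agent.S18.C.PlaceRational

open AlgebraicCurve IsDedekindDomain WithZero Polynomial IntermediateField Fermat.Agent.S24.Ord

universe u w

variable {K : Type w} {F : Type u} [Field K] [Field F] [Algebra K F]

theorem adicValuation_aeval_le_one (v : Place K F) {y : F} (hy : v.adicValuation y ≤ 1)
    (p : K[X]) : v.adicValuation (aeval y p) ≤ 1 := by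
  induction p using Polynomial.induction_on' with
  | add p q hp hq =>
    rw [map_add]
    exact Valuation.map_add_le _ hp hq
  | monomial n a =>
    rw [aeval_monomial, map_mul, map_pow]
    exact mul_le_one' ((mem_iff v _).mp (v.algebraMap_mem' a)) (pow_le_one₀ zero_le hy)

theorem adicValuation_le_one_of_sub_lt_one (v : Place K F) {y : F} {c : K}
    (h : v.adicValuation (y - algebraMap K F c) < 1) : v.adicValuation y ≤ 1 := by
  have h1 : y = (y - algebraMap K F c) + algebraMap K F c := by ring
  rw [h1]
  exact Valuation.map_add_le _ h.le ((mem_iff v _).mp (v.algebraMap_mem' c))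

/-- a polynomial not vanishing at the centre is a unit at the place -/
theorem adicValuation_aeval_eq_one_of_eval_ne_zero (v : Place K F) {y : F} {c : K}
    (h : v.adicValuation (y - algebraMap K F c) < 1) {p : K[X]} (hp : p.eval c ≠ 0) :
    v.adicValuation (aeval y p) = 1 := by
  have hy := adicValuation_le_one_of_sub_lt_one v h
  have hdecomp : p = (X - C c) * (p /ₘ (X - C c)) + C (p.eval c) := by
    conv_lhs => rw [← modByMonic_add_div p (X - C c), modByMonic_X_sub_C_eq_C_eval]
    ring
  have h1 : aeval y p = (y - algebraMap K F c) * aeval y (p /ₘ (X - C c)) +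
      algebraMap K F (p.eval c) := by
    conv_lhs => rw [hdecomp]
    simp [aeval_C]
  have h2 : v.adicValuation ((y - algebraMap K F c) * aeval y (p /ₘ (X - C c))) < 1 := by
    rw [map_mul]
    calc v.adicValuation (y - algebraMap K F c) * v.adicValuation (aeval y (p /ₘ (X - C c)))
        ≤ v.adicValuation (y - algebraMap K F c) * 1 := by
          gcongr
          exact adicValuation_aeval_le_one v hy _
      _ = v.adicValuation (y - algebraMap K F c) := mul_one _
      _ < 1 := h
  have h3 : v.adicValuation (algebraMap K F (p.eval c)) = 1 := adicValuation_algebraMap v hp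
  rw [h1, Valuation.map_add_eq_of_lt_right _ (by rw [h3]; exact h2), h3]

theorem aeval_ne_zero_of_eval_ne_zero (v : Place K F) {y : F} {c : K}
    (h : v.adicValuation (y - algebraMap K F c) < 1) {p : K[X]} (hp : p.eval c ≠ 0) :
    aeval y p ≠ 0 := by
  intro h0
  have := adicValuation_aeval_eq_one_of_eval_ne_zero v h hp
  rw [h0, map_zero] at this
  exact zero_ne_one this

theorem ord_aeval_eq_zero_of_eval_ne_zero (v : Place K F) {y : F} {c : K}
    (h : v.adicValuation (y - algebraMap K F c) < 1) {p : K[X]} (hp : p.eval c ≠ 0) :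
    v.ord (aeval y p) = 0 := by
  rw [ord_eq, adicValuation_aeval_eq_one_of_eval_ne_zero v h hp, log_one, neg_zero]

/-- **`ord` of a polynomial in `y` at a place centred at `y = c`.** -/
theorem ord_aeval (v : Place K F) {y : F} {c : K}
    (h : v.adicValuation (y - algebraMap K F c) < 1) (hyc : y - algebraMap K F c ≠ 0)
    {p : K[X]} (hp : p ≠ 0) :
    v.ord (aeval y p) = (p.rootMultiplicity c : ℤ) * v.ord (y - algebraMap K F c) := by
  obtain ⟨q, hpq, hq⟩ := exists_eq_pow_rootMultiplicity_mul_and_not_dvd p hp c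
  have hqc : q.eval c ≠ 0 := by
    intro h0
    exact hq (dvd_iff_isRoot.mpr h0)
  have h1 : aeval y p = (y - algebraMap K F c) ^ (p.rootMultiplicity c) * aeval y q := by
    conv_lhs => rw [hpq]
    simp [aeval_C]
  rw [h1, v.ord_mul (pow_ne_zero _ hyc) (aeval_ne_zero_of_eval_ne_zero v h hqc),
    ord_aeval_eq_zero_of_eval_ne_zero v h hqc, add_zero, ← zpow_natCast, v.ord_zpow]

theorem aeval_ne_zero (v : Place K F) {y : F} {c : K}
    (h : v.adicValuation (y - algebraMap K F c) < 1) (hyc : y - algebraMap K F c ≠ 0)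
    {p : K[X]} (hp : p ≠ 0) : aeval y p ≠ 0 := by
  obtain ⟨q, hpq, hq⟩ := exists_eq_pow_rootMultiplicity_mul_and_not_dvd p hp c
  have hqc : q.eval c ≠ 0 := fun h0 => hq (dvd_iff_isRoot.mpr h0)
  have h1 : aeval y p = (y - algebraMap K F c) ^ (p.rootMultiplicity c) * aeval y q := by
    conv_lhs => rw [hpq]
    simp [aeval_C]
  rw [h1]
  exact mul_ne_zero (pow_ne_zero _ hyc) (aeval_ne_zero_of_eval_ne_zero v h hqc)

theorem ord_aeval_div_aeval (v : Place K F) {y : F} {c : K}
    (h : v.adicValuation (y - algebraMap K F c) < 1) (hyc : y - algebraMap K F c ≠ 0)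
    {p q : K[X]} (hp : p ≠ 0) (hq : q ≠ 0) :
    v.ord (aeval y p / aeval y q) =
      ((p.rootMultiplicity c : ℤ) - (q.rootMultiplicity c : ℤ)) *
        v.ord (y - algebraMap K F c) := by
  rw [div_eq_mul_inv, v.ord_mul (aeval_ne_zero v h hyc hp) (inv_ne_zero (aeval_ne_zero v h hyc hq)),
    v.ord_inv, ord_aeval v h hyc hp, ord_aeval v h hyc hq]
  ring

/-- **Divisibility on the rational subfield**: at a place centred at `y = c`, the order of every
nonzero element of `K(y)` is a multiple of the order of `y - c`. -/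
theorem dvd_ord_of_mem_adjoin (v : Place K F) {y : F} {c : K}
    (h : v.adicValuation (y - algebraMap K F c) < 1) (hyc : y - algebraMap K F c ≠ 0)
    {m : F} (hm : m ∈ K⟮y⟯) (hm0 : m ≠ 0) :
    v.ord (y - algebraMap K F c) ∣ v.ord m := by
  obtain ⟨p, q, rfl⟩ := (mem_adjoin_simple_iff K m).mp hm
  have hp : p ≠ 0 := by
    rintro rfl
    simp at hm0
  have hq : q ≠ 0 := by
    rintro rfl
    simp at hm0
  rw [ord_aeval_div_aeval v h hyc hp hq]
  exact Dvd.intro_left _ rfl

/-- In the rational function field `K(y)` itself, `y - c` is a uniformiser at the place centred at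
`y = c`. -/
theorem ord_sub_eq_one_of_adjoin_eq_top (v : Place K F) {y : F} {c : K}
    (h : v.adicValuation (y - algebraMap K F c) < 1) (hyc : y - algebraMap K F c ≠ 0)
    (htop : K⟮y⟯ = ⊤) : v.ord (y - algebraMap K F c) = 1 := by
  obtain ⟨π, hπ⟩ := IsDiscreteValuationRing.exists_irreducible v.toValuationSubring
  have hπ0 : (π : F) ≠ 0 := fun h0 => hπ.ne_zero (Subtype.ext h0)
  have hmem : (π : F) ∈ K⟮y⟯ := by
    rw [htop]
    exact IntermediateField.mem_top
  have hdvd := dvd_ord_of_mem_adjoin v h hyc hmem hπ0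
  rw [v.ord_coe_irreducible hπ] at hdvd
  have hpos : 0 < v.ord (y - algebraMap K F c) := (ord_pos_iff v hyc).mpr h
  exact Int.eq_one_of_dvd_one hpos.le hdvd

end Fermat.Agent.S18.C.PlaceRational
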