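import Mathlib
import Fermat.Agent.S24.Ord

/-!
# PROJECT H (S18), block C service file: restriction of a place along an algebraic extension

`K ⊆ F ⊆ F₂` fields (`[Algebra F F₂] [IsScalarTower K F F₂] [Algebra.IsAlgebraic F F₂]`, any
characteristic), `w : Place K F₂` in the prelude language.

* `belowRing w`, `mem_belowRing`, `belowRing_ne_top`, `isPrincipalIdealRing_belowRing`;
* `restrict F w : Place K F` (valuation ring = preimage), `mem_restrict`,
  `adicValuation_algebraMap_le_one_iff`, `adicValuation_algebraMap_lt_one_iff`;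
* `ramIdx w : ℕ`, `ramIdx_pos`, **`ord_algebraMap`** :
  `w.ord (algebraMap F F₂ f) = ramIdx w * (restrict F w).ord f`, `dvd_ord_algebraMap`,
  `exists_ord_eq_ramIdx`, `ord_algebraMap_pos_iff`, `ord_algebraMap_neg_iff`;
* centres: `adicValuation_sub_algebraMap_lt_one_iff`, `ord_sub_algebraMap`;
* `exists_restrict_of_algHom` : the same for an embedding `φ : F →ₐ[K] F₂`.
-/

set_option autoImplicit false
set_option linter.unusedSectionVars false

namespace Fermat.Agent.S18.C.PlaceRestrict

open AlgebraicCurve IsDedekindDomain WithZero Fermat.Agent.S24.Ord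

universe u v w

variable {K : Type w} {F : Type u} {F₂ : Type v} [Field K] [Field F] [Field F₂]
  [Algebra K F] [Algebra K F₂] [Algebra F F₂] [IsScalarTower K F F₂]

/-- the valuation subring of `F` below the place `w` of `F₂` -/
def belowRing (w : Place K F₂) : ValuationSubring F :=
  w.toValuationSubring.comap (algebraMap F F₂)

theorem mem_belowRing (w : Place K F₂) (f : F) :
    f ∈ belowRing w ↔ w.adicValuation (algebraMap F F₂ f) ≤ 1 := by
  rw [belowRing, ValuationSubring.mem_comap, mem_iff]

theorem belowRing_ne_top [Algebra.IsAlgebraic F F₂] (w : Place K F₂) :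
    belowRing (F := F) w ≠ ⊤ := by
  intro htop
  apply w.ne_top'
  refine SetLike.ext fun y => ⟨fun _ => ValuationSubring.mem_top y, fun _ => ?_⟩
  rw [mem_iff]
  refine adicValuation_le_one_of_isIntegral (R := F) w (fun r => ?_)
    (Algebra.IsAlgebraic.isAlgebraic y).isIntegral
  rw [← mem_belowRing, htop]
  exact ValuationSubring.mem_top r

/-- `w.ord` of the image of a nonzero element of the ring below is a natural number -/
theorem ord_nonneg_of_mem (w : Place K F₂) {f : F} (hf : f ∈ belowRing w) :
    0 ≤ w.ord (algebraMap F F₂ f) := by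
  rcases eq_or_ne f 0 with rfl | hf0
  · simp
  · have h0 : algebraMap F F₂ f ≠ 0 := (map_ne_zero_iff _ (algebraMap F F₂).injective).mpr hf0
    rw [ord_nonneg_iff w h0, ← mem_belowRing]
    exact hf

theorem isPrincipalIdealRing_belowRing (w : Place K F₂) :
    IsPrincipalIdealRing (belowRing (F := F) w) := by
  classical
  refine ⟨fun I => ?_⟩
  by_cases hI : I = ⊥
  · subst hI
    exact ⟨⟨0, by simp⟩⟩
  · obtain ⟨g₁, hg₁I, hg₁0⟩ := Submodule.exists_mem_ne_zero_of_ne_bot hI
    let S : Set ℕ := {n | ∃ g : belowRing (F := F) w, g ∈ I ∧ g ≠ 0 ∧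
      (w.ord (algebraMap F F₂ (g : F))).toNat = n}
    have hS : ∃ n, n ∈ S := ⟨_, g₁, hg₁I, hg₁0, rfl⟩
    obtain ⟨g, hgI, hg0, hgn⟩ := Nat.find_spec hS
    refine ⟨⟨g, le_antisymm (fun h hh => ?_) ?_⟩⟩
    · rw [Submodule.mem_span_singleton]
      rcases eq_or_ne h 0 with rfl | hh0
      · exact ⟨0, by simp⟩
      · have hmin : Nat.find hS ≤ (w.ord (algebraMap F F₂ (h : F))).toNat :=
          Nat.find_min' hS ⟨h, hh, hh0, rfl⟩
        have hgF : (g : F) ≠ 0 := fun h0 => hg0 (Subtype.ext h0)
        have hhF : (h : F) ≠ 0 := fun h0 => hh0 (Subtype.ext h0)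
        have hg2 : algebraMap F F₂ (g : F) ≠ 0 :=
          (map_ne_zero_iff _ (algebraMap F F₂).injective).mpr hgF
        have hh2 : algebraMap F F₂ (h : F) ≠ 0 :=
          (map_ne_zero_iff _ (algebraMap F F₂).injective).mpr hhF
        have hgn0 := ord_nonneg_of_mem w g.2
        have hhn0 := ord_nonneg_of_mem w h.2
        have hle : w.ord (algebraMap F F₂ (g : F)) ≤ w.ord (algebraMap F F₂ (h : F)) := by
          rw [← hgn] at hmin
          omega
        have hq : (h : F) / (g : F) ∈ belowRing (F := F) w := by
          rw [mem_belowRing, map_div₀, ← ord_nonneg_iff w (div_ne_zero hh2 hg2), div_eq_mul_inv,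
            w.ord_mul hh2 (inv_ne_zero hg2), w.ord_inv]
          omega
        refine ⟨⟨_, hq⟩, Subtype.ext ?_⟩
        show (h : F) / (g : F) * (g : F) = (h : F)
        field_simp
    · rw [Submodule.span_le, Set.singleton_subset_iff]
      exact hgI

variable (F) in
/-- **Restriction of a place** along an algebraic extension. -/
def restrict [Algebra.IsAlgebraic F F₂] (w : Place K F₂) : Place K F where
  toValuationSubring := belowRing w
  algebraMap_mem' a := by
    show algebraMap F F₂ (algebraMap K F a) ∈ w.toValuationSubring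
    rw [← IsScalarTower.algebraMap_apply]
    exact w.algebraMap_mem' a
  ne_top' := belowRing_ne_top w
  isPrincipalIdealRing' := isPrincipalIdealRing_belowRing w

section Ram

variable [Algebra.IsAlgebraic F F₂] (w : Place K F₂)

theorem mem_restrict (f : F) :
    f ∈ (restrict F w).toValuationSubring ↔ algebraMap F F₂ f ∈ w.toValuationSubring :=
  Iff.rfl

theorem adicValuation_algebraMap_le_one_iff (f : F) :
    w.adicValuation (algebraMap F F₂ f) ≤ 1 ↔ (restrict F w).adicValuation f ≤ 1 := by
  rw [← mem_iff, ← mem_iff]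
  exact (mem_restrict w f).symm

/-- images of units of the ring below have `ord = 0` -/
theorem ord_algebraMap_unit (u : (restrict F w).toValuationSubringˣ) :
    w.ord (algebraMap F F₂ ((u : (restrict F w).toValuationSubring) : F)) = 0 := by
  have h1 := ord_nonneg_of_mem w (u : (restrict F w).toValuationSubring).2
  have h2 := ord_nonneg_of_mem w ((u⁻¹ : (restrict F w).toValuationSubringˣ) :
    (restrict F w).toValuationSubring).2
  have hmul : ((u : (restrict F w).toValuationSubring) : F) *
      (((u⁻¹ : (restrict F w).toValuationSubringˣ) : (restrict F w).toValuationSubring) : F)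
      = 1 := by
    have h := congrArg (Subtype.val) (Units.mul_inv u)
    rw [Subring.coe_mul, Subring.coe_one] at h
    exact h
  have hu0 : ((u : (restrict F w).toValuationSubring) : F) ≠ 0 := left_ne_zero_of_mul_eq_one hmul
  have hv0 : (((u⁻¹ : (restrict F w).toValuationSubringˣ) :
      (restrict F w).toValuationSubring) : F) ≠ 0 := right_ne_zero_of_mul_eq_one hmul
  have hu2 := (map_ne_zero_iff _ (algebraMap F F₂).injective).mpr hu0
  have hv2 := (map_ne_zero_iff _ (algebraMap F F₂).injective).mpr hv0
  have h3 := w.ord_mul hu2 hv2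
  rw [← map_mul, hmul, map_one, w.ord_one] at h3
  omega

/-- a uniformiser of the place below -/
noncomputable def unif : (restrict F w).toValuationSubring :=
  (IsDiscreteValuationRing.exists_irreducible (restrict F w).toValuationSubring).choose

theorem irreducible_unif : Irreducible (unif (F := F) w) :=
  (IsDiscreteValuationRing.exists_irreducible (restrict F w).toValuationSubring).choose_spec

/-- **The ramification index** of `w` over the place below. -/
noncomputable def ramIdx : ℕ := (w.ord (algebraMap F F₂ ((unif (F := F) w : _) : F))).toNat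

theorem ord_unif_pos : 0 < w.ord (algebraMap F F₂ ((unif (F := F) w : _) : F)) := by
  have hirr := irreducible_unif (F := F) w
  have hπ0 : ((unif (F := F) w : _) : F) ≠ 0 := fun h => hirr.ne_zero (Subtype.ext h)
  have h2 := (map_ne_zero_iff _ (algebraMap F F₂).injective).mpr hπ0
  rw [ord_pos_iff w h2]
  by_contra hnot
  rw [not_lt] at hnot
  -- then the inverse lies in the ring below, so the uniformiser is a unit
  have hinv : ((unif (F := F) w : _) : F)⁻¹ ∈ (restrict F w).toValuationSubring := by
    rw [mem_restrict, mem_iff, map_inv₀, map_inv₀]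
    exact inv_le_one_of_one_le₀ hnot
  apply hirr.not_isUnit
  refine IsUnit.of_mul_eq_one ⟨_, hinv⟩ (Subtype.ext ?_)
  show ((unif (F := F) w : _) : F) * ((unif (F := F) w : _) : F)⁻¹ = 1
  exact mul_inv_cancel₀ hπ0

theorem ramIdx_pos : 0 < ramIdx (F := F) w := by
  have := ord_unif_pos (F := F) w
  rw [ramIdx]
  omega

theorem ord_algebraMap_unif :
    w.ord (algebraMap F F₂ ((unif (F := F) w : _) : F)) = (ramIdx (F := F) w : ℤ) := by
  have := ord_unif_pos (F := F) w
  rw [ramIdx]
  omega

/-- **`ord` of a restricted function**: `ord_w f = e(w) · ord_{w|F} f`. -/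
theorem ord_algebraMap (f : F) :
    w.ord (algebraMap F F₂ f) = (ramIdx (F := F) w : ℤ) * (restrict F w).ord f := by
  rcases eq_or_ne f 0 with rfl | hf
  · simp
  · obtain ⟨u, hu⟩ := (restrict F w).exists_unit_mul_zpow hf (irreducible_unif (F := F) w)
    have hirr := irreducible_unif (F := F) w
    have hπ0 : ((unif (F := F) w : _) : F) ≠ 0 := fun h => hirr.ne_zero (Subtype.ext h)
    have hu0 : ((u : (restrict F w).toValuationSubring) : F) ≠ 0 := by
      intro h0
      rw [h0, zero_mul] at hu
      exact hf hu
    have hπ2 := (map_ne_zero_iff _ (algebraMap F F₂).injective).mpr hπ0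
    have hu2 := (map_ne_zero_iff _ (algebraMap F F₂).injective).mpr hu0
    conv_lhs => rw [hu]
    rw [map_mul, map_zpow₀, w.ord_mul hu2 (zpow_ne_zero _ hπ2), ord_algebraMap_unit, zero_add,
      w.ord_zpow, ord_algebraMap_unif]
    ring

theorem dvd_ord_algebraMap (f : F) : (ramIdx (F := F) w : ℤ) ∣ w.ord (algebraMap F F₂ f) :=
  ⟨_, ord_algebraMap w f⟩

theorem exists_ord_eq_ramIdx :
    ∃ f : F, f ≠ 0 ∧ (restrict F w).ord f = 1 ∧
      w.ord (algebraMap F F₂ f) = (ramIdx (F := F) w : ℤ) := by
  have hirr := irreducible_unif (F := F) w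
  refine ⟨((unif (F := F) w : _) : F), fun h => hirr.ne_zero (Subtype.ext h),
    (restrict F w).ord_coe_irreducible hirr, ord_algebraMap_unif w⟩

theorem ord_algebraMap_pos_iff (f : F) :
    0 < w.ord (algebraMap F F₂ f) ↔ 0 < (restrict F w).ord f := by
  rw [ord_algebraMap]
  have := ramIdx_pos (F := F) w
  constructor
  · intro h
    by_contra hn
    rw [not_lt] at hn
    have : (ramIdx (F := F) w : ℤ) * (restrict F w).ord f ≤ 0 :=
      mul_nonpos_of_nonneg_of_nonpos (by positivity) hn
    omega
  · intro h
    positivity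

theorem adicValuation_algebraMap_lt_one_iff (f : F) :
    w.adicValuation (algebraMap F F₂ f) < 1 ↔ (restrict F w).adicValuation f < 1 := by
  rcases eq_or_ne f 0 with rfl | hf
  · simp
  · have h2 := (map_ne_zero_iff _ (algebraMap F F₂).injective).mpr hf
    rw [← ord_pos_iff w h2, ← ord_pos_iff _ hf]
    exact ord_algebraMap_pos_iff w f

theorem ord_algebraMap_neg_iff (f : F) :
    w.ord (algebraMap F F₂ f) < 0 ↔ (restrict F w).ord f < 0 := by
  rw [ord_algebraMap]
  have := ramIdx_pos (F := F) w
  constructor
  · intro h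
    by_contra hn
    rw [not_lt] at hn
    have : 0 ≤ (ramIdx (F := F) w : ℤ) * (restrict F w).ord f := by positivity
    omega
  · intro h
    exact mul_neg_of_pos_of_neg (by exact_mod_cast this) h

end Ram

section Centre

variable [Algebra.IsAlgebraic F F₂] (w : Place K F₂)

/-- the centre of the restricted place: `x - a` has a zero at `w|F` iff its image has one at
`w` -/
theorem adicValuation_sub_algebraMap_lt_one_iff (x : F) (a : K) :
    w.adicValuation (algebraMap F F₂ x - algebraMap K F₂ a) < 1 ↔
      (restrict F w).adicValuation (x - algebraMap K F a) < 1 := by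
  have h : algebraMap F F₂ (x - algebraMap K F a) = algebraMap F F₂ x - algebraMap K F₂ a := by
    rw [map_sub, ← IsScalarTower.algebraMap_apply]
  rw [← adicValuation_algebraMap_lt_one_iff, h]

theorem ord_sub_algebraMap (x : F) (a : K) :
    w.ord (algebraMap F F₂ x - algebraMap K F₂ a) =
      (ramIdx (F := F) w : ℤ) * (restrict F w).ord (x - algebraMap K F a) := by
  have h : algebraMap F F₂ (x - algebraMap K F a) = algebraMap F F₂ x - algebraMap K F₂ a := by
    rw [map_sub, ← IsScalarTower.algebraMap_apply]
  rw [← ord_algebraMap, h]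

end Centre

section Hom

omit [Algebra F F₂] [IsScalarTower K F F₂]

/-- **Restriction along an embedding** `φ : F →ₐ[K] F₂` with `F₂` algebraic over the image:
existential packaging (place below, ramification index, membership and `ord` formulas). -/
theorem exists_restrict_of_algHom (φ : F →ₐ[K] F₂)
    (halg : letI := φ.toRingHom.toAlgebra; Algebra.IsAlgebraic F F₂) (w : Place K F₂) :
    ∃ (v : Place K F) (e : ℕ), 0 < e ∧
      (∀ f : F, f ∈ v.toValuationSubring ↔ φ f ∈ w.toValuationSubring) ∧
      (∀ f : F, w.ord (φ f) = (e : ℤ) * v.ord f) ∧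
      (∀ f : F, w.adicValuation (φ f) < 1 ↔ v.adicValuation f < 1) ∧
      (∀ f : F, w.adicValuation (φ f) ≤ 1 ↔ v.adicValuation f ≤ 1) ∧
      ∃ f : F, f ≠ 0 ∧ v.ord f = 1 ∧ w.ord (φ f) = (e : ℤ) := by
  let _ := φ.toRingHom.toAlgebra
  have : IsScalarTower K F F₂ := IsScalarTower.of_algebraMap_eq fun a => (φ.commutes a).symm
  have := halg
  exact ⟨restrict F w, ramIdx (F := F) w, ramIdx_pos w, fun f => mem_restrict w f,
    fun f => ord_algebraMap w f, fun f => adicValuation_algebraMap_lt_one_iff w f,
    fun f => adicValuation_algebraMap_le_one_iff w f, exists_ord_eq_ramIdx w⟩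

end Hom

end Fermat.Agent.S18.C.PlaceRestrict
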