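import Fermat.Agent.S18.C.PointsDisc2
import Fermat.Agent.S18.C.FinEt

/-!
# PROJECT H (S18), block C, slice H-C7k (part 3): unramified places give a nonvanishing discriminant

The combination of `PointsDisc2.finrank_le_card_algHom` with (T3)
`FinEt.discr_ne_zero_of_card_algHom` : in the setting of `PointsDisc2` (characteristic zero,
`M = K(μ)`, `R ≃ ∏ Φ i` a finite `M`-algebra all of whose places over `μ = a` are unramified,
`C` a finite free `B`-algebra of rank `[R : M]` mapping to `R` and generating the normalisation of
`K[μ]_(μ - a)`), the discriminant of any `B`-basis of `C` does not vanish at the point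
`evFrac ∘ β` of `B`.
-/

set_option autoImplicit false
set_option linter.unusedSectionVars false

namespace Fermat.Agent.S18.C.PointsDisc3

open AlgebraicCurve IntermediateField Fermat.Agent.S24.FF
  Fermat.Agent.S18.C.PointsDisc Fermat.Agent.S18.C.PointsDisc2

universe u w

section Card

variable {B C : Type*} [CommRing B] [CommRing C] [Algebra B C]
variable (E : Type*) [Field E] [Algebra B E]
variable {ι : Type*} [Fintype ι] (b : Module.Basis ι B C)

include b in
/-- a free algebra of rank `n` has at most `n` points in a field -/
theorem card_algHom_le_card : Nat.card (C →ₐ[B] E) ≤ Fintype.card ι := by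
  have hfinE : Module.Finite E (TensorProduct B E C) :=
    Module.Finite.of_basis (Algebra.TensorProduct.basis E b)
  have hrank : Module.finrank E (TensorProduct B E C) = Fintype.card ι :=
    Module.finrank_eq_card_basis (Algebra.TensorProduct.basis E b)
  rw [Nat.card_congr (Specialize.pointEquiv (B := B) (C := C) E), ← hrank]
  exact card_algHom_le_finrank E (TensorProduct B E C) E

/-- (T3) with an inequality: `rank ≤ #points` forces the discriminant not to vanish -/
theorem discr_ne_zero_of_le_card_algHom [IsAlgClosed E] [DecidableEq ι]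
    (h : Fintype.card ι ≤ Nat.card (C →ₐ[B] E)) :
    algebraMap B E (Algebra.discr B b) ≠ 0 :=
  FinEt.discr_ne_zero_of_card_algHom E b (le_antisymm (card_algHom_le_card E b) h)

end Card

section Main

variable {K : Type w} [Field K] [IsAlgClosed K] {M : Type u} [Field M] [Algebra K M] {μ : M}
variable {ι : Type*} [Fintype ι] {Φ : ι → Type u} [∀ i, Field (Φ i)] [∀ i, Algebra K (Φ i)]
  [∀ i, Algebra M (Φ i)] [∀ i, IsScalarTower K M (Φ i)] [∀ i, Module.Finite M (Φ i)]
variable {R : Type*} [CommRing R] [Algebra M R] (e : R ≃+* ∀ i, Φ i)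
  (he : ∀ m : M, e (algebraMap M R m) = algebraMap M (∀ i, Φ i) m)

include he in
/-- **(S2b), generic form**: unramifiedness over `μ = a` + generation ⇒ the discriminant of `C/B`
does not vanish at the point `a`. -/
theorem discr_ne_zero_of_unramified [CharZero K] (hμ : IsFF K μ) (htop : K⟮μ⟯ = ⊤) (a : K)
    (w : Place K M) (hw : w.adicValuation (μ - algebraMap K M a) < 1)
    (hU : ∀ i (v : Place K (Φ i)),
      0 < v.ord (algebraMap M (Φ i) μ - algebraMap K (Φ i) a) →
      v.ord (algebraMap M (Φ i) μ - algebraMap K (Φ i) a) = 1)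
    {B C : Type*} [CommRing B] [CommRing C] [Algebra B C] [Algebra B K]
    {κ : Type*} [Fintype κ] [DecidableEq κ] (b : Module.Basis κ B C)
    (hrank : Fintype.card κ ≤ Module.finrank M R)
    (β : B →+* fracRing K μ a) (hβ : ∀ x, algebraMap B K x = evFrac hμ a w hw (β x))
    (γ : C →+* R) (hγ : ∀ x, γ (algebraMap B C x) = algebraMap M R (β x : M))
    (hgen : ∀ x : R, IsIntegral (fracRing K μ a) x → ∃ s : fracRing K μ a,
      evFrac hμ a w hw s ≠ 0 ∧ s • x ∈ Submodule.span (fracRing K μ a) (Set.range γ)) :
    algebraMap B K (Algebra.discr B b) ≠ 0 := by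
  have : Module.Finite B C := Module.Finite.of_basis b
  exact discr_ne_zero_of_le_card_algHom K b
    (hrank.trans (finrank_le_card_algHom e he hμ htop a w hw hU β hβ γ hγ hgen))

end Main

/-- a transcendental generator of `F/K` makes `F` a function field -/
theorem isFF_of_adjoin_eq_top {K : Type w} {F : Type u} [Field K] [Field F] [Algebra K F] {x : F}
    (htr : Transcendental K x) (htop : K⟮x⟯ = ⊤) : IsFF K x where
  transcendental := htr
  finite := by
    have h1 : Module.finrank K⟮x⟯ F = 1 := by
      rw [htop]
      exact IntermediateField.finrank_top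
    exact Module.finite_of_finrank_pos (by rw [h1]; exact one_pos)

/-! ### the points of the normalisation in `R` itself -/

section ClosureR

variable {K : Type w} [Field K] [IsAlgClosed K] {M : Type u} [Field M] [Algebra K M] {μ : M}
variable {ι : Type*} [Fintype ι] {Φ : ι → Type u} [∀ i, Field (Φ i)] [∀ i, Algebra K (Φ i)]
  [∀ i, Algebra M (Φ i)] [∀ i, IsScalarTower K M (Φ i)]
variable {R : Type*} [CommRing R] [Algebra M R] (e : R ≃+* ∀ i, Φ i)
  (he : ∀ m : M, e (algebraMap M R m) = algebraMap M (∀ i, Φ i) m) (a : K)

/-- `e` maps the normalisation of `fracRing K μ a` in `R` to the one in the product -/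
noncomputable def closureHom :
    integralClosure (fracRing K μ a) R →+* integralClosure (fracRing K μ a) (∀ i, Φ i) :=
  ((e : R →+* ∀ i, Φ i).comp (integralClosure (fracRing K μ a) R).val.toRingHom).codRestrict
    (integralClosure (fracRing K μ a) (∀ i, Φ i)) fun x => isIntegral_equiv e he a x.2

/-- the inverse of `closureHom` -/
noncomputable def closureInv :
    integralClosure (fracRing K μ a) (∀ i, Φ i) →+* integralClosure (fracRing K μ a) R :=
  ((e.symm : (∀ i, Φ i) →+* R).comp
    (integralClosure (fracRing K μ a) (∀ i, Φ i)).val.toRingHom).codRestrict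
    (integralClosure (fracRing K μ a) R) fun y => isIntegral_equiv_symm e he a y.2

theorem coe_closureHom (x : integralClosure (fracRing K μ a) R) :
    (closureHom e he a x : ∀ i, Φ i) = e (x : R) := rfl

theorem coe_closureInv (y : integralClosure (fracRing K μ a) (∀ i, Φ i)) :
    (closureInv e he a y : R) = e.symm (y : ∀ i, Φ i) := rfl

theorem closureInv_closureHom (x : integralClosure (fracRing K μ a) R) :
    closureInv e he a (closureHom e he a x) = x :=
  Subtype.ext (by rw [coe_closureInv, coe_closureHom, e.symm_apply_apply])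

theorem closureHom_closureInv (y : integralClosure (fracRing K μ a) (∀ i, Φ i)) :
    closureHom e he a (closureInv e he a y) = y :=
  Subtype.ext (by rw [coe_closureHom, coe_closureInv, e.apply_symm_apply])

theorem closureHom_algebraMap (d : fracRing K μ a) :
    closureHom e he a (algebraMap (fracRing K μ a) (integralClosure (fracRing K μ a) R) d) =
      algebraMap (fracRing K μ a) (integralClosure (fracRing K μ a) (∀ i, Φ i)) d :=
  Subtype.ext (he (d : M))

theorem closureInv_algebraMap (d : fracRing K μ a) :
    closureInv e he a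
      (algebraMap (fracRing K μ a) (integralClosure (fracRing K μ a) (∀ i, Φ i)) d) =
      algebraMap (fracRing K μ a) (integralClosure (fracRing K μ a) R) d := by
  rw [← closureHom_algebraMap e he a d, closureInv_closureHom]

variable (hμ : IsFF K μ) (w : Place K M) (hw : w.adicValuation (μ - algebraMap K M a) < 1)

/-- the points over `evFrac` of the two normalisations correspond -/
noncomputable def ptsEquiv :
    {ψ : integralClosure (fracRing K μ a) R →+* K //
      ∀ d : fracRing K μ a, ψ (algebraMap (fracRing K μ a) _ d) = evFrac hμ a w hw d} ≃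
    {ψ : integralClosure (fracRing K μ a) (∀ i, Φ i) →+* K //
      ∀ d : fracRing K μ a, ψ (algebraMap (fracRing K μ a) _ d) = evFrac hμ a w hw d} where
  toFun ψ := ⟨ψ.1.comp (closureInv e he a), fun d => by
    rw [RingHom.comp_apply, closureInv_algebraMap, ψ.2]⟩
  invFun ψ := ⟨ψ.1.comp (closureHom e he a), fun d => by
    rw [RingHom.comp_apply, closureHom_algebraMap, ψ.2]⟩
  left_inv ψ := Subtype.ext (RingHom.ext fun x => by
    show ψ.1 (closureInv e he a (closureHom e he a x)) = ψ.1 x
    rw [closureInv_closureHom])
  right_inv ψ := Subtype.ext (RingHom.ext fun y => by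
    show ψ.1 (closureHom e he a (closureInv e he a y)) = ψ.1 y
    rw [closureHom_closureInv])

include he in
/-- **(P1)** in characteristic zero with `M = K(μ)` : the normalisation of `K[μ]_(μ - a)` in `R`
has at least `[R : M]` points over `μ = a`, if all places over `μ = a` are unramified. -/
theorem finrank_le_card_ptsOver [CharZero K] [∀ i, Module.Finite M (Φ i)] (htop : K⟮μ⟯ = ⊤)
    (hU : ∀ i (v : Place K (Φ i)),
      0 < v.ord (algebraMap M (Φ i) μ - algebraMap K (Φ i) a) →
      v.ord (algebraMap M (Φ i) μ - algebraMap K (Φ i) a) = 1)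
    [Finite {ψ : integralClosure (fracRing K μ a) R →+* K //
      ∀ d : fracRing K μ a, ψ (algebraMap (fracRing K μ a) _ d) = evFrac hμ a w hw d}] :
    Module.finrank M R ≤
      Nat.card {ψ : integralClosure (fracRing K μ a) R →+* K //
        ∀ d : fracRing K μ a, ψ (algebraMap (fracRing K μ a) _ d) = evFrac hμ a w hw d} := by
  have hx : ∀ i, IsFF K (algebraMap M (Φ i) μ) := fun i => isFF_algebraMap (Φ i) hμ htop
  have hsep : ∀ i, Algebra.IsSeparable K⟮algebraMap M (Φ i) μ⟯ (Φ i) := fun i =>
    isSeparable_of_charZero (hx i)
  have : Finite {ψ : integralClosure (fracRing K μ a) (∀ i, Φ i) →+* K //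
      ∀ d : fracRing K μ a, ψ (algebraMap (fracRing K μ a) _ d) = evFrac hμ a w hw d} :=
    Finite.of_equiv _ (ptsEquiv e he a hμ w hw)
  rw [Nat.card_congr (ptsEquiv e he a hμ w hw), finrank_eq_sum e he,
    ← Finset.sum_congr rfl fun i _ => finrank_adjoin_algebraMap (Φ i) htop]
  exact finrank_le_card_points_closure hμ a w hw hx hsep hU

end ClosureR

end Fermat.Agent.S18.C.PointsDisc3
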