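import Mathlib
import Fermat.Agent.S18.A.LocalChart
import Fermat.Agent.S18.A.Chart
import Fermat.Agent.S18.C.DiscRingLocal
import Fermat.Agent.S18.C.ModularInst

/-!
# PROJECT H (S18), block C, slice H-C8f: the special chart `Dj = discRing ⊤ = K[X]_(X) ⊆ RatFunc K`

`K` algebraically closed, `F/K` a function field with `hx : IsFF K x`, `hsep` separable, and a
`RatFunc K`-algebra structure on `F` sending `X ↦ x` (`halg`).  With `Dj := discRing ⊤` and
`E := integralClosure Dj F` (the algebra `Dj → F` through `RatFunc K`):

* `isDedekindDomain_E`, `moduleFinite_E`, `isFractionRing_E`, `finite_heightOneSpectrum_E`;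
* `Dj` is the localisation of `polyRing K x` at `(x)`, `E` is the localisation of `intRing K x`;
* **`finsum_diffExpAt_top`** : `∑ᶠ Q : HeightOneSpectrum E, Defs.diffExpAt Dj Q =
  ∑ Q ∈ FibreSep.zeros hx hsep 0, Defs.diffExp hx hsep Q`.
-/

set_option autoImplicit false
set_option linter.style.haveILetI false
set_option linter.unusedSectionVars false
set_option synthInstance.maxHeartbeats 400000

namespace Fermat.Agent.S18.C.SpecialChart

open AlgebraicCurve IsDedekindDomain IntermediateField Polynomial IsLocalRing
  Fermat.Agent.S24.PlacePrime Fermat.Agent.S24.FF Fermat.Agent.S24.Ord Fermat.Agent.S24.Fibre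
  Fermat.Agent.S18.A Fermat.Agent.S18.A.LocalChart Fermat.Agent.S18.Different.LocalPrimes
  Fermat.Agent.S18.Different.Localization
  Fermat.Agent.S18.C.Defs Fermat.Agent.S18.C.DiscRingLocal
open scoped IntermediateField.algebraAdjoinAdjoin nonZeroDivisors

/-! ### the localisation at a maximal ideal: an arbitrary model `(Ap, Bp)` -/

section General

variable {A : Type*} (K' L : Type*) {B : Type*}
  [CommRing A] [Field K'] [CommRing B] [Field L]
  [Algebra A K'] [Algebra B L] [Algebra A B] [Algebra K' L] [Algebra A L]
  [IsScalarTower A K' L] [IsScalarTower A B L]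
  [IsDedekindDomain A] [IsFractionRing A K'] [IsDedekindDomain B]
  [IsFractionRing B L] [IsIntegralClosure B A L] [FiniteDimensional K' L]
  [Algebra.IsSeparable K' L] [Module.IsTorsionFree A B] [Module.Finite A B]
  (p : Ideal A) [p.IsMaximal] (Ap Bp : Type*) [CommRing Ap] [CommRing Bp]
  [Algebra A Ap] [IsLocalization.AtPrime Ap p] [IsLocalRing Ap] [Algebra B Bp]
  [IsLocalization (Algebra.algebraMapSubmonoid B p.primeCompl) Bp]
  [Algebra Ap Bp]
  [Algebra Ap K'] [IsScalarTower A Ap K'] [Algebra Bp L] [IsScalarTower B Bp L]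
  [Algebra Ap L] [IsScalarTower Ap K' L] [IsScalarTower Ap Bp L]
  [IsDomain Ap] [IsFractionRing Ap K'] [IsIntegrallyClosed Ap] [IsDedekindDomain Bp]
  [IsFractionRing Bp L] [IsIntegralClosure Bp Ap L] [Module.IsTorsionFree Ap Bp]
  [Algebra A Bp] [IsScalarTower A B Bp] [IsScalarTower A Ap Bp]

omit [IsLocalRing Ap] in
include p in
theorem maximalIdeal_ne_bot_gen [IsLocalRing Ap] (hp : p ≠ ⊥) : maximalIdeal Ap ≠ ⊥ := by
  rw [← IsLocalization.AtPrime.map_eq_maximalIdeal p Ap]
  intro h
  apply hp
  rw [Ideal.map_eq_bot_iff_of_injective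
    (IsLocalization.injective Ap p.primeCompl_le_nonZeroDivisors)] at h
  exact h

/-- nonzero primes of `Bp` = primes over the maximal ideal of `Ap` -/
noncomputable def heightOneEquivPrimesOverGen (hp : p ≠ ⊥) :
    HeightOneSpectrum Bp ≃ (maximalIdeal Ap).primesOver Bp where
  toFun Q := ⟨Q.asIdeal, by
    haveI : Algebra.IsIntegral Ap Bp := IsIntegralClosure.isIntegral_algebra Ap L
    haveI : Q.asIdeal.IsMaximal := Q.isMaximal
    exact IsLocalization.AtPrime.mem_primesOver_of_isPrime Ap Bp⟩
  invFun Q := ⟨Q.1, Q.2.1, by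
    intro h
    have h1 := Q.2.2
    rw [Ideal.liesOver_iff, h, Ideal.under_def, Ideal.comap_bot_of_injective] at h1
    · exact maximalIdeal_ne_bot_gen p Ap hp h1
    · exact FaithfulSMul.algebraMap_injective Ap Bp⟩
  left_inv Q := rfl
  right_inv Q := rfl

/-- nonzero primes of `Bp` = primes of `B` over `p` -/
noncomputable def heightOneEquivGen (hp : p ≠ ⊥) :
    HeightOneSpectrum Bp ≃ p.primesOver B :=
  (heightOneEquivPrimesOverGen L p Ap Bp hp).trans
    (IsDedekindDomain.primesOverEquivPrimesOver p Ap Bp hp).symm.toEquiv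

theorem heightOneEquivGen_apply (hp : p ≠ ⊥) (Q : HeightOneSpectrum Bp) :
    ((heightOneEquivGen L p Ap Bp hp Q : p.primesOver B) : Ideal B) = Q.asIdeal.under B := rfl

theorem map_heightOneEquivGen (hp : p ≠ ⊥) (Q : HeightOneSpectrum Bp) :
    ((heightOneEquivGen L p Ap Bp hp Q : p.primesOver B) : Ideal B).map (algebraMap B Bp) =
      Q.asIdeal := by
  rw [heightOneEquivGen_apply]
  exact IsLocalization.map_under (Algebra.algebraMapSubmonoid B p.primeCompl) Bp Q.asIdeal

variable (B) in
include L Ap B in
theorem finite_heightOneSpectrum_gen (hp : p ≠ ⊥) : Finite (HeightOneSpectrum Bp) := by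
  haveI : Finite (p.primesOver B) := (Algebra.QuasiFinite.finite_primesOver p).to_subtype
  exact Finite.of_equiv _ (heightOneEquivGen (B := B) L p Ap Bp hp).symm

include K' in
/-- **the different exponent at a prime of the localisation = the global different exponent** -/
theorem diffExpAt_heightOneEquivGen (hp : p ≠ ⊥) (Q : HeightOneSpectrum Bp) :
    Defs.diffExpAt Ap Q =
      Defs.diffExpAt A (toHeightOne A B p hp (heightOneEquivGen L p Ap Bp hp Q)) :=
  count_differentIdeal_localization K' L p.primeCompl _ Q
    (map_heightOneEquivGen L p Ap Bp hp Q).symm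

end General

universe u w

/-! ### field level: `F` over `RatFunc K` -/

section FieldLevel

variable {K : Type w} {F : Type u} [Field K] [Field F] [Algebra K F] {x : F}
  [Algebra (RatFunc K) F]

theorem algebraMap_comp_ratEquiv_symm (hx : Transcendental K x)
    (halg : ∀ a : RatFunc K, algebraMap (RatFunc K) F a = Chart.evalRat hx a) :
    (algebraMap (RatFunc K) F).comp
        ((Chart.ratEquivAdjoin hx (mem_adjoin_simple_self K x) (Chart.evalRat_X hx)).symm :
          K⟮x⟯ →+* RatFunc K) =
      ((RingEquiv.refl F : F ≃+* F) : F →+* F).comp (algebraMap K⟮x⟯ F) := by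
  ext a
  change algebraMap (RatFunc K) F
    ((Chart.ratEquivAdjoin hx (mem_adjoin_simple_self K x) (Chart.evalRat_X hx)).symm a) = (a : F)
  rw [halg, Chart.evalRat_ratEquivAdjoin_symm]

/-- `F` is finite over `RatFunc K` -/
theorem finiteDimensional_rat (hx : IsFF K x)
    (halg : ∀ a : RatFunc K, algebraMap (RatFunc K) F a = Chart.evalRat hx.transcendental a) :
    FiniteDimensional (RatFunc K) F := by
  haveI : FiniteDimensional K⟮x⟯ F := hx.finite
  exact Module.Finite.of_equiv_equiv
    (Chart.ratEquivAdjoin hx.transcendental (mem_adjoin_simple_self K x)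
      (Chart.evalRat_X hx.transcendental)).symm
    (RingEquiv.refl F) (algebraMap_comp_ratEquiv_symm hx.transcendental halg)

/-- `F` is separable over `RatFunc K` -/
theorem isSeparable_rat (hx : Transcendental K x)
    (halg : ∀ a : RatFunc K, algebraMap (RatFunc K) F a = Chart.evalRat hx a)
    (hsep : Algebra.IsSeparable K⟮x⟯ F) : Algebra.IsSeparable (RatFunc K) F :=
  Algebra.IsSeparable.of_equiv_equiv
    (Chart.ratEquivAdjoin hx (mem_adjoin_simple_self K x) (Chart.evalRat_X hx)).symm
    (RingEquiv.refl F) (algebraMap_comp_ratEquiv_symm hx halg)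

end FieldLevel

/-! ### the rings `Dj = discRing ⊤` and `E = integralClosure Dj F` -/

/-- `Dj = K[X]_(X)`, as a subring of `RatFunc K` -/
noncomputable abbrev DjTop (K : Type w) [Field K] : Subring (RatFunc K) := discRing (⊤ : ValuationSubring K)

/-- `E`: the integral closure of `Dj` in `F` -/
noncomputable abbrev ETop (K : Type w) (F : Type u) [Field K] [Field F] [Algebra (RatFunc K) F] :
    Subalgebra (DjTop K) F := integralClosure (DjTop K) F

section RingLevel

variable {K : Type w} {F : Type u} [Field K] [Field F] [Algebra K F] {x : F}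
  [Algebra (RatFunc K) F]

theorem isDiscreteValuationRing_DjTop (K : Type w) [Field K] :
    IsDiscreteValuationRing (DjTop K) := (isDiscreteValuationRing_top (K := K)).1

/-- **`E` is a Dedekind domain** -/
theorem isDedekindDomain_E (hx : IsFF K x) (hsep : Algebra.IsSeparable K⟮x⟯ F)
    (halg : ∀ a : RatFunc K, algebraMap (RatFunc K) F a = Chart.evalRat hx.transcendental a) :
    IsDedekindDomain (ETop K F) := by
  haveI := isDiscreteValuationRing_DjTop K
  haveI := finiteDimensional_rat hx halg
  haveI := isSeparable_rat hx.transcendental halg hsep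
  exact integralClosure.isDedekindDomain (DjTop K) (RatFunc K) F

/-- **`E` has fraction field `F`** -/
theorem isFractionRing_E (hx : IsFF K x)
    (halg : ∀ a : RatFunc K, algebraMap (RatFunc K) F a = Chart.evalRat hx.transcendental a) :
    IsFractionRing (ETop K F) F := by
  haveI := finiteDimensional_rat hx halg
  exact integralClosure.isFractionRing_of_finite_extension (RatFunc K) F

/-- **`E` is finite over `Dj`** -/
theorem moduleFinite_E (hx : IsFF K x) (hsep : Algebra.IsSeparable K⟮x⟯ F)
    (halg : ∀ a : RatFunc K, algebraMap (RatFunc K) F a = Chart.evalRat hx.transcendental a) :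
    Module.Finite (DjTop K) (ETop K F) := by
  haveI := isDiscreteValuationRing_DjTop K
  haveI := finiteDimensional_rat hx halg
  haveI := isSeparable_rat hx.transcendental halg hsep
  exact IsIntegralClosure.finite (DjTop K) (RatFunc K) F (ETop K F)

/-- `E` is torsion free over `Dj` (an instance; recorded for the consumers) -/
theorem isTorsionFree_E : Module.IsTorsionFree (DjTop K) (ETop K F) := inferInstance

end RingLevel

/-! ### `K[x] → Dj` and `intRing K x → E` -/

section Chart

variable {K : Type w} {F : Type u} [Field K] [Field F] [Algebra K F] {x : F}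
  [Algebra (RatFunc K) F]

/-- `K[X] ≃ K[x]` -/
noncomputable def polyEquiv (hx : Transcendental K x) : K[X] ≃+* polyRing K x :=
  (Polynomial.algEquivOfTranscendental K x hx).toRingEquiv

theorem coe_polyEquiv (hx : Transcendental K x) (p : K[X]) :
    ((polyEquiv hx p : polyRing K x) : F) = aeval x p := by
  show ((Polynomial.algEquivOfTranscendental K x hx p : polyRing K x) : F) = aeval x p
  rw [Polynomial.algEquivOfTranscendental_apply]
  exact coe_aeval_mk_apply x (Algebra.self_mem_adjoin_singleton K x)

theorem polyEquiv_X (hx : Transcendental K x) : polyEquiv hx X = tA K x 0 := by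
  apply Subtype.ext
  rw [coe_polyEquiv, aeval_X]
  simp [tA]

/-- the algebra structure `K[x] → RatFunc K` -/
@[reducible] noncomputable def algPolyRat (hx : Transcendental K x) :
    Algebra (polyRing K x) (RatFunc K) :=
  ((algebraMap K[X] (RatFunc K)).comp (polyEquiv hx).symm.toRingHom).toAlgebra

theorem algebraMap_polyRat (hx : Transcendental K x) (a : polyRing K x) :
    letI := algPolyRat hx
    algebraMap (polyRing K x) (RatFunc K) a =
      algebraMap K[X] (RatFunc K) ((polyEquiv hx).symm a) := rfl

theorem algebraMap_polyRat_polyEquiv (hx : Transcendental K x) (p : K[X]) :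
    letI := algPolyRat hx
    algebraMap (polyRing K x) (RatFunc K) (polyEquiv hx p) = algebraMap K[X] (RatFunc K) p := by
  rw [algebraMap_polyRat, RingEquiv.symm_apply_apply]

theorem isFractionRing_polyRat (hx : Transcendental K x) :
    letI := algPolyRat hx
    IsFractionRing (polyRing K x) (RatFunc K) :=
  (IsFractionRing.isFractionRing_iff_of_base_ringEquiv (RatFunc K) (polyEquiv hx)).mp inferInstance

theorem mem_polyV_top (p : K[X]) : p ∈ polyV (⊤ : ValuationSubring K) :=
  (mem_polyV _).mpr fun _ => ValuationSubring.mem_top _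

theorem valuation_top_eq_one {c : K} (hc : c ≠ 0) :
    (⊤ : ValuationSubring K).valuation c = 1 :=
  (valuation_eq_one_iff_mem ⊤).mpr ⟨hc, ValuationSubring.mem_top _, ValuationSubring.mem_top _⟩

theorem algebraMap_polyRat_mem (hx : Transcendental K x) (a : polyRing K x) :
    letI := algPolyRat hx
    algebraMap (polyRing K x) (RatFunc K) a ∈ DjTop K :=
  algebraMap_mem_discRing _ (mem_polyV_top _)

/-- `K[x] → Dj` -/
noncomputable def toDj (hx : Transcendental K x) : polyRing K x →+* DjTop K :=
  letI := algPolyRat hx
  (algebraMap (polyRing K x) (RatFunc K)).codRestrict (DjTop K) (algebraMap_polyRat_mem hx)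

theorem coe_toDj (hx : Transcendental K x) (a : polyRing K x) :
    ((toDj hx a : DjTop K) : RatFunc K) = algebraMap K[X] (RatFunc K) ((polyEquiv hx).symm a) :=
  rfl

theorem coe_toDj_polyEquiv (hx : Transcendental K x) (p : K[X]) :
    ((toDj hx (polyEquiv hx p) : DjTop K) : RatFunc K) = algebraMap K[X] (RatFunc K) p := by
  rw [coe_toDj, RingEquiv.symm_apply_apply]

theorem toDj_injective (hx : Transcendental K x) : Function.Injective (toDj hx) := by
  intro a b h
  have h1 := congrArg (Subtype.val) h
  rw [coe_toDj, coe_toDj] at h1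
  exact (polyEquiv hx).symm.injective (IsFractionRing.injective K[X] (RatFunc K) h1)

/-- the algebra structure `K[x] → Dj` -/
@[reducible] noncomputable def algPolyDj (hx : Transcendental K x) :
    Algebra (polyRing K x) (DjTop K) := (toDj hx).toAlgebra

theorem isScalarTower_poly_Dj_rat (hx : Transcendental K x) :
    letI := algPolyRat hx
    letI := algPolyDj hx
    IsScalarTower (polyRing K x) (DjTop K) (RatFunc K) := by
  letI := algPolyRat hx
  letI := algPolyDj hx
  exact IsScalarTower.of_algebraMap_eq fun _ => rfl

theorem isScalarTower_poly_rat_F (hx : Transcendental K x)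
    (halg : ∀ a : RatFunc K, algebraMap (RatFunc K) F a = Chart.evalRat hx a) :
    letI := algPolyRat hx
    IsScalarTower (polyRing K x) (RatFunc K) F := by
  letI := algPolyRat hx
  refine IsScalarTower.of_algebraMap_eq fun a => ?_
  obtain ⟨p, rfl⟩ := (polyEquiv hx).surjective a
  rw [algebraMap_polyRat_polyEquiv, halg, Chart.evalRat_algebraMap, ← coe_polyEquiv hx]
  rfl

theorem isScalarTower_poly_Dj_F (hx : Transcendental K x)
    (halg : ∀ a : RatFunc K, algebraMap (RatFunc K) F a = Chart.evalRat hx a) :
    letI := algPolyDj hx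
    IsScalarTower (polyRing K x) (DjTop K) F := by
  letI := algPolyRat hx
  letI := algPolyDj hx
  haveI := isScalarTower_poly_rat_F hx halg
  refine IsScalarTower.of_algebraMap_eq fun a => ?_
  rw [IsScalarTower.algebraMap_apply (polyRing K x) (RatFunc K) F]
  rfl

/-- membership in `(x) ⊆ K[x]` -/
theorem polyEquiv_mem_pA_iff (hx : Transcendental K x) (p : K[X]) :
    polyEquiv hx p ∈ pA K x 0 ↔ p.coeff 0 = 0 := by
  rw [pA, Ideal.mem_span_singleton, ← polyEquiv_X hx, map_dvd_iff (polyEquiv hx),
    Polynomial.X_dvd_iff]

/-- **`Dj` is the localisation of `K[x]` at `(x)`** -/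
theorem isLocalization_Dj (hx : Transcendental K x) [(pA K x 0).IsPrime] :
    letI := algPolyDj hx
    IsLocalization.AtPrime (DjTop K) (pA K x 0) := by
  letI := algPolyDj hx
  show IsLocalization (pA K x 0).primeCompl (DjTop K)
  rw [isLocalization_iff]
  refine ⟨?_, ?_, ?_⟩
  · rintro ⟨s, hs⟩
    obtain ⟨p, rfl⟩ := (polyEquiv hx).surjective s
    have hp0 : p.coeff 0 ≠ 0 := fun h0 => hs ((polyEquiv_mem_pA_iff hx p).mpr h0)
    have hne : algebraMap K[X] (RatFunc K) p ≠ 0 := by
      intro h0
      have : p = 0 := IsFractionRing.injective K[X] (RatFunc K) (by rw [h0, map_zero])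
      rw [this] at hp0
      simp at hp0
    have hinv : (algebraMap K[X] (RatFunc K) p)⁻¹ ∈ DjTop K := by
      refine ⟨1, p, mem_polyV_top _, mem_polyV_top _, valuation_top_eq_one hp0, ?_⟩
      rw [inv_mul_cancel₀ hne, map_one]
    refine IsUnit.of_mul_eq_one (⟨_, hinv⟩ : DjTop K) ?_
    apply Subtype.ext
    show ((toDj hx (polyEquiv hx p) : DjTop K) : RatFunc K) *
      (algebraMap K[X] (RatFunc K) p)⁻¹ = 1
    rw [coe_toDj_polyEquiv]
    exact mul_inv_cancel₀ hne
  · intro z
    obtain ⟨a, s, -, -, hs0, h⟩ := (mem_discRing _).mp z.2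
    have hs0' : s.coeff 0 ≠ 0 := by
      intro h0
      rw [h0, map_zero] at hs0
      exact zero_ne_one hs0
    refine ⟨(polyEquiv hx a, ⟨polyEquiv hx s, fun hmem =>
      hs0' ((polyEquiv_mem_pA_iff hx s).mp hmem)⟩), ?_⟩
    apply Subtype.ext
    show (z : RatFunc K) * ((toDj hx (polyEquiv hx s) : DjTop K) : RatFunc K) =
      ((toDj hx (polyEquiv hx a) : DjTop K) : RatFunc K)
    rw [coe_toDj_polyEquiv, coe_toDj_polyEquiv]
    exact h
  · intro a b h
    exact ⟨1, by rw [toDj_injective hx h]⟩

/-- elements of `intRing K x` are integral over `Dj` -/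
theorem isIntegral_Dj_of_mem_intRing (hx : Transcendental K x)
    (halg : ∀ a : RatFunc K, algebraMap (RatFunc K) F a = Chart.evalRat hx a)
    (b : intRing K x) : IsIntegral (DjTop K) (b : F) := by
  letI := algPolyDj hx
  haveI := isScalarTower_poly_Dj_F hx halg
  exact b.2.tower_top

/-- `intRing K x → E` -/
noncomputable def toE (hx : Transcendental K x)
    (halg : ∀ a : RatFunc K, algebraMap (RatFunc K) F a = Chart.evalRat hx a) :
    intRing K x →+* ETop K F where
  toFun b := ⟨(b : F), isIntegral_Dj_of_mem_intRing hx halg b⟩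
  map_one' := rfl
  map_mul' _ _ := rfl
  map_zero' := rfl
  map_add' _ _ := rfl

theorem coe_toE (hx : Transcendental K x)
    (halg : ∀ a : RatFunc K, algebraMap (RatFunc K) F a = Chart.evalRat hx a) (b : intRing K x) :
    ((toE hx halg b : ETop K F) : F) = (b : F) := rfl

/-- the algebra structure `intRing K x → E` -/
@[reducible] noncomputable def algIntE (hx : Transcendental K x)
    (halg : ∀ a : RatFunc K, algebraMap (RatFunc K) F a = Chart.evalRat hx a) :
    Algebra (intRing K x) (ETop K F) := (toE hx halg).toAlgebra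

theorem isScalarTower_int_E_F (hx : Transcendental K x)
    (halg : ∀ a : RatFunc K, algebraMap (RatFunc K) F a = Chart.evalRat hx a) :
    letI := algIntE hx halg
    IsScalarTower (intRing K x) (ETop K F) F := by
  letI := algIntE hx halg
  exact IsScalarTower.of_algebraMap_eq fun _ => rfl

/-- the algebra structure `K[x] → E` is `Subalgebra.algebra'` (through `K[x] → Dj → F`) -/
theorem isScalarTower_poly_Dj_E (hx : Transcendental K x)
    (halg : ∀ a : RatFunc K, algebraMap (RatFunc K) F a = Chart.evalRat hx a) :
    letI := algPolyDj hx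
    haveI := isScalarTower_poly_Dj_F hx halg
    IsScalarTower (polyRing K x) (DjTop K) (ETop K F) := by
  letI := algPolyDj hx
  haveI := isScalarTower_poly_Dj_F hx halg
  refine IsScalarTower.of_algebraMap_eq fun a => ?_
  apply Subtype.ext
  show algebraMap (polyRing K x) F a = algebraMap (DjTop K) F (algebraMap (polyRing K x) (DjTop K) a)
  rw [← IsScalarTower.algebraMap_apply (polyRing K x) (DjTop K) F]

theorem isScalarTower_poly_int_E (hx : Transcendental K x)
    (halg : ∀ a : RatFunc K, algebraMap (RatFunc K) F a = Chart.evalRat hx a) :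
    letI := algPolyDj hx
    letI := algIntE hx halg
    haveI := isScalarTower_poly_Dj_F hx halg
    IsScalarTower (polyRing K x) (intRing K x) (ETop K F) := by
  letI := algPolyDj hx
  letI := algIntE hx halg
  haveI := isScalarTower_poly_Dj_F hx halg
  refine IsScalarTower.of_algebraMap_eq fun a => ?_
  apply Subtype.ext
  rfl

/-- **`E` is the localisation of `intRing K x` at `K[x] \ (x)`** -/
theorem isLocalization_E (hx : Transcendental K x)
    (halg : ∀ a : RatFunc K, algebraMap (RatFunc K) F a = Chart.evalRat hx a)
    [(pA K x 0).IsPrime] :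
    letI := algIntE hx halg
    IsLocalization (Algebra.algebraMapSubmonoid (intRing K x) (pA K x 0).primeCompl)
      (ETop K F) := by
  letI := algPolyDj hx
  letI := algIntE hx halg
  haveI := isScalarTower_poly_Dj_F hx halg
  haveI := isLocalization_Dj hx
  haveI := isScalarTower_int_E_F hx halg
  haveI := isScalarTower_poly_int_E hx halg
  haveI : IsLocalization (Algebra.algebraMapSubmonoid F (pA K x 0).primeCompl) F := by
    refine IsLocalization.of_le_isUnit ?_
    rintro _ ⟨m, hm, rfl⟩
    have h1 : IsUnit (algebraMap (polyRing K x) (DjTop K) m) :=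
      IsLocalization.map_units (DjTop K) (⟨m, hm⟩ : (pA K x 0).primeCompl)
    rw [IsScalarTower.algebraMap_apply (polyRing K x) (DjTop K) F]
    exact h1.map _
  exact IsLocalization.integralClosure (R := polyRing K x) (S := F) (Rf := DjTop K) (Sf := F)
    (pA K x 0).primeCompl

end Chart

/-! ### the main theorem -/

section Main

variable {K : Type w} {F : Type u} [Field K] [Field F] [Algebra K F] {x : F}
  [Algebra (RatFunc K) F] [IsAlgClosed K]

/-- **nonzero primes of `E` = places of `F` over `x = 0`** -/
noncomputable def localEquivTop (hx : IsFF K x) (hsep : Algebra.IsSeparable K⟮x⟯ F)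
    (halg : ∀ a : RatFunc K, algebraMap (RatFunc K) F a = Chart.evalRat hx.transcendental a)
    [IsDedekindDomain (ETop K F)] :
    HeightOneSpectrum (ETop K F) ≃ {Q : Place K F // Q ∈ FibreSep.zeros hx hsep 0} :=
  letI := algPolyRat hx.transcendental
  letI := algPolyDj hx.transcendental
  letI := algIntE hx.transcendental halg
  haveI := isScalarTower_poly_rat_F hx.transcendental halg
  haveI := isScalarTower_poly_Dj_rat hx.transcendental
  haveI := isScalarTower_poly_Dj_F hx.transcendental halg
  haveI := isScalarTower_int_E_F hx.transcendental halg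
  haveI := isScalarTower_poly_Dj_E hx.transcendental halg
  haveI := isScalarTower_poly_int_E hx.transcendental halg
  haveI := isDedekind_poly hx.transcendental
  haveI := isFractionRing_polyRat hx.transcendental
  haveI := Defs.isDedekind hx hsep
  haveI := Defs.isFractionRing hx
  haveI := Defs.moduleFinite hx hsep
  haveI := finiteDimensional_rat hx halg
  haveI := isSeparable_rat hx.transcendental halg hsep
  haveI := isMaximal_pA hx.transcendental (0 : K)
  haveI := isLocalization_Dj hx.transcendental
  haveI := isLocalization_E hx.transcendental halg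
  haveI := isDiscreteValuationRing_DjTop K
  haveI := isFractionRing_E hx halg
  haveI : Module.IsTorsionFree (DjTop K) (ETop K F) := isTorsionFree_E
  (heightOneEquivGen (A := polyRing K x) (B := intRing K x) F (pA K x 0) (DjTop K) (ETop K F)
      (pA_ne_bot hx.transcendental 0)).trans
    (overEquiv hx hsep 0)

/-- `E` is semilocal -/
theorem finite_heightOneSpectrum_E (hx : IsFF K x) (hsep : Algebra.IsSeparable K⟮x⟯ F)
    (halg : ∀ a : RatFunc K, algebraMap (RatFunc K) F a = Chart.evalRat hx.transcendental a)
    [IsDedekindDomain (ETop K F)] : Finite (HeightOneSpectrum (ETop K F)) :=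
  Finite.of_equiv _ (localEquivTop hx hsep halg).symm

/-- **the different exponent of `E / Dj` at `Q'` is the different exponent `Defs.diffExp` of
`F/K(x)` at the corresponding place** -/
theorem diffExpAt_top (hx : IsFF K x) (hsep : Algebra.IsSeparable K⟮x⟯ F)
    (halg : ∀ a : RatFunc K, algebraMap (RatFunc K) F a = Chart.evalRat hx.transcendental a)
    [IsDedekindDomain (ETop K F)] (Q' : HeightOneSpectrum (ETop K F)) :
    Defs.diffExpAt (DjTop K) Q' = Defs.diffExp hx hsep (localEquivTop hx hsep halg Q') := by
  letI := algPolyRat hx.transcendental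
  letI := algPolyDj hx.transcendental
  letI := algIntE hx.transcendental halg
  haveI := isScalarTower_poly_rat_F hx.transcendental halg
  haveI := isScalarTower_poly_Dj_rat hx.transcendental
  haveI := isScalarTower_poly_Dj_F hx.transcendental halg
  haveI := isScalarTower_int_E_F hx.transcendental halg
  haveI := isScalarTower_poly_Dj_E hx.transcendental halg
  haveI := isScalarTower_poly_int_E hx.transcendental halg
  haveI := isDedekind_poly hx.transcendental
  haveI := isFractionRing_polyRat hx.transcendental
  haveI := Defs.isDedekind hx hsep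
  haveI := Defs.isFractionRing hx
  haveI := Defs.moduleFinite hx hsep
  haveI := finiteDimensional_rat hx halg
  haveI := isSeparable_rat hx.transcendental halg hsep
  haveI := isMaximal_pA hx.transcendental (0 : K)
  haveI := isLocalization_Dj hx.transcendental
  haveI := isLocalization_E hx.transcendental halg
  haveI := isDiscreteValuationRing_DjTop K
  haveI := isFractionRing_E hx halg
  haveI : Module.IsTorsionFree (DjTop K) (ETop K F) := isTorsionFree_E
  have h1 := diffExpAt_heightOneEquivGen (A := polyRing K x) (B := intRing K x) (RatFunc K) F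
    (pA K x 0) (DjTop K) (ETop K F) (pA_ne_bot hx.transcendental 0) Q'
  have h2 := diffExp_placeOfOver hx hsep 0
    (heightOneEquivGen (A := polyRing K x) (B := intRing K x) F (pA K x 0) (DjTop K) (ETop K F)
      (pA_ne_bot hx.transcendental 0) Q')
  rw [h1]
  exact h2.symm

/-- **sum formula**: the sum of the different exponents of `E / Dj` (`Dj = K[X]_(X)`,
`E` = integral closure of `Dj` in `F`) is the sum of `Defs.diffExp` over the zeros of `x`. -/
theorem finsum_diffExpAt_top (hx : IsFF K x) (hsep : Algebra.IsSeparable K⟮x⟯ F)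
    (halg : ∀ a : RatFunc K, algebraMap (RatFunc K) F a = Chart.evalRat hx.transcendental a)
    [IsDedekindDomain (ETop K F)] :
    ∑ᶠ Q' : HeightOneSpectrum (ETop K F), Defs.diffExpAt (DjTop K) Q' =
      ∑ Q ∈ FibreSep.zeros hx hsep 0, Defs.diffExp hx hsep Q := by
  rw [← finsum_comp_equiv (localEquivTop hx hsep halg).symm]
  have h : ∀ Q : {Q : Place K F // Q ∈ FibreSep.zeros hx hsep 0},
      Defs.diffExpAt (DjTop K) ((localEquivTop hx hsep halg).symm Q) =
        Defs.diffExp hx hsep Q.1 := by
    intro Q
    rw [diffExpAt_top hx hsep halg, Equiv.apply_symm_apply]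
  rw [finsum_congr h]
  rw [finsum_eq_sum_of_fintype, ← Finset.sum_coe_sort (FibreSep.zeros hx hsep 0)]

end Main

/-! ### the instance `F = Fk = modularFunctionFieldFullC k N`, `x = jk` -/

section Fk

open ModularCurve ModularCurve.IgusaScheme Fermat.Agent.S18.B

variable (k : Type*) [Field k] [IsAlgClosed k] (N : ℕ) [NeZero N]

theorem isDedekindDomain_E_Fk
    (hsep : Algebra.IsSeparable k⟮FkBasics.jk k N⟯ ↥(modularFunctionFieldFullC k N)) :
    IsDedekindDomain (ETop k ↥(modularFunctionFieldFullC k N)) :=
  isDedekindDomain_E (FkBasics.isFF k N) hsep (ModularInst.algebraMap_Fk N k)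

theorem isFractionRing_E_Fk :
    IsFractionRing (ETop k ↥(modularFunctionFieldFullC k N)) ↥(modularFunctionFieldFullC k N) :=
  isFractionRing_E (FkBasics.isFF k N) (ModularInst.algebraMap_Fk N k)

theorem moduleFinite_E_Fk
    (hsep : Algebra.IsSeparable k⟮FkBasics.jk k N⟯ ↥(modularFunctionFieldFullC k N)) :
    Module.Finite (DjTop k) (ETop k ↥(modularFunctionFieldFullC k N)) :=
  moduleFinite_E (FkBasics.isFF k N) hsep (ModularInst.algebraMap_Fk N k)

theorem finite_heightOneSpectrum_E_Fk
    (hsep : Algebra.IsSeparable k⟮FkBasics.jk k N⟯ ↥(modularFunctionFieldFullC k N))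
    [IsDedekindDomain (ETop k ↥(modularFunctionFieldFullC k N))] :
    Finite (HeightOneSpectrum (ETop k ↥(modularFunctionFieldFullC k N))) :=
  finite_heightOneSpectrum_E (FkBasics.isFF k N) hsep (ModularInst.algebraMap_Fk N k)

/-- **C8b bridge**: for `Dj = k[X]_(X) ⊆ RatFunc k` (`X ↦ jk`) and `E` the integral closure of
`Dj` in `Fk`, the sum of the different exponents of `E / Dj` is the sum of `Defs.diffExp` over the
zeros of `jk`. -/
theorem finsum_diffExpAt_Fk
    (hsep : Algebra.IsSeparable k⟮FkBasics.jk k N⟯ ↥(modularFunctionFieldFullC k N))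
    [IsDedekindDomain (ETop k ↥(modularFunctionFieldFullC k N))] :
    ∑ᶠ Q' : HeightOneSpectrum (ETop k ↥(modularFunctionFieldFullC k N)),
        Defs.diffExpAt (DjTop k) Q' =
      ∑ Q ∈ FibreSep.zeros (FkBasics.isFF k N) hsep 0, Defs.diffExp (FkBasics.isFF k N) hsep Q :=
  finsum_diffExpAt_top (FkBasics.isFF k N) hsep (ModularInst.algebraMap_Fk N k)

end Fk

end Fermat.Agent.S18.C.SpecialChart
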