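/-
PROJECT H (S18), block C, K-SIDE, slice (P1) of #1712 (helper16): the instance package of
`SpecialCount.special_count` that does not depend on the integral model.

`(c, k)` a cover over a field, `F` a field over `RatFunc k`, `hP0 hQ0` as in `CoverDifferent`:

* `Dj := DjTop k = discRing ⊤ ⊆ RatFunc k`, `D₀ := BRing c ⊤ ⊆ MuLine c k` (algebra over `Dj` by
  `CoverDifferent.covTopAlgebra`), `S := CInt c F ⊤`, `E := ETop k F = integralClosure Dj F`;
* `algDjS`, `isScalarTower_Dj_D0_S`         : `S` as a `Dj`-algebra through `D₀`;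
* `algES` (`f ↦ incF f`), `isScalarTower_Dj_E_S`, `faithfulSMul_E_S`, `smulCommClass_E_S`;
* `isInvariant_E_S`                         : `S^{H₀} = E` (Galois descent `RAlgStructure.fixed_iff`);
* `faithfulSMul_gal_D0`                     : `H₀` acts faithfully on `D₀`.
-/
import Mathlib
import Fermat.Agent.S18.C.CoverDifferent
import Fermat.Agent.S18.C.RAlgStructure
import Fermat.Agent.S18.C.DiscRingChart

set_option autoImplicit false
set_option linter.style.haveILetI false
set_option linter.unusedSectionVars false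

noncomputable section

namespace Fermat.Agent.S18.C.SpecialInstA

open Polynomial TensorProduct Fermat.Agent.S18.C.Defs Fermat.Agent.S18.C.SurfaceDefs
  Fermat.Agent.S18.C.BRingLocal Fermat.Agent.S18.C.CoverDifferent
  Fermat.Agent.S18.C.DiscRingChart Fermat.Agent.S18.C.RAlgStructure

variable (c : Cover) (k : Type*) [Field k] [c.Good k]
variable (F : Type*) [Field F] [Algebra (RatFunc k) F]
variable (hP0 : (c.PK k).coeff 0 = 0) (hQ0 : (c.QK k).coeff 0 ≠ 0)

/-- the two ways from `Dj` to `R = F ⊗ k(μ)` agree -/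
theorem algebraMap_covTop (d : DjTop k) :
    algebraMap (BRing c (⊤ : ValuationSubring k)) (RAlg c k F) (covTop c k hP0 hQ0 d) =
      incF c k F (algebraMap (DjTop k) F d) := by
  show algebraMap (MuLine c k) (RAlg c k F) (c.covMap k (d : RatFunc k)) =
    incF c k F (algebraMap (RatFunc k) F (d : RatFunc k))
  rw [AlgHom.commutes, IsScalarTower.algebraMap_apply (RatFunc k) (MuLine c k) (RAlg c k F)]
  rfl

theorem comp_covTop :
    (algebraMap (BRing c (⊤ : ValuationSubring k)) (RAlg c k F)).comp (covTop c k hP0 hQ0) =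
      ((incF c k F : F →+* RAlg c k F)).comp (algebraMap (DjTop k) F) :=
  RingHom.ext fun d => algebraMap_covTop c k F hP0 hQ0 d

/-- `S = C_⊤` as an algebra over `Dj` (through `D₀`) -/
@[reducible] def algDjS : Algebra (DjTop k) (CInt c F (⊤ : ValuationSubring k)) :=
  ((algebraMap (BRing c (⊤ : ValuationSubring k)) (CInt c F (⊤ : ValuationSubring k))).comp
    (covTop c k hP0 hQ0)).toAlgebra

theorem isScalarTower_Dj_D0_S :
    letI := covTopAlgebra c k hP0 hQ0
    letI := algDjS c k F hP0 hQ0
    IsScalarTower (DjTop k) (BRing c (⊤ : ValuationSubring k))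
      (CInt c F (⊤ : ValuationSubring k)) := by
  letI := covTopAlgebra c k hP0 hQ0
  letI := algDjS c k F hP0 hQ0
  exact IsScalarTower.of_algebraMap_eq' rfl

include hP0 hQ0 in
/-- `f` integral over `Dj` ⟹ `f ⊗ 1` integral over `D₀` -/
theorem isIntegral_incF {f : F} (hf : IsIntegral (DjTop k) f) :
    IsIntegral (BRing c (⊤ : ValuationSubring k)) (incF c k F f) := by
  obtain ⟨p, hp, hpx⟩ := hf
  refine ⟨p.map (covTop c k hP0 hQ0), hp.map _, ?_⟩
  rw [eval₂_map, comp_covTop c k F hP0 hQ0]
  have h := hom_eval₂ p (algebraMap (DjTop k) F) (incF c k F : F →+* RAlg c k F) f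
  rw [hpx, map_zero] at h
  exact h.symm

/-- the map `E → S`, `f ↦ f ⊗ 1` -/
def toS : ETop k F →+* CInt c F (⊤ : ValuationSubring k) :=
  (((incF c k F : F →+* RAlg c k F)).comp (ETop k F).val.toRingHom).codRestrict
    (CInt c F (⊤ : ValuationSubring k)) fun e => isIntegral_incF c k F hP0 hQ0 e.2

@[simp] theorem coe_toS (e : ETop k F) :
    ((toS c k F hP0 hQ0 e : CInt c F (⊤ : ValuationSubring k)) : RAlg c k F) =
      incF c k F (e : F) := rfl

theorem toS_injective : Function.Injective (toS c k F hP0 hQ0) := by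
  intro e e' h
  apply Subtype.ext
  exact incF_injective c k F (congrArg Subtype.val h)

/-- `S` as an algebra over `E` -/
@[reducible] def algES : Algebra (ETop k F) (CInt c F (⊤ : ValuationSubring k)) :=
  (toS c k F hP0 hQ0).toAlgebra

theorem isScalarTower_Dj_E_S :
    letI := algDjS c k F hP0 hQ0
    letI := algES c k F hP0 hQ0
    IsScalarTower (DjTop k) (ETop k F) (CInt c F (⊤ : ValuationSubring k)) := by
  letI := algDjS c k F hP0 hQ0
  letI := algES c k F hP0 hQ0
  refine IsScalarTower.of_algebraMap_eq fun d => ?_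
  apply Subtype.ext
  exact algebraMap_covTop c k F hP0 hQ0 d

theorem faithfulSMul_E_S :
    letI := algES c k F hP0 hQ0
    FaithfulSMul (ETop k F) (CInt c F (⊤ : ValuationSubring k)) := by
  letI := algES c k F hP0 hQ0
  exact (faithfulSMul_iff_algebraMap_injective _ _).mpr (toS_injective c k F hP0 hQ0)

section Action

variable [IsInvariantSubring (c.Gal k) (BRing c (⊤ : ValuationSubring k))]

theorem smul_toS (g : c.Gal k) (e : ETop k F) :
    g • toS c k F hP0 hQ0 e = toS c k F hP0 hQ0 e := by
  apply Subtype.ext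
  rw [coe_smul_CInt, coe_toS, smul_incF]

theorem smulCommClass_E_S :
    letI := algES c k F hP0 hQ0
    SMulCommClass (c.Gal k) (ETop k F) (CInt c F (⊤ : ValuationSubring k)) := by
  letI := algES c k F hP0 hQ0
  refine ⟨fun g e s => ?_⟩
  rw [Algebra.smul_def, Algebra.smul_def, smul_mul']
  congr 1
  exact smul_toS c k F hP0 hQ0 g e

end Action

section Invariant

variable [IsInvariantSubring (c.Gal k) (BRing c (⊤ : ValuationSubring k))]
  [IsGalois (RatFunc k) (MuLine c k)] [FiniteDimensional (RatFunc k) (MuLine c k)]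

/-- `D₀ = k[μ]_(μ)` is integral over `Dj = k[j]_(j)` -/
theorem isIntegral_D0 :
    letI := covTopAlgebra c k hP0 hQ0
    Algebra.IsIntegral (DjTop k) (BRing c (⊤ : ValuationSubring k)) := by
  letI := covTopAlgebra c k hP0 hQ0
  haveI := isGaloisGroup_top c k hP0 hQ0 (fun _ => rfl)
  haveI : Algebra.IsInvariant (DjTop k) (BRing c (⊤ : ValuationSubring k)) (c.Gal k) :=
    IsGaloisGroup.isInvariant
  exact Algebra.IsInvariant.isIntegral (DjTop k) (BRing c (⊤ : ValuationSubring k)) (c.Gal k)

include hP0 hQ0 in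
/-- `f ⊗ 1` integral over `D₀` ⟹ `f` integral over `Dj` -/
theorem isIntegral_of_isIntegral_incF {f : F}
    (hf : IsIntegral (BRing c (⊤ : ValuationSubring k)) (incF c k F f)) :
    IsIntegral (DjTop k) f := by
  letI := covTopAlgebra c k hP0 hQ0
  haveI := isIntegral_D0 c k hP0 hQ0
  haveI : IsScalarTower (DjTop k) (BRing c (⊤ : ValuationSubring k)) (RAlg c k F) :=
    IsScalarTower.of_algebraMap_eq fun d => by
      show algebraMap (RatFunc k) (RAlg c k F) (d : RatFunc k) =
        algebraMap (BRing c (⊤ : ValuationSubring k)) (RAlg c k F) (covTop c k hP0 hQ0 d)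
      rw [algebraMap_covTop, ← AlgHom.commutes (incF c k F)]
      rfl
  have h1 : IsIntegral (DjTop k) (incF c k F f) := isIntegral_trans _ hf
  exact (isIntegral_algHom_iff ((incF c k F).restrictScalars (DjTop k))
    (incF_injective c k F)).mp h1

/-- **`S^{H₀} = E`**: the invariants of `H₀` on `C_⊤` are the integral closure of `Dj` in `F`. -/
theorem isInvariant_E_S [FiniteDimensional (RatFunc k) F] :
    letI := algES c k F hP0 hQ0
    Algebra.IsInvariant (ETop k F) (CInt c F (⊤ : ValuationSubring k)) (c.Gal k) := by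
  letI := algES c k F hP0 hQ0
  refine ⟨fun s hs => ?_⟩
  have h1 : ∀ g : c.Gal k, g • (s : RAlg c k F) = s := fun g => by
    rw [← coe_smul_CInt, hs g]
  obtain ⟨f, hf⟩ := (fixed_iff c k F (s : RAlg c k F)).mp h1
  have hint : IsIntegral (DjTop k) f := by
    apply isIntegral_of_isIntegral_incF c k F hP0 hQ0
    rw [hf]
    exact s.2
  refine ⟨⟨f, hint⟩, ?_⟩
  apply Subtype.ext
  exact hf

end Invariant

/-! ### `H₀` acts faithfully on `D₀` -/

section Faithful

omit [c.Good k] in
/-- a `k`-algebra endomorphism of `k(μ)` fixing `μ` is the identity -/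
theorem algHom_eq_id_of_apply_mu (φ : MuLine c k →ₐ[k] MuLine c k)
    (h : φ (MuLine.mu c k) = MuLine.mu c k) (m : MuLine c k) : φ m = m := by
  have hp : ∀ p : k[X], φ (algebraMap k[X] (MuLine c k) p) = algebraMap k[X] (MuLine c k) p := by
    intro p
    have h2 : algebraMap k[X] (MuLine c k) p = aeval (MuLine.mu c k) p := by
      show algebraMap k[X] (RatFunc k) p = aeval (RatFunc.X : RatFunc k) p
      rw [← RatFunc.algebraMap_X, aeval_algebraMap_apply, aeval_X_left_apply]
    rw [h2, ← aeval_algHom_apply, h]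
  obtain ⟨p, q, hq, rfl⟩ : ∃ p q : k[X], q ≠ 0 ∧
      m = algebraMap k[X] (MuLine c k) p / algebraMap k[X] (MuLine c k) q := by
    refine ⟨RatFunc.num ((MuLine.of c k).symm m), RatFunc.denom ((MuLine.of c k).symm m),
      RatFunc.denom_ne_zero _, ?_⟩
    exact (RatFunc.num_div_denom ((MuLine.of c k).symm m)).symm
  rw [map_div₀, hp, hp]

variable [IsInvariantSubring (c.Gal k) (BRing c (⊤ : ValuationSubring k))]

/-- an element of `H₀` fixing `μ` is `1` -/
theorem gal_eq_of_apply_mu {g g' : c.Gal k}
    (h : g (MuLine.mu c k) = g' (MuLine.mu c k)) : g = g' := by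
  have h1 : ∀ m, (g.trans g'.symm) m = m := by
    intro m
    refine algHom_eq_id_of_apply_mu c k
      (((g.trans g'.symm : c.Gal k) : MuLine c k →ₐ[RatFunc k] MuLine c k).restrictScalars k)
      ?_ m
    show g'.symm (g (MuLine.mu c k)) = MuLine.mu c k
    rw [h, AlgEquiv.symm_apply_apply]
  ext m
  have h2 : g'.symm (g m) = m := h1 m
  rw [← h2, AlgEquiv.apply_symm_apply, h2]

theorem faithfulSMul_gal_D0 :
    FaithfulSMul (c.Gal k) (BRing c (⊤ : ValuationSubring k)) := by
  refine ⟨fun {g g'} h => ?_⟩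
  apply gal_eq_of_apply_mu c k
  have := congrArg Subtype.val (h (muB c (⊤ : ValuationSubring k)))
  simpa using this

end Faithful

end Fermat.Agent.S18.C.SpecialInstA
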