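import Mathlib
import Fermat.Agent.S18.C.CoverDifferent
import Fermat.Agent.S18.C.BRingTop
import Fermat.Agent.S18.C.FinEt
import Fermat.Agent.S18.C.BaseChangeR
import Fermat.Agent.S18.B.SeparableFk

/-!
# PROJECT H (S18), block C, C8b instance package (P2) for `SpecialCount.special_count`

`k` a field, `Dj := discRing (⊤ : ValuationSubring k) = k[j]_(j) ⊆ RatFunc k`,
`D₀ := BRing c ⊤ = k[μ]_(μ) ⊆ MuLine c k`, `F` a finite separable extension of `k(j) = RatFunc k`,
`E := integralClosure Dj F`.

* abstract: `isIntegral_of_isGaloisGroup`, `isIntegralClosure_of_isGaloisGroup`,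
  `finite_of_isGaloisGroup` (`B` integrally closed, `B^G = A` ⟹ `B` is the integral closure of `A`
  in `Frac B`, finite over `A` if `Frac B / Frac A` is finite separable);
* `residueEquiv V : κ(discRing V) ≃+* κ(V)`, `residueDjEquiv k : κ(Dj) ≃+* k`,
  instance `IsAlgClosed (ResidueField Dj)` for `[IsAlgClosed k]`;
* `isFractionRing_E`, `faithfulSMul_E`, `isDedekindDomain_E`, `finite_E`,
  `isSeparable_fractionRing_E` (the `FractionRing` form of separability, with the local instances
  `FractionRing.liftAlgebra` of `SpecialCount` / `TowerCount`);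
* `isIntegral_D0`, `finite_D0`, `finite_D0_canonical` (`Module.Finite Dj D₀`);
* `finite_S` (`Module.Finite D₀ S` from `FinEt`);
* `isSeparable_rat`, `isSeparable_ratFunc_Fk`, `finiteDimensional_ratFunc_Fk` : the hypotheses on
  `F := F_k = modularFunctionFieldFullC k N` (with `ModularInst.algFk`), `k` perfect.
-/

set_option autoImplicit false
set_option linter.unusedSectionVars false
set_option linter.style.haveILetI false

noncomputable section

namespace Fermat.Agent.S18.C.SpecialInstB

open Polynomial
open Fermat.Agent.S18.C.Defs Fermat.Agent.S18.C.SurfaceDefs Fermat.Agent.S18.C.DiscRingLocal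
  Fermat.Agent.S18.C.BRingLocal Fermat.Agent.S18.C.CoverDifferent

/-! ### Abstract part -/

section Abstract

variable (G A B K L : Type*) [Group G] [Finite G] [CommRing A] [CommRing B] [IsDomain B]
  [IsIntegrallyClosed B] [Algebra A B] [MulSemiringAction G B] [IsGaloisGroup G A B]
  [Field K] [Field L] [Algebra K L] [Algebra A K] [Algebra B L] [Algebra A L]
  [IsFractionRing B L] [IsScalarTower A K L] [IsScalarTower A B L]

include G in
/-- the invariants of a finite group: the big ring is integral over the small one -/
theorem isIntegral_of_isGaloisGroup : Algebra.IsIntegral A B := by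
  haveI := IsGaloisGroup.commutes (G := G) (A := A) (B := B)
  haveI := IsGaloisGroup.isInvariant (G := G) (A := A) (B := B)
  exact Algebra.IsInvariant.isIntegral A B G

include G in
/-- an integrally closed domain `B` with `B^G = A` is the integral closure of `A` in `Frac B` -/
theorem isIntegralClosure_of_isGaloisGroup : IsIntegralClosure B A L where
  algebraMap_injective := IsFractionRing.injective B L
  isIntegral_iff {x} := by
    haveI := isIntegral_of_isGaloisGroup G A B
    constructor
    · intro hx
      exact IsIntegrallyClosed.isIntegral_iff.mp hx.tower_top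
    · rintro ⟨y, rfl⟩
      exact (Algebra.IsIntegral.isIntegral (R := A) y).algebraMap

include G K L in
/-- ... hence finite over `A` when `A` is integrally closed noetherian and `L/K` is finite
separable -/
theorem finite_of_isGaloisGroup [IsDomain A] [IsFractionRing A K] [IsIntegrallyClosed A]
    [IsNoetherianRing A]
    [FiniteDimensional K L] [Algebra.IsSeparable K L] : Module.Finite A B := by
  haveI := isIntegralClosure_of_isGaloisGroup G A B L
  exact IsIntegralClosure.finite A K L B

end Abstract

/-! ### The residue field of `discRing V` -/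

section Residue

variable {K : Type*} [Field K] (V : ValuationSubring K)

/-- the residue field of `V[μ]_(𝔪_V, μ)` is the residue field of `V` -/
def residueEquiv : IsLocalRing.ResidueField (discRing V) ≃+* IsLocalRing.ResidueField ↥V :=
  (Ideal.quotEquivOfEq (ker_evClosed V).symm).trans
    (RingHom.quotientKerEquivOfSurjective (evClosed_surjective V))

theorem residueEquiv_residue (z : discRing V) :
    residueEquiv V (IsLocalRing.residue (discRing V) z) = evClosed V z := rfl

end Residue

section Top

universe u

variable (k : Type u) [Field k]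

theorem residue_top_bijective :
    Function.Bijective (IsLocalRing.residue ↥(⊤ : ValuationSubring k)) := by
  refine ⟨?_, IsLocalRing.residue_surjective⟩
  rw [injective_iff_map_eq_zero]
  intro x hx
  rw [IsLocalRing.residue_eq_zero_iff, BRingTop.maximalIdeal_top_eq_bot, Ideal.mem_bot] at hx
  exact hx

/-- the trivial valuation ring is the field itself -/
def topEquiv : ↥(⊤ : ValuationSubring k) ≃+* k where
  toFun x := x
  invFun x := ⟨x, ValuationSubring.mem_top x⟩
  left_inv _ := rfl
  right_inv _ := rfl
  map_mul' _ _ := rfl
  map_add' _ _ := rfl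

/-- the residue field of the trivial valuation ring is the field itself -/
def residueTopEquiv : IsLocalRing.ResidueField ↥(⊤ : ValuationSubring k) ≃+* k :=
  (RingEquiv.ofBijective _ (residue_top_bijective k)).symm.trans (topEquiv k)

/-- **the residue field of `Dj = k[j]_(j)` is `k`** -/
def residueDjEquiv : IsLocalRing.ResidueField (discRing (⊤ : ValuationSubring k)) ≃+* k :=
  (residueEquiv (⊤ : ValuationSubring k)).trans (residueTopEquiv k)

instance instIsAlgClosedResidueDj [IsAlgClosed k] :
    IsAlgClosed (IsLocalRing.ResidueField (discRing (⊤ : ValuationSubring k))) :=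
  IsAlgClosed.of_ringEquiv k _ (residueDjEquiv k).symm

end Top

/-! ### `E`: the integral closure of `Dj = k[j]_(j)` in a finite separable extension of `k(j)` -/

section E

attribute [local instance] FractionRing.liftAlgebra FractionRing.isScalarTower_liftAlgebra

variable (k : Type*) [Field k] (F : Type*) [Field F] [Algebra (RatFunc k) F]
  [FiniteDimensional (RatFunc k) F]

local notation "Dj" => discRing (⊤ : ValuationSubring k)

theorem isFractionRing_E : IsFractionRing (integralClosure Dj F) F :=
  integralClosure.isFractionRing_of_finite_extension (RatFunc k) F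

theorem algebraMap_Dj_injective : Function.Injective (algebraMap Dj F) := by
  rw [IsScalarTower.algebraMap_eq Dj (RatFunc k) F]
  exact (algebraMap (RatFunc k) F).injective.comp (IsFractionRing.injective Dj (RatFunc k))

theorem faithfulSMul_E : FaithfulSMul Dj (integralClosure Dj F) := by
  rw [faithfulSMul_iff_algebraMap_injective]
  intro x y h
  apply algebraMap_Dj_injective k F
  have := congrArg (algebraMap (integralClosure Dj F) F) h
  rwa [← IsScalarTower.algebraMap_apply, ← IsScalarTower.algebraMap_apply] at this

variable [Algebra.IsSeparable (RatFunc k) F]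

theorem isDedekindDomain_E : IsDedekindDomain (integralClosure Dj F) :=
  integralClosure.isDedekindDomain Dj (RatFunc k) F

theorem finite_E : Module.Finite Dj (integralClosure Dj F) :=
  IsIntegralClosure.finite Dj (RatFunc k) F (integralClosure Dj F)

/-- separability of `F / k(j)` in the `FractionRing` form of `SpecialCount` / `TowerCount` -/
theorem isSeparable_fractionRing_E [FaithfulSMul Dj (integralClosure Dj F)] :
    Algebra.IsSeparable (FractionRing Dj) (FractionRing (integralClosure Dj F)) := by
  haveI := isFractionRing_E k F
  have H : RingHom.comp (algebraMap (FractionRing Dj) (FractionRing (integralClosure Dj F)))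
      ↑(FractionRing.algEquiv Dj (RatFunc k)).symm.toRingEquiv =
        RingHom.comp ↑(FractionRing.algEquiv (integralClosure Dj F) F).symm.toRingEquiv
          (algebraMap (RatFunc k) F) := by
    apply IsLocalization.ringHom_ext (nonZeroDivisors Dj)
    ext x
    simp only [RingHom.coe_comp, RingHom.coe_coe,
      AlgEquiv.coe_ringEquiv, Function.comp_apply, AlgEquiv.commutes,
      ← IsScalarTower.algebraMap_apply]
    rw [IsScalarTower.algebraMap_apply Dj (integralClosure Dj F) F, AlgEquiv.commutes,
      ← IsScalarTower.algebraMap_apply]
  exact Algebra.IsSeparable.of_equiv_equiv _ _ H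

end E

/-! ### `D₀ = k[μ]_(μ)` is finite over `Dj = k[j]_(j)` -/

section D0

variable (c : Cover) (k : Type*) [Field k] [c.Good k]
  (hP0 : (c.PK k).coeff 0 = 0) (hQ0 : (c.QK k).coeff 0 ≠ 0)
  [Algebra (discRing (⊤ : ValuationSubring k)) (BRing c (⊤ : ValuationSubring k))]
  (halg : ∀ f, algebraMap (discRing (⊤ : ValuationSubring k)) (BRing c (⊤ : ValuationSubring k)) f =
    covTop c k hP0 hQ0 f)
  [IsInvariantSubring (c.Gal k) (BRing c (⊤ : ValuationSubring k))]
  [IsGalois (RatFunc k) (MuLine c k)]

include halg in
/-- `D₀` is the integral closure of `Dj` in the `μ`-line (the point `μ = 0` is the only point over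
`j = 0`, since `H₀` preserves `D₀`) -/
theorem isIntegral_D0 :
    Algebra.IsIntegral (discRing (⊤ : ValuationSubring k)) (BRing c (⊤ : ValuationSubring k)) := by
  haveI := isGaloisGroup_top c k hP0 hQ0 halg
  exact isIntegral_of_isGaloisGroup (c.Gal k) _ _

include halg in
/-- **`D₀` is finite over `Dj`.** -/
theorem finite_D0 :
    Module.Finite (discRing (⊤ : ValuationSubring k)) (BRing c (⊤ : ValuationSubring k)) := by
  haveI := isGaloisGroup_top c k hP0 hQ0 halg
  letI := djMuAlgebra c k
  haveI : IsScalarTower (discRing (⊤ : ValuationSubring k)) (RatFunc k) (MuLine c k) :=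
    IsScalarTower.of_algebraMap_eq' rfl
  haveI : IsScalarTower (discRing (⊤ : ValuationSubring k)) (BRing c (⊤ : ValuationSubring k))
      (MuLine c k) := IsScalarTower.of_algebraMap_eq fun f => by
    rw [halg]
    rfl
  exact finite_of_isGaloisGroup (c.Gal k) (discRing (⊤ : ValuationSubring k))
    (BRing c (⊤ : ValuationSubring k)) (RatFunc k) (MuLine c k)

omit [Algebra (discRing (⊤ : ValuationSubring k)) (BRing c (⊤ : ValuationSubring k))] in
/-- `finite_D0` for the canonical algebra structure `covTopAlgebra`. -/
theorem finite_D0_canonical :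
    letI := covTopAlgebra c k hP0 hQ0
    Module.Finite (discRing (⊤ : ValuationSubring k)) (BRing c (⊤ : ValuationSubring k)) := by
  letI := covTopAlgebra c k hP0 hQ0
  exact finite_D0 c k hP0 hQ0 (fun _ => rfl)

end D0

/-! ### `S` finite over `D₀` -/

section S

variable {D0 S : Type*} [CommRing D0] [CommRing S] [Algebra D0 S]

theorem finite_S (hS : Fermat.Agent.S18.C.FinEt.FinEt D0 S) : Module.Finite D0 S := hS.finite

end S

/-! ### The modular function field `F_k` over `k(j)` -/

section Fk

open IntermediateField Fermat.Agent.S18.A ModularCurve ModularCurve.IgusaScheme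

/-- separability over `K(x)` in the `RatFunc K` presentation (`X ↦ x`) -/
theorem isSeparable_rat {K F : Type*} [Field K] [Field F] [Algebra K F] {x : F}
    (hx : Transcendental K x) [Algebra (RatFunc K) F]
    (halg : ∀ a : RatFunc K, algebraMap (RatFunc K) F a = Chart.evalRat hx a)
    (hsep : Algebra.IsSeparable K⟮x⟯ F) : Algebra.IsSeparable (RatFunc K) F := by
  have hxx : x ∈ K⟮x⟯ := mem_adjoin_simple_self K x
  refine Algebra.IsSeparable.of_equiv_equiv
    (Chart.ratEquivAdjoin hx hxx (Chart.evalRat_X hx)).symm (RingEquiv.refl F) ?_
  ext a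
  change algebraMap (RatFunc K) F ((Chart.ratEquivAdjoin hx hxx (Chart.evalRat_X hx)).symm a) =
    (a : F)
  rw [halg, Chart.evalRat_ratEquivAdjoin_symm]

variable (k : Type*) [Field k] (N : ℕ) [NeZero N]

/-- **`F_k` is separable over the `j`-line `RatFunc k`** (`k` perfect). -/
theorem isSeparable_ratFunc_Fk [PerfectField k] :
    Algebra.IsSeparable (RatFunc k) ↥(modularFunctionFieldFullC k N) :=
  isSeparable_rat (Fermat.Agent.S18.B.FkBasics.transcendental_jk k N) (fun _ => rfl)
    (Fermat.Agent.S18.B.SeparableFk.isSeparable_jk k N)

/-- `F_k` is finite over the `j`-line `RatFunc k`. -/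
theorem finiteDimensional_ratFunc_Fk :
    FiniteDimensional (RatFunc k) ↥(modularFunctionFieldFullC k N) :=
  (Fermat.Agent.S18.C.BaseChangeR.finrank_ratFunc_fullC k N).1

end Fk

end Fermat.Agent.S18.C.SpecialInstB
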