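import Mathlib
import Fermat.Agent.S18.C.SpecialCount
import Fermat.Agent.S18.C.DiscRingChart

/-!
# PROJECT H (S18), block C / PROJECT I (S37), tame count: places over the base point are the
`H`-orbits on the maximal spectrum of the special fibre (no differents)

In the instance context of `SpecialCount.below` / `below_eq_iff` (`Dj ⊆ D0` discrete valuation
rings, `E` Dedekind finite over `Dj`, `S` finite over `D0`, a finite group `H` acting on `S` with
`S^H = E`):

* `finite_maximalSpectrum` : `S` is semilocal;
* `isIntegral_E_S` : `S` is integral over `E`;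
* **`orbitsEquiv`** : `MulAction.orbitRel.Quotient H (MaximalSpectrum S) ≃ HeightOneSpectrum E`;
* `card_orbits_eq_card_heightOneSpectrum`;
* `sum_card_fixed_eq` (Burnside) :
  `∑ g, #{x : MaximalSpectrum S // g • x = x} = #(HeightOneSpectrum E) * |H|`;

and for the chart `Dj := DiscRingChart.DjTop K`, `E := DiscRingChart.ETop K F` of a function field
`F/K` at `x = 0`:

* **`card_orbits_eq_card_zeros`** :
  `Nat.card (orbitRel.Quotient H (MaximalSpectrum S)) = (FibreSep.zeros hx hsep 0).card`;
* **`sum_card_fixed_eq_card_zeros`** :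
  `∑ g, #{x // g • x = x} = (FibreSep.zeros hx hsep 0).card * |H|`.
-/

set_option autoImplicit false
set_option linter.unusedSectionVars false
set_option linter.style.haveILetI false

namespace Fermat.Agent.S18.C.SpecialOrbits

open IsLocalRing Module IsDedekindDomain HeightOneSpectrum
open Fermat.Agent.S18.A Fermat.Agent.S18.C.SpecialCount
open scoped Pointwise

attribute [local instance] maxSpecAction

section Abstract

variable (Dj D0 E : Type*) {S H : Type*}
  [CommRing Dj] [IsDomain Dj] [IsDiscreteValuationRing Dj]
  [CommRing D0] [IsDomain D0] [IsDiscreteValuationRing D0]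
  [CommRing E] [IsDedekindDomain E] [CommRing S]
  [Algebra Dj D0] [Algebra Dj E] [Algebra D0 S] [Algebra E S] [Algebra Dj S]
  [IsScalarTower Dj D0 S] [IsScalarTower Dj E S]
  [Module.Finite Dj D0] [FaithfulSMul Dj D0]
  [Module.Finite Dj E] [FaithfulSMul Dj E]
  [Module.Finite D0 S] [FaithfulSMul E S]
  [Group H] [Fintype H] [MulSemiringAction H S]
  [SMulCommClass H E S] [Algebra.IsInvariant E S H]

include Dj D0 in
/-- `S` is semilocal -/
theorem finite_maximalSpectrum : Finite (MaximalSpectrum S) := by
  haveI : Module.Finite Dj S := Module.Finite.trans D0 S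
  have h := FinEtLocal.finite_isMaximal Dj S
  have hinj : Function.Injective (fun x : MaximalSpectrum S =>
      (⟨x.asIdeal, x.isMaximal⟩ : {x : Ideal S | x.IsMaximal})) := by
    intro x x' hxx'
    exact MaximalSpectrum.ext (congrArg Subtype.val hxx')
  haveI := h.to_subtype
  exact Finite.of_injective _ hinj

include Dj D0 in
/-- `S` is integral over `E` -/
theorem isIntegral_E_S : Algebra.IsIntegral E S := by
  haveI : Module.Finite Dj S := Module.Finite.trans D0 S
  haveI : Algebra.IsIntegral Dj S := Algebra.IsIntegral.of_finite Dj S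
  exact Algebra.IsIntegral.tower_top (R := Dj)

/-- **the primes of `E` are the `H`-orbits on the maximal spectrum of `S`** -/
noncomputable def orbitsEquiv :
    MulAction.orbitRel.Quotient H (MaximalSpectrum S) ≃ HeightOneSpectrum E :=
  haveI := isIntegral_E_S Dj D0 E (S := S)
  Equiv.ofBijective
    (Quotient.lift (fun x : MaximalSpectrum S => below Dj D0 E x.asIdeal)
      (fun x x' (h : x ∈ MulAction.orbit H x') => ((below_eq_iff Dj D0 E x' x).mpr h).symm))
    ⟨by
      intro q q'
      induction q using Quotient.inductionOn with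
      | h x =>
        induction q' using Quotient.inductionOn with
        | h x' =>
          intro h
          exact Quotient.sound (show x ∈ MulAction.orbit H x' from
            (below_eq_iff Dj D0 E x' x).mp h.symm),
    by
      intro Q
      obtain ⟨x, hx⟩ := below_surjective Dj D0 E (S := S) Q
      exact ⟨Quotient.mk _ x, hx⟩⟩

theorem orbitsEquiv_mk (x : MaximalSpectrum S) :
    orbitsEquiv Dj D0 E (H := H) (Quotient.mk _ x) = below Dj D0 E x.asIdeal := rfl

include Dj D0 in
theorem card_orbits_eq_card_heightOneSpectrum :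
    Nat.card (MulAction.orbitRel.Quotient H (MaximalSpectrum S)) =
      Nat.card (HeightOneSpectrum E) :=
  Nat.card_congr (orbitsEquiv Dj D0 E)

include Dj D0 in
/-- **Burnside** on the maximal spectrum of the special fibre -/
theorem sum_card_fixed_eq :
    ∑ g : H, Nat.card {x : MaximalSpectrum S // g • x = x} =
      Nat.card (HeightOneSpectrum E) * Fintype.card H := by
  classical
  haveI := finite_maximalSpectrum Dj D0 (S := S)
  haveI : Fintype (MaximalSpectrum S) := Fintype.ofFinite _
  haveI : Fintype (MulAction.orbitRel.Quotient H (MaximalSpectrum S)) := Fintype.ofFinite _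
  have h := MulAction.sum_card_fixedBy_eq_card_orbits_mul_card_group H (MaximalSpectrum S)
  rw [← card_orbits_eq_card_heightOneSpectrum Dj D0 E (S := S) (H := H), Nat.card_eq_fintype_card]
  rw [← h]
  refine Finset.sum_congr rfl fun g _ => ?_
  rw [Nat.card_eq_fintype_card]
  rfl

end Abstract

section Chart

open AlgebraicCurve IntermediateField Fermat.Agent.S24.FF Fermat.Agent.S18.A.Chart
  Fermat.Agent.S18.C.DiscRingChart

universe u w

variable {K : Type w} {F : Type u} [Field K] [Field F] [Algebra K F] {x : F}
  [Algebra (RatFunc K) F] [IsAlgClosed K]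
  (D0 : Type*) {S H : Type*}
  [IsDiscreteValuationRing (DjTop K)]
  [CommRing D0] [IsDomain D0] [IsDiscreteValuationRing D0]
  [IsDedekindDomain (ETop K F)] [CommRing S]
  [Algebra (DjTop K) D0] [Algebra D0 S] [Algebra (ETop K F) S] [Algebra (DjTop K) S]
  [IsScalarTower (DjTop K) D0 S] [IsScalarTower (DjTop K) (ETop K F) S]
  [Module.Finite (DjTop K) D0] [FaithfulSMul (DjTop K) D0]
  [Module.Finite (DjTop K) (ETop K F)] [FaithfulSMul (DjTop K) (ETop K F)]
  [Module.Finite D0 S] [FaithfulSMul (ETop K F) S]
  [Group H] [Fintype H] [MulSemiringAction H S]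
  [SMulCommClass H (ETop K F) S] [Algebra.IsInvariant (ETop K F) S H]

include D0 in
/-- **the places of `F` over `x = 0` are the `H`-orbits on the maximal spectrum of `S`** -/
theorem card_orbits_eq_card_zeros (hx : IsFF K x) (hsep : Algebra.IsSeparable K⟮x⟯ F)
    (halg : ∀ a : RatFunc K, algebraMap (RatFunc K) F a = evalRat hx.transcendental a) :
    Nat.card (MulAction.orbitRel.Quotient H (MaximalSpectrum S)) =
      (FibreSep.zeros hx hsep 0).card := by
  rw [card_orbits_eq_card_heightOneSpectrum (DjTop K) D0 (ETop K F)]
  obtain ⟨φ, -⟩ := exists_equiv_diffExpAt_ETop hx hsep halg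
  rw [Nat.card_congr φ, Nat.card_eq_fintype_card, Fintype.card_coe]

include D0 in
/-- Burnside form -/
theorem sum_card_fixed_eq_card_zeros (hx : IsFF K x) (hsep : Algebra.IsSeparable K⟮x⟯ F)
    (halg : ∀ a : RatFunc K, algebraMap (RatFunc K) F a = evalRat hx.transcendental a) :
    ∑ g : H, Nat.card {y : MaximalSpectrum S // g • y = y} =
      (FibreSep.zeros hx hsep 0).card * Fintype.card H := by
  rw [sum_card_fixed_eq (DjTop K) D0 (ETop K F),
    ← card_orbits_eq_card_heightOneSpectrum (DjTop K) D0 (ETop K F) (S := S) (H := H),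
    card_orbits_eq_card_zeros D0 hx hsep halg]

end Chart

end Fermat.Agent.S18.C.SpecialOrbits
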